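/-
P5 / S27 (helper25, architect): TOP-LEVEL INTERFACE + CONDITIONAL ASSEMBLY.

`s27_of_statements` proves the frozen statement S27 (number of `ℓ^k`-torsion classes of `Pic0`
of a function field over an algebraically closed field of characteristic `0`) from three
statements:

* `ComplexCount`         : the count over `ℂ` (analytic core, modules MOD/COMB/MONO/SURJ/RR);
* `ExistsComplexModel`   : every function field over a COUNTABLE algebraically closed field of
                           characteristic `0` has a complex model (constant field extension to `ℂ`):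
                           same genus, `Pic0` injects, torsion classes descend (module LEF);
* `ExistsCountableModel` : every finite set of divisor classes of a function field over `K` is
                           defined over a countable algebraically closed subfield (module LEF).
-/
import Mathlib
import Fermat.Prelude.Def_AlgebraicCurve_DivisorClassGroup
import Fermat.Prelude.Def_AlgebraicCurve_IsCurveOver
import Fermat.Prelude.Def_AlgebraicCurve_Repartitions

set_option autoImplicit false
set_option linter.style.haveILetI false

open AlgebraicCurve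

namespace Fermat.Agent.P5.helper25

universe u v

/-- **[AN]** The analytic core: the count of `n`-torsion over `ℂ` (function fields in
universe `0`). -/
def ComplexCountAt (n : ℕ) : Prop :=
  ∀ (F : Type) [Field F] [Algebra ℂ F] [IsCurveOver ℂ F] [Algebra.EssFiniteType ℂ F],
    Nat.card (Pic0.torsion ℂ F n) = n ^ (2 * genusFF ℂ F)

/-- **[AN]** The analytic core for all prime powers (this is what module CNT delivers). -/
def ComplexCount : Prop :=
  ∀ (ℓ : ℕ) (k : ℕ), ℓ.Prime → ComplexCountAt (ℓ ^ k)

/-- A *transfer datum* from the function field `F/K` to the function field `F'/K'`: an additive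
map on divisor classes of degree `0` (the conorm of a constant field extension), injective, with
equal genus. -/
structure Transfer (K : Type*) (F : Type*) [Field K] [Field F] [Algebra K F]
    (K' : Type*) (F' : Type*) [Field K'] [Field F'] [Algebra K' F'] where
  /-- the conorm on divisor classes of degree `0` -/
  con : Pic0 K F →+ Pic0 K' F'
  con_injective : Function.Injective con
  genus_eq : genusFF K' F' = genusFF K F

/-- A complex model of `F/K`: a function field `FC/ℂ` in universe `0` with a transfer datum
such that torsion classes descend as soon as the torsion over `ℂ` is finite. -/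
structure ComplexModel (K : Type u) (F : Type v) [Field K] [Field F] [Algebra K F] where
  FC : Type
  [field : Field FC]
  [alg : Algebra ℂ FC]
  [curve : IsCurveOver ℂ FC]
  [ess : Algebra.EssFiniteType ℂ FC]
  tr : Transfer K F ℂ FC
  descent : ∀ n : ℕ, 0 < n → Finite (Pic0.torsion ℂ FC n) →
    ∀ c ∈ Pic0.torsion ℂ FC n, ∃ c₀ : Pic0 K F, tr.con c₀ = c

/-- A countable model of (a finite set `S` of classes of) `F/K`. -/
structure CountableModel (K : Type u) (F : Type v) [Field K] [Field F] [Algebra K F]
    (S : Finset (Pic0 K F)) where
  K₀ : Type u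
  F₀ : Type v
  [fieldK : Field K₀]
  [fieldF : Field F₀]
  [alg : Algebra K₀ F₀]
  [algClosed : IsAlgClosed K₀]
  [charZero : CharZero K₀]
  [curve : IsCurveOver K₀ F₀]
  [ess : Algebra.EssFiniteType K₀ F₀]
  [countable : Countable K₀]
  tr : Transfer K₀ F₀ K F
  mem_range : ∀ c ∈ S, ∃ c₀ : Pic0 K₀ F₀, tr.con c₀ = c

/-- **[LEF-C]** complex models exist for countable constant fields. -/
def ExistsComplexModel : Prop :=
  ∀ (K : Type u) (F : Type v) [Field K] [Field F] [Algebra K F] [IsAlgClosed K] [CharZero K]
    [IsCurveOver K F] [Algebra.EssFiniteType K F] [Countable K], Nonempty (ComplexModel K F)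

/-- **[LEF-K]** countable models exist. -/
def ExistsCountableModel : Prop :=
  ∀ (K : Type u) (F : Type v) [Field K] [Field F] [Algebra K F] [IsAlgClosed K] [CharZero K]
    [IsCurveOver K F] [Algebra.EssFiniteType K F] (S : Finset (Pic0 K F)),
    Nonempty (CountableModel K F S)

section transfer

variable {K : Type*} {F : Type*} [Field K] [Field F] [Algebra K F]
variable {K' : Type*} {F' : Type*} [Field K'] [Field F'] [Algebra K' F']

theorem Transfer.mem_torsion_iff (T : Transfer K F K' F') (n : ℕ) (c : Pic0 K F) :
    T.con c ∈ Pic0.torsion K' F' n ↔ c ∈ Pic0.torsion K F n := by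
  rw [Pic0.mem_torsion, Pic0.mem_torsion, ← map_zsmul]
  constructor
  · intro h
    exact T.con_injective (by rw [h, map_zero])
  · intro h
    rw [h, map_zero]

end transfer

/-- The count for a function field over a countable constant field, from the complex count. -/
theorem card_torsion_of_countable {n : ℕ} (hn : 0 < n) (hAN : ComplexCountAt n)
    (hC : ExistsComplexModel.{u, v})
    (K : Type u) (F : Type v) [Field K] [Field F] [Algebra K F] [IsAlgClosed K] [CharZero K]
    [IsCurveOver K F] [Algebra.EssFiniteType K F] [Countable K] :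
    Nat.card (Pic0.torsion K F n) = n ^ (2 * genusFF K F) := by
  obtain ⟨M⟩ := hC K F
  letI := M.field
  letI := M.alg
  haveI := M.curve
  haveI := M.ess
  have hcard : Nat.card (Pic0.torsion ℂ M.FC n) = n ^ (2 * genusFF ℂ M.FC) := hAN M.FC
  have hpos : 0 < Nat.card (Pic0.torsion ℂ M.FC n) := by
    rw [hcard]; exact pow_pos hn _
  haveI hfin : Finite (Pic0.torsion ℂ M.FC n) := (Nat.card_pos_iff.mp hpos).2
  -- the bijection induced by `con`
  let φ : Pic0.torsion K F n → Pic0.torsion ℂ M.FC n := fun c =>
    ⟨M.tr.con c.1, (M.tr.mem_torsion_iff n c.1).mpr c.2⟩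
  have hφ : Function.Bijective φ := by
    constructor
    · intro a b hab
      have : M.tr.con a.1 = M.tr.con b.1 := congrArg Subtype.val hab
      exact Subtype.ext (M.tr.con_injective this)
    · rintro ⟨c, hc⟩
      obtain ⟨c₀, hc₀⟩ := M.descent n hn hfin c hc
      refine ⟨⟨c₀, (M.tr.mem_torsion_iff n c₀).mp (hc₀ ▸ hc)⟩, Subtype.ext hc₀⟩
  rw [Nat.card_congr (Equiv.ofBijective φ hφ), hcard, M.tr.genus_eq]

/-- **Lefschetz transfer**: the count over any algebraically closed field of characteristic `0`. -/
theorem card_torsion_of_statements {n : ℕ} (hn : 0 < n) (hAN : ComplexCountAt n)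
    (hC : ExistsComplexModel.{u, v}) (hK : ExistsCountableModel.{u, v})
    (K : Type u) (F : Type v) [Field K] [Field F] [Algebra K F] [IsAlgClosed K] [CharZero K]
    [IsCurveOver K F] [Algebra.EssFiniteType K F] :
    Nat.card (Pic0.torsion K F n) = n ^ (2 * genusFF K F) := by
  classical
  set N := n ^ (2 * genusFF K F) with hN
  -- upper bound on finite subsets
  have hupper : ∀ S : Finset (Pic0 K F), (∀ c ∈ S, c ∈ Pic0.torsion K F n) → S.card ≤ N := by
    intro S hS
    obtain ⟨M⟩ := hK K F S
    letI := M.fieldK
    letI := M.fieldF
    letI := M.alg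
    haveI := M.algClosed
    haveI := M.charZero
    haveI := M.curve
    haveI := M.ess
    haveI := M.countable
    have hcard := card_torsion_of_countable hn hAN hC M.K₀ M.F₀
    rw [← M.tr.genus_eq] at hcard
    have hpos : 0 < Nat.card (Pic0.torsion M.K₀ M.F₀ n) := by
      rw [hcard]; exact pow_pos hn _
    haveI hfin : Finite (Pic0.torsion M.K₀ M.F₀ n) := (Nat.card_pos_iff.mp hpos).2
    haveI := Fintype.ofFinite (Pic0.torsion M.K₀ M.F₀ n)
    -- `S` is contained in the image of the torsion of the countable model
    have hsub : S ⊆ (Finset.univ : Finset (Pic0.torsion M.K₀ M.F₀ n)).image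
        (fun c => M.tr.con c.1) := by
      intro c hc
      obtain ⟨c₀, hc₀⟩ := M.mem_range c hc
      have hc₀t : c₀ ∈ Pic0.torsion M.K₀ M.F₀ n :=
        (M.tr.mem_torsion_iff n c₀).mp (hc₀ ▸ hS c hc)
      exact Finset.mem_image.mpr ⟨⟨c₀, hc₀t⟩, Finset.mem_univ _, hc₀⟩
    calc S.card ≤ ((Finset.univ : Finset (Pic0.torsion M.K₀ M.F₀ n)).image
          (fun c => M.tr.con c.1)).card := Finset.card_le_card hsub
      _ ≤ (Finset.univ : Finset (Pic0.torsion M.K₀ M.F₀ n)).card := Finset.card_image_le
      _ = Nat.card (Pic0.torsion M.K₀ M.F₀ n) := by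
          rw [Finset.card_univ, Nat.card_eq_fintype_card]
      _ = N := hcard
  -- finiteness
  have hfinite : (Pic0.torsion K F n : Set (Pic0 K F)).Finite := by
    by_contra hinf
    obtain ⟨S, hSsub, hScard⟩ := (Set.not_finite.mp hinf).exists_subset_card_eq (N + 1)
    have := hupper S (fun c hc => hSsub hc)
    omega
  haveI : Finite (Pic0.torsion K F n) := hfinite
  haveI := Fintype.ofFinite (Pic0.torsion K F n)
  apply le_antisymm
  · -- upper bound
    have h := hupper ((Finset.univ : Finset (Pic0.torsion K F n)).image Subtype.val)
      (by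
        intro c hc
        obtain ⟨c', -, rfl⟩ := Finset.mem_image.mp hc
        exact c'.2)
    rw [Finset.card_image_of_injective _ Subtype.val_injective, Finset.card_univ] at h
    rw [Nat.card_eq_fintype_card]
    exact h
  · -- lower bound
    obtain ⟨M⟩ := hK K F ∅
    letI := M.fieldK
    letI := M.fieldF
    letI := M.alg
    haveI := M.algClosed
    haveI := M.charZero
    haveI := M.curve
    haveI := M.ess
    haveI := M.countable
    have hcard := card_torsion_of_countable hn hAN hC M.K₀ M.F₀
    rw [← M.tr.genus_eq] at hcard
    rw [hN, ← hcard]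
    let φ : Pic0.torsion M.K₀ M.F₀ n → Pic0.torsion K F n := fun c =>
      ⟨M.tr.con c.1, (M.tr.mem_torsion_iff n c.1).mpr c.2⟩
    have hφ : Function.Injective φ := by
      intro a b hab
      have : M.tr.con a.1 = M.tr.con b.1 := congrArg Subtype.val hab
      exact Subtype.ext (M.tr.con_injective this)
    exact Nat.card_le_card_of_injective φ hφ

/-- **S27 from the three top-level statements.** -/
theorem s27_of_statements (hAN : ComplexCount) (hC : ExistsComplexModel.{u, v})
    (hK : ExistsCountableModel.{u, v})
    (K : Type u) (F : Type v) [Field K] [Field F] [Algebra K F] [IsAlgClosed K] [CharZero K]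
    [IsCurveOver K F] [Algebra.EssFiniteType K F]
    (ℓ : ℕ) [Fact ℓ.Prime] (k : ℕ) :
    Nat.card (Pic0.torsion K F (ℓ ^ k)) = ℓ ^ (2 * genusFF K F * k) := by
  have h := card_torsion_of_statements (pow_pos (Fact.out : ℓ.Prime).pos k)
    (hAN ℓ k Fact.out) hC hK K F
  rw [h, ← pow_mul]
  congr 1
  ring

end Fermat.Agent.P5.helper25
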