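import Mathlib
import Fermat.Prelude.Def_AlgebraicCurve_IsCurveOver
import Fermat.Agent.S24.helper82_FFBasic

/-!
# P5 / RR-BASE (helper42): a separating transcendental element

A function field in the sense of S27 (`IsCurveOver K F`, `Algebra.EssFiniteType K F`, `K`
algebraically closed) contains a transcendental element `x` such that `F / K(x)` is finite
and separable.  No hypothesis on the characteristic.
-/

set_option autoImplicit false

namespace Fermat.Agent.P5.helper42

open AlgebraicCurve KaehlerDifferential IntermediateField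

variable {K F : Type*} [Field K] [Field F] [Algebra K F]

/-- If `D x` spans the Kähler differentials of `F / K`, then `Ω[F⁄K⟮x⟯]` is trivial. -/
theorem subsingleton_kaehler_adjoin {x : F} (hspan : Submodule.span F {D K F x} = ⊤) :
    Subsingleton Ω[F⁄K⟮x⟯] := by
  have hsurj : Function.Surjective (KaehlerDifferential.map K K⟮x⟯ F F) :=
    KaehlerDifferential.map_surjective K K⟮x⟯ F
  refine ⟨fun a b => ?_⟩
  have hz : ∀ c : Ω[F⁄K⟮x⟯], c = 0 := by
    intro c
    obtain ⟨ω, rfl⟩ := hsurj c
    have hω : ω ∈ Submodule.span F {D K F x} := hspan ▸ Submodule.mem_top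
    obtain ⟨f, rfl⟩ := Submodule.mem_span_singleton.mp hω
    rw [map_smul, KaehlerDifferential.map_D]
    have hx : (algebraMap F F) x = algebraMap K⟮x⟯ F ⟨x, mem_adjoin_simple_self K x⟩ := rfl
    rw [hx, Derivation.map_algebraMap, smul_zero]
  rw [hz a, hz b]

/-- **[RR-BASE]** a function field of one variable over an algebraically closed field has a
separating transcendental element. -/
theorem exists_separating_transcendental [IsAlgClosed K] [IsCurveOver K F]
    [Algebra.EssFiniteType K F] :
    ∃ x : F, Transcendental K x ∧ FiniteDimensional K⟮x⟯ F ∧ Algebra.IsSeparable K⟮x⟯ F ∧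
      Submodule.span F {D K F x} = ⊤ := by
  -- some `D x` is nonzero
  obtain ⟨x, hx⟩ : ∃ x : F, D K F x ≠ 0 := by
    by_contra hcon
    simp only [not_exists, not_not] at hcon
    have h1 : (⊤ : Submodule F Ω[F⁄K]) = ⊥ := by
      rw [← KaehlerDifferential.span_range_derivation K F, Submodule.span_eq_bot]
      rintro _ ⟨y, rfl⟩
      exact hcon y
    obtain ⟨a, ha⟩ := exists_ne (0 : Ω[F⁄K])
    exact ha ((Submodule.mem_bot F).mp (h1 ▸ Submodule.mem_top))
  -- it spans
  have hspan : Submodule.span F {D K F x} = ⊤ := by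
    have hfr : Module.finrank F Ω[F⁄K] = 1 := IsCurveOver.finrank_kaehler
    have : Module.Finite F Ω[F⁄K] := Module.finite_of_finrank_pos (by omega)
    have h1 : Module.finrank F (Submodule.span F {D K F x}) = 1 :=
      finrank_span_singleton hx
    exact Submodule.eq_top_of_finrank_eq (h1.trans hfr.symm)
  have htr : Transcendental K x := by
    intro halg
    obtain ⟨a, rfl⟩ := Fermat.Agent.S24.helper82.mem_range_of_isAlgebraic halg
    exact hx (Derivation.map_algebraMap _ a)
  have : Subsingleton Ω[F⁄K⟮x⟯] := subsingleton_kaehler_adjoin hspan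
  have : Algebra.FormallyUnramified K⟮x⟯ F := ⟨inferInstance⟩
  have : Algebra.EssFiniteType K⟮x⟯ F := Algebra.EssFiniteType.of_comp K K⟮x⟯ F
  have hfin : Module.Finite K⟮x⟯ F := Algebra.FormallyUnramified.finite_of_free K⟮x⟯ F
  exact ⟨x, htr, hfin, Algebra.FormallyUnramified.isSeparable K⟮x⟯ F, hspan⟩

end Fermat.Agent.P5.helper42
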