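import Mathlib
import Fermat.Prelude.Def_AlgebraicCurve_Repartitions
import Fermat.Prelude.Def_AlgebraicCurve_CanonicalDivisor
import Fermat.Agent.P2.helper74_Riemann

/-!
# P5 / module RR (helper42, sub-coordinator): INTERFACE

Riemann-Roch for Kähler differentials via Tate's residues.  This file contains only
definitions and the closed statements (`Prop`s) of the packages; every package proves one of
them, the assembly is in `helper42_RRCon.lean`.

* `FpTraceStatement`  [TATE-A]  the trace of finite-potent endomorphisms;
* `TateStatement`     [TATE-B]  Tate's abstract residue `res^V_A : Ω[F⁄K] → K`;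
* `H1Statement`       [RR-H1]   `dim 𝒜/(𝒜(D) + F) = ℓ(D) - deg D + g - 1`;
* `ResidueStatement`  [RR-RTHM] local residues and the residue theorem;
* `RRFullStatement`   [RR-DUAL] the Riemann-Roch theorem with the divisor of a Kähler
  differential as canonical divisor.
-/

set_option autoImplicit false

open AlgebraicCurve KaehlerDifferential IntermediateField

namespace Fermat.Agent.P5.helper42

universe u v

/-! ### Finite-potent traces (Tate, section 1) -/

/-- **[TATE-A]** There is a trace `tr` for endomorphisms of arbitrary vector spaces which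
* is the ordinary trace of the restriction to `W` whenever `W` is a finite-dimensional stable
  subspace containing the image of a power of `θ`;
* vanishes on nilpotent endomorphisms;
* is additive and homogeneous on every finite-potent subspace of endomorphisms;
* satisfies `tr (φ ψ) = tr (ψ φ)` whenever `φ ψ` is finite-potent. -/
def FpTraceStatement : Prop :=
  ∀ (K : Type u) [Field K],
    ∃ tr : ∀ (V : Type v) [AddCommGroup V] [Module K V], (V →ₗ[K] V) → K,
      (∀ (V : Type v) [AddCommGroup V] [Module K V] (θ : V →ₗ[K] V) (W : Submodule K V)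
          (n : ℕ) (hW : ∀ w ∈ W, θ w ∈ W), Module.Finite K W → LinearMap.range (θ ^ n) ≤ W →
          tr V θ = LinearMap.trace K W (θ.restrict hW)) ∧
      (∀ (V : Type v) [AddCommGroup V] [Module K V] (θ : V →ₗ[K] V) (n : ℕ),
          θ ^ n = 0 → tr V θ = 0) ∧
      (∀ (V : Type v) [AddCommGroup V] [Module K V] (𝔉 : Submodule K (V →ₗ[K] V)) (n : ℕ),
          (∀ l : List (V →ₗ[K] V), l.length = n → (∀ θ ∈ l, θ ∈ 𝔉) →
            Module.Finite K (LinearMap.range l.prod)) →
          (∀ θ₁ ∈ 𝔉, ∀ θ₂ ∈ 𝔉, tr V (θ₁ + θ₂) = tr V θ₁ + tr V θ₂) ∧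
            ∀ (c : K), ∀ θ ∈ 𝔉, tr V (c • θ) = c * tr V θ) ∧
      (∀ (V : Type v) [AddCommGroup V] [Module K V] (φ ψ : V →ₗ[K] V) (n : ℕ),
          Module.Finite K (LinearMap.range ((φ * ψ) ^ n)) → tr V (φ * ψ) = tr V (ψ * φ))

/-! ### Tate's abstract residue (Tate, section 2) -/

namespace Tate

variable {K : Type*} [Field K] {V : Type*} [AddCommGroup V] [Module K V]

/-- `A ≺ B` ("`A` is not much bigger than `B`"): `(A + B) / B` is finite-dimensional. -/
def NotMuchBigger (A B : Submodule K V) : Prop :=
  ∃ W : Submodule K V, Module.Finite K W ∧ A ≤ B ⊔ W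

variable (K) (F : Type*) [Field F] [Algebra K F] [Module F V] [IsScalarTower K F V]

/-- Multiplication by `f ∈ F` as a `K`-linear endomorphism of the `F`-module `V`. -/
def mulEnd (f : F) : V →ₗ[K] V := DistribSMul.toLinearMap K V f

@[simp] theorem mulEnd_apply (f : F) (x : V) : mulEnd K F f x = f • x := rfl

variable {K}

/-- The `K`-subspace `A` of the `F`-module `V` is nearly stable under `F`: `f A ≺ A` for all
`f ∈ F`. -/
def NearlyStable (A : Submodule K V) : Prop :=
  ∀ f : F, NotMuchBigger (A.map (mulEnd K F f)) A

end Tate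

open Tate in
/-- **[TATE-B]** Tate's residue `res^V_A : Ω[F⁄K] → K` for `F`-modules `V` (in the universe of
`F`) and nearly stable `K`-subspaces `A ⊆ V`, with the properties
(R1a) invariance under injective `F`-linear maps, (R1b) invariance under commensurability,
(R2) `res (f dg) = 0` if `f A ⊆ A` and `g A ⊆ A`, (R3) `res (dg) = 0`,
(R4) `res (g⁻¹ dg) = dim A / g A` if `g A ⊆ A`, (R5) `res_A + res_B = res_(A+B) + res_(A∩B)`. -/
def TateStatement : Prop :=
  ∀ (K : Type u) (F : Type v) [Field K] [Field F] [Algebra K F],
    ∃ res : ∀ (V : Type v) [AddCommGroup V] [Module K V] [Module F V] [IsScalarTower K F V],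
        Submodule K V → (Ω[F⁄K] →ₗ[K] K),
      (∀ (V V' : Type v) [AddCommGroup V] [Module K V] [Module F V] [IsScalarTower K F V]
          [AddCommGroup V'] [Module K V'] [Module F V'] [IsScalarTower K F V']
          (j : V' →ₗ[F] V) (A' : Submodule K V'), Function.Injective j → NearlyStable F A' →
          res V (A'.map (j.restrictScalars K)) = res V' A') ∧
      (∀ (V : Type v) [AddCommGroup V] [Module K V] [Module F V] [IsScalarTower K F V]
          (A A' : Submodule K V), NearlyStable F A → NotMuchBigger A A' → NotMuchBigger A' A →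
          res V A = res V A') ∧
      (∀ (V : Type v) [AddCommGroup V] [Module K V] [Module F V] [IsScalarTower K F V]
          (A : Submodule K V) (f g : F), NearlyStable F A → A.map (mulEnd K F f) ≤ A →
          A.map (mulEnd K F g) ≤ A → res V A (f • D K F g) = 0) ∧
      (∀ (V : Type v) [AddCommGroup V] [Module K V] [Module F V] [IsScalarTower K F V]
          (A : Submodule K V) (g : F), NearlyStable F A → res V A (D K F g) = 0) ∧
      (∀ (V : Type v) [AddCommGroup V] [Module K V] [Module F V] [IsScalarTower K F V]
          (A W : Submodule K V) (g : F), NearlyStable F A → g ≠ 0 → Module.Finite K W →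
          A.map (mulEnd K F g) ⊔ W = A → Disjoint (A.map (mulEnd K F g)) W →
          res V A (g⁻¹ • D K F g) = (Module.finrank K W : K)) ∧
      (∀ (V : Type v) [AddCommGroup V] [Module K V] [Module F V] [IsScalarTower K F V]
          (A B : Submodule K V), NearlyStable F A → NearlyStable F B →
          res V A + res V B = res V (A ⊔ B) + res V (A ⊓ B))

/-! ### Function fields -/

open Fermat.Agent.P2.helper74 in
/-- **[RR-H1]** (Stichtenoth 1.5.4) the index of speciality: for a function field with Riemann
genus `g`, `dim_K 𝒜 / (𝒜(D) + F) = ℓ(D) - deg D + g - 1` (and it is finite).  In particular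
`genusFF K F = g`. -/
def H1Statement : Prop :=
  ∀ (K : Type u) (F : Type v) [Field K] [Field F] [Algebra K F],
    RiemannSetting K F → ∀ g : ℕ,
      (∃ c : ℤ, ∀ D : Divisor K F, c ≤ Divisor.degree D →
        (ell D : ℤ) + g = Divisor.degree D + 1) →
      ∀ D : Divisor K F, Module.Finite K (H1 D) ∧
        (Module.finrank K (H1 D) : ℤ) = ell D - Divisor.degree D + g - 1

section

variable {K F : Type*} [Field K] [Field F] [Algebra K F]

/-- A system of local residues: `K`-linear maps `res v : Ω[F⁄K] → K` vanishing on
differentials regular at `v` and on exact differentials, with `res v (dt / t) = 1` for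
uniformisers `t`, and satisfying the residue theorem. -/
def IsResidueSystem (res : Place K F → (Ω[F⁄K] →ₗ[K] K)) : Prop :=
  (∀ (v : Place K F) (ω : Ω[F⁄K]), 0 ≤ v.ordDifferential ω → res v ω = 0) ∧
  (∀ (v : Place K F) (t : F), v.ord t = 1 → res v (t⁻¹ • D K F t) = 1) ∧
  (∀ (v : Place K F) (h : F), res v (D K F h) = 0) ∧
  (∀ ω : Ω[F⁄K], (Function.support fun v => res v ω).Finite) ∧
  (∀ ω : Ω[F⁄K], ∑ᶠ v, res v ω = 0)

end

/-- **[RR-RTHM]** every function field over an algebraically closed field of characteristic
zero has a system of local residues. -/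
def ResidueStatement : Prop :=
  ∀ (K : Type u) (F : Type v) [Field K] [Field F] [Algebra K F] [IsAlgClosed K] [CharZero K]
    (x : F), Transcendental K x → FiniteDimensional K⟮x⟯ F →
    ∃ res : Place K F → (Ω[F⁄K] →ₗ[K] K), IsResidueSystem res

open Fermat.Agent.P2.helper74 in
/-- **[RR-DUAL]** the Riemann-Roch theorem: the divisor `W` of a nonzero Kähler differential
exists (finitely many zeros and poles) and `ℓ(A) = deg A + 1 - g + ℓ(W - A)` for all `A`. -/
def RRFullStatement : Prop :=
  ∀ (K : Type u) (F : Type v) [Field K] [Field F] [Algebra K F] [IsAlgClosed K] [CharZero K]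
    (x : F), Transcendental K x → FiniteDimensional K⟮x⟯ F → ∀ g : ℕ,
      (∃ c : ℤ, ∀ D : Divisor K F, c ≤ Divisor.degree D →
        (ell D : ℤ) + g = Divisor.degree D + 1) →
      ∀ ω₀ : Ω[F⁄K], ω₀ ≠ 0 → ∃ W : Divisor K F, (∀ v, W v = v.ordDifferential ω₀) ∧
        ∀ A : Divisor K F, (ell A : ℤ) = Divisor.degree A + 1 - g + ell (W - A)

end Fermat.Agent.P5.helper42
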