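import Mathlib
import Fermat.Prelude.Def_AlgebraicCurve_Repartitions
import Fermat.Agent.P2.helper74_Riemann

/-!
# P5 / RR-H1, part 0 (helper52): adele basics

Basic facts on the Prelude's ring of repartitions (adeles) `repartitions K F` of a function
field with principal divisors:

* `finite_poles_of_mem` : every repartition has only finitely many poles (so the generating set
  of the Prelude's `Algebra.adjoin` is already a subalgebra), `mem_repartitions_iff`;
* `exists_le_mem_repartitionsOf` : every repartition lies in `repartitionsOf B` for some `B`
  above any given divisor;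
* `singleAdele v f` : the one-place adele (`f` at `v`, `0` elsewhere), `constAdele f` : the
  principal adele of `f`.
-/

set_option autoImplicit false

noncomputable section

namespace Fermat.Agent.P5.helper52

open AlgebraicCurve Fermat.Agent.P2.helper74

variable {K F : Type*} [Field K] [Field F] [Algebra K F]

/-! ### Orders -/

theorem ord_add_nonneg (v : Place K F) {f g : F} (hf : 0 ≤ v.ord f) (hg : 0 ≤ v.ord g) :
    0 ≤ v.ord (f + g) := by
  rw [← Fermat.Agent.S24.helper82.mem_iff_ord_nonneg] at hf hg ⊢
  exact add_mem hf hg

theorem ord_mul_nonneg (v : Place K F) {f g : F} (hf : 0 ≤ v.ord f) (hg : 0 ≤ v.ord g) :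
    0 ≤ v.ord (f * g) := by
  rw [← Fermat.Agent.S24.helper82.mem_iff_ord_nonneg] at hf hg ⊢
  exact mul_mem hf hg

/-- The zeros and poles of a nonzero function are finite in number. -/
theorem finite_ord_ne_zero (hP : HasPrincipalDivisors K F) (f : F) :
    {v : Place K F | v.ord f ≠ 0}.Finite := by
  rcases eq_or_ne f 0 with rfl | hf
  · simp
  obtain ⟨E, hE, -⟩ := hP.exists_divisor f hf
  refine E.support.finite_toSet.subset fun v hv => ?_
  rw [Finset.mem_coe, Finsupp.mem_support_iff, hE]
  exact hv

/-- A function has finitely many poles. -/
theorem finite_poles_const (hP : HasPrincipalDivisors K F) (f : F) :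
    {v : Place K F | v.ord f < 0}.Finite :=
  (finite_ord_ne_zero hP f).subset fun _ hv => ne_of_lt hv

/-! ### Repartitions have finitely many poles -/

/-- Every element of the Prelude's `repartitions K F` has finitely many poles. -/
theorem finite_poles_of_mem (hP : HasPrincipalDivisors K F) {α : Place K F → F}
    (hα : α ∈ repartitions K F) : {v : Place K F | v.ord (α v) < 0}.Finite := by
  unfold repartitions at hα
  induction hα using Algebra.adjoin_induction with
  | mem x hx =>
    have hx' : {v : Place K F | ¬v.adicValuation (x v) ≤ 1}.Finite := hx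
    rwa [show {v : Place K F | ¬v.adicValuation (x v) ≤ 1}
        = {v : Place K F | v.ord (x v) < 0} from
      Set.ext fun v => v.not_adicValuation_le_one_iff] at hx'
  | algebraMap r => exact finite_poles_const hP r
  | add x y _ _ ihx ihy =>
    refine (ihx.union ihy).subset fun v hv => ?_
    rw [Set.mem_ofPred_eq, Pi.add_apply] at hv
    by_contra hcon
    rw [Set.mem_union, not_or, Set.mem_ofPred_eq, Set.mem_ofPred_eq, not_lt, not_lt] at hcon
    exact absurd (ord_add_nonneg v hcon.1 hcon.2) (not_le.mpr hv)
  | mul x y _ _ ihx ihy =>
    refine (ihx.union ihy).subset fun v hv => ?_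
    rw [Set.mem_ofPred_eq, Pi.mul_apply] at hv
    by_contra hcon
    rw [Set.mem_union, not_or, Set.mem_ofPred_eq, Set.mem_ofPred_eq, not_lt, not_lt] at hcon
    exact absurd (ord_mul_nonneg v hcon.1 hcon.2) (not_le.mpr hv)

/-- The Prelude's ring of repartitions consists exactly of the families with finitely many
poles. -/
theorem mem_repartitions_iff (hP : HasPrincipalDivisors K F) {α : Place K F → F} :
    α ∈ repartitions K F ↔ {v : Place K F | v.ord (α v) < 0}.Finite :=
  ⟨finite_poles_of_mem hP, mem_repartitions_of_finite_ord⟩

/-- Every repartition lies in `𝒜(B)` for some divisor `B`, which may be chosen above any given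
divisor `D`. -/
theorem exists_le_mem_repartitionsOf (hP : HasPrincipalDivisors K F)
    (α : ↥(repartitions K F)) (D : Divisor K F) :
    ∃ B : Divisor K F, (∀ v, D v ≤ B v) ∧ α ∈ repartitionsOf B := by
  classical
  have hfin := finite_poles_of_mem hP α.2
  refine ⟨Finsupp.onFinset (D.support ∪ hfin.toFinset)
    (fun v => max (D v) (max 0 (-v.ord ((α : Place K F → F) v)))) ?_, ?_, ?_⟩
  · intro v hv
    rw [Finset.mem_union, Finsupp.mem_support_iff, Set.Finite.mem_toFinset, Set.mem_ofPred_eq]
    by_contra hcon
    rw [not_or, not_not, not_lt] at hcon
    apply hv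
    rw [hcon.1]
    have := hcon.2
    omega
  · intro v
    rw [Finsupp.onFinset_apply]
    exact le_max_left _ _
  · rw [mem_repartitionsOf_iff]
    intro v
    right
    rw [Finsupp.onFinset_apply]
    omega

/-- Two repartitions lie in a common `𝒜(B)`. -/
theorem exists_mem_repartitionsOf (hP : HasPrincipalDivisors K F)
    (α : ↥(repartitions K F)) : ∃ B : Divisor K F, α ∈ repartitionsOf B := by
  obtain ⟨B, -, hB⟩ := exists_le_mem_repartitionsOf hP α 0
  exact ⟨B, hB⟩

/-! ### One-place adeles and principal adeles -/

theorem single_mem_repartitions [DecidableEq (Place K F)] (v : Place K F) (f : F) :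
    (Pi.single v f : Place K F → F) ∈ repartitions K F := by
  apply mem_repartitions_of_finite_ord
  refine (Set.finite_singleton v).subset fun w hw => ?_
  rw [Set.mem_singleton_iff]
  by_contra hne
  rw [Set.mem_ofPred_eq, Pi.single_eq_of_ne hne] at hw
  simp at hw

/-- The one-place adele: `f` at `v` and `0` at all other places. -/
def singleAdele (v : Place K F) (f : F) : ↥(repartitions K F) := by
  classical exact ⟨Pi.single v f, single_mem_repartitions v f⟩

@[simp] theorem singleAdele_apply_self (v : Place K F) (f : F) :
    (singleAdele v f : Place K F → F) v = f := by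
  classical
  exact Pi.single_eq_same (M := fun _ => F) v f

theorem singleAdele_apply_of_ne {v w : Place K F} (h : w ≠ v) (f : F) :
    (singleAdele v f : Place K F → F) w = 0 := by
  classical
  exact Pi.single_eq_of_ne (M := fun _ => F) h f

theorem singleAdele_apply [DecidableEq (Place K F)] (v w : Place K F) (f : F) :
    (singleAdele v f : Place K F → F) w = if w = v then f else 0 := by
  split_ifs with h
  · subst h; exact singleAdele_apply_self _ f
  · exact singleAdele_apply_of_ne h f

theorem singleAdele_zero (v : Place K F) : singleAdele v (0 : F) = 0 := by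
  classical
  apply Subtype.ext
  funext w
  rw [singleAdele_apply]
  simp

theorem singleAdele_add (v : Place K F) (f g : F) :
    singleAdele v (f + g) = singleAdele v f + singleAdele v g := by
  classical
  apply Subtype.ext
  funext w
  show _ = (singleAdele v f : Place K F → F) w + (singleAdele v g : Place K F → F) w
  rw [singleAdele_apply, singleAdele_apply, singleAdele_apply]
  split_ifs <;> simp

theorem singleAdele_smul (v : Place K F) (c : K) (f : F) :
    singleAdele v (c • f) = c • singleAdele v f := by
  classical
  apply Subtype.ext
  funext w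
  show _ = c • (singleAdele v f : Place K F → F) w
  rw [singleAdele_apply, singleAdele_apply]
  split_ifs <;> simp

/-- The principal adele of `f`. -/
def constAdele (f : F) : ↥(repartitions K F) := algebraMap F ↥(repartitions K F) f

@[simp] theorem constAdele_apply (f : F) (v : Place K F) :
    ((constAdele f : ↥(repartitions K F)) : Place K F → F) v = f := rfl

theorem constAdele_mem_principal (f : F) :
    (constAdele f : ↥(repartitions K F)) ∈ principalRepartitions K F :=
  mem_principalRepartitions_iff.mpr ⟨f, rfl⟩

theorem mem_principalRepartitions_iff_constAdele {α : ↥(repartitions K F)} :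
    α ∈ principalRepartitions K F ↔ ∃ f : F, α = constAdele f := by
  rw [mem_principalRepartitions_iff]
  constructor
  · rintro ⟨f, hf⟩
    exact ⟨f, Subtype.ext hf⟩
  · rintro ⟨f, rfl⟩
    exact ⟨f, rfl⟩

/-- Membership of a one-place adele in `𝒜(D)`. -/
theorem singleAdele_mem_repartitionsOf_iff {D : Divisor K F} {v : Place K F} {f : F} :
    singleAdele v f ∈ repartitionsOf D ↔ f = 0 ∨ -D v ≤ v.ord f := by
  rw [mem_repartitionsOf_iff]
  constructor
  · intro h
    simpa using h v
  · intro h w
    by_cases hw : w = v
    · subst hw
      simpa using h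
    · left
      exact singleAdele_apply_of_ne hw f

/-- Membership of a principal adele in `𝒜(D)`. -/
theorem constAdele_mem_repartitionsOf_iff {D : Divisor K F} {f : F} :
    (constAdele f : ↥(repartitions K F)) ∈ repartitionsOf D ↔ f ∈ riemannRochSpace D := by
  rw [mem_repartitionsOf_iff, mem_riemannRochSpace_iff]
  rfl

end Fermat.Agent.P5.helper52
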