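import Mathlib
import Fermat.Prelude.Def_AlgebraicCurve_Repartitions
import Fermat.Agent.P2.helper74_Riemann
import Fermat.Agent.P2.helper74_NonSpecial
import Fermat.Agent.P5.helper42_RRDefs
import Fermat.Agent.P5.helper52_Adele

/-!
# P5 / RR-H1 (helper52): the index of speciality

`h1Statement : helper42.H1Statement` (Stichtenoth 1.5.3 + 1.5.4): for a `RiemannSetting K F`
with Riemann genus `g`, the space `H1 D = 𝒜 / (𝒜(D) + F)` is finite-dimensional of dimension
`ℓ(D) - deg D + g - 1`; in particular `genusFF K F = g`.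
-/

set_option autoImplicit false

noncomputable section

namespace Fermat.Agent.P5.helper52

open AlgebraicCurve Fermat.Agent.P2.helper74

/-! ### Relative dimension of nested subspaces via finite-dimensional complements -/

section RelDim

variable {K V : Type*} [Field K] [AddCommGroup V] [Module K V]

/-- `M₂ = M₁ ⊕ W` with `W` of finite dimension `n`, i.e. `dim M₂ / M₁ = n`. -/
def RelDim (M₁ M₂ : Submodule K V) (n : ℕ) : Prop :=
  ∃ W : Submodule K V, Module.Finite K W ∧ Module.finrank K W = n ∧ M₁ ⊔ W = M₂ ∧ Disjoint M₁ W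

theorem RelDim.refl (M : Submodule K V) : RelDim M M 0 :=
  ⟨⊥, inferInstance, finrank_bot K V, sup_bot_eq M, disjoint_bot_right⟩

theorem RelDim.le {M₁ M₂ : Submodule K V} {n : ℕ} (h : RelDim M₁ M₂ n) : M₁ ≤ M₂ := by
  obtain ⟨W, -, -, hW, -⟩ := h
  rw [← hW]
  exact le_sup_left

theorem RelDim.trans {M₁ M₂ M₃ : Submodule K V} {a b : ℕ} (h₁ : RelDim M₁ M₂ a)
    (h₂ : RelDim M₂ M₃ b) : RelDim M₁ M₃ (a + b) := by
  obtain ⟨W₁, hf₁, hr₁, hs₁, hd₁⟩ := h₁
  obtain ⟨W₂, hf₂, hr₂, hs₂, hd₂⟩ := h₂
  have hW₁ : W₁ ≤ M₂ := by rw [← hs₁]; exact le_sup_right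
  have hdW : Disjoint W₁ W₂ := hd₂.mono_left hW₁
  refine ⟨W₁ ⊔ W₂, inferInstance, ?_, ?_, ?_⟩
  · have h := Submodule.finrank_sup_add_finrank_inf_eq W₁ W₂
    rw [hdW.eq_bot, finrank_bot, add_zero, hr₁, hr₂] at h
    exact h
  · rw [← sup_assoc, hs₁, hs₂]
  · exact hd₁.disjoint_sup_right_of_disjoint_sup_left (by rw [hs₁]; exact hd₂)

theorem RelDim.eq_of_zero {M₁ M₂ : Submodule K V} (h : RelDim M₁ M₂ 0) : M₁ = M₂ := by
  obtain ⟨W, hf, hr, hs, -⟩ := h
  have hW : W = ⊥ := Submodule.finrank_eq_zero.mp hr
  rw [← hs, hW, sup_bot_eq]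

theorem RelDim.finite_quotient {M : Submodule K V} {n : ℕ} (h : RelDim M ⊤ n) :
    Module.Finite K (V ⧸ M) ∧ Module.finrank K (V ⧸ M) = n := by
  obtain ⟨W, hf, hr, hs, hd⟩ := h
  have hc : IsCompl M W := ⟨hd, codisjoint_iff.mpr hs⟩
  let e := Submodule.quotientEquivOfIsCompl M W hc
  exact ⟨Module.Finite.equiv e.symm, by rw [e.finrank_eq, hr]⟩

end RelDim

variable {K F : Type*} [Field K] [Field F] [Algebra K F]

/-! ### The one-place step -/

theorem add_single_apply_self (D : Divisor K F) (P : Place K F) :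
    (D + Finsupp.single P (1 : ℤ) : Divisor K F) P = D P + 1 := by
  classical
  rw [Finsupp.add_apply, Finsupp.single_apply, if_pos rfl]

theorem add_single_apply_of_ne (D : Divisor K F) {P v : Place K F} (h : v ≠ P) :
    (D + Finsupp.single P (1 : ℤ) : Divisor K F) v = D v := by
  classical
  rw [Finsupp.add_apply, Finsupp.single_apply, if_neg (Ne.symm h), add_zero]

theorem le_add_single (D : Divisor K F) (P : Place K F) (v : Place K F) :
    D v ≤ (D + Finsupp.single P (1 : ℤ) : Divisor K F) v := by
  by_cases h : v = P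
  · subst h
    rw [add_single_apply_self]
    omega
  · rw [add_single_apply_of_ne D h]

/-- There are functions of every order at a place. -/
theorem exists_ord_eq (P : Place K F) (n : ℤ) : ∃ t : F, t ≠ 0 ∧ P.ord t = n := by
  obtain ⟨π, hπ⟩ := IsDiscreteValuationRing.exists_irreducible P.toValuationSubring
  have hπF : (π : F) ≠ 0 := by
    simpa [ne_eq, ZeroMemClass.coe_eq_zero] using hπ.ne_zero
  refine ⟨(π : F) ^ n, zpow_ne_zero n hπF, ?_⟩
  rw [P.ord_zpow, P.ord_coe_irreducible hπ, mul_one]

theorem ord_neg' (v : Place K F) (f : F) : v.ord (-f) = v.ord f := by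
  simp only [Place.ord, Valuation.map_neg]

/-- The ultrametric inequality in the form used for adeles. -/
theorem le_ord_add (v : Place K F) {f g : F} {n : ℤ} (hf : f = 0 ∨ n ≤ v.ord f)
    (hg : g = 0 ∨ n ≤ v.ord g) : f + g = 0 ∨ n ≤ v.ord (f + g) := by
  have e : ∀ x : F, (x = 0 ∨ n ≤ v.ord x) ↔ v.adicValuation x ≤ WithZero.exp (-n) := by
    intro x
    rw [v.adicValuation_le_exp_iff, neg_neg]
  rw [e] at hf hg ⊢
  exact (Valuation.map_add _ _ _).trans (max_le hf hg)

theorem le_ord_sub (v : Place K F) {f g : F} {n : ℤ} (hf : f = 0 ∨ n ≤ v.ord f)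
    (hg : g = 0 ∨ n ≤ v.ord g) : f - g = 0 ∨ n ≤ v.ord (f - g) := by
  rw [sub_eq_add_neg]
  refine le_ord_add v hf ?_
  rcases hg with hg | hg
  · left; rw [hg, neg_zero]
  · right; rwa [ord_neg']

theorem repartitionsOf_mono' {D D' : Divisor K F} (h : ∀ v, D v ≤ D' v) :
    repartitionsOf D ≤ repartitionsOf D' :=
  repartitionsOf_mono (Finsupp.le_def.mpr h)

section Step

variable (hS : RiemannSetting K F)

include hS

/-- `𝒜(D + P) = 𝒜(D) + K ε` for the one-place adele `ε` of a function of order
`-(D P + 1)` at `P`. -/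
theorem repartitionsOf_add_single_le (D : Divisor K F) (P : Place K F) {t : F} (ht0 : t ≠ 0)
    (ht : P.ord t = -(D P + 1)) :
    repartitionsOf (D + Finsupp.single P 1) ≤
      repartitionsOf D ⊔ Submodule.span K {singleAdele P t} := by
  intro α hα
  have hα' := mem_repartitionsOf_iff.mp hα
  obtain ⟨x, hx⟩ : ∃ x : F, x = (α : Place K F → F) P := ⟨_, rfl⟩
  have hh : 0 ≤ P.ord (x * t⁻¹) := by
    rcases eq_or_ne x 0 with h0 | h0
    · rw [h0, zero_mul, P.ord_zero]
    · have h1 := hα' P
      rw [← hx] at h1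
      have h2 := h1.resolve_left h0
      rw [add_single_apply_self] at h2
      rw [P.ord_mul h0 (inv_ne_zero ht0), P.ord_inv, ht]
      omega
  obtain ⟨a, ha⟩ := hS.residue P (x * t⁻¹) hh
  have hmem : α - a • singleAdele P t ∈ repartitionsOf D := by
    rw [mem_repartitionsOf_iff]
    intro v
    have hval : ((α - a • singleAdele P t : ↥(repartitions K F)) : Place K F → F) v =
        (α : Place K F → F) v - a • (singleAdele P t : Place K F → F) v := rfl
    rw [hval]
    by_cases hv : v = P
    · subst hv
      rw [singleAdele_apply_self, Algebra.smul_def]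
      have hfac : x - algebraMap K F a * t = (x * t⁻¹ - algebraMap K F a) * t := by
        field_simp
      rw [← hx, hfac]
      rcases ha with ha | ha
      · left
        rw [ha, sub_self, zero_mul]
      · right
        have hne0 : x * t⁻¹ - algebraMap K F a ≠ 0 := ne_zero_of_ord_ne_zero v ha.ne'
        rw [v.ord_mul hne0 ht0, ht]
        omega
    · rw [singleAdele_apply_of_ne hv, smul_zero, sub_zero]
      have := hα' v
      rwa [add_single_apply_of_ne D hv] at this
  have hdecomp : α = (α - a • singleAdele P t) + a • singleAdele P t := by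
    rw [sub_add_cancel]
  rw [hdecomp]
  exact Submodule.add_mem _ (Submodule.mem_sup_left hmem)
    (Submodule.mem_sup_right (Submodule.smul_mem _ a (Submodule.mem_span_singleton_self _)))

omit hS in
/-- If the one-place adele lies in `𝒜(D) + F` then `L(D + P) ≠ L(D)`. -/
theorem exists_mem_L_of_single_mem (D : Divisor K F) (P : Place K F) {t : F} (ht0 : t ≠ 0)
    (ht : P.ord t = -(D P + 1))
    (h : singleAdele P t ∈ repartitionsOf D ⊔ principalRepartitions K F) :
    ∃ f : F, f ∈ riemannRochSpace (D + Finsupp.single P 1) ∧ f ∉ riemannRochSpace D := by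
  obtain ⟨β, hβ, γ, hγ, hsum⟩ := Submodule.mem_sup.mp h
  obtain ⟨f, hf⟩ := mem_principalRepartitions_iff.mp hγ
  have hβ' := mem_repartitionsOf_iff.mp hβ
  have hpt : ∀ v : Place K F, (β : Place K F → F) v + f = (singleAdele P t : Place K F → F) v := by
    intro v
    have h1 : ((β + γ : ↥(repartitions K F)) : Place K F → F) v =
        (β : Place K F → F) v + (γ : Place K F → F) v := rfl
    rw [← hsum, h1, hf]
  have hP : (β : Place K F → F) P + f = t := by rw [hpt P, singleAdele_apply_self]
  refine ⟨f, ?_, ?_⟩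
  · rw [mem_riemannRochSpace_iff]
    intro v
    by_cases hv : v = P
    · subst hv
      rw [add_single_apply_self]
      have hf' : f = t - (β : Place K F → F) v := by rw [← hP]; ring
      rw [hf']
      refine le_ord_sub v (Or.inr (by rw [ht])) ?_
      rcases hβ' v with h0 | h0
      · exact Or.inl h0
      · exact Or.inr (by omega)
    · rw [add_single_apply_of_ne D hv]
      have h1 := hpt v
      rw [singleAdele_apply_of_ne hv] at h1
      have hf' : f = 0 - (β : Place K F → F) v := by rw [← h1]; ring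
      rw [hf']
      exact le_ord_sub v (Or.inl rfl) (hβ' v)
  · intro hfD
    have h1 := mem_riemannRochSpace_iff.mp hfD P
    have h2 := le_ord_add P (hβ' P) h1
    rw [hP] at h2
    rcases h2 with h2 | h2
    · exact ht0 h2
    · rw [ht] at h2
      omega

/-- If `L(D + P) ≠ L(D)` then the one-place adele lies in `𝒜(D) + F`. -/
theorem single_mem_of_mem_L (D : Divisor K F) (P : Place K F) {t : F} (ht0 : t ≠ 0)
    (ht : P.ord t = -(D P + 1)) {f : F}
    (hf : f ∈ riemannRochSpace (D + Finsupp.single P 1)) (hfD : f ∉ riemannRochSpace D) :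
    singleAdele P t ∈ repartitionsOf D ⊔ principalRepartitions K F := by
  have hf0 : f ≠ 0 := fun h => hfD (h ▸ Submodule.zero_mem _)
  have hf' := (mem_L_iff' hf0).mp hf
  have hne : ∀ v : Place K F, v ≠ P → -D v ≤ v.ord f := by
    intro v hv
    have := hf' v
    rwa [add_single_apply_of_ne D hv] at this
  have hfP : P.ord f = -(D P + 1) := by
    have h1 := hf' P
    rw [add_single_apply_self] at h1
    by_contra hcon
    apply hfD
    rw [mem_L_iff' hf0]
    intro v
    by_cases hv : v = P
    · subst hv; omega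
    · exact hne v hv
  have hh : P.ord (f * t⁻¹) = 0 := by
    rw [P.ord_mul hf0 (inv_ne_zero ht0), P.ord_inv, ht, hfP]
    omega
  obtain ⟨a, ha⟩ := hS.residue P (f * t⁻¹) hh.ge
  have ha0 : a ≠ 0 := by
    rintro rfl
    rw [map_zero, sub_zero] at ha
    rcases ha with ha | ha
    · exact mul_ne_zero hf0 (inv_ne_zero ht0) ha
    · omega
  have hmem : a • singleAdele P t - constAdele f ∈ repartitionsOf D := by
    rw [mem_repartitionsOf_iff]
    intro v
    have hval : ((a • singleAdele P t - constAdele f : ↥(repartitions K F)) :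
        Place K F → F) v = a • (singleAdele P t : Place K F → F) v - f := rfl
    rw [hval]
    by_cases hv : v = P
    · subst hv
      rw [singleAdele_apply_self, Algebra.smul_def]
      have hfac : algebraMap K F a * t - f = -((f * t⁻¹ - algebraMap K F a) * t) := by
        field_simp
        ring
      rw [hfac, ord_neg']
      rcases ha with ha | ha
      · left
        rw [ha, sub_self, zero_mul, neg_zero]
      · right
        have hne0 : f * t⁻¹ - algebraMap K F a ≠ 0 := ne_zero_of_ord_ne_zero v ha.ne'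
        rw [v.ord_mul hne0 ht0, ht]
        omega
    · rw [singleAdele_apply_of_ne hv, smul_zero, zero_sub, ord_neg']
      exact Or.inr (hne v hv)
  have hdecomp : singleAdele P t =
      a⁻¹ • (a • singleAdele P t - constAdele f) + a⁻¹ • (constAdele f : ↥(repartitions K F)) := by
    rw [← smul_add, sub_add_cancel, smul_smul, inv_mul_cancel₀ ha0, one_smul]
  rw [hdecomp]
  exact Submodule.add_mem _ (Submodule.mem_sup_left (Submodule.smul_mem _ _ hmem))
    (Submodule.mem_sup_right (Submodule.smul_mem _ _ (constAdele_mem_principal f)))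

/-- **The one-place step**: `dim (𝒜(D + P) + F) / (𝒜(D) + F) = 1 - (ℓ(D + P) - ℓ(D))`. -/
theorem relDim_add_single (D : Divisor K F) (P : Place K F) :
    ∃ n : ℕ, RelDim (repartitionsOf D ⊔ principalRepartitions K F)
        (repartitionsOf (D + Finsupp.single P 1) ⊔ principalRepartitions K F) n ∧
      (n : ℤ) + ell (D + Finsupp.single P 1) = ell D + 1 := by
  obtain ⟨t, ht0, ht⟩ := exists_ord_eq P (-(D P + 1))
  have hmono : repartitionsOf D ≤ repartitionsOf (D + Finsupp.single P 1) :=
    repartitionsOf_mono' (le_add_single D P)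
  have hLmono : riemannRochSpace D ≤ riemannRochSpace (D + Finsupp.single P 1) :=
    L_mono (le_add_single D P)
  have hεmem : singleAdele P t ∈ repartitionsOf (D + Finsupp.single P 1) := by
    rw [singleAdele_mem_repartitionsOf_iff, add_single_apply_self, ht]
    right
    omega
  have hle := repartitionsOf_add_single_le hS D P ht0 ht
  have hfd := finiteDimensional_L hS (D + Finsupp.single P 1)
  have hstep := (step hS D P (finiteDimensional_L hS D)).2
  by_cases hε : singleAdele P t ∈ repartitionsOf D ⊔ principalRepartitions K F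
  · refine ⟨0, ?_, ?_⟩
    · have heq : repartitionsOf D ⊔ principalRepartitions K F =
          repartitionsOf (D + Finsupp.single P 1) ⊔ principalRepartitions K F := by
        apply le_antisymm (sup_le_sup_right hmono _)
        refine sup_le (hle.trans (sup_le le_sup_left ?_)) le_sup_right
        rw [Submodule.span_le, Set.singleton_subset_iff]
        exact hε
      rw [← heq]
      exact RelDim.refl _
    · obtain ⟨f, hf, hfD⟩ := exists_mem_L_of_single_mem D P ht0 ht hε
      have hlt : riemannRochSpace D < riemannRochSpace (D + Finsupp.single P 1) :=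
        lt_of_le_of_ne hLmono (fun h => hfD (h ▸ hf))
      have h2 : ell D < ell (D + Finsupp.single P 1) := Submodule.finrank_lt_finrank_of_lt hlt
      have h3 : ell (D + Finsupp.single P 1) = ell D + 1 := by omega
      rw [h3]
      push_cast
      ring
  · refine ⟨1, ⟨Submodule.span K {singleAdele P t}, inferInstance, ?_, ?_, ?_⟩, ?_⟩
    · apply finrank_span_singleton
      rintro h0
      exact hε (h0 ▸ Submodule.zero_mem _)
    · apply le_antisymm
      · refine sup_le (sup_le_sup_right hmono _) (le_sup_of_le_left ?_)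
        rw [Submodule.span_le, Set.singleton_subset_iff]
        exact hεmem
      · refine sup_le (hle.trans ?_) (le_sup_of_le_left le_sup_right)
        exact sup_le_sup_right le_sup_left _
    · rw [Submodule.disjoint_span_singleton']
      · exact hε
      · rintro h0
        exact hε (h0 ▸ Submodule.zero_mem _)
    · have heq : riemannRochSpace (D + Finsupp.single P 1) = riemannRochSpace D := by
        apply le_antisymm _ hLmono
        intro f hf
        by_contra hfD
        exact hε (single_mem_of_mem_L hS D P ht0 ht hf hfD)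
      have h3 : ell (D + Finsupp.single P 1) = ell D := by
        unfold ell
        rw [heq]
      rw [h3]
      push_cast
      ring

theorem relDim_add_single_nat (P : Place K F) (m : ℕ) : ∀ D : Divisor K F,
    ∃ n : ℕ, RelDim (repartitionsOf D ⊔ principalRepartitions K F)
        (repartitionsOf (D + Finsupp.single P (m : ℤ)) ⊔ principalRepartitions K F) n ∧
      (n : ℤ) + ell (D + Finsupp.single P (m : ℤ)) = ell D + m := by
  induction m with
  | zero =>
    intro D
    have h0 : D + Finsupp.single P (((0 : ℕ) : ℤ)) = D := by simp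
    rw [h0]
    exact ⟨0, RelDim.refl _, by simp⟩
  | succ m ih =>
    intro D
    obtain ⟨n₁, h₁, e₁⟩ := ih D
    obtain ⟨n₂, h₂, e₂⟩ := relDim_add_single hS (D + Finsupp.single P (m : ℤ)) P
    have heq : D + Finsupp.single P ((m + 1 : ℕ) : ℤ) =
        D + Finsupp.single P (m : ℤ) + Finsupp.single P 1 := by
      rw [add_assoc, ← Finsupp.single_add]
      push_cast
      rfl
    rw [heq]
    refine ⟨n₁ + n₂, h₁.trans h₂, ?_⟩
    push_cast
    linarith

theorem relDim_add_toDiv (E : Place K F →₀ ℕ) : ∀ D : Divisor K F,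
    ∃ n : ℕ, RelDim (repartitionsOf D ⊔ principalRepartitions K F)
        (repartitionsOf (D + toDiv E) ⊔ principalRepartitions K F) n ∧
      (n : ℤ) + ell (D + toDiv E) = ell D + Divisor.degree (toDiv E) := by
  induction E using Finsupp.induction_linear with
  | zero =>
    intro D
    rw [toDiv_zero, add_zero, map_zero, add_zero]
    exact ⟨0, RelDim.refl _, by simp⟩
  | add E E' hE hE' =>
    intro D
    obtain ⟨n₁, h₁, e₁⟩ := hE D
    obtain ⟨n₂, h₂, e₂⟩ := hE' (D + toDiv E)
    rw [toDiv_add, ← add_assoc, map_add]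
    refine ⟨n₁ + n₂, h₁.trans h₂, ?_⟩
    push_cast
    linarith
  | single v m =>
    intro D
    obtain ⟨n, h, e⟩ := relDim_add_single_nat hS v m D
    rw [toDiv_single, Divisor.degree_single, hS.deg_one]
    refine ⟨n, h, ?_⟩
    push_cast
    linarith

/-- **Stichtenoth 1.5.3**: for `D ≤ B`,
`dim (𝒜(B) + F) / (𝒜(D) + F) = (deg B - ℓ(B)) - (deg D - ℓ(D))`. -/
theorem relDim_of_le {D B : Divisor K F} (h : ∀ v, D v ≤ B v) :
    ∃ n : ℕ, RelDim (repartitionsOf D ⊔ principalRepartitions K F)
        (repartitionsOf B ⊔ principalRepartitions K F) n ∧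
      (n : ℤ) = (Divisor.degree B - ell B) - (Divisor.degree D - ell D) := by
  obtain ⟨E, hE⟩ := exists_toDiv_eq (D := B - D)
    (fun v => by rw [Finsupp.sub_apply]; linarith [h v])
  obtain ⟨n, hn, e⟩ := relDim_add_toDiv hS E D
  rw [hE, add_sub_cancel] at hn e
  rw [map_sub] at e
  exact ⟨n, hn, by linarith⟩

/-! ### The same for `𝒜(D)` alone: `dim 𝒜(B) / 𝒜(D) = deg B - deg D` -/

theorem relDim_repartitionsOf_add_single (D : Divisor K F) (P : Place K F) :
    RelDim (repartitionsOf D) (repartitionsOf (D + Finsupp.single P 1)) 1 := by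
  obtain ⟨t, ht0, ht⟩ := exists_ord_eq P (-(D P + 1))
  have hmono : repartitionsOf D ≤ repartitionsOf (D + Finsupp.single P 1) :=
    repartitionsOf_mono' (le_add_single D P)
  have hεmem : singleAdele P t ∈ repartitionsOf (D + Finsupp.single P 1) := by
    rw [singleAdele_mem_repartitionsOf_iff, add_single_apply_self, ht]
    right
    omega
  have hε : singleAdele P t ∉ repartitionsOf D := by
    rw [singleAdele_mem_repartitionsOf_iff, ht]
    rintro (h | h)
    · exact ht0 h
    · omega
  have hle := repartitionsOf_add_single_le hS D P ht0 ht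
  have hε0 : singleAdele P t ≠ 0 := fun h0 => hε (h0 ▸ Submodule.zero_mem _)
  refine ⟨Submodule.span K {singleAdele P t}, inferInstance, finrank_span_singleton hε0, ?_, ?_⟩
  · apply le_antisymm
    · refine sup_le hmono ?_
      rw [Submodule.span_le, Set.singleton_subset_iff]
      exact hεmem
    · exact hle
  · rw [Submodule.disjoint_span_singleton' hε0]
    exact hε

theorem relDim_repartitionsOf_add_single_nat (P : Place K F) (m : ℕ) : ∀ D : Divisor K F,
    RelDim (repartitionsOf D) (repartitionsOf (D + Finsupp.single P (m : ℤ))) m := by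
  induction m with
  | zero =>
    intro D
    have h0 : D + Finsupp.single P (((0 : ℕ) : ℤ)) = D := by simp
    rw [h0]
    exact RelDim.refl _
  | succ m ih =>
    intro D
    have heq : D + Finsupp.single P ((m + 1 : ℕ) : ℤ) =
        D + Finsupp.single P (m : ℤ) + Finsupp.single P 1 := by
      rw [add_assoc, ← Finsupp.single_add]
      push_cast
      rfl
    rw [heq]
    exact (ih D).trans (relDim_repartitionsOf_add_single hS _ P)

theorem relDim_repartitionsOf_add_toDiv (E : Place K F →₀ ℕ) : ∀ D : Divisor K F,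
    ∃ n : ℕ, RelDim (repartitionsOf D) (repartitionsOf (D + toDiv E)) n ∧
      (n : ℤ) = Divisor.degree (toDiv E) := by
  induction E using Finsupp.induction_linear with
  | zero =>
    intro D
    rw [toDiv_zero, add_zero, map_zero]
    exact ⟨0, RelDim.refl _, by simp⟩
  | add E E' hE hE' =>
    intro D
    obtain ⟨n₁, h₁, e₁⟩ := hE D
    obtain ⟨n₂, h₂, e₂⟩ := hE' (D + toDiv E)
    rw [toDiv_add, ← add_assoc, map_add]
    refine ⟨n₁ + n₂, h₁.trans h₂, ?_⟩
    push_cast
    linarith
  | single v m =>
    intro D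
    rw [toDiv_single, Divisor.degree_single, hS.deg_one]
    exact ⟨m, relDim_repartitionsOf_add_single_nat hS v m D, by simp⟩

/-- **Stichtenoth 1.5.3, first part**: for `D ≤ B`, `dim 𝒜(B) / 𝒜(D) = deg B - deg D`. -/
theorem relDim_repartitionsOf_of_le {D B : Divisor K F} (h : ∀ v, D v ≤ B v) :
    ∃ n : ℕ, RelDim (repartitionsOf D) (repartitionsOf B) n ∧
      (n : ℤ) = Divisor.degree B - Divisor.degree D := by
  obtain ⟨E, hE⟩ := exists_toDiv_eq (D := B - D)
    (fun v => by rw [Finsupp.sub_apply]; linarith [h v])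
  obtain ⟨n, hn, e⟩ := relDim_repartitionsOf_add_toDiv hS E D
  rw [hE, add_sub_cancel] at hn
  rw [hE, map_sub] at e
  exact ⟨n, hn, e⟩

/-- For `D ≤ B` there is a finite-dimensional `W` with `𝒜(B) = 𝒜(D) ⊕ W`,
`dim W = deg B - deg D`. -/
theorem exists_finite_complement {D B : Divisor K F} (h : ∀ v, D v ≤ B v) :
    ∃ W : Submodule K ↥(repartitions K F), Module.Finite K W ∧
      (Module.finrank K W : ℤ) = Divisor.degree B - Divisor.degree D ∧
      repartitionsOf D ⊔ W = repartitionsOf B ∧ Disjoint (repartitionsOf D) W := by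
  obtain ⟨n, ⟨W, h1, h2, h3, h4⟩, e⟩ := relDim_repartitionsOf_of_le hS h
  exact ⟨W, h1, by rw [h2, e], h3, h4⟩

variable {g : ℕ} {c : ℤ}
  (hc : ∀ D : Divisor K F, c ≤ Divisor.degree D → (ell D : ℤ) + g = Divisor.degree D + 1)

include hc

/-- **Stichtenoth 1.5.4 (a)**: `𝒜 = 𝒜(B) + F` for divisors `B` of large degree. -/
theorem repartitionsOf_sup_principal_eq_top {B : Divisor K F} (hB : c ≤ Divisor.degree B) :
    repartitionsOf B ⊔ principalRepartitions K F = ⊤ := by
  rw [eq_top_iff]
  rintro α -
  obtain ⟨B₁, hB₁, hα⟩ := exists_le_mem_repartitionsOf hS.principal α B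
  obtain ⟨n, hn, e⟩ := relDim_of_le hS hB₁
  have hdeg : c ≤ Divisor.degree B₁ := hB.trans (degree_le_degree hB₁)
  have h1 := hc B hB
  have h2 := hc B₁ hdeg
  have hn0 : n = 0 := by
    have : (n : ℤ) = 0 := by linarith
    exact_mod_cast this
  rw [hn0] at hn
  rw [hn.eq_of_zero]
  exact Submodule.mem_sup_left hα

/-- **Stichtenoth 1.5.4 (b)**: `H1 D` is finite-dimensional of dimension
`ℓ(D) - deg D + g - 1`. -/
theorem finite_H1_and_finrank (D : Divisor K F) :
    Module.Finite K (H1 D) ∧
      (Module.finrank K (H1 D) : ℤ) = ell D - Divisor.degree D + g - 1 := by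
  obtain ⟨P₀⟩ := hS.nonempty
  set m : ℕ := (c - Divisor.degree D).toNat with hm
  have hm' : c - Divisor.degree D ≤ m := Int.self_le_toNat _
  have hle : ∀ v, D v ≤ (D + Finsupp.single P₀ (m : ℤ)) v := by
    classical
    intro v
    rw [Finsupp.add_apply, Finsupp.single_apply]
    split_ifs <;> omega
  have hdeg : Divisor.degree (D + Finsupp.single P₀ (m : ℤ)) = Divisor.degree D + m := by
    rw [map_add, Divisor.degree_single, hS.deg_one]
    simp
  have hB : c ≤ Divisor.degree (D + Finsupp.single P₀ (m : ℤ)) := by rw [hdeg]; linarith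
  obtain ⟨n, hn, e⟩ := relDim_of_le hS hle
  rw [repartitionsOf_sup_principal_eq_top hS hc hB] at hn
  have h1 := hc _ hB
  obtain ⟨hfin, hrank⟩ := hn.finite_quotient
  refine ⟨hfin, ?_⟩
  rw [hrank, e]
  linarith

end Step

universe u v

/-- **[RR-H1]** the index of speciality (Stichtenoth 1.5.4), verbatim interface statement. -/
theorem h1Statement : Fermat.Agent.P5.helper42.H1Statement.{u, v} := by
  intro K F _ _ _ hS g hg D
  obtain ⟨c, hc⟩ := hg
  exact finite_H1_and_finrank hS hc D

/-- The genus of the Prelude (`genusFF K F = dim H1 0`) is the Riemann genus. -/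
theorem genusFF_eq {K : Type u} {F : Type v} [Field K] [Field F] [Algebra K F]
    (hS : RiemannSetting K F) {g : ℕ}
    (hg : ∃ c : ℤ, ∀ D : Divisor K F, c ≤ Divisor.degree D →
      (ell D : ℤ) + g = Divisor.degree D + 1) : genusFF K F = g := by
  obtain ⟨c, hc⟩ := hg
  have h := (finite_H1_and_finrank hS hc (0 : Divisor K F)).2
  rw [ell_zero hS, map_zero] at h
  unfold genusFF
  have : (Module.finrank K (H1 (0 : Divisor K F)) : ℤ) = g := by
    rw [h]; push_cast; ring
  exact_mod_cast this

end Fermat.Agent.P5.helper52
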