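import Fermat.Agent.P5.helper37_ModStatements

/-!
# P5 / S27, module MOD, package MOD-ALG1 (helper10, task 644)

Every coordinate `x` of a function field `F/ℂ` (transcendental with `F/ℂ(x)` finite) extends to a
presentation `F = ℂ(x)[y]/(f)`, `f ∈ ℂ[X][Y]` monic in `Y` of degree `[F : ℂ(x)]`.

Proof: primitive element `y₀` of `F/ℂ(x)` (characteristic `0`), minimal polynomial
`Y^d + ∑ c_i Y^i`, common denominator `b(x)` of the `c_i`; `y = b(x) y₀` is a root of
`Y^d + ∑ (b c_i) b^(d-1-i) Y^i ∈ ℂ[x][Y]`.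
-/

set_option autoImplicit false
set_option linter.style.haveILetI false

open Polynomial IntermediateField

noncomputable section

namespace Fermat.Agent.P5.helper10

variable {F : Type} [Field F] [Algebra ℂ F]

/-- every element of `ℂ(x)` is a quotient of polynomials in `x` with nonzero denominator -/
theorem exists_num_den {x : F} (hx : Transcendental ℂ x) (r : F) (hr : r ∈ ℂ⟮x⟯) :
    ∃ n s : ℂ[X], s ≠ 0 ∧ aeval x s * r = aeval x n := by
  obtain ⟨n, s, h⟩ := (mem_adjoin_simple_iff ℂ r).1 hr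
  by_cases hs : s = 0
  · refine ⟨0, 1, one_ne_zero, ?_⟩
    rw [h, hs]
    simp
  · refine ⟨n, s, hs, ?_⟩
    have h0 : aeval x s ≠ 0 := fun h0 => hs ((transcendental_iff.1 hx) s h0)
    rw [h, mul_div_cancel₀ _ h0]

/-- common denominators in `ℂ(x)` -/
theorem exists_common_den {x : F} (hx : Transcendental ℂ x) {ι : Type*} [Fintype ι]
    (r : ι → F) (hr : ∀ i, r i ∈ ℂ⟮x⟯) :
    ∃ (q : ℂ[X]) (n : ι → ℂ[X]), q ≠ 0 ∧ ∀ i, aeval x q * r i = aeval x (n i) := by
  classical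
  choose n s hs h using fun i => exists_num_den hx (r i) (hr i)
  refine ⟨∏ i, s i, fun i => n i * ∏ k ∈ Finset.univ.erase i, s k,
    Finset.prod_ne_zero_iff.2 (fun i _ => hs i), fun i => ?_⟩
  rw [← Finset.mul_prod_erase Finset.univ s (Finset.mem_univ i), map_mul, map_mul,
    mul_right_comm, h i]

/-- **[MOD-ALG1]** every coordinate extends to a presentation. -/
theorem alg1Statement : Fermat.Agent.P5.helper37.Alg1Statement := by
  intro F _ _ x hx hfin
  haveI := hfin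
  haveI : CharZero ℂ⟮x⟯ := charZero_of_injective_algebraMap (algebraMap ℂ ℂ⟮x⟯).injective
  let pb := Field.powerBasisOfFiniteOfSeparable ℂ⟮x⟯ F
  set d := pb.dim with hd
  set y₀ := pb.gen with hy₀
  have hμmonic : (minpoly ℂ⟮x⟯ y₀).Monic := minpoly.monic (IsIntegral.of_finite _ _)
  have hμdeg : (minpoly ℂ⟮x⟯ y₀).natDegree = d := pb.natDegree_minpoly
  -- the relation
  have hrel : y₀ ^ d + ∑ i : Fin d, (((minpoly ℂ⟮x⟯ y₀).coeff i : ℂ⟮x⟯) : F) * y₀ ^ (i : ℕ) = 0 := by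
    have h1 := minpoly.aeval ℂ⟮x⟯ y₀
    rw [aeval_eq_sum_range' (n := d + 1) (by omega), Finset.sum_range_succ] at h1
    have h2 : (minpoly ℂ⟮x⟯ y₀).coeff d = 1 := by
      rw [← hμdeg]
      exact hμmonic.coeff_natDegree
    rw [h2, one_smul, add_comm] at h1
    rw [Fin.sum_univ_eq_sum_range (fun i => (((minpoly ℂ⟮x⟯ y₀).coeff i : ℂ⟮x⟯) : F) * y₀ ^ i) d]
    simpa [Algebra.smul_def] using h1
  -- common denominator of the coefficients
  obtain ⟨b, a, hb, hab⟩ := exists_common_den hx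
    (fun i : Fin d => (((minpoly ℂ⟮x⟯ y₀).coeff i : ℂ⟮x⟯) : F)) (fun i => SetLike.coe_mem _)
  have hB : aeval x b ≠ 0 := fun h0 => hb ((transcendental_iff.1 hx) b h0)
  have hdeglt : (∑ i : Fin d, C (a i * b ^ (d - 1 - (i : ℕ))) * (X : ℂ[X][X]) ^ (i : ℕ)).degree <
      d := degree_sum_fin_lt _
  have hfmonic : ((X : ℂ[X][X]) ^ d +
      ∑ i : Fin d, C (a i * b ^ (d - 1 - (i : ℕ))) * (X : ℂ[X][X]) ^ (i : ℕ)).Monic :=
    monic_X_pow_add hdeglt
  have hfdeg : ((X : ℂ[X][X]) ^ d +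
      ∑ i : Fin d, C (a i * b ^ (d - 1 - (i : ℕ))) * (X : ℂ[X][X]) ^ (i : ℕ)).natDegree = d := by
    rw [natDegree_add_eq_left_of_degree_lt, natDegree_X_pow]
    rwa [degree_X_pow]
  have hpowB : ∀ i : Fin d, aeval x b * aeval x b ^ (d - 1 - (i : ℕ)) * aeval x b ^ (i : ℕ) =
      aeval x b ^ d := by
    intro i
    rw [← pow_succ', ← pow_add]
    congr 1
    have := i.2
    omega
  have hpowB' : ∀ i : Fin d, aeval x b ^ (d - 1 - (i : ℕ)) * aeval x b ^ (i : ℕ) =
      aeval x b ^ (d - 1) := by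
    intro i
    rw [← pow_add]
    congr 1
    have := i.2
    omega
  refine ⟨{
    x := x
    y := aeval x b * y₀
    f := (X : ℂ[X][X]) ^ d +
      ∑ i : Fin d, C (a i * b ^ (d - 1 - (i : ℕ))) * (X : ℂ[X][X]) ^ (i : ℕ)
    x_transcendental := hx
    x_finite := hfin
    f_monic := hfmonic
    f_natDegree := by rw [hfdeg, hd, pb.finrank]
    f_root := ?_
    gen := ?_ }, rfl⟩
  · -- the root
    rw [eval₂_add, eval₂_X_pow, eval₂_finsetSum]
    have hterm : ∀ i : Fin d,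
        eval₂ ((aeval x : ℂ[X] →ₐ[ℂ] F) : ℂ[X] →+* F) (aeval x b * y₀)
          (C (a i * b ^ (d - 1 - (i : ℕ))) * (X : ℂ[X][X]) ^ (i : ℕ)) =
        aeval x b ^ d * ((((minpoly ℂ⟮x⟯ y₀).coeff i : ℂ⟮x⟯) : F) * y₀ ^ (i : ℕ)) := by
      intro i
      rw [eval₂_mul, eval₂_C, eval₂_X_pow, RingHom.coe_coe, map_mul, map_pow, ← hab i, mul_pow,
        ← hpowB i]
      ring
    rw [Finset.sum_congr rfl (fun i _ => hterm i), ← Finset.mul_sum, mul_pow, ← mul_add, hrel,
      mul_zero]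
  · -- generation
    intro h
    rw [hfdeg]
    obtain ⟨q₀, m, hq₀, hm⟩ := exists_common_den hx
      (fun j : Fin d => ((pb.basis.repr h j : ℂ⟮x⟯) : F)) (fun j => SetLike.coe_mem _)
    have hh : h = ∑ j : Fin d, ((pb.basis.repr h j : ℂ⟮x⟯) : F) * y₀ ^ (j : ℕ) := by
      conv_lhs => rw [← pb.basis.sum_repr h]
      refine Finset.sum_congr rfl fun j _ => ?_
      rw [pb.basis_eq_pow, Algebra.smul_def]
      rfl
    refine ⟨fun j => m j * b ^ (d - 1 - (j : ℕ)), q₀ * b ^ (d - 1),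
      mul_ne_zero hq₀ (pow_ne_zero _ hb), ?_⟩
    conv_lhs => rw [hh]
    rw [Finset.mul_sum]
    refine Finset.sum_congr rfl fun j _ => ?_
    rw [map_mul, map_mul, map_pow, map_pow, ← hm j, mul_pow, ← hpowB' j]
    ring

end Fermat.Agent.P5.helper10

end
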