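/-
P5 / S27 (helper25, architect): THE CUT MODEL of a complex function field `F/ℂ`
(interface between module MOD, which constructs it, and modules MONO / SURJ, which consume it).

Everything is a statement about functions on open subsets of the plane:

* `x ∈ F` transcendental, `d = [F : ℂ(x)]`;
* finitely many "bad" values `b i` (zeros of a discriminant), a base point `z₀`, the closed rays
  `ray z₀ (b i) = {b i + s (b i - z₀) | s ≥ 0}`, and the star-shaped open set `U₀ = ℂ ∖ rays`;
* `d` sheets: for every `h ∈ F` and `k : Fin d` a function `ev k h : ℂ → ℂ`, meromorphic on `U₀`;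
* crossing the ray of `b i` from the LEFT (counterclockwise side) to the RIGHT continues the sheet
  `k` to the sheet `σ i k`;
* every place of `F` is exactly one of: an interior place `pl k z` (`z ∈ U₀`), a ray place
  `plRay i k a`, a bad place `plBad i k` (depending only on the `σ i`-cycle of `k`), a place at
  infinity `plInf k`; orders of functions are orders of the corresponding local parametrisations;
* global generation: a tuple of meromorphic functions on the sheets with the same gluing pattern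
  and meromorphic local parametrisations comes from an element of `F`.
-/
import Mathlib
import Fermat.Prelude.Def_AlgebraicCurve_DivisorClassGroup
import Fermat.Prelude.Def_AlgebraicCurve_IsCurveOver
import Fermat.Prelude.Def_AlgebraicCurve_Repartitions
import Fermat.Prelude.Def_AlgebraicCurve_CanonicalDivisor

set_option autoImplicit false

open AlgebraicCurve Filter Topology

namespace Fermat.Agent.P5.helper25

noncomputable section

/-! ### Plane geometry of the cuts -/

/-- The closed ray from `b` pointing away from `z₀`. -/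
def ray (z₀ b : ℂ) : Set ℂ := {z | ∃ s : ℝ, 0 ≤ s ∧ z = b + (s : ℂ) * (b - z₀)}

/-- The open ray from `b` pointing away from `z₀`. -/
def openRay (z₀ b : ℂ) : Set ℂ := {z | ∃ s : ℝ, 0 < s ∧ z = b + (s : ℂ) * (b - z₀)}

/-- The left (counterclockwise) side of the ray from `b` away from `z₀`. -/
def leftSide (z₀ b : ℂ) : Set ℂ := {z | 0 < ((z - b) / (b - z₀)).im}

/-- The right (clockwise) side of the ray from `b` away from `z₀`. -/
def rightSide (z₀ b : ℂ) : Set ℂ := {z | ((z - b) / (b - z₀)).im < 0}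

/-- The open sector `{ρ e^{iφ} : ρ > 0, φ₁ < φ < φ₂}` (angles are arbitrary real numbers). -/
def sector (φ₁ φ₂ : ℝ) : Set ℂ :=
  {s | ∃ ρ φ : ℝ, 0 < ρ ∧ φ₁ < φ ∧ φ < φ₂ ∧ s = (ρ : ℂ) * Complex.exp ((φ : ℂ) * Complex.I)}

/-- The unit vector in the direction `b - z₀`. -/
def unitDir (z₀ b : ℂ) : ℂ := (b - z₀) / ((‖b - z₀‖ : ℝ) : ℂ)

/-- The geometric part of a cut model: a base point and finitely many bad points with pairwise
distinct directions, listed in counterclockwise order. -/
structure CutGeometry where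
  /-- the centre of the star -/
  z₀ : ℂ
  /-- the number of bad points -/
  r : ℕ
  /-- the bad points, in counterclockwise order as seen from `z₀` -/
  b : Fin r → ℂ
  b_ne : ∀ i, b i ≠ z₀
  arg_strictMono : StrictMono fun i => Complex.arg (b i - z₀)

namespace CutGeometry

variable (G : CutGeometry)

/-- The cut plane. -/
def U₀ : Set ℂ := {z | ∀ i, z ∉ ray G.z₀ (G.b i)}

/-- The argument of the `i`-th direction. -/
def θ (i : Fin G.r) : ℝ := Complex.arg (G.b i - G.z₀)

/-- The `i`-th sector at infinity: the directions strictly between the `i`-th ray and the next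
one (counterclockwise; the last sector wraps around). `i = r` is not allowed; for `r = 0` there
is no sector and no cut. -/
def sectorInf (i : Fin G.r) : Set ℂ :=
  if h : (i : ℕ) + 1 < G.r then sector (G.θ i) (G.θ ⟨i + 1, h⟩)
  else sector (G.θ i) (G.θ ⟨0, Nat.pos_of_ne_zero (fun h0 => (Fin.pos i).ne' h0)⟩ + 2 * Real.pi)

end CutGeometry

/-! ### The cut model -/

variable (F : Type) [Field F] [Algebra ℂ F]

/-- **The cut model** of the function field `F/ℂ`. -/
structure CutModel extends CutGeometry where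
  /-- the coordinate function -/
  x : F
  x_transcendental : Transcendental ℂ x
  x_finite : FiniteDimensional (IntermediateField.adjoin ℂ {x}) F
  /-- the number of sheets `d = [F : ℂ(x)]` -/
  d : ℕ
  d_pos : 0 < d
  /-- evaluation of `h ∈ F` on the `k`-th sheet -/
  ev : Fin d → F → ℂ → ℂ
  /-- the crossing permutations -/
  σ : Fin r → Equiv.Perm (Fin d)
  -- sheets
  ev_meromorphicOn : ∀ k h, MeromorphicOn (ev k h) toCutGeometry.U₀
  ev_x : ∀ k, Set.EqOn (ev k x) id toCutGeometry.U₀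
  ev_algebraMap : ∀ k (c : ℂ), Set.EqOn (ev k (algebraMap ℂ F c)) (fun _ => c) toCutGeometry.U₀
  ev_add : ∀ k h₁ h₂, ∀ z ∈ toCutGeometry.U₀,
    ev k (h₁ + h₂) =ᶠ[𝓝[≠] z] fun w => ev k h₁ w + ev k h₂ w
  ev_mul : ∀ k h₁ h₂, ∀ z ∈ toCutGeometry.U₀,
    ev k (h₁ * h₂) =ᶠ[𝓝[≠] z] fun w => ev k h₁ w * ev k h₂ w
  /-- compatibility with the derivation `d/dx` -/
  ev_deriv : ∀ k (h h' : F), KaehlerDifferential.D ℂ F h = h' • KaehlerDifferential.D ℂ F x →
    ∀ z ∈ toCutGeometry.U₀, ev k h' =ᶠ[𝓝[≠] z] deriv (ev k h)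
  /-- `dx` generates the differentials -/
  dx_spans : ∀ τ : Ω[F⁄ℂ], ∃ h : F, τ = h • KaehlerDifferential.D ℂ F x
  -- the four kinds of places
  /-- interior places -/
  pl : Fin d → ℂ → Place ℂ F
  /-- places over the open rays, labelled by the sheet on the LEFT side -/
  plRay : Fin r → Fin d → ℂ → Place ℂ F
  /-- places over the bad points (`plBad i k` depends only on the `σ i`-cycle of `k`) -/
  plBad : Fin r → Fin d → Place ℂ F
  /-- places over `∞`, labelled by the sheet on the last (wrap-around) sector; if `r = 0` this is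
  simply the sheet -/
  plInf : Fin d → Place ℂ F
  pl_ord : ∀ k z, z ∈ toCutGeometry.U₀ → ∀ h : F, h ≠ 0 →
    ((pl k z).ord h : WithTop ℤ) = meromorphicOrderAt (ev k h) z
  /-- crossing: the germ of sheet `k` on the left of the `i`-th ray continues to the germ of
  sheet `σ i k` on the right -/
  cross : ∀ (i : Fin r) (k : Fin d) (a : ℂ), a ∈ openRay z₀ (b i) → ∀ h : F, h ≠ 0 →
    ∃ g : ℂ → ℂ, MeromorphicAt g a ∧
      (∀ᶠ z in 𝓝[≠] a, z ∈ leftSide z₀ (b i) → g z = ev k h z) ∧
      (∀ᶠ z in 𝓝[≠] a, z ∈ rightSide z₀ (b i) → g z = ev (σ i k) h z) ∧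
      ((plRay i k a).ord h : WithTop ℤ) = meromorphicOrderAt g a
  /-- Puiseux parametrisation at a bad point: with `e` the length of the `σ i`-cycle of `k` and
  `z = b i + s ^ e * u` (`u` the unit direction of the ray), the `j`-th sector of the `s`-disc
  lies on the sheet `(σ i)⁻¹ ^ j k`. -/
  puiseux : ∀ (i : Fin r) (k : Fin d) (h : F), h ≠ 0 →
    ∃ H : ℂ → ℂ, MeromorphicAt H 0 ∧
      (∀ j : ℕ, ∀ᶠ s in 𝓝[≠] (0 : ℂ),
        s ∈ sector (2 * Real.pi * j / Function.minimalPeriod (σ i) k)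
            (2 * Real.pi * (j + 1) / Function.minimalPeriod (σ i) k) →
          H s = ev (((σ i)⁻¹ ^ j) k) h
            (b i + s ^ Function.minimalPeriod (σ i) k * unitDir z₀ (b i))) ∧
      ((plBad i k).ord h : WithTop ℤ) = meromorphicOrderAt H 0
  plBad_apply : ∀ i k, plBad i (σ i k) = plBad i k
  /-- the product of the crossing permutations is trivial (`∞` is a good point) -/
  prod_σ : (List.ofFn σ).prod = 1
  /-- parametrisation at infinity, `z = z₀ + w⁻¹`: on the `i`-th sector at infinity the point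
  `plInf k` lies on the sheet `(σ 0 * ⋯ * σ i)⁻¹ k`. -/
  atInf : ∀ (k : Fin d) (h : F), h ≠ 0 →
    ∃ H : ℂ → ℂ, MeromorphicAt H 0 ∧
      (∀ i : Fin r, ∀ᶠ w in 𝓝[≠] (0 : ℂ), w⁻¹ ∈ toCutGeometry.sectorInf i →
          H w = ev ((((List.ofFn σ).take (i + 1)).prod)⁻¹ k) h (z₀ + w⁻¹)) ∧
      (r = 0 → ∀ᶠ w in 𝓝[≠] (0 : ℂ), H w = ev k h (z₀ + w⁻¹)) ∧
      ((plInf k).ord h : WithTop ℤ) = meromorphicOrderAt H 0
  -- the dictionary is bijective
  exhaust : ∀ P : Place ℂ F,
    (∃ k z, z ∈ toCutGeometry.U₀ ∧ P = pl k z) ∨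
    (∃ i k a, a ∈ openRay z₀ (b i) ∧ P = plRay i k a) ∨
    (∃ i k, P = plBad i k) ∨ (∃ k, P = plInf k)
  pl_injective : ∀ k k' z z', z ∈ toCutGeometry.U₀ → z' ∈ toCutGeometry.U₀ →
    pl k z = pl k' z' → k = k' ∧ z = z'
  pl_ne_plRay : ∀ k z i k' a, z ∈ toCutGeometry.U₀ → a ∈ openRay z₀ (b i) →
    pl k z ≠ plRay i k' a
  pl_ne_plBad : ∀ k z i k', z ∈ toCutGeometry.U₀ → pl k z ≠ plBad i k'
  pl_ne_plInf : ∀ k z k', z ∈ toCutGeometry.U₀ → pl k z ≠ plInf k'
  plBad_injective : ∀ i k i' k', plBad i k = plBad i' k' → i = i' ∧ ∃ j : ℕ, ((σ i) ^ j) k = k'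
  plBad_ne_plInf : ∀ i k k', plBad i k ≠ plInf k'
  plBad_ne_plRay : ∀ i k i' k' a, a ∈ openRay z₀ (b i') → plBad i k ≠ plRay i' k' a
  plInf_injective : Function.Injective plInf
  plInf_ne_plRay : ∀ k i' k' a, a ∈ openRay z₀ (b i') → plInf k ≠ plRay i' k' a
  -- connectedness and global generation
  transitive : ∀ k k' : Fin d, ∃ g ∈ Subgroup.closure (Set.range σ), g k = k'
  /-- global generation -/
  glue : ∀ u : Fin d → ℂ → ℂ, (∀ k, MeromorphicOn (u k) toCutGeometry.U₀) →
    (∀ (i : Fin r) (k : Fin d) (a : ℂ), a ∈ openRay z₀ (b i) →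
      ∃ g : ℂ → ℂ, MeromorphicAt g a ∧
        (∀ᶠ z in 𝓝[≠] a, z ∈ leftSide z₀ (b i) → g z = u k z) ∧
        (∀ᶠ z in 𝓝[≠] a, z ∈ rightSide z₀ (b i) → g z = u (σ i k) z)) →
    (∀ (i : Fin r) (k : Fin d), ∃ H : ℂ → ℂ, MeromorphicAt H 0 ∧
      ∀ j : ℕ, ∀ᶠ s in 𝓝[≠] (0 : ℂ),
        s ∈ sector (2 * Real.pi * j / Function.minimalPeriod (σ i) k)
            (2 * Real.pi * (j + 1) / Function.minimalPeriod (σ i) k) →
          H s = u (((σ i)⁻¹ ^ j) k)
            (b i + s ^ Function.minimalPeriod (σ i) k * unitDir z₀ (b i))) →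
    (∀ k : Fin d, ∃ H : ℂ → ℂ, MeromorphicAt H 0 ∧
      (∀ i : Fin r, ∀ᶠ w in 𝓝[≠] (0 : ℂ), w⁻¹ ∈ toCutGeometry.sectorInf i →
          H w = u ((((List.ofFn σ).take (i + 1)).prod)⁻¹ k) (z₀ + w⁻¹)) ∧
      (r = 0 → ∀ᶠ w in 𝓝[≠] (0 : ℂ), H w = u k (z₀ + w⁻¹))) →
    ∃ h : F, ∀ k, ∀ z ∈ toCutGeometry.U₀, u k =ᶠ[𝓝[≠] z] ev k h

namespace CutModel

variable {F}
variable (M : CutModel F)

/-- The interior places of a cut model. -/
def interior : Set (Place ℂ F) := {P | ∃ k z, z ∈ M.toCutGeometry.U₀ ∧ P = M.pl k z}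

end CutModel

/-- **[MOD]** cut models exist and can be adapted to any finite set of places avoiding a fixed
finite set of bad places. -/
def ExistsCutModel : Prop :=
  ∀ (F : Type) [Field F] [Algebra ℂ F] [IsCurveOver ℂ F] [Algebra.EssFiniteType ℂ F],
    ∃ Bad : Finset (Place ℂ F), ∀ S : Finset (Place ℂ F), Disjoint S Bad →
      ∃ M : CutModel F, ∀ P ∈ S, P ∈ M.interior

end

end Fermat.Agent.P5.helper25
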