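/-
P5 / S27 (helper25, architect): definitions for the analytic core.

* `PermDatum`, its cochain complex `C⁰ → C¹ → C²` with coefficients in an abelian group `A`,
  `Z1`, `B1`, `H1`, the first Betti number `b1` (module COMB);
* logarithmic differentials `dlog`, `HasLogPole`, `HasResidueDivisor` (module RR-CON);
* the statements of the modules COMB, RR-CON, MONO+SURJ (`RHStatement`), M6 (`B1Statement`).
-/
import Mathlib
import Fermat.Agent.P5.helper25_CutModel

set_option autoImplicit false

open AlgebraicCurve Filter Topology KaehlerDifferential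

namespace Fermat.Agent.P5.helper25

noncomputable section

/-! ### The finite permutation complex (module COMB) -/

/-- A tuple of permutations of the `d` sheets (the crossing permutations of the `r` cuts). -/
structure PermDatum where
  d : ℕ
  r : ℕ
  σ : Fin r → Equiv.Perm (Fin d)

namespace PermDatum

variable (P : PermDatum) (A : Type*) [AddCommGroup A]

/-- `π i = σ 0 * ⋯ * σ (i - 1)`. -/
def partialProd (i : ℕ) : Equiv.Perm (Fin P.d) := ((List.ofFn P.σ).take i).prod

/-- The point at infinity is good. -/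
def IsClosed : Prop := (List.ofFn P.σ).prod = 1

/-- The sheets are connected. -/
def IsTransitive : Prop :=
  ∀ k k' : Fin P.d, ∃ g ∈ Subgroup.closure (Set.range P.σ), g k = k'

/-- The coboundary `C⁰ → C¹`: `(δ⁰ a) i k = a k - a (σ i k)` (jump from the left sheet `k` to
the right sheet `σ i k` across the `i`-th cut). -/
def δ0 : (Fin P.d → A) →+ (Fin P.r → Fin P.d → A) where
  toFun a i k := a k - a (P.σ i k)
  map_zero' := by funext i k; simp
  map_add' a b := by funext i k; simp only [Pi.add_apply]; abel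

variable {A}

/-- The sum of a `1`-cochain around the vertex over the `i`-th bad point given by the cycle
of `k`. -/
def vertexSum (c : Fin P.r → Fin P.d → A) (i : Fin P.r) (k : Fin P.d) : A :=
  ∑ j ∈ Finset.range (Function.minimalPeriod (P.σ i) k), c i (((P.σ i) ^ j) k)

/-- The sum of a `1`-cochain around the point at infinity labelled by `k`. -/
def infSum (c : Fin P.r → Fin P.d → A) (k : Fin P.d) : A :=
  ∑ i : Fin P.r, c i ((P.partialProd (i + 1))⁻¹ k)

variable (A)

/-- The `1`-cocycles. -/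
def Z1 : AddSubgroup (Fin P.r → Fin P.d → A) where
  carrier := {c | (∀ i k, P.vertexSum c i k = 0) ∧ ∀ k, P.infSum c k = 0}
  zero_mem' := ⟨fun i k => by simp [vertexSum], fun k => by simp [infSum]⟩
  add_mem' := by
    rintro c c' ⟨h1, h2⟩ ⟨h1', h2'⟩
    refine ⟨fun i k => ?_, fun k => ?_⟩
    · have e1 := h1 i k
      have e2 := h1' i k
      unfold vertexSum at e1 e2 ⊢
      simp only [Pi.add_apply, Finset.sum_add_distrib]
      rw [e1, e2, add_zero]
    · have e1 := h2 k
      have e2 := h2' k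
      unfold infSum at e1 e2 ⊢
      simp only [Pi.add_apply, Finset.sum_add_distrib]
      rw [e1, e2, add_zero]
  neg_mem' := by
    rintro c ⟨h1, h2⟩
    refine ⟨fun i k => ?_, fun k => ?_⟩
    · have e1 := h1 i k
      unfold vertexSum at e1 ⊢
      simp only [Pi.neg_apply, Finset.sum_neg_distrib]
      rw [e1, neg_zero]
    · have e1 := h2 k
      unfold infSum at e1 ⊢
      simp only [Pi.neg_apply, Finset.sum_neg_distrib]
      rw [e1, neg_zero]

/-- The `1`-coboundaries. -/
def B1 : AddSubgroup (Fin P.r → Fin P.d → A) := (P.δ0 A).range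

/-- The first cohomology group of the complex. -/
abbrev H1 : Type _ := P.Z1 A ⧸ (P.B1 A).addSubgroupOf (P.Z1 A)

/-- The number of cycles of `σ i`. -/
def numCycles (i : Fin P.r) : ℕ := Nat.card (Quotient (Equiv.Perm.SameCycle.setoid (P.σ i)))

/-- The first Betti number `2 - χ`, `χ = d - r d + (∑ #cycles + d)`. -/
def b1 : ℕ := P.r * P.d + 2 - 2 * P.d - ∑ i, P.numCycles i

end PermDatum

/-- **[COMB-1]** coboundaries are cocycles. -/
def CombB1LeZ1 : Prop :=
  ∀ (P : PermDatum) (A : Type) [AddCommGroup A], P.IsClosed → P.B1 A ≤ P.Z1 A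

/-- **[COMB-2]** the count with coefficients in `ℂˣ`: the `ℓ`-torsion of `H¹(ℂˣ)` has
`ℓ ^ b1` elements. -/
def CombTorsion : Prop :=
  ∀ (P : PermDatum), 0 < P.d → P.IsClosed → P.IsTransitive → ∀ ℓ : ℕ, ℓ.Prime →
    Nat.card (Submodule.torsionBy ℤ (P.H1 (Additive ℂˣ)) (ℓ : ℤ)) = ℓ ^ P.b1

/-- **[COMB-3]** `H¹(ℂˣ)` is divisible. -/
def CombDivisible : Prop :=
  ∀ (P : PermDatum), 0 < P.d → P.IsClosed → P.IsTransitive → ∀ n : ℕ, 0 < n →
    ∀ c : P.H1 (Additive ℂˣ), ∃ c' : P.H1 (Additive ℂˣ), (n : ℤ) • c' = c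

/-- **[COMB-4]** every multiplicative cocycle is the exponential of an additive cocycle. -/
def CombExp : Prop :=
  ∀ (P : PermDatum), 0 < P.d → P.IsClosed → P.IsTransitive →
    ∀ c ∈ P.Z1 (Additive ℂˣ), ∃ c' ∈ P.Z1 ℂ,
      ∀ i k, Complex.exp (c' i k) = ((Additive.toMul (c i k) : ℂˣ) : ℂ)

/-- **[COMB-5]** the dimension of the space of additive cocycles: `(d - 1) + b1`, and that of
the coboundaries: `d - 1`. -/
def CombDim : Prop :=
  ∀ (P : PermDatum), 0 < P.d → P.IsClosed → P.IsTransitive →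
    Module.finrank ℂ (Submodule.span ℂ ((P.Z1 ℂ : Set (Fin P.r → Fin P.d → ℂ)))) = P.d - 1 + P.b1 ∧
    Module.finrank ℂ (Submodule.span ℂ ((P.B1 ℂ : Set (Fin P.r → Fin P.d → ℂ)))) = P.d - 1

/-! ### Logarithmic differentials (module RR-CON) -/

section logdiff

variable (F : Type) [Field F] [Algebra ℂ F]

/-- The logarithmic differential `dh / h`. -/
def dlog (h : F) : Ω[F⁄ℂ] := h⁻¹ • KaehlerDifferential.D ℂ F h

variable {F}

/-- `τ` has at most a simple pole at `v`, with residue `m ∈ ℤ`: `τ - m dt/t` is regular at `v`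
for a uniformiser `t`. -/
def HasLogPole (v : Place ℂ F) (τ : Ω[F⁄ℂ]) (m : ℤ) : Prop :=
  ∃ t : F, v.ord t = 1 ∧ 0 ≤ v.ordDifferential (τ - m • dlog F t)

/-- `τ` is a differential of the third kind with integral residues, with residue divisor `D`. -/
def HasResidueDivisor (τ : Ω[F⁄ℂ]) (D : Divisor ℂ F) : Prop :=
  ∀ v : Place ℂ F, HasLogPole v τ (D v)

/-- The statements of module RR-CON for the function field `F/ℂ`. -/
structure RRCon (F : Type) [Field F] [Algebra ℂ F] : Prop where
  /-- the residue divisor of `dlog h` is the divisor of `h` -/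
  dlog_residue : ∀ (h : F) (D : Divisor ℂ F), h ≠ 0 → (∀ v : Place ℂ F, D v = v.ord h) →
    HasResidueDivisor (dlog F h) D
  /-- residues are unique -/
  residue_unique : ∀ (v : Place ℂ F) (τ : Ω[F⁄ℂ]) (m m' : ℤ),
    HasLogPole v τ m → HasLogPole v τ m' → m = m'
  add : ∀ (τ τ' : Ω[F⁄ℂ]) (D D' : Divisor ℂ F),
    HasResidueDivisor τ D → HasResidueDivisor τ' D' → HasResidueDivisor (τ + τ') (D + D')
  neg : ∀ (τ : Ω[F⁄ℂ]) (D : Divisor ℂ F), HasResidueDivisor τ D → HasResidueDivisor (-τ) (-D)
  /-- holomorphic differentials form a `ℂ`-vector space -/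
  smul_holomorphic : ∀ (τ : Ω[F⁄ℂ]) (c : ℂ), HasResidueDivisor τ 0 →
    HasResidueDivisor (c • τ) 0
  /-- existence of differentials of the third kind -/
  exists_thirdKind : ∀ D : Divisor ℂ F, Divisor.degree D = 0 → ∃ τ : Ω[F⁄ℂ],
    HasResidueDivisor τ D
  /-- a function without zeros and poles is constant -/
  const_of_ord_eq_zero : ∀ h : F, h ≠ 0 → (∀ v : Place ℂ F, v.ord h = 0) →
    ∃ c : ℂ, h = algebraMap ℂ F c
  /-- the moving lemma -/
  moving : ∀ (c : Pic0 ℂ F) (Bad : Finset (Place ℂ F)),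
    ∃ D : Divisor.degZero (K := ℂ) (F := F), Pic0.mk D = c ∧ ∀ v ∈ Bad, (D : Divisor ℂ F) v = 0

end logdiff

/-- **[RR-CON]** -/
def RRConStatement : Prop :=
  ∀ (F : Type) [Field F] [Algebra ℂ F] [IsCurveOver ℂ F] [Algebra.EssFiniteType ℂ F], RRCon F

/-! ### The Riemann-Hilbert statement (modules MONO + SURJ) -/

section RH

variable {F : Type} [Field F] [Algebra ℂ F]

/-- The permutation datum of a cut model. -/
def CutModel.permDatum (M : CutModel F) : PermDatum := ⟨M.d, M.r, M.σ⟩

/-- Differentials of the third kind with integral residues, all poles at interior places of the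
cut model. -/
def CutModel.T₀ (M : CutModel F) : Set Ω[F⁄ℂ] :=
  {τ | ∃ D : Divisor ℂ F, HasResidueDivisor τ D ∧ ∀ v, D v ≠ 0 → v ∈ M.interior}

/-- **The Riemann-Hilbert statement** for a cut model: the monodromy map
`T₀ → H¹(ℂˣ)` is additive, surjective, with kernel the logarithmic differentials of functions. -/
def RH (M : CutModel F) : Prop :=
  ∃ mono : Ω[F⁄ℂ] → M.permDatum.H1 (Additive ℂˣ),
    (∀ τ ∈ M.T₀, ∀ τ' ∈ M.T₀, mono (τ + τ') = mono τ + mono τ') ∧
    (∀ τ ∈ M.T₀, mono τ = 0 ↔ ∃ h : F, h ≠ 0 ∧ τ = dlog F h) ∧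
    (∀ c : M.permDatum.H1 (Additive ℂˣ), ∃ τ ∈ M.T₀, mono τ = c)

end RH

/-- **[MONO+SURJ]** -/
def RHStatement : Prop :=
  ∀ (F : Type) [Field F] [Algebra ℂ F] [IsCurveOver ℂ F] [Algebra.EssFiniteType ℂ F]
    (M : CutModel F), RH M

/-- **[M6]** Riemann-Hurwitz bookkeeping: the first Betti number of the complex of a cut model
is `2 genusFF`, and the permutation datum is closed and transitive. -/
def B1Statement : Prop :=
  ∀ (F : Type) [Field F] [Algebra ℂ F] [IsCurveOver ℂ F] [Algebra.EssFiniteType ℂ F]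
    (M : CutModel F), M.permDatum.b1 = 2 * genusFF ℂ F

end

end Fermat.Agent.P5.helper25
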