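/-
P5 / S27 (helper25, architect): interface of module RR for the consumers MONO / SURJ / M6 / CNT.

Everything is stated for function fields `F/ℂ` in the language of the Prelude
(`Place.ordDifferential`, `Divisor`, `genusFF`).

* `HasSimplePole v τ c` : `τ - c • dlog t` is regular at `v` (`c : ℂ`, `t` a uniformiser);
* `RRSurj F`            : the four inputs of module SURJ:
    `ml`  Mittag-Leffler with one free simple pole,
    `rt`  the residue theorem for differentials with at most simple poles,
    `hol` `genusFF` linearly independent holomorphic differentials,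
    `ns`  non-special divisors of degree `genusFF` inside any infinite set of places;
* `RRSurjStatement`.

The other two deliverables of module RR are `RRConStatement` (`helper25_RHDefs.lean`) and
`Fermat.Agent.P5.helper4.CanonDegStatement` (`helper4_RHCanon.lean`).
-/
import Mathlib
import Fermat.Agent.P5.helper25_RHDefs

set_option autoImplicit false

open AlgebraicCurve KaehlerDifferential

namespace Fermat.Agent.P5.helper25

noncomputable section

variable {F : Type} [Field F] [Algebra ℂ F]

/-- `τ` has at most a simple pole at `v`, with residue `c ∈ ℂ`. -/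
def HasSimplePole (v : Place ℂ F) (τ : Ω[F⁄ℂ]) (c : ℂ) : Prop :=
  ∃ t : F, v.ord t = 1 ∧ 0 ≤ v.ordDifferential (τ - c • dlog F t)

/-- `τ` is regular at `v`. -/
def IsRegularAt (v : Place ℂ F) (τ : Ω[F⁄ℂ]) : Prop := 0 ≤ v.ordDifferential τ

variable (F)

/-- The inputs of module SURJ from Riemann-Roch. -/
structure RRSurj : Prop where
  /-- Mittag-Leffler with one free simple pole: every differential `ω` can be corrected to a
  differential `θ` with the same principal parts on `S`, regular outside `S ∪ {P₀}`, with at most
  a simple pole at `P₀`. -/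
  ml : ∀ (ω : Ω[F⁄ℂ]) (S : Finset (Place ℂ F)) (P₀ : Place ℂ F), P₀ ∉ S →
    ∃ θ : Ω[F⁄ℂ], (∀ Q ∈ S, IsRegularAt Q (θ - ω)) ∧
      (∀ Q : Place ℂ F, Q ∉ S → Q ≠ P₀ → IsRegularAt Q θ) ∧ -1 ≤ P₀.ordDifferential θ
  /-- a differential with at most a simple pole has a residue -/
  exists_residue : ∀ (v : Place ℂ F) (τ : Ω[F⁄ℂ]), -1 ≤ v.ordDifferential τ →
    ∃ c : ℂ, HasSimplePole v τ c
  /-- the residue theorem for differentials with at most simple poles -/
  rt : ∀ (τ : Ω[F⁄ℂ]) (c : Place ℂ F →₀ ℂ), (∀ v, HasSimplePole v τ (c v)) →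
    (c.sum fun _ a => a) = 0
  /-- there are `genusFF` linearly independent holomorphic differentials -/
  hol : ∃ ω : Fin (genusFF ℂ F) → Ω[F⁄ℂ], LinearIndependent ℂ ω ∧
    ∀ i v, IsRegularAt v (ω i)
  /-- non-special divisors: inside every infinite set of places there are `genusFF` distinct
  places such that every function with at most simple poles at these places and no other pole
  is constant -/
  ns : ∀ A : Set (Place ℂ F), A.Infinite →
    ∃ P : Fin (genusFF ℂ F) → Place ℂ F, Function.Injective P ∧ (∀ j, P j ∈ A) ∧
      ∀ f : F, f ≠ 0 → (∀ v, (∃ j, P j = v) → -1 ≤ v.ord f) →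
        (∀ v, (¬ ∃ j, P j = v) → 0 ≤ v.ord f) → ∃ c : ℂ, f = algebraMap ℂ F c

/-- **[RR-SURJ]** -/
def RRSurjStatement : Prop :=
  ∀ (F : Type) [Field F] [Algebra ℂ F] [IsCurveOver ℂ F] [Algebra.EssFiniteType ℂ F], RRSurj F

end

end Fermat.Agent.P5.helper25
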