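/-
P5 / S27, module COMB (helper56): the finite permutation complex of a `PermDatum`.
Core lemmas: partial products, naturality, telescoping (`B1 ≤ Z1`), orbit form of the
vertex sums, indicator cochains.
-/
import Mathlib
import Fermat.Agent.P5.helper25_RHDefs

set_option autoImplicit false
set_option linter.unusedSectionVars false
set_option linter.unusedVariables false

open Fermat.Agent.P5.helper25

namespace Fermat.Agent.P5.helper56

variable (P : PermDatum)

theorem perm_apply_inv_self {n : ℕ} (g : Equiv.Perm (Fin n)) (k : Fin n) : g (g⁻¹ k) = k :=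
  g.apply_symm_apply k

theorem perm_inv_apply_self {n : ℕ} (g : Equiv.Perm (Fin n)) (k : Fin n) : g⁻¹ (g k) = k :=
  g.symm_apply_apply k

/-! ### Partial products -/

theorem partialProd_zero : P.partialProd 0 = 1 := by
  simp [PermDatum.partialProd]

theorem partialProd_succ (i : Fin P.r) :
    P.partialProd ((i : ℕ) + 1) = P.partialProd i * P.σ i := by
  unfold PermDatum.partialProd
  rw [List.prod_take_succ _ _ (by simp)]
  simp

theorem partialProd_r (h : P.IsClosed) : P.partialProd P.r = 1 := by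
  unfold PermDatum.partialProd
  rw [List.take_of_length_le (by simp)]
  exact h

/-! ### Naturality in the coefficient group -/

section naturality

variable {A B : Type*} [AddCommGroup A] [AddCommGroup B] (φ : A →+ B)

theorem vertexSum_map (c : Fin P.r → Fin P.d → A) (i : Fin P.r) (k : Fin P.d) :
    P.vertexSum (fun i k => φ (c i k)) i k = φ (P.vertexSum c i k) := by
  simp [PermDatum.vertexSum, map_sum]

theorem infSum_map (c : Fin P.r → Fin P.d → A) (k : Fin P.d) :
    P.infSum (fun i k => φ (c i k)) k = φ (P.infSum c k) := by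
  simp [PermDatum.infSum, map_sum]

theorem δ0_map (a : Fin P.d → A) :
    P.δ0 B (fun k => φ (a k)) = fun i k => φ (P.δ0 A a i k) := by
  funext i k
  simp [PermDatum.δ0]

theorem map_mem_Z1 {c : Fin P.r → Fin P.d → A} (hc : c ∈ P.Z1 A) :
    (fun i k => φ (c i k)) ∈ P.Z1 B := by
  refine ⟨fun i k => ?_, fun k => ?_⟩
  · rw [vertexSum_map, hc.1 i k, map_zero]
  · rw [infSum_map, hc.2 k, map_zero]

theorem map_mem_B1 {c : Fin P.r → Fin P.d → A} (hc : c ∈ P.B1 A) :
    (fun i k => φ (c i k)) ∈ P.B1 B := by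
  obtain ⟨a, rfl⟩ := hc
  exact ⟨fun k => φ (a k), δ0_map P φ a⟩

theorem mem_Z1_of_map_injective (hφ : Function.Injective φ) {c : Fin P.r → Fin P.d → A}
    (hc : (fun i k => φ (c i k)) ∈ P.Z1 B) : c ∈ P.Z1 A := by
  refine ⟨fun i k => hφ ?_, fun k => hφ ?_⟩
  · rw [← vertexSum_map, hc.1 i k, map_zero]
  · rw [← infSum_map, hc.2 k, map_zero]

end naturality

variable {A : Type*} [AddCommGroup A]

theorem mem_Z1_iff (c : Fin P.r → Fin P.d → A) :
    c ∈ P.Z1 A ↔ (∀ i k, P.vertexSum c i k = 0) ∧ ∀ k, P.infSum c k = 0 := Iff.rfl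

theorem δ0_apply (a : Fin P.d → A) (i : Fin P.r) (k : Fin P.d) :
    P.δ0 A a i k = a k - a (P.σ i k) := rfl

theorem vertexSum_add (c c' : Fin P.r → Fin P.d → A) (i : Fin P.r) (k : Fin P.d) :
    P.vertexSum (c + c') i k = P.vertexSum c i k + P.vertexSum c' i k := by
  simp [PermDatum.vertexSum, Finset.sum_add_distrib]

theorem infSum_add (c c' : Fin P.r → Fin P.d → A) (k : Fin P.d) :
    P.infSum (c + c') k = P.infSum c k + P.infSum c' k := by
  simp [PermDatum.infSum, Finset.sum_add_distrib]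

/-! ### Periods -/

theorem mem_periodicPts (i : Fin P.r) (k : Fin P.d) :
    k ∈ Function.periodicPts (P.σ i) := by
  refine Function.mk_mem_periodicPts (orderOf_pos (P.σ i)) ?_
  show (⇑(P.σ i))^[orderOf (P.σ i)] k = k
  rw [Equiv.Perm.iterate_eq_pow, pow_orderOf_eq_one]
  rfl

theorem minimalPeriod_pos (i : Fin P.r) (k : Fin P.d) :
    0 < Function.minimalPeriod (P.σ i) k :=
  Function.minimalPeriod_pos_of_mem_periodicPts (mem_periodicPts P i k)

theorem pow_minimalPeriod_apply (i : Fin P.r) (k : Fin P.d) :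
    ((P.σ i) ^ Function.minimalPeriod (P.σ i) k) k = k := by
  have h := Function.isPeriodicPt_minimalPeriod (P.σ i) k
  rw [Function.IsPeriodicPt, Function.IsFixedPt, Equiv.Perm.iterate_eq_pow] at h
  exact h

/-! ### Telescoping: coboundaries are cocycles -/

theorem vertexSum_δ0 (a : Fin P.d → A) (i : Fin P.r) (k : Fin P.d) :
    P.vertexSum (P.δ0 A a) i k = 0 := by
  unfold PermDatum.vertexSum
  have h : ∀ j : ℕ, P.δ0 A a i (((P.σ i) ^ j) k) =
      (fun j : ℕ => a (((P.σ i) ^ j) k)) j - (fun j : ℕ => a (((P.σ i) ^ j) k)) (j + 1) := by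
    intro j
    simp only [δ0_apply, pow_succ', Equiv.Perm.mul_apply]
  simp only [h]
  rw [Finset.sum_range_sub']
  simp only [pow_zero, Equiv.Perm.one_apply, pow_minimalPeriod_apply, sub_self]

theorem infSum_δ0 (hcl : P.IsClosed) (a : Fin P.d → A) (k : Fin P.d) :
    P.infSum (P.δ0 A a) k = 0 := by
  unfold PermDatum.infSum
  let f : ℕ → A := fun j => a ((P.partialProd j)⁻¹ k)
  have h : ∀ i : Fin P.r, P.δ0 A a i ((P.partialProd ((i : ℕ) + 1))⁻¹ k) =
      f ((i : ℕ) + 1) - f (i : ℕ) := by
    intro i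
    simp only [f, δ0_apply, partialProd_succ, mul_inv_rev, Equiv.Perm.mul_apply]
    congr 2
    exact (P.σ i).apply_symm_apply _
  simp only [h]
  rw [Fin.sum_univ_eq_sum_range (fun j : ℕ => f (j + 1) - f j) P.r, Finset.sum_range_sub]
  simp only [f, partialProd_r P hcl, partialProd_zero, sub_self]

theorem B1_le_Z1 (hcl : P.IsClosed) : P.B1 A ≤ P.Z1 A := by
  rintro c ⟨a, rfl⟩
  exact ⟨fun i k => vertexSum_δ0 P a i k, fun k => infSum_δ0 P hcl a k⟩

/-- **[COMB-1]** -/
theorem combB1LeZ1 : CombB1LeZ1 := fun P _ _ hcl => B1_le_Z1 P hcl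

/-! ### Orbit form of the vertex sums -/

theorem image_pow_eq_filter (i : Fin P.r) (k : Fin P.d) :
    (Finset.range (Function.minimalPeriod (P.σ i) k)).image (fun j => ((P.σ i) ^ j) k) =
      Finset.univ.filter (fun k' => (P.σ i).SameCycle k k') := by
  ext k'
  simp only [Finset.mem_image, Finset.mem_range, Finset.mem_filter, Finset.mem_univ, true_and]
  constructor
  · rintro ⟨j, -, rfl⟩
    exact ⟨(j : ℤ), by simp⟩
  · intro h
    obtain ⟨m, hm⟩ := h.exists_nat_pow_eq
    refine ⟨m % Function.minimalPeriod (P.σ i) k, Nat.mod_lt _ (minimalPeriod_pos P i k), ?_⟩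
    rw [← hm, ← Equiv.Perm.iterate_eq_pow, ← Equiv.Perm.iterate_eq_pow,
      Function.iterate_mod_minimalPeriod_eq]

theorem vertexSum_eq_sum_ite (c : Fin P.r → Fin P.d → A) (i : Fin P.r) (k : Fin P.d) :
    P.vertexSum c i k = ∑ k' : Fin P.d, if (P.σ i).SameCycle k k' then c i k' else 0 := by
  rw [← Finset.sum_filter, ← image_pow_eq_filter, Finset.sum_image]
  · rfl
  · intro j hj j' hj' h
    have hinj := Function.iterate_injOn_Iio_minimalPeriod (f := P.σ i) (x := k)
    refine hinj (by simpa using hj) (by simpa using hj') ?_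
    simpa only [Equiv.Perm.iterate_eq_pow] using h

theorem vertexSum_congr (c : Fin P.r → Fin P.d → A) (i : Fin P.r) {k k' : Fin P.d}
    (h : (P.σ i).SameCycle k k') : P.vertexSum c i k = P.vertexSum c i k' := by
  rw [vertexSum_eq_sum_ite, vertexSum_eq_sum_ite]
  refine Finset.sum_congr rfl fun x _ => ?_
  have : (P.σ i).SameCycle k x ↔ (P.σ i).SameCycle k' x :=
    ⟨fun h' => h.symm.trans h', fun h' => h.trans h'⟩
  simp only [this]

/-! ### Indicator cochains -/

/-- The cochain with value `a` on the edge `(i₀, k₀)` and `0` elsewhere. -/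
def edge (i₀ : Fin P.r) (k₀ : Fin P.d) (a : A) : Fin P.r → Fin P.d → A :=
  fun i k => if i = i₀ ∧ k = k₀ then a else 0

theorem edge_apply (i₀ : Fin P.r) (k₀ : Fin P.d) (a : A) (i : Fin P.r) (k : Fin P.d) :
    edge P i₀ k₀ a i k = if i = i₀ ∧ k = k₀ then a else 0 := rfl

theorem sum_edge (c : Fin P.r → Fin P.d → A) :
    ∑ i : Fin P.r, ∑ k : Fin P.d, edge P i k (c i k) = c := by
  funext i k
  simp only [Finset.sum_apply, edge_apply]
  rw [Finset.sum_eq_single i, Finset.sum_eq_single k]
  · simp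
  · intro k' _ hk'
    rw [if_neg]
    rintro ⟨-, h⟩
    exact hk' h.symm
  · simp
  · intro i' _ hi'
    refine Finset.sum_eq_zero fun k' _ => ?_
    rw [if_neg]
    rintro ⟨h, -⟩
    exact hi' h.symm
  · simp

theorem vertexSum_edge (i₀ : Fin P.r) (k₀ : Fin P.d) (a : A) (i : Fin P.r) (k : Fin P.d) :
    P.vertexSum (edge P i₀ k₀ a) i k = if i = i₀ ∧ (P.σ i).SameCycle k k₀ then a else 0 := by
  rw [vertexSum_eq_sum_ite]
  simp only [edge_apply]
  by_cases hi : i = i₀
  · subst hi
    simp only [true_and]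
    rw [Finset.sum_eq_single k₀]
    · simp
    · intro k' _ hk'
      simp [hk']
    · simp
  · simp [hi]

theorem infSum_edge (i₀ : Fin P.r) (k₀ : Fin P.d) (a : A) (y : Fin P.d) :
    P.infSum (edge P i₀ k₀ a) y = if P.partialProd ((i₀ : ℕ) + 1) k₀ = y then a else 0 := by
  unfold PermDatum.infSum
  simp only [edge_apply]
  rw [Finset.sum_eq_single i₀]
  · have : (P.partialProd ((i₀ : ℕ) + 1))⁻¹ y = k₀ ↔ P.partialProd ((i₀ : ℕ) + 1) k₀ = y := by
      rw [Equiv.Perm.inv_eq_iff_eq, eq_comm]
    simp only [true_and, this]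
  · intro i _ hi
    simp [hi]
  · simp

/-! ### The vertices over the bad points and the map `δ¹` -/

/-- The vertices over the bad points: the cycles of the `σ i`. -/
def Cyc : Type := Σ i : Fin P.r, Quotient (Equiv.Perm.SameCycle.setoid (P.σ i))

noncomputable instance instFintypeCyc : Fintype (Cyc P) := by
  classical
  unfold Cyc
  infer_instance

noncomputable instance instDecidableEqCyc : DecidableEq (Cyc P) := Classical.decEq _

/-- The vertex of the cycle of `k` under `σ i`. -/
def cycMk (i : Fin P.r) (k : Fin P.d) : Cyc P := ⟨i, Quotient.mk _ k⟩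

/-- A representative of a cycle. -/
noncomputable def cycRep (x : Cyc P) : Fin P.d := x.2.out

theorem cycMk_cycRep (x : Cyc P) : cycMk P x.1 (cycRep P x) = x := by
  obtain ⟨i, q⟩ := x
  simp only [cycMk, cycRep, Quotient.out_eq]

theorem cycMk_eq_iff (i : Fin P.r) (k k' : Fin P.d) :
    cycMk P i k = cycMk P i k' ↔ (P.σ i).SameCycle k k' := by
  unfold cycMk
  constructor
  · intro h
    have h2 := eq_of_heq (Sigma.mk.inj h).2
    exact Quotient.exact h2
  · intro h
    have : (Quotient.mk (Equiv.Perm.SameCycle.setoid (P.σ i)) k) = Quotient.mk _ k' :=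
      Quotient.sound h
    rw [this]

theorem cycMk_fst (i : Fin P.r) (k : Fin P.d) : (cycMk P i k).1 = i := rfl

theorem sameCycle_cycRep (i : Fin P.r) (k : Fin P.d) :
    (P.σ i).SameCycle (cycRep P (cycMk P i k)) k := by
  have := cycMk_cycRep P (cycMk P i k)
  exact (cycMk_eq_iff P i _ _).1 this

theorem cycMk_apply_σ (i : Fin P.r) (k : Fin P.d) : cycMk P i (P.σ i k) = cycMk P i k :=
  (cycMk_eq_iff P i _ _).2 ⟨-1, by simp⟩

theorem card_cyc : Fintype.card (Cyc P) = ∑ i, P.numCycles i := by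
  classical
  unfold Cyc PermDatum.numCycles
  rw [← Nat.card_eq_fintype_card, Nat.card_sigma]

/-- The coboundary `C¹ → C²`. -/
noncomputable def δ1 (A : Type*) [AddCommGroup A] :
    (Fin P.r → Fin P.d → A) →+ ((Cyc P → A) × (Fin P.d → A)) where
  toFun c := (fun x => P.vertexSum c x.1 (cycRep P x), fun k => P.infSum c k)
  map_zero' := by
    ext x
    · simp [PermDatum.vertexSum]
    · simp [PermDatum.infSum]
  map_add' c c' := by
    ext x
    · simp [vertexSum_add]
    · simp [infSum_add]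

theorem δ1_apply_fst (c : Fin P.r → Fin P.d → A) (x : Cyc P) :
    (δ1 P A c).1 x = P.vertexSum c x.1 (cycRep P x) := rfl

theorem δ1_apply_snd (c : Fin P.r → Fin P.d → A) (k : Fin P.d) :
    (δ1 P A c).2 k = P.infSum c k := rfl

theorem vertexSum_eq_δ1 (c : Fin P.r → Fin P.d → A) (i : Fin P.r) (k : Fin P.d) :
    P.vertexSum c i k = (δ1 P A c).1 (cycMk P i k) := by
  rw [δ1_apply_fst]
  exact vertexSum_congr P c i (sameCycle_cycRep P i k).symm

theorem mem_Z1_iff_δ1 (c : Fin P.r → Fin P.d → A) : c ∈ P.Z1 A ↔ δ1 P A c = 0 := by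
  constructor
  · rintro ⟨h1, h2⟩
    ext x
    · exact h1 _ _
    · exact h2 _
  · intro h
    refine ⟨fun i k => ?_, fun k => ?_⟩
    · rw [vertexSum_eq_δ1, h]
      rfl
    · rw [← δ1_apply_snd, h]
      rfl

theorem δ1_edge (i₀ : Fin P.r) (k₀ : Fin P.d) (a : A) :
    δ1 P A (edge P i₀ k₀ a) =
      (Pi.single (cycMk P i₀ k₀) a, Pi.single (P.partialProd ((i₀ : ℕ) + 1) k₀) a) := by
  ext x
  · rw [δ1_apply_fst, vertexSum_edge]
    simp only [Pi.single_apply]
    by_cases hx : x = cycMk P i₀ k₀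
    · subst hx
      rw [if_pos, if_pos rfl]
      exact ⟨rfl, sameCycle_cycRep P i₀ k₀⟩
    · rw [if_neg hx, if_neg]
      rintro ⟨h1, h2⟩
      apply hx
      rw [← cycMk_cycRep P x]
      obtain ⟨i, q⟩ := x
      simp only at h1
      subst h1
      exact (cycMk_eq_iff P _ _ _).2 h2
  · rw [δ1_apply_snd, infSum_edge]
    simp only [Pi.single_apply]
    by_cases h : P.partialProd ((i₀ : ℕ) + 1) k₀ = x
    · rw [if_pos h, if_pos h.symm]
    · rw [if_neg h, if_neg (fun h' => h h'.symm)]

/-- The total relation: the sum of the vertex sums over the bad points equals the sum of the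
vertex sums at infinity. -/
theorem sum_δ1_fst_eq (c : Fin P.r → Fin P.d → A) :
    ∑ x, (δ1 P A c).1 x = ∑ k, (δ1 P A c).2 k := by
  conv_lhs => rw [← sum_edge P c]
  conv_rhs => rw [← sum_edge P c]
  simp only [map_sum, Prod.fst_sum, Prod.snd_sum, Finset.sum_apply, δ1_edge]
  rw [Finset.sum_comm]
  conv_rhs => rw [Finset.sum_comm]
  refine Finset.sum_congr rfl fun i _ => ?_
  rw [Finset.sum_comm]
  conv_rhs => rw [Finset.sum_comm]
  refine Finset.sum_congr rfl fun k _ => ?_
  simp

/-! ### Connectivity: the range of `δ¹` -/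

/-- The permutations `g` of the points at infinity such that `y` and `g y` are joined in the
incidence graph (in the algebraic form needed below). -/
def joinSubgroup (A : Type*) [AddCommGroup A] : Subgroup (Equiv.Perm (Fin P.d)) where
  carrier := {g | ∀ (y : Fin P.d) (a : A),
    ((0 : Cyc P → A), (Pi.single y a - Pi.single (g y) a : Fin P.d → A)) ∈ (δ1 P A).range}
  one_mem' := by
    intro y a
    simp only [Equiv.Perm.one_apply, sub_self]
    exact (δ1 P A).range.zero_mem
  mul_mem' := by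
    intro g h hg hh y a
    have h1 := hg (h y) a
    have h2 := hh y a
    have h3 := (δ1 P A).range.add_mem h2 h1
    have e : ((0 : Cyc P → A), (Pi.single y a - Pi.single (h y) a : Fin P.d → A)) +
        ((0 : Cyc P → A), (Pi.single (h y) a - Pi.single (g (h y)) a : Fin P.d → A)) =
        ((0 : Cyc P → A), (Pi.single y a - Pi.single ((g * h) y) a : Fin P.d → A)) := by
      rw [Prod.mk_add_mk, add_zero, Equiv.Perm.mul_apply]
      congr 1
      abel
    rw [e] at h3
    exact h3
  inv_mem' := by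
    intro g hg y a
    have h1 := hg (g⁻¹ y) a
    have h3 := (δ1 P A).range.neg_mem h1
    have e : -((0 : Cyc P → A), (Pi.single (g⁻¹ y) a - Pi.single (g (g⁻¹ y)) a : Fin P.d → A)) =
        ((0 : Cyc P → A), (Pi.single y a - Pi.single (g⁻¹ y) a : Fin P.d → A)) := by
      rw [Prod.neg_mk, neg_zero, neg_sub, perm_apply_inv_self]
    rw [e] at h3
    exact h3

theorem mem_joinSubgroup_iff (g : Equiv.Perm (Fin P.d)) :
    g ∈ joinSubgroup P A ↔ ∀ (y : Fin P.d) (a : A),
      ((0 : Cyc P → A), (Pi.single y a - Pi.single (g y) a : Fin P.d → A)) ∈ (δ1 P A).range :=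
  Iff.rfl

theorem conj_mem_joinSubgroup (i : Fin P.r) :
    P.partialProd ((i : ℕ) + 1) * P.σ i * (P.partialProd ((i : ℕ) + 1))⁻¹ ∈ joinSubgroup P A := by
  intro y a
  refine ⟨edge P i ((P.partialProd ((i : ℕ) + 1))⁻¹ y) a -
    edge P i (P.σ i ((P.partialProd ((i : ℕ) + 1))⁻¹ y)) a, ?_⟩
  rw [map_sub, δ1_edge, δ1_edge, cycMk_apply_σ, Prod.mk_sub_mk, sub_self]
  simp only [Equiv.Perm.mul_apply, perm_apply_inv_self]

theorem σ_mem_joinSubgroup_aux (n : ℕ) (hn : n ≤ P.r) :
    (∀ i : Fin P.r, (i : ℕ) < n → P.σ i ∈ joinSubgroup P A) ∧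
      P.partialProd n ∈ joinSubgroup P A := by
  induction n with
  | zero =>
    refine ⟨fun i hi => absurd hi (Nat.not_lt_zero _), ?_⟩
    rw [partialProd_zero]
    exact (joinSubgroup P A).one_mem
  | succ n ih =>
    obtain ⟨ih1, ih2⟩ := ih (Nat.le_of_succ_le hn)
    have hconj := conj_mem_joinSubgroup (A := A) P ⟨n, hn⟩
    have hps := partialProd_succ P ⟨n, hn⟩
    simp only at hps hconj
    have hσ : P.σ ⟨n, hn⟩ ∈ joinSubgroup P A := by
      have h1 : P.σ ⟨n, hn⟩ = (P.partialProd n)⁻¹ *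
          (P.partialProd (n + 1) * P.σ ⟨n, hn⟩ * (P.partialProd (n + 1))⁻¹) * P.partialProd n := by
        rw [hps]
        group
      rw [h1]
      exact (joinSubgroup P A).mul_mem
        ((joinSubgroup P A).mul_mem ((joinSubgroup P A).inv_mem ih2) hconj) ih2
    refine ⟨fun i hi => ?_, ?_⟩
    · rcases Nat.lt_succ_iff_lt_or_eq.1 hi with h | h
      · exact ih1 i h
      · have : i = ⟨n, hn⟩ := Fin.ext h
        rw [this]
        exact hσ
    · rw [hps]
      exact (joinSubgroup P A).mul_mem ih2 hσ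

theorem closure_le_joinSubgroup :
    Subgroup.closure (Set.range P.σ) ≤ joinSubgroup P A := by
  rw [Subgroup.closure_le]
  rintro _ ⟨i, rfl⟩
  exact (σ_mem_joinSubgroup_aux P P.r le_rfl).1 i i.2

theorem single_sub_single_mem_range (ht : P.IsTransitive) (y y' : Fin P.d) (a : A) :
    ((0 : Cyc P → A), (Pi.single y a - Pi.single y' a : Fin P.d → A)) ∈ (δ1 P A).range := by
  obtain ⟨g, hg, rfl⟩ := ht y y'
  exact closure_le_joinSubgroup P hg y a

theorem zero_mk_mem_range (ht : P.IsTransitive) (y₀ : Fin P.d) (w : Fin P.d → A) :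
    ((0 : Cyc P → A), (w - Pi.single y₀ (∑ k, w k) : Fin P.d → A)) ∈ (δ1 P A).range := by
  have h : ((0 : Cyc P → A), (w - Pi.single y₀ (∑ k, w k) : Fin P.d → A)) =
      ∑ y : Fin P.d, ((0 : Cyc P → A), (Pi.single y (w y) - Pi.single y₀ (w y) : Fin P.d → A)) := by
    ext x
    · simp [Prod.fst_sum]
    · simp only [Prod.snd_sum, Finset.sum_apply, Pi.sub_apply, Finset.sum_sub_distrib,
        Pi.single_apply]
      congr 1
      · simp
      · by_cases hx : x = y₀
        · simp [hx]
        · simp [hx]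
  rw [h]
  exact (δ1 P A).range.sum_mem fun y _ => single_sub_single_mem_range P ht y y₀ (w y)

theorem single_mk_mem_range (ht : P.IsTransitive) (y₀ : Fin P.d) (x : Cyc P) (a : A) :
    ((Pi.single x a : Cyc P → A), (Pi.single y₀ a : Fin P.d → A)) ∈ (δ1 P A).range := by
  have h1 : δ1 P A (edge P x.1 (cycRep P x) a) ∈ (δ1 P A).range := ⟨_, rfl⟩
  rw [δ1_edge, cycMk_cycRep] at h1
  have h2 := single_sub_single_mem_range P ht (P.partialProd ((x.1 : ℕ) + 1) (cycRep P x)) y₀ a
  have h3 := (δ1 P A).range.sub_mem h1 h2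
  rw [Prod.mk_sub_mk, sub_zero, sub_sub_cancel] at h3
  exact h3

/-- **Connectivity of the incidence graph**, algebraic form: the range of `δ¹` consists of all
pairs with equal total sums. -/
theorem mem_range_δ1_iff (hd : 0 < P.d) (ht : P.IsTransitive)
    (u : Cyc P → A) (w : Fin P.d → A) :
    (u, w) ∈ (δ1 P A).range ↔ ∑ x, u x = ∑ k, w k := by
  constructor
  · rintro ⟨c, hc⟩
    have := sum_δ1_fst_eq P c
    rw [hc] at this
    exact this
  · intro h
    let y₀ : Fin P.d := ⟨0, hd⟩
    have h1 : ((u : Cyc P → A), (Pi.single y₀ (∑ x, u x) : Fin P.d → A)) ∈ (δ1 P A).range := by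
      have e : ((u : Cyc P → A), (Pi.single y₀ (∑ x, u x) : Fin P.d → A)) =
          ∑ x : Cyc P, ((Pi.single x (u x) : Cyc P → A), (Pi.single y₀ (u x) : Fin P.d → A)) := by
        ext z
        · simp [Prod.fst_sum, Pi.single_apply]
        · simp only [Prod.snd_sum, Finset.sum_apply, Pi.single_apply]
          by_cases hz : z = y₀
          · simp [hz]
          · simp [hz]
      rw [e]
      exact (δ1 P A).range.sum_mem fun x _ => single_mk_mem_range P ht y₀ x (u x)
    have h2 := zero_mk_mem_range P ht y₀ w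
    have h3 := (δ1 P A).range.add_mem h1 h2
    rw [Prod.mk_add_mk, add_zero, h, add_sub_cancel] at h3
    exact h3

/-! ### The kernel of `δ⁰` -/

theorem δ0_eq_zero_iff (ht : P.IsTransitive) (a : Fin P.d → A) :
    P.δ0 A a = 0 ↔ ∀ k k', a k = a k' := by
  constructor
  · intro h
    let H : Subgroup (Equiv.Perm (Fin P.d)) :=
      { carrier := {g | ∀ k, a (g k) = a k}
        one_mem' := fun k => rfl
        mul_mem' := fun {g g'} hg hg' k => by
          rw [Equiv.Perm.mul_apply, hg, hg']
        inv_mem' := fun {g} hg k => by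
          have := hg (g⁻¹ k)
          rw [perm_apply_inv_self] at this
          exact this.symm }
    have hH : Subgroup.closure (Set.range P.σ) ≤ H := by
      rw [Subgroup.closure_le]
      rintro _ ⟨i, rfl⟩
      intro k
      have := congrFun (congrFun h i) k
      rw [δ0_apply, Pi.zero_apply, Pi.zero_apply, sub_eq_zero] at this
      exact this.symm
    intro k k'
    obtain ⟨g, hg, rfl⟩ := ht k k'
    exact (hH hg k).symm
  · intro h
    funext i k
    rw [δ0_apply, h k (P.σ i k), sub_self]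
    rfl

end Fermat.Agent.P5.helper56
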