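/-
P5 / S27, module COMB (helper56): dimensions of the cocycles and coboundaries of the finite
permutation complex over a field, `CombDim`, and the count of `H¹` over a finite field.
-/
import Mathlib
import Fermat.Agent.P5.helper56_CombCore

set_option autoImplicit false
set_option linter.unusedSectionVars false
set_option linter.unusedVariables false

open Fermat.Agent.P5.helper25

namespace Fermat.Agent.P5.helper56

variable (P : PermDatum) (K : Type*) [Field K]

/-- `δ¹` as a linear map. -/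
noncomputable def δ1ₗ : (Fin P.r → Fin P.d → K) →ₗ[K] ((Cyc P → K) × (Fin P.d → K)) where
  toFun := δ1 P K
  map_add' := (δ1 P K).map_add
  map_smul' t c := by
    ext x
    · simp only [δ1_apply_fst, RingHom.id_apply, Prod.smul_fst, Pi.smul_apply,
        PermDatum.vertexSum, Finset.smul_sum]
    · simp only [δ1_apply_snd, RingHom.id_apply, Prod.smul_snd, Pi.smul_apply,
        PermDatum.infSum, Finset.smul_sum]

theorem δ1ₗ_apply (c : Fin P.r → Fin P.d → K) : δ1ₗ P K c = δ1 P K c := rfl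

/-- `δ⁰` as a linear map. -/
noncomputable def δ0ₗ : (Fin P.d → K) →ₗ[K] (Fin P.r → Fin P.d → K) where
  toFun := P.δ0 K
  map_add' := (P.δ0 K).map_add
  map_smul' t a := by
    funext i k
    simp only [δ0_apply, Pi.smul_apply, RingHom.id_apply, smul_sub]

theorem δ0ₗ_apply (a : Fin P.d → K) : δ0ₗ P K a = P.δ0 K a := rfl

/-- The difference of the total sums. -/
noncomputable def totalₗ : ((Cyc P → K) × (Fin P.d → K)) →ₗ[K] K where
  toFun p := ∑ x, p.1 x - ∑ k, p.2 k
  map_add' p q := by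
    simp only [Prod.fst_add, Prod.snd_add, Pi.add_apply, Finset.sum_add_distrib]
    ring
  map_smul' t p := by
    simp only [Prod.smul_fst, Prod.smul_snd, Pi.smul_apply, RingHom.id_apply, smul_eq_mul,
      ← Finset.mul_sum]
    ring

theorem totalₗ_apply (p : (Cyc P → K) × (Fin P.d → K)) :
    totalₗ P K p = ∑ x, p.1 x - ∑ k, p.2 k := rfl

theorem coe_ker_δ1ₗ : ((LinearMap.ker (δ1ₗ P K) : Submodule K _) : Set (Fin P.r → Fin P.d → K)) =
    (P.Z1 K : Set (Fin P.r → Fin P.d → K)) := by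
  ext c
  simp only [SetLike.mem_coe, LinearMap.mem_ker, δ1ₗ_apply, mem_Z1_iff_δ1]

theorem coe_range_δ0ₗ :
    ((LinearMap.range (δ0ₗ P K) : Submodule K _) : Set (Fin P.r → Fin P.d → K)) =
      (P.B1 K : Set (Fin P.r → Fin P.d → K)) := by
  ext c
  simp only [SetLike.mem_coe, LinearMap.mem_range, δ0ₗ_apply]
  rfl

theorem range_δ1ₗ (hd : 0 < P.d) (ht : P.IsTransitive) :
    LinearMap.range (δ1ₗ P K) = LinearMap.ker (totalₗ P K) := by
  ext ⟨u, w⟩
  rw [LinearMap.mem_ker, totalₗ_apply, sub_eq_zero, ← mem_range_δ1_iff P hd ht]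
  rfl

theorem totalₗ_surjective (hd : 0 < P.d) : Function.Surjective (totalₗ P K) := by
  intro t
  refine ⟨(0, Pi.single ⟨0, hd⟩ (-t)), ?_⟩
  rw [totalₗ_apply]
  simp

theorem finrank_ker_totalₗ (hd : 0 < P.d) :
    Module.finrank K (LinearMap.ker (totalₗ P K)) + 1 = (∑ i, P.numCycles i) + P.d := by
  have h := LinearMap.finrank_range_add_finrank_ker (totalₗ P K)
  rw [LinearMap.range_eq_top.2 (totalₗ_surjective P K hd), finrank_top, Module.finrank_self,
    Module.finrank_prod, Module.finrank_fintype_fun_eq_card, Module.finrank_fintype_fun_eq_card,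
    card_cyc, Fintype.card_fin] at h
  omega

theorem finrank_cochains :
    Module.finrank K (Fin P.r → Fin P.d → K) = P.r * P.d := by
  rw [Module.finrank_pi_fintype]
  simp

theorem finrank_ker_δ1ₗ (hd : 0 < P.d) (ht : P.IsTransitive) :
    Module.finrank K (LinearMap.ker (δ1ₗ P K)) + ((∑ i, P.numCycles i) + P.d) = P.r * P.d + 1 := by
  have h := LinearMap.finrank_range_add_finrank_ker (δ1ₗ P K)
  rw [range_δ1ₗ P K hd ht, finrank_cochains] at h
  have h2 := finrank_ker_totalₗ P K hd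
  omega

theorem ker_δ0ₗ (ht : P.IsTransitive) :
    LinearMap.ker (δ0ₗ P K) = Submodule.span K {(fun _ => 1 : Fin P.d → K)} := by
  ext a
  rw [LinearMap.mem_ker, δ0ₗ_apply, δ0_eq_zero_iff P ht, Submodule.mem_span_singleton]
  constructor
  · intro h
    by_cases hd : 0 < P.d
    · refine ⟨a ⟨0, hd⟩, ?_⟩
      funext k
      simp [h k ⟨0, hd⟩]
    · refine ⟨0, ?_⟩
      funext k
      exact absurd (lt_of_le_of_lt (Nat.zero_le _) k.2) hd
  · rintro ⟨t, rfl⟩ k k'
    rfl

theorem finrank_range_δ0ₗ (hd : 0 < P.d) (ht : P.IsTransitive) :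
    Module.finrank K (LinearMap.range (δ0ₗ P K)) + 1 = P.d := by
  have h := LinearMap.finrank_range_add_finrank_ker (δ0ₗ P K)
  rw [ker_δ0ₗ P K ht, Module.finrank_fintype_fun_eq_card, Fintype.card_fin,
    finrank_span_singleton] at h
  · exact h
  · intro h0
    have := congrFun h0 ⟨0, hd⟩
    simp at this

theorem range_δ0ₗ_le_ker_δ1ₗ (hcl : P.IsClosed) :
    LinearMap.range (δ0ₗ P K) ≤ LinearMap.ker (δ1ₗ P K) := by
  intro c hc
  have h1 : c ∈ (P.B1 K : Set _) := by
    rw [← coe_range_δ0ₗ]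
    exact hc
  have h2 : c ∈ (P.Z1 K : Set _) := B1_le_Z1 P hcl h1
  rw [← coe_ker_δ1ₗ] at h2
  exact h2

/-- The Euler characteristic inequality and the dimension of the cocycles in terms of `b1`. -/
theorem finrank_ker_δ1ₗ_eq (hd : 0 < P.d) (hcl : P.IsClosed) (ht : P.IsTransitive) :
    Module.finrank K (LinearMap.ker (δ1ₗ P K)) = P.d - 1 + P.b1 := by
  have h1 := finrank_ker_δ1ₗ P K hd ht
  have h2 := finrank_range_δ0ₗ P K hd ht
  have h3 := Submodule.finrank_mono (range_δ0ₗ_le_ker_δ1ₗ P K hcl)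
  unfold PermDatum.b1
  omega

theorem finrank_range_δ0ₗ_eq (hd : 0 < P.d) (ht : P.IsTransitive) :
    Module.finrank K (LinearMap.range (δ0ₗ P K)) = P.d - 1 := by
  have h2 := finrank_range_δ0ₗ P K hd ht
  omega

/-- **[COMB-5]** -/
theorem combDim : CombDim := by
  intro P hd hcl ht
  rw [← coe_ker_δ1ₗ, ← coe_range_δ0ₗ, Submodule.span_eq, Submodule.span_eq]
  exact ⟨finrank_ker_δ1ₗ_eq P ℂ hd hcl ht, finrank_range_δ0ₗ_eq P ℂ hd ht⟩

/-! ### The count over a finite field -/

theorem natCard_Z1 [Finite K] (hd : 0 < P.d) (hcl : P.IsClosed) (ht : P.IsTransitive) :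
    Nat.card (P.Z1 K) = Nat.card K ^ (P.d - 1 + P.b1) := by
  rw [← finrank_ker_δ1ₗ_eq P K hd hcl ht, ← Module.natCard_eq_pow_finrank]
  refine Nat.card_congr (Equiv.setCongr ?_)
  exact (coe_ker_δ1ₗ P K).symm

theorem natCard_B1 [Finite K] (hd : 0 < P.d) (ht : P.IsTransitive) :
    Nat.card (P.B1 K) = Nat.card K ^ (P.d - 1) := by
  rw [← finrank_range_δ0ₗ_eq P K hd ht, ← Module.natCard_eq_pow_finrank]
  refine Nat.card_congr (Equiv.setCongr ?_)
  exact (coe_range_δ0ₗ P K).symm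

theorem natCard_H1 [Finite K] (hd : 0 < P.d) (hcl : P.IsClosed) (ht : P.IsTransitive) :
    Nat.card (P.H1 K) = Nat.card K ^ P.b1 := by
  have h1 := AddSubgroup.card_eq_card_quotient_mul_card_addSubgroup
    ((P.B1 K).addSubgroupOf (P.Z1 K))
  have h2 : Nat.card ((P.B1 K).addSubgroupOf (P.Z1 K)) = Nat.card (P.B1 K) :=
    Nat.card_congr (AddSubgroup.addSubgroupOfEquivOfLe (B1_le_Z1 P hcl)).toEquiv
  rw [h2, natCard_Z1 P K hd hcl ht, natCard_B1 P K hd ht, pow_add, mul_comm] at h1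
  have hpos : 0 < Nat.card K ^ (P.d - 1) := pow_pos Nat.card_pos _
  exact (Nat.eq_of_mul_eq_mul_right hpos h1).symm

theorem natCard_H1_zmod (hd : 0 < P.d) (hcl : P.IsClosed) (ht : P.IsTransitive)
    (ℓ : ℕ) (hℓ : ℓ.Prime) : Nat.card (P.H1 (ZMod ℓ)) = ℓ ^ P.b1 := by
  haveI : Fact ℓ.Prime := ⟨hℓ⟩
  rw [natCard_H1 P (ZMod ℓ) hd hcl ht, Nat.card_zmod]

end Fermat.Agent.P5.helper56
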