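/-
P5 / S27, module COMB (helper56): `CombExp` (every multiplicative cocycle is the exponential
of an additive cocycle) and `CombDivisible`.
-/
import Mathlib
import Fermat.Agent.P5.helper56_CombCore

set_option autoImplicit false
set_option linter.unusedSectionVars false
set_option linter.unusedVariables false

open Fermat.Agent.P5.helper25

namespace Fermat.Agent.P5.helper56

variable (P : PermDatum)

theorem δ1_map {A B : Type*} [AddCommGroup A] [AddCommGroup B] (φ : A →+ B)
    (c : Fin P.r → Fin P.d → A) :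
    δ1 P B (fun i k => φ (c i k)) =
      (fun x => φ ((δ1 P A c).1 x), fun k => φ ((δ1 P A c).2 k)) := by
  ext x
  · simp only [δ1_apply_fst, vertexSum_map]
  · simp only [δ1_apply_snd, infSum_map]

/-- The exponential as an additive map `ℂ →+ Additive ℂˣ`. -/
noncomputable def expAdd : ℂ →+ Additive ℂˣ :=
  AddMonoidHom.mk' (fun z => Additive.ofMul (Units.mk0 (Complex.exp z) (Complex.exp_ne_zero z)))
    (fun z w => by
      rw [← ofMul_mul]
      congr 1
      ext
      simp [Complex.exp_add])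

theorem expAdd_apply (z : ℂ) :
    ((Additive.toMul (expAdd z) : ℂˣ) : ℂ) = Complex.exp z := rfl

theorem expAdd_eq_iff (z : ℂ) (a : Additive ℂˣ) :
    expAdd z = a ↔ Complex.exp z = ((Additive.toMul a : ℂˣ) : ℂ) := by
  constructor
  · rintro rfl
    rfl
  · intro h
    apply Additive.toMul.injective
    ext
    exact h

theorem expAdd_eq_zero_iff (z : ℂ) :
    expAdd z = 0 ↔ ∃ n : ℤ, z = n * (2 * Real.pi * Complex.I) := by
  rw [expAdd_eq_iff, ← Complex.exp_eq_one_iff]
  simp

theorem expAdd_surjective : Function.Surjective expAdd := by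
  intro a
  refine ⟨Complex.log ((Additive.toMul a : ℂˣ) : ℂ), ?_⟩
  rw [expAdd_eq_iff, Complex.exp_log (Units.ne_zero _)]

/-- Multiplication by `2 π i` as an additive map `ℤ →+ ℂ`. -/
noncomputable def twoPiI : ℤ →+ ℂ :=
  AddMonoidHom.mk' (fun n => (n : ℂ) * (2 * Real.pi * Complex.I)) (fun m n => by
    push_cast
    ring)

theorem twoPiI_apply (n : ℤ) : twoPiI n = (n : ℂ) * (2 * Real.pi * Complex.I) := rfl

theorem twoPiI_injective : Function.Injective twoPiI := by
  intro m n h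
  simp only [twoPiI_apply] at h
  have h2 : (2 * Real.pi * Complex.I : ℂ) ≠ 0 := Complex.two_pi_I_ne_zero
  exact_mod_cast mul_right_cancel₀ h2 h

theorem expAdd_twoPiI (n : ℤ) : expAdd (twoPiI n) = 0 :=
  (expAdd_eq_zero_iff _).2 ⟨n, rfl⟩

/-- Every multiplicative cocycle is the exponential of an additive cocycle. -/
theorem exists_log_cocycle (hd : 0 < P.d) (ht : P.IsTransitive)
    (c : Fin P.r → Fin P.d → Additive ℂˣ) (hc : c ∈ P.Z1 (Additive ℂˣ)) :
    ∃ c' ∈ P.Z1 ℂ, (fun i k => expAdd (c' i k)) = c := by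
  choose l hl using fun i k => expAdd_surjective (c i k)
  have hl' : (fun i k => expAdd (l i k)) = c := by
    funext i k
    exact hl i k
  have h0 : δ1 P (Additive ℂˣ) (fun i k => expAdd (l i k)) = 0 := by
    rw [hl']
    exact (mem_Z1_iff_δ1 P c).1 hc
  rw [δ1_map] at h0
  have h1 : ∀ x, ∃ n : ℤ, (δ1 P ℂ l).1 x = twoPiI n := fun x =>
    (expAdd_eq_zero_iff _).1 (congrFun (congrArg Prod.fst h0) x)
  have h2 : ∀ k, ∃ n : ℤ, (δ1 P ℂ l).2 k = twoPiI n := fun k =>
    (expAdd_eq_zero_iff _).1 (congrFun (congrArg Prod.snd h0) k)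
  choose n hn using h1
  choose m hm using h2
  have hsum : ∑ x, n x = ∑ k, m k := by
    apply twoPiI_injective
    rw [map_sum, map_sum]
    simp only [← hn, ← hm]
    exact sum_δ1_fst_eq P l
  obtain ⟨z, hz⟩ := (mem_range_δ1_iff P hd ht n m).2 hsum
  refine ⟨l - fun i k => twoPiI (z i k), ?_, ?_⟩
  · rw [mem_Z1_iff_δ1, map_sub, δ1_map, hz]
    ext x
    · simp only [Prod.fst_sub, Pi.sub_apply, Prod.fst_zero, Pi.zero_apply, hn, sub_self]
    · simp only [Prod.snd_sub, Pi.sub_apply, Prod.snd_zero, Pi.zero_apply, hm, sub_self]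
  · funext i k
    rw [Pi.sub_apply, Pi.sub_apply, map_sub, expAdd_twoPiI, sub_zero, hl]

/-- **[COMB-4]** -/
theorem combExp : CombExp := by
  intro P hd hcl ht c hc
  obtain ⟨c', hc', h⟩ := exists_log_cocycle P hd ht c hc
  refine ⟨c', hc', fun i k => ?_⟩
  rw [← h]
  rfl

/-- **[COMB-3]** -/
theorem combDivisible : CombDivisible := by
  intro P hd hcl ht n hn c
  obtain ⟨⟨z, hz⟩, rfl⟩ := QuotientAddGroup.mk_surjective c
  obtain ⟨z', hz', h⟩ := exists_log_cocycle P hd ht z hz
  let μ : ℂ →+ ℂ := AddMonoidHom.mulLeft ((n : ℂ)⁻¹)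
  have hw : (fun i k => expAdd (μ (z' i k))) ∈ P.Z1 (Additive ℂˣ) :=
    map_mem_Z1 P expAdd (map_mem_Z1 P μ hz')
  refine ⟨QuotientAddGroup.mk ⟨_, hw⟩, ?_⟩
  rw [← QuotientAddGroup.mk_zsmul]
  congr 1
  apply Subtype.ext
  rw [AddSubgroup.coe_zsmul]
  simp only
  rw [← h]
  funext i k
  simp only [Pi.smul_apply, ← map_zsmul]
  congr 1
  simp only [μ, AddMonoidHom.coe_mulLeft, zsmul_eq_mul, Int.cast_natCast]
  have hn0 : (n : ℂ) ≠ 0 := by exact_mod_cast hn.ne'
  field_simp

end Fermat.Agent.P5.helper56
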