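/-
P5 / S27, module COMB (helper56): `CombTorsion`: the `ℓ`-torsion of `H¹(ℂˣ)` of the finite
permutation complex has `ℓ ^ b1` elements.
-/
import Mathlib
import Fermat.Agent.P5.helper56_CombDim
import Fermat.Agent.P5.helper56_CombExp

set_option autoImplicit false
set_option linter.unusedSectionVars false
set_option linter.unusedVariables false

open Fermat.Agent.P5.helper25

namespace Fermat.Agent.P5.helper56

variable (P : PermDatum)

section general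

variable {A A' : Type*} [AddCommGroup A] [AddCommGroup A'] (φ : A →+ A')

/-- The map induced on cocycles by a map of coefficient groups. -/
def Z1map : P.Z1 A →+ P.Z1 A' where
  toFun c := ⟨fun i k => φ (c.1 i k), map_mem_Z1 P φ c.2⟩
  map_zero' := by
    apply Subtype.ext
    funext i k
    simp
  map_add' c c' := by
    apply Subtype.ext
    funext i k
    simp

theorem Z1map_apply_coe (c : P.Z1 A) : ((Z1map P φ c : P.Z1 A') : Fin P.r → Fin P.d → A') =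
    fun i k => φ (c.1 i k) := rfl

/-- The map induced on `H¹` by a map of coefficient groups. -/
def H1map : P.H1 A →+ P.H1 A' :=
  QuotientAddGroup.map _ _ (Z1map P φ) (by
    intro c hc
    rw [AddSubgroup.mem_comap, AddSubgroup.mem_addSubgroupOf, Z1map_apply_coe]
    exact map_mem_B1 P φ (AddSubgroup.mem_addSubgroupOf.1 hc))

theorem H1map_mk (c : P.Z1 A) :
    H1map P φ (QuotientAddGroup.mk c) = QuotientAddGroup.mk (Z1map P φ c) := rfl

theorem mk_eq_zero_iff (c : P.Z1 A) :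
    (QuotientAddGroup.mk c : P.H1 A) = 0 ↔ (c : Fin P.r → Fin P.d → A) ∈ P.B1 A := by
  rw [QuotientAddGroup.eq_zero_iff, AddSubgroup.mem_addSubgroupOf]

variable {φ}

theorem mem_B1_of_map_mem_B1 (hφ : Function.Injective φ) (n : ℕ)
    (hn : ∀ a : A, n • a = 0) (himg : ∀ a' : A', n • a' = 0 → ∃ a, φ a = a')
    (hdiv : ∀ a' : A', ∃ b : A', n • b = a') (hd : 0 < P.d) (ht : P.IsTransitive)
    {c : Fin P.r → Fin P.d → A} (h : (fun i k => φ (c i k)) ∈ P.B1 A') : c ∈ P.B1 A := by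
  obtain ⟨a', ha'⟩ := h
  have h1 : P.δ0 A' (n • a') = 0 := by
    rw [map_nsmul, ha']
    funext i k
    simp only [Pi.smul_apply, Pi.zero_apply, ← map_nsmul, hn, map_zero]
  have h2 := (δ0_eq_zero_iff P ht (n • a')).1 h1
  obtain ⟨s, hs⟩ := hdiv (n • a' ⟨0, hd⟩)
  have h3 : ∀ k, ∃ a, φ a = a' k - s := by
    intro k
    apply himg
    rw [smul_sub, hs]
    have := h2 k ⟨0, hd⟩
    simp only [Pi.smul_apply] at this
    rw [this, sub_self]
  choose a ha using h3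
  refine ⟨a, ?_⟩
  funext i k
  apply hφ
  have e := congrFun (congrFun ha' i) k
  rw [← e, δ0_apply, δ0_apply, map_sub, ha, ha]
  abel

theorem exists_of_nsmul_mem_B1 (hφ : Function.Injective φ) (n : ℕ)
    (himg : ∀ a' : A', n • a' = 0 → ∃ a, φ a = a')
    (hdiv : ∀ a' : A', ∃ b : A', n • b = a') (hcl : P.IsClosed)
    {c' : Fin P.r → Fin P.d → A'} (hc' : c' ∈ P.Z1 A') (h : n • c' ∈ P.B1 A') :
    ∃ c ∈ P.Z1 A, (c' - fun i k => φ (c i k)) ∈ P.B1 A' := by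
  obtain ⟨a', ha'⟩ := h
  choose b' hb' using hdiv
  have hb : n • (fun k => b' (a' k)) = a' := by
    funext k
    simp only [Pi.smul_apply, hb']
  have h3 : ∀ i k, ∃ a, φ a = (c' - P.δ0 A' (fun k => b' (a' k))) i k := by
    intro i k
    apply himg
    have : n • (c' - P.δ0 A' (fun k => b' (a' k))) = 0 := by
      rw [smul_sub, ← map_nsmul, hb, ha', sub_self]
    exact congrFun (congrFun this i) k
  choose c hc using h3
  have hc2 : (fun i k => φ (c i k)) = c' - P.δ0 A' (fun k => b' (a' k)) := by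
    funext i k
    exact hc i k
  refine ⟨c, ?_, ?_⟩
  · apply mem_Z1_of_map_injective P φ hφ
    rw [hc2]
    exact (P.Z1 A').sub_mem hc' (B1_le_Z1 P hcl ⟨_, rfl⟩)
  · rw [hc2, sub_sub_cancel]
    exact ⟨_, rfl⟩

theorem H1map_injective (hφ : Function.Injective φ) (n : ℕ)
    (hn : ∀ a : A, n • a = 0) (himg : ∀ a' : A', n • a' = 0 → ∃ a, φ a = a')
    (hdiv : ∀ a' : A', ∃ b : A', n • b = a') (hd : 0 < P.d) (ht : P.IsTransitive) :
    Function.Injective (H1map P φ) := by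
  rw [injective_iff_map_eq_zero]
  intro x hx
  obtain ⟨c, rfl⟩ := QuotientAddGroup.mk_surjective x
  rw [H1map_mk, mk_eq_zero_iff, Z1map_apply_coe] at hx
  rw [mk_eq_zero_iff]
  exact mem_B1_of_map_mem_B1 P hφ n hn himg hdiv hd ht hx

theorem zsmul_H1map_eq_zero (n : ℕ) (hn : ∀ a : A, n • a = 0) (x : P.H1 A) :
    (n : ℤ) • H1map P φ x = 0 := by
  rw [← map_zsmul]
  obtain ⟨c, rfl⟩ := QuotientAddGroup.mk_surjective x
  have : (n : ℤ) • c = 0 := by
    apply Subtype.ext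
    rw [AddSubgroup.coe_zsmul]
    funext i k
    simp only [Pi.smul_apply, natCast_zsmul, hn]
    rfl
  rw [← QuotientAddGroup.mk_zsmul, this]
  simp

theorem exists_H1map_eq (hφ : Function.Injective φ) (n : ℕ)
    (himg : ∀ a' : A', n • a' = 0 → ∃ a, φ a = a')
    (hdiv : ∀ a' : A', ∃ b : A', n • b = a') (hcl : P.IsClosed)
    (y : P.H1 A') (hy : (n : ℤ) • y = 0) : ∃ x, H1map P φ x = y := by
  obtain ⟨c', rfl⟩ := QuotientAddGroup.mk_surjective y
  rw [← QuotientAddGroup.mk_zsmul, mk_eq_zero_iff, AddSubgroup.coe_zsmul, natCast_zsmul] at hy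
  obtain ⟨c, hc, h⟩ := exists_of_nsmul_mem_B1 P hφ n himg hdiv hcl c'.2 hy
  refine ⟨QuotientAddGroup.mk ⟨c, hc⟩, ?_⟩
  rw [H1map_mk]
  symm
  rw [QuotientAddGroup.eq_iff_sub_mem, AddSubgroup.mem_addSubgroupOf, AddSubgroup.coe_sub]
  exact h

/-- The `n`-torsion of `H¹(A')` is `H¹(A)` when `A` is the `n`-torsion of the `n`-divisible
group `A'`. -/
theorem natCard_torsionBy_H1 (hφ : Function.Injective φ) (n : ℕ)
    (hn : ∀ a : A, n • a = 0) (himg : ∀ a' : A', n • a' = 0 → ∃ a, φ a = a')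
    (hdiv : ∀ a' : A', ∃ b : A', n • b = a') (hd : 0 < P.d) (hcl : P.IsClosed)
    (ht : P.IsTransitive) :
    Nat.card (Submodule.torsionBy ℤ (P.H1 A') (n : ℤ)) = Nat.card (P.H1 A) := by
  symm
  let f : P.H1 A → Submodule.torsionBy ℤ (P.H1 A') (n : ℤ) := fun x =>
    ⟨H1map P φ x, (Submodule.mem_torsionBy_iff _ _).2 (zsmul_H1map_eq_zero P n hn x)⟩
  refine Nat.card_eq_of_bijective f ⟨?_, ?_⟩
  · intro x x' h
    exact H1map_injective P hφ n hn himg hdiv hd ht (congrArg Subtype.val h)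
  · rintro ⟨y, hy⟩
    obtain ⟨x, hx⟩ := exists_H1map_eq P hφ n himg hdiv hcl y
      ((Submodule.mem_torsionBy_iff _ _).1 hy)
    exact ⟨x, Subtype.ext hx⟩

end general

/-! ### The coefficient map `ℤ/ℓ → ℂˣ` -/

theorem expAdd_nsmul_div (ℓ : ℕ) (hℓ : ℓ ≠ 0) (z : ℂ) :
    ℓ • expAdd (z / ℓ) = expAdd z := by
  rw [← map_nsmul]
  congr 1
  have : (ℓ : ℂ) ≠ 0 := by exact_mod_cast hℓ
  rw [nsmul_eq_mul]
  field_simp

theorem exists_nsmul_eq (ℓ : ℕ) (hℓ : ℓ ≠ 0) (a' : Additive ℂˣ) :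
    ∃ b : Additive ℂˣ, ℓ • b = a' := by
  obtain ⟨z, rfl⟩ := expAdd_surjective a'
  exact ⟨_, expAdd_nsmul_div ℓ hℓ z⟩

/-- The standard primitive root, additively. -/
noncomputable def zetaAdd (ℓ : ℕ) : Additive ℂˣ := expAdd (2 * Real.pi * Complex.I / ℓ)

theorem zsmul_zetaAdd_eq_zero_iff (ℓ : ℕ) (hℓ : ℓ ≠ 0) (m : ℤ) :
    m • zetaAdd ℓ = 0 ↔ (ℓ : ℤ) ∣ m := by
  have hℓ' : (ℓ : ℂ) ≠ 0 := by exact_mod_cast hℓ
  have h2 : (2 * Real.pi * Complex.I : ℂ) ≠ 0 := Complex.two_pi_I_ne_zero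
  unfold zetaAdd
  rw [← map_zsmul, expAdd_eq_zero_iff]
  constructor
  · rintro ⟨j, hj⟩
    refine ⟨j, ?_⟩
    rw [zsmul_eq_mul] at hj
    have : (m : ℂ) * (2 * Real.pi * Complex.I) = ((ℓ : ℂ) * j) * (2 * Real.pi * Complex.I) := by
      have e : (m : ℂ) * (2 * Real.pi * Complex.I) =
          (ℓ : ℂ) * ((m : ℂ) * (2 * Real.pi * Complex.I / ℓ)) := by
        field_simp
      rw [e, hj]
      ring
    have h3 := mul_right_cancel₀ h2 this
    exact_mod_cast h3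
  · rintro ⟨j, rfl⟩
    refine ⟨j, ?_⟩
    rw [zsmul_eq_mul]
    push_cast
    field_simp

/-- The coefficient map `ℤ/ℓ → ℂˣ`, `j ↦ ζ ^ j`. -/
noncomputable def zmodToUnits (ℓ : ℕ) (hℓ : ℓ ≠ 0) : ZMod ℓ →+ Additive ℂˣ :=
  ZMod.lift ℓ ⟨zmultiplesHom (Additive ℂˣ) (zetaAdd ℓ), by
    rw [zmultiplesHom_apply, zsmul_zetaAdd_eq_zero_iff ℓ hℓ]⟩

theorem zmodToUnits_intCast (ℓ : ℕ) (hℓ : ℓ ≠ 0) (m : ℤ) :
    zmodToUnits ℓ hℓ (m : ZMod ℓ) = m • zetaAdd ℓ := by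
  unfold zmodToUnits
  rw [ZMod.lift_coe]
  rfl

theorem zmodToUnits_injective (ℓ : ℕ) (hℓ : ℓ ≠ 0) :
    Function.Injective (zmodToUnits ℓ hℓ) := by
  unfold zmodToUnits
  rw [ZMod.lift_injective]
  intro m hm
  simp only [zmultiplesHom_apply] at hm
  rw [zsmul_zetaAdd_eq_zero_iff ℓ hℓ] at hm
  exact (ZMod.intCast_zmod_eq_zero_iff_dvd m ℓ).2 hm

theorem exists_zmodToUnits_eq (ℓ : ℕ) (hℓ : ℓ ≠ 0) (a' : Additive ℂˣ) (h : ℓ • a' = 0) :
    ∃ a, zmodToUnits ℓ hℓ a = a' := by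
  have hℓ' : (ℓ : ℂ) ≠ 0 := by exact_mod_cast hℓ
  obtain ⟨z, rfl⟩ := expAdd_surjective a'
  rw [← map_nsmul, expAdd_eq_zero_iff] at h
  obtain ⟨j, hj⟩ := h
  refine ⟨(j : ZMod ℓ), ?_⟩
  rw [zmodToUnits_intCast]
  unfold zetaAdd
  rw [← map_zsmul]
  congr 1
  rw [zsmul_eq_mul]
  rw [nsmul_eq_mul] at hj
  field_simp
  linear_combination -hj

/-- **[COMB-2]** -/
theorem combTorsion : CombTorsion := by
  intro P hd hcl ht ℓ hℓ
  have hℓ0 : ℓ ≠ 0 := hℓ.ne_zero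
  rw [natCard_torsionBy_H1 P (zmodToUnits_injective ℓ hℓ0) ℓ
    (fun a => by rw [nsmul_eq_mul, ZMod.natCast_self, zero_mul])
    (exists_zmodToUnits_eq ℓ hℓ0) (exists_nsmul_eq ℓ hℓ0) hd hcl ht]
  exact natCard_H1_zmod P hd hcl ht ℓ hℓ

end Fermat.Agent.P5.helper56
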