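/-
P5 / S27 (helper25, architect): interface of the Riemann-Hilbert module (MONO + SURJ).

* multiplicative / additive primitives of a differential on the sheets of a cut model and their
  jump cochains (`IsMultPrim`, `IsJumpOf`, `IsAddPrim`, `IsAddJumpOf`);
* the deliverables of module MONO (`MonoPackages M`) and of module SURJ (`SurjAt M`);
* the formal assembly `rh_of_packages : RRCon F → MonoPackages M → SurjAt M → RH M`.
-/
import Mathlib
import Fermat.Agent.P5.helper25_CNT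
import Fermat.Agent.P5.helper25_RRInterface
import Fermat.Agent.P5.helper56_CombTorsion

set_option autoImplicit false
set_option linter.style.haveILetI false

open AlgebraicCurve Filter Topology KaehlerDifferential

namespace Fermat.Agent.P5.helper25

noncomputable section

variable {F : Type} [Field F] [Algebra ℂ F]

namespace CutModel

variable (M : CutModel F)

/-- The coefficient `φ` of `τ = φ • dx`. -/
def coeff (τ : Ω[F⁄ℂ]) : F := (M.dx_spans τ).choose

theorem coeff_spec (τ : Ω[F⁄ℂ]) : τ = M.coeff τ • KaehlerDifferential.D ℂ F M.x :=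
  (M.dx_spans τ).choose_spec

/-- `E` is a system of multiplicative primitives of `τ` on the sheets: `E k` is meromorphic on
the cut plane, generically nonvanishing, with logarithmic derivative the `k`-th sheet function
of `τ`. -/
def IsMultPrim (τ : Ω[F⁄ℂ]) (E : Fin M.d → ℂ → ℂ) : Prop :=
  ∀ k, MeromorphicOn (E k) M.toCutGeometry.U₀ ∧
    ∀ z ∈ M.toCutGeometry.U₀, ∀ᶠ w in 𝓝[≠] z,
      E k w ≠ 0 ∧ HasDerivAt (E k) (M.ev k (M.coeff τ) w * E k w) w

/-- `c` is the (multiplicative) jump cochain of the system `E`: across the `i`-th cut, `E k` on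
the left continues to `c i k * E (σ i k)` on the right. -/
def IsJumpOf (E : Fin M.d → ℂ → ℂ) (c : Fin M.r → Fin M.d → Additive ℂˣ) : Prop :=
  ∀ (i : Fin M.r) (k : Fin M.d) (a : ℂ), a ∈ openRay M.z₀ (M.b i) →
    ∃ g : ℂ → ℂ, MeromorphicAt g a ∧
      (∀ᶠ z in 𝓝[≠] a, z ∈ leftSide M.z₀ (M.b i) → g z = E k z) ∧
      (∀ᶠ z in 𝓝[≠] a, z ∈ rightSide M.z₀ (M.b i) →
        g z = ((Additive.toMul (c i k) : ℂˣ) : ℂ) * E (M.σ i k) z)

/-- `G` is a system of additive primitives of `η` on the sheets. -/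
def IsAddPrim (η : Ω[F⁄ℂ]) (G : Fin M.d → ℂ → ℂ) : Prop :=
  ∀ k, MeromorphicOn (G k) M.toCutGeometry.U₀ ∧
    ∀ z ∈ M.toCutGeometry.U₀, ∀ᶠ w in 𝓝[≠] z, HasDerivAt (G k) (M.ev k (M.coeff η) w) w

/-- `p` is the (additive) jump cochain of the system `G`: across the `i`-th cut, `G k` on the
left continues to `p i k + G (σ i k)` on the right. -/
def IsAddJumpOf (G : Fin M.d → ℂ → ℂ) (p : Fin M.r → Fin M.d → ℂ) : Prop :=
  ∀ (i : Fin M.r) (k : Fin M.d) (a : ℂ), a ∈ openRay M.z₀ (M.b i) →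
    ∃ g : ℂ → ℂ, MeromorphicAt g a ∧
      (∀ᶠ z in 𝓝[≠] a, z ∈ leftSide M.z₀ (M.b i) → g z = G k z) ∧
      (∀ᶠ z in 𝓝[≠] a, z ∈ rightSide M.z₀ (M.b i) → g z = p i k + G (M.σ i k) z)

end CutModel

/-- **The deliverables of module MONO** for a cut model `M`. -/
structure MonoPackages (M : CutModel F) : Prop where
  /-- [MONO-4] existence of multiplicative primitives with constant jumps -/
  exists_prim : ∀ τ ∈ M.T₀, ∃ (E : Fin M.d → ℂ → ℂ) (c : Fin M.r → Fin M.d → Additive ℂˣ),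
    M.IsMultPrim τ E ∧ M.IsJumpOf E c
  /-- [MONO-5] the jump cochain is a cocycle -/
  cocycle : ∀ τ ∈ M.T₀, ∀ (E : Fin M.d → ℂ → ℂ) (c : Fin M.r → Fin M.d → Additive ℂˣ),
    M.IsMultPrim τ E → M.IsJumpOf E c → c ∈ M.permDatum.Z1 (Additive ℂˣ)
  /-- [MONO-6a] the class of the jump cochain does not depend on the primitives -/
  unique : ∀ τ ∈ M.T₀, ∀ (E E' : Fin M.d → ℂ → ℂ) (c c' : Fin M.r → Fin M.d → Additive ℂˣ),
    M.IsMultPrim τ E → M.IsJumpOf E c → M.IsMultPrim τ E' → M.IsJumpOf E' c' →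
      c - c' ∈ M.permDatum.B1 (Additive ℂˣ)
  /-- [MONO-6b] products -/
  mul : ∀ τ ∈ M.T₀, ∀ τ' ∈ M.T₀,
    ∀ (E E' : Fin M.d → ℂ → ℂ) (c c' : Fin M.r → Fin M.d → Additive ℂˣ),
    M.IsMultPrim τ E → M.IsJumpOf E c → M.IsMultPrim τ' E' → M.IsJumpOf E' c' →
      M.IsMultPrim (τ + τ') (fun k z => E k z * E' k z) ∧
        M.IsJumpOf (fun k z => E k z * E' k z) (c + c')
  /-- [MONO-6b] inverses -/
  inv : ∀ τ ∈ M.T₀, ∀ (E : Fin M.d → ℂ → ℂ) (c : Fin M.r → Fin M.d → Additive ℂˣ),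
    M.IsMultPrim τ E → M.IsJumpOf E c →
      M.IsMultPrim (-τ) (fun k z => (E k z)⁻¹) ∧ M.IsJumpOf (fun k z => (E k z)⁻¹) (-c)
  /-- [MONO-6b] rescaling the primitives by constants changes the jump cochain by a
  coboundary -/
  rescale : ∀ τ ∈ M.T₀, ∀ (E : Fin M.d → ℂ → ℂ) (c : Fin M.r → Fin M.d → Additive ℂˣ)
    (a : Fin M.d → ℂˣ), M.IsMultPrim τ E → M.IsJumpOf E c →
      M.IsMultPrim τ (fun k z => (a k : ℂ) * E k z) ∧
        M.IsJumpOf (fun k z => (a k : ℂ) * E k z)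
          (fun i k => c i k + Additive.ofMul (a k) - Additive.ofMul (a (M.σ i k)))
  /-- [MONO-6c] the sheet functions of `h` are multiplicative primitives of `dlog h`, without
  jumps -/
  prim_dlog : ∀ h : F, h ≠ 0 →
    M.IsMultPrim (dlog F h) (fun k => M.ev k h) ∧ M.IsJumpOf (fun k => M.ev k h) 0
  /-- [MONO-7] the kernel -/
  kernel : ∀ τ ∈ M.T₀, ∀ (E : Fin M.d → ℂ → ℂ) (c : Fin M.r → Fin M.d → Additive ℂˣ),
    M.IsMultPrim τ E → M.IsJumpOf E c → c ∈ M.permDatum.B1 (Additive ℂˣ) →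
      ∃ h : F, h ≠ 0 ∧ τ = dlog F h

/-- **The deliverable of module SURJ** for a cut model `M`: every multiplicative cocycle is
the jump cochain of a differential of the third kind. -/
def SurjAt (M : CutModel F) : Prop :=
  ∀ c ∈ M.permDatum.Z1 (Additive ℂˣ), ∃ τ ∈ M.T₀, ∃ E : Fin M.d → ℂ → ℂ,
    M.IsMultPrim τ E ∧ M.IsJumpOf E c

/-- **[MONO]** -/
def MonoStatement : Prop :=
  ∀ (F : Type) [Field F] [Algebra ℂ F] [IsCurveOver ℂ F] [Algebra.EssFiniteType ℂ F]
    (M : CutModel F), MonoPackages M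

/-- **[SURJ]** -/
def SurjStatement : Prop :=
  ∀ (F : Type) [Field F] [Algebra ℂ F] [IsCurveOver ℂ F] [Algebra.EssFiniteType ℂ F]
    (M : CutModel F), SurjAt M

/-! ### The formal assembly -/

section assembly

variable {M : CutModel F} (RR : RRCon F) (hM : MonoPackages M) (hS : SurjAt M)

open Classical in
/-- The monodromy map (junk outside `T₀`). -/
def monoOf (hM : MonoPackages M) (τ : Ω[F⁄ℂ]) : M.permDatum.H1 (Additive ℂˣ) :=
  if h : τ ∈ M.T₀ then
    QuotientAddGroup.mk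
      (⟨(hM.exists_prim τ h).choose_spec.choose,
        hM.cocycle τ h _ _ (hM.exists_prim τ h).choose_spec.choose_spec.1
          (hM.exists_prim τ h).choose_spec.choose_spec.2⟩ : M.permDatum.Z1 (Additive ℂˣ))
  else 0

theorem monoOf_eq (hM : MonoPackages M) {τ : Ω[F⁄ℂ]} (h : τ ∈ M.T₀)
    {E : Fin M.d → ℂ → ℂ} {c : Fin M.r → Fin M.d → Additive ℂˣ}
    (hE : M.IsMultPrim τ E) (hc : M.IsJumpOf E c) :
    monoOf hM τ = QuotientAddGroup.mk
      (⟨c, hM.cocycle τ h E c hE hc⟩ : M.permDatum.Z1 (Additive ℂˣ)) := by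
  unfold monoOf
  rw [dif_pos h, QuotientAddGroup.eq, AddSubgroup.mem_addSubgroupOf]
  have h1 := hM.unique τ h _ E _ c (hM.exists_prim τ h).choose_spec.choose_spec.1
    (hM.exists_prim τ h).choose_spec.choose_spec.2 hE hc
  have h2 := (M.permDatum.B1 (Additive ℂˣ)).neg_mem h1
  have e : ((-(⟨(hM.exists_prim τ h).choose_spec.choose,
        hM.cocycle τ h _ _ (hM.exists_prim τ h).choose_spec.choose_spec.1
          (hM.exists_prim τ h).choose_spec.choose_spec.2⟩ : M.permDatum.Z1 (Additive ℂˣ)) +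
      (⟨c, hM.cocycle τ h E c hE hc⟩ : M.permDatum.Z1 (Additive ℂˣ)) :
        M.permDatum.Z1 (Additive ℂˣ)) : Fin M.permDatum.r → Fin M.permDatum.d → Additive ℂˣ)
      = -((hM.exists_prim τ h).choose_spec.choose - c) := by
    simp only [AddSubgroup.coe_add, AddSubgroup.coe_neg]
    abel
  rw [e]
  exact h2

include RR in
/-- **The Riemann-Hilbert statement from the packages.** -/
theorem rh_of_packages (hM : MonoPackages M) (hS : SurjAt M) : RH M := by
  refine ⟨monoOf hM, ?_, ?_, ?_⟩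
  · -- additivity
    intro τ hτ τ' hτ'
    obtain ⟨E, c, hE, hc⟩ := hM.exists_prim τ hτ
    obtain ⟨E', c', hE', hc'⟩ := hM.exists_prim τ' hτ'
    obtain ⟨hEE, hcc⟩ := hM.mul τ hτ τ' hτ' E E' c c' hE hc hE' hc'
    rw [monoOf_eq hM hτ hE hc, monoOf_eq hM hτ' hE' hc',
      monoOf_eq hM (M.add_mem_T₀ RR hτ hτ') hEE hcc]
    rfl
  · -- kernel
    intro τ hτ
    obtain ⟨E, c, hE, hc⟩ := hM.exists_prim τ hτ
    rw [monoOf_eq hM hτ hE hc]
    constructor
    · intro h0
      rw [QuotientAddGroup.eq_zero_iff, AddSubgroup.mem_addSubgroupOf] at h0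
      exact hM.kernel τ hτ E c hE hc h0
    · rintro ⟨h, hh, rfl⟩
      obtain ⟨hE', hc'⟩ := hM.prim_dlog h hh
      rw [QuotientAddGroup.eq_zero_iff, AddSubgroup.mem_addSubgroupOf]
      have h3 := hM.unique _ hτ E _ c 0 hE hc hE' hc'
      rw [sub_zero] at h3
      exact h3
  · -- surjectivity
    intro χ
    obtain ⟨⟨c, hc⟩, rfl⟩ := QuotientAddGroup.mk_surjective χ
    obtain ⟨τ, hτ, E, hE, hcE⟩ := hS c hc
    exact ⟨τ, hτ, monoOf_eq hM hτ hE hcE⟩

end assembly

/-- **[MONO+SURJ]** from the two module statements. -/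
theorem rhStatement_of_modules (hRR : RRConStatement) (hMono : MonoStatement)
    (hSurj : SurjStatement) : RHStatement := fun F _ _ _ _ M =>
  rh_of_packages (hRR F) (hMono F M) (hSurj F M)

end

end Fermat.Agent.P5.helper25
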