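import Mathlib

/-!
# P5 / M6 (helper4): analytic helpers for the Riemann–Hurwitz bookkeeping of a cut model

* `eventuallyEq_of_frequently`, `eventuallyEq_of_open` : identity principle for meromorphic
  germs, in the shape needed for the local parametrisations of a cut model;
* `wedge φ₀ δ` : an open wedge inside a sector; `wedge_subset_sector'`-type statements are in
  `helper4_CutGeom`;
* orders of the model functions `w - a`, `b + s ^ e * u - a`, `z₀ + w⁻¹ - a`.
-/

set_option autoImplicit false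

open Filter Topology

namespace Fermat.Agent.P5.helper4

/-- If `f w ≠ 0` on a punctured neighbourhood of `c`, then for `z ≠ c` close to `c` the same
holds on a neighbourhood of `z`. -/
theorem eventually_eventually_punctured {P : ℂ → Prop} {c : ℂ} (h : ∀ᶠ z in 𝓝[≠] c, P z) :
    ∀ᶠ z in 𝓝[≠] c, ∀ᶠ w in 𝓝 z, P w := by
  rw [eventually_nhdsWithin_iff] at h ⊢
  have h2 := h.eventually_nhds
  filter_upwards [h2] with z hz hzc
  have h3 : ∀ᶠ w in 𝓝 z, w ≠ c := (continuous_id.continuousAt (x := z)).eventually_ne hzc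
  filter_upwards [hz, h3] with w hw hwc
  exact hw hwc

/-- Identity principle: two meromorphic germs at `c` which agree near points accumulating at `c`
agree on a punctured neighbourhood of `c`. -/
theorem eventuallyEq_of_frequently {H Φ : ℂ → ℂ} {c : ℂ} (hH : MeromorphicAt H c)
    (hΦ : MeromorphicAt Φ c) (h : ∃ᶠ z in 𝓝[≠] c, H =ᶠ[𝓝[≠] z] Φ) : H =ᶠ[𝓝[≠] c] Φ := by
  have hf : MeromorphicAt (H - Φ) c := hH.sub hΦ
  rcases hf.eventually_eq_zero_or_eventually_ne_zero with h0 | h1
  · filter_upwards [h0] with z hz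
    simpa [sub_eq_zero] using hz
  · exfalso
    have h2 := eventually_eventually_punctured h1
    obtain ⟨z, hz1, hz2⟩ := (h.and_eventually h2).exists
    have h3 : ∀ᶠ w in 𝓝[≠] z, False := by
      filter_upwards [hz1, nhdsWithin_le_nhds hz2] with w hw1 hw2
      apply hw2
      simp [hw1]
    obtain ⟨_, hf⟩ := h3.exists
    exact hf

/-- Identity principle in sector form: `H` is meromorphic at `c`, agrees pointwise with `E` on an
open set `S` accumulating at `c`, and `E` agrees generically with `Φ` on `S`. -/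
theorem eventuallyEq_of_open {H E Φ : ℂ → ℂ} {c : ℂ} {S : Set ℂ} (hS : IsOpen S)
    (hacc : ∃ᶠ z in 𝓝[≠] c, z ∈ S) (hH : MeromorphicAt H c) (hΦ : MeromorphicAt Φ c)
    (h1 : ∀ᶠ z in 𝓝[≠] c, z ∈ S → H z = E z)
    (h2 : ∀ z ∈ S, E =ᶠ[𝓝[≠] z] Φ) : H =ᶠ[𝓝[≠] c] Φ := by
  refine eventuallyEq_of_frequently hH hΦ ?_
  have h3 := eventually_eventually_punctured h1
  refine (hacc.and_eventually h3).mono ?_
  rintro z ⟨hzS, hz⟩
  have h4 : ∀ᶠ w in 𝓝 z, w ∈ S := hS.mem_nhds hzS
  have h5 : ∀ᶠ w in 𝓝 z, H w = E w := by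
    filter_upwards [hz, h4] with w hw hwS using hw hwS
  filter_upwards [nhdsWithin_le_nhds h5, h2 z hzS] with w hw1 hw2
  rw [hw1, hw2]

/-- Points on a half-line through `c` accumulate at `c`. -/
theorem frequently_of_line {c v : ℂ} (hv : v ≠ 0) {S : Set ℂ}
    (h : ∀ᶠ t : ℝ in 𝓝[>] (0 : ℝ), c + (t : ℂ) * v ∈ S) : ∃ᶠ z in 𝓝[≠] c, z ∈ S := by
  have ht : Tendsto (fun t : ℝ => c + (t : ℂ) * v) (𝓝[>] (0 : ℝ)) (𝓝[≠] c) := by
    rw [tendsto_nhdsWithin_iff]
    constructor
    · have hc : Continuous fun t : ℝ => c + (t : ℂ) * v := by fun_prop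
      have := hc.tendsto 0
      simp only [Complex.ofReal_zero, zero_mul, add_zero] at this
      exact this.mono_left nhdsWithin_le_nhds
    · filter_upwards [self_mem_nhdsWithin] with t ht
      have ht' : (0 : ℝ) < t := ht
      simp only [Set.mem_compl_iff, Set.mem_singleton_iff, add_eq_left, mul_eq_zero,
        Complex.ofReal_eq_zero, not_or]
      exact ⟨ht'.ne', hv⟩
  exact ht.frequently h.frequently

/-! ### Orders of the model functions -/

theorem order_sub_const (a z : ℂ) :
    meromorphicOrderAt (fun w : ℂ => w - a) z = if z = a then ((1 : ℤ) : WithTop ℤ) else (0 : ℤ) := by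
  have hm : MeromorphicAt (fun w : ℂ => w - a) z := by fun_prop
  split_ifs with h
  · subst h
    rw [meromorphicOrderAt_eq_int_iff hm]
    refine ⟨fun _ => 1, analyticAt_const, one_ne_zero, Eventually.of_forall fun w => ?_⟩
    simp
  · rw [meromorphicOrderAt_eq_int_iff hm]
    refine ⟨fun w => w - a, by fun_prop, sub_ne_zero.2 h, Eventually.of_forall fun w => ?_⟩
    simp

theorem order_puiseux (a b u : ℂ) (hu : u ≠ 0) (e : ℕ) (he : 0 < e) :
    meromorphicOrderAt (fun s : ℂ => b + s ^ e * u - a) 0 =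
      if a = b then ((e : ℤ) : WithTop ℤ) else (0 : ℤ) := by
  have hm : MeromorphicAt (fun s : ℂ => b + s ^ e * u - a) 0 := by fun_prop
  split_ifs with h
  · subst h
    rw [meromorphicOrderAt_eq_int_iff hm]
    refine ⟨fun _ => u, analyticAt_const, hu, Eventually.of_forall fun w => ?_⟩
    simp
  · rw [meromorphicOrderAt_eq_int_iff hm]
    refine ⟨fun s => b + s ^ e * u - a, by fun_prop, ?_, Eventually.of_forall fun w => ?_⟩
    · simp only [ne_eq, he.ne', not_false_eq_true, zero_pow, zero_mul, add_zero]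
      exact sub_ne_zero.2 (Ne.symm h)
    · simp

theorem order_inf (a z₀ : ℂ) :
    meromorphicOrderAt (fun w : ℂ => z₀ + w⁻¹ - a) 0 = ((-1 : ℤ) : WithTop ℤ) := by
  have hm : MeromorphicAt (fun w : ℂ => z₀ + w⁻¹ - a) 0 := by fun_prop
  rw [meromorphicOrderAt_eq_int_iff hm]
  refine ⟨fun w => (z₀ - a) * w + 1, by fun_prop, by simp, ?_⟩
  filter_upwards [self_mem_nhdsWithin] with w hw
  have hw' : w ≠ 0 := hw
  simp only [sub_zero, zpow_neg, zpow_one, smul_eq_mul]
  field_simp
  ring

end Fermat.Agent.P5.helper4
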