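import Fermat.Agent.P5.helper25_CutModel
import Fermat.Agent.P5.helper4_Analysis

/-!
# P5 / M6 (helper4): plane geometry of the cuts

Rays are closed, the cut plane `U₀` is open, rays with different directions are disjoint,
wedges are open subsets of sectors.
-/

set_option autoImplicit false

open Filter Topology Complex

namespace Fermat.Agent.P5.helper4

open Fermat.Agent.P5.helper25

/-! ### Rays -/

theorem mem_ray_iff {z₀ b z : ℂ} (hb : b ≠ z₀) :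
    z ∈ ray z₀ b ↔ 0 ≤ ((z - b) / (b - z₀)).re ∧ ((z - b) / (b - z₀)).im = 0 := by
  have hb' : b - z₀ ≠ 0 := sub_ne_zero.2 hb
  constructor
  · rintro ⟨s, hs, rfl⟩
    have : (b + (s : ℂ) * (b - z₀) - b) / (b - z₀) = (s : ℂ) := by
      field_simp
      ring
    rw [this]
    exact ⟨by simpa using hs, by simp⟩
  · rintro ⟨h1, h2⟩
    refine ⟨((z - b) / (b - z₀)).re, h1, ?_⟩
    have h3 : (((z - b) / (b - z₀)).re : ℂ) = (z - b) / (b - z₀) := by
      apply Complex.ext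
      · simp
      · simp [h2]
    rw [h3]
    field_simp
    ring

theorem isClosed_ray {z₀ b : ℂ} (hb : b ≠ z₀) : IsClosed (ray z₀ b) := by
  have h : ray z₀ b = {z : ℂ | 0 ≤ ((z - b) / (b - z₀)).re} ∩
      {z : ℂ | ((z - b) / (b - z₀)).im = 0} := by
    ext z
    exact mem_ray_iff hb
  rw [h]
  refine IsClosed.inter ?_ ?_
  · exact isClosed_le continuous_const (by fun_prop)
  · exact isClosed_eq (by fun_prop) continuous_const

theorem self_mem_ray (z₀ b : ℂ) : b ∈ ray z₀ b := ⟨0, le_rfl, by simp⟩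

theorem openRay_subset_ray (z₀ b : ℂ) : openRay z₀ b ⊆ ray z₀ b := by
  rintro z ⟨s, hs, rfl⟩
  exact ⟨s, hs.le, rfl⟩

theorem ne_of_mem_openRay {z₀ b a : ℂ} (hb : b ≠ z₀) (ha : a ∈ openRay z₀ b) : a ≠ b := by
  obtain ⟨s, hs, rfl⟩ := ha
  intro h
  have h1 : (s : ℂ) * (b - z₀) = 0 := by
    have := congrArg (fun w => w - b) h
    simpa using this
  rcases mul_eq_zero.1 h1 with h2 | h2
  · exact hs.ne' (by exact_mod_cast h2)
  · exact hb (sub_eq_zero.1 h2)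

theorem not_mem_ray_of_mem_leftSide {z₀ b z : ℂ} (hb : b ≠ z₀) (hz : z ∈ leftSide z₀ b) :
    z ∉ ray z₀ b := by
  intro h
  have h1 := ((mem_ray_iff hb).1 h).2
  have h2 : 0 < ((z - b) / (b - z₀)).im := hz
  rw [h1] at h2
  exact lt_irrefl _ h2

theorem isOpen_leftSide (z₀ b : ℂ) : IsOpen (leftSide z₀ b) := by
  have : leftSide z₀ b = (fun z : ℂ => ((z - b) / (b - z₀)).im) ⁻¹' Set.Ioi 0 := rfl
  rw [this]
  exact isOpen_Ioi.preimage (by fun_prop)

/-- a point of a ray, in polar form around `z₀` -/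
theorem exists_of_mem_ray {z₀ b z : ℂ} (hb : b ≠ z₀) (hz : z ∈ ray z₀ b) :
    ∃ R : ℝ, 0 < R ∧ z - z₀ = (R : ℂ) * exp ((arg (b - z₀) : ℂ) * I) := by
  obtain ⟨s, hs, rfl⟩ := hz
  have hb' : b - z₀ ≠ 0 := sub_ne_zero.2 hb
  refine ⟨(1 + s) * ‖b - z₀‖, mul_pos (by linarith) (norm_pos_iff.2 hb'), ?_⟩
  have h := Complex.norm_mul_exp_arg_mul_I (b - z₀)
  push_cast
  rw [mul_assoc, h]
  ring

/-- If `ρ e^{iα}` (`ρ > 0`) is a positive real number then `α ∈ 2πℤ`. -/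
theorem exists_int_of_pos_real {ρ R α : ℝ} (hρ : 0 < ρ) (hR : 0 < R)
    (h : (ρ : ℂ) * exp ((α : ℂ) * I) = (R : ℂ)) : ∃ n : ℤ, α = n * (2 * Real.pi) := by
  have h1 : ‖(ρ : ℂ) * exp ((α : ℂ) * I)‖ = ρ := by
    rw [norm_mul, Complex.norm_exp_ofReal_mul_I, mul_one, Complex.norm_real,
      Real.norm_of_nonneg hρ.le]
  have h2 : ρ = R := by
    rw [← h1, h, Complex.norm_real, Real.norm_of_nonneg hR.le]
  have h3 : exp ((α : ℂ) * I) = 1 := by
    have hρ' : (ρ : ℂ) ≠ 0 := by exact_mod_cast hρ.ne'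
    apply mul_left_cancel₀ hρ'
    rw [h, mul_one, h2]
  obtain ⟨n, hn⟩ := Complex.exp_eq_one_iff.1 h3
  refine ⟨n, ?_⟩
  have h4 : (α : ℂ) * I = ((n * (2 * Real.pi) : ℝ) : ℂ) * I := by
    rw [hn]; push_cast; ring
  have h5 := mul_right_cancel₀ Complex.I_ne_zero h4
  exact_mod_cast h5

/-- If `ρ e^{iφ} = R e^{iθ}` with `ρ, R > 0` then `φ - θ ∈ 2πℤ`. -/
theorem exists_int_of_polar_eq {ρ R φ θ : ℝ} (hρ : 0 < ρ) (hR : 0 < R)
    (h : (ρ : ℂ) * exp ((φ : ℂ) * I) = (R : ℂ) * exp ((θ : ℂ) * I)) :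
    ∃ n : ℤ, φ - θ = n * (2 * Real.pi) := by
  refine exists_int_of_pos_real hρ hR (α := φ - θ) ?_
  have h1 : exp (((φ - θ : ℝ) : ℂ) * I) = exp ((φ : ℂ) * I) * (exp ((θ : ℂ) * I))⁻¹ := by
    rw [← Complex.exp_neg, ← Complex.exp_add]
    congr 1
    push_cast
    ring
  rw [h1, ← mul_assoc, h, mul_assoc, mul_inv_cancel₀ (Complex.exp_ne_zero _), mul_one]

theorem no_int_between {x : ℝ} (h0 : 0 < x) (h1 : x < 2 * Real.pi) :
    ¬ ∃ n : ℤ, x = n * (2 * Real.pi) := by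
  rintro ⟨n, hn⟩
  have hpi : (0 : ℝ) < 2 * Real.pi := by positivity
  rw [hn] at h0 h1
  have h2 : (0 : ℝ) < n := by
    by_contra hcon
    push Not at hcon
    have := mul_nonpos_of_nonpos_of_nonneg hcon hpi.le
    linarith
  have h3 : (n : ℝ) < 1 := by
    by_contra hcon
    push Not at hcon
    have : 1 * (2 * Real.pi) ≤ n * (2 * Real.pi) := by gcongr
    linarith
  have h4 : (0 : ℤ) < n := by exact_mod_cast h2
  have h5 : n < 1 := by exact_mod_cast h3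
  omega

/-! ### The cut plane -/

namespace CutGeom

variable (G : CutGeometry)

theorem b_injective : Function.Injective G.b := by
  intro i j h
  have h1 : (fun i => Complex.arg (G.b i - G.z₀)) i = (fun i => Complex.arg (G.b i - G.z₀)) j := by
    simp only [h]
  exact G.arg_strictMono.injective h1

theorem θ_strictMono : StrictMono G.θ := G.arg_strictMono

theorem θ_mem (i : Fin G.r) : G.θ i ∈ Set.Ioc (-Real.pi) Real.pi := Complex.arg_mem_Ioc _

theorem isOpen_U₀ : IsOpen G.U₀ := by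
  have h : G.U₀ = ⋂ i, (ray G.z₀ (G.b i))ᶜ := by
    ext z
    simp [CutGeometry.U₀]
  rw [h]
  exact isOpen_iInter_of_finite fun i => (isClosed_ray (G.b_ne i)).isOpen_compl

/-- the plane with all rays but the `i`-th removed -/
def Uexcept (i : Fin G.r) : Set ℂ := {z | ∀ j, j ≠ i → z ∉ ray G.z₀ (G.b j)}

theorem isOpen_Uexcept (i : Fin G.r) : IsOpen (Uexcept G i) := by
  have h : Uexcept G i = ⋂ j, ⋂ (_ : j ≠ i), (ray G.z₀ (G.b j))ᶜ := by
    ext z
    simp [Uexcept]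
  rw [h]
  exact isOpen_iInter_of_finite fun j =>
    isOpen_iInter_of_finite fun _ => (isClosed_ray (G.b_ne j)).isOpen_compl

/-- rays with different indices are disjoint -/
theorem not_mem_ray_of_ne {i j : Fin G.r} (hij : j ≠ i) {z : ℂ} (hz : z ∈ ray G.z₀ (G.b i)) :
    z ∉ ray G.z₀ (G.b j) := by
  intro hz'
  obtain ⟨R, hR, h1⟩ := exists_of_mem_ray (G.b_ne i) hz
  obtain ⟨R', hR', h2⟩ := exists_of_mem_ray (G.b_ne j) hz'
  rw [h1] at h2
  obtain ⟨n, hn⟩ := exists_int_of_polar_eq hR hR' h2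
  have hi := θ_mem G i
  have hj := θ_mem G j
  change G.θ i - G.θ j = n * (2 * Real.pi) at hn
  have hne : G.θ i ≠ G.θ j := fun h => hij ((θ_strictMono G).injective h).symm
  have hpi : (0 : ℝ) < 2 * Real.pi := by positivity
  rcases lt_or_gt_of_ne hne with h | h
  · apply no_int_between (x := G.θ j - G.θ i) (by linarith) (by linarith [hi.1, hj.2])
    exact ⟨-n, by push_cast; linarith⟩
  · apply no_int_between (x := G.θ i - G.θ j) (by linarith) (by linarith [hi.2, hj.1])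
    exact ⟨n, hn⟩

theorem ray_subset_Uexcept (i : Fin G.r) : ray G.z₀ (G.b i) ⊆ Uexcept G i :=
  fun _ hz _ hj => not_mem_ray_of_ne G hj hz

theorem mem_U₀_of_mem_Uexcept {i : Fin G.r} {z : ℂ} (h1 : z ∈ Uexcept G i)
    (h2 : z ∉ ray G.z₀ (G.b i)) : z ∈ G.U₀ := by
  intro j
  by_cases hj : j = i
  · subst hj; exact h2
  · exact h1 j hj

theorem b_not_mem_U₀ (i : Fin G.r) : G.b i ∉ G.U₀ := fun h => h i (self_mem_ray _ _)

theorem not_mem_U₀_of_mem_openRay {i : Fin G.r} {a : ℂ} (ha : a ∈ openRay G.z₀ (G.b i)) :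
    a ∉ G.U₀ := fun h => h i (openRay_subset_ray _ _ ha)

theorem ne_b_of_mem_openRay {i : Fin G.r} {a : ℂ} (ha : a ∈ openRay G.z₀ (G.b i))
    (j : Fin G.r) : a ≠ G.b j := by
  by_cases hj : j = i
  · subst hj
    exact ne_of_mem_openRay (G.b_ne _) ha
  · intro h
    exact not_mem_ray_of_ne G hj (openRay_subset_ray _ _ ha) (h ▸ self_mem_ray _ _)

theorem ne_b_of_mem_U₀ {z : ℂ} (hz : z ∈ G.U₀) (j : Fin G.r) : z ≠ G.b j :=
  fun h => b_not_mem_U₀ G j (h ▸ hz)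

end CutGeom

/-! ### Wedges -/

/-- The open wedge of half-angle `δ` around the direction `φ₀`. -/
def wedge (φ₀ δ : ℝ) : Set ℂ :=
  {v | v * exp (-(φ₀ : ℂ) * I) ∈ slitPlane ∧ arg (v * exp (-(φ₀ : ℂ) * I)) ∈ Set.Ioo (-δ) δ}

theorem isOpen_wedge (φ₀ δ : ℝ) : IsOpen (wedge φ₀ δ) := by
  have h1 : IsOpen (slitPlane ∩ arg ⁻¹' Set.Ioo (-δ) δ) :=
    Complex.continuousOn_arg.isOpen_inter_preimage Complex.isOpen_slitPlane isOpen_Ioo
  have h2 : wedge φ₀ δ = (fun v : ℂ => v * exp (-(φ₀ : ℂ) * I)) ⁻¹'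
      (slitPlane ∩ arg ⁻¹' Set.Ioo (-δ) δ) := rfl
  rw [h2]
  exact h1.preimage (by fun_prop)

theorem wedge_subset_sector (φ₀ δ : ℝ) : wedge φ₀ δ ⊆ sector (φ₀ - δ) (φ₀ + δ) := by
  rintro v ⟨hv1, hv2⟩
  set u : ℂ := v * exp (-(φ₀ : ℂ) * I) with hu
  have hu0 : u ≠ 0 := Complex.slitPlane_ne_zero hv1
  refine ⟨‖u‖, φ₀ + arg u, norm_pos_iff.2 hu0, by linarith [hv2.1], by linarith [hv2.2], ?_⟩
  have h1 := Complex.norm_mul_exp_arg_mul_I u
  have h2 : v = u * exp ((φ₀ : ℂ) * I) := by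
    rw [hu, mul_assoc, ← Complex.exp_add]
    simp
  rw [h2]
  nth_rewrite 1 [← h1]
  rw [mul_assoc, ← Complex.exp_add]
  congr 2
  push_cast
  ring

theorem mem_wedge_of_pos {φ₀ δ : ℝ} (hδ : 0 < δ) {t : ℝ} (ht : 0 < t) :
    (t : ℂ) * exp ((φ₀ : ℂ) * I) ∈ wedge φ₀ δ := by
  have h : (t : ℂ) * exp ((φ₀ : ℂ) * I) * exp (-(φ₀ : ℂ) * I) = (t : ℂ) := by
    rw [mul_assoc, ← Complex.exp_add]
    simp
  refine ⟨?_, ?_⟩
  · rw [h]
    exact Complex.ofReal_mem_slitPlane.2 ht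
  · rw [h, Complex.arg_ofReal_of_nonneg ht.le]
    exact ⟨by linarith, hδ⟩

end Fermat.Agent.P5.helper4
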