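import Fermat.Agent.P5.helper25_RHDefs
import Fermat.Agent.P5.helper4_CutGeom

/-!
# P5 / M6 (helper4): orders of `x - a` at the four kinds of places of a cut model

For a cut model `M` of `F/ℂ` and `a : ℂ`:
* `ord_pl`    : at an interior place `pl k z` the order of `x - a` is `1` if `z = a`, else `0`;
* `ord_plRay` : at a ray place `plRay i k a'` it is `1` if `a' = a`, else `0`;
* `ord_plBad` : at a bad place `plBad i k` it is the cycle length of `k` if `a = b i`, else `0`;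
* `ord_plInf` : at a place at infinity it is `-1`.
-/

set_option autoImplicit false

open Filter Topology Complex AlgebraicCurve

namespace Fermat.Agent.P5.helper4

open Fermat.Agent.P5.helper25

variable {F : Type} [Field F] [Algebra ℂ F] (M : CutModel F)

/-- the function `x - a` -/
def xsub (a : ℂ) : F := M.x - algebraMap ℂ F a

theorem xsub_ne_zero (a : ℂ) : xsub M a ≠ 0 := by
  intro h
  apply M.x_transcendental
  have h1 : M.x = algebraMap ℂ F a := sub_eq_zero.1 h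
  rw [h1]
  exact isAlgebraic_algebraMap a

theorem ev_xsub (k : Fin M.d) (a : ℂ) {z : ℂ} (hz : z ∈ M.toCutGeometry.U₀) :
    M.ev k (xsub M a) =ᶠ[𝓝[≠] z] fun w => w - a := by
  have h1 : xsub M a = M.x + algebraMap ℂ F (-a) := by
    simp [xsub, sub_eq_add_neg]
  rw [h1]
  have h2 := M.ev_add k M.x (algebraMap ℂ F (-a)) z hz
  have h3 : ∀ᶠ w in 𝓝[≠] z, w ∈ M.toCutGeometry.U₀ :=
    nhdsWithin_le_nhds ((CutGeom.isOpen_U₀ _).mem_nhds hz)
  filter_upwards [h2, h3] with w hw hwU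
  rw [hw, M.ev_x k hwU, M.ev_algebraMap k (-a) hwU]
  simp [sub_eq_add_neg]

/-- pull-back of `ev_xsub` along a map which is locally injective at `s` -/
theorem ev_xsub_comp (k : Fin M.d) (a : ℂ) {ψ : ℂ → ℂ} {s : ℂ} (hc : ContinuousAt ψ s)
    (hne : ∀ᶠ w in 𝓝[≠] s, ψ w ≠ ψ s) (hz : ψ s ∈ M.toCutGeometry.U₀) :
    (fun w => M.ev k (xsub M a) (ψ w)) =ᶠ[𝓝[≠] s] fun w => ψ w - a := by
  have ht : Tendsto ψ (𝓝[≠] s) (𝓝[≠] (ψ s)) :=
    tendsto_nhdsWithin_iff.2 ⟨hc.tendsto.mono_left nhdsWithin_le_nhds, hne⟩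
  exact ht.eventually (ev_xsub M k a hz)

theorem ord_pl (k : Fin M.d) {z : ℂ} (hz : z ∈ M.toCutGeometry.U₀) (a : ℂ) :
    (M.pl k z).ord (xsub M a) = if z = a then 1 else 0 := by
  have h := M.pl_ord k z hz (xsub M a) (xsub_ne_zero M a)
  rw [meromorphicOrderAt_congr (ev_xsub M k a hz), order_sub_const] at h
  split_ifs at h ⊢ <;> exact_mod_cast h

theorem ord_plRay (i : Fin M.r) (k : Fin M.d) {a' : ℂ} (ha' : a' ∈ openRay M.z₀ (M.b i))
    (a : ℂ) : (M.plRay i k a').ord (xsub M a) = if a' = a then 1 else 0 := by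
  obtain ⟨g, hg, hL, -, hord⟩ := M.cross i k a' ha' (xsub M a) (xsub_ne_zero M a)
  have hbi : M.b i - M.z₀ ≠ 0 := sub_ne_zero.2 (M.b_ne i)
  have key : g =ᶠ[𝓝[≠] a'] fun w => w - a := by
    refine eventuallyEq_of_open
      (S := leftSide M.z₀ (M.b i) ∩ CutGeom.Uexcept M.toCutGeometry i)
      (E := M.ev k (xsub M a)) ?_ ?_ hg (by fun_prop) ?_ ?_
    · exact (isOpen_leftSide _ _).inter (CutGeom.isOpen_Uexcept _ i)
    · refine frequently_of_line (v := I * (M.b i - M.z₀)) (mul_ne_zero I_ne_zero hbi) ?_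
      have hc : Continuous fun t : ℝ => a' + (t : ℂ) * (I * (M.b i - M.z₀)) := by fun_prop
      have ht : Tendsto (fun t : ℝ => a' + (t : ℂ) * (I * (M.b i - M.z₀))) (𝓝[>] (0 : ℝ))
          (𝓝 a') := by
        have := hc.tendsto 0
        simp only [ofReal_zero, zero_mul, add_zero] at this
        exact this.mono_left nhdsWithin_le_nhds
      have hU : CutGeom.Uexcept M.toCutGeometry i ∈ 𝓝 a' :=
        (CutGeom.isOpen_Uexcept _ i).mem_nhds
          (CutGeom.ray_subset_Uexcept _ i (openRay_subset_ray _ _ ha'))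
      filter_upwards [ht.eventually hU, self_mem_nhdsWithin] with t ht1 ht2
      refine ⟨?_, ht1⟩
      have ht2' : (0 : ℝ) < t := ht2
      obtain ⟨s, hs, rfl⟩ := ha'
      show 0 < ((M.b i + (s : ℂ) * (M.b i - M.z₀) + (t : ℂ) * (I * (M.b i - M.z₀)) - M.b i) /
        (M.b i - M.z₀)).im
      have : (M.b i + (s : ℂ) * (M.b i - M.z₀) + (t : ℂ) * (I * (M.b i - M.z₀)) - M.b i) /
          (M.b i - M.z₀) = (s : ℂ) + (t : ℂ) * I := by
        field_simp
        ring
      rw [this]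
      simpa using ht2'
    · filter_upwards [hL] with z hz hzS using hz hzS.1
    · intro z hz
      exact ev_xsub M k a (CutGeom.mem_U₀_of_mem_Uexcept _ hz.2
        (not_mem_ray_of_mem_leftSide (M.b_ne i) hz.1))
  rw [meromorphicOrderAt_congr key, order_sub_const] at hord
  split_ifs at hord ⊢ <;> exact_mod_cast hord

/-! ### Bad places -/

theorem unitDir_ne_zero {z₀ b : ℂ} (hb : b ≠ z₀) : unitDir z₀ b ≠ 0 := by
  unfold unitDir
  have h1 : b - z₀ ≠ 0 := sub_ne_zero.2 hb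
  have h2 : ((‖b - z₀‖ : ℝ) : ℂ) ≠ 0 := by
    exact_mod_cast (norm_pos_iff.2 h1).ne'
  exact div_ne_zero h1 h2

theorem unitDir_div {z₀ b : ℂ} (hb : b ≠ z₀) (w : ℂ) :
    w * unitDir z₀ b / (b - z₀) = w / ((‖b - z₀‖ : ℝ) : ℂ) := by
  unfold unitDir
  have h1 : b - z₀ ≠ 0 := sub_ne_zero.2 hb
  have h2 : ((‖b - z₀‖ : ℝ) : ℂ) ≠ 0 := by
    exact_mod_cast (norm_pos_iff.2 h1).ne'
  field_simp

theorem minimalPeriod_pos (i : Fin M.r) (k : Fin M.d) :
    0 < Function.minimalPeriod (M.σ i) k := by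
  have h1 : Function.IsPeriodicPt (M.σ i) (orderOf (M.σ i)) k := by
    unfold Function.IsPeriodicPt Function.IsFixedPt
    rw [Equiv.Perm.iterate_eq_pow, pow_orderOf_eq_one]
    rfl
  exact h1.minimalPeriod_pos (orderOf_pos _)

/-- the `e`-th power map is locally injective away from `0` -/
theorem eventually_pow_ne {e : ℕ} (he : 0 < e) (s : ℂ) :
    ∀ᶠ w in 𝓝[≠] s, w ^ e ≠ s ^ e := by
  have hp : (Polynomial.X ^ e - Polynomial.C (s ^ e) : Polynomial ℂ) ≠ 0 :=
    Polynomial.X_pow_sub_C_ne_zero he _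
  have hfin : {w : ℂ | w ^ e = s ^ e}.Finite := by
    refine (Polynomial.finite_setOfPred_isRoot hp).subset ?_
    intro w hw
    simp only [Set.mem_ofPred_eq] at hw ⊢
    simp [Polynomial.IsRoot, hw]
  have hfin' : ({w : ℂ | w ^ e = s ^ e} \ {s}).Finite := hfin.subset Set.sdiff_subset
  have hmem : ({w : ℂ | w ^ e = s ^ e} \ {s})ᶜ ∈ 𝓝 s :=
    hfin'.isClosed.isOpen_compl.mem_nhds (by simp)
  filter_upwards [nhdsWithin_le_nhds hmem, self_mem_nhdsWithin] with w hw1 hw2 hw3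
  exact hw1 ⟨hw3, hw2⟩

/-- points of the first sector of the Puiseux disc do not map to the ray -/
theorem puiseux_not_mem_ray {z₀ b : ℂ} (hb : b ≠ z₀) {e : ℕ} (he : 0 < e) {s : ℂ}
    (hs : s ∈ sector 0 (2 * Real.pi / e)) : b + s ^ e * unitDir z₀ b ∉ ray z₀ b := by
  intro h
  obtain ⟨ρ, φ, hρ, hφ1, hφ2, rfl⟩ := hs
  obtain ⟨h1, h2⟩ := (mem_ray_iff hb).1 h
  have hnorm : (0 : ℝ) < ‖b - z₀‖ := norm_pos_iff.2 (sub_ne_zero.2 hb)
  have hnorm' : ((‖b - z₀‖ : ℝ) : ℂ) ≠ 0 := by exact_mod_cast hnorm.ne'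
  have h3 : (b + ((ρ : ℂ) * exp ((φ : ℂ) * I)) ^ e * unitDir z₀ b - b) / (b - z₀) =
      ((ρ : ℂ) * exp ((φ : ℂ) * I)) ^ e / ((‖b - z₀‖ : ℝ) : ℂ) := by
    rw [add_sub_cancel_left, unitDir_div hb]
  rw [h3] at h1 h2
  set q : ℂ := ((ρ : ℂ) * exp ((φ : ℂ) * I)) ^ e / ((‖b - z₀‖ : ℝ) : ℂ) with hq
  have hqre : q = (q.re : ℂ) := by
    apply Complex.ext
    · simp
    · simp [h2]
  have hq0 : q ≠ 0 := by
    rw [hq]
    refine div_ne_zero (pow_ne_zero _ (mul_ne_zero ?_ (Complex.exp_ne_zero _))) hnorm'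
    exact_mod_cast hρ.ne'
  have hqpos : 0 < q.re := by
    rcases h1.lt_or_eq with h | h
    · exact h
    · exfalso
      apply hq0
      rw [hqre, ← h]
      simp
  have h4 : ((ρ ^ e : ℝ) : ℂ) * exp (((e * φ : ℝ) : ℂ) * I) = ((q.re * ‖b - z₀‖ : ℝ) : ℂ) := by
    have h5 : ((ρ : ℂ) * exp ((φ : ℂ) * I)) ^ e = q * ((‖b - z₀‖ : ℝ) : ℂ) := by
      rw [hq]
      field_simp
    have h6 : ((ρ : ℂ) * exp ((φ : ℂ) * I)) ^ e =
        ((ρ ^ e : ℝ) : ℂ) * exp (((e * φ : ℝ) : ℂ) * I) := by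
      rw [mul_pow, ← Complex.exp_nat_mul]
      push_cast
      ring_nf
    rw [← h6, h5]
    nth_rewrite 1 [hqre]
    push_cast
    ring
  obtain ⟨n, hn⟩ := exists_int_of_pos_real (pow_pos hρ e) (mul_pos hqpos hnorm) h4
  have he' : (0 : ℝ) < e := by exact_mod_cast he
  refine no_int_between (x := e * φ) (by positivity) ?_ ⟨n, hn⟩
  have := mul_lt_mul_of_pos_left hφ2 he'
  have h7 : (e : ℝ) * (2 * Real.pi / e) = 2 * Real.pi := by
    field_simp
  linarith

theorem ord_plBad (i : Fin M.r) (k : Fin M.d) (a : ℂ) :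
    (M.plBad i k).ord (xsub M a) =
      if a = M.b i then (Function.minimalPeriod (M.σ i) k : ℤ) else 0 := by
  obtain ⟨H, hH, hsec, hord⟩ := M.puiseux i k (xsub M a) (xsub_ne_zero M a)
  set e := Function.minimalPeriod (M.σ i) k with he_def
  have he : 0 < e := minimalPeriod_pos M i k
  have he' : (0 : ℝ) < e := by exact_mod_cast he
  have hu : unitDir M.z₀ (M.b i) ≠ 0 := unitDir_ne_zero (M.b_ne i)
  set ψ : ℂ → ℂ := fun s => M.b i + s ^ e * unitDir M.z₀ (M.b i) with hψ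
  have hψc : Continuous ψ := by fun_prop
  have hsec0 := hsec 0
  have hsector : sector (2 * Real.pi * ((0 : ℕ) : ℝ) / e) (2 * Real.pi * (((0 : ℕ) : ℝ) + 1) / e)
      = sector 0 (2 * Real.pi / e) := by
    congr 1
    · simp
    · simp
  rw [hsector] at hsec0
  have hwedge : wedge (Real.pi / e) (Real.pi / e) ⊆ sector 0 (2 * Real.pi / e) := by
    have h := wedge_subset_sector (Real.pi / e) (Real.pi / e)
    have h1 : Real.pi / e - Real.pi / e = 0 := sub_self _
    have h2 : Real.pi / e + Real.pi / e = 2 * Real.pi / e := by ring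
    rwa [h1, h2] at h
  have key : H =ᶠ[𝓝[≠] 0] fun s => M.b i + s ^ e * unitDir M.z₀ (M.b i) - a := by
    refine eventuallyEq_of_open
      (S := wedge (Real.pi / e) (Real.pi / e) ∩ ψ ⁻¹' (CutGeom.Uexcept M.toCutGeometry i))
      (E := fun s => M.ev k (xsub M a) (ψ s)) ?_ ?_ hH (by fun_prop) ?_ ?_
    · exact (isOpen_wedge _ _).inter ((CutGeom.isOpen_Uexcept _ i).preimage hψc)
    · have h1 := frequently_of_line (c := 0) (v := exp (((Real.pi / e : ℝ) : ℂ) * I))
        (Complex.exp_ne_zero _)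
        (S := wedge (Real.pi / e) (Real.pi / e) ∩ ψ ⁻¹' (CutGeom.Uexcept M.toCutGeometry i))
      apply h1
      have hc : Continuous fun t : ℝ => (0 : ℂ) + (t : ℂ) * exp (((Real.pi / e : ℝ) : ℂ) * I) := by
        fun_prop
      have ht : Tendsto (fun t : ℝ => (0 : ℂ) + (t : ℂ) * exp (((Real.pi / e : ℝ) : ℂ) * I))
          (𝓝[>] (0 : ℝ)) (𝓝 0) := by
        have := hc.tendsto 0
        simp only [ofReal_zero, zero_mul, add_zero] at this
        exact this.mono_left nhdsWithin_le_nhds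
      have hU : ψ ⁻¹' (CutGeom.Uexcept M.toCutGeometry i) ∈ 𝓝 (0 : ℂ) := by
        refine ((CutGeom.isOpen_Uexcept _ i).preimage hψc).mem_nhds ?_
        show ψ 0 ∈ CutGeom.Uexcept M.toCutGeometry i
        have : ψ 0 = M.b i := by simp [hψ, he.ne']
        rw [this]
        exact CutGeom.ray_subset_Uexcept _ i (self_mem_ray _ _)
      filter_upwards [ht.eventually hU, self_mem_nhdsWithin] with t ht1 ht2
      refine ⟨?_, ht1⟩
      rw [zero_add]
      exact mem_wedge_of_pos (by positivity) ht2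
    · filter_upwards [hsec0] with s hs hsS
      have := hs (hwedge hsS.1)
      simpa using this
    · intro s hs
      have hs0 : s ≠ 0 := by
        rintro rfl
        obtain ⟨ρ, φ, hρ, -, -, h0⟩ := hwedge hs.1
        have : (ρ : ℂ) * exp ((φ : ℂ) * I) ≠ 0 :=
          mul_ne_zero (by exact_mod_cast hρ.ne') (Complex.exp_ne_zero _)
        exact this h0.symm
      have hzU : ψ s ∈ M.toCutGeometry.U₀ :=
        CutGeom.mem_U₀_of_mem_Uexcept _ hs.2 (puiseux_not_mem_ray (M.b_ne i) he (hwedge hs.1))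
      refine ev_xsub_comp M k a hψc.continuousAt ?_ hzU
      filter_upwards [eventually_pow_ne he s] with w hw hcon
      apply hw
      have h1 : w ^ e * unitDir M.z₀ (M.b i) = s ^ e * unitDir M.z₀ (M.b i) := by
        have := congrArg (fun z => z - M.b i) hcon
        simpa [hψ] using this
      exact mul_right_cancel₀ hu h1
  rw [meromorphicOrderAt_congr key, order_puiseux a (M.b i) _ hu e he] at hord
  split_ifs at hord ⊢ <;> exact_mod_cast hord

/-! ### Places at infinity -/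

theorem eventually_inv_ne {w₀ : ℂ} :
    ∀ᶠ w in 𝓝[≠] w₀, (fun w : ℂ => M.z₀ + w⁻¹) w ≠ (fun w : ℂ => M.z₀ + w⁻¹) w₀ := by
  filter_upwards [self_mem_nhdsWithin] with w hw hcon
  apply hw
  have h1 : w⁻¹ = w₀⁻¹ := add_left_cancel hcon
  exact inv_injective h1

/-- points in the wrap-around sector at infinity lie in the cut plane -/
theorem inf_mem_U₀ (hr : 0 < M.r) {v : ℂ}
    (hv : v ∈ sector (M.toCutGeometry.θ ⟨M.r - 1, by omega⟩)
      (M.toCutGeometry.θ ⟨0, hr⟩ + 2 * Real.pi)) :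
    M.z₀ + v ∈ M.toCutGeometry.U₀ := by
  intro j hj
  obtain ⟨ρ, φ, hρ, hφ1, hφ2, rfl⟩ := hv
  obtain ⟨R, hR, h1⟩ := exists_of_mem_ray (M.b_ne j) hj
  rw [add_sub_cancel_left] at h1
  obtain ⟨n, hn⟩ := exists_int_of_polar_eq hρ hR h1
  have hmono := CutGeom.θ_strictMono M.toCutGeometry
  have h0 : M.toCutGeometry.θ ⟨0, hr⟩ ≤ M.toCutGeometry.θ j :=
    hmono.monotone (Fin.mk_le_of_le_val (Nat.zero_le _))
  have hlast : M.toCutGeometry.θ j ≤ M.toCutGeometry.θ ⟨M.r - 1, by omega⟩ :=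
    hmono.monotone (Fin.le_def.2 (by have := j.2; simp only; omega))
  refine no_int_between (x := φ - Complex.arg (M.b j - M.z₀)) ?_ ?_ ⟨n, hn⟩
  · change 0 < φ - M.toCutGeometry.θ j
    linarith
  · change φ - M.toCutGeometry.θ j < 2 * Real.pi
    linarith

theorem ord_plInf (k : Fin M.d) (a : ℂ) : (M.plInf k).ord (xsub M a) = -1 := by
  obtain ⟨H, hH, hsec, h0, hord⟩ := M.atInf k (xsub M a) (xsub_ne_zero M a)
  have key : H =ᶠ[𝓝[≠] 0] fun w => M.z₀ + w⁻¹ - a := by
    rcases Nat.eq_zero_or_pos M.r with hr | hr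
    · -- no cuts
      have hU : ∀ z : ℂ, z ∈ M.toCutGeometry.U₀ := by
        intro z i
        have hi : (i : ℕ) < M.r := i.2
        omega
      refine eventuallyEq_of_open (S := {0}ᶜ)
        (E := fun w => M.ev k (xsub M a) (M.z₀ + w⁻¹)) isOpen_compl_singleton ?_ hH
        (by fun_prop) ?_ ?_
      · exact (eventually_mem_nhdsWithin :
          ∀ᶠ z in 𝓝[≠] (0 : ℂ), z ∈ ({0}ᶜ : Set ℂ)).frequently
      · filter_upwards [h0 hr] with w hw _ using hw
      · intro w hw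
        have hw0 : w ≠ 0 := hw
        refine ev_xsub_comp M k a (ψ := fun w => M.z₀ + w⁻¹) ?_ (eventually_inv_ne M) (hU _)
        exact continuousAt_const.add (continuousAt_inv₀ hw0)
    · -- the wrap-around sector
      set i : Fin M.r := ⟨M.r - 1, by omega⟩ with hi
      set θl := M.toCutGeometry.θ i with hθl
      set θ0 := M.toCutGeometry.θ ⟨0, hr⟩ with hθ0
      have hsecI : M.toCutGeometry.sectorInf i = sector θl (θ0 + 2 * Real.pi) := by
        unfold CutGeometry.sectorInf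
        rw [dif_neg]
        simp only [hi]
        omega
      have hθ0m := CutGeom.θ_mem M.toCutGeometry ⟨0, hr⟩
      have hθlm := CutGeom.θ_mem M.toCutGeometry i
      set φ₀ : ℝ := (θl + θ0 + 2 * Real.pi) / 2 with hφ₀
      set δ : ℝ := (θ0 + 2 * Real.pi - θl) / 2 with hδ
      have hδpos : 0 < δ := by
        rw [hδ]
        have h1 : -Real.pi < θ0 := hθ0m.1
        have h2 : θl ≤ Real.pi := hθlm.2
        linarith
      have hwedge : wedge φ₀ δ ⊆ sector θl (θ0 + 2 * Real.pi) := by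
        have h := wedge_subset_sector φ₀ δ
        have h1 : φ₀ - δ = θl := by rw [hφ₀, hδ]; ring
        have h2 : φ₀ + δ = θ0 + 2 * Real.pi := by rw [hφ₀, hδ]; ring
        rwa [h1, h2] at h
      set k' : Fin M.d := (((List.ofFn M.σ).take (i + 1)).prod)⁻¹ k with hk'
      have hopen : IsOpen (({0}ᶜ : Set ℂ) ∩ (fun w : ℂ => w⁻¹) ⁻¹' wedge φ₀ δ) :=
        (continuousOn_inv₀ (G₀ := ℂ)).isOpen_inter_preimage isOpen_compl_singleton
          (isOpen_wedge _ _)
      refine eventuallyEq_of_open (S := ({0}ᶜ : Set ℂ) ∩ (fun w : ℂ => w⁻¹) ⁻¹' wedge φ₀ δ)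
        (E := fun w => M.ev k' (xsub M a) (M.z₀ + w⁻¹)) hopen ?_ hH (by fun_prop) ?_ ?_
      · have h1 := frequently_of_line (c := 0) (v := exp (-((φ₀ : ℝ) : ℂ) * I))
          (Complex.exp_ne_zero _)
          (S := ({0}ᶜ : Set ℂ) ∩ (fun w : ℂ => w⁻¹) ⁻¹' wedge φ₀ δ)
        apply h1
        filter_upwards [self_mem_nhdsWithin] with t ht
        have ht' : (0 : ℝ) < t := ht
        rw [zero_add]
        refine ⟨?_, ?_⟩
        · exact mul_ne_zero (by exact_mod_cast ht'.ne') (Complex.exp_ne_zero _)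
        · show ((t : ℂ) * exp (-((φ₀ : ℝ) : ℂ) * I))⁻¹ ∈ wedge φ₀ δ
          have h2 : ((t : ℂ) * exp (-((φ₀ : ℝ) : ℂ) * I))⁻¹ =
              ((t⁻¹ : ℝ) : ℂ) * exp (((φ₀ : ℝ) : ℂ) * I) := by
            rw [mul_inv, ← Complex.exp_neg]
            push_cast
            congr 2
            ring
          rw [h2]
          exact mem_wedge_of_pos hδpos (inv_pos.2 ht')
      · filter_upwards [hsec i] with w hw hwS
        apply hw
        rw [hsecI]
        exact hwedge hwS.2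
      · intro w hw
        have hw0 : w ≠ 0 := hw.1
        refine ev_xsub_comp M k' a (ψ := fun w => M.z₀ + w⁻¹) ?_ (eventually_inv_ne M) ?_
        · exact continuousAt_const.add (continuousAt_inv₀ hw0)
        · exact inf_mem_U₀ M hr (hwedge hw.2)
  rw [meromorphicOrderAt_congr key, order_inf] at hord
  exact_mod_cast hord

end Fermat.Agent.P5.helper4
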