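/-
P5 / S27, module MONO (helper27): basic calculus on the sheets of a cut model and the
functoriality fields of `MonoPackages` (`mul`, `inv`, `rescale`, `prim_dlog`).

* `ev_zero`, `ev_one`, `ev_neg`, `ev_sub`, `ev_inv`, `ev_ne_zero`, `eq_zero_of_ev` : the sheet
  functions `M.ev k` behave like a field embedding (generically);
* `dx_ne_zero`, `coeff_unique`, `coeff_add`, `coeff_neg`, `coeff_dlog` : the coefficient of a
  differential w.r.t. `dx`;
* `monoMul`, `monoInv`, `monoRescale`, `monoPrimDlog` : the fields `mul`, `inv`, `rescale`,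
  `prim_dlog` of `helper25.MonoPackages`, verbatim and unconditional.
-/
import Mathlib
import Fermat.Agent.P5.helper25_RHInterface
import Fermat.Agent.P5.helper4_Orders

set_option autoImplicit false
set_option linter.style.haveILetI false

open AlgebraicCurve Filter Topology KaehlerDifferential

namespace Fermat.Agent.P5.helper27

open Fermat.Agent.P5.helper25 Fermat.Agent.P5.helper4

noncomputable section

variable {F : Type} [Field F] [Algebra ℂ F] (M : CutModel F)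

/-! ### The cut plane -/

theorem base_mem_U₀ (G : CutGeometry) : G.z₀ ∈ G.U₀ := by
  intro i hi
  obtain ⟨s, hs, h⟩ := hi
  have h1 : ((1 : ℂ) + (s : ℂ)) * (G.b i - G.z₀) = 0 := by
    linear_combination -h
  rcases mul_eq_zero.1 h1 with h2 | h2
  · have h3 : ((1 + s : ℝ) : ℂ) = 0 := by push_cast; exact h2
    have h4 : (1 + s : ℝ) = 0 := by exact_mod_cast h3
    linarith
  · exact G.b_ne i (sub_eq_zero.1 h2)

theorem eventually_mem_U₀ (G : CutGeometry) {z : ℂ} (hz : z ∈ G.U₀) :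
    ∀ᶠ w in 𝓝 z, w ∈ G.U₀ :=
  (CutGeom.isOpen_U₀ G).mem_nhds hz

theorem eventually_ne_mem_U₀ (G : CutGeometry) {z : ℂ} (hz : z ∈ G.U₀) :
    ∀ᶠ w in 𝓝[≠] z, w ∈ G.U₀ :=
  nhdsWithin_le_nhds (eventually_mem_U₀ G hz)

/-! ### Sheet functions -/

theorem ev_zero (k : Fin M.d) : Set.EqOn (M.ev k 0) (fun _ => 0) M.toCutGeometry.U₀ := by
  have h := M.ev_algebraMap k 0
  rwa [map_zero] at h

theorem ev_one (k : Fin M.d) : Set.EqOn (M.ev k 1) (fun _ => 1) M.toCutGeometry.U₀ := by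
  have h := M.ev_algebraMap k 1
  rwa [map_one] at h

theorem ev_neg (k : Fin M.d) (h : F) {z : ℂ} (hz : z ∈ M.toCutGeometry.U₀) :
    M.ev k (-h) =ᶠ[𝓝[≠] z] fun w => -M.ev k h w := by
  have h1 := M.ev_add k h (-h) z hz
  rw [add_neg_cancel] at h1
  filter_upwards [h1, eventually_ne_mem_U₀ M.toCutGeometry hz] with w hw hwU
  rw [ev_zero M k hwU] at hw
  linear_combination -hw

theorem ev_sub (k : Fin M.d) (h₁ h₂ : F) {z : ℂ} (hz : z ∈ M.toCutGeometry.U₀) :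
    M.ev k (h₁ - h₂) =ᶠ[𝓝[≠] z] fun w => M.ev k h₁ w - M.ev k h₂ w := by
  rw [sub_eq_add_neg]
  filter_upwards [M.ev_add k h₁ (-h₂) z hz, ev_neg M k h₂ hz] with w hw1 hw2
  rw [hw1, hw2, sub_eq_add_neg]

theorem ev_mul_inv (k : Fin M.d) {h : F} (hh : h ≠ 0) {z : ℂ} (hz : z ∈ M.toCutGeometry.U₀) :
    ∀ᶠ w in 𝓝[≠] z, M.ev k h w * M.ev k h⁻¹ w = 1 := by
  have h1 := M.ev_mul k h h⁻¹ z hz
  rw [mul_inv_cancel₀ hh] at h1
  filter_upwards [h1, eventually_ne_mem_U₀ M.toCutGeometry hz] with w hw hwU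
  rw [ev_one M k hwU] at hw
  exact hw.symm

theorem ev_ne_zero (k : Fin M.d) {h : F} (hh : h ≠ 0) {z : ℂ} (hz : z ∈ M.toCutGeometry.U₀) :
    ∀ᶠ w in 𝓝[≠] z, M.ev k h w ≠ 0 := by
  filter_upwards [ev_mul_inv M k hh hz] with w hw h0
  rw [h0, zero_mul] at hw
  exact zero_ne_one hw

theorem ev_inv (k : Fin M.d) {h : F} (hh : h ≠ 0) {z : ℂ} (hz : z ∈ M.toCutGeometry.U₀) :
    M.ev k h⁻¹ =ᶠ[𝓝[≠] z] fun w => (M.ev k h w)⁻¹ := by
  filter_upwards [ev_mul_inv M k hh hz] with w hw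
  exact eq_inv_of_mul_eq_one_right hw

/-- A function vanishing generically on one sheet near one point is zero. -/
theorem eq_zero_of_ev (k : Fin M.d) {h : F} {z : ℂ} (hz : z ∈ M.toCutGeometry.U₀)
    (h0 : ∃ᶠ w in 𝓝[≠] z, M.ev k h w = 0) : h = 0 := by
  by_contra hh
  exact (h0.and_eventually (ev_ne_zero M k hh hz)).exists.choose_spec.2
    (h0.and_eventually (ev_ne_zero M k hh hz)).exists.choose_spec.1

/-- Two functions which agree generically on one sheet near one point are equal. -/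
theorem eq_of_ev (k : Fin M.d) {h₁ h₂ : F} {z : ℂ} (hz : z ∈ M.toCutGeometry.U₀)
    (h0 : ∃ᶠ w in 𝓝[≠] z, M.ev k h₁ w = M.ev k h₂ w) : h₁ = h₂ := by
  rw [← sub_eq_zero]
  refine eq_zero_of_ev M k hz ?_
  refine (h0.and_eventually (ev_sub M k h₁ h₂ hz)).mono ?_
  rintro w ⟨hw1, hw2⟩
  rw [hw2]
  show M.ev k h₁ w - M.ev k h₂ w = 0
  rw [hw1, sub_self]

/-- The sheet functions are generically analytic. -/
theorem ev_eventually_analyticAt (k : Fin M.d) (h : F) {z : ℂ}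
    (hz : z ∈ M.toCutGeometry.U₀) : ∀ᶠ w in 𝓝[≠] z, AnalyticAt ℂ (M.ev k h) w :=
  (M.ev_meromorphicOn k h z hz).eventually_analyticAt

/-! ### Coefficients -/

theorem deriv_ev_x (k : Fin M.d) {w : ℂ} (hw : w ∈ M.toCutGeometry.U₀) :
    deriv (M.ev k M.x) w = 1 := by
  have h1 : M.ev k M.x =ᶠ[𝓝 w] id := by
    filter_upwards [eventually_mem_U₀ M.toCutGeometry hw] with v hv using M.ev_x k hv
  rw [h1.deriv_eq]
  simp

theorem dx_ne_zero : KaehlerDifferential.D ℂ F M.x ≠ 0 := by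
  intro h0
  have hd : 0 < M.d := M.d_pos
  let k : Fin M.d := ⟨0, hd⟩
  have hz := base_mem_U₀ M.toCutGeometry
  have h1 := M.ev_deriv k M.x 0 (by rw [h0, zero_smul]) M.z₀ hz
  have h2 : ∀ᶠ w in 𝓝[≠] M.z₀, False := by
    filter_upwards [h1, eventually_ne_mem_U₀ M.toCutGeometry hz] with w hw hwU
    rw [ev_zero M k hwU, deriv_ev_x M k hwU] at hw
    exact zero_ne_one hw
  exact h2.exists.choose_spec

theorem smul_dx_injective {h₁ h₂ : F}
    (h : h₁ • KaehlerDifferential.D ℂ F M.x = h₂ • KaehlerDifferential.D ℂ F M.x) :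
    h₁ = h₂ := by
  have h1 : (h₁ - h₂) • KaehlerDifferential.D ℂ F M.x = 0 := by
    rw [sub_smul, h, sub_self]
  rcases smul_eq_zero.1 h1 with h2 | h2
  · exact sub_eq_zero.1 h2
  · exact absurd h2 (dx_ne_zero M)

theorem coeff_unique {τ : Ω[F⁄ℂ]} {h : F} (hτ : τ = h • KaehlerDifferential.D ℂ F M.x) :
    M.coeff τ = h :=
  smul_dx_injective M ((M.coeff_spec τ).symm.trans hτ)

theorem coeff_zero : M.coeff (0 : Ω[F⁄ℂ]) = 0 :=
  coeff_unique M (zero_smul _ _).symm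

theorem coeff_add (τ τ' : Ω[F⁄ℂ]) : M.coeff (τ + τ') = M.coeff τ + M.coeff τ' :=
  coeff_unique M (by rw [add_smul, ← M.coeff_spec, ← M.coeff_spec])

theorem coeff_neg (τ : Ω[F⁄ℂ]) : M.coeff (-τ) = -M.coeff τ :=
  coeff_unique M (by rw [neg_smul, ← M.coeff_spec])

theorem coeff_sub (τ τ' : Ω[F⁄ℂ]) : M.coeff (τ - τ') = M.coeff τ - M.coeff τ' :=
  coeff_unique M (by rw [sub_smul, ← M.coeff_spec, ← M.coeff_spec])

theorem coeff_smul (c : F) (τ : Ω[F⁄ℂ]) : M.coeff (c • τ) = c * M.coeff τ :=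
  coeff_unique M (by rw [mul_smul, ← M.coeff_spec])

theorem coeff_D (h : F) :
    KaehlerDifferential.D ℂ F h = M.coeff (KaehlerDifferential.D ℂ F h) •
      KaehlerDifferential.D ℂ F M.x :=
  M.coeff_spec _

theorem coeff_dlog (h : F) :
    M.coeff (dlog F h) = h⁻¹ * M.coeff (KaehlerDifferential.D ℂ F h) := by
  unfold dlog
  exact coeff_smul M _ _

theorem coeff_eq_zero_iff {τ : Ω[F⁄ℂ]} : M.coeff τ = 0 ↔ τ = 0 := by
  constructor
  · intro h
    rw [M.coeff_spec τ, h, zero_smul]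
  · rintro rfl
    exact coeff_zero M

/-- The sheet functions of the coefficient of `dh` are the derivatives of the sheet functions
of `h`. -/
theorem ev_coeff_D (k : Fin M.d) (h : F) {z : ℂ} (hz : z ∈ M.toCutGeometry.U₀) :
    ∀ᶠ w in 𝓝[≠] z,
      HasDerivAt (M.ev k h) (M.ev k (M.coeff (KaehlerDifferential.D ℂ F h)) w) w := by
  filter_upwards [M.ev_deriv k h _ (coeff_D M h) z hz, ev_eventually_analyticAt M k h hz]
    with w hw1 hw2
  rw [hw1]
  exact hw2.differentiableAt.hasDerivAt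

/-! ### Jumps -/

theorem toMul_coe_ne_zero (c : Additive ℂˣ) : ((Additive.toMul c : ℂˣ) : ℂ) ≠ 0 :=
  (Additive.toMul c).ne_zero

/-- The sheet functions of a function have no jumps. -/
theorem isJumpOf_ev {h : F} (hh : h ≠ 0) : M.IsJumpOf (fun k => M.ev k h) 0 := by
  intro i k a ha
  obtain ⟨g, hg, hL, hR, -⟩ := M.cross i k a ha h hh
  refine ⟨g, hg, hL, ?_⟩
  filter_upwards [hR] with z hz hzR
  rw [hz hzR]
  simp

theorem isMultPrim_ev {h : F} (hh : h ≠ 0) : M.IsMultPrim (dlog F h) (fun k => M.ev k h) := by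
  intro k
  refine ⟨M.ev_meromorphicOn k h, fun z hz => ?_⟩
  rw [coeff_dlog]
  filter_upwards [ev_ne_zero M k hh hz, ev_coeff_D M k h hz,
    M.ev_mul k h⁻¹ (M.coeff (KaehlerDifferential.D ℂ F h)) z hz, ev_inv M k hh hz]
    with w hw1 hw2 hw3 hw4
  refine ⟨hw1, ?_⟩
  rw [hw3, hw4]
  have e : (M.ev k h w)⁻¹ * M.ev k (M.coeff (KaehlerDifferential.D ℂ F h)) w * M.ev k h w =
      M.ev k (M.coeff (KaehlerDifferential.D ℂ F h)) w := by
    field_simp
  rw [e]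
  exact hw2

/-- **[MONO-6c]** field `prim_dlog` of `MonoPackages`. -/
theorem monoPrimDlog : ∀ h : F, h ≠ 0 →
    M.IsMultPrim (dlog F h) (fun k => M.ev k h) ∧ M.IsJumpOf (fun k => M.ev k h) 0 :=
  fun _ hh => ⟨isMultPrim_ev M hh, isJumpOf_ev M hh⟩

theorem isMultPrim_mul {τ τ' : Ω[F⁄ℂ]} {E E' : Fin M.d → ℂ → ℂ} (hE : M.IsMultPrim τ E)
    (hE' : M.IsMultPrim τ' E') : M.IsMultPrim (τ + τ') (fun k z => E k z * E' k z) := by
  intro k
  refine ⟨(hE k).1.mul (hE' k).1, fun z hz => ?_⟩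
  rw [coeff_add]
  filter_upwards [(hE k).2 z hz, (hE' k).2 z hz, M.ev_add k (M.coeff τ) (M.coeff τ') z hz]
    with w hw1 hw2 hw3
  refine ⟨mul_ne_zero hw1.1 hw2.1, ?_⟩
  rw [hw3]
  have h := hw1.2.mul hw2.2
  have e : (M.ev k (M.coeff τ) w + M.ev k (M.coeff τ') w) * (E k w * E' k w) =
      M.ev k (M.coeff τ) w * E k w * E' k w + E k w * (M.ev k (M.coeff τ') w * E' k w) := by
    ring
  rw [e]
  exact h

theorem isJumpOf_mul {E E' : Fin M.d → ℂ → ℂ} {c c' : Fin M.r → Fin M.d → Additive ℂˣ}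
    (hc : M.IsJumpOf E c) (hc' : M.IsJumpOf E' c') :
    M.IsJumpOf (fun k z => E k z * E' k z) (c + c') := by
  intro i k a ha
  obtain ⟨g, hg, hL, hR⟩ := hc i k a ha
  obtain ⟨g', hg', hL', hR'⟩ := hc' i k a ha
  refine ⟨fun z => g z * g' z, hg.mul hg', ?_, ?_⟩
  · filter_upwards [hL, hL'] with z hz hz' hzL
    rw [hz hzL, hz' hzL]
  · filter_upwards [hR, hR'] with z hz hz' hzR
    rw [hz hzR, hz' hzR]
    simp only [Pi.add_apply, toMul_add, Units.val_mul]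
    ring

/-- **[MONO-6b]** field `mul` of `MonoPackages`. -/
theorem monoMul : ∀ τ ∈ M.T₀, ∀ τ' ∈ M.T₀,
    ∀ (E E' : Fin M.d → ℂ → ℂ) (c c' : Fin M.r → Fin M.d → Additive ℂˣ),
    M.IsMultPrim τ E → M.IsJumpOf E c → M.IsMultPrim τ' E' → M.IsJumpOf E' c' →
      M.IsMultPrim (τ + τ') (fun k z => E k z * E' k z) ∧
        M.IsJumpOf (fun k z => E k z * E' k z) (c + c') :=
  fun _ _ _ _ _ _ _ _ hE hc hE' hc' => ⟨isMultPrim_mul M hE hE', isJumpOf_mul M hc hc'⟩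

theorem isMultPrim_inv {τ : Ω[F⁄ℂ]} {E : Fin M.d → ℂ → ℂ} (hE : M.IsMultPrim τ E) :
    M.IsMultPrim (-τ) (fun k z => (E k z)⁻¹) := by
  intro k
  refine ⟨(hE k).1.inv, fun z hz => ?_⟩
  rw [coeff_neg]
  filter_upwards [(hE k).2 z hz, ev_neg M k (M.coeff τ) hz] with w hw1 hw2
  refine ⟨inv_ne_zero hw1.1, ?_⟩
  rw [hw2]
  have h := hw1.2.inv hw1.1
  have e : -M.ev k (M.coeff τ) w * (E k w)⁻¹ =
      -(M.ev k (M.coeff τ) w * E k w) / E k w ^ 2 := by
    have := hw1.1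
    field_simp
  rw [e]
  exact h

theorem isJumpOf_inv {E : Fin M.d → ℂ → ℂ} {c : Fin M.r → Fin M.d → Additive ℂˣ}
    (hc : M.IsJumpOf E c) : M.IsJumpOf (fun k z => (E k z)⁻¹) (-c) := by
  intro i k a ha
  obtain ⟨g, hg, hL, hR⟩ := hc i k a ha
  refine ⟨fun z => (g z)⁻¹, hg.inv, ?_, ?_⟩
  · filter_upwards [hL] with z hz hzL
    rw [hz hzL]
  · filter_upwards [hR] with z hz hzR
    rw [hz hzR]
    simp only [Pi.neg_apply, toMul_neg, Units.val_inv_eq_inv_val, mul_inv]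

/-- **[MONO-6b]** field `inv` of `MonoPackages`. -/
theorem monoInv : ∀ τ ∈ M.T₀, ∀ (E : Fin M.d → ℂ → ℂ) (c : Fin M.r → Fin M.d → Additive ℂˣ),
    M.IsMultPrim τ E → M.IsJumpOf E c →
      M.IsMultPrim (-τ) (fun k z => (E k z)⁻¹) ∧ M.IsJumpOf (fun k z => (E k z)⁻¹) (-c) :=
  fun _ _ _ _ hE hc => ⟨isMultPrim_inv M hE, isJumpOf_inv M hc⟩

theorem isMultPrim_rescale {τ : Ω[F⁄ℂ]} {E : Fin M.d → ℂ → ℂ} (a : Fin M.d → ℂˣ)
    (hE : M.IsMultPrim τ E) : M.IsMultPrim τ (fun k z => (a k : ℂ) * E k z) := by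
  intro k
  refine ⟨(MeromorphicOn.const (a k : ℂ)).mul (hE k).1, fun z hz => ?_⟩
  filter_upwards [(hE k).2 z hz] with w hw1
  refine ⟨mul_ne_zero (a k).ne_zero hw1.1, ?_⟩
  have h := hw1.2.const_mul (a k : ℂ)
  have e : M.ev k (M.coeff τ) w * ((a k : ℂ) * E k w) =
      (a k : ℂ) * (M.ev k (M.coeff τ) w * E k w) := by
    ring
  rw [e]
  exact h

theorem isJumpOf_rescale {E : Fin M.d → ℂ → ℂ} {c : Fin M.r → Fin M.d → Additive ℂˣ}
    (a : Fin M.d → ℂˣ) (hc : M.IsJumpOf E c) :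
    M.IsJumpOf (fun k z => (a k : ℂ) * E k z)
      (fun i k => c i k + Additive.ofMul (a k) - Additive.ofMul (a (M.σ i k))) := by
  intro i k a' ha
  obtain ⟨g, hg, hL, hR⟩ := hc i k a' ha
  refine ⟨fun z => (a k : ℂ) * g z, (MeromorphicAt.const (a k : ℂ) a').mul hg, ?_, ?_⟩
  · filter_upwards [hL] with z hz hzL
    rw [hz hzL]
  · filter_upwards [hR] with z hz hzR
    rw [hz hzR]
    simp only [toMul_sub, toMul_add, toMul_ofMul, Units.val_div_eq_div_val, Units.val_mul]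
    have h1 : ((a (M.σ i k) : ℂˣ) : ℂ) ≠ 0 := (a (M.σ i k)).ne_zero
    field_simp

/-- **[MONO-6b]** field `rescale` of `MonoPackages`. -/
theorem monoRescale : ∀ τ ∈ M.T₀, ∀ (E : Fin M.d → ℂ → ℂ)
    (c : Fin M.r → Fin M.d → Additive ℂˣ) (a : Fin M.d → ℂˣ),
    M.IsMultPrim τ E → M.IsJumpOf E c →
      M.IsMultPrim τ (fun k z => (a k : ℂ) * E k z) ∧
        M.IsJumpOf (fun k z => (a k : ℂ) * E k z)
          (fun i k => c i k + Additive.ofMul (a k) - Additive.ofMul (a (M.σ i k))) :=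
  fun _ _ _ _ a hE hc => ⟨isMultPrim_rescale M a hE, isJumpOf_rescale M a hc⟩

end

end Fermat.Agent.P5.helper27
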