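/-
P5 / S27, module MONO (helper27, sub-coordinator): package statements of module MONO.

The deliverable of MONO is `helper25.MonoStatement` (`helper25_RHInterface.lean`).  This file
fixes the statements of the leaf packages as `Prop`s (all about ONE cut model `M`):

* `DictInterior M`, `DictRay M`, `DictBad M`, `DictInf M`  [MONO-3, the local dictionary]:
  a logarithmic pole of `τ` at a place of the cut model, read on the sheet functions of the
  coefficient `M.coeff τ` (`τ = coeff τ • dx`);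
* `IsNice M E` : the system of functions `E` on the sheets is analytic and non-vanishing on the
  cut plane outside a finite set;
* `NiceExists M` [MONO-4a], `NiceJump M` [MONO-4b], `LocalBad M` [MONO-5a], `LocalInf M`
  [MONO-5b] : the local structure of nice multiplicative primitives.
-/
import Mathlib
import Fermat.Agent.P5.helper25_RHInterface

set_option autoImplicit false
set_option linter.style.haveILetI false

open AlgebraicCurve Filter Topology KaehlerDifferential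

namespace Fermat.Agent.P5.helper27

open Fermat.Agent.P5.helper25

noncomputable section

variable {F : Type} [Field F] [Algebra ℂ F]

/-! ### [MONO-3] the local dictionary -/

/-- **[MONO-3a]** interior places: a logarithmic pole with residue `m` at `pl k z` means that
`φ_k - m / (w - z)` is regular at `z` (`φ = coeff τ`). -/
def DictInterior (M : CutModel F) : Prop :=
  ∀ (τ : Ω[F⁄ℂ]) (m : ℤ) (k : Fin M.d) (z : ℂ), z ∈ M.toCutGeometry.U₀ →
    HasLogPole (M.pl k z) τ m →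
      0 ≤ meromorphicOrderAt (fun w => M.ev k (M.coeff τ) w - (m : ℂ) / (w - z)) z

/-- **[MONO-3b]** ray places: if `τ` is regular at `plRay i k a` then the crossing germ of the
coefficient is analytic at `a`. -/
def DictRay (M : CutModel F) : Prop :=
  ∀ (τ : Ω[F⁄ℂ]) (i : Fin M.r) (k : Fin M.d) (a : ℂ), a ∈ openRay M.z₀ (M.b i) →
    HasLogPole (M.plRay i k a) τ 0 →
      ∃ g : ℂ → ℂ, AnalyticAt ℂ g a ∧
        (∀ᶠ z in 𝓝[≠] a, z ∈ leftSide M.z₀ (M.b i) → g z = M.ev k (M.coeff τ) z) ∧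
        (∀ᶠ z in 𝓝[≠] a, z ∈ rightSide M.z₀ (M.b i) → g z = M.ev (M.σ i k) (M.coeff τ) z)

/-- **[MONO-3c]** bad places: if `τ` is regular at `plBad i k` then the pull-back of `τ` to the
Puiseux disc (`z = b i + s ^ e u`, `dz = e s ^ (e - 1) u ds`) has an analytic coefficient. -/
def DictBad (M : CutModel F) : Prop :=
  ∀ (τ : Ω[F⁄ℂ]) (i : Fin M.r) (k : Fin M.d), HasLogPole (M.plBad i k) τ 0 →
    ∃ Φ : ℂ → ℂ, AnalyticAt ℂ Φ 0 ∧
      ∀ j : ℕ, ∀ᶠ s in 𝓝[≠] (0 : ℂ),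
        s ∈ sector (2 * Real.pi * j / Function.minimalPeriod (M.σ i) k)
            (2 * Real.pi * (j + 1) / Function.minimalPeriod (M.σ i) k) →
          Φ s = (Function.minimalPeriod (M.σ i) k : ℂ) *
              s ^ (Function.minimalPeriod (M.σ i) k - 1) * unitDir M.z₀ (M.b i) *
            M.ev (((M.σ i)⁻¹ ^ j) k) (M.coeff τ)
              (M.b i + s ^ Function.minimalPeriod (M.σ i) k * unitDir M.z₀ (M.b i))

/-- **[MONO-3d]** places at infinity: if `τ` is regular at `plInf k` then the pull-back of `τ`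
to the disc at infinity (`z = z₀ + w⁻¹`, `dz = - w⁻² dw`) has an analytic coefficient. -/
def DictInf (M : CutModel F) : Prop :=
  ∀ (τ : Ω[F⁄ℂ]) (k : Fin M.d), HasLogPole (M.plInf k) τ 0 →
    ∃ Ψ : ℂ → ℂ, AnalyticAt ℂ Ψ 0 ∧
      (∀ i : Fin M.r, ∀ᶠ w in 𝓝[≠] (0 : ℂ), w⁻¹ ∈ M.toCutGeometry.sectorInf i →
        Ψ w = -(w⁻¹) ^ 2 *
          M.ev ((((List.ofFn M.σ).take (i + 1)).prod)⁻¹ k) (M.coeff τ) (M.z₀ + w⁻¹)) ∧
      (M.r = 0 → ∀ᶠ w in 𝓝[≠] (0 : ℂ),
        Ψ w = -(w⁻¹) ^ 2 * M.ev k (M.coeff τ) (M.z₀ + w⁻¹))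

/-! ### Nice primitives -/

/-- The system `E` is analytic and non-vanishing on the cut plane outside a finite set. -/
def IsNice (M : CutModel F) (E : Fin M.d → ℂ → ℂ) : Prop :=
  ∃ S : Set ℂ, S.Finite ∧
    ∀ k, ∀ z ∈ M.toCutGeometry.U₀, z ∉ S → AnalyticAt ℂ (E k) z ∧ E k z ≠ 0

/-- **[MONO-4a]** differentials in `T₀` have nice multiplicative primitives. -/
def NiceExists (M : CutModel F) : Prop :=
  ∀ τ ∈ M.T₀, ∃ E : Fin M.d → ℂ → ℂ, M.IsMultPrim τ E ∧ IsNice M E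

/-- **[MONO-4b]** nice multiplicative primitives have (constant) jumps. -/
def NiceJump (M : CutModel F) : Prop :=
  ∀ τ ∈ M.T₀, ∀ E : Fin M.d → ℂ → ℂ, M.IsMultPrim τ E → IsNice M E →
    ∃ c : Fin M.r → Fin M.d → Additive ℂˣ, M.IsJumpOf E c

/-- **[MONO-5a]** the structure of nice primitives at a bad point: on the sectors of the
Puiseux disc they are constant multiples `α j` of ONE analytic non-vanishing function `G`,
and the jump cochain is the coboundary of the constants. -/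
def LocalBad (M : CutModel F) : Prop :=
  ∀ τ ∈ M.T₀, ∀ (E : Fin M.d → ℂ → ℂ) (c : Fin M.r → Fin M.d → Additive ℂˣ),
    M.IsMultPrim τ E → IsNice M E → M.IsJumpOf E c → ∀ (i : Fin M.r) (k : Fin M.d),
      ∃ (G : ℂ → ℂ) (α : ℕ → ℂˣ), AnalyticAt ℂ G 0 ∧ G 0 ≠ 0 ∧
        (∀ j : ℕ, ∀ᶠ s in 𝓝[≠] (0 : ℂ),
          s ∈ sector (2 * Real.pi * j / Function.minimalPeriod (M.σ i) k)
              (2 * Real.pi * (j + 1) / Function.minimalPeriod (M.σ i) k) →
            E (((M.σ i)⁻¹ ^ j) k)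
                (M.b i + s ^ Function.minimalPeriod (M.σ i) k * unitDir M.z₀ (M.b i)) =
              (α j : ℂ) * G s) ∧
        ∀ j : ℕ, α (j + 1) = Additive.toMul (c i (((M.σ i)⁻¹ ^ (j + 1)) k)) * α j

/-- The sheet of `plInf k` on the `i`-th sector at infinity. -/
def sheetInf (M : CutModel F) (i : Fin M.r) (k : Fin M.d) : Fin M.d :=
  (((List.ofFn M.σ).take (i + 1)).prod)⁻¹ k

/-- **[MONO-5b]** the structure of nice primitives at infinity. -/
def LocalInf (M : CutModel F) : Prop :=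
  ∀ τ ∈ M.T₀, ∀ (E : Fin M.d → ℂ → ℂ) (c : Fin M.r → Fin M.d → Additive ℂˣ),
    M.IsMultPrim τ E → IsNice M E → M.IsJumpOf E c → ∀ k : Fin M.d,
      ∃ (G : ℂ → ℂ) (α : Fin M.r → ℂˣ), AnalyticAt ℂ G 0 ∧ G 0 ≠ 0 ∧
        (∀ i : Fin M.r, ∀ᶠ w in 𝓝[≠] (0 : ℂ), w⁻¹ ∈ M.toCutGeometry.sectorInf i →
          E (sheetInf M i k) (M.z₀ + w⁻¹) = (α i : ℂ) * G w) ∧
        (M.r = 0 → ∃ a : ℂˣ, ∀ᶠ w in 𝓝[≠] (0 : ℂ), E k (M.z₀ + w⁻¹) = (a : ℂ) * G w) ∧
        (∀ (i : Fin M.r) (h : (i : ℕ) + 1 < M.r),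
          α ⟨i + 1, h⟩ = Additive.toMul (c ⟨i + 1, h⟩ (sheetInf M ⟨i + 1, h⟩ k)) * α i) ∧
        (∀ h : 0 < M.r, α ⟨0, h⟩ =
          Additive.toMul (c ⟨0, h⟩ (sheetInf M ⟨0, h⟩ k)) * α ⟨M.r - 1, by omega⟩)

end

end Fermat.Agent.P5.helper27
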