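/-
P5 / S27, module MONO-3A (helper10): the local dictionary at interior places and at ray places.

* `ord_coeff_sub_nonneg` : if `x - a` is a uniformiser at the place `v` and `τ` has a logarithmic
  pole with residue `m` at `v`, then `coeff τ - m / (x - a)` is regular at `v`;
* `dictInterior : helper27.DictInterior M`, `dictRay : helper27.DictRay M` (verbatim).
-/
import Mathlib
import Fermat.Agent.P5.helper27_MonoDefs
import Fermat.Agent.P5.helper27_MonoBasic
import Fermat.Agent.P5.helper42_RRLoc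

set_option autoImplicit false
set_option linter.style.haveILetI false

open AlgebraicCurve Filter Topology KaehlerDifferential

namespace Fermat.Agent.P5.helper10

open Fermat.Agent.P5.helper25 Fermat.Agent.P5.helper4 Fermat.Agent.P5.helper27

noncomputable section

variable {F : Type} [Field F] [Algebra ℂ F]

/-- The local calculus of differentials is available in the function field of a cut model. -/
theorem localSetting_of_cutModel (M : CutModel F) : helper42.LocalSetting ℂ F :=
  haveI := M.x_finite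
  helper42.LocalSetting.of_ff M.x M.x_transcendental

/-- `d(x - a) = dx`. -/
theorem D_xsub (M : CutModel F) (a : ℂ) : D ℂ F (xsub M a) = D ℂ F M.x := by
  unfold xsub
  rw [map_sub, Derivation.map_algebraMap, sub_zero]

/-- The sheet functions of an integer constant. -/
theorem ev_intCast (M : CutModel F) (k : Fin M.d) (m : ℤ) :
    Set.EqOn (M.ev k (m : F)) (fun _ => (m : ℂ)) M.toCutGeometry.U₀ := by
  have h := M.ev_algebraMap k (m : ℂ)
  rwa [map_intCast] at h

/-- The sheet functions of `φ - m / (x - a)`. -/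
theorem ev_sub_intCast_mul_inv_xsub (M : CutModel F) (k : Fin M.d) (φ : F) (m : ℤ) (a : ℂ)
    {z : ℂ} (hz : z ∈ M.toCutGeometry.U₀) :
    M.ev k (φ - (m : F) * (xsub M a)⁻¹) =ᶠ[𝓝[≠] z]
      fun w => M.ev k φ w - (m : ℂ) / (w - a) := by
  filter_upwards [ev_sub M k φ ((m : F) * (xsub M a)⁻¹) hz,
    M.ev_mul k (m : F) (xsub M a)⁻¹ z hz, ev_inv M k (xsub_ne_zero M a) hz, ev_xsub M k a hz,
    eventually_ne_mem_U₀ M.toCutGeometry hz] with w h1 h2 h3 h4 hU
  rw [h1, h2, h3, h4, ev_intCast M k m hU, div_eq_mul_inv]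

/-- `τ - m dlog (x - a) = (coeff τ - m / (x - a)) dx`. -/
theorem sub_zsmul_dlog_xsub (M : CutModel F) (a : ℂ) (τ : Ω[F⁄ℂ]) (m : ℤ) :
    τ - m • ((xsub M a)⁻¹ • D ℂ F (xsub M a)) =
      (M.coeff τ - (m : F) * (xsub M a)⁻¹) • D ℂ F M.x := by
  rw [D_xsub, ← Int.cast_smul_eq_zsmul F m, smul_smul, sub_smul, ← M.coeff_spec τ]

/-- If `x - a` is a uniformiser at `v` and `τ` has a logarithmic pole with residue `m` at `v`,
then `coeff τ - m / (x - a)` is regular at `v` (with the convention `ord 0 = 0`). -/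
theorem ord_coeff_sub_nonneg (M : CutModel F) (v : Place ℂ F) (a : ℂ)
    (hv : v.ord (xsub M a) = 1) (τ : Ω[F⁄ℂ]) (m : ℤ) (h : HasLogPole v τ m) :
    0 ≤ v.ord (M.coeff τ - (m : F) * (xsub M a)⁻¹) := by
  obtain ⟨t', ht', hreg'⟩ := h
  have hL := localSetting_of_cutModel M
  have hreg : 0 ≤ v.ordDifferential (τ - m • ((xsub M a)⁻¹ • D ℂ F (xsub M a))) :=
    helper42.logPole_change hL v ht' hv hreg'
  rw [sub_zsmul_dlog_xsub] at hreg
  by_cases h0 : M.coeff τ - (m : F) * (xsub M a)⁻¹ = 0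
  · rw [h0, Place.ord_zero]
  · obtain ⟨h1, h2⟩ := hL.unif v _ hv
    rw [D_xsub] at h1 h2
    rw [helper42.ordDifferential_smul_eq hL v h0 h1, h2, add_zero] at hreg
    exact hreg

/-- Regular differentials have regular coefficients at the places where `x - a` is a
uniformiser. -/
theorem ord_coeff_nonneg (M : CutModel F) (v : Place ℂ F) (a : ℂ)
    (hv : v.ord (xsub M a) = 1) (τ : Ω[F⁄ℂ]) (h : HasLogPole v τ 0) :
    0 ≤ v.ord (M.coeff τ) := by
  have h1 := ord_coeff_sub_nonneg M v a hv τ 0 h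
  simpa using h1

/-- **[MONO-3a]** the dictionary at interior places. -/
theorem dictInterior (M : helper25.CutModel F) : helper27.DictInterior M := by
  intro τ m k z hz h
  have hv : (M.pl k z).ord (xsub M z) = 1 := by
    rw [ord_pl M k hz z, if_pos rfl]
  have h1 := ord_coeff_sub_nonneg M (M.pl k z) z hv τ m h
  rw [← meromorphicOrderAt_congr (ev_sub_intCast_mul_inv_xsub M k (M.coeff τ) m z hz)]
  by_cases h0 : M.coeff τ - (m : F) * (xsub M z)⁻¹ = 0
  · rw [h0]
    have h2 : meromorphicOrderAt (M.ev k 0) z = ⊤ := by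
      rw [meromorphicOrderAt_eq_top_iff]
      filter_upwards [eventually_ne_mem_U₀ M.toCutGeometry hz] with w hw
      exact ev_zero M k hw
    rw [h2]
    exact le_top
  · rw [← M.pl_ord k z hz _ h0]
    exact_mod_cast h1

theorem not_mem_ray_of_mem_rightSide {z₀ b z : ℂ} (hb : b ≠ z₀) (hz : z ∈ rightSide z₀ b) :
    z ∉ ray z₀ b := by
  intro h
  have h1 := ((mem_ray_iff hb).1 h).2
  have h2 : ((z - b) / (b - z₀)).im < 0 := hz
  rw [h1] at h2
  exact lt_irrefl _ h2

/-- Near a point of the open `i`-th ray, the points off the `i`-th ray are in the cut plane. -/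
theorem eventually_mem_U₀_of_not_mem_ray (M : CutModel F) (i : Fin M.r) {a : ℂ}
    (ha : a ∈ openRay M.z₀ (M.b i)) :
    ∀ᶠ z in 𝓝[≠] a, z ∉ ray M.z₀ (M.b i) → z ∈ M.toCutGeometry.U₀ := by
  have hU : CutGeom.Uexcept M.toCutGeometry i ∈ 𝓝 a :=
    (CutGeom.isOpen_Uexcept _ i).mem_nhds
      (CutGeom.ray_subset_Uexcept _ i (openRay_subset_ray _ _ ha))
  filter_upwards [nhdsWithin_le_nhds hU] with z hz hzr
  exact CutGeom.mem_U₀_of_mem_Uexcept _ hz hzr

/-- **[MONO-3b]** the dictionary at ray places. -/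
theorem dictRay (M : helper25.CutModel F) : helper27.DictRay M := by
  intro τ i k a ha h
  have hv : (M.plRay i k a).ord (xsub M a) = 1 := by
    rw [ord_plRay M i k ha a, if_pos rfl]
  have h1 := ord_coeff_nonneg M (M.plRay i k a) a hv τ h
  by_cases h0 : M.coeff τ = 0
  · refine ⟨fun _ => 0, analyticAt_const, ?_, ?_⟩
    · filter_upwards [eventually_mem_U₀_of_not_mem_ray M i ha] with z hz hzL
      rw [h0, ev_zero M k (hz (not_mem_ray_of_mem_leftSide (M.b_ne i) hzL))]
    · filter_upwards [eventually_mem_U₀_of_not_mem_ray M i ha] with z hz hzR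
      rw [h0, ev_zero M (M.σ i k) (hz (not_mem_ray_of_mem_rightSide (M.b_ne i) hzR))]
  · obtain ⟨g₀, hg₀, hL, hR, hord⟩ := M.cross i k a ha (M.coeff τ) h0
    have hnn : 0 ≤ meromorphicOrderAt g₀ a := by
      rw [← hord]
      exact_mod_cast h1
    refine ⟨toMeromorphicNFAt g₀ a,
      hg₀.meromorphicOrderAt_nonneg_iff_analyticAt_toMeromorphicNFAt.1 hnn, ?_, ?_⟩
    · filter_upwards [hL, hg₀.eq_nhdsNE_toMeromorphicNFAt] with z hz1 hz2 hzL
      rw [← hz2]
      exact hz1 hzL
    · filter_upwards [hR, hg₀.eq_nhdsNE_toMeromorphicNFAt] with z hz1 hz2 hzR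
      rw [← hz2]
      exact hz1 hzR

end

end Fermat.Agent.P5.helper10
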