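import Mathlib

/-!
# P5 / SURJ, FAM-ALG step (L) (helper12): Lagrange coefficient functions

For functions `Y j : ℂ → ℂ` (`j : Fin d`), differentiable on an open set `B` with pairwise
distinct values at every point of `B`, the coefficients

  `lagCoeff Y k m t = coeff m of the Lagrange basis polynomial of the nodes (Y j t)_j at k`

are differentiable on `B`, they satisfy the interpolation identity
`∑ m, lagCoeff Y k m t * Y j t ^ m = δ_{jk}`, and (chain rule) the function
`w ↦ (w - a) * ∑ m, (lagCoeff Y k m)' a * Y j w ^ m + ∑ m, lagCoeff Y k m a * Y j w ^ m`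
has value `δ_{jk}` and derivative `0` at `a`.
-/

set_option autoImplicit false

open Polynomial

namespace Fermat.Agent.P5.helper12

noncomputable section

/-- a polynomial-valued function all of whose coefficient functions are differentiable on `B` -/
def CoeffDiffOn (B : Set ℂ) (P : ℂ → ℂ[X]) : Prop :=
  ∀ n : ℕ, DifferentiableOn ℂ (fun t => (P t).coeff n) B

theorem CoeffDiffOn.const (B : Set ℂ) (p : ℂ[X]) : CoeffDiffOn B fun _ => p :=
  fun _ => differentiableOn_const _

theorem CoeffDiffOn.mul {B : Set ℂ} {P Q : ℂ → ℂ[X]} (hP : CoeffDiffOn B P)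
    (hQ : CoeffDiffOn B Q) : CoeffDiffOn B fun t => P t * Q t := by
  intro n
  simp only [coeff_mul]
  exact DifferentiableOn.fun_sum fun x _ => (hP x.1).mul (hQ x.2)

theorem CoeffDiffOn.prod {B : Set ℂ} {ι : Type*} (s : Finset ι) {P : ι → ℂ → ℂ[X]}
    (hP : ∀ i ∈ s, CoeffDiffOn B (P i)) : CoeffDiffOn B fun t => ∏ i ∈ s, P i t := by
  classical
  induction s using Finset.induction_on with
  | empty =>
    have h1 : (fun t => ∏ i ∈ (∅ : Finset ι), P i t) = fun _ => 1 := by
      funext t
      rw [Finset.prod_empty]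
    rw [h1]
    exact CoeffDiffOn.const B 1
  | insert a s ha ih =>
    have h1 : (fun t => ∏ i ∈ insert a s, P i t) = fun t => P a t * ∏ i ∈ s, P i t := by
      funext t
      rw [Finset.prod_insert ha]
    rw [h1]
    exact (hP a (Finset.mem_insert_self a s)).mul
      (ih fun i hi => hP i (Finset.mem_insert_of_mem hi))

theorem coeffDiffOn_basisDivisor {B : Set ℂ} {f g : ℂ → ℂ} (hf : DifferentiableOn ℂ f B)
    (hg : DifferentiableOn ℂ g B) (hne : ∀ t ∈ B, f t ≠ g t) :
    CoeffDiffOn B fun t => Lagrange.basisDivisor (f t) (g t) := by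
  intro n
  have h1 : (fun t => (Lagrange.basisDivisor (f t) (g t)).coeff n) =
      fun t => (f t - g t)⁻¹ * ((X : ℂ[X]).coeff n - (if n = 0 then g t else 0)) := by
    funext t
    rw [Lagrange.basisDivisor, coeff_C_mul, coeff_sub, coeff_C]
  rw [h1]
  have h2 : DifferentiableOn ℂ (fun t => (f t - g t)⁻¹) B :=
    (hf.sub hg).inv fun t ht => sub_ne_zero.mpr (hne t ht)
  refine h2.mul ((differentiableOn_const _).sub ?_)
  by_cases hn : n = 0
  · simpa [hn] using hg
  · simp [hn]

variable {d : ℕ}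

/-- the coefficient functions of the Lagrange basis polynomials of the moving nodes `Y j t` -/
def lagCoeff (Y : Fin d → ℂ → ℂ) (k : Fin d) (m : ℕ) (t : ℂ) : ℂ :=
  (Lagrange.basis Finset.univ (fun j => Y j t) k).coeff m

theorem lagCoeff_differentiableOn {Y : Fin d → ℂ → ℂ} {B : Set ℂ}
    (hY : ∀ j, DifferentiableOn ℂ (Y j) B) (hinj : ∀ t ∈ B, Function.Injective fun j => Y j t)
    (k : Fin d) (m : ℕ) : DifferentiableOn ℂ (lagCoeff Y k m) B := by
  have h : CoeffDiffOn B fun t => Lagrange.basis Finset.univ (fun j => Y j t) k := by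
    unfold Lagrange.basis
    refine CoeffDiffOn.prod _ fun j hj => ?_
    refine coeffDiffOn_basisDivisor (hY k) (hY j) fun t ht he => ?_
    exact (Finset.ne_of_mem_erase hj) (hinj t ht he).symm
  exact h m

theorem natDegree_lagBasis_lt {Y : Fin d → ℂ → ℂ} {t : ℂ}
    (hinj : Function.Injective fun j => Y j t) (k : Fin d) :
    (Lagrange.basis Finset.univ (fun j => Y j t) k).natDegree < d := by
  rw [Lagrange.natDegree_basis hinj.injOn (Finset.mem_univ k), Finset.card_univ,
    Fintype.card_fin]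
  have := k.pos
  omega

theorem lagCoeff_eq_zero_of_le {Y : Fin d → ℂ → ℂ} {t : ℂ}
    (hinj : Function.Injective fun j => Y j t) (k : Fin d) {m : ℕ} (h : d ≤ m) :
    lagCoeff Y k m t = 0 :=
  coeff_eq_zero_of_natDegree_lt (lt_of_lt_of_le (natDegree_lagBasis_lt hinj k) h)

/-- evaluation of the Lagrange basis polynomial through the coefficient functions -/
theorem sum_lagCoeff_mul_pow_eq_eval {Y : Fin d → ℂ → ℂ} {t : ℂ}
    (hinj : Function.Injective fun j => Y j t) (k : Fin d) (z : ℂ) :
    ∑ m : Fin d, lagCoeff Y k m t * z ^ (m : ℕ) =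
      (Lagrange.basis Finset.univ (fun j => Y j t) k).eval z := by
  rw [eval_eq_sum_range' (natDegree_lagBasis_lt hinj k) z,
    ← Fin.sum_univ_eq_sum_range (fun m => (Lagrange.basis Finset.univ (fun j => Y j t) k).coeff m
      * z ^ m) d]
  rfl

/-- **the interpolation identity** -/
theorem sum_lagCoeff_mul_pow {Y : Fin d → ℂ → ℂ} {t : ℂ}
    (hinj : Function.Injective fun j => Y j t) (k j : Fin d) :
    ∑ m : Fin d, lagCoeff Y k m t * Y j t ^ (m : ℕ) = if j = k then 1 else 0 := by
  rw [sum_lagCoeff_mul_pow_eq_eval hinj k]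
  split_ifs with h
  · subst h
    exact Lagrange.eval_basis_self (v := fun j => Y j t) hinj.injOn (Finset.mem_univ _)
  · exact Lagrange.eval_basis_of_ne (v := fun j => Y j t) (Ne.symm h) (Finset.mem_univ _)

/-- **the chain rule**: the numerator function of the derivative of the family has value
`δ_{jk}` and derivative `0` at the base point. -/
theorem hasDerivAt_lagNumerator {Y : Fin d → ℂ → ℂ} {B : Set ℂ} (hB : IsOpen B)
    (hY : ∀ j, DifferentiableOn ℂ (Y j) B) (hinj : ∀ t ∈ B, Function.Injective fun j => Y j t)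
    (k j : Fin d) {a : ℂ} (ha : a ∈ B) :
    HasDerivAt (fun w => (w - a) * ∑ m : Fin d, deriv (lagCoeff Y k m) a * Y j w ^ (m : ℕ) +
      ∑ m : Fin d, lagCoeff Y k m a * Y j w ^ (m : ℕ)) 0 a := by
  have hBa : B ∈ nhds a := hB.mem_nhds ha
  have hYa : HasDerivAt (Y j) (deriv (Y j) a) a :=
    ((hY j).differentiableAt hBa).hasDerivAt
  have hca : ∀ m : ℕ, HasDerivAt (lagCoeff Y k m) (deriv (lagCoeff Y k m) a) a := fun m =>
    ((lagCoeff_differentiableOn hY hinj k m).differentiableAt hBa).hasDerivAt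
  -- the total function is constant near `a`
  have hconst : HasDerivAt (fun t => ∑ m : Fin d, lagCoeff Y k m t * Y j t ^ (m : ℕ)) 0 a := by
    have e : (fun t => ∑ m : Fin d, lagCoeff Y k m t * Y j t ^ (m : ℕ)) =ᶠ[nhds a]
        fun _ => if j = k then (1 : ℂ) else 0 := by
      filter_upwards [hBa] with t ht
      exact sum_lagCoeff_mul_pow (hinj t ht) k j
    exact (hasDerivAt_const a _).congr_of_eventuallyEq e
  have htot : HasDerivAt (fun t => ∑ m : Fin d, lagCoeff Y k m t * Y j t ^ (m : ℕ))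
      (∑ m : Fin d, (deriv (lagCoeff Y k m) a * Y j a ^ (m : ℕ) +
        lagCoeff Y k m a * (((m : ℕ) : ℂ) * Y j a ^ ((m : ℕ) - 1) * deriv (Y j) a))) a :=
    HasDerivAt.fun_sum fun m _ => (hca m).mul (hYa.pow (m : ℕ))
  have hzero := htot.unique hconst
  have h1 : HasDerivAt (fun w => (w - a) * ∑ m : Fin d, deriv (lagCoeff Y k m) a *
      Y j w ^ (m : ℕ))
      (1 * (∑ m : Fin d, deriv (lagCoeff Y k m) a * Y j a ^ (m : ℕ)) +
        (a - a) * (∑ m : Fin d, deriv (lagCoeff Y k m) a *
          (((m : ℕ) : ℂ) * Y j a ^ ((m : ℕ) - 1) * deriv (Y j) a))) a :=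
    ((hasDerivAt_id a).sub_const a).mul
      (HasDerivAt.fun_sum fun m _ => (hYa.pow (m : ℕ)).const_mul _)
  have h2 : HasDerivAt (fun w => ∑ m : Fin d, lagCoeff Y k m a * Y j w ^ (m : ℕ))
      (∑ m : Fin d, lagCoeff Y k m a *
        (((m : ℕ) : ℂ) * Y j a ^ ((m : ℕ) - 1) * deriv (Y j) a)) a :=
    HasDerivAt.fun_sum fun m _ => (hYa.pow (m : ℕ)).const_mul _
  refine (h1.add h2).congr_deriv ?_
  rw [← hzero, Finset.sum_add_distrib]
  ring

/-- the value of the numerator function at the base point -/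
theorem lagNumerator_apply_self {Y : Fin d → ℂ → ℂ} {a : ℂ}
    (hinj : Function.Injective fun j => Y j a) (k j : Fin d) :
    (a - a) * ∑ m : Fin d, deriv (lagCoeff Y k m) a * Y j a ^ (m : ℕ) +
      ∑ m : Fin d, lagCoeff Y k m a * Y j a ^ (m : ℕ) = if j = k then 1 else 0 := by
  rw [sub_self, zero_mul, zero_add]
  exact sum_lagCoeff_mul_pow hinj k j

end

end Fermat.Agent.P5.helper12
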