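import Fermat.Agent.P5.helper12_ModSep

/-!
# P5 / MOD-ALG2 (helper12, task 646): inversion at a good value

For a presentation `p₀ = (x₀, y₀, f₀)` of `F`, a good value `c` of `f₀` and `M ≥ deg a_j` for all
coefficients `a_j` of `f₀`, the triple `x = 1/(x₀ - c)`, `y = x^M y₀`,
`f = Y^d + ∑_{j<d} [X^(M(d-j)) a_j(c + 1/X)] Y^j` is a presentation for which `∞` is good.

* `tw c N a` : the polynomial `X^N a(c + 1/X)` (for `deg a ≤ N`), `aeval_tw`;
* `newF f₀ c M`, `monic_newF`, `natDegree_newF`, `eval₂_newF`;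
* `alg2Statement`.
-/

set_option autoImplicit false

open Polynomial Filter Topology

namespace Fermat.Agent.P5.helper12

open Fermat.Agent.P5.helper37

noncomputable section

/-! ### The twisted coefficients -/

/-- the polynomial `X^N a(c + 1/X)` (for `deg a ≤ N`) -/
def tw (c : ℂ) (N : ℕ) (a : Polynomial ℂ) : Polynomial ℂ :=
  Polynomial.reflect N (a.comp (Polynomial.X + Polynomial.C c))

theorem aeval_tw {L : Type*} [Field L] [Algebra ℂ L] (c : ℂ) (N : ℕ) (a : Polynomial ℂ)
    (ha : a.natDegree ≤ N) (t : L) (ht : t ≠ 0) :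
    Polynomial.aeval t (tw c N a) = t ^ N * Polynomial.aeval (algebraMap ℂ L c + t⁻¹) a := by
  let _ : Invertible t⁻¹ := invertibleOfNonzero (inv_ne_zero ht)
  have hdeg : (a.comp (Polynomial.X + Polynomial.C c)).natDegree ≤ N := by
    rw [Polynomial.natDegree_comp, Polynomial.natDegree_X_add_C, mul_one]
    exact ha
  have h := Polynomial.eval₂_reflect_mul_pow (algebraMap ℂ L) t⁻¹ N
    (a.comp (Polynomial.X + Polynomial.C c)) hdeg
  rw [invOf_eq_inv, inv_inv] at h
  have h2 : Polynomial.eval₂ (algebraMap ℂ L) t⁻¹ (a.comp (Polynomial.X + Polynomial.C c)) =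
      Polynomial.aeval (algebraMap ℂ L c + t⁻¹) a := by
    rw [← Polynomial.aeval_def, Polynomial.aeval_comp]
    congr 2
    simp [add_comm]
  rw [h2] at h
  unfold tw
  rw [Polynomial.aeval_def, ← h, mul_comm, mul_assoc, ← mul_pow, inv_mul_cancel₀ ht, one_pow,
    mul_one]

/-! ### The new equation -/

/-- the equation `f = Y^d + ∑_{j<d} [X^(M(d-j)) a_j(c + 1/X)] Y^j` -/
def newF (f₀ : Polynomial (Polynomial ℂ)) (c : ℂ) (M : ℕ) : Polynomial (Polynomial ℂ) :=
  Polynomial.X ^ f₀.natDegree + ∑ j ∈ Finset.range f₀.natDegree,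
    Polynomial.C (tw c (M * (f₀.natDegree - j)) (f₀.coeff j)) * Polynomial.X ^ j

theorem degree_newF_tail_lt (f₀ : Polynomial (Polynomial ℂ)) (c : ℂ) (M : ℕ) :
    (∑ j ∈ Finset.range f₀.natDegree,
      Polynomial.C (tw c (M * (f₀.natDegree - j)) (f₀.coeff j)) * Polynomial.X ^ j).degree <
      (f₀.natDegree : WithBot ℕ) := by
  rw [← Fin.sum_univ_eq_sum_range (fun j =>
    Polynomial.C (tw c (M * (f₀.natDegree - j)) (f₀.coeff j)) * Polynomial.X ^ j) f₀.natDegree]
  exact Polynomial.degree_sum_fin_lt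
    (fun j : Fin f₀.natDegree => tw c (M * (f₀.natDegree - j)) (f₀.coeff j))

theorem monic_newF (f₀ : Polynomial (Polynomial ℂ)) (c : ℂ) (M : ℕ) : (newF f₀ c M).Monic :=
  Polynomial.monic_X_pow_add (degree_newF_tail_lt f₀ c M)

theorem natDegree_newF (f₀ : Polynomial (Polynomial ℂ)) (c : ℂ) (M : ℕ) :
    (newF f₀ c M).natDegree = f₀.natDegree := by
  unfold newF
  rw [add_comm]
  exact Polynomial.natDegree_add_eq_right_of_degree_lt
    (by rw [Polynomial.degree_X_pow]; exact degree_newF_tail_lt f₀ c M) |>.trans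
    (Polynomial.natDegree_X_pow _)

/-- the key identity: `f(t, t^M g) = t^(M d) f₀(c + 1/t, g)` -/
theorem eval₂_newF {L : Type*} [Field L] [Algebra ℂ L] (f₀ : Polynomial (Polynomial ℂ))
    (hf₀ : f₀.Monic) (c : ℂ) (M : ℕ)
    (hM : ∀ j < f₀.natDegree, (f₀.coeff j).natDegree ≤ M) (t g : L) (ht : t ≠ 0) :
    Polynomial.eval₂ ((Polynomial.aeval t : Polynomial ℂ →ₐ[ℂ] L) : Polynomial ℂ →+* L)
        (t ^ M * g) (newF f₀ c M) =
      t ^ (M * f₀.natDegree) *
        Polynomial.eval₂ ((Polynomial.aeval (algebraMap ℂ L c + t⁻¹) : Polynomial ℂ →ₐ[ℂ] L) :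
          Polynomial ℂ →+* L) g f₀ := by
  have hR : Polynomial.eval₂ ((Polynomial.aeval (algebraMap ℂ L c + t⁻¹) :
      Polynomial ℂ →ₐ[ℂ] L) : Polynomial ℂ →+* L) g f₀ =
      g ^ f₀.natDegree + ∑ j ∈ Finset.range f₀.natDegree,
        Polynomial.aeval (algebraMap ℂ L c + t⁻¹) (f₀.coeff j) * g ^ j := by
    conv_lhs => rw [hf₀.as_sum]
    rw [Polynomial.eval₂_add, Polynomial.eval₂_pow, Polynomial.eval₂_X,
      Polynomial.eval₂_finsetSum]
    congr 1
    refine Finset.sum_congr rfl fun j _ => ?_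
    rw [Polynomial.eval₂_mul, Polynomial.eval₂_C, Polynomial.eval₂_pow, Polynomial.eval₂_X]
    rfl
  rw [hR]
  unfold newF
  rw [Polynomial.eval₂_add, Polynomial.eval₂_pow, Polynomial.eval₂_X,
    Polynomial.eval₂_finsetSum, mul_add, Finset.mul_sum]
  congr 1
  · rw [mul_pow, ← pow_mul]
  · refine Finset.sum_congr rfl fun j hj => ?_
    have hj' : j < f₀.natDegree := Finset.mem_range.mp hj
    rw [Polynomial.eval₂_mul, Polynomial.eval₂_C, Polynomial.eval₂_pow, Polynomial.eval₂_X]
    have h1 : ((Polynomial.aeval t : Polynomial ℂ →ₐ[ℂ] L) : Polynomial ℂ →+* L)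
        (tw c (M * (f₀.natDegree - j)) (f₀.coeff j)) =
        t ^ (M * (f₀.natDegree - j)) *
          Polynomial.aeval (algebraMap ℂ L c + t⁻¹) (f₀.coeff j) := by
      refine aeval_tw c _ _ ?_ t ht
      calc (f₀.coeff j).natDegree ≤ M := hM j hj'
        _ = M * 1 := (mul_one M).symm
        _ ≤ M * (f₀.natDegree - j) := Nat.mul_le_mul_left M (by omega)
    rw [h1]
    have h2 : M * f₀.natDegree = M * (f₀.natDegree - j) + M * j := by
      rw [← Nat.mul_add]; congr 1; omega
    rw [h2, pow_add, mul_pow, ← pow_mul]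
    ring

/-! ### The new presentation -/

section Pres

variable {F : Type} [Field F] [Algebra ℂ F] (p₀ : Presentation F) (c : ℂ) (M : ℕ)

/-- the new coordinate `x = 1/(x₀ - c)` -/
def newX : F := (p₀.x - algebraMap ℂ F c)⁻¹

/-- the new primitive element `y = x^M y₀` -/
def newY : F := newX p₀ c ^ M * p₀.y

theorem sub_algebraMap_ne_zero : p₀.x - algebraMap ℂ F c ≠ 0 := by
  intro h
  apply p₀.x_transcendental
  rw [sub_eq_zero.mp h]
  exact isAlgebraic_algebraMap c

theorem newX_ne_zero : newX p₀ c ≠ 0 := inv_ne_zero (sub_algebraMap_ne_zero p₀ c)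

theorem algebraMap_add_inv_newX : algebraMap ℂ F c + (newX p₀ c)⁻¹ = p₀.x := by
  unfold newX
  rw [inv_inv]
  ring

theorem adjoin_newX :
    IntermediateField.adjoin ℂ {newX p₀ c} = IntermediateField.adjoin ℂ {p₀.x} := by
  apply le_antisymm
  · rw [IntermediateField.adjoin_simple_le_iff]
    exact inv_mem (sub_mem (IntermediateField.mem_adjoin_simple_self ℂ p₀.x)
      (IntermediateField.algebraMap_mem _ c))
  · rw [IntermediateField.adjoin_simple_le_iff]
    have h := add_mem (IntermediateField.algebraMap_mem (IntermediateField.adjoin ℂ {newX p₀ c}) c)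
      (inv_mem (IntermediateField.mem_adjoin_simple_self ℂ (newX p₀ c)))
    rwa [algebraMap_add_inv_newX] at h

theorem transcendental_newX : Transcendental ℂ (newX p₀ c) := by
  intro h
  apply p₀.x_transcendental
  rw [← algebraMap_add_inv_newX p₀ c]
  exact (isAlgebraic_algebraMap c).add h.inv

theorem aeval_newX_tw (N : ℕ) (a : Polynomial ℂ) (ha : a.natDegree ≤ N) :
    Polynomial.aeval (newX p₀ c) (tw c N a) = newX p₀ c ^ N * Polynomial.aeval p₀.x a := by
  rw [aeval_tw c N a ha _ (newX_ne_zero p₀ c), algebraMap_add_inv_newX]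

theorem newF_root (hM : ∀ j < p₀.f.natDegree, (p₀.f.coeff j).natDegree ≤ M) :
    Polynomial.eval₂ ((Polynomial.aeval (newX p₀ c) : Polynomial ℂ →ₐ[ℂ] F) :
      Polynomial ℂ →+* F) (newY p₀ c M) (newF p₀.f c M) = 0 := by
  unfold newY
  rw [eval₂_newF p₀.f p₀.f_monic c M hM _ _ (newX_ne_zero p₀ c), algebraMap_add_inv_newX,
    p₀.f_root, mul_zero]

theorem newF_gen (h : F) :
    ∃ (P : Fin (newF p₀.f c M).natDegree → Polynomial ℂ) (q : Polynomial ℂ), q ≠ 0 ∧
      Polynomial.aeval (newX p₀ c) q * h =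
        ∑ j, Polynomial.aeval (newX p₀ c) (P j) * newY p₀ c M ^ (j : ℕ) := by
  classical
  obtain ⟨P₀, q₀, hq₀, hPq⟩ := p₀.gen h
  set x := newX p₀ c with hx
  have hx0 : x ≠ 0 := newX_ne_zero p₀ c
  set N := q₀.natDegree + ∑ j, (P₀ j).natDegree with hN
  have hNq : q₀.natDegree ≤ N := Nat.le_add_right _ _
  have hNP : ∀ j, (P₀ j).natDegree ≤ N := fun j =>
    (Finset.single_le_sum (f := fun j => (P₀ j).natDegree) (fun _ _ => Nat.zero_le _)
      (Finset.mem_univ j)).trans (Nat.le_add_left _ _)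
  let P' : ℕ → Polynomial ℂ := fun j =>
    if hj : j < p₀.f.natDegree then tw c N (P₀ ⟨j, hj⟩) * Polynomial.X ^ (M * (p₀.f.natDegree - j)) else 0
  have hq0' : Polynomial.aeval p₀.x q₀ ≠ 0 := fun h0 =>
    hq₀ ((transcendental_iff_injective.mp p₀.x_transcendental) (by rw [h0, map_zero]))
  have hqval : Polynomial.aeval x (tw c N q₀ * Polynomial.X ^ (M * p₀.f.natDegree)) =
      x ^ N * Polynomial.aeval p₀.x q₀ * x ^ (M * p₀.f.natDegree) := by
    rw [map_mul, map_pow, Polynomial.aeval_X, aeval_newX_tw p₀ c N q₀ hNq]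
  refine ⟨fun j => P' j, tw c N q₀ * Polynomial.X ^ (M * p₀.f.natDegree), ?_, ?_⟩
  · intro h0
    have h1 := hqval
    rw [h0, map_zero] at h1
    exact mul_ne_zero (mul_ne_zero (pow_ne_zero _ hx0) hq0') (pow_ne_zero _ hx0) h1.symm
  · rw [hqval, Fin.sum_univ_eq_sum_range (fun j => Polynomial.aeval x (P' j) * newY p₀ c M ^ j),
      natDegree_newF, ← Fin.sum_univ_eq_sum_range
        (fun j => Polynomial.aeval x (P' j) * newY p₀ c M ^ j)]
    have hterm : ∀ j : Fin p₀.f.natDegree, Polynomial.aeval x (P' j) * newY p₀ c M ^ (j : ℕ) =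
        x ^ N * x ^ (M * p₀.f.natDegree) * (Polynomial.aeval p₀.x (P₀ j) * p₀.y ^ (j : ℕ)) := by
      intro j
      have hj : (j : ℕ) < p₀.f.natDegree := j.2
      have hP : P' j = tw c N (P₀ j) * Polynomial.X ^ (M * (p₀.f.natDegree - j)) := by
        simp only [P', hj, dif_pos]
      have h2 : M * p₀.f.natDegree = M * (p₀.f.natDegree - j) + M * j := by
        rw [← Nat.mul_add]; congr 1; omega
      rw [hP, map_mul, map_pow, Polynomial.aeval_X, aeval_newX_tw p₀ c N _ (hNP j), h2]
      unfold newY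
      rw [mul_pow, ← pow_mul, pow_add]
      ring
    rw [Finset.sum_congr rfl (fun j _ => hterm j), ← Finset.mul_sum, ← hPq]
    ring

/-- the inverted presentation -/
def newPres (hM : ∀ j < p₀.f.natDegree, (p₀.f.coeff j).natDegree ≤ M) : Presentation F where
  x := newX p₀ c
  y := newY p₀ c M
  f := newF p₀.f c M
  x_transcendental := transcendental_newX p₀ c
  x_finite := by
    have := p₀.x_finite
    rw [adjoin_newX]
    infer_instance
  f_monic := monic_newF _ _ _
  f_natDegree := by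
    rw [natDegree_newF, p₀.f_natDegree, adjoin_newX]
  f_root := newF_root p₀ c M hM
  gen := newF_gen p₀ c M

end Pres

/-! ### `∞` is a good point of the new equation -/

theorem goodAtInf_newF (hBR : BranchStatement) (f₀ : Polynomial (Polynomial ℂ))
    (hf₀ : f₀.Monic) (c : ℂ) (M : ℕ)
    (hM : ∀ j < f₀.natDegree, (f₀.coeff j).natDegree ≤ M)
    (hfin : {z : ℂ | ¬ (specialize f₀ z).Separable}.Finite)
    (hc : (specialize f₀ c).Separable) : GoodAtInf (newF f₀ c M) := by
  -- a ball of good values around `c`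
  have hopen : IsOpen {z : ℂ | ¬ (specialize f₀ z).Separable}ᶜ := hfin.isClosed.isOpen_compl
  have hcmem : c ∈ {z : ℂ | ¬ (specialize f₀ z).Separable}ᶜ := fun h => h hc
  obtain ⟨ε, hε, hball⟩ := Metric.isOpen_iff.mp hopen c hcmem
  have hsep : ∀ z ∈ Metric.ball c ε, (specialize f₀ z).Separable := fun z hz =>
    not_not.mp (hball hz)
  obtain ⟨y, hy_an, hy_root, hy_inj⟩ := hBR (fun z => specialize f₀ z) f₀.natDegree
    (Metric.ball c ε) c Metric.isOpen_ball
    ((convex_ball c ε).starConvex (Metric.mem_ball_self hε))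
    (fun z _ => hf₀.map _) (fun z _ => hf₀.natDegree_map _)
    (fun j => by
      have h1 : (fun z => (specialize f₀ z).coeff j) = fun z => (f₀.coeff j).eval z := by
        funext z
        simp [specialize, Polynomial.coeff_map]
      rw [h1]
      exact (AnalyticOnNhd.eval_polynomial (f₀.coeff j)).mono (Set.subset_univ _))
    hsep
  have hdeg := natDegree_newF f₀ c M
  refine ⟨fun m w => (w⁻¹) ^ M * y (Fin.cast hdeg m) (c + w), ?_, ?_⟩
  · intro m
    have h1 : AnalyticAt ℂ (fun w : ℂ => y (Fin.cast hdeg m) (c + w)) 0 := by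
      have h2 : AnalyticAt ℂ (y (Fin.cast hdeg m)) (c + 0) := by
        rw [add_zero]
        exact hy_an _ c (Metric.mem_ball_self hε)
      exact h2.comp (f := fun w : ℂ => c + w) (analyticAt_const.add analyticAt_id)
    have h3 : MeromorphicAt (fun w : ℂ => (w⁻¹) ^ M) 0 :=
      ((MeromorphicAt.id (0 : ℂ)).inv.pow M)
    exact h3.mul h1.meromorphicAt
  · have hev1 : ∀ᶠ w in 𝓝[≠] (0 : ℂ), c + w ∈ Metric.ball c ε := by
      apply eventually_nhdsWithin_of_eventually_nhds
      have hcont : ContinuousAt (fun w : ℂ => c + w) 0 := by fun_prop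
      have hmem : Metric.ball c ε ∈ 𝓝 (c + 0) := by
        rw [add_zero]
        exact Metric.ball_mem_nhds c hε
      exact hcont.eventually hmem
    have hev2 : ∀ᶠ w in 𝓝[≠] (0 : ℂ), w ≠ 0 := self_mem_nhdsWithin
    filter_upwards [hev1, hev2] with w hw hw0
    have hwi : w⁻¹ ≠ 0 := inv_ne_zero hw0
    constructor
    · intro m
      rw [Polynomial.IsRoot.def]
      unfold specialize
      rw [Polynomial.eval_map, ← Polynomial.coe_aeval_eq_evalRingHom,
        eval₂_newF f₀ hf₀ c M hM (w⁻¹) _ hwi, inv_inv]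
      have h1 := hy_root (Fin.cast hdeg m) (c + w) hw
      rw [Polynomial.IsRoot.def] at h1
      unfold specialize at h1
      rw [Polynomial.eval_map, ← Polynomial.coe_aeval_eq_evalRingHom] at h1
      have h2 : (algebraMap ℂ ℂ) c + w = c + w := rfl
      rw [h2, h1, mul_zero]
    · intro m₁ m₂ h
      have h1 : y (Fin.cast hdeg m₁) (c + w) = y (Fin.cast hdeg m₂) (c + w) :=
        mul_left_cancel₀ (pow_ne_zero M hwi) h
      have h2 := hy_inj (c + w) hw h1
      exact Fin.cast_injective hdeg h2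

/-- **[MOD-ALG2]** inversion at a good value gives a presentation for which `∞` is good. -/
theorem alg2Statement (hBR : BranchStatement) (hSEP : SepStatement) : Alg2Statement := by
  intro F _ _ ⟨p₀⟩
  have hfin := hSEP F p₀
  obtain ⟨c, hc⟩ := hfin.exists_notMem
  have hc' : (specialize p₀.f c).Separable := not_not.mp hc
  have hM : ∀ j < p₀.f.natDegree, (p₀.f.coeff j).natDegree ≤
      (Finset.range p₀.f.natDegree).sup (fun j => (p₀.f.coeff j).natDegree) := fun j hj =>
    Finset.le_sup (f := fun j => (p₀.f.coeff j).natDegree) (Finset.mem_range.mpr hj)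
  exact ⟨newPres p₀ c _ hM, goodAtInf_newF hBR p₀.f p₀.f_monic c _ hM hfin hc'⟩

/-- MOD-ALG2 with MOD-SEP discharged -/
theorem alg2Statement' (hBR : BranchStatement) : Alg2Statement :=
  alg2Statement hBR sepStatement

end

end Fermat.Agent.P5.helper12
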