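import Fermat.Agent.P5.helper37_ModStatements

/-!
# P5 / MOD-SEP (helper12, task 645): a presentation has finitely many bad values

For a presentation `F = ℂ(x)[y]/(f)`:

* `psi x : ℂ[X] →+* ℂ(x)`, `coe_psi`, `psi_injective`;
* `adjoin_y_eq_top` : `ℂ(x)(y) = F`;
* `map_eq_minpoly` : `f` mapped to `ℂ(x)[Y]` is the minimal polynomial of `y`;
* `irreducible_map`, `separable_map` : it is irreducible and separable;
* `exists_denominator` : clearing denominators of a polynomial over `ℂ(x)`;
* `exists_bezout` : `A f + B f' = C D` in `ℂ[X][Y]` with `D ≠ 0`;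
* `separable_specialize_of_eval_ne_zero`, `sepStatement : SepStatement`.
-/

set_option autoImplicit false

open Polynomial

namespace Fermat.Agent.P5.helper12

open Fermat.Agent.P5.helper37

noncomputable section

variable {F : Type} [Field F] [Algebra ℂ F]

/-- the map `ℂ[X] → ℂ(x)`, `X ↦ x` -/
def psi (x : F) : Polynomial ℂ →+* IntermediateField.adjoin ℂ {x} :=
  ((Polynomial.aeval (IntermediateField.AdjoinSimple.gen ℂ x) :
    Polynomial ℂ →ₐ[ℂ] IntermediateField.adjoin ℂ {x}) : Polynomial ℂ →+* _)

theorem coe_psi (x : F) (q : Polynomial ℂ) :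
    ((psi x q : IntermediateField.adjoin ℂ {x}) : F) = Polynomial.aeval x q := by
  change algebraMap (IntermediateField.adjoin ℂ {x}) F
    (Polynomial.aeval (IntermediateField.AdjoinSimple.gen ℂ x) q) = _
  rw [← Polynomial.aeval_algebraMap_apply, IntermediateField.AdjoinSimple.algebraMap_gen]

theorem algebraMap_comp_psi (x : F) :
    (algebraMap (IntermediateField.adjoin ℂ {x}) F).comp (psi x) =
      ((Polynomial.aeval x : Polynomial ℂ →ₐ[ℂ] F) : Polynomial ℂ →+* F) := by
  ext q
  · simp [psi]
  · simp [psi]

theorem psi_injective {x : F} (hx : Transcendental ℂ x) : Function.Injective (psi x) := by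
  intro a b hab
  have h := congrArg (fun e : IntermediateField.adjoin ℂ {x} => (e : F)) hab
  simp only [coe_psi] at h
  exact (transcendental_iff_injective.mp hx) h

/-- clearing denominators of a polynomial over `ℂ(x)` -/
theorem exists_denominator (x : F) (a : Polynomial (IntermediateField.adjoin ℂ {x})) :
    ∃ (D : Polynomial ℂ) (A₀ : Polynomial (Polynomial ℂ)), psi x D ≠ 0 ∧
      A₀.map (psi x) = Polynomial.C (psi x D) * a := by
  induction a using Polynomial.induction_on' with
  | add a b ha hb =>
    obtain ⟨D₁, A₁, hD₁, hA₁⟩ := ha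
    obtain ⟨D₂, A₂, hD₂, hA₂⟩ := hb
    refine ⟨D₁ * D₂, Polynomial.C D₂ * A₁ + Polynomial.C D₁ * A₂, ?_, ?_⟩
    · rw [map_mul]
      exact mul_ne_zero hD₁ hD₂
    · rw [Polynomial.map_add, Polynomial.map_mul, Polynomial.map_mul, Polynomial.map_C,
        Polynomial.map_C, hA₁, hA₂, map_mul, map_mul]
      ring
  | monomial n e =>
    obtain ⟨r, s, hrs⟩ := (IntermediateField.mem_adjoin_simple_iff ℂ (e : F)).mp e.2
    by_cases hs : Polynomial.aeval x s = 0
    · have he : e = 0 := by
        apply Subtype.ext
        rw [hrs, hs, div_zero]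
        rfl
      refine ⟨1, 0, ?_, ?_⟩
      · rw [map_one]
        exact one_ne_zero
      · rw [he]
        simp
    · refine ⟨s, Polynomial.monomial n r, ?_, ?_⟩
      · intro h0
        apply hs
        rw [← coe_psi, h0]
        rfl
      · rw [Polynomial.map_monomial, Polynomial.C_mul_monomial]
        congr 1
        apply Subtype.ext
        rw [MulMemClass.coe_mul, coe_psi, coe_psi, hrs, mul_div_cancel₀ _ hs]

variable (p : Presentation F)

/-- `ℂ(x)(y) = F` -/
theorem adjoin_y_eq_top :
    IntermediateField.adjoin (IntermediateField.adjoin ℂ {p.x}) {p.y} = ⊤ := by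
  rw [eq_top_iff]
  rintro h -
  obtain ⟨P, q, hq, hPq⟩ := p.gen h
  have hq0 : Polynomial.aeval p.x q ≠ 0 := fun h0 =>
    hq ((transcendental_iff_injective.mp p.x_transcendental) (by rw [h0, map_zero]))
  have hmem : ∀ r : Polynomial ℂ, Polynomial.aeval p.x r ∈
      IntermediateField.adjoin (IntermediateField.adjoin ℂ {p.x}) {p.y} := by
    intro r
    rw [← coe_psi]
    exact (IntermediateField.adjoin (IntermediateField.adjoin ℂ {p.x}) {p.y}).algebraMap_mem _
  have hy : p.y ∈ IntermediateField.adjoin (IntermediateField.adjoin ℂ {p.x}) {p.y} :=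
    IntermediateField.mem_adjoin_simple_self _ _
  have hh : h = (Polynomial.aeval p.x q)⁻¹ *
      ∑ j, Polynomial.aeval p.x (P j) * p.y ^ (j : ℕ) := by
    rw [← hPq, ← mul_assoc, inv_mul_cancel₀ hq0, one_mul]
  rw [hh]
  exact mul_mem (inv_mem (hmem q))
    (sum_mem fun j _ => mul_mem (hmem _) (pow_mem hy _))

/-- `f` mapped to `ℂ(x)[Y]` kills `y` -/
theorem aeval_y_map : Polynomial.aeval p.y (p.f.map (psi p.x)) = 0 := by
  rw [Polynomial.aeval_def, Polynomial.eval₂_map, algebraMap_comp_psi]
  exact p.f_root

/-- `f` mapped to `ℂ(x)[Y]` is the minimal polynomial of `y` -/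
theorem map_eq_minpoly :
    p.f.map (psi p.x) = minpoly (IntermediateField.adjoin ℂ {p.x}) p.y := by
  have := p.x_finite
  have hint : IsIntegral (IntermediateField.adjoin ℂ {p.x}) p.y :=
    IsIntegral.of_finite _ _
  have hmonic : (p.f.map (psi p.x)).Monic := p.f_monic.map _
  have hdvd := minpoly.dvd (IntermediateField.adjoin ℂ {p.x}) p.y (aeval_y_map p)
  have hdeg : (minpoly (IntermediateField.adjoin ℂ {p.x}) p.y).natDegree = p.f.natDegree := by
    rw [← IntermediateField.adjoin.finrank hint, adjoin_y_eq_top, IntermediateField.finrank_top',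
      p.f_natDegree]
  refine Polynomial.eq_of_monic_of_dvd_of_natDegree_le (minpoly.monic hint) hmonic hdvd ?_
  rw [hdeg, p.f_monic.natDegree_map]

theorem irreducible_map : Irreducible (p.f.map (psi p.x)) := by
  have := p.x_finite
  rw [map_eq_minpoly]
  exact minpoly.irreducible (IsIntegral.of_finite _ _)

theorem separable_map : (p.f.map (psi p.x)).Separable :=
  (irreducible_map p).separable

/-- Bézout identity over `ℂ[X]`: `A f + B f' = D ≠ 0`. -/
theorem exists_bezout : ∃ (D : Polynomial ℂ) (A B : Polynomial (Polynomial ℂ)), D ≠ 0 ∧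
    A * p.f + B * Polynomial.derivative p.f = Polynomial.C D := by
  obtain ⟨a, b, hab⟩ := (Polynomial.separable_def _).mp (separable_map p)
  obtain ⟨D₁, A₁, hD₁, hA₁⟩ := exists_denominator p.x a
  obtain ⟨D₂, B₁, hD₂, hB₁⟩ := exists_denominator p.x b
  refine ⟨D₁ * D₂, Polynomial.C D₂ * A₁, Polynomial.C D₁ * B₁, ?_, ?_⟩
  · intro h0
    have : psi p.x (D₁ * D₂) = 0 := by rw [h0, map_zero]
    rw [map_mul] at this
    exact mul_ne_zero hD₁ hD₂ this
  · apply Polynomial.map_injective (psi p.x) (psi_injective p.x_transcendental)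
    rw [Polynomial.map_add, Polynomial.map_mul, Polynomial.map_mul, Polynomial.map_mul,
      Polynomial.map_mul, Polynomial.map_C, Polynomial.map_C, Polynomial.map_C, hA₁, hB₁,
      ← Polynomial.derivative_map, map_mul, map_mul]
    calc Polynomial.C (psi p.x D₂) * (Polynomial.C (psi p.x D₁) * a) * p.f.map (psi p.x) +
          Polynomial.C (psi p.x D₁) * (Polynomial.C (psi p.x D₂) * b) *
            Polynomial.derivative (p.f.map (psi p.x))
        = Polynomial.C (psi p.x D₁) * Polynomial.C (psi p.x D₂) *
            (a * p.f.map (psi p.x) + b * Polynomial.derivative (p.f.map (psi p.x))) := by ring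
      _ = Polynomial.C (psi p.x D₁) * Polynomial.C (psi p.x D₂) := by rw [hab, mul_one]

/-- specialisation at a value where the Bézout constant does not vanish is separable -/
theorem separable_specialize_of_eval_ne_zero {f : Polynomial (Polynomial ℂ)}
    {D : Polynomial ℂ} {A B : Polynomial (Polynomial ℂ)}
    (h : A * f + B * Polynomial.derivative f = Polynomial.C D) {z : ℂ} (hz : D.eval z ≠ 0) :
    (specialize f z).Separable := by
  rw [Polynomial.separable_def]
  have h1 := congrArg (Polynomial.map (Polynomial.evalRingHom z)) h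
  rw [Polynomial.map_add, Polynomial.map_mul, Polynomial.map_mul, Polynomial.map_C,
    ← Polynomial.derivative_map] at h1
  refine ⟨Polynomial.C (D.eval z)⁻¹ * A.map (Polynomial.evalRingHom z),
    Polynomial.C (D.eval z)⁻¹ * B.map (Polynomial.evalRingHom z), ?_⟩
  unfold specialize
  calc Polynomial.C (D.eval z)⁻¹ * A.map (Polynomial.evalRingHom z) *
        f.map (Polynomial.evalRingHom z) +
      Polynomial.C (D.eval z)⁻¹ * B.map (Polynomial.evalRingHom z) *
        Polynomial.derivative (f.map (Polynomial.evalRingHom z))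
      = Polynomial.C (D.eval z)⁻¹ * (A.map (Polynomial.evalRingHom z) *
          f.map (Polynomial.evalRingHom z) + B.map (Polynomial.evalRingHom z) *
          Polynomial.derivative (f.map (Polynomial.evalRingHom z))) := by ring
    _ = Polynomial.C (D.eval z)⁻¹ * Polynomial.C (D.eval z) := by
        rw [h1]; rfl
    _ = 1 := by rw [← Polynomial.C_mul, inv_mul_cancel₀ hz, Polynomial.C_1]

/-- **[MOD-SEP]** a presentation has finitely many bad values. -/
theorem sepStatement : SepStatement := by
  intro F _ _ p
  obtain ⟨D, A, B, hD, hAB⟩ := exists_bezout p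
  refine (Polynomial.finite_setOfPred_isRoot hD).subset ?_
  intro z hz
  by_contra hz'
  exact hz (separable_specialize_of_eval_ne_zero hAB hz')

end

end Fermat.Agent.P5.helper12
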