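import Mathlib
import Fermat.Prelude.Def_AlgebraicCurve_CanonicalDivisor
import Fermat.Agent.S24.helper88_FFDeriv

/-!
# P5 / RR-LOC (helper42): local calculus of Kähler differentials at a place

`LocalSetting K F` collects the local facts about `Place.ordDifferential` that hold in every
function field of one variable over an algebraically closed field of characteristic zero
(`LocalSetting.of_ff`), and this file derives from them the calculus of *regular*
differentials (`0 ≤ v.ordDifferential ω`) and of logarithmic poles.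
-/

set_option autoImplicit false

namespace Fermat.Agent.P5.helper42

open AlgebraicCurve KaehlerDifferential IntermediateField

variable {K F : Type*} [Field K] [Field F] [Algebra K F]

/-- The local facts about differentials of a function field of one variable. -/
structure LocalSetting (K F : Type*) [Field K] [Field F] [Algebra K F] : Prop where
  nontrivial : Nontrivial Ω[F⁄K]
  gen : ∀ v : Place K F, v.DCoordGenerates
  /-- `d/dt` preserves the valuation ring -/
  deriv : ∀ (v : Place K F) (u : F), 0 ≤ v.ord u →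
    ∃ h : F, 0 ≤ v.ord h ∧ D K F u = h • v.dCoord
  /-- the differential of a uniformiser is a local generator -/
  unif : ∀ (v : Place K F) (t : F), v.ord t = 1 →
    D K F t ≠ 0 ∧ v.ordDifferential (D K F t) = 0
  /-- residues of regular functions -/
  residue : ∀ (v : Place K F) (f : F), 0 ≤ v.ord f →
    ∃ a : K, f = algebraMap K F a ∨ 0 < v.ord (f - algebraMap K F a)
  ord_const : ∀ (v : Place K F) (a : K), v.ord (algebraMap K F a) = 0
  charZero : CharZero K

theorem LocalSetting.of_ff [IsAlgClosed K] [CharZero K] (x : F) (hx : Transcendental K x)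
    [FiniteDimensional K⟮x⟯ F] : LocalSetting K F where
  nontrivial := Fermat.Agent.S24.helper88.ff_nontrivial_kaehler x hx
  gen := fun v => Fermat.Agent.S24.helper82.ff_dCoordGenerates x hx v
  deriv := fun v u hu => by
    have := Fermat.Agent.S24.helper88.essFiniteType_valuationSubring x hx v
    obtain ⟨h, hh⟩ := Fermat.Agent.S24.helper88.exists_D_eq_smul v
      (fun f hf => Fermat.Agent.S24.helper82.ff_exists_residue x hx v f hf)
      ⟨u, Fermat.Agent.S24.helper82.mem_of_ord_nonneg v hu⟩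
    exact ⟨h, Fermat.Agent.S24.helper82.ord_nonneg_of_mem v h.2, hh⟩
  unif := fun v t ht => by
    have hnot : t ∉ Set.range (algebraMap K F) := by
      rintro ⟨a, rfl⟩
      rw [Fermat.Agent.S24.helper82.ord_algebraMap] at ht
      exact zero_ne_one ht
    refine ⟨Fermat.Agent.S24.helper82.ff_D_ne_zero x hx t hnot, ?_⟩
    have h0 : 0 < v.ord (t - algebraMap K F 0) := by
      rw [map_zero, sub_zero, ht]
      exact one_pos
    have h1 := Fermat.Agent.S24.helper88.ff_ordDifferential_D_of_zero x hx t 0 v h0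
    rw [h1, map_zero, sub_zero, ht, sub_self]
  residue := fun v f hf => Fermat.Agent.S24.helper82.ff_exists_residue x hx v f hf
  ord_const := fun v a => Fermat.Agent.S24.helper82.ord_algebraMap v a
  charZero := inferInstance

section Ord

variable (v : Place K F)

/-- `ord (a + b) ≥ 0` for regular `a`, `b` (with the convention `ord 0 = 0`). -/
theorem ord_add_nonneg {a b : F} (ha : 0 ≤ v.ord a) (hb : 0 ≤ v.ord b) : 0 ≤ v.ord (a + b) :=
  Fermat.Agent.S24.helper82.ord_nonneg_of_mem v
    (add_mem (Fermat.Agent.S24.helper82.mem_of_ord_nonneg v ha)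
      (Fermat.Agent.S24.helper82.mem_of_ord_nonneg v hb))

theorem ord_mul_nonneg {a b : F} (ha : 0 ≤ v.ord a) (hb : 0 ≤ v.ord b) : 0 ≤ v.ord (a * b) :=
  Fermat.Agent.S24.helper82.ord_nonneg_of_mem v
    (mul_mem (Fermat.Agent.S24.helper82.mem_of_ord_nonneg v ha)
      (Fermat.Agent.S24.helper82.mem_of_ord_nonneg v hb))

theorem ord_neg_nonneg {a : F} (ha : 0 ≤ v.ord a) : 0 ≤ v.ord (-a) :=
  Fermat.Agent.S24.helper82.ord_nonneg_of_mem v
    (neg_mem (Fermat.Agent.S24.helper82.mem_of_ord_nonneg v ha))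

theorem ord_intCast_nonneg (m : ℤ) : 0 ≤ v.ord (m : F) :=
  Fermat.Agent.S24.helper82.ord_nonneg_of_mem v (intCast_mem _ m)

/-- a uniformiser exists -/
theorem exists_ord_eq_one : ∃ t : F, v.ord t = 1 :=
  ⟨_, Fermat.Agent.S24.helper88.ord_unif v⟩

theorem ne_zero_of_ord_eq_one {t : F} (ht : v.ord t = 1) : t ≠ 0 := by
  rintro rfl
  simp at ht

end Ord

section Regular

variable (hL : LocalSetting K F) (v : Place K F)

include hL

theorem coeff_smul_dCoord (ω : Ω[F⁄K]) : v.differentialCoeff ω • v.dCoord = ω :=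
  haveI := hL.gen v
  v.differentialCoeff_smul_dCoord ω

theorem coeff_unique {ω : Ω[F⁄K]} {f : F} (h : ω = f • v.dCoord) :
    v.differentialCoeff ω = f :=
  haveI := hL.gen v
  haveI := hL.nontrivial
  v.differentialCoeff_unique h

theorem coeff_add (ω ω' : Ω[F⁄K]) :
    v.differentialCoeff (ω + ω') = v.differentialCoeff ω + v.differentialCoeff ω' :=
  coeff_unique hL v (by rw [add_smul, coeff_smul_dCoord hL, coeff_smul_dCoord hL])

theorem coeff_smul (c : F) (ω : Ω[F⁄K]) :
    v.differentialCoeff (c • ω) = c * v.differentialCoeff ω :=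
  coeff_unique hL v (by rw [mul_smul, coeff_smul_dCoord hL])

theorem coeff_zero : v.differentialCoeff (0 : Ω[F⁄K]) = 0 :=
  coeff_unique hL v (zero_smul F _).symm

theorem coeff_eq_zero_iff {ω : Ω[F⁄K]} : v.differentialCoeff ω = 0 ↔ ω = 0 := by
  constructor
  · intro h
    rw [← coeff_smul_dCoord hL v ω, h, zero_smul]
  · rintro rfl
    exact coeff_zero hL v

theorem coeff_neg (ω : Ω[F⁄K]) : v.differentialCoeff (-ω) = -v.differentialCoeff ω :=
  coeff_unique hL v (by rw [neg_smul, coeff_smul_dCoord hL])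

theorem coeff_sub (ω ω' : Ω[F⁄K]) :
    v.differentialCoeff (ω - ω') = v.differentialCoeff ω - v.differentialCoeff ω' :=
  coeff_unique hL v (by rw [sub_smul, coeff_smul_dCoord hL, coeff_smul_dCoord hL])

theorem coeff_zsmul (m : ℤ) (ω : Ω[F⁄K]) :
    v.differentialCoeff (m • ω) = (m : F) * v.differentialCoeff ω := by
  rw [← Int.cast_smul_eq_zsmul F m ω]
  exact coeff_smul hL v _ _

/-- The order of a nonzero multiple. -/
theorem ordDifferential_smul_eq {c : F} (hc : c ≠ 0) {ω : Ω[F⁄K]} (hω : ω ≠ 0) :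
    v.ordDifferential (c • ω) = v.ord c + v.ordDifferential ω :=
  haveI := hL.gen v
  haveI := hL.nontrivial
  v.ordDifferential_smul hc (fun h => hω ((coeff_eq_zero_iff hL v).mp h))

theorem regular_zero : 0 ≤ v.ordDifferential (0 : Ω[F⁄K]) := by
  rw [Place.ordDifferential, coeff_zero hL v, Place.ord_zero]

theorem regular_add {ω ω' : Ω[F⁄K]} (h : 0 ≤ v.ordDifferential ω)
    (h' : 0 ≤ v.ordDifferential ω') : 0 ≤ v.ordDifferential (ω + ω') := by
  rw [Place.ordDifferential, coeff_add hL v]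
  exact ord_add_nonneg v h h'

theorem regular_neg {ω : Ω[F⁄K]} (h : 0 ≤ v.ordDifferential ω) :
    0 ≤ v.ordDifferential (-ω) := by
  rw [Place.ordDifferential, coeff_neg hL v]
  exact ord_neg_nonneg v h

theorem regular_sub {ω ω' : Ω[F⁄K]} (h : 0 ≤ v.ordDifferential ω)
    (h' : 0 ≤ v.ordDifferential ω') : 0 ≤ v.ordDifferential (ω - ω') := by
  rw [sub_eq_add_neg]
  exact regular_add hL v h (regular_neg hL v h')

theorem regular_smul {c : F} (hc : 0 ≤ v.ord c) {ω : Ω[F⁄K]} (h : 0 ≤ v.ordDifferential ω) :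
    0 ≤ v.ordDifferential (c • ω) := by
  rw [Place.ordDifferential, coeff_smul hL v]
  exact ord_mul_nonneg v hc h

theorem regular_zsmul (m : ℤ) {ω : Ω[F⁄K]} (h : 0 ≤ v.ordDifferential ω) :
    0 ≤ v.ordDifferential (m • ω) := by
  rw [← Int.cast_smul_eq_zsmul F m ω]
  exact regular_smul hL v (ord_intCast_nonneg v m) h

theorem regular_const_smul (a : K) {ω : Ω[F⁄K]} (h : 0 ≤ v.ordDifferential ω) :
    0 ≤ v.ordDifferential (a • ω) := by
  rw [← algebraMap_smul F a ω]
  exact regular_smul hL v (hL.ord_const v a).ge h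

/-- The differential of a regular function is regular. -/
theorem regular_D {u : F} (hu : 0 ≤ v.ord u) : 0 ≤ v.ordDifferential (D K F u) := by
  obtain ⟨h, hh, hD⟩ := hL.deriv v u hu
  rw [Place.ordDifferential, coeff_unique hL v hD]
  exact hh

/-- The logarithmic differential of a unit is regular. -/
theorem regular_dlog_of_ord_eq_zero {u : F} (hu : v.ord u = 0) :
    0 ≤ v.ordDifferential (u⁻¹ • D K F u) :=
  regular_smul hL v (by rw [Place.ord_inv, hu, neg_zero]) (regular_D hL v hu.ge)

/-- The logarithmic differential of a uniformiser has a simple pole. -/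
theorem ordDifferential_dlog_unif {t : F} (ht : v.ord t = 1) :
    v.ordDifferential (t⁻¹ • D K F t) = -1 := by
  obtain ⟨h1, h2⟩ := hL.unif v t ht
  rw [ordDifferential_smul_eq hL v (inv_ne_zero (ne_zero_of_ord_eq_one v ht)) h1,
    Place.ord_inv, ht, h2, add_zero]

end Regular

/-! ### Logarithmic differentials -/

section DLog

/-- `dlog (a b) = dlog a + dlog b`. -/
theorem dlog_mul_eq {a b : F} (ha : a ≠ 0) (hb : b ≠ 0) :
    (a * b)⁻¹ • D K F (a * b) = a⁻¹ • D K F a + b⁻¹ • D K F b := by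
  rw [Derivation.leibniz, smul_add, smul_smul, smul_smul, add_comm]
  congr 1
  · congr 1
    field_simp
  · congr 1
    field_simp

theorem dlog_inv_eq {a : F} (ha : a ≠ 0) :
    (a⁻¹)⁻¹ • D K F a⁻¹ = -(a⁻¹ • D K F a) := by
  have h := dlog_mul_eq (K := K) ha (inv_ne_zero ha)
  rw [mul_inv_cancel₀ ha] at h
  have h1 : D K F (1 : F) = 0 := by
    simp
  rw [h1, smul_zero] at h
  exact (neg_eq_of_add_eq_zero_right h.symm).symm

/-- `dlog (t ^ n) = n dlog t`. -/
theorem dlog_zpow_eq {t : F} (ht : t ≠ 0) (n : ℤ) :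
    (t ^ n)⁻¹ • D K F (t ^ n) = n • (t⁻¹ • D K F t) := by
  rw [Derivation.leibniz_zpow, ← Int.cast_smul_eq_zsmul F n, ← Int.cast_smul_eq_zsmul F n,
    smul_smul, smul_smul, smul_smul]
  congr 1
  rw [zpow_sub_one₀ ht]
  field_simp

end DLog

section LogPole

variable (hL : LocalSetting K F) (v : Place K F)

include hL

/-- Changing the uniformiser changes `dt / t` by a regular differential. -/
theorem regular_dlog_sub_dlog {t t' : F} (ht : v.ord t = 1) (ht' : v.ord t' = 1) :
    0 ≤ v.ordDifferential (t'⁻¹ • D K F t' - t⁻¹ • D K F t) := by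
  have ht0 := ne_zero_of_ord_eq_one v ht
  have ht0' := ne_zero_of_ord_eq_one v ht'
  have hu0 : t' * t⁻¹ ≠ 0 := mul_ne_zero ht0' (inv_ne_zero ht0)
  have hu : v.ord (t' * t⁻¹) = 0 := by
    rw [v.ord_mul ht0' (inv_ne_zero ht0), Place.ord_inv, ht, ht']
    norm_num
  have h1 : t'⁻¹ • D K F t' - t⁻¹ • D K F t = (t' * t⁻¹)⁻¹ • D K F (t' * t⁻¹) := by
    rw [dlog_mul_eq ht0' (inv_ne_zero ht0), dlog_inv_eq ht0]
    abel
  rw [h1]
  exact regular_dlog_of_ord_eq_zero hL v hu

/-- A differential with a logarithmic pole w.r.t. one uniformiser has one w.r.t. every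
uniformiser. -/
theorem logPole_change {τ : Ω[F⁄K]} {m : ℤ} {t t' : F} (ht : v.ord t = 1) (ht' : v.ord t' = 1)
    (h : 0 ≤ v.ordDifferential (τ - m • (t⁻¹ • D K F t))) :
    0 ≤ v.ordDifferential (τ - m • (t'⁻¹ • D K F t')) := by
  have h1 : τ - m • (t'⁻¹ • D K F t') = (τ - m • (t⁻¹ • D K F t))
      - m • (t'⁻¹ • D K F t' - t⁻¹ • D K F t) := by
    rw [smul_sub]
    abel
  rw [h1]
  exact regular_sub hL v h (regular_zsmul hL v m (regular_dlog_sub_dlog hL v ht ht'))

/-- Same with a residue in `K`. -/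
theorem logPoleK_change {τ : Ω[F⁄K]} {a : K} {t t' : F} (ht : v.ord t = 1)
    (ht' : v.ord t' = 1) (h : 0 ≤ v.ordDifferential (τ - a • (t⁻¹ • D K F t))) :
    0 ≤ v.ordDifferential (τ - a • (t'⁻¹ • D K F t')) := by
  have h1 : τ - a • (t'⁻¹ • D K F t') = (τ - a • (t⁻¹ • D K F t))
      - a • (t'⁻¹ • D K F t' - t⁻¹ • D K F t) := by
    rw [smul_sub]
    abel
  rw [h1]
  exact regular_sub hL v h (regular_const_smul hL v a (regular_dlog_sub_dlog hL v ht ht'))

/-- A nonzero constant multiple of `dt / t` is not regular. -/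
theorem not_regular_const_smul_dlog {a : K} (ha : a ≠ 0) {t : F} (ht : v.ord t = 1) :
    ¬ 0 ≤ v.ordDifferential (a • (t⁻¹ • D K F t)) := by
  obtain ⟨h1, -⟩ := hL.unif v t ht
  have ht0 := ne_zero_of_ord_eq_one v ht
  have hne : t⁻¹ • D K F t ≠ 0 := smul_ne_zero (inv_ne_zero ht0) h1
  rw [← algebraMap_smul F a, ordDifferential_smul_eq hL v
    ((map_ne_zero (algebraMap K F)).mpr ha) hne, hL.ord_const v a,
    ordDifferential_dlog_unif hL v ht]
  norm_num

/-- The residue in `K` of a logarithmic pole is unique. -/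
theorem logPoleK_unique {τ : Ω[F⁄K]} {a a' : K} {t t' : F} (ht : v.ord t = 1)
    (ht' : v.ord t' = 1) (h : 0 ≤ v.ordDifferential (τ - a • (t⁻¹ • D K F t)))
    (h' : 0 ≤ v.ordDifferential (τ - a' • (t'⁻¹ • D K F t'))) : a = a' := by
  have h'' := logPoleK_change hL v ht' ht h'
  by_contra hne
  have h1 : (a' - a) • (t⁻¹ • D K F t)
      = (τ - a • (t⁻¹ • D K F t)) - (τ - a' • (t⁻¹ • D K F t)) := by
    rw [sub_smul]
    abel
  refine not_regular_const_smul_dlog hL v (sub_ne_zero.mpr (Ne.symm hne)) ht ?_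
  rw [h1]
  exact regular_sub hL v h h''

omit hL in
/-- Integer residues are residues in `K`. -/
theorem zsmul_eq_const_smul (m : ℤ) (ω : Ω[F⁄K]) : m • ω = (m : K) • ω := by
  rw [Int.cast_smul_eq_zsmul]

/-- A differential of order `≥ -1` at `v` has a logarithmic pole with a residue in `K`. -/
theorem exists_logPoleK {τ : Ω[F⁄K]} (hτ : -1 ≤ v.ordDifferential τ) {t : F}
    (ht : v.ord t = 1) : ∃ a : K, 0 ≤ v.ordDifferential (τ - a • (t⁻¹ • D K F t)) := by
  obtain ⟨hDt, hDt0⟩ := hL.unif v t ht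
  have ht0 := ne_zero_of_ord_eq_one v ht
  rcases eq_or_ne τ 0 with rfl | hτ0
  · refine ⟨0, ?_⟩
    rw [zero_smul, sub_zero]
    exact regular_zero hL v
  -- τ = c • D t
  set c : F := v.differentialCoeff τ * (v.differentialCoeff (D K F t))⁻¹ with hc
  have hcD : (v.differentialCoeff (D K F t)) ≠ 0 := fun h => hDt ((coeff_eq_zero_iff hL v).mp h)
  have hτc : τ = c • D K F t := by
    conv_lhs => rw [← coeff_smul_dCoord hL v τ]
    conv_rhs => rw [← coeff_smul_dCoord hL v (D K F t)]
    rw [smul_smul, hc, inv_mul_cancel_right₀ hcD]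
  have hc0 : c ≠ 0 := by
    rintro h0
    rw [h0, zero_smul] at hτc
    exact hτ0 hτc
  have hordc : -1 ≤ v.ord c := by
    have := ordDifferential_smul_eq hL v hc0 hDt
    rw [← hτc, hDt0, add_zero] at this
    rw [← this]
    exact hτ
  have hct : 0 ≤ v.ord (c * t) := by
    rw [v.ord_mul hc0 ht0, ht]
    omega
  obtain ⟨a, ha⟩ := hL.residue v (c * t) hct
  refine ⟨a, ?_⟩
  have h1 : τ - a • (t⁻¹ • D K F t) = ((c * t - algebraMap K F a) * t⁻¹) • D K F t := by
    rw [hτc, ← algebraMap_smul F a, smul_smul, ← sub_smul]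
    congr 1
    field_simp
  rw [h1]
  rcases ha with ha | ha
  · rw [ha, sub_self, zero_mul, zero_smul]
    exact regular_zero hL v
  · have hne : c * t - algebraMap K F a ≠ 0 := by
      rintro h0
      rw [h0] at ha
      simp at ha
    rw [ordDifferential_smul_eq hL v (mul_ne_zero hne (inv_ne_zero ht0)) hDt, hDt0,
      v.ord_mul hne (inv_ne_zero ht0), Place.ord_inv, ht]
    omega

omit hL in
/-- The residue of a differential with an exact simple pole is nonzero. -/
theorem logPoleK_ne_zero {τ : Ω[F⁄K]} (hτ : v.ordDifferential τ < 0) {a : K} {t : F}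
    (h : 0 ≤ v.ordDifferential (τ - a • (t⁻¹ • D K F t))) : a ≠ 0 := by
  rintro rfl
  rw [zero_smul, sub_zero] at h
  omega

end LogPole

end Fermat.Agent.P5.helper42
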