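import Fermat.Agent.P5.helper25_SurjInterface
import Fermat.Agent.P5.helper27_MonoBasic
import Fermat.Agent.P5.helper42_RRLoc

/-!
# P5 / SURJ-HOL (helper12, task 604): periods of holomorphic differentials

`HolPeriods M` from the additive existence statement of MONO-A for holomorphic differentials
(`AddHolExists M`): analytic additive primitives `G k` on the cut plane with constant jumps `p`
across the rays (the continuation across a ray point being analytic) and `p ∈ Z¹(ℂ)`.

For `s : ℂ` the functions `E k = exp (s G k)` are multiplicative primitives of `s • ω ∈ T₀`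
with jump cochain `exp (s p)`.
-/

set_option autoImplicit false
set_option linter.style.haveILetI false

open AlgebraicCurve Filter Topology KaehlerDifferential

namespace Fermat.Agent.P5.helper12

open Fermat.Agent.P5.helper25 Fermat.Agent.P5.helper27

noncomputable section

variable {F : Type} [Field F] [Algebra ℂ F]

/-- **The additive existence statement of MONO-A for holomorphic differentials**: analytic
additive primitives on the cut plane, with constant jumps forming a cocycle, the continuation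
across every ray point being analytic. -/
def AddHolExists (M : CutModel F) : Prop :=
  ∀ ω : Ω[F⁄ℂ], (∀ v : Place ℂ F, IsRegularAt v ω) →
    ∃ (G : Fin M.d → ℂ → ℂ) (p : Fin M.r → Fin M.d → ℂ),
      (∀ k, AnalyticOnNhd ℂ (G k) M.toCutGeometry.U₀) ∧
      (∀ k, ∀ z ∈ M.toCutGeometry.U₀, ∀ᶠ w in 𝓝[≠] z,
        HasDerivAt (G k) (M.ev k (M.coeff ω) w) w) ∧
      p ∈ M.permDatum.Z1 ℂ ∧
      ∀ (i : Fin M.r) (k : Fin M.d) (a : ℂ), a ∈ openRay M.z₀ (M.b i) →
        ∃ g : ℂ → ℂ, AnalyticAt ℂ g a ∧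
          (∀ᶠ z in 𝓝[≠] a, z ∈ leftSide M.z₀ (M.b i) → g z = G k z) ∧
          (∀ᶠ z in 𝓝[≠] a, z ∈ rightSide M.z₀ (M.b i) → g z = p i k + G (M.σ i k) z)

/-- the cocycles with complex coefficients are stable under complex multiples -/
theorem smul_mem_Z1 (P : PermDatum) (s : ℂ) {p : Fin P.r → Fin P.d → ℂ} (hp : p ∈ P.Z1 ℂ) :
    s • p ∈ P.Z1 ℂ := by
  obtain ⟨h1, h2⟩ := hp
  refine ⟨fun i k => ?_, fun k => ?_⟩
  · have e := h1 i k
    unfold PermDatum.vertexSum at e ⊢
    simp only [Pi.smul_apply, smul_eq_mul, ← Finset.mul_sum]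
    rw [e, mul_zero]
  · have e := h2 k
    unfold PermDatum.infSum at e ⊢
    simp only [Pi.smul_apply, smul_eq_mul, ← Finset.mul_sum]
    rw [e, mul_zero]

/-- the local setting of the function field of a cut model -/
theorem localSetting (M : CutModel F) : helper42.LocalSetting ℂ F :=
  haveI := M.x_finite
  helper42.LocalSetting.of_ff M.x M.x_transcendental

/-- complex multiples of holomorphic differentials have residue divisor `0` -/
theorem hasResidueDivisor_smul_of_regular (M : CutModel F) {ω : Ω[F⁄ℂ]}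
    (hω : ∀ v : Place ℂ F, IsRegularAt v ω) (s : ℂ) : HasResidueDivisor (s • ω) 0 := by
  intro v
  obtain ⟨t, ht⟩ := helper42.exists_ord_eq_one v
  refine ⟨t, ht, ?_⟩
  have h0 : ((0 : Divisor ℂ F) v : ℤ) = 0 := rfl
  rw [h0, zero_smul, sub_zero]
  exact helper42.regular_const_smul (localSetting M) v s (hω v)

variable (M : CutModel F)

theorem smul_mem_T₀_of_regular {ω : Ω[F⁄ℂ]} (hω : ∀ v : Place ℂ F, IsRegularAt v ω) (s : ℂ) :
    s • ω ∈ M.T₀ :=
  ⟨0, hasResidueDivisor_smul_of_regular M hω s, fun _ hv => absurd rfl hv⟩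

/-- the sheet functions of the coefficient of `s • ω` -/
theorem ev_coeff_const_smul (k : Fin M.d) (s : ℂ) (ω : Ω[F⁄ℂ]) {z : ℂ}
    (hz : z ∈ M.toCutGeometry.U₀) :
    ∀ᶠ w in 𝓝[≠] z, M.ev k (M.coeff (s • ω)) w = s * M.ev k (M.coeff ω) w := by
  have h1 : M.coeff (s • ω) = algebraMap ℂ F s * M.coeff ω := by
    rw [← algebraMap_smul F s ω]
    exact coeff_smul M _ _
  rw [h1]
  filter_upwards [M.ev_mul k (algebraMap ℂ F s) (M.coeff ω) z hz,
    eventually_ne_mem_U₀ M.toCutGeometry hz] with w hw hwU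
  rw [hw, M.ev_algebraMap k s hwU]

/-- `exp (s G)` is a system of multiplicative primitives of `s • ω` -/
theorem isMultPrim_exp {ω : Ω[F⁄ℂ]} {G : Fin M.d → ℂ → ℂ}
    (hG : ∀ k, AnalyticOnNhd ℂ (G k) M.toCutGeometry.U₀)
    (hder : ∀ k, ∀ z ∈ M.toCutGeometry.U₀, ∀ᶠ w in 𝓝[≠] z,
      HasDerivAt (G k) (M.ev k (M.coeff ω) w) w) (s : ℂ) :
    M.IsMultPrim (s • ω) (fun k z => Complex.exp (s * G k z)) := by
  intro k
  refine ⟨fun z hz => ?_, fun z hz => ?_⟩
  · have h1 : AnalyticAt ℂ (fun z => Complex.exp (s * G k z)) z :=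
      (analyticAt_const.mul (hG k z hz)).cexp
    exact h1.meromorphicAt
  · filter_upwards [hder k z hz, ev_coeff_const_smul M k s ω hz] with w hw1 hw2
    refine ⟨Complex.exp_ne_zero _, ?_⟩
    have h2 : HasDerivAt (fun z => Complex.exp (s * G k z))
        (Complex.exp (s * G k w) * (s * M.ev k (M.coeff ω) w)) w :=
      (hw1.const_mul s).cexp
    rw [hw2]
    convert h2 using 1
    ring

/-- `exp (s p)` is the jump cochain of `exp (s G)` -/
theorem isJumpOf_exp {G : Fin M.d → ℂ → ℂ} {p : Fin M.r → Fin M.d → ℂ}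
    (hjump : ∀ (i : Fin M.r) (k : Fin M.d) (a : ℂ), a ∈ openRay M.z₀ (M.b i) →
      ∃ g : ℂ → ℂ, AnalyticAt ℂ g a ∧
        (∀ᶠ z in 𝓝[≠] a, z ∈ leftSide M.z₀ (M.b i) → g z = G k z) ∧
        (∀ᶠ z in 𝓝[≠] a, z ∈ rightSide M.z₀ (M.b i) → g z = p i k + G (M.σ i k) z))
    (s : ℂ) :
    M.IsJumpOf (fun k z => Complex.exp (s * G k z)) (expCochain (s • p)) := by
  intro i k a ha
  obtain ⟨g, hg, hL, hR⟩ := hjump i k a ha
  refine ⟨fun z => Complex.exp (s * g z), ?_, ?_, ?_⟩
  · exact ((analyticAt_const.mul hg).cexp).meromorphicAt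
  · filter_upwards [hL] with z hz hzL
    rw [hz hzL]
  · filter_upwards [hR] with z hz hzR
    rw [hz hzR]
    have h1 : ((Additive.toMul (expCochain (s • p) i k) : ℂˣ) : ℂ) = Complex.exp (s * p i k) :=
      rfl
    rw [h1, ← Complex.exp_add]
    congr 1
    ring

/-- **[SURJ-2]** holomorphic differentials have period cochains, all of whose complex multiples
are log-jumps. -/
theorem holPeriods_of (hA : AddHolExists M) : HolPeriods M := by
  intro ω hω
  obtain ⟨G, p, hG, hder, hp, hjump⟩ := hA ω hω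
  refine ⟨p, ⟨G, fun k => ⟨fun z hz => (hG k z hz).meromorphicAt, hder k⟩, ?_⟩, fun s => ?_⟩
  · intro i k a ha
    obtain ⟨g, hg, hL, hR⟩ := hjump i k a ha
    exact ⟨g, hg.meromorphicAt, hL, hR⟩
  · exact ⟨smul_mem_Z1 M.permDatum s hp, s • ω, smul_mem_T₀_of_regular M hω s,
      fun k z => Complex.exp (s * G k z), isMultPrim_exp M hG hder s, isJumpOf_exp M hjump s⟩

end

end Fermat.Agent.P5.helper12
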