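import Mathlib

/-!
# P5 / MONO-2 (helper17): multiplicative and additive primitives of meromorphic functions

`U ⊆ ℂ` open, on which every holomorphic function has a primitive (hypothesis `hprim`).

* `exists_mulPrimitive` : a meromorphic `φ` with at most simple poles and integer residues `m z`
  is the logarithmic derivative of a meromorphic function `E` with divisor `m`;
* `mulPrimitive_unique` : `E` is unique up to a nonzero constant (`U` preconnected);
* `exists_addPrimitive`, `addPrimitive_unique` : the additive twins.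
-/

set_option autoImplicit false

open Filter Topology

namespace Fermat.Agent.P5.helper17

/-! ### Punctured discs and functions with vanishing derivative -/

/-- a punctured disc in `ℂ` is preconnected -/
lemma isPreconnected_ball_diff_singleton (z : ℂ) (r : ℝ) :
    IsPreconnected (Metric.ball z r \ {z}) := by
  rcases le_or_gt r 0 with hr | hr
  · rw [Metric.ball_eq_empty.mpr hr, Set.empty_sdiff]
    exact isPreconnected_empty
  · have h1 : IsPreconnected {u : ℂ | u.re < Real.log r} :=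
      (convex_halfSpace_re_lt (Real.log r)).isPreconnected
    have h2 : Metric.ball z r \ {z}
        = (fun u => z + Complex.exp u) '' {u : ℂ | u.re < Real.log r} := by
      ext w
      simp only [Set.mem_sdiff, Metric.mem_ball, Set.mem_singleton_iff, Set.mem_image,
        Set.mem_ofPred_eq]
      constructor
      · rintro ⟨hw, hwz⟩
        have hne : w - z ≠ 0 := sub_ne_zero.mpr hwz
        refine ⟨Complex.log (w - z), ?_, ?_⟩
        · rw [Complex.log_re]
          apply Real.log_lt_log (norm_pos_iff.mpr hne)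
          rwa [← dist_eq_norm]
        · rw [Complex.exp_log hne]; ring
      · rintro ⟨u, hu, rfl⟩
        refine ⟨?_, ?_⟩
        · rw [dist_eq_norm, add_sub_cancel_left, Complex.norm_exp]
          calc Real.exp u.re < Real.exp (Real.log r) := Real.exp_lt_exp.mpr hu
            _ = r := Real.exp_log hr
        · intro h
          have h0 : Complex.exp u = 0 := by
            have h' := congrArg (fun t => t - z) h
            simp at h'
          exact Complex.exp_ne_zero u h0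
    rw [h2]
    exact h1.image _ (by fun_prop : Continuous fun u => z + Complex.exp u).continuousOn

/-- local form: a function with vanishing derivative on punctured neighbourhoods is constant on
a punctured disc around every point -/
lemma exists_ball_const {U : Set ℂ} (hU : IsOpen U) {q : ℂ → ℂ}
    (hq : ∀ z ∈ U, ∀ᶠ w in 𝓝[≠] z, HasDerivAt q 0 w) {z : ℂ} (hz : z ∈ U) :
    ∃ r > 0, ∃ c : ℂ, Metric.ball z r ⊆ U ∧ ∀ w ∈ Metric.ball z r, w ≠ z → q w = c := by
  have h1 := hq z hz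
  rw [eventually_nhdsWithin_iff, Metric.eventually_nhds_iff] at h1
  obtain ⟨ε, hε, h1⟩ := h1
  obtain ⟨ε', hε', h2⟩ := Metric.isOpen_iff.mp hU z hz
  have hV : IsOpen (Metric.ball z (min ε ε') \ {z}) :=
    Metric.isOpen_ball.sdiff isClosed_singleton
  have hd : ∀ w ∈ Metric.ball z (min ε ε') \ {z}, HasDerivAt q 0 w := by
    intro w hw
    exact h1 (lt_of_lt_of_le (Metric.mem_ball.mp hw.1) (min_le_left _ _)) hw.2
  obtain ⟨c, hc⟩ := hV.exists_is_const_of_deriv_eq_zero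
    (isPreconnected_ball_diff_singleton z (min ε ε'))
    (fun w hw => (hd w hw).differentiableAt.differentiableWithinAt)
    (fun w hw => (hd w hw).deriv)
  exact ⟨min ε ε', lt_min hε hε', c,
    (Metric.ball_subset_ball (min_le_right _ _)).trans h2, fun w hw hwz => hc w ⟨hw, hwz⟩⟩

lemma isOpen_setOf_eventually {U : Set ℂ} {q : ℂ → ℂ}
    (hloc : ∀ z ∈ U, ∃ r > 0, ∃ c : ℂ, Metric.ball z r ⊆ U ∧
      ∀ w ∈ Metric.ball z r, w ≠ z → q w = c) (Q : ℂ → Prop) :
    IsOpen {z | z ∈ U ∧ ∀ᶠ w in 𝓝[≠] z, Q (q w)} := by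
  rw [Metric.isOpen_iff]
  rintro z ⟨hz, hQ⟩
  obtain ⟨r, hr, c, hrU, hc⟩ := hloc z hz
  have hball : ∀ᶠ w in 𝓝[≠] z, w ∈ Metric.ball z r :=
    mem_nhdsWithin_of_mem_nhds (Metric.ball_mem_nhds z hr)
  have hne : ∀ᶠ w in 𝓝[≠] z, w ≠ z := eventually_mem_nhdsWithin
  obtain ⟨w₀, hw₀Q, hw₀b, hw₀n⟩ := (hQ.and (hball.and hne)).exists
  have hQc : Q c := by rw [← hc w₀ hw₀b hw₀n]; exact hw₀Q
  refine ⟨r, hr, fun z' hz' => ⟨hrU hz', ?_⟩⟩
  by_cases hzz : z' = z
  · rw [hzz]; exact hQ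
  · have hopen : IsOpen (Metric.ball z r \ {z}) := Metric.isOpen_ball.sdiff isClosed_singleton
    have hmem : Metric.ball z r \ {z} ∈ 𝓝 z' := hopen.mem_nhds ⟨hz', hzz⟩
    have : ∀ᶠ w in 𝓝 z', Q (q w) := by
      filter_upwards [hmem] with w hw
      rw [hc w hw.1 hw.2]; exact hQc
    exact this.filter_mono nhdsWithin_le_nhds

/-- **Uniqueness core**: on a preconnected open set, a function whose derivative vanishes on
punctured neighbourhoods of all points is generically constant. -/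
theorem eventually_const_of_hasDerivAt_zero {U : Set ℂ} (hU : IsOpen U)
    (hconn : IsPreconnected U) {q : ℂ → ℂ}
    (hq : ∀ z ∈ U, ∀ᶠ w in 𝓝[≠] z, HasDerivAt q 0 w) :
    ∃ c : ℂ, ∀ z ∈ U, ∀ᶠ w in 𝓝[≠] z, q w = c := by
  rcases Set.eq_empty_or_nonempty U with hE | ⟨z₁, hz₁⟩
  · exact ⟨0, fun z hz => by rw [hE] at hz; exact absurd hz (Set.notMem_empty z)⟩
  have hloc := fun z hz => exists_ball_const hU hq (z := z) hz
  obtain ⟨r₁, hr₁, c₀, hr₁U, hc₀⟩ := hloc z₁ hz₁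
  refine ⟨c₀, ?_⟩
  have hu := isOpen_setOf_eventually hloc (fun t => t = c₀)
  have hv := isOpen_setOf_eventually hloc (fun t => t ≠ c₀)
  have hdisj : Disjoint {z | z ∈ U ∧ ∀ᶠ w in 𝓝[≠] z, q w = c₀}
      {z | z ∈ U ∧ ∀ᶠ w in 𝓝[≠] z, q w ≠ c₀} := by
    rw [Set.disjoint_left]
    rintro z ⟨-, h1⟩ ⟨-, h2⟩
    obtain ⟨w, hw1, hw2⟩ := (h1.and h2).exists
    exact hw2 hw1
  have hcov : U ⊆ {z | z ∈ U ∧ ∀ᶠ w in 𝓝[≠] z, q w = c₀} ∪
      {z | z ∈ U ∧ ∀ᶠ w in 𝓝[≠] z, q w ≠ c₀} := by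
    intro z hz
    obtain ⟨r, hr, c, -, hc⟩ := hloc z hz
    have hball : ∀ᶠ w in 𝓝[≠] z, w ∈ Metric.ball z r :=
      mem_nhdsWithin_of_mem_nhds (Metric.ball_mem_nhds z hr)
    have hne : ∀ᶠ w in 𝓝[≠] z, w ≠ z := eventually_mem_nhdsWithin
    by_cases hcc : c = c₀
    · left
      refine ⟨hz, ?_⟩
      filter_upwards [hball, hne] with w hw1 hw2
      rw [hc w hw1 hw2, hcc]
    · right
      refine ⟨hz, ?_⟩
      filter_upwards [hball, hne] with w hw1 hw2
      rw [hc w hw1 hw2]; exact hcc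
  have hne : (U ∩ {z | z ∈ U ∧ ∀ᶠ w in 𝓝[≠] z, q w = c₀}).Nonempty := by
    refine ⟨z₁, hz₁, hz₁, ?_⟩
    have hball : ∀ᶠ w in 𝓝[≠] z₁, w ∈ Metric.ball z₁ r₁ :=
      mem_nhdsWithin_of_mem_nhds (Metric.ball_mem_nhds z₁ hr₁)
    have hne : ∀ᶠ w in 𝓝[≠] z₁, w ≠ z₁ := eventually_mem_nhdsWithin
    filter_upwards [hball, hne] with w hw1 hw2
    exact hc₀ w hw1 hw2
  have := hconn.subset_left_of_subset_union hu hv hdisj hcov hne
  exact fun z hz => (this hz).2

/-! ### Holomorphic primitives of meromorphic functions without poles -/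

/-- a meromorphic function on `U` with non-negative orders has a holomorphic primitive on `U`
(generically) -/
theorem exists_analytic_primitive {U : Set ℂ} (hU : IsOpen U)
    (hprim : ∀ f : ℂ → ℂ, DifferentiableOn ℂ f U → ∃ g : ℂ → ℂ, ∀ z ∈ U, HasDerivAt g (f z) z)
    {ψ₀ : ℂ → ℂ} (hψ : MeromorphicOn ψ₀ U) (hord : ∀ z ∈ U, 0 ≤ meromorphicOrderAt ψ₀ z) :
    ∃ A : ℂ → ℂ, (∀ z ∈ U, AnalyticAt ℂ A z) ∧
      ∀ z ∈ U, ∀ᶠ w in 𝓝[≠] z, HasDerivAt A (ψ₀ w) w := by
  have han : ∀ z ∈ U, AnalyticAt ℂ (toMeromorphicNFOn ψ₀ U) z := by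
    intro z hz
    rw [← (meromorphicNFOn_toMeromorphicNFOn ψ₀ U hz).meromorphicOrderAt_nonneg_iff_analyticAt,
      meromorphicOrderAt_toMeromorphicNFOn hψ hz]
    exact hord z hz
  obtain ⟨A, hA⟩ := hprim (toMeromorphicNFOn ψ₀ U)
    (fun z hz => (han z hz).differentiableAt.differentiableWithinAt)
  have hAd : DifferentiableOn ℂ A U :=
    fun z hz => (hA z hz).differentiableAt.differentiableWithinAt
  refine ⟨A, fun z hz => hAd.analyticAt (hU.mem_nhds hz), fun z hz => ?_⟩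
  have h1 : ∀ᶠ w in 𝓝[≠] z, w ∈ U := mem_nhdsWithin_of_mem_nhds (hU.mem_nhds hz)
  filter_upwards [h1, hψ.toMeromorphicNFOn_eq_self_on_nhdsNE hz] with w hw hw'
  rw [← hw']
  exact hA w hw

/-! ### The rational factor -/

/-- the derivative of a finite product of integral powers of linear factors -/
lemma hasDerivAt_prod_zpow (S : Finset ℂ) (m : ℂ → ℤ) {w : ℂ} (hw : ∀ p ∈ S, w ≠ p) :
    HasDerivAt (fun v => ∏ p ∈ S, (v - p) ^ m p)
      ((∑ p ∈ S, (m p : ℂ) / (w - p)) * ∏ p ∈ S, (w - p) ^ m p) w := by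
  classical
  induction S using Finset.induction_on with
  | empty => simpa using hasDerivAt_const w (1 : ℂ)
  | insert a S ha ih =>
    have hwa : w - a ≠ 0 := sub_ne_zero.mpr (hw a (Finset.mem_insert_self a S))
    have ih' := ih (fun p hp => hw p (Finset.mem_insert_of_mem hp))
    have h1 : HasDerivAt (fun v : ℂ => (v - a) ^ m a) ((m a : ℂ) * (w - a) ^ (m a - 1)) w :=
      (hasDerivAt_zpow (m a) (w - a) (Or.inl hwa)).comp_sub_const w a
    have h4 : HasDerivAt (fun v => (v - a) ^ m a * ∏ p ∈ S, (v - p) ^ m p)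
        ((m a : ℂ) * (w - a) ^ (m a - 1) * ∏ p ∈ S, (w - p) ^ m p +
          (w - a) ^ m a * ((∑ p ∈ S, (m p : ℂ) / (w - p)) * ∏ p ∈ S, (w - p) ^ m p)) w :=
      h1.mul ih'
    have h5 : (fun v => ∏ p ∈ insert a S, (v - p) ^ m p)
        = fun v => (v - a) ^ m a * ∏ p ∈ S, (v - p) ^ m p := by
      funext v
      rw [Finset.prod_insert ha]
    rw [h5, Finset.sum_insert ha, Finset.prod_insert ha]
    refine h4.congr_deriv ?_
    rw [zpow_sub_one₀ hwa]
    field_simp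

lemma finprod_zpow_apply (m : ℂ → ℤ) (hm : {z | m z ≠ 0}.Finite) (w : ℂ) :
    (∏ᶠ u, (· - u) ^ m u : ℂ → ℂ) w = ∏ p ∈ hm.toFinset, (w - p) ^ m p := by
  have hm' : m.HasFiniteSupport := hm
  rw [Function.FactorizedRational.finprod_eq_fun hm']
  apply finprod_eq_prod_of_mulSupport_subset
  intro u hu
  simp only [Function.mem_mulSupport] at hu
  simp only [Set.Finite.coe_toFinset, Set.mem_ofPred_eq]
  intro h0
  apply hu
  rw [h0, zpow_zero]

/-! ### Multiplicative primitives -/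

/-- **MONO-2, existence** (multiplicative primitives). -/
theorem exists_mulPrimitive {U : Set ℂ} {z₀ : ℂ} (hU : IsOpen U) (hstar : StarConvex ℝ z₀ U)
    (hprim : ∀ f : ℂ → ℂ, DifferentiableOn ℂ f U → ∃ g : ℂ → ℂ, ∀ z ∈ U, HasDerivAt g (f z) z)
    {φ : ℂ → ℂ} (hφ : MeromorphicOn φ U) (m : ℂ → ℤ) (hm : {z | m z ≠ 0}.Finite)
    (hres : ∀ z ∈ U, 0 ≤ meromorphicOrderAt (fun w => φ w - (m z : ℂ) / (w - z)) z) :
    ∃ E : ℂ → ℂ, MeromorphicOn E U ∧ (∀ z ∈ U, meromorphicOrderAt E z = ((m z : ℤ) : WithTop ℤ)) ∧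
      (∀ z ∈ U, m z = 0 → AnalyticAt ℂ E z ∧ E z ≠ 0) ∧
      ∀ z ∈ U, ∀ᶠ w in 𝓝[≠] z, E w ≠ 0 ∧ HasDerivAt E (φ w * E w) w := by
  classical
  have _ := hstar
  have hSmem : ∀ p, p ∈ hm.toFinset ↔ m p ≠ 0 := fun p => by
    simp only [Set.Finite.mem_toFinset, Set.mem_ofPred_eq]
  have hm' : m.HasFiniteSupport := hm
  -- the regular part of `φ`
  have hterm_mer : ∀ p z : ℂ, MeromorphicAt (fun w : ℂ => (m p : ℂ) / (w - p)) z := by
    intro p z
    exact (MeromorphicAt.const _ z).div ((MeromorphicAt.id z).sub (MeromorphicAt.const p z))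
  have hterm_an : ∀ p z : ℂ, z ≠ p → AnalyticAt ℂ (fun w : ℂ => (m p : ℂ) / (w - p)) z := by
    intro p z hz
    exact analyticAt_const.div (analyticAt_id.sub analyticAt_const) (sub_ne_zero.mpr hz)
  have hψmer : MeromorphicOn (fun w => φ w - ∑ p ∈ hm.toFinset, (m p : ℂ) / (w - p)) U :=
    fun z hz => (hφ z hz).sub (MeromorphicAt.fun_sum (fun p _ => hterm_mer p z))
  have hψord : ∀ z ∈ U, 0 ≤ meromorphicOrderAt
      (fun w => φ w - ∑ p ∈ hm.toFinset, (m p : ℂ) / (w - p)) z := by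
    intro z hz
    have heq : (fun w => φ w - ∑ p ∈ hm.toFinset, (m p : ℂ) / (w - p))
        = (fun w => φ w - (m z : ℂ) / (w - z))
          + (fun w => - ∑ p ∈ hm.toFinset.erase z, (m p : ℂ) / (w - p)) := by
      funext w
      simp only [Pi.add_apply]
      by_cases hzS : z ∈ hm.toFinset
      · rw [← Finset.add_sum_erase hm.toFinset _ hzS]; ring
      · have h0 : m z = 0 := by
          by_contra h; exact hzS ((hSmem z).mpr h)
        rw [Finset.erase_eq_of_notMem hzS, h0]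
        simp only [Int.cast_zero, zero_div, sub_zero]
        ring
    rw [heq]
    have h2 : AnalyticAt ℂ (fun w => - ∑ p ∈ hm.toFinset.erase z, (m p : ℂ) / (w - p)) z := by
      apply AnalyticAt.neg
      apply Finset.analyticAt_fun_sum
      intro p hp
      exact hterm_an p z (Finset.ne_of_mem_erase hp).symm
    exact le_trans (le_min (hres z hz) h2.meromorphicOrderAt_nonneg)
      (meromorphicOrderAt_add ((hφ z hz).sub (hterm_mer z z)) h2.meromorphicAt)
  obtain ⟨A, hAan, hAder⟩ := exists_analytic_primitive hU hprim hψmer hψord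
  have hexp_an : ∀ z ∈ U, AnalyticAt ℂ (fun w => Complex.exp (A w)) z :=
    fun z hz => (hAan z hz).cexp
  have hRmer : ∀ z : ℂ, MeromorphicAt (∏ᶠ u, (· - u) ^ m u : ℂ → ℂ) z :=
    fun z => (Function.FactorizedRational.meromorphicNFOn m Set.univ).meromorphicOn z
      (Set.mem_univ z)
  refine ⟨fun w => (∏ᶠ u, (· - u) ^ m u : ℂ → ℂ) w * Complex.exp (A w), ?_, ?_, ?_, ?_⟩
  · intro z hz
    exact (hRmer z).mul (hexp_an z hz).meromorphicAt
  · intro z hz
    have hmul : (fun w => (∏ᶠ u, (· - u) ^ m u : ℂ → ℂ) w * Complex.exp (A w))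
        = (∏ᶠ u, (· - u) ^ m u : ℂ → ℂ) * fun w => Complex.exp (A w) := rfl
    rw [hmul, meromorphicOrderAt_mul (hRmer z) (hexp_an z hz).meromorphicAt,
      Function.FactorizedRational.meromorphicOrderAt_eq m hm',
      ((hexp_an z hz).meromorphicNFAt.meromorphicOrderAt_eq_zero_iff).mpr
        (Complex.exp_ne_zero _), add_zero]
  · intro z hz hmz
    refine ⟨(Function.FactorizedRational.analyticAt (le_of_eq hmz.symm)).mul (hexp_an z hz),
      mul_ne_zero (Function.FactorizedRational.ne_zero hmz) (Complex.exp_ne_zero _)⟩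
  · intro z hz
    have h1 : ∀ᶠ w in 𝓝[≠] z, w ∉ ((hm.toFinset.erase z : Finset ℂ) : Set ℂ) := by
      apply mem_nhdsWithin_of_mem_nhds
      exact (hm.toFinset.erase z).finite_toSet.isClosed.isOpen_compl.mem_nhds
        (by simp)
    have h2 : ∀ᶠ w in 𝓝[≠] z, w ≠ z := eventually_mem_nhdsWithin
    filter_upwards [h1, h2, hAder z hz] with w hw1 hw2 hw3
    have hwS : ∀ p ∈ hm.toFinset, w ≠ p := by
      intro p hp hwp
      by_cases hpz : p = z
      · exact hw2 (hwp.trans hpz)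
      · exact hw1 (by rw [hwp]; exact Finset.mem_coe.mpr (Finset.mem_erase.mpr ⟨hpz, hp⟩))
    have hfun : (fun w => (∏ᶠ u, (· - u) ^ m u : ℂ → ℂ) w * Complex.exp (A w))
        = fun w => (∏ p ∈ hm.toFinset, (w - p) ^ m p) * Complex.exp (A w) := by
      funext v
      rw [finprod_zpow_apply m hm]
    have hP : ∏ p ∈ hm.toFinset, (w - p) ^ m p ≠ 0 :=
      Finset.prod_ne_zero_iff.mpr fun p hp => zpow_ne_zero _ (sub_ne_zero.mpr (hwS p hp))
    have hRw : (∏ᶠ u, (· - u) ^ m u : ℂ → ℂ) w = ∏ p ∈ hm.toFinset, (w - p) ^ m p :=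
      finprod_zpow_apply m hm w
    simp only [hRw]
    refine ⟨mul_ne_zero hP (Complex.exp_ne_zero _), ?_⟩
    rw [hfun]
    refine ((hasDerivAt_prod_zpow hm.toFinset m hwS).mul hw3.cexp).congr_deriv ?_
    ring

/-- **MONO-2, uniqueness** (multiplicative primitives). -/
theorem mulPrimitive_unique {U : Set ℂ} (hU : IsOpen U) (hconn : IsPreconnected U)
    {φ E₁ E₂ : ℂ → ℂ} (h₁ : MeromorphicOn E₁ U) (h₂ : MeromorphicOn E₂ U)
    (hE₁ : ∀ z ∈ U, ∀ᶠ w in 𝓝[≠] z, E₁ w ≠ 0 ∧ HasDerivAt E₁ (φ w * E₁ w) w)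
    (hE₂ : ∀ z ∈ U, ∀ᶠ w in 𝓝[≠] z, E₂ w ≠ 0 ∧ HasDerivAt E₂ (φ w * E₂ w) w) :
    ∃ c : ℂˣ, ∀ z ∈ U, ∀ᶠ w in 𝓝[≠] z, E₂ w = c * E₁ w := by
  have _ := h₁
  have _ := h₂
  have hq : ∀ z ∈ U, ∀ᶠ w in 𝓝[≠] z, HasDerivAt (fun v => E₂ v / E₁ v) 0 w := by
    intro z hz
    filter_upwards [hE₁ z hz, hE₂ z hz] with w h1 h2
    refine (h2.2.div h1.2 h1.1).congr_deriv ?_
    have : φ w * E₂ w * E₁ w - E₂ w * (φ w * E₁ w) = 0 := by ring
    rw [this, zero_div]
  obtain ⟨c, hc⟩ := eventually_const_of_hasDerivAt_zero hU hconn hq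
  rcases Set.eq_empty_or_nonempty U with hE | ⟨z₁, hz₁⟩
  · exact ⟨1, fun z hz => by rw [hE] at hz; exact absurd hz (Set.notMem_empty z)⟩
  have hc0 : c ≠ 0 := by
    obtain ⟨w, hw1, hw2, hw3⟩ := ((hc z₁ hz₁).and ((hE₁ z₁ hz₁).and (hE₂ z₁ hz₁))).exists
    rw [← hw1]
    exact div_ne_zero hw3.1 hw2.1
  refine ⟨Units.mk0 c hc0, fun z hz => ?_⟩
  filter_upwards [hc z hz, hE₁ z hz] with w hw1 hw2
  rw [Units.val_mk0, ← hw1, div_mul_cancel₀ _ hw2.1]

/-! ### Additive primitives -/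

/-- **MONO-2, uniqueness** (additive primitives). -/
theorem addPrimitive_unique {U : Set ℂ} (hU : IsOpen U) (hconn : IsPreconnected U)
    {φ G₁ G₂ : ℂ → ℂ} (h₁ : MeromorphicOn G₁ U) (h₂ : MeromorphicOn G₂ U)
    (hG₁ : ∀ z ∈ U, ∀ᶠ w in 𝓝[≠] z, HasDerivAt G₁ (φ w) w)
    (hG₂ : ∀ z ∈ U, ∀ᶠ w in 𝓝[≠] z, HasDerivAt G₂ (φ w) w) :
    ∃ c : ℂ, ∀ z ∈ U, ∀ᶠ w in 𝓝[≠] z, G₂ w = G₁ w + c := by
  have _ := h₁
  have _ := h₂
  have hq : ∀ z ∈ U, ∀ᶠ w in 𝓝[≠] z, HasDerivAt (fun v => G₂ v - G₁ v) 0 w := by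
    intro z hz
    filter_upwards [hG₁ z hz, hG₂ z hz] with w h1 h2
    exact (h2.sub h1).congr_deriv (sub_self _)
  obtain ⟨c, hc⟩ := eventually_const_of_hasDerivAt_zero hU hconn hq
  refine ⟨c, fun z hz => ?_⟩
  filter_upwards [hc z hz] with w hw
  rw [← hw]; ring

/-- polar part: for `a` analytic at `p`, the function `a w / (w - p) ^ n` is, off `p`, the sum
of a function `h` analytic on `ℂ \ {p}` and meromorphic at `p`, and a function `b` analytic
at `p` -/
lemma exists_polar_part (p : ℂ) (n : ℕ) : ∀ a : ℂ → ℂ, AnalyticAt ℂ a p →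
    ∃ h b : ℂ → ℂ, (∀ z, z ≠ p → AnalyticAt ℂ h z) ∧ MeromorphicAt h p ∧ AnalyticAt ℂ b p ∧
      ∀ w, w ≠ p → a w / (w - p) ^ n = h w + b w := by
  induction n with
  | zero =>
    intro a ha
    exact ⟨fun _ => 0, a, fun _ _ => analyticAt_const, MeromorphicAt.const 0 p, ha,
      fun w _ => by simp⟩
  | succ n ih =>
    intro a ha
    have ha1 : AnalyticAt ℂ (dslope a p) p := by
      obtain ⟨q, hq⟩ := ha
      exact ⟨_, hq.has_fpower_series_dslope_fslope⟩
    obtain ⟨h₁, b₁, hh₁, hm₁, hb₁, heq₁⟩ := ih (dslope a p) ha1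
    refine ⟨fun w => a p / (w - p) ^ (n + 1) + h₁ w, b₁, ?_, ?_, hb₁, ?_⟩
    · intro z hz
      exact (analyticAt_const.div ((analyticAt_id.sub analyticAt_const).pow _)
        (pow_ne_zero _ (sub_ne_zero.mpr hz))).add (hh₁ z hz)
    · exact ((MeromorphicAt.const _ p).div
        (((MeromorphicAt.id p).sub (MeromorphicAt.const p p)).pow _)).add hm₁
    · intro w hw
      have hwp : w - p ≠ 0 := sub_ne_zero.mpr hw
      have h1 : a w = a p + (w - p) * dslope a p w := by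
        rw [dslope_of_ne _ hw, slope_def_field]
        field_simp
        ring
      rw [add_assoc, ← heq₁ w hw]
      conv_lhs => rw [h1]
      field_simp
      ring

/-- **MONO-2, existence** (additive primitives). -/
theorem exists_addPrimitive {U : Set ℂ} (hU : IsOpen U)
    (hprim : ∀ f : ℂ → ℂ, DifferentiableOn ℂ f U → ∃ g : ℂ → ℂ, ∀ z ∈ U, HasDerivAt g (f z) z)
    {φ : ℂ → ℂ} (hφ : MeromorphicOn φ U) (P : Set ℂ) (hP : P.Finite)
    (hord : ∀ z ∈ U, z ∉ P → 0 ≤ meromorphicOrderAt φ z)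
    (hloc : ∀ z ∈ U, z ∈ P → ∃ g : ℂ → ℂ, MeromorphicAt g z ∧
      ∀ᶠ w in 𝓝[≠] z, HasDerivAt g (φ w) w) :
    ∃ G : ℂ → ℂ, MeromorphicOn G U ∧ ∀ z ∈ U, ∀ᶠ w in 𝓝[≠] z, HasDerivAt G (φ w) w := by
  classical
  -- local polar parts
  have hpol : ∀ p : ℂ, ∃ h : ℂ → ℂ, (∀ z, z ≠ p → AnalyticAt ℂ h z) ∧ MeromorphicAt h p ∧
      (p ∈ U → p ∈ P → ∃ b : ℂ → ℂ, AnalyticAt ℂ b p ∧
        ∀ᶠ w in 𝓝[≠] p, HasDerivAt b (φ w - deriv h w) w) := by
    intro p
    by_cases hp : p ∈ U ∧ p ∈ P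
    · obtain ⟨g, hg, hgd⟩ := hloc p hp.1 hp.2
      obtain ⟨n, hn⟩ := hg
      obtain ⟨h, b, hh, hm, hb, heq⟩ := exists_polar_part p n _ hn
      refine ⟨h, hh, hm, fun _ _ => ⟨b, hb, ?_⟩⟩
      have hne : ∀ᶠ w in 𝓝[≠] p, w ≠ p := eventually_mem_nhdsWithin
      filter_upwards [hgd, hne] with w hw1 hw2
      have hbeq : b =ᶠ[𝓝 w] fun v => g v - h v := by
        have hopen : ∀ᶠ v in 𝓝 w, v ≠ p := isOpen_ne.mem_nhds hw2
        filter_upwards [hopen] with v hv
        have h3 := heq v hv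
        have hvp : (v - p) ^ n ≠ 0 := pow_ne_zero _ (sub_ne_zero.mpr hv)
        rw [smul_eq_mul, mul_div_cancel_left₀ _ hvp] at h3
        rw [h3]; ring
      exact (hw1.sub (hh w hw2).differentiableAt.hasDerivAt).congr_of_eventuallyEq hbeq
    · exact ⟨fun _ => 0, fun _ _ => analyticAt_const, MeromorphicAt.const 0 p,
        fun h1 h2 => absurd ⟨h1, h2⟩ hp⟩
  choose h hh hm hb using hpol
  have hmer : ∀ p z : ℂ, MeromorphicAt (h p) z := by
    intro p z
    by_cases hzp : z = p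
    · rw [hzp]; exact hm p
    · exact (hh p z hzp).meromorphicAt
  have hPmem : ∀ p, p ∈ hP.toFinset.filter (· ∈ U) ↔ p ∈ P ∧ p ∈ U := fun p => by
    simp only [Finset.mem_filter, Set.Finite.mem_toFinset]
  have hψmer : MeromorphicOn
      (fun w => φ w - ∑ p ∈ hP.toFinset.filter (· ∈ U), deriv (h p) w) U :=
    fun z hz => (hφ z hz).sub (MeromorphicAt.fun_sum (fun p _ => (hmer p z).deriv))
  have hψord : ∀ z ∈ U, 0 ≤ meromorphicOrderAt
      (fun w => φ w - ∑ p ∈ hP.toFinset.filter (· ∈ U), deriv (h p) w) z := by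
    intro z hz
    have h2 : AnalyticAt ℂ
        (fun w => - ∑ p ∈ (hP.toFinset.filter (· ∈ U)).erase z, deriv (h p) w) z := by
      apply AnalyticAt.neg
      apply Finset.analyticAt_fun_sum
      intro p hp
      exact (hh p z (Finset.ne_of_mem_erase hp).symm).deriv
    by_cases hzP : z ∈ P
    · have hzS : z ∈ hP.toFinset.filter (· ∈ U) := (hPmem z).mpr ⟨hzP, hz⟩
      have heq : (fun w => φ w - ∑ p ∈ hP.toFinset.filter (· ∈ U), deriv (h p) w)
          = (fun w => φ w - deriv (h z) w)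
            + (fun w => - ∑ p ∈ (hP.toFinset.filter (· ∈ U)).erase z, deriv (h p) w) := by
        funext w
        simp only [Pi.add_apply]
        rw [← Finset.add_sum_erase _ _ hzS]; ring
      obtain ⟨b, hban, hbd⟩ := hb z hz hzP
      have h3 : (fun w => φ w - deriv (h z) w) =ᶠ[𝓝[≠] z] deriv b := by
        filter_upwards [hbd] with w hw
        exact hw.deriv.symm
      have h4 : 0 ≤ meromorphicOrderAt (fun w => φ w - deriv (h z) w) z := by
        rw [meromorphicOrderAt_congr h3]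
        exact hban.deriv.meromorphicOrderAt_nonneg
      rw [heq]
      exact le_trans (le_min h4 h2.meromorphicOrderAt_nonneg)
        (meromorphicOrderAt_add ((hφ z hz).sub (hmer z z).deriv) h2.meromorphicAt)
    · have hzS : z ∉ hP.toFinset.filter (· ∈ U) := fun hc => hzP ((hPmem z).mp hc).1
      have heq : (fun w => φ w - ∑ p ∈ hP.toFinset.filter (· ∈ U), deriv (h p) w)
          = φ + (fun w => - ∑ p ∈ (hP.toFinset.filter (· ∈ U)).erase z, deriv (h p) w) := by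
        funext w
        simp only [Pi.add_apply]
        rw [Finset.erase_eq_of_notMem hzS]; ring
      rw [heq]
      exact le_trans (le_min (hord z hz hzP) h2.meromorphicOrderAt_nonneg)
        (meromorphicOrderAt_add (hφ z hz) h2.meromorphicAt)
  obtain ⟨A, hAan, hAder⟩ := exists_analytic_primitive hU hprim hψmer hψord
  refine ⟨fun w => A w + ∑ p ∈ hP.toFinset.filter (· ∈ U), h p w, ?_, ?_⟩
  · intro z hz
    exact (hAan z hz).meromorphicAt.add (MeromorphicAt.fun_sum (fun p _ => hmer p z))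
  · intro z hz
    have h1 : ∀ᶠ w in 𝓝[≠] z,
        w ∉ (((hP.toFinset.filter (· ∈ U)).erase z : Finset ℂ) : Set ℂ) := by
      apply mem_nhdsWithin_of_mem_nhds
      exact ((hP.toFinset.filter (· ∈ U)).erase z).finite_toSet.isClosed.isOpen_compl.mem_nhds
        (by simp)
    have h2 : ∀ᶠ w in 𝓝[≠] z, w ≠ z := eventually_mem_nhdsWithin
    filter_upwards [h1, h2, hAder z hz] with w hw1 hw2 hw3
    have hwS : ∀ p ∈ hP.toFinset.filter (· ∈ U), w ≠ p := by
      intro p hp hwp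
      by_cases hpz : p = z
      · exact hw2 (hwp.trans hpz)
      · exact hw1 (by rw [hwp]; exact Finset.mem_coe.mpr (Finset.mem_erase.mpr ⟨hpz, hp⟩))
    have hsum : HasDerivAt (fun v => ∑ p ∈ hP.toFinset.filter (· ∈ U), h p v)
        (∑ p ∈ hP.toFinset.filter (· ∈ U), deriv (h p) w) w :=
      HasDerivAt.fun_sum (fun p hp => (hh p w (hwS p hp)).differentiableAt.hasDerivAt)
    exact (hw3.add hsum).congr_deriv (by ring)

end Fermat.Agent.P5.helper17
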