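/-
P5 / S27 (helper25, architect): interface of module SURJ.

`SurjAt M` (every multiplicative cocycle is the jump cochain of a differential of the third
kind) is reduced to four package statements:

* `AddKernel M`   : additive primitives with coboundary jumps come from a function;
* `HolPeriods M`  : holomorphic differentials have additive primitives and periods, and all
                    complex multiples of their periods are log-jumps;
* `FamilyStatement M` : for infinitely many interior places `P` there is a one-parameter family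
                    of log-jumps whose derivative is the period cochain of a differential of the
                    second kind with a double pole at `P`;
* `IndepStatement M` : periods of second-kind differentials at a non-special divisor, periods of
                    holomorphic differentials and coboundaries span the space of cocycles;

plus the open-subgroup lemma (inverse function theorem).
-/
import Mathlib
import Fermat.Agent.P5.helper25_RHInterface

set_option autoImplicit false
set_option linter.style.haveILetI false

open AlgebraicCurve Filter Topology KaehlerDifferential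

namespace Fermat.Agent.P5.helper25

noncomputable section

variable {F : Type} [Field F] [Algebra ℂ F]

/-- The exponential of a complex cochain. -/
def expCochain {r d : ℕ} (l : Fin r → Fin d → ℂ) : Fin r → Fin d → Additive ℂˣ :=
  fun i k => helper56.expAdd (l i k)

/-- The set of log-jumps of a cut model: the complex cocycles `l` such that `exp l` is the
jump cochain of (some system of multiplicative primitives of) a differential in `T₀`. -/
def CutModel.logJumps (M : CutModel F) : Set (Fin M.r → Fin M.d → ℂ) :=
  {l | l ∈ M.permDatum.Z1 ℂ ∧ ∃ τ ∈ M.T₀, ∃ E : Fin M.d → ℂ → ℂ,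
    M.IsMultPrim τ E ∧ M.IsJumpOf E (expCochain l)}

/-- `η` is a differential of the second kind with a double pole at `P` and no other pole. -/
def IsSecondKindAt (P : Place ℂ F) (η : Ω[F⁄ℂ]) : Prop :=
  P.ordDifferential η = -2 ∧ ∀ v : Place ℂ F, v ≠ P → IsRegularAt v η

/-- `p` is a period cochain of `η`: the jump cochain of a system of additive primitives. -/
def CutModel.IsPeriodOf (M : CutModel F) (η : Ω[F⁄ℂ]) (p : Fin M.r → Fin M.d → ℂ) : Prop :=
  ∃ G : Fin M.d → ℂ → ℂ, M.IsAddPrim η G ∧ M.IsAddJumpOf G p

/-- **[MONO-A]** additive primitives with coboundary jumps come from a function (for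
differentials which are regular outside the interior places). -/
def AddKernel (M : CutModel F) : Prop :=
  ∀ (η : Ω[F⁄ℂ]) (p : Fin M.r → Fin M.d → ℂ),
    (∀ v : Place ℂ F, v ∉ M.interior → IsRegularAt v η) → M.IsPeriodOf η p →
    p ∈ M.permDatum.B1 ℂ → ∃ h : F, η = KaehlerDifferential.D ℂ F h

/-- **[SURJ-2]** holomorphic differentials have period cochains, which are cocycles, and all
complex multiples of a period cochain of a holomorphic differential are log-jumps. -/
def HolPeriods (M : CutModel F) : Prop :=
  ∀ ω : Ω[F⁄ℂ], (∀ v : Place ℂ F, IsRegularAt v ω) →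
    ∃ p : Fin M.r → Fin M.d → ℂ, M.IsPeriodOf ω p ∧ ∀ s : ℂ, s • p ∈ M.logJumps

/-- **[SURJ-3/4]** the family at the place `P`. -/
def FamilyAt (M : CutModel F) (P : Place ℂ F) : Prop :=
  ∃ (a : ℂ) (η : Ω[F⁄ℂ]) (p : Fin M.r → Fin M.d → ℂ) (L : ℂ → Fin M.r → Fin M.d → ℂ),
    IsSecondKindAt P η ∧ M.IsPeriodOf η p ∧ (∀ᶠ t in 𝓝 a, L t ∈ M.logJumps) ∧
      HasStrictDerivAt L p a

/-- **[SURJ-3/4]** families exist at infinitely many interior places. -/
def FamilyStatement (M : CutModel F) : Prop :=
  ∃ A : Set (Place ℂ F), A.Infinite ∧ A ⊆ M.interior ∧ ∀ P ∈ A, FamilyAt M P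

/-- **[SURJ-5]** independence. -/
def IndepStatement (M : CutModel F) : Prop :=
  ∀ (P : Fin (genusFF ℂ F) → Place ℂ F) (η ω : Fin (genusFF ℂ F) → Ω[F⁄ℂ])
    (p q : Fin (genusFF ℂ F) → Fin M.r → Fin M.d → ℂ),
    Function.Injective P → (∀ j, P j ∈ M.interior) →
    (∀ f : F, f ≠ 0 → (∀ v, (∃ j, P j = v) → -1 ≤ v.ord f) →
      (∀ v, (¬ ∃ j, P j = v) → 0 ≤ v.ord f) → ∃ c : ℂ, f = algebraMap ℂ F c) →
    (∀ j, IsSecondKindAt (P j) (η j)) → (∀ j, M.IsPeriodOf (η j) (p j)) →
    LinearIndependent ℂ ω → (∀ i v, IsRegularAt v (ω i)) → (∀ i, M.IsPeriodOf (ω i) (q i)) →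
    ∀ l ∈ M.permDatum.Z1 ℂ, ∃ (v s : Fin (genusFF ℂ F) → ℂ) (e : Fin M.d → ℂ),
      ∀ i k, l i k = (∑ j, v j * p j i k) + (∑ j, s j * q j i k) + (e k - e (M.σ i k))

/-- The package statements of module SURJ, for all cut models. -/
structure SurjPackages : Prop where
  addKernel : ∀ (F : Type) [Field F] [Algebra ℂ F] [IsCurveOver ℂ F] [Algebra.EssFiniteType ℂ F]
    (M : CutModel F), AddKernel M
  holPeriods : ∀ (F : Type) [Field F] [Algebra ℂ F] [IsCurveOver ℂ F]
    [Algebra.EssFiniteType ℂ F] (M : CutModel F), HolPeriods M
  family : ∀ (F : Type) [Field F] [Algebra ℂ F] [IsCurveOver ℂ F] [Algebra.EssFiniteType ℂ F]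
    (M : CutModel F), FamilyStatement M
  indep : ∀ (F : Type) [Field F] [Algebra ℂ F] [IsCurveOver ℂ F] [Algebra.EssFiniteType ℂ F]
    (M : CutModel F), IndepStatement M

end

end Fermat.Agent.P5.helper25
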