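/-
P5 / S27 (helper25, architect): module SURJ, the interface between the ALGEBRAIC construction of
the family `τ_t` of differentials of the third kind (package FAM-ALG) and the ANALYSIS of its
log-jumps (package FAM-AN).

For an interior place `P₁ = pl k a₁` the family has the shape

  `τ_t = ∑_{m < N} c_m(t) • ((x - t)⁻¹ * y ^ m) • dx  -  ∑_{ν < n} u_ν(t) • θ_ν`,

with scalar functions `c_m`, `u_ν` analytic near `a₁` and FIXED `y ∈ F`, `θ_ν ∈ Ω`; `τ_t` has residue
divisor `(pl k t) - P₀`; the formal derivative `η` of the family at `t = a₁` is of the second kind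
with a double pole at `P₁`.
-/
import Mathlib
import Fermat.Agent.P5.helper25_SurjInterface

set_option autoImplicit false
set_option linter.style.haveILetI false

open AlgebraicCurve Filter Topology KaehlerDifferential

namespace Fermat.Agent.P5.helper25

noncomputable section

variable {F : Type} [Field F] [Algebra ℂ F]

/-- The data of an algebraic family of differentials of the third kind with a moving pole
near the interior place `pl k a₁`. -/
structure AlgFamily (M : CutModel F) (k : Fin M.d) (a₁ : ℂ) where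
  /-- the radius of the parameter disc -/
  ε : ℝ
  ε_pos : 0 < ε
  ball_subset : Metric.closedBall a₁ ε ⊆ M.toCutGeometry.U₀
  /-- the fixed second pole `P₀ = pl k₀ a₀` -/
  k₀ : Fin M.d
  a₀ : ℂ
  a₀_mem : a₀ ∈ M.toCutGeometry.U₀
  a₀_notMem : a₀ ∉ Metric.closedBall a₁ ε
  /-- the fixed pole does not lie over the centre of the star (the paths of integration start
  at the centre) -/
  a₀_ne_base : a₀ ≠ M.toCutGeometry.z₀
  /-- the interpolating function -/
  y : F
  /-- the number of Cauchy kernel terms (`N = d` in the construction) -/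
  N : ℕ
  /-- the number of correction terms -/
  n : ℕ
  /-- the coefficients of the interpolation polynomial `g_t` -/
  c : Fin N → ℂ → ℂ
  /-- the coefficients of the correction terms -/
  u : Fin n → ℂ → ℂ
  /-- the fixed correction differentials -/
  θ : Fin n → Ω[F⁄ℂ]
  c_differentiableOn : ∀ m, DifferentiableOn ℂ (c m) (Metric.ball a₁ ε)
  u_differentiableOn : ∀ ν, DifferentiableOn ℂ (u ν) (Metric.ball a₁ ε)

namespace AlgFamily

variable {M : CutModel F} {k : Fin M.d} {a₁ : ℂ} (A : AlgFamily M k a₁)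

/-- The Cauchy kernel term `(x - t)⁻¹ * y ^ m • dx`. -/
def kernel (t : ℂ) (m : ℕ) : Ω[F⁄ℂ] :=
  ((M.x - algebraMap ℂ F t)⁻¹ * A.y ^ m) • KaehlerDifferential.D ℂ F M.x

/-- The derivative of the Cauchy kernel term with respect to `t`:
`(x - t)⁻² * y ^ m • dx`. -/
def kernel' (t : ℂ) (m : ℕ) : Ω[F⁄ℂ] :=
  (((M.x - algebraMap ℂ F t)⁻¹) ^ 2 * A.y ^ m) • KaehlerDifferential.D ℂ F M.x

/-- The family `τ_t`. -/
def τ (t : ℂ) : Ω[F⁄ℂ] :=
  (∑ m : Fin A.N, A.c m t • A.kernel t m) - ∑ ν : Fin A.n, A.u ν t • A.θ ν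

/-- The formal derivative of the family at `t`. -/
def η (t : ℂ) : Ω[F⁄ℂ] :=
  (∑ m : Fin A.N, (deriv (A.c m) t • A.kernel t m + A.c m t • A.kernel' t m))
    - ∑ ν : Fin A.n, deriv (A.u ν) t • A.θ ν

/-- The fixed pole. -/
def P₀ : Place ℂ F := M.pl A.k₀ A.a₀

/-- The family is a family of differentials of the third kind with residue divisor
`(pl k t) - P₀`, and its derivative at `a₁` is of the second kind with a double pole at
`pl k a₁`; the interpolating function `y` has poles only over `∞`, and the correction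
differentials `θ ν` have poles only over `∞` and at `P₀`. -/
structure IsGood : Prop where
  residue : ∀ t ∈ Metric.ball a₁ A.ε,
    HasResidueDivisor (A.τ t) (Finsupp.single (M.pl k t) 1 - Finsupp.single A.P₀ 1)
  secondKind : IsSecondKindAt (M.pl k a₁) (A.η a₁)
  y_regular : ∀ v : Place ℂ F, (∀ k' : Fin M.d, v ≠ M.plInf k') → 0 ≤ v.ord A.y
  θ_regular : ∀ (ν : Fin A.n) (v : Place ℂ F), (∀ k' : Fin M.d, v ≠ M.plInf k') → v ≠ A.P₀ →
    IsRegularAt v (A.θ ν)

end AlgFamily

/-- **[FAM-ALG]** algebraic families exist at infinitely many interior places (not over the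
centre `z₀` of the star). -/
def AlgFamilyStatement (M : CutModel F) : Prop :=
  ∃ S : Set (Fin M.d × ℂ), S.Infinite ∧ ∀ ka ∈ S, ka.2 ∈ M.toCutGeometry.U₀ ∧
    ka.2 ≠ M.toCutGeometry.z₀ ∧ ∃ A : AlgFamily M ka.1 ka.2, A.IsGood

/-- **[FAM-AN]** the analysis of the log-jumps of an algebraic family. -/
def AnFamilyStatement (M : CutModel F) : Prop :=
  ∀ (k : Fin M.d) (a₁ : ℂ), a₁ ∈ M.toCutGeometry.U₀ → a₁ ≠ M.toCutGeometry.z₀ →
    ∀ A : AlgFamily M k a₁, A.IsGood → FamilyAt M (M.pl k a₁)

/-- `FamilyStatement` from the two packages. -/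
theorem familyStatement_of_alg_an {M : CutModel F} (h1 : AlgFamilyStatement M)
    (h2 : AnFamilyStatement M) : FamilyStatement M := by
  obtain ⟨S, hS, hSA⟩ := h1
  refine ⟨(fun ka : Fin M.d × ℂ => M.pl ka.1 ka.2) '' S, ?_, ?_, ?_⟩
  · refine hS.image ?_
    intro ka hka ka' hka' h
    obtain ⟨h1, h2⟩ := M.pl_injective ka.1 ka'.1 ka.2 ka'.2 (hSA ka hka).1 (hSA ka' hka').1 h
    exact Prod.ext h1 h2
  · rintro P ⟨ka, hka, rfl⟩
    exact ⟨ka.1, ka.2, (hSA ka hka).1, rfl⟩
  · rintro P ⟨ka, hka, rfl⟩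
    obtain ⟨ha, hne, A, hA⟩ := hSA ka hka
    exact h2 ka.1 ka.2 ha hne A hA

/-! ### The additive deliverables of module MONO consumed by SURJ -/

/-- **[MONO-A1]** existence of period cochains: a differential which is regular outside the
interior places and locally exact at the interior places has a period cochain. -/
def AddPeriodExists (M : CutModel F) : Prop :=
  ∀ η : Ω[F⁄ℂ], (∀ v : Place ℂ F, v ∉ M.interior → IsRegularAt v η) →
    (∀ (k : Fin M.d) (z : ℂ), z ∈ M.toCutGeometry.U₀ →
      ∃ g : ℂ → ℂ, MeromorphicAt g z ∧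
        ∀ᶠ w in 𝓝[≠] z, HasDerivAt g (M.ev k (M.coeff η) w) w) →
    ∃ p : Fin M.r → Fin M.d → ℂ, M.IsPeriodOf η p

/-- **[MONO-A2]** period cochains of differentials which are regular outside the interior places
are cocycles. -/
def AddCocycle (M : CutModel F) : Prop :=
  ∀ (η : Ω[F⁄ℂ]) (p : Fin M.r → Fin M.d → ℂ),
    (∀ v : Place ℂ F, v ∉ M.interior → IsRegularAt v η) → M.IsPeriodOf η p →
      p ∈ M.permDatum.Z1 ℂ

end

end Fermat.Agent.P5.helper25
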