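/-
P5 / S27, module MONO (helper27): the field `unique` of `MonoPackages` [MONO-6a]:
the class of the jump cochain does not depend on the choice of the multiplicative primitives.

Inputs (as hypotheses): uniqueness of multiplicative primitives on a connected open set
(`MulPrimUnique`, MONO-2) and connectedness of the cut plane.
-/
import Mathlib
import Fermat.Agent.P5.helper27_MonoBasic
import Fermat.Agent.P5.helper27_MonoDefs

set_option autoImplicit false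
set_option linter.style.haveILetI false

open AlgebraicCurve Filter Topology KaehlerDifferential

namespace Fermat.Agent.P5.helper27

open Fermat.Agent.P5.helper25 Fermat.Agent.P5.helper4

noncomputable section

/-- **[MONO-2, uniqueness]** multiplicative primitives on a connected open set are unique up to
a constant. -/
def MulPrimUnique : Prop :=
  ∀ {U : Set ℂ}, IsOpen U → IsPreconnected U → ∀ {φ E₁ E₂ : ℂ → ℂ},
    MeromorphicOn E₁ U → MeromorphicOn E₂ U →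
    (∀ z ∈ U, ∀ᶠ w in 𝓝[≠] z, E₁ w ≠ 0 ∧ HasDerivAt E₁ (φ w * E₁ w) w) →
    (∀ z ∈ U, ∀ᶠ w in 𝓝[≠] z, E₂ w ≠ 0 ∧ HasDerivAt E₂ (φ w * E₂ w) w) →
    ∃ c : ℂˣ, ∀ z ∈ U, ∀ᶠ w in 𝓝[≠] z, E₂ w = c * E₁ w

/-! ### The two sides of a cut -/

section sides

variable (G : CutGeometry) (i : Fin G.r) {a : ℂ}

theorem rightSide_eq_neg (z₀ b : ℂ) :
    rightSide z₀ b = {z | 0 < (-((z - b) / (b - z₀))).im} := by
  ext z
  simp [rightSide]

theorem isOpen_rightSide (z₀ b : ℂ) : IsOpen (rightSide z₀ b) := by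
  unfold rightSide
  exact isOpen_lt (by fun_prop) continuous_const

theorem not_mem_ray_of_mem_rightSide {z₀ b z : ℂ} (hb : b ≠ z₀) (hz : z ∈ rightSide z₀ b) :
    z ∉ ray z₀ b := by
  intro h
  have h1 := ((mem_ray_iff hb).1 h).2
  have h2 : ((z - b) / (b - z₀)).im < 0 := hz
  rw [h1] at h2
  exact lt_irrefl _ h2

theorem eventually_mem_Uexcept (ha : a ∈ openRay G.z₀ (G.b i)) :
    ∀ᶠ z in 𝓝 a, z ∈ CutGeom.Uexcept G i :=
  (CutGeom.isOpen_Uexcept G i).mem_nhds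
    (CutGeom.ray_subset_Uexcept G i (openRay_subset_ray _ _ ha))

theorem line_mem_leftSide (ha : a ∈ openRay G.z₀ (G.b i)) {t : ℝ} (ht : 0 < t) :
    a + (t : ℂ) * (Complex.I * (G.b i - G.z₀)) ∈ leftSide G.z₀ (G.b i) := by
  have hbi : G.b i - G.z₀ ≠ 0 := sub_ne_zero.2 (G.b_ne i)
  obtain ⟨s, hs, rfl⟩ := ha
  show 0 < ((G.b i + (s : ℂ) * (G.b i - G.z₀) + (t : ℂ) * (Complex.I * (G.b i - G.z₀)) -
    G.b i) / (G.b i - G.z₀)).im
  have : (G.b i + (s : ℂ) * (G.b i - G.z₀) + (t : ℂ) * (Complex.I * (G.b i - G.z₀)) - G.b i) /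
      (G.b i - G.z₀) = (s : ℂ) + (t : ℂ) * Complex.I := by
    field_simp
    ring
  rw [this]
  simpa using ht

theorem line_mem_rightSide (ha : a ∈ openRay G.z₀ (G.b i)) {t : ℝ} (ht : 0 < t) :
    a + (t : ℂ) * (-Complex.I * (G.b i - G.z₀)) ∈ rightSide G.z₀ (G.b i) := by
  have hbi : G.b i - G.z₀ ≠ 0 := sub_ne_zero.2 (G.b_ne i)
  obtain ⟨s, hs, rfl⟩ := ha
  show ((G.b i + (s : ℂ) * (G.b i - G.z₀) + (t : ℂ) * (-Complex.I * (G.b i - G.z₀)) -
    G.b i) / (G.b i - G.z₀)).im < 0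
  have : (G.b i + (s : ℂ) * (G.b i - G.z₀) + (t : ℂ) * (-Complex.I * (G.b i - G.z₀)) - G.b i) /
      (G.b i - G.z₀) = (s : ℂ) - (t : ℂ) * Complex.I := by
    field_simp
    ring
  rw [this]
  simpa using ht

theorem tendsto_line (a v : ℂ) :
    Tendsto (fun t : ℝ => a + (t : ℂ) * v) (𝓝[>] (0 : ℝ)) (𝓝 a) := by
  have hc : Continuous fun t : ℝ => a + (t : ℂ) * v := by fun_prop
  have := hc.tendsto 0
  simp only [Complex.ofReal_zero, zero_mul, add_zero] at this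
  exact this.mono_left nhdsWithin_le_nhds

/-- The left side of the cut inside the cut plane accumulates at every point of the open
ray. -/
theorem frequently_leftSide (ha : a ∈ openRay G.z₀ (G.b i)) :
    ∃ᶠ z in 𝓝[≠] a, z ∈ leftSide G.z₀ (G.b i) ∩ G.U₀ := by
  have hbi : G.b i - G.z₀ ≠ 0 := sub_ne_zero.2 (G.b_ne i)
  refine frequently_of_line (v := Complex.I * (G.b i - G.z₀))
    (mul_ne_zero Complex.I_ne_zero hbi) ?_
  filter_upwards [(tendsto_line a _).eventually (eventually_mem_Uexcept G i ha),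
    self_mem_nhdsWithin] with t ht1 ht2
  have hL := line_mem_leftSide G i ha (t := t) ht2
  exact ⟨hL, CutGeom.mem_U₀_of_mem_Uexcept _ ht1 (not_mem_ray_of_mem_leftSide (G.b_ne i) hL)⟩

theorem frequently_rightSide (ha : a ∈ openRay G.z₀ (G.b i)) :
    ∃ᶠ z in 𝓝[≠] a, z ∈ rightSide G.z₀ (G.b i) ∩ G.U₀ := by
  have hbi : G.b i - G.z₀ ≠ 0 := sub_ne_zero.2 (G.b_ne i)
  refine frequently_of_line (v := -Complex.I * (G.b i - G.z₀))
    (mul_ne_zero (neg_ne_zero.2 Complex.I_ne_zero) hbi) ?_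
  filter_upwards [(tendsto_line a _).eventually (eventually_mem_Uexcept G i ha),
    self_mem_nhdsWithin] with t ht1 ht2
  have hR := line_mem_rightSide G i ha (t := t) ht2
  exact ⟨hR, CutGeom.mem_U₀_of_mem_Uexcept _ ht1 (not_mem_ray_of_mem_rightSide (G.b_ne i) hR)⟩

/-- On an open set `S` inside the cut plane accumulating at `a`: a property which holds
eventually on `S` near `a` and a property which holds generically on the cut plane hold
simultaneously at points of `S` arbitrarily close to `a`, on a whole punctured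
neighbourhood. -/
theorem frequently_generic {S : Set ℂ} (hS : IsOpen S) (hSU : S ⊆ G.U₀)
    (hacc : ∃ᶠ z in 𝓝[≠] a, z ∈ S) {P Q : ℂ → Prop}
    (hP : ∀ᶠ z in 𝓝[≠] a, z ∈ S → P z) (hQ : ∀ z ∈ G.U₀, ∀ᶠ w in 𝓝[≠] z, Q w) :
    ∃ᶠ z in 𝓝[≠] a, z ∈ S ∧ ∀ᶠ w in 𝓝[≠] z, w ∈ S ∧ P w ∧ Q w := by
  have h3 := eventually_eventually_punctured hP
  refine (hacc.and_eventually h3).mono ?_
  rintro z ⟨hzS, hz⟩
  refine ⟨hzS, ?_⟩
  filter_upwards [nhdsWithin_le_nhds hz, nhdsWithin_le_nhds (hS.mem_nhds hzS),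
    hQ z (hSU hzS)] with w hw1 hw2 hw3
  exact ⟨hw2, hw1 hw2, hw3⟩

theorem exists_generic {S : Set ℂ} (hS : IsOpen S) (hSU : S ⊆ G.U₀)
    (hacc : ∃ᶠ z in 𝓝[≠] a, z ∈ S) {P Q : ℂ → Prop}
    (hP : ∀ᶠ z in 𝓝[≠] a, z ∈ S → P z) (hQ : ∀ z ∈ G.U₀, ∀ᶠ w in 𝓝[≠] z, Q w) :
    ∃ w, w ∈ S ∧ P w ∧ Q w := by
  obtain ⟨z, -, hz⟩ := (frequently_generic G hS hSU hacc hP hQ).exists
  exact hz.exists

theorem isOpen_leftU (G : CutGeometry) (i : Fin G.r) :
    IsOpen (leftSide G.z₀ (G.b i) ∩ G.U₀) :=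
  (isOpen_leftSide _ _).inter (CutGeom.isOpen_U₀ G)

theorem isOpen_rightU (G : CutGeometry) (i : Fin G.r) :
    IsOpen (rightSide G.z₀ (G.b i) ∩ G.U₀) :=
  (isOpen_rightSide _ _).inter (CutGeom.isOpen_U₀ G)

/-- Identity principle across the left side: a germ `g'` which equals `E'` on the left, where
`E'` agrees generically on the cut plane with `Φ` on the left... -/
theorem eventuallyEq_of_left {g g' : ℂ → ℂ} {E E' : ℂ → ℂ} {κ : ℂ}
    (ha : a ∈ openRay G.z₀ (G.b i)) (hg : MeromorphicAt g a) (hg' : MeromorphicAt g' a)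
    (hL : ∀ᶠ z in 𝓝[≠] a, z ∈ leftSide G.z₀ (G.b i) → g z = E z)
    (hL' : ∀ᶠ z in 𝓝[≠] a, z ∈ leftSide G.z₀ (G.b i) → g' z = E' z)
    (hEE : ∀ z ∈ G.U₀, ∀ᶠ w in 𝓝[≠] z, E' w = κ * E w) :
    g' =ᶠ[𝓝[≠] a] fun z => κ * g z := by
  refine eventuallyEq_of_frequently hg' ((MeromorphicAt.const κ a).mul hg) ?_
  have hP : ∀ᶠ z in 𝓝[≠] a, z ∈ leftSide G.z₀ (G.b i) ∩ G.U₀ → (g z = E z ∧ g' z = E' z) := by
    filter_upwards [hL, hL'] with z h1 h2 hz
    exact ⟨h1 hz.1, h2 hz.1⟩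
  refine (frequently_generic G (isOpen_leftU G i) Set.inter_subset_right
    (frequently_leftSide G i ha) hP hEE).mono ?_
  rintro z ⟨-, hz⟩
  filter_upwards [hz] with w hw
  rw [hw.2.1.2, hw.2.2, hw.2.1.1]

end sides

/-! ### The field `unique` -/

variable {F : Type} [Field F] [Algebra ℂ F] (M : CutModel F)

/-- Comparison of the jumps of two systems of primitives which differ by constants. -/
theorem jump_compare {E E' : Fin M.d → ℂ → ℂ} {c c' : Fin M.r → Fin M.d → Additive ℂˣ}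
    (hc : M.IsJumpOf E c) (hc' : M.IsJumpOf E' c') (κ : Fin M.d → ℂˣ)
    (hne : ∀ k, ∀ z ∈ M.toCutGeometry.U₀, ∀ᶠ w in 𝓝[≠] z, E k w ≠ 0)
    (hκ : ∀ k, ∀ z ∈ M.toCutGeometry.U₀, ∀ᶠ w in 𝓝[≠] z, E' k w = κ k * E k w)
    (i : Fin M.r) (k : Fin M.d) :
    Additive.toMul (c' i k) * κ (M.σ i k) = κ k * Additive.toMul (c i k) := by
  have ha : M.b i + ((1 : ℝ) : ℂ) * (M.b i - M.z₀) ∈ openRay M.z₀ (M.b i) :=
    ⟨1, one_pos, rfl⟩
  set a : ℂ := M.b i + ((1 : ℝ) : ℂ) * (M.b i - M.z₀) with ha_def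
  obtain ⟨g, hg, hL, hR⟩ := hc i k a ha
  obtain ⟨g', hg', hL', hR'⟩ := hc' i k a ha
  have key := eventuallyEq_of_left M.toCutGeometry i ha hg hg' hL hL' (hκ k)
  have hP : ∀ᶠ z in 𝓝[≠] a, z ∈ rightSide M.z₀ (M.b i) ∩ M.toCutGeometry.U₀ →
      (g' z = (κ k : ℂ) * g z ∧
        g z = ((Additive.toMul (c i k) : ℂˣ) : ℂ) * E (M.σ i k) z ∧
        g' z = ((Additive.toMul (c' i k) : ℂˣ) : ℂ) * E' (M.σ i k) z) := by
    filter_upwards [key, hR, hR'] with z h1 h2 h3 hz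
    exact ⟨h1, h2 hz.1, h3 hz.1⟩
  have hQ : ∀ z ∈ M.toCutGeometry.U₀, ∀ᶠ w in 𝓝[≠] z,
      (E (M.σ i k) w ≠ 0 ∧ E' (M.σ i k) w = κ (M.σ i k) * E (M.σ i k) w) := by
    intro z hz
    filter_upwards [hne (M.σ i k) z hz, hκ (M.σ i k) z hz] with w h1 h2
    exact ⟨h1, h2⟩
  obtain ⟨w, -, ⟨h1, h2, h3⟩, h4, h5⟩ := exists_generic M.toCutGeometry
    (isOpen_rightU M.toCutGeometry i) Set.inter_subset_right
    (frequently_rightSide M.toCutGeometry i ha) hP hQ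
  rw [h2] at h1
  rw [h1, h5] at h3
  have h6 : ((κ k : ℂ) * (Additive.toMul (c i k) : ℂˣ)) * E (M.σ i k) w =
      (((Additive.toMul (c' i k) : ℂˣ) : ℂ) * κ (M.σ i k)) * E (M.σ i k) w := by
    linear_combination h3
  have h7 := mul_right_cancel₀ h4 h6
  apply Units.ext
  push_cast
  exact h7.symm

/-- **[MONO-6a]** field `unique` of `MonoPackages`, from the uniqueness of multiplicative
primitives and the connectedness of the cut plane. -/
theorem monoUnique_of (hMU : MulPrimUnique) (hconn : IsPreconnected M.toCutGeometry.U₀) :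
    ∀ τ ∈ M.T₀, ∀ (E E' : Fin M.d → ℂ → ℂ) (c c' : Fin M.r → Fin M.d → Additive ℂˣ),
    M.IsMultPrim τ E → M.IsJumpOf E c → M.IsMultPrim τ E' → M.IsJumpOf E' c' →
      c - c' ∈ M.permDatum.B1 (Additive ℂˣ) := by
  intro τ _ E E' c c' hE hc hE' hc'
  have h1 : ∀ k, ∃ κ : ℂˣ, ∀ z ∈ M.toCutGeometry.U₀, ∀ᶠ w in 𝓝[≠] z, E' k w = κ * E k w :=
    fun k => hMU (CutGeom.isOpen_U₀ _) hconn (hE k).1 (hE' k).1 (hE k).2 (hE' k).2
  choose κ hκ using h1
  have hne : ∀ k, ∀ z ∈ M.toCutGeometry.U₀, ∀ᶠ w in 𝓝[≠] z, E k w ≠ 0 := by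
    intro k z hz
    filter_upwards [(hE k).2 z hz] with w hw using hw.1
  refine ⟨fun k => Additive.ofMul (κ k)⁻¹, ?_⟩
  funext i k
  have h2 := jump_compare M hc hc' κ hne hκ i k
  show Additive.ofMul (κ k)⁻¹ - Additive.ofMul (κ (M.σ i k))⁻¹ = c i k - c' i k
  apply Additive.toMul.injective
  simp only [toMul_sub, toMul_ofMul]
  rw [div_eq_div_iff_mul_eq_mul]
  have e1 : (κ k)⁻¹ * Additive.toMul (c' i k) =
      (κ k)⁻¹ * (Additive.toMul (c' i k) * κ (M.σ i k)) * (κ (M.σ i k))⁻¹ := by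
    rw [mul_assoc, mul_assoc, mul_inv_cancel, mul_one]
  rw [e1, h2, ← mul_assoc, inv_mul_cancel, one_mul]

end

end Fermat.Agent.P5.helper27
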