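import Mathlib

/-!
# P5 / MONO-1 (helper27, task 566): primitives on open star-shaped sets

`exists_primitive_of_starConvex`: a holomorphic function on an open set `U ⊆ ℂ` which is
star-shaped with respect to `z₀` has a primitive on `U`.

Proof: `g z = ∫` over the segment from `z₀` to `z`; for fixed `z ∈ U` a thickening `N` of the
segment `[z₀, z]` is a CONVEX open set with `[z₀, z] ⊆ N ⊆ U`, and on `N` the same formula is the
primitive given by Mathlib's Poincaré lemma for convex sets.
-/

set_option autoImplicit false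

open Filter Topology Set

namespace Fermat.Agent.P5.helper27

/-- The segment-integral primitive on a convex open set. -/
theorem hasDerivAt_segmentIntegral_of_convex {N : Set ℂ} {z₀ : ℂ} (hN : Convex ℝ N)
    (hNo : IsOpen N) (hz₀ : z₀ ∈ N) {f : ℂ → ℂ} (hf : DifferentiableOn ℂ f N) {z : ℂ}
    (hz : z ∈ N) :
    HasDerivAt (fun w => ∫ᶜ x in Path.segment z₀ w,
      ContinuousLinearMap.smulRight (1 : ℂ →L[ℂ] ℂ) (f x)) (f z) z := by
  have key : HasDerivWithinAt (fun w => ∫ᶜ x in Path.segment z₀ w,
      ContinuousLinearMap.smulRight (1 : ℂ →L[ℂ] ℂ) (f x)) (f z) N z := by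
    apply hN.hasFDerivWithinAt_curveIntegral_segment_of_hasFDerivWithinAt_symmetric (𝕜 := ℂ)
    · intro a ha
      exact (ContinuousLinearMap.smulRightL ℂ ℂ ℂ 1).hasFDerivAt
        |>.comp_hasDerivWithinAt a (hf a ha).hasDerivWithinAt |>.restrictScalars ℝ
    · rintro a ha x - y -
      have h : x * (y * derivWithin f N a) = y * (x * derivWithin f N a) := by ring
      simpa using h
    · exact hz₀
    · exact hz
  exact key.hasDerivAt (hNo.mem_nhds hz)

/-- **MONO-1**: a holomorphic function on an open star-shaped set has a primitive. -/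
theorem exists_primitive_of_starConvex {U : Set ℂ} {z₀ : ℂ} (hU : IsOpen U)
    (hstar : StarConvex ℝ z₀ U) {f : ℂ → ℂ} (hf : DifferentiableOn ℂ f U) :
    ∃ g : ℂ → ℂ, ∀ z ∈ U, HasDerivAt g (f z) z := by
  refine ⟨fun w => ∫ᶜ x in Path.segment z₀ w,
      ContinuousLinearMap.smulRight (1 : ℂ →L[ℂ] ℂ) (f x), fun z hz => ?_⟩
  have hseg : segment ℝ z₀ z ⊆ U := hstar.segment_subset hz
  have hcomp : IsCompact (segment ℝ z₀ z) := by
    rw [segment_eq_image_lineMap]
    exact isCompact_Icc.image AffineMap.lineMap_continuous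
  obtain ⟨δ, hδ, hδU⟩ := hcomp.exists_thickening_subset_open hU hseg
  have hNconv : Convex ℝ (Metric.thickening δ (segment ℝ z₀ z)) :=
    (convex_segment z₀ z).thickening δ
  have hNopen : IsOpen (Metric.thickening δ (segment ℝ z₀ z)) := Metric.isOpen_thickening
  have hz₀N : z₀ ∈ Metric.thickening δ (segment ℝ z₀ z) :=
    Metric.self_subset_thickening hδ _ (left_mem_segment ℝ z₀ z)
  have hzN : z ∈ Metric.thickening δ (segment ℝ z₀ z) :=
    Metric.self_subset_thickening hδ _ (right_mem_segment ℝ z₀ z)
  exact hasDerivAt_segmentIntegral_of_convex hNconv hNopen hz₀N (hf.mono hδU) hzN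

end Fermat.Agent.P5.helper27
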