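import Fermat.Agent.P5.helper4_CutGeom

/-!
# P5 / MONO-GEO (helper38, task 568): plane geometry of the cut plane

The cut plane `U₀` of a cut geometry is star-convex with respect to the base point `z₀`, hence
(pre)connected; near a point `a` of an open ray the plane decomposes into the open ray, the left
side and the right side, both sides lie in `U₀` and accumulate at `a`.
-/

set_option autoImplicit false

open Filter Topology Complex

namespace Fermat.Agent.P5.helper38

open Fermat.Agent.P5.helper25 Fermat.Agent.P5.helper4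

/-! ### the ratio `(z - b) / (b - z₀)` -/

/-- the coordinate `(z - b) / (b - z₀)` on the plane adapted to the ray from `b` -/
noncomputable def rayCoord (z₀ b z : ℂ) : ℂ := (z - b) / (b - z₀)

lemma continuous_rayCoord (z₀ b : ℂ) : Continuous (rayCoord z₀ b) := by
  unfold rayCoord
  fun_prop

lemma mem_ray_iff' {z₀ b z : ℂ} (hb : b ≠ z₀) :
    z ∈ ray z₀ b ↔ 0 ≤ (rayCoord z₀ b z).re ∧ (rayCoord z₀ b z).im = 0 := mem_ray_iff hb

lemma mem_openRay_iff {z₀ b z : ℂ} (hb : b ≠ z₀) :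
    z ∈ openRay z₀ b ↔ 0 < (rayCoord z₀ b z).re ∧ (rayCoord z₀ b z).im = 0 := by
  have hb' : b - z₀ ≠ 0 := sub_ne_zero.2 hb
  unfold rayCoord
  constructor
  · rintro ⟨s, hs, rfl⟩
    have : (b + (s : ℂ) * (b - z₀) - b) / (b - z₀) = (s : ℂ) := by
      field_simp
      ring
    rw [this]
    exact ⟨by simpa using hs, by simp⟩
  · rintro ⟨h1, h2⟩
    refine ⟨((z - b) / (b - z₀)).re, h1, ?_⟩
    have h3 : (((z - b) / (b - z₀)).re : ℂ) = (z - b) / (b - z₀) := by
      apply Complex.ext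
      · simp
      · simp [h2]
    rw [h3]
    field_simp
    ring

lemma mem_leftSide_iff {z₀ b z : ℂ} : z ∈ leftSide z₀ b ↔ 0 < (rayCoord z₀ b z).im := Iff.rfl

lemma mem_rightSide_iff {z₀ b z : ℂ} : z ∈ rightSide z₀ b ↔ (rayCoord z₀ b z).im < 0 := Iff.rfl

lemma rayCoord_combo (z₀ b z : ℂ) (hb : b ≠ z₀) (s t : ℝ) (hst : s + t = 1) :
    rayCoord z₀ b (s • z₀ + t • z) = (t : ℂ) * rayCoord z₀ b z - (s : ℂ) := by
  have hb' : b - z₀ ≠ 0 := sub_ne_zero.2 hb
  have hs : (s : ℂ) = 1 - (t : ℂ) := by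
    have : (s : ℂ) + (t : ℂ) = 1 := by exact_mod_cast hst
    linear_combination this
  unfold rayCoord
  rw [Complex.real_smul, Complex.real_smul, hs]
  field_simp
  ring

theorem not_mem_ray_of_mem_rightSide {z₀ b z : ℂ} (hb : b ≠ z₀) (hz : z ∈ rightSide z₀ b) :
    z ∉ ray z₀ b := by
  intro h
  have h1 := ((mem_ray_iff hb).1 h).2
  have h2 : ((z - b) / (b - z₀)).im < 0 := hz
  rw [h1] at h2
  exact lt_irrefl _ h2

theorem isOpen_rightSide (z₀ b : ℂ) : IsOpen (rightSide z₀ b) := by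
  have : rightSide z₀ b = (fun z : ℂ => ((z - b) / (b - z₀)).im) ⁻¹' Set.Iio 0 := rfl
  rw [this]
  exact isOpen_Iio.preimage (by fun_prop)

/-! ### star-convexity -/

theorem z₀_not_mem_ray {z₀ b : ℂ} (hb : b ≠ z₀) : z₀ ∉ ray z₀ b := by
  intro h
  have h1 := ((mem_ray_iff' hb).1 h).1
  have hb' : b - z₀ ≠ 0 := sub_ne_zero.2 hb
  have h2 : rayCoord z₀ b z₀ = -1 := by
    unfold rayCoord
    field_simp
    ring
  rw [h2] at h1
  simp at h1
  linarith

/-- the base point lies in the cut plane -/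
theorem z₀_mem_U₀ (G : CutGeometry) : G.z₀ ∈ G.U₀ := fun i => z₀_not_mem_ray (G.b_ne i)

/-- the complement of a ray is star-convex with respect to `z₀` -/
theorem starConvex_compl_ray {z₀ b : ℂ} (hb : b ≠ z₀) : StarConvex ℝ z₀ (ray z₀ b)ᶜ := by
  intro z hz s t hs ht hst hmem
  apply hz
  obtain ⟨h1, h2⟩ := (mem_ray_iff' hb).1 hmem
  rw [rayCoord_combo z₀ b z hb s t hst] at h1 h2
  simp only [Complex.sub_re, Complex.mul_re, Complex.ofReal_re, Complex.ofReal_im, zero_mul,
    sub_zero, Complex.sub_im, Complex.mul_im, add_zero] at h1 h2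
  have ht0 : t ≠ 0 := by
    rintro rfl
    have : s = 1 := by linarith
    rw [this] at h1
    simp at h1
    linarith
  have htpos : 0 < t := lt_of_le_of_ne ht (Ne.symm ht0)
  refine (mem_ray_iff' hb).2 ⟨?_, ?_⟩
  · have : s ≤ t * (rayCoord z₀ b z).re := by linarith
    by_contra hneg
    push Not at hneg
    have := mul_neg_of_pos_of_neg htpos hneg
    linarith
  · rcases mul_eq_zero.1 h2 with h | h
    · exact absurd h ht0
    · exact h

/-- **the cut plane is star-convex** with respect to the base point -/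
theorem starConvex_U₀ (G : CutGeometry) : StarConvex ℝ G.z₀ G.U₀ := by
  have h : G.U₀ = ⋂ i, (ray G.z₀ (G.b i))ᶜ := by
    ext z
    simp [CutGeometry.U₀]
  rw [h]
  exact starConvex_iInter fun i => starConvex_compl_ray (G.b_ne i)

theorem isPathConnected_U₀ (G : CutGeometry) : IsPathConnected G.U₀ :=
  (starConvex_U₀ G).isPathConnected (z₀_mem_U₀ G)

theorem isConnected_U₀ (G : CutGeometry) : IsConnected G.U₀ :=
  (isPathConnected_U₀ G).isConnected

theorem isPreconnected_U₀ (G : CutGeometry) : IsPreconnected G.U₀ :=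
  (isConnected_U₀ G).isPreconnected

/-! ### near a point of an open ray -/

/-- near a point of the open ray, the left side lies in the cut plane -/
theorem eventually_leftSide_mem_U₀ (G : CutGeometry) (i : Fin G.r) {a : ℂ}
    (ha : a ∈ openRay G.z₀ (G.b i)) :
    ∀ᶠ z in 𝓝 a, z ∈ leftSide G.z₀ (G.b i) → z ∈ G.U₀ := by
  have h1 : ∀ᶠ z in 𝓝 a, z ∈ CutGeom.Uexcept G i :=
    (CutGeom.isOpen_Uexcept G i).mem_nhds
      (CutGeom.ray_subset_Uexcept G i (openRay_subset_ray _ _ ha))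
  filter_upwards [h1] with z hz hl
  exact CutGeom.mem_U₀_of_mem_Uexcept G hz (not_mem_ray_of_mem_leftSide (G.b_ne i) hl)

/-- near a point of the open ray, the right side lies in the cut plane -/
theorem eventually_rightSide_mem_U₀ (G : CutGeometry) (i : Fin G.r) {a : ℂ}
    (ha : a ∈ openRay G.z₀ (G.b i)) :
    ∀ᶠ z in 𝓝 a, z ∈ rightSide G.z₀ (G.b i) → z ∈ G.U₀ := by
  have h1 : ∀ᶠ z in 𝓝 a, z ∈ CutGeom.Uexcept G i :=
    (CutGeom.isOpen_Uexcept G i).mem_nhds
      (CutGeom.ray_subset_Uexcept G i (openRay_subset_ray _ _ ha))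
  filter_upwards [h1] with z hz hl
  exact CutGeom.mem_U₀_of_mem_Uexcept G hz (not_mem_ray_of_mem_rightSide (G.b_ne i) hl)

/-- general form: near a point of the open ray every point is on the open ray, on the left or on
the right -/
theorem eventually_mem_openRay_or_side' {z₀ b : ℂ} (hb : b ≠ z₀) {a : ℂ}
    (ha : a ∈ openRay z₀ b) :
    ∀ᶠ z in 𝓝 a, z ∈ openRay z₀ b ∨ z ∈ leftSide z₀ b ∨ z ∈ rightSide z₀ b := by
  have h0 : 0 < (rayCoord z₀ b a).re := ((mem_openRay_iff hb).1 ha).1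
  have hc : ContinuousAt (fun z => (rayCoord z₀ b z).re) a :=
    (Complex.continuous_re.comp (continuous_rayCoord z₀ b)).continuousAt
  have h1 : ∀ᶠ z in 𝓝 a, 0 < (rayCoord z₀ b z).re := hc.eventually (lt_mem_nhds h0)
  filter_upwards [h1] with z hz
  rcases lt_trichotomy (rayCoord z₀ b z).im 0 with h | h | h
  · exact Or.inr (Or.inr h)
  · exact Or.inl ((mem_openRay_iff hb).2 ⟨hz, h⟩)
  · exact Or.inr (Or.inl h)

/-- near a point of the open ray every point is on the ray, on the left or on the right -/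
theorem eventually_mem_openRay_or_side (G : CutGeometry) (i : Fin G.r) {a : ℂ}
    (ha : a ∈ openRay G.z₀ (G.b i)) :
    ∀ᶠ z in 𝓝 a, z ∈ openRay G.z₀ (G.b i) ∨ z ∈ leftSide G.z₀ (G.b i) ∨
      z ∈ rightSide G.z₀ (G.b i) :=
  eventually_mem_openRay_or_side' (G.b_ne i) ha

lemma rayCoord_add_mul (z₀ b a : ℂ) (hb : b ≠ z₀) (c : ℂ) :
    rayCoord z₀ b (a + c * (b - z₀)) = rayCoord z₀ b a + c := by
  have hb' : b - z₀ ≠ 0 := sub_ne_zero.2 hb
  unfold rayCoord
  field_simp
  ring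

/-- the left side accumulates at every point of the open ray -/
theorem frequently_leftSide' {z₀ b : ℂ} (hb : b ≠ z₀) {a : ℂ} (ha : a ∈ openRay z₀ b) :
    ∃ᶠ z in 𝓝[≠] a, z ∈ leftSide z₀ b := by
  have hb' : b - z₀ ≠ 0 := sub_ne_zero.2 hb
  have him : (rayCoord z₀ b a).im = 0 := ((mem_openRay_iff hb).1 ha).2
  refine frequently_of_line (v := Complex.I * (b - z₀)) (mul_ne_zero Complex.I_ne_zero hb') ?_
  filter_upwards [self_mem_nhdsWithin] with t ht
  have ht' : (0 : ℝ) < t := ht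
  rw [mem_leftSide_iff, ← mul_assoc, rayCoord_add_mul z₀ b a hb]
  simp [him, ht']

/-- the right side accumulates at every point of the open ray -/
theorem frequently_rightSide' {z₀ b : ℂ} (hb : b ≠ z₀) {a : ℂ} (ha : a ∈ openRay z₀ b) :
    ∃ᶠ z in 𝓝[≠] a, z ∈ rightSide z₀ b := by
  have hb' : b - z₀ ≠ 0 := sub_ne_zero.2 hb
  have him : (rayCoord z₀ b a).im = 0 := ((mem_openRay_iff hb).1 ha).2
  refine frequently_of_line (v := -Complex.I * (b - z₀))
    (mul_ne_zero (neg_ne_zero.2 Complex.I_ne_zero) hb') ?_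
  filter_upwards [self_mem_nhdsWithin] with t ht
  have ht' : (0 : ℝ) < t := ht
  rw [mem_rightSide_iff, ← mul_assoc, rayCoord_add_mul z₀ b a hb]
  simp [him, ht']

theorem frequently_leftSide (G : CutGeometry) (i : Fin G.r) {a : ℂ}
    (ha : a ∈ openRay G.z₀ (G.b i)) : ∃ᶠ z in 𝓝[≠] a, z ∈ leftSide G.z₀ (G.b i) :=
  frequently_leftSide' (G.b_ne i) ha

theorem frequently_rightSide (G : CutGeometry) (i : Fin G.r) {a : ℂ}
    (ha : a ∈ openRay G.z₀ (G.b i)) : ∃ᶠ z in 𝓝[≠] a, z ∈ rightSide G.z₀ (G.b i) :=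
  frequently_rightSide' (G.b_ne i) ha

/-- the open ray is (pre)connected -/
theorem isPreconnected_openRay (z₀ b : ℂ) : IsPreconnected (openRay z₀ b) := by
  have h : openRay z₀ b = (fun s : ℝ => b + (s : ℂ) * (b - z₀)) '' Set.Ioi (0 : ℝ) := by
    ext z
    constructor
    · rintro ⟨s, hs, rfl⟩
      exact ⟨s, hs, rfl⟩
    · rintro ⟨s, hs, rfl⟩
      exact ⟨s, hs, rfl⟩
  rw [h]
  exact isPreconnected_Ioi.image _ (by fun_prop : Continuous fun s : ℝ =>
    b + (s : ℂ) * (b - z₀)).continuousOn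

/-- the open half-discs at a point of an open ray -/
theorem exists_ball_sides (G : CutGeometry) (i : Fin G.r) {a : ℂ}
    (ha : a ∈ openRay G.z₀ (G.b i)) :
    ∃ ε > 0, (Metric.ball a ε ∩ leftSide G.z₀ (G.b i) ⊆ G.U₀) ∧
      (Metric.ball a ε ∩ rightSide G.z₀ (G.b i) ⊆ G.U₀) ∧
      (∀ z ∈ Metric.ball a ε, z ∉ leftSide G.z₀ (G.b i) → z ∉ rightSide G.z₀ (G.b i) →
        z ∈ openRay G.z₀ (G.b i)) := by
  have h := ((eventually_leftSide_mem_U₀ G i ha).and
    ((eventually_rightSide_mem_U₀ G i ha).and (eventually_mem_openRay_or_side G i ha)))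
  obtain ⟨ε, hε, hball⟩ := Metric.eventually_nhds_iff_ball.1 h
  refine ⟨ε, hε, ?_, ?_, ?_⟩
  · rintro z ⟨hz, hl⟩
    exact (hball z hz).1 hl
  · rintro z ⟨hz, hr⟩
    exact (hball z hz).2.1 hr
  · intro z hz hl hr
    rcases (hball z hz).2.2 with h | h | h
    · exact h
    · exact absurd h hl
    · exact absurd h hr

/-- near a point of an open ray, the cut plane is the union of the two sides -/
theorem eventually_mem_U₀_iff (G : CutGeometry) (i : Fin G.r) {a : ℂ}
    (ha : a ∈ openRay G.z₀ (G.b i)) :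
    ∀ᶠ z in 𝓝 a, (z ∈ G.U₀ ↔ z ∈ leftSide G.z₀ (G.b i) ∨ z ∈ rightSide G.z₀ (G.b i)) := by
  filter_upwards [eventually_leftSide_mem_U₀ G i ha, eventually_rightSide_mem_U₀ G i ha,
    eventually_mem_openRay_or_side G i ha] with z h1 h2 h3
  constructor
  · intro hz
    rcases h3 with h | h | h
    · exact absurd hz (CutGeom.not_mem_U₀_of_mem_openRay G h)
    · exact Or.inl h
    · exact Or.inr h
  · rintro (h | h)
    · exact h1 h
    · exact h2 h

end Fermat.Agent.P5.helper38
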