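import Fermat.Agent.P5.helper12_SurjHol
import Fermat.Agent.P5.helper25_FamilyDefs
import Fermat.Agent.P5.helper10_DictA
import Fermat.Agent.P5.helper17_MulPrim
import Fermat.Agent.P5.helper27_StarPrim
import Fermat.Agent.P5.helper27_MonoUnique
import Fermat.Agent.P5.helper38_CutStar

/-!
# P5 / SURJ-HOL (helper12, task 604), part 2: the bridge

`HolPeriods M` from the additive deliverables of MONO-A as stated in `helper25_FamilyDefs.lean`
(`AddPeriodExists M`, `AddCocycle M`) and the local dictionary (`helper10.dictInterior`,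
`helper10.dictRay`, unconditional).

* the sheet functions `φ_k` of the coefficient of a holomorphic differential have non-negative
  order on the cut plane (dictionary, interior places), hence analytic primitives `A k` on the
  (star-shaped) cut plane;
* `AddPeriodExists` gives meromorphic primitives `G₀ k` with jump cochain `p`, `AddCocycle` gives
  `p ∈ Z¹`; by uniqueness `G₀ k = A k + c k` generically;
* the jump germs of `G₀` are meromorphic germs whose derivative is the crossing germ of the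
  coefficient, which is analytic (dictionary, ray places); hence they are analytic after
  removing the singularity, and they are jump germs of the analytic primitives `A k + c k`.
-/

set_option autoImplicit false
set_option linter.style.haveILetI false

open AlgebraicCurve Filter Topology KaehlerDifferential

namespace Fermat.Agent.P5.helper12

open Fermat.Agent.P5.helper25 Fermat.Agent.P5.helper27

noncomputable section

/-! ### Two lemmas of complex analysis -/

/-- A meromorphic germ at `a` whose derivative agrees, near points accumulating at `a`, with a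
germ `g₁` analytic at `a`, is analytic at `a` after removing the singularity. -/
theorem exists_analyticAt_of_hasDerivAt {a : ℂ} {g₀ g₁ : ℂ → ℂ} (hg₀ : MeromorphicAt g₀ a)
    (hg₁ : AnalyticAt ℂ g₁ a)
    (h : ∃ᶠ z in 𝓝[≠] a, ∀ᶠ w in 𝓝[≠] z, HasDerivAt g₀ (g₁ w) w) :
    ∃ g : ℂ → ℂ, AnalyticAt ℂ g a ∧ g =ᶠ[𝓝[≠] a] g₀ := by
  have hd : MeromorphicAt (deriv g₀) a := hg₀.deriv
  have hfreq : ∃ᶠ z in 𝓝[≠] a, deriv g₀ =ᶠ[𝓝[≠] z] g₁ :=
    h.mono fun z hz => hz.mono fun w hw => hw.deriv
  have heq : deriv g₀ =ᶠ[𝓝[≠] a] g₁ :=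
    helper4.eventuallyEq_of_frequently hd hg₁.meromorphicAt hfreq
  have hD : ∀ᶠ w in 𝓝[≠] a, HasDerivAt g₀ (g₁ w) w := by
    filter_upwards [heq, hg₀.eventually_analyticAt] with w h1 h2
    rw [← h1]
    exact h2.differentiableAt.hasDerivAt
  rw [eventually_nhdsWithin_iff, Metric.eventually_nhds_iff] at hD
  obtain ⟨ε₁, hε₁, hD⟩ := hD
  obtain ⟨ε₂, hε₂, han⟩ := Metric.eventually_nhds_iff.mp hg₁.eventually_analyticAt
  have hρ : 0 < min ε₁ ε₂ := lt_min hε₁ hε₂
  have hdiff : DifferentiableOn ℂ g₁ (Metric.ball a (min ε₁ ε₂)) := fun z hz =>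
    (han (lt_of_lt_of_le (Metric.mem_ball.mp hz)
      (min_le_right _ _))).differentiableAt.differentiableWithinAt
  obtain ⟨P₁, hP₁⟩ := exists_primitive_of_starConvex Metric.isOpen_ball
    ((convex_ball a (min ε₁ ε₂)).starConvex (Metric.mem_ball_self hρ)) hdiff
  have hP₁d : DifferentiableOn ℂ P₁ (Metric.ball a (min ε₁ ε₂)) :=
    fun z hz => (hP₁ z hz).differentiableAt.differentiableWithinAt
  have hP₁a : AnalyticAt ℂ P₁ a := hP₁d.analyticAt (Metric.ball_mem_nhds a hρ)
  have hV : IsOpen (Metric.ball a (min ε₁ ε₂) \ {a}) :=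
    Metric.isOpen_ball.sdiff isClosed_singleton
  have hq : ∀ w ∈ Metric.ball a (min ε₁ ε₂) \ {a}, HasDerivAt (fun v => g₀ v - P₁ v) 0 w := by
    intro w hw
    have h1 : HasDerivAt g₀ (g₁ w) w :=
      hD (lt_of_lt_of_le (Metric.mem_ball.mp hw.1) (min_le_left _ _)) hw.2
    exact (h1.sub (hP₁ w hw.1)).congr_deriv (sub_self _)
  obtain ⟨c, hc⟩ := hV.exists_is_const_of_deriv_eq_zero
    (helper17.isPreconnected_ball_diff_singleton a (min ε₁ ε₂))
    (fun w hw => (hq w hw).differentiableAt.differentiableWithinAt)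
    (fun w hw => (hq w hw).deriv)
  refine ⟨fun w => P₁ w + c, hP₁a.add analyticAt_const, ?_⟩
  have hball : ∀ᶠ w in 𝓝[≠] a, w ∈ Metric.ball a (min ε₁ ε₂) :=
    mem_nhdsWithin_of_mem_nhds (Metric.ball_mem_nhds a hρ)
  have hne : ∀ᶠ w in 𝓝[≠] a, w ≠ a := eventually_mem_nhdsWithin
  filter_upwards [hball, hne] with w hw1 hw2
  have e : g₀ w - P₁ w = c := hc w ⟨hw1, hw2⟩
  rw [← e]
  ring

/-- From generic to pointwise equality on an open set accumulating at `a`: if `g` is analytic at
`a` and equals `H₀` on `S` near `a`, where `H₀` agrees generically on `U ⊇ S` with a function `H`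
continuous on `U`, then `g` equals `H` on `S` near `a`. -/
theorem eventually_eq_of_generic {a : ℂ} {S U : Set ℂ} (hS : IsOpen S) {g H H₀ : ℂ → ℂ}
    (hg : AnalyticAt ℂ g a) (hH : ∀ z ∈ U, ContinuousAt H z)
    (hSU : ∀ᶠ z in 𝓝 a, z ∈ S → z ∈ U)
    (hgen : ∀ z ∈ U, ∀ᶠ w in 𝓝[≠] z, H₀ w = H w)
    (h : ∀ᶠ z in 𝓝[≠] a, z ∈ S → g z = H₀ z) :
    ∀ᶠ z in 𝓝[≠] a, z ∈ S → g z = H z := by
  have h' := helper4.eventually_eventually_punctured h
  have hcont : ∀ᶠ z in 𝓝 a, ContinuousAt g z :=
    hg.eventually_analyticAt.mono fun z hz => hz.continuousAt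
  filter_upwards [h', nhdsWithin_le_nhds hSU, nhdsWithin_le_nhds hcont] with z h1 h2 h3 hzS
  have hzU : z ∈ U := h2 hzS
  have e : g =ᶠ[𝓝[≠] z] H := by
    filter_upwards [nhdsWithin_le_nhds h1, nhdsWithin_le_nhds (hS.mem_nhds hzS), hgen z hzU]
      with w a1 a2 a3
    rw [a1 a2, a3]
  exact tendsto_nhds_unique_of_eventuallyEq (h3.tendsto.mono_left nhdsWithin_le_nhds)
    ((hH z hzU).tendsto.mono_left nhdsWithin_le_nhds) e

variable {F : Type} [Field F] [Algebra ℂ F] (M : CutModel F)

/-! ### The sheet functions of a holomorphic differential -/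

/-- a holomorphic differential has a logarithmic pole with residue `0` everywhere -/
theorem hasLogPole_zero_of_regular {ω : Ω[F⁄ℂ]} (v : Place ℂ F) (hω : IsRegularAt v ω) :
    HasLogPole v ω 0 := by
  obtain ⟨t, ht⟩ := helper42.exists_ord_eq_one v
  refine ⟨t, ht, ?_⟩
  rw [zero_smul, sub_zero]
  exact hω

/-- the sheet functions of the coefficient of a holomorphic differential have non-negative
order on the cut plane -/
theorem order_ev_coeff_nonneg {ω : Ω[F⁄ℂ]} (hω : ∀ v : Place ℂ F, IsRegularAt v ω)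
    (k : Fin M.d) {z : ℂ} (hz : z ∈ M.toCutGeometry.U₀) :
    0 ≤ meromorphicOrderAt (M.ev k (M.coeff ω)) z := by
  have h := helper10.dictInterior M ω 0 k z hz (hasLogPole_zero_of_regular _ (hω _))
  simp only [Int.cast_zero, zero_div, sub_zero] at h
  exact h

/-- analytic primitives of the sheet functions of a holomorphic differential -/
theorem exists_analytic_addPrim {ω : Ω[F⁄ℂ]} (hω : ∀ v : Place ℂ F, IsRegularAt v ω)
    (k : Fin M.d) :
    ∃ A : ℂ → ℂ, (∀ z ∈ M.toCutGeometry.U₀, AnalyticAt ℂ A z) ∧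
      ∀ z ∈ M.toCutGeometry.U₀, ∀ᶠ w in 𝓝[≠] z, HasDerivAt A (M.ev k (M.coeff ω) w) w :=
  helper17.exists_analytic_primitive (helper4.CutGeom.isOpen_U₀ _)
    (fun _ hf => exists_primitive_of_starConvex (helper4.CutGeom.isOpen_U₀ _)
      (helper38.starConvex_U₀ _) hf)
    (M.ev_meromorphicOn k _) (fun _ hz => order_ev_coeff_nonneg M hω k hz)

/-! ### The bridge -/

/-- **The bridge**: `AddHolExists M` from the additive deliverables of MONO-A. -/
theorem addHolExists_of (hE : AddPeriodExists M) (hC : AddCocycle M) : AddHolExists M := by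
  intro ω hω
  choose A hA hAd using fun k => exists_analytic_addPrim M hω k
  obtain ⟨p, G₀, hprim, hjump⟩ := hE ω (fun v _ => hω v)
    (fun k z hz => ⟨A k, (hA k z hz).meromorphicAt, hAd k z hz⟩)
  have hp : p ∈ M.permDatum.Z1 ℂ := hC ω p (fun v _ => hω v) ⟨G₀, hprim, hjump⟩
  have huniq : ∀ k, ∃ c : ℂ, ∀ z ∈ M.toCutGeometry.U₀, ∀ᶠ w in 𝓝[≠] z,
      G₀ k w = A k w + c := fun k =>
    helper17.addPrimitive_unique (helper4.CutGeom.isOpen_U₀ _) (helper38.isPreconnected_U₀ _)
      (fun z hz => (hA k z hz).meromorphicAt) (hprim k).1 (hAd k) (hprim k).2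
  choose c hc using huniq
  have hG : ∀ k, ∀ z ∈ M.toCutGeometry.U₀, AnalyticAt ℂ (fun w => A k w + c k) z :=
    fun k z hz => (hA k z hz).add analyticAt_const
  refine ⟨fun k w => A k w + c k, p, hG, fun k z hz => ?_, hp, fun i k a ha => ?_⟩
  · filter_upwards [hAd k z hz] with w hw
    exact hw.add_const (c k)
  · obtain ⟨g₀, hg₀, hL₀, hR₀⟩ := hjump i k a ha
    obtain ⟨g₁, hg₁, hL₁, -⟩ := helper10.dictRay M ω i k a ha
      (hasLogPole_zero_of_regular _ (hω _))
    -- the derivative of `g₀` is `g₁` near generic points on the left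
    have hfreq : ∃ᶠ z in 𝓝[≠] a, ∀ᶠ w in 𝓝[≠] z, HasDerivAt g₀ (g₁ w) w := by
      have hP : ∀ᶠ z in 𝓝[≠] a, z ∈ leftSide M.z₀ (M.b i) ∩ M.toCutGeometry.U₀ →
          ((∀ᶠ w in 𝓝 z, w ∈ leftSide M.z₀ (M.b i) → g₀ w = G₀ k w) ∧
            g₁ z = M.ev k (M.coeff ω) z) := by
        filter_upwards [helper4.eventually_eventually_punctured hL₀, hL₁] with z h1 h2 hz
        exact ⟨h1, h2 hz.1⟩
      refine (frequently_generic M.toCutGeometry (isOpen_leftU M.toCutGeometry i)
        Set.inter_subset_right (frequently_leftSide M.toCutGeometry i ha) hP (hprim k).2).mono ?_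
      rintro z ⟨-, hz⟩
      filter_upwards [hz] with w hw
      obtain ⟨hwS, ⟨hw1, hw2⟩, hw3⟩ := hw
      have e : g₀ =ᶠ[𝓝 w] G₀ k := by
        filter_upwards [hw1, (helper4.isOpen_leftSide _ _).mem_nhds hwS.1] with v hv1 hv2
        exact hv1 hv2
      rw [hw2]
      exact hw3.congr_of_eventuallyEq e
    obtain ⟨g, hg, hgg₀⟩ := exists_analyticAt_of_hasDerivAt hg₀ hg₁ hfreq
    refine ⟨g, hg, ?_, ?_⟩
    · refine eventually_eq_of_generic (U := M.toCutGeometry.U₀) (H₀ := G₀ k)
        (helper4.isOpen_leftSide _ _) hg (fun z hz => (hG k z hz).continuousAt)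
        (helper38.eventually_leftSide_mem_U₀ M.toCutGeometry i ha) (hc k) ?_
      filter_upwards [hgg₀, hL₀] with z h1 h2 hz
      rw [h1, h2 hz]
    · refine eventually_eq_of_generic (U := M.toCutGeometry.U₀)
        (H₀ := fun z => p i k + G₀ (M.σ i k) z)
        (H := fun z => p i k + (A (M.σ i k) z + c (M.σ i k)))
        (isOpen_rightSide _ _) hg
        (fun z hz => (analyticAt_const.add (hG (M.σ i k) z hz)).continuousAt)
        (helper38.eventually_rightSide_mem_U₀ M.toCutGeometry i ha) ?_ ?_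
      · intro z hz
        filter_upwards [hc (M.σ i k) z hz] with w hw
        rw [hw]
      · filter_upwards [hgg₀, hR₀] with z h1 h2 hz
        rw [h1, h2 hz]

/-- **[SURJ-2]** `HolPeriods M` from the additive deliverables of MONO-A. -/
theorem holPeriods (hE : AddPeriodExists M) (hC : AddCocycle M) : HolPeriods M :=
  holPeriods_of M (addHolExists_of M hE hC)

end

end Fermat.Agent.P5.helper12
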