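/-
P5 / S27, module MOD, package [MOD-PL-RAY] (helper13, task 652):
the places of a sheet model over the open rays,
`rayPlacesStatement : Fermat.Agent.P5.helper37.RayPlacesStatement`.

For `a` on the open ray of `b i` the germs at `a` of the continuations of the sheets `ev k h`
from the left side of the ray form `d` pairwise distinct embeddings of `F` into the field of
meromorphic germs at `a`; `places_of_germs_one` (PL-CORE) gives the places.
-/
import Mathlib
import Fermat.Agent.P5.helper37_PlInt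
import Fermat.Agent.P5.helper4_Analysis
import Fermat.Agent.P5.helper4_CutGeom

set_option autoImplicit false

open AlgebraicCurve IntermediateField WithZero Filter Topology

namespace Fermat.Agent.P5.helper13

open Fermat.Agent.P5.helper25 Fermat.Agent.P5.helper4 Fermat.Agent.P5.helper37

/-! ### Geometry of the left side of a ray -/

section Geometry

variable (G : CutGeometry) (i : Fin G.r)

/-- the left side of the `i`-th ray, away from the other rays -/
def raySide : Set ℂ := leftSide G.z₀ (G.b i) ∩ CutGeom.Uexcept G i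

theorem isOpen_raySide : IsOpen (raySide G i) :=
  (isOpen_leftSide _ _).inter (CutGeom.isOpen_Uexcept _ i)

theorem raySide_subset_U₀ : raySide G i ⊆ G.U₀ := fun _ hz =>
  CutGeom.mem_U₀_of_mem_Uexcept _ hz.2 (not_mem_ray_of_mem_leftSide (G.b_ne i) hz.1)

theorem raySide_subset_leftSide : raySide G i ⊆ leftSide G.z₀ (G.b i) := fun _ hz => hz.1

variable {a : ℂ}

/-- the left side accumulates at every point of the open ray -/
theorem frequently_mem_raySide (ha : a ∈ openRay G.z₀ (G.b i)) :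
    ∃ᶠ z in 𝓝[≠] a, z ∈ raySide G i := by
  have hbi : G.b i - G.z₀ ≠ 0 := sub_ne_zero.2 (G.b_ne i)
  refine frequently_of_line (v := Complex.I * (G.b i - G.z₀))
    (mul_ne_zero Complex.I_ne_zero hbi) ?_
  have hc : Continuous fun t : ℝ => a + (t : ℂ) * (Complex.I * (G.b i - G.z₀)) := by fun_prop
  have ht : Tendsto (fun t : ℝ => a + (t : ℂ) * (Complex.I * (G.b i - G.z₀))) (𝓝[>] (0 : ℝ))
      (𝓝 a) := by
    have := hc.tendsto 0
    simp only [Complex.ofReal_zero, zero_mul, add_zero] at this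
    exact this.mono_left nhdsWithin_le_nhds
  have hU : CutGeom.Uexcept G i ∈ 𝓝 a :=
    (CutGeom.isOpen_Uexcept _ i).mem_nhds
      (CutGeom.ray_subset_Uexcept _ i (openRay_subset_ray _ _ ha))
  filter_upwards [ht.eventually hU, self_mem_nhdsWithin] with t ht1 ht2
  refine ⟨?_, ht1⟩
  have ht2' : (0 : ℝ) < t := ht2
  obtain ⟨s, hs, rfl⟩ := ha
  show 0 < ((G.b i + (s : ℂ) * (G.b i - G.z₀) + (t : ℂ) * (Complex.I * (G.b i - G.z₀)) -
    G.b i) / (G.b i - G.z₀)).im
  have : (G.b i + (s : ℂ) * (G.b i - G.z₀) + (t : ℂ) * (Complex.I * (G.b i - G.z₀)) - G.b i) /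
      (G.b i - G.z₀) = (s : ℂ) + (t : ℂ) * Complex.I := by
    field_simp
    ring
  rw [this]
  simpa using ht2'

/-- the left side of a ray is convex -/
theorem convex_leftSide (z₀ b : ℂ) : Convex ℝ (leftSide z₀ b) := by
  intro z₁ hz₁ z₂ hz₂ t₁ t₂ ht₁ ht₂ ht
  have h1 : 0 < ((z₁ - b) / (b - z₀)).im := hz₁
  have h2 : 0 < ((z₂ - b) / (b - z₀)).im := hz₂
  show 0 < ((t₁ • z₁ + t₂ • z₂ - b) / (b - z₀)).im
  have e : (t₁ • z₁ + t₂ • z₂ - b) / (b - z₀) =
      (t₁ : ℂ) * ((z₁ - b) / (b - z₀)) + (t₂ : ℂ) * ((z₂ - b) / (b - z₀)) := by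
    have ht' : (t₂ : ℂ) = 1 - (t₁ : ℂ) := by
      rw [eq_sub_iff_add_eq, add_comm]
      exact_mod_cast ht
    rw [Complex.real_smul, Complex.real_smul, ht']
    ring
  rw [e, Complex.add_im, Complex.im_ofReal_mul, Complex.im_ofReal_mul]
  rcases ht₁.eq_or_lt with h0 | h0
  · have ht2' : t₂ = 1 := by linarith
    rw [← h0, ht2']
    simpa using h2
  · have := mul_pos h0 h1
    have := mul_nonneg ht₂ h2.le
    linarith

/-- Identity principle along the left side of a ray: two meromorphic germs at a point `a` of the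
open ray which agree on the left side with functions `E₁`, `E₂` agreeing generically on the left
side, agree. -/
theorem eventuallyEq_of_leftSide (ha : a ∈ openRay G.z₀ (G.b i)) {H Φ E₁ E₂ : ℂ → ℂ}
    (hH : MeromorphicAt H a) (hΦ : MeromorphicAt Φ a)
    (h1 : ∀ᶠ z in 𝓝[≠] a, z ∈ leftSide G.z₀ (G.b i) → H z = E₁ z)
    (h2 : ∀ᶠ z in 𝓝[≠] a, z ∈ leftSide G.z₀ (G.b i) → Φ z = E₂ z)
    (h12 : ∀ z ∈ raySide G i, E₁ =ᶠ[𝓝[≠] z] E₂) : H =ᶠ[𝓝[≠] a] Φ := by
  refine eventuallyEq_of_frequently hH hΦ ?_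
  have h3 := eventually_eventually_punctured (h1.and h2)
  refine ((frequently_mem_raySide G i ha).and_eventually h3).mono ?_
  rintro z ⟨hzS, hz⟩
  have h4 : ∀ᶠ w in 𝓝 z, w ∈ raySide G i := (isOpen_raySide G i).mem_nhds hzS
  filter_upwards [nhdsWithin_le_nhds (hz.and h4), h12 z hzS] with w hw hw12
  rw [hw.1.1 hw.2.1, hw.1.2 hw.2.1, hw12]

end Geometry

/-! ### The places over an open ray -/

section Main

variable {F : Type} [Field F] [Algebra ℂ F] (M : SheetModel F)

/-- Continuations from the left side of a ray of different sheets have different germs. -/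
theorem sep_of_leftSide (i : Fin M.r) {a : ℂ} (ha : a ∈ openRay M.z₀ (M.b i))
    (e : Fin M.d → F → ℂ → ℂ)
    (hL : ∀ k h, ∀ᶠ z in 𝓝[≠] a, z ∈ leftSide M.z₀ (M.b i) → e k h z = M.ev k h z)
    {k k' : Fin M.d} (hkk : k ≠ k') : ∃ h, ¬ (e k h =ᶠ[𝓝[≠] a] e k' h) := by
  have hUa : a ∈ CutGeom.Uexcept M.toCutGeometry i :=
    CutGeom.ray_subset_Uexcept _ i (openRay_subset_ray _ _ ha)
  obtain ⟨ε, hε, hball⟩ := Metric.isOpen_iff.1 (CutGeom.isOpen_Uexcept M.toCutGeometry i) a hUa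
  set U : Set ℂ := leftSide M.z₀ (M.b i) ∩ Metric.ball a ε with hU
  have hUpre : IsPreconnected U :=
    ((convex_leftSide _ _).inter (convex_ball a ε)).isPreconnected
  have hUsub : U ⊆ raySide M.toCutGeometry i := fun z hz => ⟨hz.1, hball hz.2⟩
  have hUU₀ : U ⊆ M.toCutGeometry.U₀ := hUsub.trans (raySide_subset_U₀ _ i)
  have hfreq : ∃ᶠ z in 𝓝[≠] a, z ∈ U := by
    have h1 := frequently_mem_raySide M.toCutGeometry i ha
    have h2 : ∀ᶠ z in 𝓝[≠] a, z ∈ Metric.ball a ε :=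
      nhdsWithin_le_nhds (Metric.ball_mem_nhds a hε)
    exact (h1.and_eventually h2).mono fun z hz => ⟨hz.1.1, hz.2⟩
  obtain ⟨z₁, hz₁⟩ := hfreq.exists
  obtain ⟨h, hh⟩ := M.ev_separated k k' hkk z₁ (hUU₀ hz₁)
  refine ⟨h, fun hcontra => ?_⟩
  set D : ℂ → ℂ := fun w => M.ev k h w - M.ev k' h w with hD
  have hDmero : MeromorphicOn D U := fun z hz =>
    (M.ev_meromorphicOn k h z (hUU₀ hz)).fun_sub (M.ev_meromorphicOn k' h z (hUU₀ hz))
  have hD1 : meromorphicOrderAt D z₁ ≠ ⊤ := by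
    intro htop
    rw [meromorphicOrderAt_eq_top_iff] at htop
    apply hh
    filter_upwards [htop] with w hw
    exact sub_eq_zero.1 hw
  have h3 : ∀ᶠ z in 𝓝[≠] a, z ∈ leftSide M.z₀ (M.b i) → D z = 0 := by
    filter_upwards [hL k h, hL k' h, hcontra] with z h1 h2 h3 hz
    show M.ev k h z - M.ev k' h z = 0
    rw [← h1 hz, ← h2 hz, h3, sub_self]
  have h4 := eventually_eventually_punctured h3
  obtain ⟨z₂, hz₂U, hz₂⟩ := (hfreq.and_eventually h4).exists
  have hD2 : meromorphicOrderAt D z₂ = ⊤ := by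
    rw [meromorphicOrderAt_eq_top_iff]
    have h5 : ∀ᶠ w in 𝓝 z₂, w ∈ leftSide M.z₀ (M.b i) :=
      (isOpen_leftSide _ _).mem_nhds hz₂U.1
    filter_upwards [nhdsWithin_le_nhds (hz₂.and h5)] with w hw
    exact hw.1 hw.2
  exact hDmero.meromorphicOrderAt_ne_top_of_isPreconnected hUpre hz₁ hz₂U hD1 hD2

/-- The places over a point of an open ray. -/
theorem exists_places_ray (hD : DictStatement) (i : Fin M.r) (a : ℂ)
    (ha : a ∈ openRay M.z₀ (M.b i)) :
    ∃ W : Fin M.d → Place ℂ F,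
      (∀ k h, h ≠ 0 → ∀ g : ℂ → ℂ, MeromorphicAt g a →
        (∀ᶠ z in 𝓝[≠] a, z ∈ leftSide M.z₀ (M.b i) → g z = M.ev k h z) →
        ((W k).ord h : WithTop ℤ) = meromorphicOrderAt g a) ∧
      (∀ P : Place ℂ F, 0 < P.ord (M.x - algebraMap ℂ F a) → ∃ k, P = W k) := by
  classical
  choose e he using fun k h => M.cross i k a ha h
  have hmero : ∀ k h, MeromorphicAt (e k h) a := fun k h => (he k h).1
  have hL : ∀ k h, ∀ᶠ z in 𝓝[≠] a, z ∈ leftSide M.z₀ (M.b i) → e k h z = M.ev k h z :=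
    fun k h => (he k h).2.1
  have hadd : ∀ k h₁ h₂, e k (h₁ + h₂) =ᶠ[𝓝[≠] a] fun w => e k h₁ w + e k h₂ w := by
    intro k h₁ h₂
    refine eventuallyEq_of_leftSide M.toCutGeometry i ha (E₁ := M.ev k (h₁ + h₂))
      (E₂ := fun w => M.ev k h₁ w + M.ev k h₂ w) (hmero k _)
      ((hmero k h₁).fun_add (hmero k h₂)) (hL k _) ?_
      (fun z hz => M.ev_add k h₁ h₂ z (raySide_subset_U₀ _ i hz))
    filter_upwards [hL k h₁, hL k h₂] with z h1 h2 hz
    rw [h1 hz, h2 hz]
  have hmul : ∀ k h₁ h₂, e k (h₁ * h₂) =ᶠ[𝓝[≠] a] fun w => e k h₁ w * e k h₂ w := by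
    intro k h₁ h₂
    refine eventuallyEq_of_leftSide M.toCutGeometry i ha (E₁ := M.ev k (h₁ * h₂))
      (E₂ := fun w => M.ev k h₁ w * M.ev k h₂ w) (hmero k _)
      ((hmero k h₁).fun_mul (hmero k h₂)) (hL k _) ?_
      (fun z hz => M.ev_mul k h₁ h₂ z (raySide_subset_U₀ _ i hz))
    filter_upwards [hL k h₁, hL k h₂] with z h1 h2 hz
    rw [h1 hz, h2 hz]
  have hconst : ∀ k (c : ℂ), e k (algebraMap ℂ F c) =ᶠ[𝓝[≠] a] fun _ => c := by
    intro k c
    refine eventuallyEq_of_leftSide M.toCutGeometry i ha (E₁ := M.ev k (algebraMap ℂ F c))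
      (E₂ := fun _ => c) (hmero k _) (MeromorphicAt.const c a) (hL k _)
      (Eventually.of_forall fun _ _ => rfl)
      (fun z hz => M.ev_const_eventuallyEq k c (raySide_subset_U₀ _ i hz))
  have hτ : ∀ k, e k (M.xsub a) =ᶠ[𝓝[≠] a] fun w => w - a := by
    intro k
    refine eventuallyEq_of_leftSide M.toCutGeometry i ha (E₁ := M.ev k (M.xsub a))
      (E₂ := fun w => w - a) (hmero k _) (by fun_prop) (hL k _)
      (Eventually.of_forall fun _ _ => rfl)
      (fun z hz => M.ev_xsub k a (raySide_subset_U₀ _ i hz))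
  obtain ⟨W, hW1, -, hW3, -⟩ := places_of_germs_one hD (M.xsub a) (M.xsub_transcendental a)
    (M.xsub_finite a) a M.d (M.d_eq_xsub a) e hmero hadd hmul hconst
    (fun k k' hkk => sep_of_leftSide M i ha e hL hkk) (fun w => w - a) hτ (by
      rw [order_sub_const]
      simp)
  refine ⟨W, ?_, ?_⟩
  · intro k h hh g hg hgL
    rw [hW1 k h hh]
    refine (meromorphicOrderAt_congr ?_).symm
    exact eventuallyEq_of_leftSide M.toCutGeometry i ha (E₁ := M.ev k h) (E₂ := M.ev k h)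
      hg (hmero k h) hgL (hL k h) (fun _ _ => EventuallyEq.rfl)
  · intro P hP
    obtain ⟨k, hk⟩ := hW3 P hP
    exact ⟨k, hk.symm⟩

/-- **[MOD-PL-RAY]** the places of a sheet model over the open rays. -/
theorem rayPlacesStatement : RayPlacesStatement := by
  classical
  intro hD F _ _ M
  obtain ⟨pl₀, -⟩ := intPlacesStatement hD F M
  have hne : Nonempty (Place ℂ F) := ⟨pl₀ ⟨0, M.d_pos⟩ M.z₀⟩
  let plRay : Fin M.r → Fin M.d → ℂ → Place ℂ F := fun i k a =>
    if ha : a ∈ openRay M.z₀ (M.b i) then (exists_places_ray M hD i a ha).choose k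
    else Classical.choice hne
  have hpl : ∀ i a (ha : a ∈ openRay M.z₀ (M.b i)) k,
      plRay i k a = (exists_places_ray M hD i a ha).choose k := by
    intro i a ha k
    simp only [plRay, dif_pos ha]
  refine ⟨plRay, ?_, ?_⟩
  · intro i k a ha h hh g hg hgL
    rw [hpl i a ha k]
    exact (exists_places_ray M hD i a ha).choose_spec.1 k h hh g hg hgL
  · intro i a ha P hP
    obtain ⟨k, hk⟩ := (exists_places_ray M hD i a ha).choose_spec.2 P hP
    exact ⟨k, by rw [hpl i a ha k, hk]⟩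

end Main

end Fermat.Agent.P5.helper13
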