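import Mathlib
import Fermat.Agent.P5.helper25_RHDefs
import Fermat.Agent.P5.helper42_RRDefs
import Fermat.Agent.P5.helper42_RRBase
import Fermat.Agent.P5.helper42_RRLoc
import Fermat.Agent.P2.helper74_RiemannChar0
import Fermat.Agent.P2.helper74_NonSpecial

/-!
# P5 / RR-CON (helper42): the statements `RRCon` from Riemann-Roch and the residue theorem

`rrCon_of_full : ResidueStatement → RRFullStatement → RRConStatement`.
-/

set_option autoImplicit false

namespace Fermat.Agent.P5.helper42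

open AlgebraicCurve KaehlerDifferential IntermediateField
open Fermat.Agent.P2.helper74 Fermat.Agent.P5.helper25

/-! ### The local fields of `RRCon` -/

section Local

variable {F : Type} [Field F] [Algebra ℂ F] (hL : LocalSetting ℂ F)

include hL

theorem hasLogPole_unif {v : Place ℂ F} {τ : Ω[F⁄ℂ]} {m : ℤ} (h : HasLogPole v τ m)
    {t : F} (ht : v.ord t = 1) : 0 ≤ v.ordDifferential (τ - m • dlog F t) := by
  obtain ⟨t', ht', h'⟩ := h
  exact logPole_change hL v ht' ht h'

omit hL in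
theorem hasLogPole_of_regular {v : Place ℂ F} {τ : Ω[F⁄ℂ]} (h : 0 ≤ v.ordDifferential τ) :
    HasLogPole v τ 0 := by
  obtain ⟨t, ht⟩ := exists_ord_eq_one v
  refine ⟨t, ht, ?_⟩
  rw [zero_smul, sub_zero]
  exact h

omit hL in
theorem regular_of_hasLogPole_zero {v : Place ℂ F} {τ : Ω[F⁄ℂ]} (h : HasLogPole v τ 0) :
    0 ≤ v.ordDifferential τ := by
  obtain ⟨t, -, h'⟩ := h
  rwa [zero_smul, sub_zero] at h'

theorem hasLogPole_add {v : Place ℂ F} {τ τ' : Ω[F⁄ℂ]} {m m' : ℤ} (h : HasLogPole v τ m)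
    (h' : HasLogPole v τ' m') : HasLogPole v (τ + τ') (m + m') := by
  obtain ⟨t, ht, h1⟩ := h
  have h2 := hasLogPole_unif hL h' ht
  refine ⟨t, ht, ?_⟩
  have e : τ + τ' - (m + m') • dlog F t = (τ - m • dlog F t) + (τ' - m' • dlog F t) := by
    rw [add_smul]
    abel
  rw [e]
  exact regular_add hL v h1 h2

theorem hasLogPole_neg {v : Place ℂ F} {τ : Ω[F⁄ℂ]} {m : ℤ} (h : HasLogPole v τ m) :
    HasLogPole v (-τ) (-m) := by
  obtain ⟨t, ht, h1⟩ := h
  refine ⟨t, ht, ?_⟩
  have e : -τ - (-m) • dlog F t = -(τ - m • dlog F t) := by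
    rw [neg_smul]
    abel
  rw [e]
  exact regular_neg hL v h1

theorem hasLogPole_zsmul {v : Place ℂ F} {τ : Ω[F⁄ℂ]} {m : ℤ} (h : HasLogPole v τ m) (n : ℤ) :
    HasLogPole v (n • τ) (n * m) := by
  obtain ⟨t, ht, h1⟩ := h
  refine ⟨t, ht, ?_⟩
  have e : n • τ - (n * m) • dlog F t = n • (τ - m • dlog F t) := by
    rw [smul_sub, mul_smul]
  rw [e]
  exact regular_zsmul hL v n h1

theorem hasLogPole_unique {v : Place ℂ F} {τ : Ω[F⁄ℂ]} {m m' : ℤ} (h : HasLogPole v τ m)
    (h' : HasLogPole v τ m') : m = m' := by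
  obtain ⟨t, ht, h1⟩ := h
  obtain ⟨t', ht', h1'⟩ := h'
  have e : ∀ (n : ℤ) (s : F), n • dlog F s = (n : ℂ) • (s⁻¹ • D ℂ F s) := fun n s =>
    zsmul_eq_const_smul n _
  rw [e] at h1 h1'
  have := logPoleK_unique hL v ht ht' h1 h1'
  exact_mod_cast this

/-- the residue divisor of `dlog h` is the divisor of `h` -/
theorem hasLogPole_dlog (v : Place ℂ F) {h : F} (hh : h ≠ 0) :
    HasLogPole v (dlog F h) (v.ord h) := by
  obtain ⟨t, ht⟩ := exists_ord_eq_one v
  have ht0 := ne_zero_of_ord_eq_one v ht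
  refine ⟨t, ht, ?_⟩
  set n : ℤ := v.ord h with hn
  set u : F := h * (t ^ n)⁻¹ with hu
  have htn : t ^ n ≠ 0 := zpow_ne_zero n ht0
  have hu0 : u ≠ 0 := mul_ne_zero hh (inv_ne_zero htn)
  have hordu : v.ord u = 0 := by
    rw [hu, v.ord_mul hh (inv_ne_zero htn), Place.ord_inv, Place.ord_zpow, ht]
    omega
  have hhu : h = u * t ^ n := by
    rw [hu, inv_mul_cancel_right₀ htn]
  have e : dlog F h - n • dlog F t = u⁻¹ • D ℂ F u := by
    show h⁻¹ • D ℂ F h - n • (t⁻¹ • D ℂ F t) = _
    conv_lhs => rw [hhu]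
    rw [dlog_mul_eq hu0 htn, dlog_zpow_eq ht0 n]
    abel
  rw [e]
  exact regular_dlog_of_ord_eq_zero hL v hordu

end Local

/-! ### Differentials of the third kind -/

section Exist

variable {F : Type} [Field F] [Algebra ℂ F]
  (hL : LocalSetting ℂ F) (hS : RiemannSetting ℂ F)
  {res : Place ℂ F → (Ω[F⁄ℂ] →ₗ[ℂ] ℂ)} (hres : IsResidueSystem res)
  {g : ℕ} {W : Divisor ℂ F} {ω₀ : Ω[F⁄ℂ]} (hω₀ : ω₀ ≠ 0)
  (hW : ∀ v, W v = v.ordDifferential ω₀)
  (hRR : ∀ A : Divisor ℂ F, (ell A : ℤ) = Divisor.degree A + 1 - g + ell (W - A))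

include hS hRR in
theorem ell_canonical : ell W = g := by
  have h := hRR 0
  rw [ell_zero hS, map_zero, sub_zero] at h
  have : (ell W : ℤ) = g := by push_cast at h; linarith
  exact_mod_cast this

include hS hRR in
theorem degree_canonical : Divisor.degree W = 2 * (g : ℤ) - 2 := by
  have h := hRR W
  rw [sub_self, ell_zero hS, ell_canonical hS hRR] at h
  push_cast at h
  linarith

include hS in
theorem ell_eq_zero_of_degree_neg {A : Divisor ℂ F} (hA : Divisor.degree A < 0) :
    ell A = 0 := by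
  unfold ell
  rw [L_eq_bot_of_degree_neg hS hA]
  exact finrank_bot ℂ F

include hS hRR in
theorem ell_canonical_add_single (P : Place ℂ F) : ell (W + Finsupp.single P 1) = g := by
  have h := hRR (W + Finsupp.single P 1)
  have e : W - (W + Finsupp.single P 1) = -Finsupp.single P 1 := by abel
  have hd : Divisor.degree (-Finsupp.single P (1 : ℤ)) < 0 := by
    rw [map_neg, Divisor.degree_single, hS.deg_one]
    norm_num
  rw [e, ell_eq_zero_of_degree_neg hS hd, degree_add_single hS, degree_canonical hS hRR] at h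
  have : (ell (W + Finsupp.single P 1) : ℤ) = g := by push_cast at h; linarith
  exact_mod_cast this

include hS hRR in
theorem ell_canonical_add_pair (P Q : Place ℂ F) :
    ell (W + Finsupp.single P 1 + Finsupp.single Q 1) = g + 1 := by
  have h := hRR (W + Finsupp.single P 1 + Finsupp.single Q 1)
  have e : W - (W + Finsupp.single P 1 + Finsupp.single Q 1)
      = -(Finsupp.single P 1 + Finsupp.single Q 1) := by abel
  have hd : Divisor.degree (-(Finsupp.single P (1 : ℤ) + Finsupp.single Q (1 : ℤ))) < 0 := by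
    rw [map_neg, map_add, Divisor.degree_single, Divisor.degree_single, hS.deg_one,
      hS.deg_one]
    norm_num
  rw [e, ell_eq_zero_of_degree_neg hS hd, degree_add_single hS, degree_add_single hS,
    degree_canonical hS hRR] at h
  have : (ell (W + Finsupp.single P 1 + Finsupp.single Q 1) : ℤ) = g + 1 := by
    push_cast at h; linarith
  exact_mod_cast this

include hS hRR in
/-- A function in `L(W + P + Q)` which is neither in `L(W + P)` nor in `L(W + Q)`. -/
theorem exists_pair_function {P Q : Place ℂ F} (hPQ : P ≠ Q) :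
    ∃ f : F, f ≠ 0 ∧ (∀ v, v ≠ P → v ≠ Q → -W v ≤ v.ord f) ∧
      P.ord f = -W P - 1 ∧ Q.ord f = -W Q - 1 := by
  classical
  set A₁ := W + Finsupp.single P 1 + Finsupp.single Q 1 with hA₁
  have hfd := finiteDimensional_L hS A₁
  have key : ∀ R : Place ℂ F, ∃ f ∈ riemannRochSpace A₁,
      f ∉ riemannRochSpace (W + Finsupp.single R 1) := by
    intro R
    by_contra hcon
    push Not at hcon
    have hle : riemannRochSpace A₁ ≤ riemannRochSpace (W + Finsupp.single R 1) := hcon
    have := finiteDimensional_L hS (W + Finsupp.single R 1)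
    have h1 : ell A₁ ≤ ell (W + Finsupp.single R 1) := Submodule.finrank_mono hle
    rw [ell_canonical_add_single hS hRR, hA₁, ell_canonical_add_pair hS hRR] at h1
    omega
  have hsubP : riemannRochSpace (W + Finsupp.single P 1) ≤ riemannRochSpace A₁ := by
    refine L_mono fun v => ?_
    rw [hA₁, Finsupp.add_apply, Finsupp.add_apply, Finsupp.add_apply, Finsupp.single_apply,
      Finsupp.single_apply]
    split_ifs <;> omega
  have hsubQ : riemannRochSpace (W + Finsupp.single Q 1) ≤ riemannRochSpace A₁ := by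
    refine L_mono fun v => ?_
    rw [hA₁, Finsupp.add_apply, Finsupp.add_apply, Finsupp.add_apply, Finsupp.single_apply,
      Finsupp.single_apply]
    split_ifs <;> omega
  -- an element outside both subspaces
  obtain ⟨f, hf1, hfP, hfQ⟩ : ∃ f ∈ riemannRochSpace A₁,
      f ∉ riemannRochSpace (W + Finsupp.single P 1) ∧
      f ∉ riemannRochSpace (W + Finsupp.single Q 1) := by
    obtain ⟨f₂, hf₂, hf₂P⟩ := key P
    obtain ⟨f₃, hf₃, hf₃Q⟩ := key Q
    by_cases h1 : f₂ ∈ riemannRochSpace (W + Finsupp.single Q 1)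
    · by_cases h2 : f₃ ∈ riemannRochSpace (W + Finsupp.single P 1)
      · refine ⟨f₂ + f₃, add_mem hf₂ hf₃, fun h => hf₂P ?_, fun h => hf₃Q ?_⟩
        · have := sub_mem h h2
          rwa [add_sub_cancel_right] at this
        · have := sub_mem h h1
          rwa [add_sub_cancel_left] at this
      · exact ⟨f₃, hf₃, h2, hf₃Q⟩
    · exact ⟨f₂, hf₂, hf₂P, h1⟩
  have hf0 : f ≠ 0 := by
    rintro rfl
    exact hfP (zero_mem _)
  have h1 := (mem_L_iff' hf0).mp hf1
  have hv : ∀ v, -W v - (if P = v then 1 else 0) - (if Q = v then 1 else 0) ≤ v.ord f := by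
    intro v
    have := h1 v
    rw [hA₁, Finsupp.add_apply, Finsupp.add_apply, Finsupp.single_apply,
      Finsupp.single_apply] at this
    split_ifs at this ⊢ <;> omega
  refine ⟨f, hf0, fun v hvP hvQ => ?_, ?_, ?_⟩
  · have := hv v
    rw [if_neg (Ne.symm hvP), if_neg (Ne.symm hvQ)] at this
    omega
  · -- at `P`: `f ∉ L(W + Q)`
    have hP := hv P
    rw [if_pos rfl, if_neg (Ne.symm hPQ)] at hP
    by_contra hne
    apply hfQ
    rw [mem_L_iff' hf0]
    intro v
    rw [Finsupp.add_apply, Finsupp.single_apply]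
    have hvv := hv v
    by_cases hvP : P = v
    · subst hvP
      rw [if_neg (Ne.symm hPQ)]
      omega
    · rw [if_neg hvP] at hvv
      split_ifs at hvv ⊢ <;> omega
  · have hQ := hv Q
    rw [if_neg hPQ, if_pos rfl] at hQ
    by_contra hne
    apply hfP
    rw [mem_L_iff' hf0]
    intro v
    rw [Finsupp.add_apply, Finsupp.single_apply]
    have hvv := hv v
    by_cases hvQ : Q = v
    · subst hvQ
      rw [if_neg hPQ]
      omega
    · rw [if_neg hvQ] at hvv
      split_ifs at hvv ⊢ <;> omega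

include hres in
/-- The residue of a differential with a logarithmic pole. -/
theorem res_eq_of_logPoleK {v : Place ℂ F} {τ : Ω[F⁄ℂ]} {a : ℂ} {t : F} (ht : v.ord t = 1)
    (h : 0 ≤ v.ordDifferential (τ - a • (t⁻¹ • D ℂ F t))) : res v τ = a := by
  have h1 := hres.1 v _ h
  rw [map_sub, map_smul, hres.2.1 v t ht, smul_eq_mul, mul_one, sub_eq_zero] at h1
  exact h1

include hL hS hres hω₀ hW hRR in
/-- **Differentials of the third kind**: for `P ≠ Q` there is a differential with simple poles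
at `P` and `Q`, residues `1` and `-1`, regular elsewhere. -/
theorem exists_thirdKind_pair {P Q : Place ℂ F} (hPQ : P ≠ Q) :
    ∃ τ : Ω[F⁄ℂ], HasLogPole P τ 1 ∧ HasLogPole Q τ (-1) ∧
      ∀ v, v ≠ P → v ≠ Q → 0 ≤ v.ordDifferential τ := by
  classical
  obtain ⟨f, hf0, hfv, hfP, hfQ⟩ := exists_pair_function hS hRR hPQ
  set τ : Ω[F⁄ℂ] := f • ω₀ with hτ
  have hord : ∀ v, v.ordDifferential τ = v.ord f + W v := fun v => by
    rw [hτ, ordDifferential_smul_eq hL v hf0 hω₀, hW v]
  have hτP : P.ordDifferential τ = -1 := by rw [hord, hfP]; ring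
  have hτQ : Q.ordDifferential τ = -1 := by rw [hord, hfQ]; ring
  have hτv : ∀ v, v ≠ P → v ≠ Q → 0 ≤ v.ordDifferential τ := fun v h1 h2 => by
    rw [hord]
    have := hfv v h1 h2
    omega
  obtain ⟨tP, htP⟩ := exists_ord_eq_one P
  obtain ⟨tQ, htQ⟩ := exists_ord_eq_one Q
  obtain ⟨a, ha⟩ := exists_logPoleK hL P (τ := τ) (by rw [hτP]) htP
  obtain ⟨b, hb⟩ := exists_logPoleK hL Q (τ := τ) (by rw [hτQ]) htQ
  have ha0 : a ≠ 0 := logPoleK_ne_zero P (by rw [hτP]; norm_num) ha
  have hresP : res P τ = a := res_eq_of_logPoleK hres htP ha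
  have hresQ : res Q τ = b := res_eq_of_logPoleK hres htQ hb
  have hresv : ∀ v, v ≠ P → v ≠ Q → res v τ = 0 := fun v h1 h2 =>
    hres.1 v τ (hτv v h1 h2)
  -- the residue theorem
  have hsum : a + b = 0 := by
    have h := hres.2.2.2.2 τ
    rw [finsum_eq_sum_of_support_subset (s := {P, Q})] at h
    · rw [Finset.sum_pair hPQ, hresP, hresQ] at h
      exact h
    · intro v hv
      rw [Function.mem_support] at hv
      by_contra hcon
      simp only [Finset.coe_insert, Finset.coe_singleton, Set.mem_insert_iff,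
        Set.mem_singleton_iff, not_or] at hcon
      exact hv (hresv v hcon.1 hcon.2)
  have hb' : b = -a := by linear_combination hsum
  refine ⟨a⁻¹ • τ, ⟨tP, htP, ?_⟩, ⟨tQ, htQ, ?_⟩, fun v h1 h2 =>
    regular_const_smul hL v _ (hτv v h1 h2)⟩
  · have e : a⁻¹ • τ - (1 : ℤ) • dlog F tP = a⁻¹ • (τ - a • (tP⁻¹ • D ℂ F tP)) := by
      rw [smul_sub, smul_smul, inv_mul_cancel₀ ha0, one_smul, one_smul]
      rfl
    rw [e]
    exact regular_const_smul hL P _ ha
  · have e : a⁻¹ • τ - (-1 : ℤ) • dlog F tQ = a⁻¹ • (τ - b • (tQ⁻¹ • D ℂ F tQ)) := by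
      rw [hb', smul_sub, smul_smul, mul_neg, inv_mul_cancel₀ ha0, neg_smul, neg_smul, one_smul,
        one_smul]
      rfl
    rw [e]
    exact regular_const_smul hL Q _ hb

include hL in
theorem hasResidueDivisor_add' {τ τ' : Ω[F⁄ℂ]} {D D' : Divisor ℂ F}
    (h : HasResidueDivisor τ D) (h' : HasResidueDivisor τ' D') :
    HasResidueDivisor (τ + τ') (D + D') := fun v => by
  rw [Finsupp.add_apply]
  exact hasLogPole_add hL (h v) (h' v)

include hL in
theorem hasResidueDivisor_zsmul' {τ : Ω[F⁄ℂ]} {D : Divisor ℂ F}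
    (h : HasResidueDivisor τ D) (n : ℤ) : HasResidueDivisor (n • τ) (n • D) := fun v => by
  rw [Finsupp.smul_apply, smul_eq_mul]
  exact hasLogPole_zsmul hL (h v) n

include hL in
theorem hasResidueDivisor_zero' : HasResidueDivisor (0 : Ω[F⁄ℂ]) (0 : Divisor ℂ F) := fun v => by
  rw [Finsupp.zero_apply]
  exact hasLogPole_of_regular (regular_zero hL v)

include hL hS hres hω₀ hW hRR in
theorem exists_thirdKind_aux (P₀ : Place ℂ F) (D : Divisor ℂ F) :
    ∃ τ : Ω[F⁄ℂ], HasResidueDivisor τ (D - Divisor.degree D • Finsupp.single P₀ (1 : ℤ)) := by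
  classical
  induction D using Finsupp.induction_linear with
  | zero =>
    refine ⟨0, ?_⟩
    rw [map_zero, zero_smul, sub_zero]
    exact hasResidueDivisor_zero' hL
  | add D₁ D₂ h₁ h₂ =>
    obtain ⟨τ₁, hτ₁⟩ := h₁
    obtain ⟨τ₂, hτ₂⟩ := h₂
    refine ⟨τ₁ + τ₂, ?_⟩
    have e : D₁ + D₂ - Divisor.degree (D₁ + D₂) • Finsupp.single P₀ (1 : ℤ)
        = (D₁ - Divisor.degree D₁ • Finsupp.single P₀ (1 : ℤ))
          + (D₂ - Divisor.degree D₂ • Finsupp.single P₀ (1 : ℤ)) := by
      rw [map_add, add_smul]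
      abel
    rw [e]
    exact hasResidueDivisor_add' hL hτ₁ hτ₂
  | single P n =>
    have e : Finsupp.single P n - Divisor.degree (Finsupp.single P n) • Finsupp.single P₀ (1 : ℤ)
        = n • (Finsupp.single P (1 : ℤ) - Finsupp.single P₀ (1 : ℤ)) := by
      rw [Divisor.degree_single, hS.deg_one, Nat.cast_one, mul_one, smul_sub,
        Finsupp.smul_single, Finsupp.smul_single, smul_eq_mul, mul_one]
    rw [e]
    by_cases hP : P = P₀
    · subst hP
      refine ⟨0, ?_⟩
      rw [sub_self, smul_zero]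
      exact hasResidueDivisor_zero' hL
    · obtain ⟨τ, hτP, hτQ, hτv⟩ := exists_thirdKind_pair hL hS hres hω₀ hW hRR hP
      refine ⟨n • τ, hasResidueDivisor_zsmul' hL (fun v => ?_) n⟩
      rw [Finsupp.sub_apply, Finsupp.single_apply, Finsupp.single_apply]
      by_cases hvP : P = v
      · subst hvP
        rw [if_pos rfl, if_neg (Ne.symm hP), sub_zero]
        exact hτP
      · by_cases hvQ : P₀ = v
        · subst hvQ
          rw [if_neg hvP, if_pos rfl, zero_sub]
          exact hτQ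
        · rw [if_neg hvP, if_neg hvQ, sub_zero]
          exact hasLogPole_of_regular (hτv v (Ne.symm hvP) (Ne.symm hvQ))

include hL hS hres hω₀ hW hRR in
theorem exists_thirdKind_of_degree_eq_zero (D : Divisor ℂ F) (hD : Divisor.degree D = 0) :
    ∃ τ : Ω[F⁄ℂ], HasResidueDivisor τ D := by
  obtain ⟨P₀⟩ := hS.nonempty
  obtain ⟨τ, hτ⟩ := exists_thirdKind_aux hL hS hres hω₀ hW hRR P₀ D
  rw [hD, zero_smul, sub_zero] at hτ
  exact ⟨τ, hτ⟩

end Exist

/-! ### The moving lemma -/

section Moving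

variable {F : Type} [Field F] [Algebra ℂ F] (hS : RiemannSetting ℂ F)
  {g : ℕ} {c : ℤ}
  (hc : ∀ D : Divisor ℂ F, c ≤ Divisor.degree D → (ell D : ℤ) + g = Divisor.degree D + 1)

include hS hc in
theorem moving_lemma (cl : Pic0 ℂ F) (Bad : Finset (Place ℂ F)) :
    ∃ D : Divisor.degZero (K := ℂ) (F := F), Pic0.mk D = cl ∧
      ∀ v ∈ Bad, (D : Divisor ℂ F) v = 0 := by
  obtain ⟨D₀, rfl⟩ := Pic0.mk_surjective cl
  have hinf : Infinite (Place ℂ F) := infinite_place hS hc
  obtain ⟨Q₁, hQ₁⟩ := Infinite.exists_notMem_finset Bad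
  obtain ⟨t, ht0, htB, -⟩ := exists_prescribed_ord hS hc Bad
    (fun v => -((D₀ : Divisor ℂ F) v)) Q₁ hQ₁
  obtain ⟨E, hE, hdeg⟩ := hS.principal.exists_divisor t ht0
  have hE0 : E ∈ Divisor.degZero (K := ℂ) (F := F) := Divisor.mem_degZero.mpr hdeg
  refine ⟨D₀ + ⟨E, hE0⟩, ?_, fun v hv => ?_⟩
  · rw [Pic0.mk_add]
    have h0 : Pic0.mk (⟨E, hE0⟩ : Divisor.degZero (K := ℂ) (F := F)) = 0 := by
      unfold Pic0.mk
      rw [QuotientAddGroup.eq_zero_iff, AddSubgroup.mem_addSubgroupOf]
      exact ⟨t, ht0, hE⟩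
    rw [h0, add_zero]
  · show ((D₀ : Divisor ℂ F) + E) v = 0
    rw [Finsupp.add_apply, hE, htB v hv]
    ring

end Moving

/-! ### Assembly -/

/-- **[RR-CON]** the statements `RRCon` follow from the residue theorem and Riemann-Roch. -/
theorem rrCon_of_full (hR : ResidueStatement.{0, 0}) (hF : RRFullStatement.{0, 0}) :
    RRConStatement := by
  intro F _ _ _ _
  obtain ⟨x, hx, hfin, -, -⟩ := exists_separating_transcendental (K := ℂ) (F := F)
  have hL : LocalSetting ℂ F := LocalSetting.of_ff x hx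
  have hS : RiemannSetting ℂ F := riemannSetting_charZero x hx
  obtain ⟨g, -, c, hc⟩ := exists_genus_charZero (K := ℂ) (F := F) x hx
  obtain ⟨res, hres⟩ := hR ℂ F x hx hfin
  have hω₀ : D ℂ F x ≠ 0 := by
    refine Fermat.Agent.S24.helper82.ff_D_ne_zero x hx x ?_
    rintro ⟨a, rfl⟩
    exact hx (isAlgebraic_algebraMap a)
  obtain ⟨W, hW, hRR⟩ := hF ℂ F x hx hfin g ⟨c, hc⟩ (D ℂ F x) hω₀
  exact
    { dlog_residue := fun h D hh hD v => by
        rw [hD v]
        exact hasLogPole_dlog hL v hh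
      residue_unique := fun v τ m m' h h' => hasLogPole_unique hL h h'
      add := fun τ τ' D D' h h' v => by
        rw [Finsupp.add_apply]
        exact hasLogPole_add hL (h v) (h' v)
      neg := fun τ D h v => by
        rw [Finsupp.neg_apply]
        exact hasLogPole_neg hL (h v)
      smul_holomorphic := fun τ a h v => by
        rw [Finsupp.zero_apply]
        have h1 := h v
        rw [Finsupp.zero_apply] at h1
        exact hasLogPole_of_regular
          (regular_const_smul hL v a (regular_of_hasLogPole_zero h1))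
      exists_thirdKind := fun D hD =>
        exists_thirdKind_of_degree_eq_zero hL hS hres hω₀ hW hRR D hD
      const_of_ord_eq_zero := fun h _ hh =>
        exists_eq_algebraMap_of_forall_ord_nonneg hS (fun v => (hh v).ge)
      moving := fun cl Bad => moving_lemma hS hc cl Bad }

end Fermat.Agent.P5.helper42
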