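import Mathlib
import Fermat.Agent.P5.helper42_RRDefs
import Fermat.Agent.P5.helper42_RRBase
import Fermat.Agent.P2.helper74_RiemannChar0
import Fermat.Agent.P2.helper74_RiemannSep

/-!
# P5 / RR (helper42): `genusFF` is the Riemann genus

Consequences of `H1Statement` (package RR-H1): `genusFF K F = g` for the Riemann genus `g`, and
`HasRiemannGenus K F (genusFF K F)` under the hypotheses of S27 (the shape requested by LEF).
-/

set_option autoImplicit false

namespace Fermat.Agent.P5.helper42

open AlgebraicCurve KaehlerDifferential IntermediateField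
open Fermat.Agent.P2.helper74

universe u v

/-- `genusFF K F` is the Riemann genus. -/
theorem genusFF_eq_of_h1 (h1 : H1Statement.{u, v}) {K : Type u} {F : Type v} [Field K]
    [Field F] [Algebra K F] (hS : RiemannSetting K F) {g : ℕ} (hg : HasRiemannGenus K F g) :
    genusFF K F = g := by
  obtain ⟨-, h⟩ := h1 K F hS g hg 0
  rw [ell_zero hS, map_zero] at h
  have : (Module.finrank K (H1 (0 : Divisor K F)) : ℤ) = g := by push_cast at h; linarith
  unfold genusFF
  exact_mod_cast this

/-- The index of speciality, in terms of `genusFF`. -/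
theorem finrank_H1_eq_of_h1 (h1 : H1Statement.{u, v}) {K : Type u} {F : Type v} [Field K]
    [Field F] [Algebra K F] (hS : RiemannSetting K F) {g : ℕ} (hg : HasRiemannGenus K F g)
    (D : Divisor K F) :
    (Module.finrank K (H1 D) : ℤ) = ell D - Divisor.degree D + genusFF K F - 1 := by
  rw [genusFF_eq_of_h1 h1 hS hg]
  exact (h1 K F hS g hg D).2

/-- **`genusFF` is the Riemann genus** under the hypotheses of S27 (characteristic zero). -/
theorem hasRiemannGenus_genusFF (h1 : H1Statement.{u, v}) (K : Type u) (F : Type v) [Field K]
    [Field F] [Algebra K F] [IsAlgClosed K] [CharZero K] [IsCurveOver K F]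
    [Algebra.EssFiniteType K F] : HasRiemannGenus K F (genusFF K F) := by
  obtain ⟨x, hx, hfin, -, -⟩ := exists_separating_transcendental (K := K) (F := F)
  have hS : RiemannSetting K F := riemannSetting_charZero x hx
  obtain ⟨g, -, c, hc⟩ := exists_genus_charZero (K := K) (F := F) x hx
  have hg : HasRiemannGenus K F g := ⟨c, hc⟩
  rw [genusFF_eq_of_h1 h1 hS hg]
  exact hg

/-- Same in any characteristic. -/
theorem hasRiemannGenus_genusFF' (h1 : H1Statement.{u, v}) (K : Type u) (F : Type v) [Field K]
    [Field F] [Algebra K F] [IsAlgClosed K] [IsCurveOver K F]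
    [Algebra.EssFiniteType K F] : HasRiemannGenus K F (genusFF K F) := by
  obtain ⟨x, hx, hfin, hsep, -⟩ := exists_separating_transcendental (K := K) (F := F)
  have hS : RiemannSetting K F := riemannSetting_of_separating x hx
  obtain ⟨g, hg⟩ := exists_hasRiemannGenus (K := K) (F := F) x hx
  rw [genusFF_eq_of_h1 h1 hS hg]
  exact hg

end Fermat.Agent.P5.helper42
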