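import Mathlib
import Fermat.Agent.P5.helper25_RHDefs
import Fermat.Agent.P5.helper25_RRInterface
import Fermat.Agent.P5.helper42_RRDefs
import Fermat.Agent.P5.helper42_RRBase
import Fermat.Agent.P5.helper42_RRLoc
import Fermat.Agent.P5.helper42_RRCon
import Fermat.Agent.P5.helper42_RRGenus
import Fermat.Agent.P2.helper74_RiemannChar0
import Fermat.Agent.P2.helper74_NonSpecial

/-!
# P5 / RR-SURJ (helper15): the statements `RRSurj` from Riemann-Roch, the residue theorem and
the index of speciality

`rrSurj_of_full : ResidueStatement → RRFullStatement → H1Statement → RRSurjStatement`.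

* `ml`  (Mittag-Leffler with one free simple pole) : `H¹(W + P₀) = 0` by `H1Statement` and
  Riemann-Roch, so the repartition `h · 1_S` (`ω = h ω₀`) is `f + β` with `f ∈ F` and
  `β ∈ 𝒜(W + P₀)`; `θ := f ω₀`.
* `exists_residue` : `helper42.exists_logPoleK`.
* `rt`  : the residue theorem of a residue system.
* `hol` : a basis of `L(W)` times `ω₀`.
* `ns`  : non-special divisors inside an infinite set of places (variant of
  `helper74.exists_nonspecial`).
-/

set_option autoImplicit false
set_option linter.unusedSectionVars false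
set_option linter.unusedVariables false

namespace Fermat.Agent.P5.helper15

open AlgebraicCurve KaehlerDifferential IntermediateField
open Fermat.Agent.P2.helper74 Fermat.Agent.P5.helper25 Fermat.Agent.P5.helper42

/-! ### Non-special divisors inside an infinite set of places -/

section NonSpecial

variable {K F : Type*} [Field K] [Field F] [Algebra K F] (hS : RiemannSetting K F)
  {g : ℕ} {c : ℤ}
  (hc : ∀ D : Divisor K F, c ≤ Divisor.degree D → (ell D : ℤ) + g = Divisor.degree D + 1)

include hS hc in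
/-- **Non-special divisors inside an infinite set.** For every infinite set `A` of places there
are `g` distinct places `Q₁, …, Q_g` in `A` with `ℓ(Q₁ + ⋯ + Q_g) = 1`. -/
theorem exists_nonspecial_in (A : Set (Place K F)) (hA : A.Infinite) :
    ∃ Q : Finset (Place K F), Q.card = g ∧ (↑Q : Set (Place K F)) ⊆ A ∧
      ell (sumSingle Q) = 1 := by
  classical
  suffices h : ∀ k : ℕ, k ≤ g →
      ∃ Q : Finset (Place K F), Q.card = k ∧ (↑Q : Set (Place K F)) ⊆ A ∧
        ell (sumSingle Q) = 1 from
    h g le_rfl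
  intro k
  induction k with
  | zero =>
    intro _
    exact ⟨∅, rfl, by simp, by rw [sumSingle_empty]; exact ell_zero hS⟩
  | succ k ih =>
    intro hk
    obtain ⟨Q, hQcard, hQA, hQell⟩ := ih (by omega)
    -- a good point
    have hgood : ∃ P : Place K F, P ∈ A ∧ P ∉ Q ∧
        ell (sumSingle Q + Finsupp.single P 1) = 1 := by
      by_contra hcon
      push Not at hcon
      -- many bad points
      set N : ℕ := (c - k).toNat with hN
      have hN' : c - k ≤ N := Int.self_le_toNat _
      have hinfset : (A \ (↑Q : Set (Place K F))).Infinite := hA.sdiff (Finset.finite_toSet Q)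
      obtain ⟨S, hSsub, hScard⟩ := hinfset.exists_subset_card_eq N
      have hSmem : ∀ P ∈ S, P ∈ A ∧ P ∉ Q := by
        intro P hP
        have := hSsub hP
        exact ⟨this.1, fun h => this.2 (Finset.mem_coe.mpr h)⟩
      have h1 := ell_add_sumSingle_ge hS (E := sumSingle Q) S
        (fun P hP => by rw [sumSingle_apply, if_neg (hSmem P hP).2])
        (fun P hP => by
          have h2 := hcon P (hSmem P hP).1 (hSmem P hP).2
          have h3 : ell (sumSingle Q) ≤ ell (sumSingle Q + Finsupp.single P 1) :=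
            ell_mono hS fun v => by
              rw [Finsupp.add_apply, Finsupp.single_apply]
              split_ifs <;> omega
          omega)
      have hdeg : Divisor.degree (sumSingle Q + sumSingle S) = k + N := by
        rw [map_add, degree_sumSingle hS, degree_sumSingle hS, hQcard, hScard]
      have h4 := hc (sumSingle Q + sumSingle S) (by rw [hdeg]; linarith)
      rw [hdeg] at h4
      rw [hQell, hScard] at h1
      have h5 : ((1 + N : ℕ) : ℤ) ≤ ell (sumSingle Q + sumSingle S) := by exact_mod_cast h1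
      push_cast at h5
      have h6 : (k : ℤ) + 1 ≤ g := by exact_mod_cast hk
      linarith
    obtain ⟨P, hPA, hPQ, hPell⟩ := hgood
    refine ⟨insert P Q, ?_, ?_, ?_⟩
    · rw [Finset.card_insert_of_notMem hPQ, hQcard]
    · rw [Finset.coe_insert]
      exact Set.insert_subset hPA hQA
    · rw [sumSingle_insert hPQ]
      exact hPell

include hS hc in
/-- The field `ns` of `RRSurj`, for the Riemann genus `g`. -/
theorem ns_of (A : Set (Place K F)) (hA : A.Infinite) :
    ∃ P : Fin g → Place K F, Function.Injective P ∧ (∀ j, P j ∈ A) ∧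
      ∀ f : F, f ≠ 0 → (∀ v, (∃ j, P j = v) → -1 ≤ v.ord f) →
        (∀ v, (¬ ∃ j, P j = v) → 0 ≤ v.ord f) → ∃ a : K, f = algebraMap K F a := by
  classical
  obtain ⟨Q, hQcard, hQA, hQell⟩ := exists_nonspecial_in hS hc A hA
  let e : Q ≃ Fin g := Finset.equivFinOfCardEq hQcard
  refine ⟨fun j => (e.symm j : Place K F), ?_, ?_, ?_⟩
  · intro i j hij
    exact e.symm.injective (Subtype.ext hij)
  · intro j
    exact hQA (e.symm j).2
  · intro f hf0 h1 h2
    refine exists_eq_algebraMap_of_ell_eq_one hS (sumSingle_nonneg Q) hQell ?_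
    rw [mem_L_iff' hf0]
    intro v
    rw [sumSingle_apply]
    split_ifs with hv
    · have := h1 v ⟨e ⟨v, hv⟩, by simp⟩
      omega
    · have := h2 v (by
        rintro ⟨j, rfl⟩
        exact hv (e.symm j).2)
      omega

end NonSpecial

/-! ### The residue theorem -/

section Residue

variable {F : Type} [Field F] [Algebra ℂ F]
  {res : Place ℂ F → (Ω[F⁄ℂ] →ₗ[ℂ] ℂ)} (hres : IsResidueSystem res)

include hres in
/-- The field `rt` of `RRSurj`. -/
theorem rt_of (τ : Ω[F⁄ℂ]) (c : Place ℂ F →₀ ℂ) (h : ∀ v, HasSimplePole v τ (c v)) :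
    (c.sum fun _ a => a) = 0 := by
  classical
  have hres_eq : ∀ v, res v τ = c v := fun v => by
    obtain ⟨t, ht, h'⟩ := h v
    exact res_eq_of_logPoleK hres ht h'
  have hsum := hres.2.2.2.2 τ
  rw [finsum_congr hres_eq] at hsum
  rw [Finsupp.sum, ← hsum]
  symm
  refine finsum_eq_sum_of_support_subset _ fun v hv => ?_
  rw [Function.mem_support] at hv
  rw [Finset.mem_coe, Finsupp.mem_support_iff]
  exact hv

end Residue

/-! ### Holomorphic differentials and Mittag-Leffler -/

section Global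

variable {F : Type} [Field F] [Algebra ℂ F]
  (hL : LocalSetting ℂ F) (hS : RiemannSetting ℂ F)
  {g : ℕ} {W : Divisor ℂ F} {ω₀ : Ω[F⁄ℂ]} (hω₀ : ω₀ ≠ 0)
  (hW : ∀ v, W v = v.ordDifferential ω₀)
  (hRR : ∀ A : Divisor ℂ F, (ell A : ℤ) = Divisor.degree A + 1 - g + ell (W - A))

include hL hω₀ hW in
/-- `f ω₀` has order `≥ n` at `v` if `ord_v f ≥ -W v + n` (`n ≤ 0`). -/
theorem ordDifferential_smul_ge {f : F} (v : Place ℂ F) {n : ℤ} (hn : n ≤ 0)
    (hf : f = 0 ∨ -W v + n ≤ v.ord f) : n ≤ v.ordDifferential (f • ω₀) := by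
  rcases eq_or_ne f 0 with rfl | hf0
  · rw [zero_smul]
    exact hn.trans (regular_zero hL v)
  · rw [ordDifferential_smul_eq hL v hf0 hω₀, ← hW v]
    rcases hf with h | h
    · exact absurd h hf0
    · omega

include hL hS hω₀ hW hRR in
/-- The field `hol` of `RRSurj`, for the Riemann genus `g`. -/
theorem hol_of : ∃ ω : Fin g → Ω[F⁄ℂ], LinearIndependent ℂ ω ∧
    ∀ i v, IsRegularAt v (ω i) := by
  have hfd := finiteDimensional_L hS W
  have hell : Module.finrank ℂ (riemannRochSpace W) = g := ell_canonical hS hRR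
  let b := Module.finBasisOfFinrankEq ℂ (riemannRochSpace W) hell
  let φ : riemannRochSpace W →ₗ[ℂ] Ω[F⁄ℂ] :=
    ((LinearMap.toSpanSingleton F Ω[F⁄ℂ] ω₀).restrictScalars ℂ).comp
      (riemannRochSpace W).subtype
  have hφ : ∀ f : riemannRochSpace W, φ f = (f : F) • ω₀ := fun f => rfl
  have hinj : Function.Injective φ := by
    intro a b hab
    rw [hφ, hφ] at hab
    exact Subtype.ext (smul_left_injective F hω₀ hab)
  refine ⟨fun i => φ (b i), b.linearIndependent.map' φ (LinearMap.ker_eq_bot.mpr hinj), ?_⟩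
  intro i v
  show 0 ≤ v.ordDifferential (φ (b i))
  rw [hφ]
  refine ordDifferential_smul_ge hL hω₀ hW v le_rfl ?_
  have := mem_L_iff.mp (b i).2 v
  rcases this with h | h
  · exact Or.inl h
  · exact Or.inr (by omega)

omit [Algebra ℂ F] in
theorem ord_neg' {K : Type*} [Field K] [Algebra K F] (v : Place K F) (f : F) :
    v.ord (-f) = v.ord f := by
  unfold Place.ord
  rw [Valuation.map_neg]

include hL hS hω₀ hW hRR in
/-- The field `ml` of `RRSurj`: Mittag-Leffler with one free simple pole. -/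
theorem ml_of (h1 : H1Statement.{0, 0}) {c : ℤ}
    (hc : ∀ D : Divisor ℂ F, c ≤ Divisor.degree D → (ell D : ℤ) + g = Divisor.degree D + 1)
    (ω : Ω[F⁄ℂ]) (S : Finset (Place ℂ F)) (P₀ : Place ℂ F) (hP₀ : P₀ ∉ S) :
    ∃ θ : Ω[F⁄ℂ], (∀ Q ∈ S, IsRegularAt Q (θ - ω)) ∧
      (∀ Q : Place ℂ F, Q ∉ S → Q ≠ P₀ → IsRegularAt Q θ) ∧ -1 ≤ P₀.ordDifferential θ := by
  classical
  obtain ⟨v₀⟩ := hS.nonempty
  -- `ω = h ω₀`
  obtain ⟨h, hh⟩ : ∃ h : F, ω = h • ω₀ := by
    have hcD : v₀.differentialCoeff ω₀ ≠ 0 := fun h0 => hω₀ ((coeff_eq_zero_iff hL v₀).mp h0)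
    set a : F := v₀.differentialCoeff ω * (v₀.differentialCoeff ω₀)⁻¹ with ha
    refine ⟨a, ?_⟩
    conv_lhs => rw [← coeff_smul_dCoord hL v₀ ω]
    conv_rhs => rw [← coeff_smul_dCoord hL v₀ ω₀]
    rw [smul_smul, ha, inv_mul_cancel_right₀ hcD]
  -- `H¹(W + P₀) = 0`
  obtain ⟨hfin, hrank⟩ := h1 ℂ F hS g ⟨c, hc⟩ (W + Finsupp.single P₀ 1)
  have hrank0 : Module.finrank ℂ (H1 (W + Finsupp.single P₀ 1)) = 0 := by
    have e1 := ell_canonical_add_single hS hRR P₀
    have e2 : Divisor.degree (W + Finsupp.single P₀ 1) = 2 * (g : ℤ) - 1 := by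
      rw [degree_add_single hS, degree_canonical hS hRR]
      ring
    rw [e1, e2] at hrank
    have : (Module.finrank ℂ (H1 (W + Finsupp.single P₀ 1)) : ℤ) = 0 := by
      rw [hrank]
      ring
    exact_mod_cast this
  have hsub : Subsingleton (H1 (W + Finsupp.single P₀ 1)) := Module.finrank_zero_iff.mp hrank0
  -- the repartition `h · 1_S`
  let α : Place ℂ F → F := fun Q => if Q ∈ S then h else 0
  have hα : α ∈ repartitions ℂ F := mem_repartitions_of_finite_ord (by
    refine S.finite_toSet.subset fun v hv => ?_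
    by_contra hvS
    rw [Finset.mem_coe] at hvS
    simp only [Set.mem_ofPred_eq, α, if_neg hvS, Place.ord_zero, lt_self_iff_false] at hv)
  have hmem : (⟨α, hα⟩ : repartitions ℂ F) ∈
      repartitionsOf (W + Finsupp.single P₀ 1) ⊔ principalRepartitions ℂ F := by
    rw [← Submodule.Quotient.mk_eq_zero]
    exact Subsingleton.elim _ _
  obtain ⟨β, hβ, γ, hγ, hsum⟩ := Submodule.mem_sup.mp hmem
  obtain ⟨f, hf⟩ := mem_principalRepartitions_iff.mp hγ
  rw [mem_repartitionsOf_iff] at hβ
  have hβv : ∀ v, (β : Place ℂ F → F) v = α v - f := by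
    intro v
    have h2 : (β : Place ℂ F → F) v + (γ : Place ℂ F → F) v = α v := by
      have := congrArg (fun x : repartitions ℂ F => (x : Place ℂ F → F) v) hsum
      exact this
    rw [hf] at h2
    rw [← h2]
    ring
  have hD₁ : ∀ v, (W + Finsupp.single P₀ (1 : ℤ)) v = W v + if P₀ = v then 1 else 0 := by
    intro v
    rw [Finsupp.add_apply, Finsupp.single_apply]
  refine ⟨f • ω₀, ?_, ?_, ?_⟩
  · intro Q hQ
    show 0 ≤ Q.ordDifferential (f • ω₀ - ω)
    rw [hh, ← sub_smul]
    refine ordDifferential_smul_ge hL hω₀ hW Q le_rfl ?_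
    have hQP : P₀ ≠ Q := fun h0 => hP₀ (h0 ▸ hQ)
    have h3 := hβ Q
    rw [hβv, hD₁, if_neg hQP] at h3
    simp only [α, if_pos hQ] at h3
    rcases h3 with h3 | h3
    · left
      rw [← neg_sub, h3, neg_zero]
    · right
      rw [← neg_sub, ord_neg']
      omega
  · intro Q hQ hQP
    show 0 ≤ Q.ordDifferential (f • ω₀)
    refine ordDifferential_smul_ge hL hω₀ hW Q le_rfl ?_
    have h3 := hβ Q
    rw [hβv, hD₁, if_neg (Ne.symm hQP)] at h3
    simp only [α, if_neg hQ, zero_sub] at h3
    rcases h3 with h3 | h3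
    · left
      exact neg_eq_zero.mp h3
    · right
      rw [ord_neg'] at h3
      omega
  · refine ordDifferential_smul_ge hL hω₀ hW P₀ (by norm_num) ?_
    have h3 := hβ P₀
    rw [hβv, hD₁, if_pos rfl] at h3
    simp only [α, if_neg hP₀, zero_sub] at h3
    rcases h3 with h3 | h3
    · left
      exact neg_eq_zero.mp h3
    · right
      rw [ord_neg'] at h3
      omega

end Global

/-! ### Assembly -/

/-- **[RR-SURJ]** the statements `RRSurj` follow from the residue theorem, Riemann-Roch and the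
index of speciality. -/
theorem rrSurj_of_full : ResidueStatement.{0, 0} → RRFullStatement.{0, 0} →
    H1Statement.{0, 0} → Fermat.Agent.P5.helper25.RRSurjStatement := by
  intro hR hF h1 F _ _ _ _
  obtain ⟨x, hx, hfin, -, -⟩ := exists_separating_transcendental (K := ℂ) (F := F)
  have hL : LocalSetting ℂ F := LocalSetting.of_ff x hx
  have hS : RiemannSetting ℂ F := riemannSetting_charZero x hx
  obtain ⟨g, -, c, hc⟩ := exists_genus_charZero (K := ℂ) (F := F) x hx
  obtain ⟨res, hres⟩ := hR ℂ F x hx hfin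
  have hω₀ : D ℂ F x ≠ 0 := by
    refine Fermat.Agent.S24.helper82.ff_D_ne_zero x hx x ?_
    rintro ⟨a, rfl⟩
    exact hx (isAlgebraic_algebraMap a)
  obtain ⟨W, hW, hRR⟩ := hF ℂ F x hx hfin g ⟨c, hc⟩ (D ℂ F x) hω₀
  have hg : genusFF ℂ F = g := genusFF_eq_of_h1 h1 hS ⟨c, hc⟩
  exact
    { ml := fun ω S P₀ hP₀ => ml_of hL hS hω₀ hW hRR h1 hc ω S P₀ hP₀
      exists_residue := fun v τ hτ => by
        obtain ⟨t, ht⟩ := exists_ord_eq_one v
        obtain ⟨a, ha⟩ := exists_logPoleK hL v hτ ht
        exact ⟨a, t, ht, ha⟩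
      rt := fun τ c h => rt_of hres τ c h
      hol := by
        rw [hg]
        exact hol_of hL hS hω₀ hW hRR
      ns := fun A hA => by
        rw [hg]
        exact ns_of hS hc A hA }

end Fermat.Agent.P5.helper15
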