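/-
P5 / S27 (helper25): module CNT, group-theoretic part.

`complexCount_of_prime` : the complex count for all prime powers follows from
* the count of `ℓ`-torsion for primes `ℓ`  (`TorsionCountPrime`), and
* divisibility of `Pic0`                   (`Pic0Divisible`).
-/
import Mathlib
import Fermat.Agent.P5.helper25_Top

set_option autoImplicit false
set_option linter.style.haveILetI false

open AlgebraicCurve

namespace Fermat.Agent.P5.helper25

/-- In an `ℓ`-divisible abelian group whose `ℓ`-torsion has `ℓ ^ m` elements, the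
`ℓ ^ k`-torsion has `ℓ ^ (m * k)` elements. -/
theorem card_torsionBy_pow_of_divisible {A : Type*} [AddCommGroup A] (ℓ m : ℕ)
    (hdiv : ∀ a : A, ∃ a' : A, (ℓ : ℤ) • a' = a)
    (hcard : Nat.card (Submodule.torsionBy ℤ A (ℓ : ℤ)) = ℓ ^ m) (k : ℕ) :
    Nat.card (Submodule.torsionBy ℤ A ((ℓ ^ k : ℕ) : ℤ)) = ℓ ^ (m * k) := by
  induction k with
  | zero =>
    simp only [pow_zero, Nat.cast_one, mul_zero]
    have : Subsingleton (Submodule.torsionBy ℤ A (1 : ℤ)) := by
      constructor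
      rintro ⟨a, ha⟩ ⟨b, hb⟩
      have ha' : a = 0 := by simpa using (Submodule.mem_torsionBy_iff _ _).mp ha
      have hb' : b = 0 := by simpa using (Submodule.mem_torsionBy_iff _ _).mp hb
      exact Subtype.ext (by simp only [ha', hb'])
    exact Nat.card_unique
  | succ k ih =>
    -- multiplication by `ℓ` : A[ℓ^(k+1)] → A[ℓ^k]
    let f : Submodule.torsionBy ℤ A ((ℓ ^ (k + 1) : ℕ) : ℤ) →+
        Submodule.torsionBy ℤ A ((ℓ ^ k : ℕ) : ℤ) :=
      { toFun := fun a => ⟨(ℓ : ℤ) • a.1, by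
          have ha := a.2
          rw [Submodule.mem_torsionBy_iff] at ha ⊢
          rw [smul_smul]
          have : ((ℓ ^ k : ℕ) : ℤ) * (ℓ : ℤ) = ((ℓ ^ (k + 1) : ℕ) : ℤ) := by
            push_cast; ring
          rw [this]; exact ha⟩
        map_zero' := by ext; simp
        map_add' := fun a b => by ext; simp [smul_add] }
    have hf_surj : Function.Surjective f := by
      rintro ⟨b, hb⟩
      obtain ⟨a, ha⟩ := hdiv b
      refine ⟨⟨a, ?_⟩, Subtype.ext ha⟩
      rw [Submodule.mem_torsionBy_iff] at hb ⊢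
      have : ((ℓ ^ (k + 1) : ℕ) : ℤ) = ((ℓ ^ k : ℕ) : ℤ) * (ℓ : ℤ) := by
        push_cast; ring
      rw [this, mul_smul, ha]; exact hb
    -- the kernel is `A[ℓ]`
    have hker : Nat.card f.ker = ℓ ^ m := by
      rw [← hcard]
      refine Nat.card_congr
        { toFun := fun a => ⟨a.1.1, ?_⟩
          invFun := fun a => ⟨⟨a.1, ?_⟩, ?_⟩
          left_inv := fun a => rfl
          right_inv := fun a => rfl }
      · have ha := a.2
        rw [AddMonoidHom.mem_ker] at ha
        rw [Submodule.mem_torsionBy_iff]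
        exact congrArg Subtype.val ha
      · have ha := a.2
        rw [Submodule.mem_torsionBy_iff] at ha ⊢
        have : ((ℓ ^ (k + 1) : ℕ) : ℤ) = ((ℓ ^ k : ℕ) : ℤ) * (ℓ : ℤ) := by
          push_cast; ring
        rw [this, mul_smul, ha, smul_zero]
      · rw [AddMonoidHom.mem_ker]
        have ha := a.2
        rw [Submodule.mem_torsionBy_iff] at ha
        exact Subtype.ext ha
    have hquot := AddSubgroup.card_eq_card_quotient_mul_card_addSubgroup f.ker
    have hrange : Nat.card (Submodule.torsionBy ℤ A ((ℓ ^ (k + 1) : ℕ) : ℤ) ⧸ f.ker)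
        = Nat.card (Submodule.torsionBy ℤ A ((ℓ ^ k : ℕ) : ℤ)) :=
      Nat.card_congr (QuotientAddGroup.quotientKerEquivOfSurjective f hf_surj).toEquiv
    rw [hquot, hrange, hker, ih, ← pow_add]
    ring_nf

/-- **[AN-ℓ]** the count of `ℓ`-torsion over `ℂ`. -/
def TorsionCountPrime : Prop :=
  ∀ (F : Type) [Field F] [Algebra ℂ F] [IsCurveOver ℂ F] [Algebra.EssFiniteType ℂ F]
    (ℓ : ℕ), ℓ.Prime → Nat.card (Pic0.torsion ℂ F ℓ) = ℓ ^ (2 * genusFF ℂ F)

/-- **[AN-div]** `Pic0` of a complex function field is divisible. -/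
def Pic0Divisible : Prop :=
  ∀ (F : Type) [Field F] [Algebra ℂ F] [IsCurveOver ℂ F] [Algebra.EssFiniteType ℂ F]
    (n : ℕ), 0 < n → ∀ c : Pic0 ℂ F, ∃ c' : Pic0 ℂ F, (n : ℤ) • c' = c

theorem complexCount_of_prime (h1 : TorsionCountPrime) (h2 : Pic0Divisible) : ComplexCount := by
  intro ℓ k hℓ F _ _ _ _
  have h := card_torsionBy_pow_of_divisible (A := Pic0 ℂ F) ℓ (2 * genusFF ℂ F)
    (h2 F ℓ hℓ.pos) (h1 F ℓ hℓ) k
  show Nat.card (Pic0.torsion ℂ F (ℓ ^ k)) = (ℓ ^ k) ^ (2 * genusFF ℂ F)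
  rw [← pow_mul, mul_comm k, ← h]
  rfl

end Fermat.Agent.P5.helper25
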