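/-
P5 / S27 (helper25): module CNT = assembly of the analytic core.

`torsionCountPrime_of_modules`, `pic0Divisible_of_modules`:
from `ExistsCutModel` (MOD), `RHStatement` (MONO+SURJ), `B1Statement` (M6),
`CombTorsion`, `CombDivisible` (COMB) and `RRConStatement` (RR).
-/
import Mathlib
import Fermat.Agent.P5.helper25_RHDefs
import Fermat.Agent.P5.helper25_Count

set_option autoImplicit false
set_option linter.style.haveILetI false

open AlgebraicCurve Filter Topology KaehlerDifferential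

namespace Fermat.Agent.P5.helper25

noncomputable section

variable {F : Type} [Field F] [Algebra ℂ F]

/-! ### Elementary facts on `dlog` -/

theorem dlog_one : dlog F (1 : F) = 0 := by
  unfold dlog
  have h : KaehlerDifferential.D ℂ F (1 : F) = 0 := by
    simp
  rw [h, smul_zero]

theorem dlog_algebraMap (c : ℂ) : dlog F (algebraMap ℂ F c) = 0 := by
  unfold dlog
  rw [(KaehlerDifferential.D ℂ F).map_algebraMap, smul_zero]

/-! ### Formal consequences of `RRCon` -/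

namespace RRCon

variable (RR : RRCon F)
include RR

theorem zero : HasResidueDivisor (0 : Ω[F⁄ℂ]) (0 : Divisor ℂ F) := by
  obtain ⟨τ, hτ⟩ := RR.exists_thirdKind 0 (map_zero _)
  have h := RR.add τ (-τ) 0 (-0) hτ (RR.neg τ 0 hτ)
  simpa using h

theorem sub {τ τ' : Ω[F⁄ℂ]} {D D' : Divisor ℂ F} (h : HasResidueDivisor τ D)
    (h' : HasResidueDivisor τ' D') : HasResidueDivisor (τ - τ') (D - D') := by
  rw [sub_eq_add_neg, sub_eq_add_neg]
  exact RR.add _ _ _ _ h (RR.neg _ _ h')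

theorem nsmul {τ : Ω[F⁄ℂ]} {D : Divisor ℂ F} (h : HasResidueDivisor τ D) (n : ℕ) :
    HasResidueDivisor (n • τ) (n • D) := by
  induction n with
  | zero => simpa using RR.zero
  | succ n ih =>
    rw [succ_nsmul, succ_nsmul]
    exact RR.add _ _ _ _ ih h

theorem divisor_unique {τ : Ω[F⁄ℂ]} {D D' : Divisor ℂ F} (h : HasResidueDivisor τ D)
    (h' : HasResidueDivisor τ D') : D = D' :=
  Finsupp.ext fun v => RR.residue_unique v τ _ _ (h v) (h' v)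

/-- The residue divisor of `dlog h` is principal of degree `0`. -/
theorem principal_of_dlog [IsCurveOver ℂ F] {τ : Ω[F⁄ℂ]} {D : Divisor ℂ F}
    (h : HasResidueDivisor τ D) {f : F} (hf : f ≠ 0) (hτ : τ = dlog F f) :
    (∀ v : Place ℂ F, D v = v.ord f) ∧ Divisor.degree D = 0 := by
  obtain ⟨Df, hDf, hdeg⟩ := (IsCurveOver.hasPrincipalDivisors (K := ℂ) (F := F)).exists_divisor f hf
  have h1 : HasResidueDivisor (dlog F f) Df := RR.dlog_residue f Df hf hDf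
  have h2 : D = Df := RR.divisor_unique h (hτ ▸ h1)
  subst h2
  exact ⟨hDf, hdeg⟩

end RRCon

/-! ### `Pic0` bookkeeping -/

theorem pic0_mk_eq_zero_iff (D : Divisor.degZero (K := ℂ) (F := F)) :
    Pic0.mk D = 0 ↔ ∃ f : F, f ≠ 0 ∧ ∀ v : Place ℂ F, (D : Divisor ℂ F) v = v.ord f := by
  unfold Pic0.mk
  rw [QuotientAddGroup.eq_zero_iff, AddSubgroup.mem_addSubgroupOf]
  rfl

theorem pic0_mk_nsmul (n : ℕ) (D : Divisor.degZero (K := ℂ) (F := F)) :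
    Pic0.mk (n • D) = (n : ℤ) • Pic0.mk D := by
  unfold Pic0.mk
  rw [natCast_zsmul]
  rfl

theorem pic0_mk_sub (D E : Divisor.degZero (K := ℂ) (F := F)) :
    Pic0.mk (D - E) = Pic0.mk D - Pic0.mk E := rfl

/-! ### The subgroup `T₀` and the monodromy map -/

namespace CutModel

variable (M : CutModel F)

theorem mem_T₀_of_residue {τ : Ω[F⁄ℂ]} {D : Divisor ℂ F} (h : HasResidueDivisor τ D)
    (hD : ∀ v, D v ≠ 0 → v ∈ M.interior) : τ ∈ M.T₀ := ⟨D, h, hD⟩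

variable (RR : RRCon F)
include RR

theorem zero_mem_T₀ : (0 : Ω[F⁄ℂ]) ∈ M.T₀ :=
  ⟨0, RR.zero, fun _ hv => absurd rfl hv⟩

theorem add_mem_T₀ {τ τ' : Ω[F⁄ℂ]} (h : τ ∈ M.T₀) (h' : τ' ∈ M.T₀) : τ + τ' ∈ M.T₀ := by
  obtain ⟨D, hD, hDs⟩ := h
  obtain ⟨D', hD', hDs'⟩ := h'
  refine ⟨D + D', RR.add _ _ _ _ hD hD', fun v hv => ?_⟩
  by_cases h0 : D v = 0
  · refine hDs' v fun h0' => hv ?_
    rw [Finsupp.add_apply, h0, h0', add_zero]
  · exact hDs v h0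

theorem neg_mem_T₀ {τ : Ω[F⁄ℂ]} (h : τ ∈ M.T₀) : -τ ∈ M.T₀ := by
  obtain ⟨D, hD, hDs⟩ := h
  refine ⟨-D, RR.neg _ _ hD, fun v hv => hDs v fun h0 => hv ?_⟩
  rw [Finsupp.neg_apply, h0, neg_zero]

theorem sub_mem_T₀ {τ τ' : Ω[F⁄ℂ]} (h : τ ∈ M.T₀) (h' : τ' ∈ M.T₀) : τ - τ' ∈ M.T₀ := by
  rw [sub_eq_add_neg]
  exact M.add_mem_T₀ RR h (M.neg_mem_T₀ RR h')

theorem nsmul_mem_T₀ {τ : Ω[F⁄ℂ]} (h : τ ∈ M.T₀) (n : ℕ) : n • τ ∈ M.T₀ := by
  induction n with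
  | zero => simpa using M.zero_mem_T₀ RR
  | succ n ih =>
    rw [succ_nsmul]
    exact M.add_mem_T₀ RR ih h

end CutModel

/-- The data of the Riemann-Hilbert statement, unbundled. -/
structure MonoData (M : CutModel F) where
  mono : Ω[F⁄ℂ] → M.permDatum.H1 (Additive ℂˣ)
  map_add : ∀ τ ∈ M.T₀, ∀ τ' ∈ M.T₀, mono (τ + τ') = mono τ + mono τ'
  ker : ∀ τ ∈ M.T₀, mono τ = 0 ↔ ∃ h : F, h ≠ 0 ∧ τ = dlog F h
  surj : ∀ c : M.permDatum.H1 (Additive ℂˣ), ∃ τ ∈ M.T₀, mono τ = c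

theorem RH.nonempty_monoData {M : CutModel F} (h : RH M) : Nonempty (MonoData M) := by
  obtain ⟨mono, h1, h2, h3⟩ := h
  exact ⟨⟨mono, h1, h2, h3⟩⟩

namespace MonoData

variable {M : CutModel F} (X : MonoData M) (RR : RRCon F)
include RR

theorem map_zero : X.mono 0 = 0 :=
  (X.ker 0 (M.zero_mem_T₀ RR)).mpr ⟨1, one_ne_zero, dlog_one.symm⟩

theorem map_neg {τ : Ω[F⁄ℂ]} (h : τ ∈ M.T₀) : X.mono (-τ) = -X.mono τ := by
  have h1 := X.map_add τ h (-τ) (M.neg_mem_T₀ RR h)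
  rw [add_neg_cancel, X.map_zero RR] at h1
  exact (neg_eq_of_add_eq_zero_right h1.symm).symm

theorem map_sub {τ τ' : Ω[F⁄ℂ]} (h : τ ∈ M.T₀) (h' : τ' ∈ M.T₀) :
    X.mono (τ - τ') = X.mono τ - X.mono τ' := by
  rw [sub_eq_add_neg, X.map_add τ h (-τ') (M.neg_mem_T₀ RR h'), X.map_neg RR h', sub_eq_add_neg]

theorem map_nsmul {τ : Ω[F⁄ℂ]} (h : τ ∈ M.T₀) (n : ℕ) : X.mono (n • τ) = n • X.mono τ := by
  induction n with
  | zero => simpa using X.map_zero RR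
  | succ n ih =>
    rw [succ_nsmul, succ_nsmul, X.map_add _ (M.nsmul_mem_T₀ RR h n) _ h, ih]

/-- If the monodromy of `τ ∈ T₀` is trivial, the residue divisor of `τ` is principal. -/
theorem principal_of_mono_eq_zero [IsCurveOver ℂ F] {τ : Ω[F⁄ℂ]} {D : Divisor ℂ F}
    (hD : HasResidueDivisor τ D) (hDs : ∀ v, D v ≠ 0 → v ∈ M.interior)
    (h0 : X.mono τ = 0) :
    ∃ f : F, f ≠ 0 ∧ τ = dlog F f ∧ (∀ v : Place ℂ F, D v = v.ord f) ∧ Divisor.degree D = 0 := by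
  obtain ⟨f, hf, hτ⟩ := (X.ker τ ⟨D, hD, hDs⟩).mp h0
  exact ⟨f, hf, hτ, RR.principal_of_dlog hD hf hτ⟩

end MonoData


/-! ### Divisibility of `Pic0` -/

/-- **[AN-div]** from the modules. -/
theorem pic0Divisible_of_modules (hMOD : ExistsCutModel) (hRH : RHStatement)
    (hCD : CombDivisible) (hRR : RRConStatement) : Pic0Divisible := by
  intro F _ _ _ _ n hn c
  classical
  have RR := hRR F
  obtain ⟨Bad, hBad⟩ := hMOD F
  obtain ⟨D₀, hD₀c, hD₀Bad⟩ := RR.moving c Bad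
  obtain ⟨M, hM⟩ := hBad (D₀ : Divisor ℂ F).support (by
    rw [Finset.disjoint_left]
    intro v hv hvB
    exact (Finsupp.mem_support_iff.mp hv) (hD₀Bad v hvB))
  obtain ⟨X⟩ := (hRH F M).nonempty_monoData
  obtain ⟨τ, hτ⟩ := RR.exists_thirdKind (D₀ : Divisor ℂ F) D₀.2
  have hτs : ∀ v, (D₀ : Divisor ℂ F) v ≠ 0 → v ∈ M.interior := fun v hv =>
    hM v (Finsupp.mem_support_iff.mpr hv)
  have hτT : τ ∈ M.T₀ := ⟨_, hτ, hτs⟩
  obtain ⟨χ₁, hχ₁⟩ := hCD M.permDatum M.d_pos M.prod_σ M.transitive n hn (X.mono τ)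
  obtain ⟨τ₁, ⟨D₁, hD₁, hD₁s⟩, hτ₁⟩ := X.surj χ₁
  have hτ₁T : τ₁ ∈ M.T₀ := ⟨D₁, hD₁, hD₁s⟩
  have hres : HasResidueDivisor (τ - n • τ₁) ((D₀ : Divisor ℂ F) - n • D₁) :=
    RR.sub hτ (RR.nsmul hD₁ n)
  have hmem : τ - n • τ₁ ∈ M.T₀ := M.sub_mem_T₀ RR hτT (M.nsmul_mem_T₀ RR hτ₁T n)
  have hmono : X.mono (τ - n • τ₁) = 0 := by
    rw [X.map_sub RR hτT (M.nsmul_mem_T₀ RR hτ₁T n), X.map_nsmul RR hτ₁T, hτ₁, ← hχ₁,
      natCast_zsmul, sub_self]
  obtain ⟨f, hf, hτf⟩ := (X.ker _ hmem).mp hmono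
  obtain ⟨hord, hdeg⟩ := RR.principal_of_dlog hres hf hτf
  have hdeg1 : Divisor.degree D₁ = 0 := by
    rw [map_sub, map_nsmul, show Divisor.degree (D₀ : Divisor ℂ F) = 0 from D₀.2, zero_sub,
      neg_eq_zero, smul_eq_zero] at hdeg
    exact hdeg.resolve_left hn.ne'
  refine ⟨Pic0.mk ⟨D₁, hdeg1⟩, ?_⟩
  rw [← pic0_mk_nsmul, ← hD₀c]
  have h0 : Pic0.mk (D₀ - n • (⟨D₁, hdeg1⟩ : Divisor.degZero (K := ℂ) (F := F))) = 0 :=
    (pic0_mk_eq_zero_iff _).mpr ⟨f, hf, hord⟩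
  rw [pic0_mk_sub, sub_eq_zero] at h0
  exact h0.symm

/-! ### The count of `ℓ`-torsion -/

section count

variable (hMOD : ExistsCutModel) (hRH : RHStatement) (hB1 : B1Statement)
  (hCT : CombTorsion) (hRR : RRConStatement)
include hMOD hRH hB1 hCT hRR

/-- Upper bound: every finite set of `ℓ`-torsion classes injects into `H¹(ℂˣ)[ℓ]` of a cut model
adapted to it. -/
theorem card_le_of_modules (F : Type) [Field F] [Algebra ℂ F] [IsCurveOver ℂ F]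
    [Algebra.EssFiniteType ℂ F] (ℓ : ℕ) (hℓ : ℓ.Prime) (C : Finset (Pic0 ℂ F))
    (hC : ∀ c ∈ C, c ∈ Pic0.torsion ℂ F ℓ) : C.card ≤ ℓ ^ (2 * genusFF ℂ F) := by
  classical
  have RR := hRR F
  obtain ⟨Bad, hBad⟩ := hMOD F
  choose Dc hDc hDcBad using fun c : Pic0 ℂ F => RR.moving c Bad
  obtain ⟨M, hM⟩ := hBad (C.biUnion fun c => (Dc c : Divisor ℂ F).support) (by
    rw [Finset.disjoint_left]
    intro v hv hvB
    obtain ⟨c, -, hvc⟩ := Finset.mem_biUnion.mp hv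
    exact (Finsupp.mem_support_iff.mp hvc) (hDcBad c v hvB))
  obtain ⟨X⟩ := (hRH F M).nonempty_monoData
  have hsupp : ∀ c ∈ C, ∀ v, (Dc c : Divisor ℂ F) v ≠ 0 → v ∈ M.interior := fun c hc v hv =>
    hM v (Finset.mem_biUnion.mpr ⟨c, hc, Finsupp.mem_support_iff.mpr hv⟩)
  -- normalised differentials of the third kind: `ℓ τ' = dlog f`
  have key : ∀ c ∈ C, ∃ τ' : Ω[F⁄ℂ], HasResidueDivisor τ' (Dc c : Divisor ℂ F) ∧
      ∃ f : F, f ≠ 0 ∧ ℓ • τ' = dlog F f := by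
    intro c hc
    obtain ⟨τ, hτ⟩ := RR.exists_thirdKind (Dc c : Divisor ℂ F) (Dc c).2
    have hc0 : Pic0.mk (ℓ • Dc c) = 0 := by
      rw [pic0_mk_nsmul, hDc c]; exact Pic0.mem_torsion.mp (hC c hc)
    obtain ⟨f, hf, hord⟩ := (pic0_mk_eq_zero_iff _).mp hc0
    have h1 : HasResidueDivisor (dlog F f) (ℓ • (Dc c : Divisor ℂ F)) :=
      RR.dlog_residue f _ hf hord
    have h2 := RR.nsmul hτ ℓ
    have h3 : HasResidueDivisor (ℓ • τ - dlog F f) 0 := by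
      have := RR.sub h2 h1
      rwa [sub_self] at this
    have h4 := RR.smul_holomorphic _ ((ℓ : ℂ)⁻¹) h3
    have h5 := RR.sub hτ h4
    rw [sub_zero] at h5
    refine ⟨_, h5, f, hf, ?_⟩
    have hℓ0 : (ℓ : ℂ) ≠ 0 := Nat.cast_ne_zero.mpr hℓ.ne_zero
    rw [smul_sub, ← Nat.cast_smul_eq_nsmul ℂ ℓ ((ℓ : ℂ)⁻¹ • (ℓ • τ - dlog F f)), smul_smul,
      mul_inv_cancel₀ hℓ0, one_smul]
    abel
  choose! τ' hτ' using key
  have hmemT : ∀ c ∈ C, τ' c ∈ M.T₀ := fun c hc => ⟨_, (hτ' c hc).1, hsupp c hc⟩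
  have htors : ∀ c ∈ C, (ℓ : ℤ) • X.mono (τ' c) = 0 := by
    intro c hc
    obtain ⟨f, hf, hℓ'⟩ := (hτ' c hc).2
    rw [natCast_zsmul, ← X.map_nsmul RR (hmemT c hc)]
    exact (X.ker _ (M.nsmul_mem_T₀ RR (hmemT c hc) ℓ)).mpr ⟨f, hf, hℓ'⟩
  have hinj : ∀ c ∈ C, ∀ c' ∈ C, X.mono (τ' c) = X.mono (τ' c') → c = c' := by
    intro c hc c' hc' h
    have h0 : X.mono (τ' c - τ' c') = 0 := by
      rw [X.map_sub RR (hmemT c hc) (hmemT c' hc'), h, sub_self]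
    have hres := RR.sub (hτ' c hc).1 (hτ' c' hc').1
    obtain ⟨f, hf, hτf⟩ := (X.ker _ (M.sub_mem_T₀ RR (hmemT c hc) (hmemT c' hc'))).mp h0
    obtain ⟨hord, -⟩ := RR.principal_of_dlog hres hf hτf
    have h1 : Pic0.mk (Dc c - Dc c') = 0 := (pic0_mk_eq_zero_iff _).mpr ⟨f, hf, hord⟩
    rw [pic0_mk_sub, sub_eq_zero, hDc, hDc] at h1
    exact h1
  -- the count
  have hcard : Nat.card (Submodule.torsionBy ℤ (M.permDatum.H1 (Additive ℂˣ)) (ℓ : ℤ))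
      = ℓ ^ (2 * genusFF ℂ F) := by
    rw [hCT M.permDatum M.d_pos M.prod_σ M.transitive ℓ hℓ, hB1 F M]
  have hpos : 0 < Nat.card (Submodule.torsionBy ℤ (M.permDatum.H1 (Additive ℂˣ)) (ℓ : ℤ)) := by
    rw [hcard]; exact pow_pos hℓ.pos _
  haveI : Finite (Submodule.torsionBy ℤ (M.permDatum.H1 (Additive ℂˣ)) (ℓ : ℤ)) :=
    (Nat.card_pos_iff.mp hpos).2
  let ψ : {c // c ∈ C} → Submodule.torsionBy ℤ (M.permDatum.H1 (Additive ℂˣ)) (ℓ : ℤ) :=
    fun c => ⟨X.mono (τ' c.1), (Submodule.mem_torsionBy_iff _ _).mpr (htors c.1 c.2)⟩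
  have hψ : Function.Injective ψ := fun a b hab =>
    Subtype.ext (hinj a.1 a.2 b.1 b.2 (congrArg Subtype.val hab))
  have hle := Nat.card_le_card_of_injective ψ hψ
  rw [hcard, Nat.card_eq_fintype_card, Fintype.card_coe] at hle
  exact hle

/-- Lower bound: `H¹(ℂˣ)[ℓ]` of any cut model injects into `Pic0[ℓ]`. -/
theorem le_card_of_modules (F : Type) [Field F] [Algebra ℂ F] [IsCurveOver ℂ F]
    [Algebra.EssFiniteType ℂ F] (ℓ : ℕ) (hℓ : ℓ.Prime) [Finite (Pic0.torsion ℂ F ℓ)] :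
    ℓ ^ (2 * genusFF ℂ F) ≤ Nat.card (Pic0.torsion ℂ F ℓ) := by
  classical
  have RR := hRR F
  obtain ⟨Bad, hBad⟩ := hMOD F
  obtain ⟨M, -⟩ := hBad ∅ (Finset.disjoint_empty_left _)
  obtain ⟨X⟩ := (hRH F M).nonempty_monoData
  rw [← hB1 F M, ← hCT M.permDatum M.d_pos M.prod_σ M.transitive ℓ hℓ]
  have key : ∀ χ : Submodule.torsionBy ℤ (M.permDatum.H1 (Additive ℂˣ)) (ℓ : ℤ),
      ∃ (τ : Ω[F⁄ℂ]) (D : Divisor.degZero (K := ℂ) (F := F)),
        HasResidueDivisor τ (D : Divisor ℂ F) ∧ (∀ v, (D : Divisor ℂ F) v ≠ 0 → v ∈ M.interior) ∧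
        X.mono τ = χ.1 ∧ Pic0.mk D ∈ Pic0.torsion ℂ F ℓ := by
    rintro ⟨χ, hχ⟩
    obtain ⟨τ, ⟨D, hD, hDs⟩, hτ⟩ := X.surj χ
    have hT : τ ∈ M.T₀ := ⟨D, hD, hDs⟩
    have h0 : X.mono (ℓ • τ) = 0 := by
      rw [X.map_nsmul RR hT, hτ, ← natCast_zsmul]
      exact (Submodule.mem_torsionBy_iff _ _).mp hχ
    obtain ⟨f, hf, hτf⟩ := (X.ker _ (M.nsmul_mem_T₀ RR hT ℓ)).mp h0
    obtain ⟨hord, hdeg⟩ := RR.principal_of_dlog (RR.nsmul hD ℓ) hf hτf
    have hdegD : Divisor.degree D = 0 := by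
      rw [map_nsmul, smul_eq_zero] at hdeg
      exact hdeg.resolve_left hℓ.ne_zero
    refine ⟨τ, ⟨D, hdegD⟩, hD, hDs, hτ, ?_⟩
    rw [Pic0.mem_torsion, ← pic0_mk_nsmul]
    exact (pic0_mk_eq_zero_iff _).mpr ⟨f, hf, hord⟩
  choose τ D hD hDs hτ htor using key
  let φ : Submodule.torsionBy ℤ (M.permDatum.H1 (Additive ℂˣ)) (ℓ : ℤ) → Pic0.torsion ℂ F ℓ :=
    fun χ => ⟨Pic0.mk (D χ), htor χ⟩
  have hφ : Function.Injective φ := by
    intro χ χ' h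
    have h1 : Pic0.mk (D χ) = Pic0.mk (D χ') := congrArg Subtype.val h
    have h2 : Pic0.mk (D χ - D χ') = 0 := by rw [pic0_mk_sub, h1, sub_self]
    obtain ⟨u, hu, hordu⟩ := (pic0_mk_eq_zero_iff _).mp h2
    have hTχ : τ χ ∈ M.T₀ := ⟨_, hD χ, hDs χ⟩
    have hTχ' : τ χ' ∈ M.T₀ := ⟨_, hD χ', hDs χ'⟩
    have hdu : HasResidueDivisor (dlog F u) ((D χ : Divisor ℂ F) - (D χ' : Divisor ℂ F)) :=
      RR.dlog_residue u _ hu hordu
    have hduT : dlog F u ∈ M.T₀ := by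
      refine ⟨_, hdu, fun v hv => ?_⟩
      by_cases h0 : (D χ : Divisor ℂ F) v = 0
      · refine hDs χ' v fun h0' => hv ?_
        rw [Finsupp.sub_apply, h0, h0', sub_zero]
      · exact hDs χ v h0
    have hω : HasResidueDivisor (τ χ - τ χ' - dlog F u) 0 := by
      have := RR.sub (RR.sub (hD χ) (hD χ')) hdu
      rwa [sub_self] at this
    have hωT : τ χ - τ χ' - dlog F u ∈ M.T₀ :=
      M.sub_mem_T₀ RR (M.sub_mem_T₀ RR hTχ hTχ') hduT
    have hmono_du : X.mono (dlog F u) = 0 := (X.ker _ hduT).mpr ⟨u, hu, rfl⟩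
    have hχχ' : ℓ • ((χ : M.permDatum.H1 (Additive ℂˣ)) - (χ' : M.permDatum.H1 (Additive ℂˣ)))
        = 0 := by
      rw [← natCast_zsmul]
      exact (Submodule.mem_torsionBy_iff _ _).mp (χ - χ').2
    have hmonoω : X.mono (ℓ • (τ χ - τ χ' - dlog F u)) = 0 := by
      rw [X.map_nsmul RR hωT, X.map_sub RR (M.sub_mem_T₀ RR hTχ hTχ') hduT,
        X.map_sub RR hTχ hTχ', hτ, hτ, hmono_du, sub_zero, hχχ']
    obtain ⟨w, hw, hτw⟩ := (X.ker _ (M.nsmul_mem_T₀ RR hωT ℓ)).mp hmonoω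
    obtain ⟨hordw, -⟩ := RR.principal_of_dlog (RR.nsmul hω ℓ) hw hτw
    obtain ⟨cst, hcst⟩ := RR.const_of_ord_eq_zero w hw (fun v => by rw [← hordw v]; simp)
    have hω0 : ℓ • (τ χ - τ χ' - dlog F u) = 0 := by rw [hτw, hcst, dlog_algebraMap]
    have hℓ0 : (ℓ : ℂ) ≠ 0 := Nat.cast_ne_zero.mpr hℓ.ne_zero
    have hω0' : τ χ - τ χ' - dlog F u = 0 := by
      rw [← Nat.cast_smul_eq_nsmul ℂ] at hω0
      have := congrArg (fun t => (ℓ : ℂ)⁻¹ • t) hω0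
      simpa [smul_smul, inv_mul_cancel₀ hℓ0] using this
    have h3 : X.mono (τ χ - τ χ') = 0 :=
      (X.ker _ (M.sub_mem_T₀ RR hTχ hTχ')).mpr ⟨u, hu, sub_eq_zero.mp hω0'⟩
    rw [X.map_sub RR hTχ hTχ', hτ, hτ, sub_eq_zero] at h3
    exact Subtype.ext h3
  exact Nat.card_le_card_of_injective φ hφ

/-- **[AN-ℓ]** from the modules. -/
theorem torsionCountPrime_of_modules : TorsionCountPrime := by
  intro F _ _ _ _ ℓ hℓ
  classical
  set N := ℓ ^ (2 * genusFF ℂ F) with hN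
  have hupper := card_le_of_modules hMOD hRH hB1 hCT hRR F ℓ hℓ
  have hfinite : (Pic0.torsion ℂ F ℓ : Set (Pic0 ℂ F)).Finite := by
    by_contra hinf
    obtain ⟨S, hSsub, hScard⟩ := (Set.not_finite.mp hinf).exists_subset_card_eq (N + 1)
    have := hupper S (fun c hc => hSsub hc)
    omega
  haveI : Finite (Pic0.torsion ℂ F ℓ) := hfinite
  haveI := Fintype.ofFinite (Pic0.torsion ℂ F ℓ)
  apply le_antisymm
  · have h := hupper ((Finset.univ : Finset (Pic0.torsion ℂ F ℓ)).image Subtype.val)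
      (by
        intro c hc
        obtain ⟨c', -, rfl⟩ := Finset.mem_image.mp hc
        exact c'.2)
    rw [Finset.card_image_of_injective _ Subtype.val_injective, Finset.card_univ] at h
    rw [Nat.card_eq_fintype_card]
    exact h
  · exact le_card_of_modules hMOD hRH hB1 hCT hRR F ℓ hℓ

end count

/-! ### Final wiring -/

/-- **The complex count from the modules.** -/
theorem complexCount_of_modules (hMOD : ExistsCutModel) (hRH : RHStatement) (hB1 : B1Statement)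
    (hCT : CombTorsion) (hCD : CombDivisible) (hRR : RRConStatement) : ComplexCount :=
  complexCount_of_prime (torsionCountPrime_of_modules hMOD hRH hB1 hCT hRR)
    (pic0Divisible_of_modules hMOD hRH hCD hRR)

universe u v

/-- **S27 from the modules of program P5.** -/
theorem s27_of_modules (hMOD : ExistsCutModel) (hRH : RHStatement) (hB1 : B1Statement)
    (hCT : CombTorsion) (hCD : CombDivisible) (hRR : RRConStatement)
    (hC : ExistsComplexModel.{u, v}) (hK : ExistsCountableModel.{u, v})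
    (K : Type u) (F : Type v) [Field K] [Field F] [Algebra K F] [IsAlgClosed K] [CharZero K]
    [IsCurveOver K F] [Algebra.EssFiniteType K F]
    (ℓ : ℕ) [Fact ℓ.Prime] (k : ℕ) :
    Nat.card (Pic0.torsion K F (ℓ ^ k)) = ℓ ^ (2 * genusFF K F * k) :=
  s27_of_statements (complexCount_of_modules hMOD hRH hB1 hCT hCD hRR) hC hK K F ℓ k

end

end Fermat.Agent.P5.helper25
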