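/-
P5 / S27 (helper25): module SURJ, package FAM-AN, the Mathlib-only analytic core, part 2:
normal forms of multiplicative and additive primitives.

* `analyticAt_of_mulPrim` : if `E` is meromorphic in normal form at `z`, generically non-zero
  with `E' = Ψ E` generically near `z`, and `Ψ` is analytic at `z`, then `E` is analytic at `z`,
  `E z ≠ 0` and `E' z = Ψ z * E z`;
* `analyticAt_of_addPrim` : the additive twin;
* `exists_nf_mulPrim`, `exists_nf_addPrim` : the versions on an open set, with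
  `toMeromorphicNFOn`.
-/
import Mathlib

set_option autoImplicit false

open Filter Topology Set

namespace Fermat.Agent.P5.helper25

/-- A function which is continuous at `z` and vanishes on a punctured neighbourhood of `z`
vanishes at `z`. -/
theorem eq_zero_of_eventually_punctured {h : ℂ → ℂ} {z : ℂ} (hc : ContinuousAt h z)
    (h0 : ∀ᶠ w in 𝓝[≠] z, h w = 0) : h z = 0 := by
  have h1 : Tendsto h (𝓝[≠] z) (𝓝 (h z)) := hc.tendsto.mono_left nhdsWithin_le_nhds
  have h2 : Tendsto h (𝓝[≠] z) (𝓝 0) :=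
    tendsto_const_nhds.congr' (h0.mono fun w hw => hw.symm)
  exact tendsto_nhds_unique h1 h2

/-- A property which holds on a punctured neighbourhood of `z` holds near every point of a
punctured neighbourhood of `z`. -/
theorem eventually_eventually_nhdsNE {P : ℂ → Prop} {z : ℂ} (h : ∀ᶠ w in 𝓝[≠] z, P w) :
    ∀ᶠ w in 𝓝[≠] z, ∀ᶠ v in 𝓝 w, P v := by
  rw [eventually_nhdsWithin_iff] at h ⊢
  filter_upwards [h.eventually_nhds] with w hw hwz
  have h3 : ∀ᶠ v in 𝓝 w, v ≠ z := (continuous_id.continuousAt (x := w)).eventually_ne hwz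
  filter_upwards [hw, h3] with v hv hvz using hv hvz

theorem hasDerivAt_zpow_mul {g : ℂ → ℂ} {z w : ℂ} (n : ℤ) (hw : w ≠ z)
    (hg : DifferentiableAt ℂ g w) :
    HasDerivAt (fun v => (v - z) ^ n * g v)
      ((n : ℂ) * (w - z) ^ (n - 1) * g w + (w - z) ^ n * deriv g w) w := by
  have h1 : HasDerivAt (fun v : ℂ => v - z) 1 w := (hasDerivAt_id w).sub_const z
  have h2' := (hasDerivAt_zpow n (w - z) (Or.inl (sub_ne_zero.2 hw))).comp w h1
  have h2 : HasDerivAt (fun v : ℂ => (v - z) ^ n) ((n : ℂ) * (w - z) ^ (n - 1) * 1) w := h2'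
  rw [mul_one] at h2
  exact h2.mul hg.hasDerivAt

/-- The key identity: the derivative `D` of `(v - z) ^ n * g v` at `w ≠ z`. -/
theorem zpow_mul_deriv_identity {g : ℂ → ℂ} {z w D : ℂ} (n : ℤ) (hw : w ≠ z)
    (hg : DifferentiableAt ℂ g w) (hD : HasDerivAt (fun v => (v - z) ^ n * g v) D w) :
    (w - z) * D = (w - z) ^ n * ((n : ℂ) * g w + (w - z) * deriv g w) := by
  have h1 := (hasDerivAt_zpow_mul n hw hg).unique hD
  have h2 : (w - z) ^ n = (w - z) ^ (n - 1) * (w - z) := by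
    rw [← zpow_add_one₀ (sub_ne_zero.2 hw)]
    congr 1
    ring
  rw [← h1, h2]
  ring

/-- **Normal form of multiplicative primitives.** -/
theorem analyticAt_of_mulPrim {E Ψ : ℂ → ℂ} {z : ℂ} (hE : MeromorphicNFAt E z)
    (hΨ : AnalyticAt ℂ Ψ z)
    (hprim : ∀ᶠ w in 𝓝[≠] z, E w ≠ 0 ∧ HasDerivAt E (Ψ w * E w) w) :
    AnalyticAt ℂ E z ∧ E z ≠ 0 ∧ HasDerivAt E (Ψ z * E z) z := by
  have hmer : MeromorphicAt E z := hE.meromorphicAt
  have hne : meromorphicOrderAt E z ≠ ⊤ := by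
    rw [meromorphicOrderAt_ne_top_iff_eventually_ne_zero hmer]
    exact hprim.mono fun w hw => hw.1
  obtain ⟨n, hn⟩ := WithTop.ne_top_iff_exists.1 hne
  obtain ⟨g, hg, hg0, hEg⟩ := (meromorphicOrderAt_eq_int_iff hmer).1 hn.symm
  -- the order is zero
  have hn0 : n = 0 := by
    have hkey : ∀ᶠ w in 𝓝[≠] z,
        (w - z) * (Ψ w * g w - deriv g w) - (n : ℂ) * g w = 0 := by
      have hg' : ∀ᶠ w in 𝓝[≠] z, AnalyticAt ℂ g w :=
        nhdsWithin_le_nhds hg.eventually_analyticAt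
      have hEg' : ∀ᶠ w in 𝓝[≠] z, ∀ᶠ v in 𝓝 w, E v = (v - z) ^ n • g v :=
        eventually_eventually_nhdsNE hEg
      filter_upwards [hprim, hg', hEg', self_mem_nhdsWithin] with w hw hgw hEw hwz
      have hwz' : w ≠ z := hwz
      have hD : HasDerivAt (fun v => (v - z) ^ n * g v) (Ψ w * E w) w :=
        hw.2.congr_of_eventuallyEq (hEw.mono fun v hv => by simp [hv])
      have h1 := zpow_mul_deriv_identity n hwz' hgw.differentiableAt hD
      have h2 : E w = (w - z) ^ n * g w := by simpa using hEw.self_of_nhds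
      rw [h2] at h1
      have h3 : (w - z) ^ n ≠ 0 := zpow_ne_zero n (sub_ne_zero.2 hwz')
      have h4 : (w - z) ^ n * ((w - z) * (Ψ w * g w - deriv g w) - (n : ℂ) * g w) = 0 := by
        linear_combination h1
      exact (mul_eq_zero.1 h4).resolve_left h3
    have hc : ContinuousAt (fun w => (w - z) * (Ψ w * g w - deriv g w) - (n : ℂ) * g w) z := by
      have := hg.deriv.continuousAt
      have := hg.continuousAt
      have := hΨ.continuousAt
      fun_prop
    have h5 := eq_zero_of_eventually_punctured hc hkey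
    simp only [sub_self, zero_mul, zero_sub, neg_eq_zero, mul_eq_zero] at h5
    rcases h5 with h5 | h5
    · exact_mod_cast h5
    · exact absurd h5 hg0
  subst hn0
  have han : AnalyticAt ℂ E z := by
    rw [← hE.meromorphicOrderAt_nonneg_iff_analyticAt, ← hn]
    simp
  have hEz : E z ≠ 0 := by
    intro h0
    have h1 := han.meromorphicOrderAt_eq
    rw [← hn] at h1
    have h2 : analyticOrderAt E z ≠ 0 := by
      rw [Ne, han.analyticOrderAt_eq_zero]
      exact not_not.2 h0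
    have h3 : (analyticOrderAt E z).map (fun n : ℕ => (n : ℤ)) = ((0 : ℤ) : WithTop ℤ) := h1.symm
    cases h : analyticOrderAt E z with
    | top => rw [h] at h3; simp at h3
    | coe m =>
      rw [h] at h3 h2
      simp only [ENat.map_natCast] at h3
      have : (m : ℤ) = 0 := by exact_mod_cast h3
      apply h2
      have hm : m = 0 := by exact_mod_cast this
      rw [hm]
      rfl
  refine ⟨han, hEz, ?_⟩
  have hd := han.differentiableAt.hasDerivAt
  have h6 : deriv E z - Ψ z * E z = 0 := by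
    refine eq_zero_of_eventually_punctured (h := fun w => deriv E w - Ψ w * E w) ?_ ?_
    · have := han.deriv.continuousAt
      have := han.continuousAt
      have := hΨ.continuousAt
      fun_prop
    · filter_upwards [hprim] with w hw
      rw [hw.2.deriv, sub_self]
  rw [sub_eq_zero] at h6
  rw [← h6]
  exact hd

/-- **Normal form of additive primitives.** -/
theorem analyticAt_of_addPrim {G Ψ : ℂ → ℂ} {z : ℂ} (hG : MeromorphicNFAt G z)
    (hΨ : AnalyticAt ℂ Ψ z) (hprim : ∀ᶠ w in 𝓝[≠] z, HasDerivAt G (Ψ w) w) :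
    AnalyticAt ℂ G z ∧ HasDerivAt G (Ψ z) z := by
  have hmer : MeromorphicAt G z := hG.meromorphicAt
  have han : AnalyticAt ℂ G z := by
    rcases meromorphicNFAt_iff_analyticAt_or.1 hG with h | ⟨-, hlt, -⟩
    · exact h
    exfalso
    have hne : meromorphicOrderAt G z ≠ ⊤ := fun h => by rw [h] at hlt; simp at hlt
    obtain ⟨n, hn⟩ := WithTop.ne_top_iff_exists.1 hne
    rw [← hn] at hlt
    have hn0 : n < 0 := by exact_mod_cast hlt
    obtain ⟨g, hg, hg0, hEg⟩ := (meromorphicOrderAt_eq_int_iff hmer).1 hn.symm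
    obtain ⟨m, hm⟩ : ∃ m : ℕ, -n = (m : ℤ) := ⟨(-n).toNat, (Int.toNat_of_nonneg (by omega)).symm⟩
    have hkey : ∀ᶠ w in 𝓝[≠] z,
        (w - z) ^ (m + 1) * Ψ w - ((n : ℂ) * g w + (w - z) * deriv g w) = 0 := by
      have hg' : ∀ᶠ w in 𝓝[≠] z, AnalyticAt ℂ g w :=
        nhdsWithin_le_nhds hg.eventually_analyticAt
      have hEg' : ∀ᶠ w in 𝓝[≠] z, ∀ᶠ v in 𝓝 w, G v = (v - z) ^ n • g v :=
        eventually_eventually_nhdsNE hEg
      filter_upwards [hprim, hg', hEg', self_mem_nhdsWithin] with w hw hgw hEw hwz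
      have hwz' : w ≠ z := hwz
      have hD : HasDerivAt (fun v => (v - z) ^ n * g v) (Ψ w) w :=
        hw.congr_of_eventuallyEq (hEw.mono fun v hv => by simp [hv])
      have h1 := zpow_mul_deriv_identity n hwz' hgw.differentiableAt hD
      have h3 : (w - z) ^ (m : ℤ) * (w - z) ^ n = 1 := by
        rw [← zpow_add₀ (sub_ne_zero.2 hwz'), ← hm, neg_add_cancel, zpow_zero]
      have h4 : (w - z) ^ (m + 1) = (w - z) ^ (m : ℤ) * (w - z) := by
        rw [zpow_natCast, pow_succ]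
      rw [h4]
      linear_combination (w - z) ^ (m : ℤ) * h1 +
        ((n : ℂ) * g w + (w - z) * deriv g w) * h3
    have hc : ContinuousAt
        (fun w => (w - z) ^ (m + 1) * Ψ w - ((n : ℂ) * g w + (w - z) * deriv g w)) z := by
      have := hg.deriv.continuousAt
      have := hg.continuousAt
      have := hΨ.continuousAt
      fun_prop
    have h5 := eq_zero_of_eventually_punctured hc hkey
    simp only [sub_self, zero_mul, add_zero, ne_eq, Nat.add_eq_zero_iff, one_ne_zero, and_false,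
      not_false_eq_true, zero_pow, zero_sub, neg_eq_zero, mul_eq_zero] at h5
    rcases h5 with h5 | h5
    · have : n = 0 := by exact_mod_cast h5
      omega
    · exact hg0 h5
  refine ⟨han, ?_⟩
  have hd := han.differentiableAt.hasDerivAt
  have h6 : deriv G z - Ψ z = 0 := by
    refine eq_zero_of_eventually_punctured (h := fun w => deriv G w - Ψ w) ?_ ?_
    · have := han.deriv.continuousAt
      have := hΨ.continuousAt
      fun_prop
    · filter_upwards [hprim] with w hw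
      rw [hw.deriv, sub_self]
  rw [sub_eq_zero] at h6
  rw [← h6]
  exact hd

/-! ### The versions on a set -/

/-- The normal form of a function which is analytic at `z` has the same value at `z`. -/
theorem toMeromorphicNFOn_eq_of_analyticAt {U : Set ℂ} {f : ℂ → ℂ} (hf : MeromorphicOn f U)
    {z : ℂ} (hz : z ∈ U) (han : AnalyticAt ℂ f z) : toMeromorphicNFOn f U z = f z := by
  rw [toMeromorphicNFOn_eq_toMeromorphicNFAt hf hz, toMeromorphicNFAt_eq_self.2 han.meromorphicNFAt]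

/-- **Normal form of multiplicative primitives on a set.** -/
theorem exists_nf_mulPrim {U : Set ℂ} {E ψ : ℂ → ℂ} (hE : MeromorphicOn E U)
    (hprim : ∀ z ∈ U, ∀ᶠ w in 𝓝[≠] z, E w ≠ 0 ∧ HasDerivAt E (ψ w * E w) w) :
    ∃ E' : ℂ → ℂ, MeromorphicOn E' U ∧ (∀ z ∈ U, E' =ᶠ[𝓝[≠] z] E) ∧
      (∀ z ∈ U, AnalyticAt ℂ E z → E' z = E z) ∧
      ∀ z ∈ U, ∀ Ψ : ℂ → ℂ, AnalyticAt ℂ Ψ z → ψ =ᶠ[𝓝[≠] z] Ψ →
        AnalyticAt ℂ E' z ∧ E' z ≠ 0 ∧ HasDerivAt E' (Ψ z * E' z) z := by
  refine ⟨toMeromorphicNFOn E U, (meromorphicNFOn_toMeromorphicNFOn E U).meromorphicOn,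
    fun z hz => hE.toMeromorphicNFOn_eq_self_on_nhdsNE hz,
    fun z hz han => toMeromorphicNFOn_eq_of_analyticAt hE hz han, ?_⟩
  intro z hz Ψ hΨ hψ
  refine analyticAt_of_mulPrim (meromorphicNFOn_toMeromorphicNFOn E U hz) hΨ ?_
  have h1 := hE.toMeromorphicNFOn_eq_self_on_nhdsNE hz
  have h2 : ∀ᶠ w in 𝓝[≠] z, ∀ᶠ v in 𝓝 w, toMeromorphicNFOn E U v = E v :=
    eventually_eventually_nhdsNE h1
  filter_upwards [hprim z hz, h2, hψ] with w hw hw2 hw3
  have h4 := hw2.self_of_nhds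
  rw [h4, ← hw3]
  exact ⟨hw.1, hw.2.congr_of_eventuallyEq hw2⟩

/-- **Normal form of additive primitives on a set.** -/
theorem exists_nf_addPrim {U : Set ℂ} {G ψ : ℂ → ℂ} (hG : MeromorphicOn G U)
    (hprim : ∀ z ∈ U, ∀ᶠ w in 𝓝[≠] z, HasDerivAt G (ψ w) w) :
    ∃ G' : ℂ → ℂ, MeromorphicOn G' U ∧ (∀ z ∈ U, G' =ᶠ[𝓝[≠] z] G) ∧
      (∀ z ∈ U, AnalyticAt ℂ G z → G' z = G z) ∧
      ∀ z ∈ U, ∀ Ψ : ℂ → ℂ, AnalyticAt ℂ Ψ z → ψ =ᶠ[𝓝[≠] z] Ψ →
        AnalyticAt ℂ G' z ∧ HasDerivAt G' (Ψ z) z := by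
  refine ⟨toMeromorphicNFOn G U, (meromorphicNFOn_toMeromorphicNFOn G U).meromorphicOn,
    fun z hz => hG.toMeromorphicNFOn_eq_self_on_nhdsNE hz,
    fun z hz han => toMeromorphicNFOn_eq_of_analyticAt hG hz han, ?_⟩
  intro z hz Ψ hΨ hψ
  refine analyticAt_of_addPrim (meromorphicNFOn_toMeromorphicNFOn G U hz) hΨ ?_
  have h1 := hG.toMeromorphicNFOn_eq_self_on_nhdsNE hz
  have h2 : ∀ᶠ w in 𝓝[≠] z, ∀ᶠ v in 𝓝 w, toMeromorphicNFOn G U v = G v :=
    eventually_eventually_nhdsNE h1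
  filter_upwards [hprim z hz, h2, hψ] with w hw hw2 hw3
  rw [← hw3]
  exact hw.congr_of_eventuallyEq hw2

end Fermat.Agent.P5.helper25
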