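/-
P5 / S27 (helper25): module SURJ, package FAM-AN, the Mathlib-only analytic core, part 1.

* `segInt f p q` : the integral of `f` along the segment from `p` to `q`;
* `segInt_eq_sub` : the fundamental theorem of calculus along a segment (additive);
* `exp_segInt` : the multiplicative twin: `E' = f E` implies `E q = E p * exp (segInt f p q)`;
* `hasDerivAt_segInt_cauchy` : differentiation of Cauchy-type integrals
  `t ↦ segInt (fun w => φ w / (w - t)) p q` with respect to the parameter;
* `cross_add`, `cross_mul` : the crossing lemma: comparison of primitives on the two sides of a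
  cut with the integral of the analytic continuation of the integrand across the cut.
-/
import Mathlib

set_option autoImplicit false

open Filter Topology Set MeasureTheory
open scoped Interval

namespace Fermat.Agent.P5.helper25

noncomputable section

/-! ### Segment integrals -/

/-- The affine parametrisation of the segment from `p` to `q`. -/
def segPath (p q : ℂ) (s : ℝ) : ℂ := p + (s : ℂ) * (q - p)

/-- The integral of `f` along the segment from `p` to `q`. -/
def segInt (f : ℂ → ℂ) (p q : ℂ) : ℂ := (q - p) * ∫ s in (0 : ℝ)..1, f (segPath p q s)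

theorem segPath_zero (p q : ℂ) : segPath p q 0 = p := by simp [segPath]

theorem segPath_one (p q : ℂ) : segPath p q 1 = q := by simp [segPath]

theorem continuous_segPath (p q : ℂ) : Continuous (segPath p q) := by
  unfold segPath
  fun_prop

theorem hasDerivAt_segPath (p q : ℂ) (s : ℝ) : HasDerivAt (segPath p q) (q - p) s := by
  have h1 : HasDerivAt (fun s : ℝ => (s : ℂ)) 1 s := Complex.ofRealCLM.hasDerivAt
  have h2 := (h1.mul_const (q - p)).const_add p
  rw [one_mul] at h2
  exact h2

theorem segPath_mem_segment (p q : ℂ) {s : ℝ} (hs : s ∈ Icc (0 : ℝ) 1) :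
    segPath p q s ∈ segment ℝ p q := by
  refine ⟨1 - s, s, by linarith [hs.2], hs.1, by ring, ?_⟩
  simp only [segPath, Complex.real_smul]
  push_cast
  ring

theorem segPath_mem_of_uIcc (p q : ℂ) {s : ℝ} (hs : s ∈ uIcc (0 : ℝ) 1) :
    segPath p q s ∈ segment ℝ p q := by
  rw [uIcc_of_le zero_le_one] at hs
  exact segPath_mem_segment p q hs

theorem segment_subset_range_segPath (p q : ℂ) {z : ℂ} (hz : z ∈ segment ℝ p q) :
    ∃ s ∈ Icc (0 : ℝ) 1, segPath p q s = z := by
  obtain ⟨a, b, ha, hb, hab, rfl⟩ := hz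
  refine ⟨b, ⟨hb, by linarith⟩, ?_⟩
  have ha' : a = 1 - b := by linarith
  subst ha'
  simp only [segPath, Complex.real_smul]
  push_cast
  ring

theorem continuousOn_comp_segPath {f : ℂ → ℂ} {p q : ℂ} (hf : ContinuousOn f (segment ℝ p q)) :
    ContinuousOn (fun s => f (segPath p q s)) (Icc (0 : ℝ) 1) :=
  hf.comp (continuous_segPath p q).continuousOn fun _ hs => segPath_mem_segment p q hs

theorem intervalIntegrable_comp_segPath {f : ℂ → ℂ} {p q : ℂ}
    (hf : ContinuousOn f (segment ℝ p q)) :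
    IntervalIntegrable (fun s => f (segPath p q s)) volume 0 1 := by
  apply ContinuousOn.intervalIntegrable
  rw [uIcc_of_le zero_le_one]
  exact continuousOn_comp_segPath hf

theorem segInt_congr {f g : ℂ → ℂ} {p q : ℂ} (h : EqOn f g (segment ℝ p q)) :
    segInt f p q = segInt g p q := by
  unfold segInt
  congr 1
  apply intervalIntegral.integral_congr
  intro s hs
  exact h (segPath_mem_of_uIcc p q hs)

theorem segInt_add {f g : ℂ → ℂ} {p q : ℂ} (hf : ContinuousOn f (segment ℝ p q))
    (hg : ContinuousOn g (segment ℝ p q)) :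
    segInt (fun w => f w + g w) p q = segInt f p q + segInt g p q := by
  unfold segInt
  rw [intervalIntegral.integral_add (intervalIntegrable_comp_segPath hf)
    (intervalIntegrable_comp_segPath hg), mul_add]

theorem segInt_sub {f g : ℂ → ℂ} {p q : ℂ} (hf : ContinuousOn f (segment ℝ p q))
    (hg : ContinuousOn g (segment ℝ p q)) :
    segInt (fun w => f w - g w) p q = segInt f p q - segInt g p q := by
  unfold segInt
  rw [intervalIntegral.integral_sub (intervalIntegrable_comp_segPath hf)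
    (intervalIntegrable_comp_segPath hg), mul_sub]

theorem segInt_const_mul (c : ℂ) (f : ℂ → ℂ) (p q : ℂ) :
    segInt (fun w => c * f w) p q = c * segInt f p q := by
  unfold segInt
  rw [intervalIntegral.integral_const_mul]
  ring

theorem segInt_finset_sum {ι : Type*} (s : Finset ι) {f : ι → ℂ → ℂ} {p q : ℂ}
    (hf : ∀ i ∈ s, ContinuousOn (f i) (segment ℝ p q)) :
    segInt (fun w => ∑ i ∈ s, f i w) p q = ∑ i ∈ s, segInt (f i) p q := by
  unfold segInt
  rw [intervalIntegral.integral_finsetSum fun i hi => intervalIntegrable_comp_segPath (hf i hi),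
    Finset.mul_sum]

/-! ### The fundamental theorem of calculus along a segment -/

/-- FTC along a segment, additive form. -/
theorem segInt_eq_sub {V : Set ℂ} {p q : ℂ} (hseg : segment ℝ p q ⊆ V)
    {G f : ℂ → ℂ} (hf : ContinuousOn f V) (hG : ∀ z ∈ V, HasDerivAt G (f z) z) :
    segInt f p q = G q - G p := by
  have h1 : ∀ s ∈ uIcc (0 : ℝ) 1,
      HasDerivAt (fun s => G (segPath p q s)) ((q - p) * f (segPath p q s)) s := by
    intro s hs
    have hz := hseg (segPath_mem_of_uIcc p q hs)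
    have := (hG _ hz).scomp s (hasDerivAt_segPath p q s)
    rw [smul_eq_mul] at this
    exact this
  have h2 : IntervalIntegrable (fun s => (q - p) * f (segPath p q s)) volume 0 1 :=
    (intervalIntegrable_comp_segPath (hf.mono hseg)).const_mul _
  have h3 := intervalIntegral.integral_eq_sub_of_hasDerivAt h1 h2
  rw [intervalIntegral.integral_const_mul, segPath_one, segPath_zero] at h3
  exact h3

/-- FTC along a segment, multiplicative form. -/
theorem exp_segInt {V : Set ℂ} (hV : IsOpen V) {p q : ℂ} (hseg : segment ℝ p q ⊆ V)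
    {E f : ℂ → ℂ} (hf : ContinuousOn f V) (hE : ∀ z ∈ V, HasDerivAt E (f z * E z) z) :
    E q = E p * Complex.exp (segInt f p q) := by
  -- the pulled-back integrand
  set F : ℝ → ℂ := fun s => (q - p) * f (segPath p q s) with hF
  have hW : IsOpen (segPath p q ⁻¹' V) := hV.preimage (continuous_segPath p q)
  have hFc : ContinuousOn F (segPath p q ⁻¹' V) :=
    continuousOn_const.mul (hf.comp (continuous_segPath p q).continuousOn fun _ hs => hs)
  have hmem : ∀ s ∈ uIcc (0 : ℝ) 1, s ∈ segPath p q ⁻¹' V := fun s hs =>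
    hseg (segPath_mem_of_uIcc p q hs)
  have hFi : ∀ a b : ℝ, a ∈ uIcc (0 : ℝ) 1 → b ∈ uIcc (0 : ℝ) 1 →
      IntervalIntegrable F volume a b := by
    intro a b ha hb
    apply ContinuousOn.intervalIntegrable
    refine hFc.mono ?_
    intro s hs
    apply hmem
    exact uIcc_subset_uIcc ha hb hs
  set A : ℝ → ℂ := fun s => ∫ u in (0 : ℝ)..s, F u with hA
  have hA' : ∀ s ∈ uIcc (0 : ℝ) 1, HasDerivAt A (F s) s := by
    intro s hs
    apply intervalIntegral.integral_hasDerivAt_right (hFi 0 s left_mem_uIcc hs)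
    · exact hFc.stronglyMeasurableAtFilter hW s (hmem s hs)
    · exact hFc.continuousAt (hW.mem_nhds (hmem s hs))
  have h1 : ∀ s ∈ uIcc (0 : ℝ) 1,
      HasDerivAt (fun s => E (segPath p q s) * Complex.exp (-A s)) 0 s := by
    intro s hs
    have hz := hmem s hs
    have hE1 := (hE _ hz).scomp s (hasDerivAt_segPath p q s)
    have hA1 : HasDerivAt (fun s => Complex.exp (-A s)) (Complex.exp (-A s) * (-F s)) s :=
      (hA' s hs).neg.cexp
    have key : HasDerivAt (fun s => E (segPath p q s) * Complex.exp (-A s))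
        ((q - p) • (f (segPath p q s) * E (segPath p q s)) * Complex.exp (-A s) +
          E (segPath p q s) * (Complex.exp (-A s) * -F s)) s := hE1.mul hA1
    have e : (q - p) • (f (segPath p q s) * E (segPath p q s)) * Complex.exp (-A s) +
          E (segPath p q s) * (Complex.exp (-A s) * -F s) = 0 := by
      simp only [hF, smul_eq_mul]
      ring
    rw [e] at key
    exact key
  have h3 := intervalIntegral.integral_eq_sub_of_hasDerivAt h1 (by simp)
  simp only [intervalIntegral.integral_zero, segPath_one, segPath_zero] at h3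
  have hA0 : A 0 = 0 := by simp [hA]
  have hA1 : A 1 = segInt f p q := by
    simp only [hA, hF, segInt]
    rw [intervalIntegral.integral_const_mul]
  rw [hA0, hA1, neg_zero, Complex.exp_zero, mul_one] at h3
  have h4 : E q * Complex.exp (-segInt f p q) = E p := by
    linear_combination -h3
  rw [← h4, mul_assoc, ← Complex.exp_add, neg_add_cancel, Complex.exp_zero, mul_one]

/-! ### Cauchy-type integrals depending on a parameter -/

theorem isCompact_segment' (p q : ℂ) : IsCompact (segment ℝ p q) := by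
  rw [segment_eq_image_lineMap]
  exact isCompact_Icc.image AffineMap.lineMap_continuous

theorem isClosed_segment' (p q : ℂ) : IsClosed (segment ℝ p q) :=
  (isCompact_segment' p q).isClosed

theorem segment_nonempty' (p q : ℂ) : (segment ℝ p q).Nonempty := ⟨p, left_mem_segment ℝ p q⟩

/-- A point outside a segment has a positive distance from it. -/
theorem exists_dist_segment {p q t₀ : ℂ} (ht₀ : t₀ ∉ segment ℝ p q) :
    ∃ ρ : ℝ, 0 < ρ ∧ ∀ w ∈ segment ℝ p q, ∀ t ∈ Metric.ball t₀ (ρ / 2), ρ / 2 ≤ ‖w - t‖ := by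
  have h1 := (isClosed_segment' p q).notMem_iff_infDist_pos (segment_nonempty' p q) |>.1 ht₀
  refine ⟨_, h1, fun w hw t ht => ?_⟩
  have h2 : Metric.infDist t₀ (segment ℝ p q) ≤ dist t₀ w := Metric.infDist_le_dist_of_mem hw
  have h3 : dist t t₀ < Metric.infDist t₀ (segment ℝ p q) / 2 := ht
  have h4 : dist t₀ w ≤ dist t₀ t + dist t w := dist_triangle _ _ _
  rw [dist_comm t₀ t] at h4
  have h5 : dist t w = ‖w - t‖ := by rw [dist_comm, dist_eq_norm]
  linarith

theorem continuousOn_div_sub {φ : ℂ → ℂ} {S : Set ℂ} (hφ : ContinuousOn φ S) {t : ℂ}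
    (ht : t ∉ S) (n : ℕ) : ContinuousOn (fun w => φ w / (w - t) ^ n) S := by
  refine hφ.div (by fun_prop) ?_
  intro w hw h0
  apply ht
  have : w - t = 0 := by
    by_contra h
    exact pow_ne_zero n h h0
  rw [sub_eq_zero] at this
  rwa [← this]

/-- Differentiation of a Cauchy-type integral with respect to the parameter. -/
theorem hasDerivAt_segInt_cauchy {p q : ℂ} {φ : ℂ → ℂ} (hφ : ContinuousOn φ (segment ℝ p q))
    {t₀ : ℂ} (ht₀ : t₀ ∉ segment ℝ p q) :
    HasDerivAt (fun t => segInt (fun w => φ w / (w - t)) p q)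
      (segInt (fun w => φ w / (w - t₀) ^ 2) p q) t₀ := by
  obtain ⟨ρ, hρ, hdist⟩ := exists_dist_segment ht₀
  obtain ⟨C, hC⟩ := (isCompact_segment' p q).exists_bound_of_continuousOn hφ
  have hC0 : 0 ≤ C := le_trans (norm_nonneg _) (hC p (left_mem_segment ℝ p q))
  have hball : ∀ t ∈ Metric.ball t₀ (ρ / 2), t ∉ segment ℝ p q := by
    intro t ht hts
    have := hdist t hts t ht
    rw [sub_self, norm_zero] at this
    linarith
  have hmeas : ∀ (n : ℕ), ∀ t ∈ Metric.ball t₀ (ρ / 2),
      AEStronglyMeasurable (fun s => φ (segPath p q s) / (segPath p q s - t) ^ n)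
        (volume.restrict (Ι (0 : ℝ) 1)) := by
    intro n t ht
    have hc := continuousOn_comp_segPath (continuousOn_div_sub hφ (hball t ht) n)
    have hc' : ContinuousOn (fun s => φ (segPath p q s) / (segPath p q s - t) ^ n)
        (Ι (0 : ℝ) 1) := by
      refine hc.mono ?_
      rw [uIoc_of_le zero_le_one]
      exact Ioc_subset_Icc_self
    exact hc'.aestronglyMeasurable measurableSet_uIoc
  have h0 : t₀ ∈ Metric.ball t₀ (ρ / 2) := Metric.mem_ball_self (by linarith)
  have key := intervalIntegral.hasDerivAt_integral_of_dominated_loc_of_deriv_le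
    (μ := volume) (a := (0 : ℝ)) (b := 1)
    (F := fun t s => φ (segPath p q s) / (segPath p q s - t))
    (F' := fun t s => φ (segPath p q s) / (segPath p q s - t) ^ 2)
    (x₀ := t₀) (s := Metric.ball t₀ (ρ / 2)) (bound := fun _ => C / (ρ / 2) ^ 2)
    (Metric.ball_mem_nhds _ (by linarith)) ?_ ?_ ?_ ?_ ?_ ?_
  · have := key.2.const_mul (q - p)
    exact this
  · filter_upwards [Metric.ball_mem_nhds t₀ (by linarith : 0 < ρ / 2)] with t ht
    have := hmeas 1 t ht
    simpa using this
  · have := intervalIntegrable_comp_segPath (continuousOn_div_sub hφ ht₀ 1)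
    simpa using this
  · exact hmeas 2 t₀ h0
  · refine Eventually.of_forall fun s hs t ht => ?_
    rw [uIoc_of_le zero_le_one] at hs
    have hw := segPath_mem_segment p q (Ioc_subset_Icc_self hs)
    have h1 := hdist _ hw t ht
    have h2 := hC _ hw
    rw [norm_div, norm_pow]
    have h3 : (ρ / 2) ^ 2 ≤ ‖segPath p q s - t‖ ^ 2 :=
      pow_le_pow_left₀ (by linarith) h1 2
    exact div_le_div₀ hC0 h2 (by positivity) h3
  · exact intervalIntegrable_const
  · refine Eventually.of_forall fun s hs t ht => ?_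
    rw [uIoc_of_le zero_le_one] at hs
    have hw := segPath_mem_segment p q (Ioc_subset_Icc_self hs)
    have h1 := hdist _ hw t ht
    have hne : segPath p q s - t ≠ 0 := by
      intro h
      rw [h, norm_zero] at h1
      linarith
    have h2 : HasDerivAt (fun t => segPath p q s - t) (-1) t := by
      simpa using (hasDerivAt_id t).const_sub (segPath p q s)
    have h3 : HasDerivAt (fun t => φ (segPath p q s) * (segPath p q s - t)⁻¹)
        (φ (segPath p q s) * (- -1 / (segPath p q s - t) ^ 2)) t :=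
      (h2.inv hne).const_mul (φ (segPath p q s))
    have h4 : (fun t => φ (segPath p q s) / (segPath p q s - t)) =
        fun t => φ (segPath p q s) * (segPath p q s - t)⁻¹ := by
      funext t
      rw [div_eq_mul_inv]
    have h5 : φ (segPath p q s) / (segPath p q s - t) ^ 2 =
        φ (segPath p q s) * (- -1 / (segPath p q s - t) ^ 2) := by
      rw [neg_neg, mul_one_div]
    show HasDerivAt (fun t => φ (segPath p q s) / (segPath p q s - t))
      (φ (segPath p q s) / (segPath p q s - t) ^ 2) t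
    rw [h4, h5]
    exact h3

/-! ### The sheet functions of a Cauchy-kernel family -/

/-- The sheet function of a Cauchy-kernel family:
`∑ m, c m * (Y w ^ m / (w - t)) - ∑ ν, u ν * Θ ν w`. -/
def kerFun {N n : ℕ} (c : Fin N → ℂ) (u : Fin n → ℂ) (Y : ℂ → ℂ) (Θ : Fin n → ℂ → ℂ)
    (t w : ℂ) : ℂ :=
  (∑ m : Fin N, c m * (Y w ^ (m : ℕ) / (w - t))) - ∑ ν : Fin n, u ν * Θ ν w

/-- The derivative of the sheet function of a Cauchy-kernel family with respect to the
parameter. -/
def kerFun' {N n : ℕ} (c c' : Fin N → ℂ) (u' : Fin n → ℂ) (Y : ℂ → ℂ) (Θ : Fin n → ℂ → ℂ)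
    (t w : ℂ) : ℂ :=
  (∑ m : Fin N, (c' m * (Y w ^ (m : ℕ) / (w - t)) + c m * (Y w ^ (m : ℕ) / (w - t) ^ 2))) -
    ∑ ν : Fin n, u' ν * Θ ν w

section kerFun

variable {N n : ℕ} {Y : ℂ → ℂ} {Θ : Fin n → ℂ → ℂ} {p q : ℂ}

theorem continuousOn_kerFun {S : Set ℂ} (c : Fin N → ℂ) (u : Fin n → ℂ)
    (hY : ContinuousOn Y S) (hΘ : ∀ ν, ContinuousOn (Θ ν) S) {t : ℂ} (ht : t ∉ S) :
    ContinuousOn (kerFun c u Y Θ t) S := by
  unfold kerFun
  refine ContinuousOn.sub ?_ ?_
  · refine continuousOn_finsetSum _ fun m _ => continuousOn_const.mul ?_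
    have := continuousOn_div_sub (hY.pow (m : ℕ)) ht 1
    simpa using this
  · exact continuousOn_finsetSum _ fun ν _ => continuousOn_const.mul (hΘ ν)

theorem continuousOn_kerFun' {S : Set ℂ} (c c' : Fin N → ℂ) (u' : Fin n → ℂ)
    (hY : ContinuousOn Y S) (hΘ : ∀ ν, ContinuousOn (Θ ν) S) {t : ℂ} (ht : t ∉ S) :
    ContinuousOn (kerFun' c c' u' Y Θ t) S := by
  unfold kerFun'
  refine ContinuousOn.sub ?_ ?_
  · refine continuousOn_finsetSum _ fun m _ => ContinuousOn.add (continuousOn_const.mul ?_)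
      (continuousOn_const.mul ?_)
    · have := continuousOn_div_sub (hY.pow (m : ℕ)) ht 1
      simpa using this
    · exact continuousOn_div_sub (hY.pow (m : ℕ)) ht 2
  · exact continuousOn_finsetSum _ fun ν _ => continuousOn_const.mul (hΘ ν)

theorem segInt_kerFun (c : Fin N → ℂ) (u : Fin n → ℂ) (hY : ContinuousOn Y (segment ℝ p q))
    (hΘ : ∀ ν, ContinuousOn (Θ ν) (segment ℝ p q)) {t : ℂ} (ht : t ∉ segment ℝ p q) :
    segInt (kerFun c u Y Θ t) p q =
      (∑ m : Fin N, c m * segInt (fun w => Y w ^ (m : ℕ) / (w - t)) p q) -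
        ∑ ν : Fin n, u ν * segInt (Θ ν) p q := by
  have h1 : ∀ m : Fin N, ContinuousOn (fun w => Y w ^ (m : ℕ) / (w - t)) (segment ℝ p q) := by
    intro m
    have := continuousOn_div_sub (hY.pow (m : ℕ)) ht 1
    simpa using this
  have hc1 : ∀ m : Fin N, ContinuousOn (fun w => c m * (Y w ^ (m : ℕ) / (w - t)))
      (segment ℝ p q) := fun m => continuousOn_const.mul (h1 m)
  have hc2 : ∀ ν : Fin n, ContinuousOn (fun w => u ν * Θ ν w) (segment ℝ p q) :=
    fun ν => continuousOn_const.mul (hΘ ν)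
  have hs1 : ContinuousOn (fun w => ∑ m : Fin N, c m * (Y w ^ (m : ℕ) / (w - t)))
      (segment ℝ p q) := continuousOn_finsetSum _ fun m _ => hc1 m
  have hs2 : ContinuousOn (fun w => ∑ ν : Fin n, u ν * Θ ν w) (segment ℝ p q) :=
    continuousOn_finsetSum _ fun ν _ => hc2 ν
  unfold kerFun
  rw [segInt_sub hs1 hs2, segInt_finset_sum _ fun m _ => hc1 m,
    segInt_finset_sum _ fun ν _ => hc2 ν]
  simp only [segInt_const_mul]

theorem segInt_kerFun' (c c' : Fin N → ℂ) (u' : Fin n → ℂ)
    (hY : ContinuousOn Y (segment ℝ p q))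
    (hΘ : ∀ ν, ContinuousOn (Θ ν) (segment ℝ p q)) {t : ℂ} (ht : t ∉ segment ℝ p q) :
    segInt (kerFun' c c' u' Y Θ t) p q =
      (∑ m : Fin N, (c' m * segInt (fun w => Y w ^ (m : ℕ) / (w - t)) p q +
        c m * segInt (fun w => Y w ^ (m : ℕ) / (w - t) ^ 2) p q)) -
        ∑ ν : Fin n, u' ν * segInt (Θ ν) p q := by
  have h1 : ∀ m : Fin N, ContinuousOn (fun w => Y w ^ (m : ℕ) / (w - t)) (segment ℝ p q) := by
    intro m
    have := continuousOn_div_sub (hY.pow (m : ℕ)) ht 1
    simpa using this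
  have h2 : ∀ m : Fin N, ContinuousOn (fun w => Y w ^ (m : ℕ) / (w - t) ^ 2)
      (segment ℝ p q) := fun m => continuousOn_div_sub (hY.pow (m : ℕ)) ht 2
  have hc1 : ∀ m : Fin N, ContinuousOn (fun w => c' m * (Y w ^ (m : ℕ) / (w - t)))
      (segment ℝ p q) := fun m => continuousOn_const.mul (h1 m)
  have hc1' : ∀ m : Fin N, ContinuousOn (fun w => c m * (Y w ^ (m : ℕ) / (w - t) ^ 2))
      (segment ℝ p q) := fun m => continuousOn_const.mul (h2 m)
  have hc1'' : ∀ m : Fin N, ContinuousOn (fun w => c' m * (Y w ^ (m : ℕ) / (w - t)) +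
      c m * (Y w ^ (m : ℕ) / (w - t) ^ 2)) (segment ℝ p q) := fun m => (hc1 m).add (hc1' m)
  have hc2 : ∀ ν : Fin n, ContinuousOn (fun w => u' ν * Θ ν w) (segment ℝ p q) :=
    fun ν => continuousOn_const.mul (hΘ ν)
  have hs1 : ContinuousOn (fun w => ∑ m : Fin N, (c' m * (Y w ^ (m : ℕ) / (w - t)) +
      c m * (Y w ^ (m : ℕ) / (w - t) ^ 2))) (segment ℝ p q) :=
    continuousOn_finsetSum _ fun m _ => hc1'' m
  have hs2 : ContinuousOn (fun w => ∑ ν : Fin n, u' ν * Θ ν w) (segment ℝ p q) :=
    continuousOn_finsetSum _ fun ν _ => hc2 ν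
  unfold kerFun'
  rw [segInt_sub hs1 hs2, segInt_finset_sum _ fun m _ => hc1'' m,
    segInt_finset_sum _ fun ν _ => hc2 ν]
  congr 1
  · refine Finset.sum_congr rfl fun m _ => ?_
    rw [segInt_add (hc1 m) (hc1' m), segInt_const_mul, segInt_const_mul]
  · simp only [segInt_const_mul]

/-- **Differentiation of the segment integrals of a Cauchy-kernel family with respect to the
parameter.** -/
theorem hasDerivAt_segInt_kerFun {c : Fin N → ℂ → ℂ} {u : Fin n → ℂ → ℂ} {c' : Fin N → ℂ}
    {u' : Fin n → ℂ} {t₀ : ℂ} (hc : ∀ m, HasDerivAt (c m) (c' m) t₀)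
    (hu : ∀ ν, HasDerivAt (u ν) (u' ν) t₀) (hY : ContinuousOn Y (segment ℝ p q))
    (hΘ : ∀ ν, ContinuousOn (Θ ν) (segment ℝ p q)) (ht₀ : t₀ ∉ segment ℝ p q) :
    HasDerivAt (fun t => segInt (kerFun (fun m => c m t) (fun ν => u ν t) Y Θ t) p q)
      (segInt (kerFun' (fun m => c m t₀) c' u' Y Θ t₀) p q) t₀ := by
  have hev : ∀ᶠ t in 𝓝 t₀, t ∉ segment ℝ p q :=
    (isClosed_segment' p q).isOpen_compl.mem_nhds ht₀
  have h1 : (fun t => segInt (kerFun (fun m => c m t) (fun ν => u ν t) Y Θ t) p q) =ᶠ[𝓝 t₀]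
      fun t => (∑ m : Fin N, c m t * segInt (fun w => Y w ^ (m : ℕ) / (w - t)) p q) -
        ∑ ν : Fin n, u ν t * segInt (Θ ν) p q := by
    filter_upwards [hev] with t ht
    exact segInt_kerFun _ _ hY hΘ ht
  rw [segInt_kerFun' _ _ _ hY hΘ ht₀]
  refine HasDerivAt.congr_of_eventuallyEq ?_ h1
  refine HasDerivAt.sub ?_ ?_
  · refine HasDerivAt.fun_sum fun m _ => ?_
    exact (hc m).mul (hasDerivAt_segInt_cauchy (hY.pow (m : ℕ)) ht₀)
  · refine HasDerivAt.fun_sum fun ν _ => ?_
    exact (hu ν).mul_const _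

end kerFun

/-! ### The crossing lemma -/

section cross

variable {q : ℂ} {δ : ℝ} {L R : Set ℂ}

/-- A germ which is meromorphic at `q` and agrees on an open set accumulating at `q` with a
function which is analytic at `q` agrees with it on a punctured neighbourhood. -/
theorem eventuallyEq_of_eqOn_acc (hLacc : ∃ᶠ z in 𝓝[≠] q, z ∈ L)
    {g h : ℂ → ℂ} (hg : MeromorphicAt g q) (hh : MeromorphicAt h q)
    (hgL : ∀ᶠ z in 𝓝[≠] q, z ∈ L → g z = h z) : g =ᶠ[𝓝[≠] q] h := by
  rw [← hg.frequently_eq_iff_eventuallyEq hh]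
  exact (hLacc.and_eventually hgL).mono fun z hz => hz.2 hz.1

/-- **The crossing lemma, additive form.** -/
theorem cross_add (hLo : IsOpen L) (hLc : IsPreconnected L) (hLB : L ⊆ Metric.ball q δ)
    (hLacc : ∃ᶠ z in 𝓝[≠] q, z ∈ L)
    (hRo : IsOpen R) (hRc : IsPreconnected R) (hRB : R ⊆ Metric.ball q δ)
    (hRacc : ∃ᶠ z in 𝓝[≠] q, z ∈ R) (hδ : 0 < δ)
    {Ψc Gl Gr g : ℂ → ℂ} {c : ℂ}
    (hΨ : DifferentiableOn ℂ Ψc (Metric.ball q δ))
    (hGl : ∀ z ∈ L, HasDerivAt Gl (Ψc z) z) (hGr : ∀ z ∈ R, HasDerivAt Gr (Ψc z) z)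
    (hg : MeromorphicAt g q)
    (hgL : ∀ᶠ z in 𝓝[≠] q, z ∈ L → g z = Gl z)
    (hgR : ∀ᶠ z in 𝓝[≠] q, z ∈ R → g z = c + Gr z)
    {zL zR : ℂ} (hzL : zL ∈ L) (hzR : zR ∈ R) :
    c + Gr zR = Gl zL + segInt Ψc zL zR := by
  obtain ⟨P, hP⟩ := hΨ.isExactOn_ball
  -- `Gl = P + cL` on `L`
  have hL : ∀ z ∈ L, Gl z - P z = Gl zL - P zL := by
    intro z hz
    refine hLo.is_const_of_deriv_eq_zero hLc (f := fun z => Gl z - P z) ?_ ?_ hz hzL
    · intro w hw
      exact ((hGl w hw).sub (hP w (hLB hw))).differentiableAt.differentiableWithinAt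
    · intro w hw
      have hd : HasDerivAt (fun z => Gl z - P z) (Ψc w - Ψc w) w :=
        (hGl w hw).sub (hP w (hLB hw))
      rw [hd.deriv]
      simp
  have hR : ∀ z ∈ R, Gr z - P z = Gr zR - P zR := by
    intro z hz
    refine hRo.is_const_of_deriv_eq_zero hRc (f := fun z => Gr z - P z) ?_ ?_ hz hzR
    · intro w hw
      exact ((hGr w hw).sub (hP w (hRB hw))).differentiableAt.differentiableWithinAt
    · intro w hw
      have hd : HasDerivAt (fun z => Gr z - P z) (Ψc w - Ψc w) w :=
        (hGr w hw).sub (hP w (hRB hw))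
      rw [hd.deriv]
      simp
  have hq : q ∈ Metric.ball q δ := Metric.mem_ball_self hδ
  have hPq : AnalyticAt ℂ P q := by
    have hd : DifferentiableOn ℂ P (Metric.ball q δ) := fun z hz =>
      (hP z hz).differentiableAt.differentiableWithinAt
    exact hd.analyticAt (Metric.isOpen_ball.mem_nhds hq)
  -- the germ `g` is `P + (Gl zL - P zL)`
  have hh : AnalyticAt ℂ (fun z => P z + (Gl zL - P zL)) q := hPq.add analyticAt_const
  have h1 : g =ᶠ[𝓝[≠] q] fun z => P z + (Gl zL - P zL) := by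
    refine eventuallyEq_of_eqOn_acc hLacc hg hh.meromorphicAt ?_
    filter_upwards [hgL] with z hz hzL'
    rw [hz hzL']
    linear_combination hL z hzL'
  obtain ⟨z, hzR', hz1, hz2⟩ := (hRacc.and_eventually (h1.and hgR)).exists
  have h2 := hz2 hzR'
  rw [hz1] at h2
  have h3 := hR z hzR'
  have h4 : segInt Ψc zL zR = P zR - P zL :=
    segInt_eq_sub ((convex_ball q δ).segment_subset (hLB hzL) (hRB hzR))
      hΨ.continuousOn hP
  rw [h4]
  beta_reduce at h2
  linear_combination -h2 - h3

/-- **The crossing lemma, multiplicative form.** -/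
theorem cross_mul (hLo : IsOpen L) (hLc : IsPreconnected L) (hLB : L ⊆ Metric.ball q δ)
    (hLacc : ∃ᶠ z in 𝓝[≠] q, z ∈ L)
    (hRo : IsOpen R) (hRc : IsPreconnected R) (hRB : R ⊆ Metric.ball q δ)
    (hRacc : ∃ᶠ z in 𝓝[≠] q, z ∈ R) (hδ : 0 < δ)
    {Ψc EL ER g : ℂ → ℂ} {c : ℂ}
    (hΨ : DifferentiableOn ℂ Ψc (Metric.ball q δ))
    (hEL : ∀ z ∈ L, HasDerivAt EL (Ψc z * EL z) z)
    (hER : ∀ z ∈ R, HasDerivAt ER (Ψc z * ER z) z)
    (hg : MeromorphicAt g q)
    (hgL : ∀ᶠ z in 𝓝[≠] q, z ∈ L → g z = EL z)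
    (hgR : ∀ᶠ z in 𝓝[≠] q, z ∈ R → g z = c * ER z)
    {zL zR : ℂ} (hzL : zL ∈ L) (hzR : zR ∈ R) :
    c * ER zR = EL zL * Complex.exp (segInt Ψc zL zR) := by
  obtain ⟨P, hP⟩ := hΨ.isExactOn_ball
  have hexp : ∀ z ∈ Metric.ball q δ,
      HasDerivAt (fun z => Complex.exp (-P z)) (Complex.exp (-P z) * -Ψc z) z :=
    fun z hz => (hP z hz).neg.cexp
  have hL : ∀ z ∈ L, EL z * Complex.exp (-P z) = EL zL * Complex.exp (-P zL) := by
    intro z hz
    refine hLo.is_const_of_deriv_eq_zero hLc (f := fun z => EL z * Complex.exp (-P z))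
      ?_ ?_ hz hzL
    · intro w hw
      exact ((hEL w hw).mul (hexp w (hLB hw))).differentiableAt.differentiableWithinAt
    · intro w hw
      have hd : HasDerivAt (fun z => EL z * Complex.exp (-P z))
          (Ψc w * EL w * Complex.exp (-P w) + EL w * (Complex.exp (-P w) * -Ψc w)) w :=
        (hEL w hw).mul (hexp w (hLB hw))
      rw [hd.deriv]
      simp only [Pi.zero_apply]
      ring
  have hR : ∀ z ∈ R, ER z * Complex.exp (-P z) = ER zR * Complex.exp (-P zR) := by
    intro z hz
    refine hRo.is_const_of_deriv_eq_zero hRc (f := fun z => ER z * Complex.exp (-P z))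
      ?_ ?_ hz hzR
    · intro w hw
      exact ((hER w hw).mul (hexp w (hRB hw))).differentiableAt.differentiableWithinAt
    · intro w hw
      have hd : HasDerivAt (fun z => ER z * Complex.exp (-P z))
          (Ψc w * ER w * Complex.exp (-P w) + ER w * (Complex.exp (-P w) * -Ψc w)) w :=
        (hER w hw).mul (hexp w (hRB hw))
      rw [hd.deriv]
      simp only [Pi.zero_apply]
      ring
  have hq : q ∈ Metric.ball q δ := Metric.mem_ball_self hδ
  have hPq : AnalyticAt ℂ P q := by
    have hd : DifferentiableOn ℂ P (Metric.ball q δ) := fun z hz =>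
      (hP z hz).differentiableAt.differentiableWithinAt
    exact hd.analyticAt (Metric.isOpen_ball.mem_nhds hq)
  have hh : AnalyticAt ℂ (fun z => EL zL * Complex.exp (-P zL) * Complex.exp (P z)) q :=
    analyticAt_const.mul hPq.cexp
  have hee : ∀ z, Complex.exp (-P z) * Complex.exp (P z) = 1 := fun z => by
    rw [← Complex.exp_add, neg_add_cancel, Complex.exp_zero]
  have h1 : g =ᶠ[𝓝[≠] q] fun z => EL zL * Complex.exp (-P zL) * Complex.exp (P z) := by
    refine eventuallyEq_of_eqOn_acc hLacc hg hh.meromorphicAt ?_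
    filter_upwards [hgL] with z hz hzL'
    rw [hz hzL', ← hL z hzL', mul_assoc, hee, mul_one]
  obtain ⟨z, hzR', hz1, hz2⟩ := (hRacc.and_eventually (h1.and hgR)).exists
  have h2 := hz2 hzR'
  rw [hz1] at h2
  have h3 := hR z hzR'
  have h4 : segInt Ψc zL zR = P zR - P zL :=
    segInt_eq_sub ((convex_ball q δ).segment_subset (hLB hzL) (hRB hzR))
      hΨ.continuousOn hP
  rw [h4, Complex.exp_sub]
  have h5 : c * (ER zR * Complex.exp (-P zR)) = EL zL * Complex.exp (-P zL) := by
    rw [← h3]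
    have : c * (ER z * Complex.exp (-P z)) = (c * ER z) * Complex.exp (-P z) := by ring
    rw [this, ← h2, mul_assoc, mul_comm (Complex.exp (P z)), hee, mul_one]
  have h6 : Complex.exp (-P zL) = (Complex.exp (P zL))⁻¹ := Complex.exp_neg _
  have h7 : Complex.exp (-P zR) = (Complex.exp (P zR))⁻¹ := Complex.exp_neg _
  rw [h6, h7] at h5
  have hne1 := Complex.exp_ne_zero (P zL)
  have hne2 := Complex.exp_ne_zero (P zR)
  field_simp at h5 ⊢
  linear_combination h5

end cross

end

end Fermat.Agent.P5.helper25
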