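/-
P5 / S27 (helper25): module SURJ, package FAM-AN, part 3: the sheet functions of an algebraic
family.

* `IsSheetOf M k h φ` : `φ` represents the `k`-th sheet function of `h` generically, with its
  calculus;
* `isSheetOf_coeff_τ`, `isSheetOf_coeff_η` : the sheet functions of `τ_t` and `η_t` are the
  Cauchy-kernel functions `kerFun`, `kerFun'`;
* `sheetNF`, `IsTame`, `isTame_of_regular`, `isTame_coeff` : analytic normal forms of the sheet
  functions of functions / differentials which are regular at the finite places;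
* `exists_crossData` : uniform analytic continuation across a point of an open ray.
-/
import Mathlib
import Fermat.Agent.P5.helper25_FamilyDefs
import Fermat.Agent.P5.helper25_PathInt
import Fermat.Agent.P5.helper25_NormalForm
import Fermat.Agent.P5.helper10_DictA
import Fermat.Agent.P5.helper38_CutStar

set_option autoImplicit false
set_option linter.style.haveILetI false

open AlgebraicCurve Filter Topology KaehlerDifferential

namespace Fermat.Agent.P5.helper25

open Fermat.Agent.P5.helper4 Fermat.Agent.P5.helper27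

noncomputable section

variable {F : Type} [Field F] [Algebra ℂ F] (M : CutModel F)

/-! ### Generic representatives of sheet functions -/

/-- `φ` represents the `k`-th sheet function of `h` on a punctured neighbourhood of every point
of the cut plane. -/
def IsSheetOf (k : Fin M.d) (h : F) (φ : ℂ → ℂ) : Prop :=
  ∀ z ∈ M.toCutGeometry.U₀, M.ev k h =ᶠ[𝓝[≠] z] φ

variable {M}

namespace IsSheetOf

variable {k : Fin M.d} {h h₁ h₂ : F} {φ φ₁ φ₂ : ℂ → ℂ}

theorem self (k : Fin M.d) (h : F) : IsSheetOf M k h (M.ev k h) := fun _ _ => EventuallyEq.rfl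

theorem congr (hφ : IsSheetOf M k h φ₁) (e : ∀ w, φ₁ w = φ₂ w) : IsSheetOf M k h φ₂ := by
  intro z hz
  filter_upwards [hφ z hz] with w hw
  rw [hw, e]

theorem add (hφ₁ : IsSheetOf M k h₁ φ₁) (hφ₂ : IsSheetOf M k h₂ φ₂) :
    IsSheetOf M k (h₁ + h₂) (fun w => φ₁ w + φ₂ w) := by
  intro z hz
  filter_upwards [M.ev_add k h₁ h₂ z hz, hφ₁ z hz, hφ₂ z hz] with w h1 h2 h3
  rw [h1, h2, h3]

theorem sub (hφ₁ : IsSheetOf M k h₁ φ₁) (hφ₂ : IsSheetOf M k h₂ φ₂) :
    IsSheetOf M k (h₁ - h₂) (fun w => φ₁ w - φ₂ w) := by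
  intro z hz
  filter_upwards [ev_sub M k h₁ h₂ hz, hφ₁ z hz, hφ₂ z hz] with w h1 h2 h3
  rw [h1, h2, h3]

theorem mul (hφ₁ : IsSheetOf M k h₁ φ₁) (hφ₂ : IsSheetOf M k h₂ φ₂) :
    IsSheetOf M k (h₁ * h₂) (fun w => φ₁ w * φ₂ w) := by
  intro z hz
  filter_upwards [M.ev_mul k h₁ h₂ z hz, hφ₁ z hz, hφ₂ z hz] with w h1 h2 h3
  rw [h1, h2, h3]

theorem const (k : Fin M.d) (c : ℂ) : IsSheetOf M k (algebraMap ℂ F c) (fun _ => c) := by
  intro z hz
  filter_upwards [eventually_ne_mem_U₀ M.toCutGeometry hz] with w hw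
  exact M.ev_algebraMap k c hw

theorem zero (k : Fin M.d) : IsSheetOf M k 0 (fun _ => 0) := by
  have := const (M := M) k 0
  rwa [map_zero] at this

theorem one (k : Fin M.d) : IsSheetOf M k 1 (fun _ => 1) := by
  have := const (M := M) k 1
  rwa [map_one] at this

theorem pow (hφ : IsSheetOf M k h φ) (n : ℕ) : IsSheetOf M k (h ^ n) (fun w => φ w ^ n) := by
  induction n with
  | zero => simpa using one (M := M) k
  | succ n ih =>
    have := ih.mul hφ
    simpa [pow_succ] using this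

theorem sum {ι : Type*} (s : Finset ι) {h : ι → F} {φ : ι → ℂ → ℂ}
    (hφ : ∀ i ∈ s, IsSheetOf M k (h i) (φ i)) :
    IsSheetOf M k (∑ i ∈ s, h i) (fun w => ∑ i ∈ s, φ i w) := by
  classical
  induction s using Finset.induction_on with
  | empty => simpa using zero (M := M) k
  | insert a s ha ih =>
    have h1 := (hφ a (Finset.mem_insert_self a s)).add
      (ih fun i hi => hφ i (Finset.mem_insert_of_mem hi))
    simpa [Finset.sum_insert ha] using h1

/-- The sheet functions of `(x - t)⁻¹`. -/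
theorem inv_xsub (k : Fin M.d) (t : ℂ) :
    IsSheetOf M k ((M.x - algebraMap ℂ F t)⁻¹) (fun w => (w - t)⁻¹) := by
  intro z hz
  filter_upwards [ev_inv M k (xsub_ne_zero M t) hz, ev_xsub M k t hz] with w h1 h2
  have h1' : M.ev k (M.x - algebraMap ℂ F t)⁻¹ w = (M.ev k (M.x - algebraMap ℂ F t) w)⁻¹ := h1
  have h2' : M.ev k (M.x - algebraMap ℂ F t) w = w - t := h2
  rw [h1', h2']

end IsSheetOf

/-! ### The coefficients of the family -/

namespace AlgFamily

variable {k : Fin M.d} {a₁ : ℂ} (A : AlgFamily M k a₁)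

theorem coeff_τ (t : ℂ) : M.coeff (A.τ t) =
    (∑ m : Fin A.N, algebraMap ℂ F (A.c m t) * ((M.x - algebraMap ℂ F t)⁻¹ * A.y ^ (m : ℕ))) -
      ∑ ν : Fin A.n, algebraMap ℂ F (A.u ν t) * M.coeff (A.θ ν) := by
  apply coeff_unique
  rw [sub_smul, Finset.sum_smul, Finset.sum_smul]
  unfold AlgFamily.τ
  congr 1
  · refine Finset.sum_congr rfl fun m _ => ?_
    rw [mul_smul, algebraMap_smul]
    rfl
  · refine Finset.sum_congr rfl fun ν _ => ?_
    rw [mul_smul, algebraMap_smul, ← M.coeff_spec]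

theorem coeff_η (t : ℂ) : M.coeff (A.η t) =
    (∑ m : Fin A.N, (algebraMap ℂ F (deriv (A.c m) t) *
        ((M.x - algebraMap ℂ F t)⁻¹ * A.y ^ (m : ℕ)) +
      algebraMap ℂ F (A.c m t) * (((M.x - algebraMap ℂ F t)⁻¹) ^ 2 * A.y ^ (m : ℕ)))) -
      ∑ ν : Fin A.n, algebraMap ℂ F (deriv (A.u ν) t) * M.coeff (A.θ ν) := by
  apply coeff_unique
  rw [sub_smul, Finset.sum_smul, Finset.sum_smul]
  unfold AlgFamily.η
  congr 1
  · refine Finset.sum_congr rfl fun m _ => ?_
    have e1 : (algebraMap ℂ F (deriv (A.c m) t) *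
        ((M.x - algebraMap ℂ F t)⁻¹ * A.y ^ (m : ℕ))) • D ℂ F M.x =
        deriv (A.c m) t • A.kernel t m := by
      rw [mul_smul, algebraMap_smul]
      rfl
    have e2 : (algebraMap ℂ F (A.c m t) *
        (((M.x - algebraMap ℂ F t)⁻¹) ^ 2 * A.y ^ (m : ℕ))) • D ℂ F M.x =
        A.c m t • A.kernel' t m := by
      rw [mul_smul, algebraMap_smul]
      rfl
    rw [add_smul, e1, e2]
  · refine Finset.sum_congr rfl fun ν _ => ?_
    rw [mul_smul, algebraMap_smul, ← M.coeff_spec]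

/-- The sheet functions of `τ_t`. -/
theorem isSheetOf_coeff_τ (t : ℂ) (k' : Fin M.d) {Y : ℂ → ℂ} {Θ : Fin A.n → ℂ → ℂ}
    (hY : IsSheetOf M k' A.y Y) (hΘ : ∀ ν, IsSheetOf M k' (M.coeff (A.θ ν)) (Θ ν)) :
    IsSheetOf M k' (M.coeff (A.τ t))
      (kerFun (fun m => A.c m t) (fun ν => A.u ν t) Y Θ t) := by
  rw [coeff_τ]
  have h1 : IsSheetOf M k'
      (∑ m : Fin A.N, algebraMap ℂ F (A.c m t) *
        ((M.x - algebraMap ℂ F t)⁻¹ * A.y ^ (m : ℕ)))
      (fun w => ∑ m : Fin A.N, A.c m t * ((w - t)⁻¹ * Y w ^ (m : ℕ))) :=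
    IsSheetOf.sum _ fun m _ => (IsSheetOf.const k' _).mul
      ((IsSheetOf.inv_xsub k' t).mul (hY.pow m))
  have h2 : IsSheetOf M k' (∑ ν : Fin A.n, algebraMap ℂ F (A.u ν t) * M.coeff (A.θ ν))
      (fun w => ∑ ν : Fin A.n, A.u ν t * Θ ν w) :=
    IsSheetOf.sum _ fun ν _ => (IsSheetOf.const k' _).mul (hΘ ν)
  refine (h1.sub h2).congr fun w => ?_
  unfold kerFun
  congr 1
  refine Finset.sum_congr rfl fun m _ => ?_
  rw [div_eq_mul_inv, mul_comm (Y w ^ (m : ℕ))]

/-- The sheet functions of `η_t`. -/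
theorem isSheetOf_coeff_η (t : ℂ) (k' : Fin M.d) {Y : ℂ → ℂ} {Θ : Fin A.n → ℂ → ℂ}
    (hY : IsSheetOf M k' A.y Y) (hΘ : ∀ ν, IsSheetOf M k' (M.coeff (A.θ ν)) (Θ ν)) :
    IsSheetOf M k' (M.coeff (A.η t))
      (kerFun' (fun m => A.c m t) (fun m => deriv (A.c m) t) (fun ν => deriv (A.u ν) t)
        Y Θ t) := by
  rw [coeff_η]
  have h1 : IsSheetOf M k'
      (∑ m : Fin A.N, (algebraMap ℂ F (deriv (A.c m) t) *
          ((M.x - algebraMap ℂ F t)⁻¹ * A.y ^ (m : ℕ)) +
        algebraMap ℂ F (A.c m t) * (((M.x - algebraMap ℂ F t)⁻¹) ^ 2 * A.y ^ (m : ℕ))))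
      (fun w => ∑ m : Fin A.N, (deriv (A.c m) t * ((w - t)⁻¹ * Y w ^ (m : ℕ)) +
        A.c m t * (((w - t)⁻¹) ^ 2 * Y w ^ (m : ℕ)))) :=
    IsSheetOf.sum _ fun m _ => ((IsSheetOf.const k' _).mul
      ((IsSheetOf.inv_xsub k' t).mul (hY.pow m))).add
      ((IsSheetOf.const k' _).mul (((IsSheetOf.inv_xsub k' t).pow 2).mul (hY.pow m)))
  have h2 : IsSheetOf M k'
      (∑ ν : Fin A.n, algebraMap ℂ F (deriv (A.u ν) t) * M.coeff (A.θ ν))
      (fun w => ∑ ν : Fin A.n, deriv (A.u ν) t * Θ ν w) :=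
    IsSheetOf.sum _ fun ν _ => (IsSheetOf.const k' _).mul (hΘ ν)
  refine (h1.sub h2).congr fun w => ?_
  unfold kerFun'
  congr 1
  refine Finset.sum_congr rfl fun m _ => ?_
  rw [div_eq_mul_inv, div_eq_mul_inv, mul_comm (Y w ^ (m : ℕ)), mul_comm (Y w ^ (m : ℕ)),
    inv_pow]

end AlgFamily

/-! ### Analytic normal forms of sheet functions -/

variable (M)

/-- The normal form of the `k`-th sheet function of `φ` on the cut plane. -/
def sheetNF (k : Fin M.d) (φ : F) : ℂ → ℂ := toMeromorphicNFOn (M.ev k φ) M.toCutGeometry.U₀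

/-- `φ` is tame: its sheet functions are regular on the cut plane except possibly over `a₀`, and
continue analytically across the cuts. -/
def IsTame (a₀ : ℂ) (φ : F) : Prop :=
  (∀ (k : Fin M.d) (z : ℂ), z ∈ M.toCutGeometry.U₀ → z ≠ a₀ →
      0 ≤ meromorphicOrderAt (M.ev k φ) z) ∧
    ∀ (i : Fin M.r) (k : Fin M.d) (a : ℂ), a ∈ openRay M.z₀ (M.b i) →
      ∃ g : ℂ → ℂ, AnalyticAt ℂ g a ∧
        (∀ᶠ z in 𝓝[≠] a, z ∈ leftSide M.z₀ (M.b i) → g z = M.ev k φ z) ∧
        (∀ᶠ z in 𝓝[≠] a, z ∈ rightSide M.z₀ (M.b i) → g z = M.ev (M.σ i k) φ z)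

variable {M}

theorem isSheetOf_sheetNF (k : Fin M.d) (φ : F) : IsSheetOf M k φ (sheetNF M k φ) :=
  fun z hz => ((M.ev_meromorphicOn k φ).toMeromorphicNFOn_eq_self_on_nhdsNE hz).symm

theorem analyticAt_sheetNF {k : Fin M.d} {φ : F} {z : ℂ} (hz : z ∈ M.toCutGeometry.U₀)
    (hord : 0 ≤ meromorphicOrderAt (M.ev k φ) z) : AnalyticAt ℂ (sheetNF M k φ) z := by
  have h1 : MeromorphicNFAt (sheetNF M k φ) z :=
    meromorphicNFOn_toMeromorphicNFOn (M.ev k φ) M.toCutGeometry.U₀ hz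
  rw [← h1.meromorphicOrderAt_nonneg_iff_analyticAt]
  unfold sheetNF
  rw [meromorphicOrderAt_toMeromorphicNFOn (M.ev_meromorphicOn k φ) hz]
  exact hord

theorem sheetNF_eq_of_analyticAt {k : Fin M.d} {φ : F} {z : ℂ} (hz : z ∈ M.toCutGeometry.U₀)
    (han : AnalyticAt ℂ (M.ev k φ) z) : sheetNF M k φ z = M.ev k φ z :=
  toMeromorphicNFOn_eq_of_analyticAt (M.ev_meromorphicOn k φ) hz han

theorem IsTame.analyticAt {a₀ : ℂ} {φ : F} (h : IsTame M a₀ φ) (k : Fin M.d) {z : ℂ}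
    (hz : z ∈ M.toCutGeometry.U₀) (hza : z ≠ a₀) : AnalyticAt ℂ (sheetNF M k φ) z :=
  analyticAt_sheetNF hz (h.1 k z hz hza)

/-- A function which is regular at the finite places is tame. -/
theorem isTame_of_regular (h : F)
    (hreg : ∀ v : Place ℂ F, (∀ k' : Fin M.d, v ≠ M.plInf k') → 0 ≤ v.ord h) (a₀ : ℂ) :
    IsTame M a₀ h := by
  by_cases h0 : h = 0
  · subst h0
    refine ⟨fun k z hz _ => ?_, fun i k a ha => ?_⟩
    · have h2 : meromorphicOrderAt (M.ev k 0) z = ⊤ := by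
        rw [meromorphicOrderAt_eq_top_iff]
        filter_upwards [eventually_ne_mem_U₀ M.toCutGeometry hz] with w hw
        exact ev_zero M k hw
      rw [h2]
      exact le_top
    · refine ⟨fun _ => 0, analyticAt_const, ?_, ?_⟩
      · filter_upwards [helper10.eventually_mem_U₀_of_not_mem_ray M i ha] with z hz hzL
        rw [ev_zero M k (hz (not_mem_ray_of_mem_leftSide (M.b_ne i) hzL))]
      · filter_upwards [helper10.eventually_mem_U₀_of_not_mem_ray M i ha] with z hz hzR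
        rw [ev_zero M (M.σ i k) (hz (helper38.not_mem_ray_of_mem_rightSide (M.b_ne i) hzR))]
  · refine ⟨fun k z hz _ => ?_, fun i k a ha => ?_⟩
    · rw [← M.pl_ord k z hz h h0]
      exact_mod_cast hreg _ fun k' => M.pl_ne_plInf k z k' hz
    · obtain ⟨g₀, hg₀, hL, hR, hord⟩ := M.cross i k a ha h h0
      have hnn : 0 ≤ meromorphicOrderAt g₀ a := by
        rw [← hord]
        exact_mod_cast hreg _ fun k' => (M.plInf_ne_plRay k' i k a ha).symm
      refine ⟨toMeromorphicNFAt g₀ a,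
        hg₀.meromorphicOrderAt_nonneg_iff_analyticAt_toMeromorphicNFAt.1 hnn, ?_, ?_⟩
      · filter_upwards [hL, hg₀.eq_nhdsNE_toMeromorphicNFAt] with z hz1 hz2 hzL
        rw [← hz2]
        exact hz1 hzL
      · filter_upwards [hR, hg₀.eq_nhdsNE_toMeromorphicNFAt] with z hz1 hz2 hzR
        rw [← hz2]
        exact hz1 hzR

/-- A regular differential has a logarithmic pole with residue `0`. -/
theorem hasLogPole_zero_of_regular {v : Place ℂ F} {θ : Ω[F⁄ℂ]} {t : F} (ht : v.ord t = 1)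
    (hreg : IsRegularAt v θ) : HasLogPole v θ 0 := by
  refine ⟨t, ht, ?_⟩
  rw [zero_smul, sub_zero]
  exact hreg

/-- The coefficient of a differential which is regular at the finite places except `pl k₀ a₀`
is tame. -/
theorem isTame_coeff (θ : Ω[F⁄ℂ]) (k₀ : Fin M.d) {a₀ : ℂ} (ha₀ : a₀ ∈ M.toCutGeometry.U₀)
    (hreg : ∀ v : Place ℂ F, (∀ k' : Fin M.d, v ≠ M.plInf k') → v ≠ M.pl k₀ a₀ →
      IsRegularAt v θ) : IsTame M a₀ (M.coeff θ) := by
  refine ⟨fun k z hz hza => ?_, fun i k a ha => ?_⟩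
  · have hv : (M.pl k z).ord (xsub M z) = 1 := by rw [ord_pl M k hz z, if_pos rfl]
    have hne : M.pl k z ≠ M.pl k₀ a₀ := fun h =>
      hza (M.pl_injective k k₀ z a₀ hz ha₀ h).2
    have h1 := helper10.dictInterior M θ 0 k z hz
      (hasLogPole_zero_of_regular hv (hreg _ (fun k' => M.pl_ne_plInf k z k' hz) hne))
    have e : (fun w => M.ev k (M.coeff θ) w - ((0 : ℤ) : ℂ) / (w - z)) = M.ev k (M.coeff θ) := by
      funext w
      simp
    rwa [e] at h1
  · have hv : (M.plRay i k a).ord (xsub M a) = 1 := by rw [ord_plRay M i k ha a, if_pos rfl]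
    exact helper10.dictRay M θ i k a ha
      (hasLogPole_zero_of_regular hv (hreg _ (fun k' => (M.plInf_ne_plRay k' i k a ha).symm)
        (fun h => M.pl_ne_plRay k₀ a₀ i k a ha₀ ha h.symm)))

/-! ### Uniform analytic continuation across a point of an open ray -/

/-- **Crossing data**: for a finite family of tame functions and a point `q` of the `i`-th open
ray there are a radius `δ` and analytic functions `gc j k` on the disc `ball q δ` which agree with
the normal form of the `k`-th sheet on the left half-disc and with that of the `σ i k`-th sheet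
on the right half-disc; every smaller radius works as well. -/
theorem exists_crossData {ι : Type*} [Finite ι] {a₀ : ℂ} (φ : ι → F)
    (hφ : ∀ j, IsTame M a₀ (φ j)) (i : Fin M.r) {q : ℂ} (hq : q ∈ openRay M.z₀ (M.b i)) :
    ∃ δ₀ > 0, ∃ gc : ι → Fin M.d → ℂ → ℂ, ∀ δ : ℝ, 0 < δ → δ ≤ δ₀ →
      (Metric.ball q δ ∩ leftSide M.z₀ (M.b i) ⊆ M.toCutGeometry.U₀) ∧
      (Metric.ball q δ ∩ rightSide M.z₀ (M.b i) ⊆ M.toCutGeometry.U₀) ∧
      (∀ j k, ∀ z ∈ Metric.ball q δ, AnalyticAt ℂ (gc j k) z) ∧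
      (∀ j k, Set.EqOn (gc j k) (sheetNF M k (φ j))
        (Metric.ball q δ ∩ leftSide M.z₀ (M.b i))) ∧
      (∀ j k, Set.EqOn (gc j k) (sheetNF M (M.σ i k) (φ j))
        (Metric.ball q δ ∩ rightSide M.z₀ (M.b i))) := by
  classical
  haveI := Fintype.ofFinite ι
  choose g hg hgL hgR using fun (j : ι) (k : Fin M.d) => (hφ j).2 i k q hq
  obtain ⟨ε, hε, hεL, hεR, -⟩ := helper38.exists_ball_sides M.toCutGeometry i hq
  -- one neighbourhood for everything
  have hev : ∀ᶠ z in 𝓝 q, ∀ j k, AnalyticAt ℂ (g j k) z ∧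
      (z ≠ q → z ∈ leftSide M.z₀ (M.b i) → g j k z = M.ev k (φ j) z) ∧
      (z ≠ q → z ∈ rightSide M.z₀ (M.b i) → g j k z = M.ev (M.σ i k) (φ j) z) := by
    rw [eventually_all]
    intro j
    rw [eventually_all]
    intro k
    have h1 := (hg j k).eventually_analyticAt
    have h2 := eventually_nhdsWithin_iff.1 (hgL j k)
    have h3 := eventually_nhdsWithin_iff.1 (hgR j k)
    filter_upwards [h1, h2, h3] with z hz1 hz2 hz3
    exact ⟨hz1, fun hne => hz2 hne, fun hne => hz3 hne⟩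
  obtain ⟨δ₁, hδ₁, hball⟩ := Metric.eventually_nhds_iff_ball.1 hev
  refine ⟨min ε δ₁, lt_min hε hδ₁, g, fun δ hδ hδle => ?_⟩
  have hsub1 : Metric.ball q δ ⊆ Metric.ball q ε :=
    Metric.ball_subset_ball (hδle.trans (min_le_left _ _))
  have hsub2 : Metric.ball q δ ⊆ Metric.ball q δ₁ :=
    Metric.ball_subset_ball (hδle.trans (min_le_right _ _))
  have hqL : q ∉ leftSide M.z₀ (M.b i) := fun h =>
    not_mem_ray_of_mem_leftSide (M.b_ne i) h (openRay_subset_ray _ _ hq)
  have hqR : q ∉ rightSide M.z₀ (M.b i) := fun h =>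
    helper38.not_mem_ray_of_mem_rightSide (M.b_ne i) h (openRay_subset_ray _ _ hq)
  have hLU : Metric.ball q δ ∩ leftSide M.z₀ (M.b i) ⊆ M.toCutGeometry.U₀ :=
    fun z hz => hεL ⟨hsub1 hz.1, hz.2⟩
  have hRU : Metric.ball q δ ∩ rightSide M.z₀ (M.b i) ⊆ M.toCutGeometry.U₀ :=
    fun z hz => hεR ⟨hsub1 hz.1, hz.2⟩
  refine ⟨hLU, hRU, fun j k z hz => (hball z (hsub2 hz) j k).1, fun j k z hz => ?_,
    fun j k z hz => ?_⟩
  · -- on the left half-disc
    have hopen : IsOpen (Metric.ball q δ ∩ leftSide M.z₀ (M.b i)) :=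
      Metric.isOpen_ball.inter (isOpen_leftSide _ _)
    have heq : ∀ w ∈ Metric.ball q δ ∩ leftSide M.z₀ (M.b i), g j k w = M.ev k (φ j) w :=
      fun w hw => (hball w (hsub2 hw.1) j k).2.1 (fun h => hqL (h ▸ hw.2)) hw.2
    have han : AnalyticAt ℂ (M.ev k (φ j)) z := by
      refine (hball z (hsub2 hz.1) j k).1.congr ?_
      filter_upwards [hopen.mem_nhds hz] with w hw using heq w hw
    rw [sheetNF_eq_of_analyticAt (hLU hz) han]
    exact heq z hz
  · have hopen : IsOpen (Metric.ball q δ ∩ rightSide M.z₀ (M.b i)) :=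
      Metric.isOpen_ball.inter (helper38.isOpen_rightSide _ _)
    have heq : ∀ w ∈ Metric.ball q δ ∩ rightSide M.z₀ (M.b i),
        g j k w = M.ev (M.σ i k) (φ j) w :=
      fun w hw => (hball w (hsub2 hw.1) j k).2.2 (fun h => hqR (h ▸ hw.2)) hw.2
    have han : AnalyticAt ℂ (M.ev (M.σ i k) (φ j)) z := by
      refine (hball z (hsub2 hz.1) j k).1.congr ?_
      filter_upwards [hopen.mem_nhds hz] with w hw using heq w hw
    rw [sheetNF_eq_of_analyticAt (hRU hz) han]
    exact heq z hz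

end

end Fermat.Agent.P5.helper25
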