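/-
P5 / S27 (helper25): module SURJ, package FAM-AN, part 4: the paths.

* `not_mem_segment_of_side` : plane geometry: a point `a ≠ z₀` is not on the segment from `z₀`
  to a point `p` beside the cut which is close to a point `q` of the cut;
* `CrossPath` : a crossing point `q` of the `i`-th cut, a disc around it with crossing data for
  a finite family of tame functions, and two points `zL`, `zR` of the disc on the two sides of
  the cut such that the segments from `z₀` to `zL`, `zR` avoid `a₁` and `a₀`;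
* `exists_crossPath`.
-/
import Mathlib
import Fermat.Agent.P5.helper25_FamSheet

set_option autoImplicit false
set_option linter.style.haveILetI false

open AlgebraicCurve Filter Topology KaehlerDifferential

namespace Fermat.Agent.P5.helper25

open Fermat.Agent.P5.helper4 Fermat.Agent.P5.helper27

noncomputable section

/-! ### Plane geometry -/

theorem side_im_eq {z₀ b : ℂ} (hb : b ≠ z₀) (z : ℂ) :
    ((z - b) / (b - z₀)).im = ((z - z₀) / (b - z₀)).im := by
  have hb' : b - z₀ ≠ 0 := sub_ne_zero.2 hb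
  have : (z - b) / (b - z₀) = (z - z₀) / (b - z₀) - 1 := by
    field_simp
    ring
  rw [this]
  simp

/-- A point of the segment from `z₀` to a point of the closed ray has real coordinate. -/
theorem im_eq_zero_of_mem_segment_ray {z₀ b q a : ℂ} (hb : b ≠ z₀) (hq : q ∈ openRay z₀ b)
    (ha : a ∈ segment ℝ z₀ q) : ((a - z₀) / (b - z₀)).im = 0 := by
  have hb' : b - z₀ ≠ 0 := sub_ne_zero.2 hb
  obtain ⟨s, -, rfl⟩ := hq
  obtain ⟨u, v, -, -, huv, rfl⟩ := ha
  have hu : (u : ℂ) = 1 - (v : ℂ) := by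
    have : (u : ℂ) + (v : ℂ) = 1 := by exact_mod_cast huv
    linear_combination this
  have : (u • z₀ + v • (b + (s : ℂ) * (b - z₀)) - z₀) / (b - z₀) = ((v * (1 + s) : ℝ) : ℂ) := by
    simp only [Complex.real_smul, hu]
    push_cast
    field_simp
    ring
  rw [this]
  exact Complex.ofReal_im _

/-- **Plane geometry of the paths.** -/
theorem not_mem_segment_of_side {z₀ b a p q : ℂ} (hb : b ≠ z₀) (ha : a ≠ z₀)
    (hq : q ∈ openRay z₀ b) (hp : p ∈ leftSide z₀ b ∨ p ∈ rightSide z₀ b)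
    (hδ : a ∉ segment ℝ z₀ q → ‖p - q‖ < Metric.infDist a (segment ℝ z₀ q)) :
    a ∉ segment ℝ z₀ p := by
  have hb' : b - z₀ ≠ 0 := sub_ne_zero.2 hb
  intro hmem
  obtain ⟨u, v, hu, hv, huv, rfl⟩ := hmem
  have hu' : (u : ℂ) = 1 - (v : ℂ) := by
    have : (u : ℂ) + (v : ℂ) = 1 := by exact_mod_cast huv
    linear_combination this
  have hv0 : v ≠ 0 := by
    rintro rfl
    apply ha
    have : u = 1 := by linarith
    subst this
    simp
  by_cases hcase : u • z₀ + v • p ∈ segment ℝ z₀ q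
  · have h1 := im_eq_zero_of_mem_segment_ray hb hq hcase
    have h2 : (u • z₀ + v • p - z₀) / (b - z₀) = (v : ℂ) * ((p - z₀) / (b - z₀)) := by
      simp only [Complex.real_smul, hu']
      field_simp
      ring
    rw [h2, Complex.im_ofReal_mul] at h1
    have h3 : ((p - z₀) / (b - z₀)).im = 0 := by
      rcases mul_eq_zero.1 h1 with h | h
      · exact absurd h hv0
      · exact h
    rcases hp with hp | hp
    · have : 0 < ((p - b) / (b - z₀)).im := hp
      rw [side_im_eq hb, h3] at this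
      exact lt_irrefl _ this
    · have : ((p - b) / (b - z₀)).im < 0 := hp
      rw [side_im_eq hb, h3] at this
      exact lt_irrefl _ this
  · have h1 := hδ hcase
    have h2 : u • z₀ + v • q ∈ segment ℝ z₀ q := ⟨u, v, hu, hv, huv, rfl⟩
    have h3 := Metric.infDist_le_dist_of_mem (x := u • z₀ + v • p) h2
    have h4 : dist (u • z₀ + v • p) (u • z₀ + v • q) = v * ‖p - q‖ := by
      rw [dist_eq_norm]
      have : u • z₀ + v • p - (u • z₀ + v • q) = v • (p - q) := by
        simp only [smul_sub]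
        abel
      rw [this, norm_smul, Real.norm_of_nonneg hv]
    have h5 : v ≤ 1 := by linarith
    have h6 : v * ‖p - q‖ ≤ ‖p - q‖ := by
      have := mul_le_mul_of_nonneg_right h5 (norm_nonneg (p - q))
      simpa using this
    linarith

/-- The left half-disc is convex. -/
theorem convex_ball_inter_leftSide (z₀ b q : ℂ) (δ : ℝ) :
    Convex ℝ (Metric.ball q δ ∩ leftSide z₀ b) := by
  refine (convex_ball q δ).inter ?_
  have hl : IsLinearMap ℝ (fun z : ℂ => (z / (b - z₀)).im) :=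
    ⟨fun x y => by simp [add_div], fun c x => by simp [mul_div_assoc]⟩
  have := convex_halfSpace_gt hl ((b / (b - z₀)).im)
  have e : leftSide z₀ b = {w : ℂ | (b / (b - z₀)).im < (w / (b - z₀)).im} := by
    ext z
    show 0 < ((z - b) / (b - z₀)).im ↔ (b / (b - z₀)).im < (z / (b - z₀)).im
    rw [sub_div, Complex.sub_im, sub_pos]
  rw [e]
  exact this

/-- The right half-disc is convex. -/
theorem convex_ball_inter_rightSide (z₀ b q : ℂ) (δ : ℝ) :
    Convex ℝ (Metric.ball q δ ∩ rightSide z₀ b) := by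
  refine (convex_ball q δ).inter ?_
  have hl : IsLinearMap ℝ (fun z : ℂ => (z / (b - z₀)).im) :=
    ⟨fun x y => by simp [add_div], fun c x => by simp [mul_div_assoc]⟩
  have := convex_halfSpace_lt hl ((b / (b - z₀)).im)
  have e : rightSide z₀ b = {w : ℂ | (w / (b - z₀)).im < (b / (b - z₀)).im} := by
    ext z
    show ((z - b) / (b - z₀)).im < 0 ↔ (z / (b - z₀)).im < (b / (b - z₀)).im
    rw [sub_div, Complex.sub_im, sub_neg]
  rw [e]
  exact this

/-! ### Crossing paths -/

variable {F : Type} [Field F] [Algebra ℂ F]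

/-- A crossing path at the `i`-th cut for the family `φ` of tame functions, avoiding the points
`a₁` and `a₀`. -/
structure CrossPath (M : CutModel F) {ι : Type} (φ : ι → F) (a₁ a₀ : ℂ) (i : Fin M.r) where
  /-- the crossing point -/
  q : ℂ
  /-- the radius of the disc around the crossing point -/
  δ : ℝ
  /-- the point on the left of the cut -/
  zL : ℂ
  /-- the point on the right of the cut -/
  zR : ℂ
  /-- the analytic continuations across the cut -/
  gc : ι → Fin M.d → ℂ → ℂ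
  hq : q ∈ openRay M.z₀ (M.b i)
  hδ : 0 < δ
  hLU : Metric.ball q δ ∩ leftSide M.z₀ (M.b i) ⊆ M.toCutGeometry.U₀
  hRU : Metric.ball q δ ∩ rightSide M.z₀ (M.b i) ⊆ M.toCutGeometry.U₀
  han : ∀ j k, ∀ z ∈ Metric.ball q δ, AnalyticAt ℂ (gc j k) z
  hgL : ∀ j k, Set.EqOn (gc j k) (sheetNF M k (φ j))
    (Metric.ball q δ ∩ leftSide M.z₀ (M.b i))
  hgR : ∀ j k, Set.EqOn (gc j k) (sheetNF M (M.σ i k) (φ j))
    (Metric.ball q δ ∩ rightSide M.z₀ (M.b i))
  hzL : zL ∈ Metric.ball q δ ∩ leftSide M.z₀ (M.b i)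
  hzR : zR ∈ Metric.ball q δ ∩ rightSide M.z₀ (M.b i)
  ha₁ : a₁ ∉ Metric.closedBall q δ
  ha₀ : a₀ ∉ Metric.closedBall q δ
  hL₁ : a₁ ∉ segment ℝ M.z₀ zL
  hL₀ : a₀ ∉ segment ℝ M.z₀ zL
  hR₁ : a₁ ∉ segment ℝ M.z₀ zR
  hR₀ : a₀ ∉ segment ℝ M.z₀ zR

/-- Crossing paths exist. -/
theorem exists_crossPath {M : CutModel F} {ι : Type} [Finite ι] (φ : ι → F) {a₁ a₀ : ℂ}
    (hφ : ∀ j, IsTame M a₀ (φ j)) (ha₁ : a₁ ∈ M.toCutGeometry.U₀) (ha₁' : a₁ ≠ M.z₀)
    (ha₀ : a₀ ∈ M.toCutGeometry.U₀) (ha₀' : a₀ ≠ M.z₀) (i : Fin M.r) :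
    Nonempty (CrossPath M φ a₁ a₀ i) := by
  classical
  have hb := M.b_ne i
  -- the crossing point
  set q : ℂ := M.b i + ((1 : ℝ) : ℂ) * (M.b i - M.z₀) with hqdef
  have hq : q ∈ openRay M.z₀ (M.b i) := ⟨1, one_pos, rfl⟩
  have hqU : q ∉ M.toCutGeometry.U₀ := CutGeom.not_mem_U₀_of_mem_openRay M.toCutGeometry hq
  obtain ⟨δ₀, hδ₀, gc, hgc⟩ := exists_crossData φ hφ i hq
  -- the distances
  have hd₁ : 0 < dist a₁ q := dist_pos.2 fun h => hqU (h ▸ ha₁)
  have hd₀ : 0 < dist a₀ q := dist_pos.2 fun h => hqU (h ▸ ha₀)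
  let ρ : ℂ → ℝ := fun a => if a ∈ segment ℝ M.z₀ q then 1 else
    Metric.infDist a (segment ℝ M.z₀ q)
  have hρ : ∀ a, 0 < ρ a := by
    intro a
    by_cases h : a ∈ segment ℝ M.z₀ q
    · simp only [ρ, if_pos h]
      exact one_pos
    · simp only [ρ, if_neg h]
      exact ((isClosed_segment' M.z₀ q).notMem_iff_infDist_pos (segment_nonempty' M.z₀ q)).1 h
  have hρ' : ∀ a, a ∉ segment ℝ M.z₀ q → ρ a = Metric.infDist a (segment ℝ M.z₀ q) :=
    fun a h => by simp only [ρ, if_neg h]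
  set δ : ℝ := min δ₀ (min (dist a₁ q / 2) (min (dist a₀ q / 2) (min (ρ a₁) (ρ a₀)))) with hδdef
  have hδ : 0 < δ := by
    refine lt_min hδ₀ (lt_min (by linarith) (lt_min (by linarith) (lt_min (hρ _) (hρ _))))
  have hδ1 : δ ≤ δ₀ := min_le_left _ _
  have hδ2 : δ ≤ dist a₁ q / 2 := (min_le_right _ _).trans (min_le_left _ _)
  have hδ3 : δ ≤ dist a₀ q / 2 :=
    (min_le_right _ _).trans ((min_le_right _ _).trans (min_le_left _ _))
  have hδ4 : δ ≤ ρ a₁ :=
    (min_le_right _ _).trans ((min_le_right _ _).trans ((min_le_right _ _).trans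
      (min_le_left _ _)))
  have hδ5 : δ ≤ ρ a₀ :=
    (min_le_right _ _).trans ((min_le_right _ _).trans ((min_le_right _ _).trans
      (min_le_right _ _)))
  obtain ⟨hLU, hRU, han, hgL, hgR⟩ := hgc δ hδ hδ1
  -- the two points
  have hballq : ∀ᶠ z in 𝓝[≠] q, z ∈ Metric.ball q δ :=
    nhdsWithin_le_nhds (Metric.ball_mem_nhds q hδ)
  obtain ⟨zL, hzL2, hzL1⟩ :=
    ((helper38.frequently_leftSide M.toCutGeometry i hq).and_eventually hballq).exists
  obtain ⟨zR, hzR2, hzR1⟩ :=
    ((helper38.frequently_rightSide M.toCutGeometry i hq).and_eventually hballq).exists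
  have hzLd : ‖zL - q‖ < δ := by
    have : dist zL q < δ := hzL1
    rwa [dist_eq_norm] at this
  have hzRd : ‖zR - q‖ < δ := by
    have : dist zR q < δ := hzR1
    rwa [dist_eq_norm] at this
  refine ⟨⟨q, δ, zL, zR, gc, hq, hδ, hLU, hRU, han, hgL, hgR, ⟨hzL1, hzL2⟩, ⟨hzR1, hzR2⟩,
    ?_, ?_, ?_, ?_, ?_, ?_⟩⟩
  · intro h
    have : dist a₁ q ≤ δ := h
    linarith
  · intro h
    have : dist a₀ q ≤ δ := h
    linarith
  · exact not_mem_segment_of_side hb ha₁' hq (Or.inl hzL2) fun h => by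
      rw [← hρ' _ h]
      exact lt_of_lt_of_le hzLd hδ4
  · exact not_mem_segment_of_side hb ha₀' hq (Or.inl hzL2) fun h => by
      rw [← hρ' _ h]
      exact lt_of_lt_of_le hzLd hδ5
  · exact not_mem_segment_of_side hb ha₁' hq (Or.inr hzR2) fun h => by
      rw [← hρ' _ h]
      exact lt_of_lt_of_le hzRd hδ4
  · exact not_mem_segment_of_side hb ha₀' hq (Or.inr hzR2) fun h => by
      rw [← hρ' _ h]
      exact lt_of_lt_of_le hzRd hδ5

end

end Fermat.Agent.P5.helper25
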