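/-
P5 / S27 (helper25): module SURJ, package FAM-AN, part 5: jumps and periods as path integrals.

For a family `P` of crossing paths and a system of sheet functions `ψ` with crossing
continuations `ψc` (`IsAdapted`):

* `pathFun P ψ ψc i k = ∫_[z₀, zL] ψ k + ∫_[zL, zR] ψc i k - ∫_[z₀, zR] ψ (σ i k)`;
* `exists_isJumpOf_pathFun` : if the `ψ k` are the sheet functions of `τ` and `τ` has
  multiplicative primitives with jumps, then `exp (pathFun P ψ ψc)` is the jump cochain of a
  system of multiplicative primitives of `τ`;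
* `isPeriodOf_pathFun` : the additive twin.
-/
import Mathlib
import Fermat.Agent.P5.helper25_FamPath

set_option autoImplicit false
set_option linter.style.haveILetI false

open AlgebraicCurve Filter Topology KaehlerDifferential

namespace Fermat.Agent.P5.helper25

open Fermat.Agent.P5.helper4 Fermat.Agent.P5.helper27

noncomputable section

variable {F : Type} [Field F] [Algebra ℂ F] {M : CutModel F} {ι : Type} {φ : ι → F}
  {a₁ a₀ : ℂ}

/-- The path functional. -/
def pathFun (P : ∀ i, CrossPath M φ a₁ a₀ i) (ψ : Fin M.d → ℂ → ℂ)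
    (ψc : Fin M.r → Fin M.d → ℂ → ℂ) (i : Fin M.r) (k : Fin M.d) : ℂ :=
  segInt (ψ k) M.z₀ (P i).zL + segInt (ψc i k) (P i).zL (P i).zR -
    segInt (ψ (M.σ i k)) M.z₀ (P i).zR

/-- The system of sheet functions `ψ` with crossing continuations `ψc` is adapted to the
crossing paths `P` on the open set `V`. -/
structure IsAdapted (P : ∀ i, CrossPath M φ a₁ a₀ i) (V : Set ℂ) (ψ : Fin M.d → ℂ → ℂ)
    (ψc : Fin M.r → Fin M.d → ℂ → ℂ) : Prop where
  isOpen : IsOpen V
  subset : V ⊆ M.toCutGeometry.U₀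
  base_mem : M.z₀ ∈ V
  segL : ∀ i, segment ℝ M.z₀ (P i).zL ⊆ V
  segR : ∀ i, segment ℝ M.z₀ (P i).zR ⊆ V
  left : ∀ i, Metric.ball (P i).q (P i).δ ∩ leftSide M.z₀ (M.b i) ⊆ V
  right : ∀ i, Metric.ball (P i).q (P i).δ ∩ rightSide M.z₀ (M.b i) ⊆ V
  analytic : ∀ k, ∀ z ∈ V, AnalyticAt ℂ (ψ k) z
  analytic_cross : ∀ i k, ∀ z ∈ Metric.ball (P i).q (P i).δ, AnalyticAt ℂ (ψc i k) z
  eqOn_left : ∀ i k, Set.EqOn (ψc i k) (ψ k)
    (Metric.ball (P i).q (P i).δ ∩ leftSide M.z₀ (M.b i))
  eqOn_right : ∀ i k, Set.EqOn (ψc i k) (ψ (M.σ i k))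
    (Metric.ball (P i).q (P i).δ ∩ rightSide M.z₀ (M.b i))

namespace CrossPath

variable {i : Fin M.r} (Q : CrossPath M φ a₁ a₀ i)

theorem frequently_left : ∃ᶠ z in 𝓝[≠] Q.q, z ∈ Metric.ball Q.q Q.δ ∩ leftSide M.z₀ (M.b i) := by
  have h1 : ∀ᶠ z in 𝓝[≠] Q.q, z ∈ Metric.ball Q.q Q.δ :=
    nhdsWithin_le_nhds (Metric.ball_mem_nhds Q.q Q.hδ)
  exact ((helper38.frequently_leftSide M.toCutGeometry i Q.hq).and_eventually h1).mono
    fun z hz => ⟨hz.2, hz.1⟩

theorem frequently_right :
    ∃ᶠ z in 𝓝[≠] Q.q, z ∈ Metric.ball Q.q Q.δ ∩ rightSide M.z₀ (M.b i) := by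
  have h1 : ∀ᶠ z in 𝓝[≠] Q.q, z ∈ Metric.ball Q.q Q.δ :=
    nhdsWithin_le_nhds (Metric.ball_mem_nhds Q.q Q.hδ)
  exact ((helper38.frequently_rightSide M.toCutGeometry i Q.hq).and_eventually h1).mono
    fun z hz => ⟨hz.2, hz.1⟩

theorem isOpen_left : IsOpen (Metric.ball Q.q Q.δ ∩ leftSide M.z₀ (M.b i)) :=
  Metric.isOpen_ball.inter (isOpen_leftSide _ _)

theorem isOpen_right : IsOpen (Metric.ball Q.q Q.δ ∩ rightSide M.z₀ (M.b i)) :=
  Metric.isOpen_ball.inter (helper38.isOpen_rightSide _ _)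

end CrossPath

/-- A function which agrees with a germ `g` (analytic near `z`) on an open set containing `z` is
analytic at `z`. -/
theorem analyticAt_of_eventually_imp {E g : ℂ → ℂ} {S : Set ℂ} (hS : IsOpen S) {z : ℂ}
    (hz : z ∈ S) (hg : AnalyticAt ℂ g z) (h : ∀ᶠ v in 𝓝 z, v ∈ S → g v = E v) :
    AnalyticAt ℂ E z := by
  refine hg.congr ?_
  filter_upwards [h, hS.mem_nhds hz] with v hv hvS using hv hvS

variable (P : ∀ i, CrossPath M φ a₁ a₀ i) {V : Set ℂ} {ψ : Fin M.d → ℂ → ℂ}
  {ψc : Fin M.r → Fin M.d → ℂ → ℂ}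

/-- **Jumps as exponentials of path integrals.** -/
theorem exists_isJumpOf_pathFun (had : IsAdapted P V ψ ψc) {τ : Ω[F⁄ℂ]}
    (hτ : ∀ k, IsSheetOf M k (M.coeff τ) (ψ k)) {E : Fin M.d → ℂ → ℂ}
    {c : Fin M.r → Fin M.d → Additive ℂˣ} (hE : M.IsMultPrim τ E) (hc : M.IsJumpOf E c) :
    ∃ E' : Fin M.d → ℂ → ℂ, M.IsMultPrim τ E' ∧
      M.IsJumpOf E' (expCochain (pathFun P ψ ψc)) := by
  classical
  choose E' _ _ hE'a hE'p using fun k => exists_nf_mulPrim (hE k).1 (hE k).2
  have hder : ∀ k, ∀ z ∈ V, HasDerivAt (E' k) (ψ k z * E' k z) z := fun k z hz =>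
    (hE'p k z (had.subset hz) (ψ k) (had.analytic k z hz) (hτ k z (had.subset hz))).2.2
  have hne : ∀ k, ∀ z ∈ V, E' k z ≠ 0 := fun k z hz =>
    (hE'p k z (had.subset hz) (ψ k) (had.analytic k z hz) (hτ k z (had.subset hz))).2.1
  have hcont : ∀ k, ContinuousOn (ψ k) V := fun k z hz =>
    (had.analytic k z hz).continuousAt.continuousWithinAt
  -- the rescaling constants
  let a : Fin M.d → ℂˣ := fun k => Units.mk0 (E' k M.z₀)⁻¹ (inv_ne_zero (hne k _ had.base_mem))
  refine ⟨fun k z => (a k : ℂ) * E k z, isMultPrim_rescale M a hE, ?_⟩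
  have hj := isJumpOf_rescale M a hc
  have key : (fun i k => c i k + Additive.ofMul (a k) - Additive.ofMul (a (M.σ i k))) =
      expCochain (pathFun P ψ ψc) := by
    funext i k
    -- the three identities
    have I1 : E' k (P i).zL = E' k M.z₀ * Complex.exp (segInt (ψ k) M.z₀ (P i).zL) :=
      exp_segInt had.isOpen (had.segL i) (hcont k) (hder k)
    have I3 : E' (M.σ i k) (P i).zR =
        E' (M.σ i k) M.z₀ * Complex.exp (segInt (ψ (M.σ i k)) M.z₀ (P i).zR) :=
      exp_segInt had.isOpen (had.segR i) (hcont _) (hder _)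
    obtain ⟨g, hg, hgL, hgR⟩ := hc i k (P i).q (P i).hq
    have I2 : ((Additive.toMul (c i k) : ℂˣ) : ℂ) * E' (M.σ i k) (P i).zR =
        E' k (P i).zL * Complex.exp (segInt (ψc i k) (P i).zL (P i).zR) := by
      refine cross_mul (P i).isOpen_left (convex_ball_inter_leftSide _ _ _ _).isPreconnected
        Set.inter_subset_left (P i).frequently_left (P i).isOpen_right
        (convex_ball_inter_rightSide _ _ _ _).isPreconnected Set.inter_subset_left
        (P i).frequently_right (P i).hδ (g := g) ?_ ?_ ?_ hg ?_ ?_ (P i).hzL (P i).hzR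
      · exact fun z hz => (had.analytic_cross i k z hz).differentiableAt.differentiableWithinAt
      · intro z hz
        rw [had.eqOn_left i k hz]
        exact hder k z (had.left i hz)
      · intro z hz
        rw [had.eqOn_right i k hz]
        exact hder _ z (had.right i hz)
      · filter_upwards [eventually_eventually_nhdsNE hgL, hg.eventually_analyticAt]
          with z hz1 hz2 hzL
        have han : AnalyticAt ℂ (E k) z :=
          analyticAt_of_eventually_imp (isOpen_leftSide _ _) hzL.2 hz2 hz1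
        rw [hE'a k z ((P i).hLU hzL) han]
        exact hz1.self_of_nhds hzL.2
      · filter_upwards [eventually_eventually_nhdsNE hgR, hg.eventually_analyticAt]
          with z hz1 hz2 hzR
        have hc0 : ((Additive.toMul (c i k) : ℂˣ) : ℂ) ≠ 0 := Units.ne_zero _
        have han : AnalyticAt ℂ (E (M.σ i k)) z := by
          refine analyticAt_of_eventually_imp (g := fun v =>
            ((Additive.toMul (c i k) : ℂˣ) : ℂ)⁻¹ * g v) (helper38.isOpen_rightSide _ _) hzR.2
            (analyticAt_const.mul hz2) ?_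
          filter_upwards [hz1] with v hv hvR
          rw [hv hvR, ← mul_assoc, inv_mul_cancel₀ hc0, one_mul]
        rw [hE'a _ z ((P i).hRU hzR) han]
        exact hz1.self_of_nhds hzR.2
    -- conclusion
    apply Additive.toMul.injective
    ext
    have hx : E' k M.z₀ ≠ 0 := hne k _ had.base_mem
    have hy : E' (M.σ i k) M.z₀ ≠ 0 := hne _ _ had.base_mem
    have e1 : ((Additive.toMul (c i k + Additive.ofMul (a k) - Additive.ofMul (a (M.σ i k))) :
        ℂˣ) : ℂ) = ((Additive.toMul (c i k) : ℂˣ) : ℂ) * (E' k M.z₀)⁻¹ *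
          ((E' (M.σ i k) M.z₀)⁻¹)⁻¹ := by
      simp [a, div_eq_mul_inv]
    have e2 : ((Additive.toMul (expCochain (pathFun P ψ ψc) i k) : ℂˣ) : ℂ) =
        Complex.exp (segInt (ψ k) M.z₀ (P i).zL) *
          Complex.exp (segInt (ψc i k) (P i).zL (P i).zR) /
          Complex.exp (segInt (ψ (M.σ i k)) M.z₀ (P i).zR) := by
      show Complex.exp (pathFun P ψ ψc i k) = _
      unfold pathFun
      rw [Complex.exp_sub, Complex.exp_add]
    rw [e1, e2]
    rw [I1, I3] at I2
    have hC := Complex.exp_ne_zero (segInt (ψ (M.σ i k)) M.z₀ (P i).zR)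
    field_simp
    linear_combination I2
  rw [← key]
  exact hj

/-- Shifting additive primitives by constants. -/
theorem isAddPrim_shift {η : Ω[F⁄ℂ]} {G : Fin M.d → ℂ → ℂ} (hG : M.IsAddPrim η G)
    (e : Fin M.d → ℂ) : M.IsAddPrim η (fun k z => G k z - e k) := by
  intro k
  refine ⟨(hG k).1.sub (MeromorphicOn.const (e k)), fun z hz => ?_⟩
  filter_upwards [(hG k).2 z hz] with w hw
  exact hw.sub_const (e k)

theorem isAddJumpOf_shift {G : Fin M.d → ℂ → ℂ} {p : Fin M.r → Fin M.d → ℂ}
    (hp : M.IsAddJumpOf G p) (e : Fin M.d → ℂ) :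
    M.IsAddJumpOf (fun k z => G k z - e k) (fun i k => p i k - e k + e (M.σ i k)) := by
  intro i k a ha
  obtain ⟨g, hg, hL, hR⟩ := hp i k a ha
  refine ⟨fun z => g z - e k, hg.sub (MeromorphicAt.const (e k) a), ?_, ?_⟩
  · filter_upwards [hL] with z hz hzL
    rw [hz hzL]
  · filter_upwards [hR] with z hz hzR
    rw [hz hzR]
    ring

/-- **Periods as path integrals.** -/
theorem isPeriodOf_pathFun (had : IsAdapted P V ψ ψc) {η : Ω[F⁄ℂ]}
    (hη : ∀ k, IsSheetOf M k (M.coeff η) (ψ k)) {p : Fin M.r → Fin M.d → ℂ}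
    (hp : M.IsPeriodOf η p) : M.IsPeriodOf η (pathFun P ψ ψc) := by
  classical
  obtain ⟨G, hG, hjp⟩ := hp
  choose G' _ _ hG'a hG'p using fun k => exists_nf_addPrim (hG k).1 (hG k).2
  have hder : ∀ k, ∀ z ∈ V, HasDerivAt (G' k) (ψ k z) z := fun k z hz =>
    (hG'p k z (had.subset hz) (ψ k) (had.analytic k z hz) (hη k z (had.subset hz))).2
  have hcont : ∀ k, ContinuousOn (ψ k) V := fun k z hz =>
    (had.analytic k z hz).continuousAt.continuousWithinAt
  refine ⟨fun k z => G k z - G' k M.z₀, isAddPrim_shift hG _, ?_⟩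
  have hj := isAddJumpOf_shift hjp (fun k => G' k M.z₀)
  have key : (fun i k => p i k - G' k M.z₀ + G' (M.σ i k) M.z₀) = pathFun P ψ ψc := by
    funext i k
    have I1 : segInt (ψ k) M.z₀ (P i).zL = G' k (P i).zL - G' k M.z₀ :=
      segInt_eq_sub (had.segL i) (hcont k) (hder k)
    have I3 : segInt (ψ (M.σ i k)) M.z₀ (P i).zR =
        G' (M.σ i k) (P i).zR - G' (M.σ i k) M.z₀ :=
      segInt_eq_sub (had.segR i) (hcont _) (hder _)
    obtain ⟨g, hg, hgL, hgR⟩ := hjp i k (P i).q (P i).hq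
    have I2 : p i k + G' (M.σ i k) (P i).zR =
        G' k (P i).zL + segInt (ψc i k) (P i).zL (P i).zR := by
      refine cross_add (P i).isOpen_left (convex_ball_inter_leftSide _ _ _ _).isPreconnected
        Set.inter_subset_left (P i).frequently_left (P i).isOpen_right
        (convex_ball_inter_rightSide _ _ _ _).isPreconnected Set.inter_subset_left
        (P i).frequently_right (P i).hδ (g := g) ?_ ?_ ?_ hg ?_ ?_ (P i).hzL (P i).hzR
      · exact fun z hz => (had.analytic_cross i k z hz).differentiableAt.differentiableWithinAt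
      · intro z hz
        rw [had.eqOn_left i k hz]
        exact hder k z (had.left i hz)
      · intro z hz
        rw [had.eqOn_right i k hz]
        exact hder _ z (had.right i hz)
      · filter_upwards [eventually_eventually_nhdsNE hgL, hg.eventually_analyticAt]
          with z hz1 hz2 hzL
        have han : AnalyticAt ℂ (G k) z :=
          analyticAt_of_eventually_imp (isOpen_leftSide _ _) hzL.2 hz2 hz1
        rw [hG'a k z ((P i).hLU hzL) han]
        exact hz1.self_of_nhds hzL.2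
      · filter_upwards [eventually_eventually_nhdsNE hgR, hg.eventually_analyticAt]
          with z hz1 hz2 hzR
        have han : AnalyticAt ℂ (G (M.σ i k)) z := by
          refine analyticAt_of_eventually_imp (g := fun v => g v - p i k)
            (helper38.isOpen_rightSide _ _) hzR.2 (hz2.sub analyticAt_const) ?_
          filter_upwards [hz1] with v hv hvR
          rw [hv hvR]
          ring
        rw [hG'a _ z ((P i).hRU hzR) han]
        exact hz1.self_of_nhds hzR.2
    unfold pathFun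
    rw [I1, I3]
    linear_combination I2
  rw [← key]
  exact hj

end

end Fermat.Agent.P5.helper25
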