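/-
P5 / S27 (helper25): module SURJ, the assembly.

`surjAt_of_packages : RRCon F → RRSurj F → MonoPackages M → HolPeriods M → FamilyStatement M →
  IndepStatement M → SurjAt M`

by the open-subgroup lemma (inverse function theorem): the set of log-jumps is an additive
subgroup of the space `Z¹(ℂ)` of complex cocycles, and it contains the image of a neighbourhood
under a map whose strict derivative is onto `Z¹(ℂ)`.
-/
import Mathlib
import Fermat.Agent.P5.helper25_FamilyDefs
import Fermat.Agent.P5.helper56_CombDim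
import Fermat.Agent.P5.helper56_CombExp

set_option autoImplicit false
set_option linter.style.haveILetI false

open AlgebraicCurve Filter Topology KaehlerDifferential

namespace Fermat.Agent.P5.helper25

/-! ### The open-subgroup lemma -/

/-- An additive subgroup of a real normed space which is a neighbourhood of one of its points is
everything. -/
theorem addSubgroup_eq_top_of_mem_nhds {Z : Type*} [NormedAddCommGroup Z] [NormedSpace ℝ Z]
    (G : AddSubgroup Z) {z : Z} (hz : (G : Set Z) ∈ 𝓝 z) : G = ⊤ := by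
  have hopen : IsOpen (G : Set Z) := AddSubgroup.isOpen_of_mem_nhds G hz
  have hclosed : IsClosed (G : Set Z) := AddSubgroup.isClosed_of_isOpen G hopen
  have hclopen : IsClopen (G : Set Z) := ⟨hclosed, hopen⟩
  have hne : (G : Set Z).Nonempty := ⟨0, G.zero_mem⟩
  have huniv : (G : Set Z) = Set.univ := hclopen.eq_univ hne
  exact SetLike.coe_injective (by rw [huniv]; rfl)

/-- **The open-subgroup lemma**: an additive subgroup `G` of a subspace `Z` which contains the
image of a neighbourhood under a map with strict derivative onto `Z` is all of `Z`. -/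
theorem forall_mem_of_hasStrictFDerivAt {E V : Type*} [NormedAddCommGroup E] [NormedSpace ℂ E]
    [CompleteSpace E] [NormedAddCommGroup V] [NormedSpace ℂ V] [FiniteDimensional ℂ V]
    (G : AddSubgroup V) (Z : Submodule ℂ V) (hGZ : ∀ l ∈ G, l ∈ Z) (Ψ : E → V)
    (Ψ' : E →L[ℂ] V) (p : E) (hΨ : HasStrictFDerivAt Ψ Ψ' p)
    (hmem : ∀ᶠ q in 𝓝 p, Ψ q ∈ G) (hsurj : ∀ z ∈ Z, ∃ x, Ψ' x = z) :
    ∀ l ∈ Z, l ∈ G := by
  classical
  obtain ⟨π, hπ⟩ := LinearMap.exists_leftInverse_of_injective Z.subtype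
    (LinearMap.ker_eq_bot.mpr Z.injective_subtype)
  have hπ' : ∀ z : Z, π (z : V) = z := fun z => LinearMap.congr_fun hπ z
  let πc : V →L[ℂ] Z := LinearMap.toContinuousLinearMap π
  have hπc : ∀ v : V, πc v = π v := fun v => rfl
  have hΨZ : HasStrictFDerivAt (fun q => πc (Ψ q)) (πc.comp Ψ') p :=
    πc.hasStrictFDerivAt.comp p hΨ
  have hrange : (πc.comp Ψ' : E →L[ℂ] Z).range = ⊤ := by
    rw [eq_top_iff]
    rintro z -
    obtain ⟨x, hx⟩ := hsurj z z.2
    refine ⟨x, ?_⟩
    show πc (Ψ' x) = z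
    rw [hx, hπc, hπ']
  have hmap := hΨZ.map_nhds_eq_of_surj hrange
  let GZ : AddSubgroup Z := G.comap Z.subtype.toAddMonoidHom
  have hGZ_nhds : (GZ : Set Z) ∈ 𝓝 (πc (Ψ p)) := by
    rw [← hmap, Filter.mem_map]
    filter_upwards [hmem] with q hq
    show (πc (Ψ q) : V) ∈ G
    have h1 : Ψ q ∈ Z := hGZ _ hq
    have h2 : πc (Ψ q) = ⟨Ψ q, h1⟩ := by
      rw [hπc]
      exact hπ' ⟨Ψ q, h1⟩
    rw [h2]
    exact hq
  have htop : GZ = ⊤ := addSubgroup_eq_top_of_mem_nhds GZ hGZ_nhds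
  intro l hl
  have : (⟨l, hl⟩ : Z) ∈ GZ := by rw [htop]; trivial
  exact this

noncomputable section

variable {F : Type} [Field F] [Algebra ℂ F]

/-! ### The exponential of cochains -/

theorem expCochain_zero {r d : ℕ} : expCochain (0 : Fin r → Fin d → ℂ) = 0 := by
  funext i k
  simp [expCochain]

theorem expCochain_add {r d : ℕ} (l l' : Fin r → Fin d → ℂ) :
    expCochain (l + l') = expCochain l + expCochain l' := by
  funext i k
  simp [expCochain]

theorem expCochain_neg {r d : ℕ} (l : Fin r → Fin d → ℂ) :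
    expCochain (-l) = -expCochain l := by
  funext i k
  simp [expCochain]

/-! ### The subgroup of log-jumps -/

variable {M : CutModel F}

/-- The log-jumps form an additive subgroup. -/
def logJumpsSubgroup (RR : RRCon F) (hM : MonoPackages M) :
    AddSubgroup (Fin M.r → Fin M.d → ℂ) where
  carrier := M.logJumps
  zero_mem' := by
    refine ⟨(M.permDatum.Z1 ℂ).zero_mem, dlog F 1, ?_, fun k => M.ev k 1,
      (hM.prim_dlog 1 one_ne_zero).1, ?_⟩
    · rw [dlog_one]; exact M.zero_mem_T₀ RR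
    · rw [expCochain_zero]; exact (hM.prim_dlog 1 one_ne_zero).2
  add_mem' := by
    rintro l l' ⟨hl, τ, hτ, E, hE, hc⟩ ⟨hl', τ', hτ', E', hE', hc'⟩
    obtain ⟨h1, h2⟩ := hM.mul τ hτ τ' hτ' E E' _ _ hE hc hE' hc'
    refine ⟨(M.permDatum.Z1 ℂ).add_mem hl hl', τ + τ', M.add_mem_T₀ RR hτ hτ', _, h1, ?_⟩
    rw [expCochain_add]; exact h2
  neg_mem' := by
    rintro l ⟨hl, τ, hτ, E, hE, hc⟩
    obtain ⟨h1, h2⟩ := hM.inv τ hτ E _ hE hc
    refine ⟨(M.permDatum.Z1 ℂ).neg_mem hl, -τ, M.neg_mem_T₀ RR hτ, _, h1, ?_⟩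
    rw [expCochain_neg]; exact h2

theorem mem_logJumpsSubgroup (RR : RRCon F) (hM : MonoPackages M)
    (l : Fin M.r → Fin M.d → ℂ) : l ∈ logJumpsSubgroup RR hM ↔ l ∈ M.logJumps := Iff.rfl

/-- Coboundaries are log-jumps. -/
theorem δ0_mem_logJumps (RR : RRCon F) (hM : MonoPackages M) (e : Fin M.d → ℂ) :
    (fun i k => e k - e (M.σ i k) : Fin M.r → Fin M.d → ℂ) ∈ M.logJumps := by
  have hT : dlog F (1 : F) ∈ M.T₀ := by rw [dlog_one]; exact M.zero_mem_T₀ RR
  obtain ⟨h1, h2⟩ := hM.prim_dlog 1 one_ne_zero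
  obtain ⟨h3, h4⟩ := hM.rescale (dlog F 1) hT (fun k => M.ev k 1) 0
    (fun k => Additive.toMul (helper56.expAdd (e k))) h1 h2
  refine ⟨?_, dlog F 1, hT, _, h3, ?_⟩
  · have hB : (fun i k => e k - e (M.σ i k) : Fin M.r → Fin M.d → ℂ) ∈ M.permDatum.B1 ℂ :=
      ⟨e, rfl⟩
    exact helper56.B1_le_Z1 M.permDatum M.prod_σ hB
  · convert h4 using 1
    funext i k
    simp [expCochain, sub_eq_add_neg]


/-! ### The assembly -/

/-- **[SURJ]** from the packages. -/
theorem surjAt_of_packages (RR : RRCon F) (RS : RRSurj F) (hM : MonoPackages M)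
    (hH : HolPeriods M) (hF : FamilyStatement M) (hI : IndepStatement M) : SurjAt M := by
  classical
  -- holomorphic differentials and their periods
  obtain ⟨ω, hωli, hωreg⟩ := RS.hol
  choose q hq hqs using fun i => hH (ω i) (hωreg i)
  -- families at a non-special divisor
  obtain ⟨A, hAinf, hAint, hAfam⟩ := hF
  obtain ⟨P, hPinj, hPA, hPns⟩ := RS.ns A hAinf
  choose a η p L hη hp hL hL' using fun j => hAfam (P j) (hPA j)
  -- the subgroup and the subspace
  let G := logJumpsSubgroup RR hM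
  let Z : Submodule ℂ (Fin M.r → Fin M.d → ℂ) := LinearMap.ker (helper56.δ1ₗ M.permDatum ℂ)
  have hZ : ∀ l : Fin M.r → Fin M.d → ℂ, l ∈ Z ↔ l ∈ M.permDatum.Z1 ℂ := by
    intro l
    have h := helper56.coe_ker_δ1ₗ M.permDatum ℂ
    exact Set.ext_iff.mp h l
  have hGZ : ∀ l ∈ G, l ∈ Z := fun l hl => (hZ l).mpr hl.1
  -- the parameter space
  let E := (Fin (genusFF ℂ F) → ℂ) × (Fin (genusFF ℂ F) → ℂ) × (Fin M.d → ℂ)
  let pr1 : Fin (genusFF ℂ F) → (E →L[ℂ] ℂ) := fun j =>
    (ContinuousLinearMap.proj j).comp (ContinuousLinearMap.fst ℂ _ _)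
  let pr2 : Fin (genusFF ℂ F) → (E →L[ℂ] ℂ) := fun j =>
    (ContinuousLinearMap.proj j).comp
      ((ContinuousLinearMap.fst ℂ _ _).comp (ContinuousLinearMap.snd ℂ _ _))
  let pr3 : E →L[ℂ] (Fin M.d → ℂ) :=
    (ContinuousLinearMap.snd ℂ _ _).comp (ContinuousLinearMap.snd ℂ _ _)
  let D0 : (Fin M.d → ℂ) →L[ℂ] (Fin M.r → Fin M.d → ℂ) :=
    LinearMap.toContinuousLinearMap (helper56.δ0ₗ M.permDatum ℂ)
  have hD0 : ∀ (e : Fin M.d → ℂ) i k, D0 e i k = e k - e (M.σ i k) := fun e i k => rfl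
  let Ψ : E → (Fin M.r → Fin M.d → ℂ) := fun x =>
    (∑ j, L j (pr1 j x)) + (∑ j, (pr2 j x) • q j) + D0 (pr3 x)
  let Ψ' : E →L[ℂ] (Fin M.r → Fin M.d → ℂ) :=
    (∑ j, (ContinuousLinearMap.toSpanSingleton ℂ (p j)).comp (pr1 j)) +
      (∑ j, (ContinuousLinearMap.toSpanSingleton ℂ (q j)).comp (pr2 j)) + D0.comp pr3
  let x₀ : E := (a, 0, 0)
  have hpr1 : ∀ j, pr1 j x₀ = a j := fun j => rfl
  -- strict differentiability
  have hΨ : HasStrictFDerivAt Ψ Ψ' x₀ := by
    refine (HasStrictFDerivAt.add ?_ ?_).add ?_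
    · refine HasStrictFDerivAt.fun_sum fun j _ => ?_
      have h1 : HasStrictFDerivAt (L j) (ContinuousLinearMap.toSpanSingleton ℂ (p j))
          (pr1 j x₀) := by
        rw [hpr1]
        exact (hL' j).hasStrictFDerivAt
      exact h1.comp x₀ (pr1 j).hasStrictFDerivAt
    · refine HasStrictFDerivAt.fun_sum fun j _ => ?_
      have h1 : HasStrictFDerivAt (fun s : ℂ => s • q j)
          (ContinuousLinearMap.toSpanSingleton ℂ (q j)) (pr2 j x₀) :=
        (ContinuousLinearMap.toSpanSingleton ℂ (q j)).hasStrictFDerivAt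
      exact h1.comp x₀ (pr2 j).hasStrictFDerivAt
    · exact (D0.comp pr3).hasStrictFDerivAt
  -- values in `G`
  have hmem : ∀ᶠ x in 𝓝 x₀, Ψ x ∈ G := by
    have h1 : ∀ j, ∀ᶠ x in 𝓝 x₀, L j (pr1 j x) ∈ M.logJumps := by
      intro j
      have hc : Tendsto (fun x : E => pr1 j x) (𝓝 x₀) (𝓝 (a j)) := by
        have := (pr1 j).continuous.tendsto x₀
        rwa [hpr1] at this
      exact hc.eventually (hL j)
    have h2 : ∀ᶠ x in 𝓝 x₀, ∀ j, L j (pr1 j x) ∈ M.logJumps := Filter.eventually_all.mpr h1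
    filter_upwards [h2] with x hx
    refine G.add_mem (G.add_mem (G.sum_mem fun j _ => hx j) (G.sum_mem fun j _ => ?_)) ?_
    · exact hqs j (pr2 j x)
    · exact δ0_mem_logJumps RR hM (pr3 x)
  -- the derivative is onto the cocycles
  have hsurj : ∀ z ∈ Z, ∃ x, Ψ' x = z := by
    intro z hz
    obtain ⟨v, s, e, h⟩ := hI P η ω p q hPinj (fun j => hAint (hPA j)) hPns hη hp hωli hωreg hq
      z ((hZ z).mp hz)
    refine ⟨(v, s, e), ?_⟩
    funext i k
    rw [h i k]
    simp only [Ψ', pr1, pr2, pr3, add_apply, sum_apply,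
      ContinuousLinearMap.comp_apply, ContinuousLinearMap.toSpanSingleton_apply,
      ContinuousLinearMap.proj_apply, Pi.add_apply, Finset.sum_apply, Pi.smul_apply,
      smul_eq_mul, hD0]
    rfl
  have hall := forall_mem_of_hasStrictFDerivAt G Z hGZ Ψ Ψ' x₀ hΨ hmem hsurj
  -- conclusion
  intro c hc
  obtain ⟨c', hc', hcc'⟩ := helper56.exists_log_cocycle M.permDatum M.d_pos M.transitive c hc
  obtain ⟨-, τ, hτ, E', hE', hj⟩ := hall c' ((hZ c').mpr hc')
  refine ⟨τ, hτ, E', hE', ?_⟩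
  have : expCochain c' = c := hcc'
  rw [← this]
  exact hj


/-- **[SURJ]** for all cut models, from the module statements. -/
theorem surjStatement_of_packages (hRR : RRConStatement) (hRS : RRSurjStatement)
    (hMono : MonoStatement) (hS : SurjPackages) : SurjStatement := fun F _ _ _ _ M =>
  surjAt_of_packages (hRR F) (hRS F) (hMono F M) (hS.holPeriods F M) (hS.family F M)
    (hS.indep F M)

/-- **[MONO+SURJ]** from the module statements. -/
theorem rhStatement_of_packages (hRR : RRConStatement) (hRS : RRSurjStatement)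
    (hMono : MonoStatement) (hS : SurjPackages) : RHStatement :=
  rhStatement_of_modules hRR hMono (surjStatement_of_packages hRR hRS hMono hS)

end

end Fermat.Agent.P5.helper25
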