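/-
P5 / S27 (helper25): module SURJ, package FAM-AN, part 6: the assembly.

`anFamilyStatement : RRCon F → MonoPackages M → AddPeriodExists M → LocalExactStatement M →
  AnFamilyStatement M`
-/
import Mathlib
import Fermat.Agent.P5.helper25_FamJump
import Fermat.Agent.P5.helper25_SurjAsm

set_option autoImplicit false
set_option linter.style.haveILetI false

open AlgebraicCurve Filter Topology KaehlerDifferential

namespace Fermat.Agent.P5.helper25

open Fermat.Agent.P5.helper4 Fermat.Agent.P5.helper27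

noncomputable section

/-! ### Analyticity of the Cauchy-kernel functions -/

section kerFun

variable {N n : ℕ} {Y Y' : ℂ → ℂ} {Θ Θ' : Fin n → ℂ → ℂ}

theorem analyticAt_kerFun (c : Fin N → ℂ) (u : Fin n → ℂ) {t z : ℂ} (hY : AnalyticAt ℂ Y z)
    (hΘ : ∀ ν, AnalyticAt ℂ (Θ ν) z) (hz : z ≠ t) : AnalyticAt ℂ (kerFun c u Y Θ t) z := by
  unfold kerFun
  have h1 : AnalyticAt ℂ (fun w : ℂ => w - t) z := analyticAt_id.sub analyticAt_const
  refine AnalyticAt.sub ?_ ?_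
  · refine Finset.analyticAt_fun_sum _ fun m _ => analyticAt_const.mul ?_
    exact (hY.pow _).div h1 (sub_ne_zero.2 hz)
  · exact Finset.analyticAt_fun_sum _ fun ν _ => analyticAt_const.mul (hΘ ν)

theorem analyticAt_kerFun' (c c' : Fin N → ℂ) (u' : Fin n → ℂ) {t z : ℂ}
    (hY : AnalyticAt ℂ Y z) (hΘ : ∀ ν, AnalyticAt ℂ (Θ ν) z) (hz : z ≠ t) :
    AnalyticAt ℂ (kerFun' c c' u' Y Θ t) z := by
  unfold kerFun'
  have h1 : AnalyticAt ℂ (fun w : ℂ => w - t) z := analyticAt_id.sub analyticAt_const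
  refine AnalyticAt.sub ?_ ?_
  · refine Finset.analyticAt_fun_sum _ fun m _ => AnalyticAt.add (analyticAt_const.mul ?_)
      (analyticAt_const.mul ?_)
    · exact (hY.pow _).div h1 (sub_ne_zero.2 hz)
    · exact (hY.pow _).div (h1.pow 2) (pow_ne_zero 2 (sub_ne_zero.2 hz))
  · exact Finset.analyticAt_fun_sum _ fun ν _ => analyticAt_const.mul (hΘ ν)

theorem kerFun_congr (c : Fin N → ℂ) (u : Fin n → ℂ) (t : ℂ) {w : ℂ} (hY : Y w = Y' w)
    (hΘ : ∀ ν, Θ ν w = Θ' ν w) : kerFun c u Y Θ t w = kerFun c u Y' Θ' t w := by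
  unfold kerFun
  simp only [hY, hΘ]

theorem kerFun'_congr (c c' : Fin N → ℂ) (u' : Fin n → ℂ) (t : ℂ) {w : ℂ} (hY : Y w = Y' w)
    (hΘ : ∀ ν, Θ ν w = Θ' ν w) : kerFun' c c' u' Y Θ t w = kerFun' c c' u' Y' Θ' t w := by
  unfold kerFun'
  simp only [hY, hΘ]

end kerFun

/-! ### The set-up -/

variable {F : Type} [Field F] [Algebra ℂ F] {M : CutModel F} {k : Fin M.d} {a₁ : ℂ}

namespace AlgFamily

variable (A : AlgFamily M k a₁)

/-- The tame family of an algebraic family: `y` and the coefficients of the `θ ν`. -/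
def famφ : Option (Fin A.n) → F := fun j => j.elim A.y (fun ν => M.coeff (A.θ ν))

theorem isTame_famφ (hA : A.IsGood) (j : Option (Fin A.n)) : IsTame M A.a₀ (A.famφ j) := by
  rcases j with _ | ν
  · exact isTame_of_regular A.y hA.y_regular A.a₀
  · exact isTame_coeff (A.θ ν) A.k₀ A.a₀_mem (hA.θ_regular ν)

/-- The normal forms of the sheet functions of `y`. -/
def Ysh (k' : Fin M.d) : ℂ → ℂ := sheetNF M k' A.y

/-- The normal forms of the sheet functions of the coefficients of the `θ ν`. -/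
def Θsh (k' : Fin M.d) (ν : Fin A.n) : ℂ → ℂ := sheetNF M k' (M.coeff (A.θ ν))

theorem analyticAt_Ysh (hA : A.IsGood) (k' : Fin M.d) {z : ℂ} (hz : z ∈ M.toCutGeometry.U₀)
    (hza : z ≠ A.a₀) : AnalyticAt ℂ (A.Ysh k') z :=
  (A.isTame_famφ hA none).analyticAt k' hz hza

theorem analyticAt_Θsh (hA : A.IsGood) (k' : Fin M.d) (ν : Fin A.n) {z : ℂ}
    (hz : z ∈ M.toCutGeometry.U₀) (hza : z ≠ A.a₀) : AnalyticAt ℂ (A.Θsh k' ν) z :=
  (A.isTame_famφ hA (some ν)).analyticAt k' hz hza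

/-- The sheet functions of `τ_t`. -/
def K (t : ℂ) (k' : Fin M.d) : ℂ → ℂ :=
  kerFun (fun m => A.c m t) (fun ν => A.u ν t) (A.Ysh k') (A.Θsh k') t

/-- The sheet functions of `η_t`. -/
def K' (t : ℂ) (k' : Fin M.d) : ℂ → ℂ :=
  kerFun' (fun m => A.c m t) (fun m => deriv (A.c m) t) (fun ν => deriv (A.u ν) t)
    (A.Ysh k') (A.Θsh k') t

theorem isSheetOf_K (t : ℂ) (k' : Fin M.d) : IsSheetOf M k' (M.coeff (A.τ t)) (A.K t k') :=
  A.isSheetOf_coeff_τ t k' (isSheetOf_sheetNF k' A.y)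
    fun ν => isSheetOf_sheetNF k' (M.coeff (A.θ ν))

theorem isSheetOf_K' (t : ℂ) (k' : Fin M.d) : IsSheetOf M k' (M.coeff (A.η t)) (A.K' t k') :=
  A.isSheetOf_coeff_η t k' (isSheetOf_sheetNF k' A.y)
    fun ν => isSheetOf_sheetNF k' (M.coeff (A.θ ν))

variable (P : ∀ i, CrossPath M A.famφ a₁ A.a₀ i)

/-- The crossing continuations of the sheet functions of `τ_t`. -/
def Kc (t : ℂ) (i : Fin M.r) (k' : Fin M.d) : ℂ → ℂ :=
  kerFun (fun m => A.c m t) (fun ν => A.u ν t) ((P i).gc none k')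
    (fun ν => (P i).gc (some ν) k') t

/-- The crossing continuations of the sheet functions of `η_t`. -/
def Kc' (t : ℂ) (i : Fin M.r) (k' : Fin M.d) : ℂ → ℂ :=
  kerFun' (fun m => A.c m t) (fun m => deriv (A.c m) t) (fun ν => deriv (A.u ν) t)
    ((P i).gc none k') (fun ν => (P i).gc (some ν) k') t

/-- The path functional of `τ_t`. -/
def Λ (t : ℂ) : Fin M.r → Fin M.d → ℂ := pathFun P (A.K t) (A.Kc P t)

/-- The path functional of `η_t`. -/
def Λ' (t : ℂ) : Fin M.r → Fin M.d → ℂ := pathFun P (A.K' t) (A.Kc' P t)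

/-- The good parameters: off the paths. -/
def Tgood : Set ℂ :=
  {t | t ≠ M.z₀ ∧ ∀ i, t ∉ segment ℝ M.z₀ (P i).zL ∧ t ∉ segment ℝ M.z₀ (P i).zR ∧
    t ∉ Metric.closedBall (P i).q (P i).δ}

theorem a₁_mem_Tgood (ha₁' : a₁ ≠ M.z₀) : a₁ ∈ A.Tgood P :=
  ⟨ha₁', fun i => ⟨(P i).hL₁, (P i).hR₁, (P i).ha₁⟩⟩

theorem isOpen_Tgood : IsOpen (A.Tgood P) := by
  have h : A.Tgood P = {t | t ≠ M.z₀} ∩ ⋂ i, ((segment ℝ M.z₀ (P i).zL)ᶜ ∩
      ((segment ℝ M.z₀ (P i).zR)ᶜ ∩ (Metric.closedBall (P i).q (P i).δ)ᶜ)) := by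
    ext t
    simp only [Tgood, Set.mem_ofPred_eq, Set.mem_inter_iff, Set.mem_iInter, Set.mem_compl_iff]
  rw [h]
  refine isOpen_ne.inter (isOpen_iInter_of_finite fun i => ?_)
  exact (isClosed_segment' _ _).isOpen_compl.inter
    ((isClosed_segment' _ _).isOpen_compl.inter Metric.isClosed_closedBall.isOpen_compl)

/-- The domain of the sheet functions of `τ_t`. -/
def dom (t : ℂ) : Set ℂ := M.toCutGeometry.U₀ \ {t, A.a₀}

theorem isOpen_dom (t : ℂ) : IsOpen (A.dom t) :=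
  (CutGeom.isOpen_U₀ M.toCutGeometry).sdiff (Set.toFinite {t, A.a₀}).isClosed

theorem mem_dom {t z : ℂ} : z ∈ A.dom t ↔ z ∈ M.toCutGeometry.U₀ ∧ z ≠ t ∧ z ≠ A.a₀ := by
  simp only [dom, Set.mem_sdiff, Set.mem_insert_iff, Set.mem_singleton_iff, not_or]

variable {A P}

theorem segL_subset_dom {t : ℂ} (ht : t ∈ A.Tgood P) (i : Fin M.r) :
    segment ℝ M.z₀ (P i).zL ⊆ A.dom t := by
  intro z hz
  refine A.mem_dom.2 ⟨?_, ?_, ?_⟩
  · exact (helper38.starConvex_U₀ M.toCutGeometry).segment_subset ((P i).hLU (P i).hzL) hz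
  · rintro rfl
    exact (ht.2 i).1 hz
  · rintro rfl
    exact (P i).hL₀ hz

theorem segR_subset_dom {t : ℂ} (ht : t ∈ A.Tgood P) (i : Fin M.r) :
    segment ℝ M.z₀ (P i).zR ⊆ A.dom t := by
  intro z hz
  refine A.mem_dom.2 ⟨?_, ?_, ?_⟩
  · exact (helper38.starConvex_U₀ M.toCutGeometry).segment_subset ((P i).hRU (P i).hzR) hz
  · rintro rfl
    exact (ht.2 i).2.1 hz
  · rintro rfl
    exact (P i).hR₀ hz

theorem not_mem_ball_of_mem_Tgood {t : ℂ} (ht : t ∈ A.Tgood P) (i : Fin M.r) :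
    t ∉ Metric.ball (P i).q (P i).δ := fun h =>
  (ht.2 i).2.2 (Metric.ball_subset_closedBall h)

theorem a₀_not_mem_ball (i : Fin M.r) : A.a₀ ∉ Metric.ball (P i).q (P i).δ := fun h =>
  (P i).ha₀ (Metric.ball_subset_closedBall h)

theorem left_subset_dom {t : ℂ} (ht : t ∈ A.Tgood P) (i : Fin M.r) :
    Metric.ball (P i).q (P i).δ ∩ leftSide M.z₀ (M.b i) ⊆ A.dom t := by
  intro z hz
  refine A.mem_dom.2 ⟨(P i).hLU hz, ?_, ?_⟩
  · rintro rfl
    exact not_mem_ball_of_mem_Tgood ht i hz.1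
  · rintro rfl
    exact a₀_not_mem_ball i hz.1

theorem right_subset_dom {t : ℂ} (ht : t ∈ A.Tgood P) (i : Fin M.r) :
    Metric.ball (P i).q (P i).δ ∩ rightSide M.z₀ (M.b i) ⊆ A.dom t := by
  intro z hz
  refine A.mem_dom.2 ⟨(P i).hRU hz, ?_, ?_⟩
  · rintro rfl
    exact not_mem_ball_of_mem_Tgood ht i hz.1
  · rintro rfl
    exact a₀_not_mem_ball i hz.1

/-- The sheet functions of `τ_t` are adapted to the paths. -/
theorem isAdapted_K (hA : A.IsGood) {t : ℂ} (ht : t ∈ A.Tgood P) :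
    IsAdapted P (A.dom t) (A.K t) (A.Kc P t) where
  isOpen := A.isOpen_dom t
  subset := fun z hz => (A.mem_dom.1 hz).1
  base_mem := A.mem_dom.2 ⟨helper38.z₀_mem_U₀ _, fun h => ht.1 h.symm,
    fun h => A.a₀_ne_base h.symm⟩
  segL := segL_subset_dom ht
  segR := segR_subset_dom ht
  left := left_subset_dom ht
  right := right_subset_dom ht
  analytic := fun k' z hz => by
    obtain ⟨h1, h2, h3⟩ := A.mem_dom.1 hz
    exact analyticAt_kerFun _ _ (A.analyticAt_Ysh hA k' h1 h3)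
      (fun ν => A.analyticAt_Θsh hA k' ν h1 h3) h2
  analytic_cross := fun i k' z hz =>
    analyticAt_kerFun _ _ ((P i).han none k' z hz) (fun ν => (P i).han (some ν) k' z hz)
      (fun h => not_mem_ball_of_mem_Tgood ht i (h ▸ hz))
  eqOn_left := fun i k' z hz =>
    kerFun_congr _ _ _ ((P i).hgL none k' hz) fun ν => (P i).hgL (some ν) k' hz
  eqOn_right := fun i k' z hz =>
    kerFun_congr _ _ _ ((P i).hgR none k' hz) fun ν => (P i).hgR (some ν) k' hz

/-- The sheet functions of `η_t` are adapted to the paths. -/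
theorem isAdapted_K' (hA : A.IsGood) {t : ℂ} (ht : t ∈ A.Tgood P) :
    IsAdapted P (A.dom t) (A.K' t) (A.Kc' P t) where
  isOpen := A.isOpen_dom t
  subset := fun z hz => (A.mem_dom.1 hz).1
  base_mem := A.mem_dom.2 ⟨helper38.z₀_mem_U₀ _, fun h => ht.1 h.symm,
    fun h => A.a₀_ne_base h.symm⟩
  segL := segL_subset_dom ht
  segR := segR_subset_dom ht
  left := left_subset_dom ht
  right := right_subset_dom ht
  analytic := fun k' z hz => by
    obtain ⟨h1, h2, h3⟩ := A.mem_dom.1 hz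
    exact analyticAt_kerFun' _ _ _ (A.analyticAt_Ysh hA k' h1 h3)
      (fun ν => A.analyticAt_Θsh hA k' ν h1 h3) h2
  analytic_cross := fun i k' z hz =>
    analyticAt_kerFun' _ _ _ ((P i).han none k' z hz) (fun ν => (P i).han (some ν) k' z hz)
      (fun h => not_mem_ball_of_mem_Tgood ht i (h ▸ hz))
  eqOn_left := fun i k' z hz =>
    kerFun'_congr _ _ _ _ ((P i).hgL none k' hz) fun ν => (P i).hgL (some ν) k' hz
  eqOn_right := fun i k' z hz =>
    kerFun'_congr _ _ _ _ ((P i).hgR none k' hz) fun ν => (P i).hgR (some ν) k' hz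

/-! ### The jumps of `τ_t` -/

theorem τ_mem_T₀ (hA : A.IsGood) {t : ℂ}
    (ht : t ∈ Metric.ball a₁ A.ε) : A.τ t ∈ M.T₀ := by
  classical
  refine ⟨_, hA.residue t ht, fun v hv => ?_⟩
  have htU : t ∈ M.toCutGeometry.U₀ := A.ball_subset (Metric.ball_subset_closedBall ht)
  by_cases h1 : v = M.pl k t
  · exact ⟨k, t, htU, h1⟩
  · by_cases h2 : v = A.P₀
    · exact ⟨A.k₀, A.a₀, A.a₀_mem, h2⟩
    · exfalso
      apply hv
      rw [Finsupp.sub_apply, Finsupp.single_apply, Finsupp.single_apply,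
        if_neg (Ne.symm h1), if_neg (Ne.symm h2), sub_zero]

/-- **The jump cochain of `τ_t` is the exponential of the path functional.** -/
theorem exists_isJumpOf_Λ (hM : MonoPackages M) (hA : A.IsGood) {t : ℂ} (ht : t ∈ A.Tgood P) (ht' : t ∈ Metric.ball a₁ A.ε) :
    ∃ E : Fin M.d → ℂ → ℂ, M.IsMultPrim (A.τ t) E ∧ M.IsJumpOf E (expCochain (A.Λ P t)) := by
  obtain ⟨E, c, hE, hc⟩ := hM.exists_prim (A.τ t) (τ_mem_T₀ hA ht')
  exact exists_isJumpOf_pathFun P (isAdapted_K hA ht) (A.isSheetOf_K t) hE hc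

/-! ### Differentiability of the path functional -/

theorem continuousOn_of_analytic {f : ℂ → ℂ} {S : Set ℂ} (h : ∀ z ∈ S, AnalyticAt ℂ f z) :
    ContinuousOn f S := fun z hz => (h z hz).continuousAt.continuousWithinAt

theorem hasDerivAt_Λ (hA : A.IsGood) {t : ℂ} (ht : t ∈ A.Tgood P)
    (ht' : t ∈ Metric.ball a₁ A.ε) (i : Fin M.r) (k' : Fin M.d) :
    HasDerivAt (fun s => A.Λ P s i k') (A.Λ' P t i k') t := by
  have hc : ∀ m, HasDerivAt (A.c m) (deriv (A.c m) t) t := fun m =>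
    ((A.c_differentiableOn m).differentiableAt (Metric.isOpen_ball.mem_nhds ht')).hasDerivAt
  have hu : ∀ ν, HasDerivAt (A.u ν) (deriv (A.u ν) t) t := fun ν =>
    ((A.u_differentiableOn ν).differentiableAt (Metric.isOpen_ball.mem_nhds ht')).hasDerivAt
  have hsegU : ∀ z ∈ segment ℝ M.z₀ (P i).zL, z ∈ M.toCutGeometry.U₀ ∧ z ≠ A.a₀ := fun z hz =>
    ⟨(A.mem_dom.1 (segL_subset_dom ht i hz)).1, (A.mem_dom.1 (segL_subset_dom ht i hz)).2.2⟩
  have hsegU' : ∀ z ∈ segment ℝ M.z₀ (P i).zR, z ∈ M.toCutGeometry.U₀ ∧ z ≠ A.a₀ := fun z hz =>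
    ⟨(A.mem_dom.1 (segR_subset_dom ht i hz)).1, (A.mem_dom.1 (segR_subset_dom ht i hz)).2.2⟩
  have hcross : segment ℝ (P i).zL (P i).zR ⊆ Metric.ball (P i).q (P i).δ :=
    (convex_ball _ _).segment_subset (P i).hzL.1 (P i).hzR.1
  have h1 := hasDerivAt_segInt_kerFun (p := M.z₀) (q := (P i).zL) hc hu
    (continuousOn_of_analytic fun z hz => A.analyticAt_Ysh hA k' (hsegU z hz).1 (hsegU z hz).2)
    (fun ν => continuousOn_of_analytic fun z hz =>
      A.analyticAt_Θsh hA k' ν (hsegU z hz).1 (hsegU z hz).2) (ht.2 i).1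
  have h2 := hasDerivAt_segInt_kerFun (p := (P i).zL) (q := (P i).zR) hc hu
    (continuousOn_of_analytic fun z hz => (P i).han none k' z (hcross hz))
    (fun ν => continuousOn_of_analytic fun z hz => (P i).han (some ν) k' z (hcross hz))
    (fun h => not_mem_ball_of_mem_Tgood ht i (hcross h))
  have h3 := hasDerivAt_segInt_kerFun (p := M.z₀) (q := (P i).zR) hc hu
    (continuousOn_of_analytic fun z hz =>
      A.analyticAt_Ysh hA (M.σ i k') (hsegU' z hz).1 (hsegU' z hz).2)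
    (fun ν => continuousOn_of_analytic fun z hz =>
      A.analyticAt_Θsh hA (M.σ i k') ν (hsegU' z hz).1 (hsegU' z hz).2) (ht.2 i).2.1
  exact (h1.add h2).sub h3

theorem exists_goodBall (ha₁' : a₁ ≠ M.z₀) :
    ∃ ε' > 0, Metric.ball a₁ ε' ⊆ A.Tgood P ∩ Metric.ball a₁ A.ε :=
  Metric.isOpen_iff.1 ((A.isOpen_Tgood P).inter Metric.isOpen_ball) a₁
    ⟨A.a₁_mem_Tgood P ha₁', Metric.mem_ball_self A.ε_pos⟩

theorem hasStrictDerivAt_Λ (hA : A.IsGood) (ha₁' : a₁ ≠ M.z₀) (i : Fin M.r) (k' : Fin M.d) :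
    HasStrictDerivAt (fun s => A.Λ P s i k') (A.Λ' P a₁ i k') a₁ := by
  obtain ⟨ε', hε', hsub⟩ := exists_goodBall (A := A) (P := P) ha₁'
  have hd : DifferentiableOn ℂ (fun s => A.Λ P s i k') (Metric.ball a₁ ε') := fun t ht =>
    (hasDerivAt_Λ hA (hsub ht).1 (hsub ht).2 i k').differentiableAt.differentiableWithinAt
  have han : AnalyticAt ℂ (fun s => A.Λ P s i k') a₁ :=
    hd.analyticAt (Metric.ball_mem_nhds a₁ hε')
  have h1 := han.hasStrictDerivAt
  have h2 := (hasDerivAt_Λ hA (A.a₁_mem_Tgood P ha₁') (Metric.mem_ball_self A.ε_pos) i k').deriv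
  rwa [h2] at h1

end AlgFamily

/-! ### Integrality and connectedness -/

/-- A continuous function on a connected open set with values in `2 π i ℤ` which vanishes at one
point vanishes identically. -/
theorem eq_zero_of_forall_exists_int {B : Set ℂ} (hBo : IsOpen B) (hB : IsPreconnected B)
    {f : ℂ → ℂ} (hf : ContinuousOn f B)
    (hint : ∀ t ∈ B, ∃ n : ℤ, f t = n * (2 * Real.pi * Complex.I)) {a : ℂ} (ha : a ∈ B)
    (h0 : f a = 0) : ∀ t ∈ B, f t = 0 := by
  have hpi := Real.pi_pos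
  have hnorm : ∀ n : ℤ, ‖(n : ℂ) * (2 * Real.pi * Complex.I)‖ = |(n : ℝ)| * (2 * Real.pi) := by
    intro n
    rw [norm_mul, Complex.norm_intCast, norm_mul, norm_mul, Complex.norm_I, mul_one,
      Complex.norm_real, Real.norm_of_nonneg hpi.le]
    simp
  have hu : IsOpen (B ∩ f ⁻¹' Metric.ball 0 Real.pi) :=
    hf.isOpen_inter_preimage hBo Metric.isOpen_ball
  have hv : IsOpen (B ∩ f ⁻¹' {z | Real.pi < ‖z‖}) :=
    hf.isOpen_inter_preimage hBo (isOpen_lt continuous_const continuous_norm)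
  by_contra hcon
  push Not at hcon
  obtain ⟨t, ht, hft⟩ := hcon
  have hcover : B ⊆ (B ∩ f ⁻¹' Metric.ball 0 Real.pi) ∪ (B ∩ f ⁻¹' {z | Real.pi < ‖z‖}) := by
    intro s hs
    obtain ⟨n, hn⟩ := hint s hs
    by_cases h : n = 0
    · left
      refine ⟨hs, ?_⟩
      show f s ∈ Metric.ball 0 Real.pi
      rw [hn, h]
      simpa using hpi
    · right
      refine ⟨hs, ?_⟩
      show Real.pi < ‖f s‖
      rw [hn, hnorm]
      have h1 : (1 : ℝ) ≤ |(n : ℝ)| := by
        have : (1 : ℤ) ≤ |n| := Int.one_le_abs h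
        exact_mod_cast this
      nlinarith
  have hau : (B ∩ (B ∩ f ⁻¹' Metric.ball 0 Real.pi)).Nonempty :=
    ⟨a, ha, ha, by show f a ∈ Metric.ball 0 Real.pi; rw [h0]; simpa using hpi⟩
  have htv : (B ∩ (B ∩ f ⁻¹' {z | Real.pi < ‖z‖})).Nonempty := by
    refine ⟨t, ht, ht, ?_⟩
    obtain ⟨n, hn⟩ := hint t ht
    have hn0 : n ≠ 0 := by
      rintro rfl
      apply hft
      rw [hn]
      simp
    show Real.pi < ‖f t‖
    rw [hn, hnorm]
    have h1 : (1 : ℝ) ≤ |(n : ℝ)| := by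
      have : (1 : ℤ) ≤ |n| := Int.one_le_abs hn0
      exact_mod_cast this
    nlinarith
  obtain ⟨s, -, ⟨-, hs1⟩, ⟨-, hs2⟩⟩ := hB _ _ hu hv hcover hau htv
  have h1 : ‖f s‖ < Real.pi := by
    have : f s ∈ Metric.ball (0 : ℂ) Real.pi := hs1
    rwa [mem_ball_zero_iff] at this
  have h2 : Real.pi < ‖f s‖ := hs2
  linarith

theorem vertexSum_expCochain (P : PermDatum) (l : Fin P.r → Fin P.d → ℂ) (i : Fin P.r)
    (k : Fin P.d) :
    P.vertexSum (expCochain l) i k = helper56.expAdd (P.vertexSum l i k) := by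
  unfold PermDatum.vertexSum expCochain
  rw [map_sum]

theorem infSum_expCochain (P : PermDatum) (l : Fin P.r → Fin P.d → ℂ) (k : Fin P.d) :
    P.infSum (expCochain l) k = helper56.expAdd (P.infSum l k) := by
  unfold PermDatum.infSum expCochain
  rw [map_sum]

/-- A continuous family of complex cochains on a connected open set whose exponentials are
cocycles and which vanishes at one point consists of cocycles. -/
theorem mem_Z1_of_expCochain {P : PermDatum} {B : Set ℂ} (hBo : IsOpen B)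
    (hB : IsPreconnected B) {L : ℂ → Fin P.r → Fin P.d → ℂ}
    (hL : ∀ i k, ContinuousOn (fun t => L t i k) B)
    (hexp : ∀ t ∈ B, expCochain (L t) ∈ P.Z1 (Additive ℂˣ)) {a : ℂ} (ha : a ∈ B)
    (h0 : L a = 0) : ∀ t ∈ B, L t ∈ P.Z1 ℂ := by
  intro t ht
  refine ⟨fun i k => ?_, fun k => ?_⟩
  · refine eq_zero_of_forall_exists_int hBo hB (f := fun t => P.vertexSum (L t) i k) ?_ ?_ ha ?_
      t ht
    · unfold PermDatum.vertexSum
      exact continuousOn_finsetSum _ fun j _ => hL i _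
    · intro s hs
      have h1 := (hexp s hs).1 i k
      rw [vertexSum_expCochain] at h1
      exact (helper56.expAdd_eq_zero_iff _).1 h1
    · show P.vertexSum (L a) i k = 0
      rw [h0]
      exact ((P.Z1 ℂ).zero_mem).1 i k
  · refine eq_zero_of_forall_exists_int hBo hB (f := fun t => P.infSum (L t) k) ?_ ?_ ha ?_ t ht
    · unfold PermDatum.infSum
      exact continuousOn_finsetSum _ fun j _ => hL j _
    · intro s hs
      have h1 := (hexp s hs).2 k
      rw [infSum_expCochain] at h1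
      exact (helper56.expAdd_eq_zero_iff _).1 h1
    · show P.infSum (L a) k = 0
      rw [h0]
      exact ((P.Z1 ℂ).zero_mem).2 k

/-! ### Periods of `η` -/

/-- A meromorphic function of non-negative order has a local primitive. -/
theorem exists_local_primitive_of_order {ψ : ℂ → ℂ} {z : ℂ} (hm : MeromorphicAt ψ z)
    (hord : 0 ≤ meromorphicOrderAt ψ z) :
    ∃ g : ℂ → ℂ, MeromorphicAt g z ∧ ∀ᶠ w in 𝓝[≠] z, HasDerivAt g (ψ w) w := by
  have han : AnalyticAt ℂ (toMeromorphicNFAt ψ z) z :=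
    hm.meromorphicOrderAt_nonneg_iff_analyticAt_toMeromorphicNFAt.1 hord
  obtain ⟨r, hr, hball⟩ := Metric.eventually_nhds_iff_ball.1 han.eventually_analyticAt
  have hd : DifferentiableOn ℂ (toMeromorphicNFAt ψ z) (Metric.ball z r) := fun w hw =>
    (hball w hw).differentiableAt.differentiableWithinAt
  obtain ⟨g, hg⟩ := hd.isExactOn_ball
  have hgd : DifferentiableOn ℂ g (Metric.ball z r) := fun w hw =>
    (hg w hw).differentiableAt.differentiableWithinAt
  refine ⟨g, (hgd.analyticAt (Metric.ball_mem_nhds z hr)).meromorphicAt, ?_⟩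
  filter_upwards [hm.eq_nhdsNE_toMeromorphicNFAt,
    nhdsWithin_le_nhds (Metric.ball_mem_nhds z hr)] with w hw1 hw2
  rw [hw1]
  exact hg w hw2

/-- **[FAM-X]** local exactness of the derivative of a good family at its double pole. -/
def LocalExactStatement (M : CutModel F) : Prop :=
  ∀ (k : Fin M.d) (a₁ : ℂ), a₁ ∈ M.toCutGeometry.U₀ → ∀ A : AlgFamily M k a₁, A.IsGood →
    ∃ g : ℂ → ℂ, MeromorphicAt g a₁ ∧
      ∀ᶠ w in 𝓝[≠] a₁, HasDerivAt g (M.ev k (M.coeff (A.η a₁)) w) w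

namespace AlgFamily

variable {A : AlgFamily M k a₁} {P : ∀ i, CrossPath M A.famφ a₁ A.a₀ i}

theorem isPeriodOf_Λ' (hAP : AddPeriodExists M) (hLE : LocalExactStatement M)
    (ha₁ : a₁ ∈ M.toCutGeometry.U₀) (ha₁' : a₁ ≠ M.z₀) (hA : A.IsGood) :
    M.IsPeriodOf (A.η a₁) (A.Λ' P a₁) := by
  have hint : M.pl k a₁ ∈ M.interior := ⟨k, a₁, ha₁, rfl⟩
  have hreg : ∀ v : Place ℂ F, v ∉ M.interior → IsRegularAt v (A.η a₁) := fun v hv =>
    hA.secondKind.2 v fun h => hv (h ▸ hint)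
  have hloc : ∀ (k' : Fin M.d) (z : ℂ), z ∈ M.toCutGeometry.U₀ →
      ∃ g : ℂ → ℂ, MeromorphicAt g z ∧
        ∀ᶠ w in 𝓝[≠] z, HasDerivAt g (M.ev k' (M.coeff (A.η a₁)) w) w := by
    intro k' z hz
    by_cases h : M.pl k' z = M.pl k a₁
    · obtain ⟨rfl, rfl⟩ := M.pl_injective k' k z a₁ hz ha₁ h
      exact hLE k' z hz A hA
    · have hv : (M.pl k' z).ord (xsub M z) = 1 := by rw [ord_pl M k' hz z, if_pos rfl]
      have h1 := helper10.dictInterior M (A.η a₁) 0 k' z hz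
        (hasLogPole_zero_of_regular hv (hA.secondKind.2 _ h))
      have e : (fun w => M.ev k' (M.coeff (A.η a₁)) w - ((0 : ℤ) : ℂ) / (w - z)) =
          M.ev k' (M.coeff (A.η a₁)) := by
        funext w
        simp
      rw [e] at h1
      exact exists_local_primitive_of_order (M.ev_meromorphicOn k' _ z hz) h1
  obtain ⟨p₀, hp₀⟩ := hAP (A.η a₁) hreg hloc
  exact isPeriodOf_pathFun P (isAdapted_K' hA (A.a₁_mem_Tgood P ha₁')) (A.isSheetOf_K' a₁) hp₀

end AlgFamily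

/-! ### The assembly -/

/-- **[FAM-AN]** the family of log-jumps of a good algebraic family. -/
theorem anFamilyStatement (M : CutModel F) (RR : RRCon F) (hM : MonoPackages M)
    (hAP : AddPeriodExists M) (hLE : LocalExactStatement M) : AnFamilyStatement M := by
  classical
  intro k a₁ ha₁ ha₁' A hA
  -- the paths
  have hP : ∀ i, Nonempty (CrossPath M A.famφ a₁ A.a₀ i) := fun i =>
    exists_crossPath A.famφ (A.isTame_famφ hA) ha₁ ha₁' A.a₀_mem A.a₀_ne_base i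
  let P : ∀ i, CrossPath M A.famφ a₁ A.a₀ i := fun i => (hP i).some
  obtain ⟨ε', hε', hsub⟩ := AlgFamily.exists_goodBall (A := A) (P := P) ha₁'
  have ha₁T : a₁ ∈ A.Tgood P := A.a₁_mem_Tgood P ha₁'
  have ha₁B : a₁ ∈ Metric.ball a₁ A.ε := Metric.mem_ball_self A.ε_pos
  -- the family of log-jumps
  let L : ℂ → Fin M.r → Fin M.d → ℂ := fun t => A.Λ P t - A.Λ P a₁
  have hjump : ∀ t ∈ Metric.ball a₁ ε', ∃ τ ∈ M.T₀, ∃ E : Fin M.d → ℂ → ℂ,
      M.IsMultPrim τ E ∧ M.IsJumpOf E (expCochain (L t)) := by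
    intro t ht
    obtain ⟨E, hE, hc⟩ := AlgFamily.exists_isJumpOf_Λ hM hA (hsub ht).1 (hsub ht).2
    obtain ⟨E₁, hE₁, hc₁⟩ := AlgFamily.exists_isJumpOf_Λ (P := P) hM hA ha₁T ha₁B
    have hT := AlgFamily.τ_mem_T₀ hA (hsub ht).2
    have hT₁ := AlgFamily.τ_mem_T₀ hA ha₁B
    obtain ⟨hE₂, hc₂⟩ := hM.inv _ hT₁ _ _ hE₁ hc₁
    obtain ⟨hE₃, hc₃⟩ := hM.mul _ hT _ (M.neg_mem_T₀ RR hT₁) _ _ _ _ hE hc hE₂ hc₂
    refine ⟨A.τ t + -A.τ a₁, M.add_mem_T₀ RR hT (M.neg_mem_T₀ RR hT₁), _, hE₃, ?_⟩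
    have e : expCochain (L t) = expCochain (A.Λ P t) + -expCochain (A.Λ P a₁) := by
      show expCochain (A.Λ P t - A.Λ P a₁) = _
      rw [sub_eq_add_neg, expCochain_add, expCochain_neg]
    rw [e]
    exact hc₃
  have hZ : ∀ t ∈ Metric.ball a₁ ε', L t ∈ M.permDatum.Z1 ℂ := by
    refine mem_Z1_of_expCochain (P := M.permDatum) Metric.isOpen_ball
      (convex_ball a₁ ε').isPreconnected ?_ ?_ (Metric.mem_ball_self hε') ?_
    · intro i k' t ht
      have h1 := (AlgFamily.hasDerivAt_Λ hA (hsub ht).1 (hsub ht).2 i k').continuousAt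
      have h2 : ContinuousAt (fun s => A.Λ P s i k' - A.Λ P a₁ i k') t := h1.sub continuousAt_const
      exact h2.continuousWithinAt
    · intro t ht
      obtain ⟨τ, hτ, E, hE, hc⟩ := hjump t ht
      exact hM.cocycle τ hτ E _ hE hc
    · show A.Λ P a₁ - A.Λ P a₁ = 0
      exact sub_self _
  refine ⟨a₁, A.η a₁, A.Λ' P a₁, L, hA.secondKind,
    AlgFamily.isPeriodOf_Λ' hAP hLE ha₁ ha₁' hA, ?_, ?_⟩
  · filter_upwards [Metric.ball_mem_nhds a₁ hε'] with t ht
    exact ⟨hZ t ht, hjump t ht⟩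
  · rw [hasStrictDerivAt_pi]
    intro i
    rw [hasStrictDerivAt_pi]
    intro k'
    exact (AlgFamily.hasStrictDerivAt_Λ hA ha₁' i k').sub_const _

end

end Fermat.Agent.P5.helper25
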