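import Fermat.Agent.P5.helper25_PathInt

/-!
# P5 / SURJ, package FAM-X (helper26, task 714)

Local exactness of the derivative of the Cauchy-kernel family at the moving pole.

* `sum_eq_one_of_order` (X1) : if `kerFun c u Y Θ t w - 1 / (w - t)` has non-negative order at
  `w = t` then `∑ m, c m * Y t ^ m = 1` (the residue of the family at the moving pole is `1`);
* `exists_local_primitive_kerFun'` (X2) : if `∑ m, c m t * Y t ^ m = 1` identically near `a₁`,
  then the `t`-derivative of the family at `t = a₁` has a meromorphic primitive near `w = a₁`.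
-/

set_option autoImplicit false

open Filter Topology

namespace Fermat.Agent.P5.helper26

open Fermat.Agent.P5.helper25

section Aux

variable {N n : ℕ}

/-- the numerator `∑ m, c m * Y w ^ m` -/
noncomputable def numFun (c : Fin N → ℂ) (Y : ℂ → ℂ) (w : ℂ) : ℂ := ∑ m : Fin N, c m * Y w ^ (m : ℕ)

/-- the regular part `∑ ν, u ν * Θ ν w` -/
noncomputable def regFun (u : Fin n → ℂ) (Θ : Fin n → ℂ → ℂ) (w : ℂ) : ℂ := ∑ ν : Fin n, u ν * Θ ν w

theorem analyticAt_numFun (c : Fin N → ℂ) {Y : ℂ → ℂ} {t : ℂ} (hY : AnalyticAt ℂ Y t) :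
    AnalyticAt ℂ (numFun c Y) t := by
  unfold numFun
  exact Finset.analyticAt_fun_sum _ fun m _ => analyticAt_const.mul (hY.pow _)

theorem analyticAt_regFun (u : Fin n → ℂ) {Θ : Fin n → ℂ → ℂ} {t : ℂ}
    (hΘ : ∀ ν, AnalyticAt ℂ (Θ ν) t) : AnalyticAt ℂ (regFun u Θ) t := by
  unfold regFun
  exact Finset.analyticAt_fun_sum _ fun ν _ => analyticAt_const.mul (hΘ ν)

theorem kerFun_eq (c : Fin N → ℂ) (u : Fin n → ℂ) (Y : ℂ → ℂ) (Θ : Fin n → ℂ → ℂ) (t w : ℂ) :
    kerFun c u Y Θ t w = numFun c Y w / (w - t) - regFun u Θ w := by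
  unfold kerFun numFun regFun
  rw [Finset.sum_div]
  congr 1
  refine Finset.sum_congr rfl fun m _ => ?_
  rw [mul_div_assoc]

theorem kerFun'_eq (c c' : Fin N → ℂ) (u' : Fin n → ℂ) (Y : ℂ → ℂ) (Θ : Fin n → ℂ → ℂ)
    (t w : ℂ) :
    kerFun' c c' u' Y Θ t w =
      numFun c' Y w / (w - t) + numFun c Y w / (w - t) ^ 2 - regFun u' Θ w := by
  unfold kerFun' numFun regFun
  rw [Finset.sum_div, Finset.sum_div, ← Finset.sum_add_distrib]
  congr 1
  refine Finset.sum_congr rfl fun m _ => ?_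
  rw [mul_div_assoc, mul_div_assoc]

end Aux

/-- (X1) the interpolation identity from the residue -/
theorem sum_eq_one_of_order {N n : ℕ} (c : Fin N → ℂ) (u : Fin n → ℂ) {Y : ℂ → ℂ}
    {Θ : Fin n → ℂ → ℂ} {t : ℂ} (hY : AnalyticAt ℂ Y t) (hΘ : ∀ ν, AnalyticAt ℂ (Θ ν) t)
    (hord : 0 ≤ meromorphicOrderAt (fun w => kerFun c u Y Θ t w - 1 / (w - t)) t) :
    ∑ m : Fin N, c m * Y t ^ (m : ℕ) = 1 := by
  by_contra hne
  have hG : AnalyticAt ℂ (numFun c Y) t := analyticAt_numFun c hY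
  have hT : AnalyticAt ℂ (regFun u Θ) t := analyticAt_regFun u hΘ
  set g : ℂ → ℂ := fun w => (numFun c Y w - 1) - (w - t) * regFun u Θ w with hg
  have hgan : AnalyticAt ℂ g t := by
    refine (hG.sub analyticAt_const).sub (AnalyticAt.mul ?_ hT)
    exact analyticAt_id.sub analyticAt_const
  have hgt : g t ≠ 0 := by
    simp only [hg, sub_self, zero_mul, sub_zero]
    exact sub_ne_zero.2 hne
  set F' : ℂ → ℂ := fun w => (w - t) ^ (-1 : ℤ) • g w with hF'
  have hFF' : (fun w => kerFun c u Y Θ t w - 1 / (w - t)) =ᶠ[𝓝[≠] t] F' := by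
    filter_upwards [self_mem_nhdsWithin] with w hw
    have hw' : w - t ≠ 0 := sub_ne_zero.2 hw
    simp only [hF', hg, kerFun_eq, zpow_neg_one, smul_eq_mul]
    field_simp
    ring
  have hF'm : MeromorphicAt F' t := by
    have hgm : MeromorphicAt g t := hgan.meromorphicAt
    have hzm : MeromorphicAt (fun w : ℂ => (w - t) ^ (-1 : ℤ)) t :=
      MeromorphicAt.fun_zpow (by fun_prop) _
    exact hzm.fun_smul hgm
  have hord' : meromorphicOrderAt F' t = ((-1 : ℤ) : WithTop ℤ) :=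
    (meromorphicOrderAt_eq_int_iff hF'm).2 ⟨g, hgan, hgt, Eventually.of_forall fun _ => rfl⟩
  rw [meromorphicOrderAt_congr hFF', hord'] at hord
  have : (0 : ℤ) ≤ -1 := by exact_mod_cast hord
  omega

/-- (X2) local exactness of the derivative of the family at the moving pole -/
theorem exists_local_primitive_kerFun' {N n : ℕ} {c : Fin N → ℂ → ℂ} (u' : Fin n → ℂ)
    {Y : ℂ → ℂ} {Θ : Fin n → ℂ → ℂ} {a₁ : ℂ}
    (hc : ∀ m, AnalyticAt ℂ (c m) a₁) (hY : AnalyticAt ℂ Y a₁) (hΘ : ∀ ν, AnalyticAt ℂ (Θ ν) a₁)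
    (hone : ∀ᶠ t in 𝓝 a₁, ∑ m : Fin N, c m t * Y t ^ (m : ℕ) = 1) :
    ∃ g : ℂ → ℂ, MeromorphicAt g a₁ ∧ ∀ᶠ w in 𝓝[≠] a₁,
      HasDerivAt g (kerFun' (fun m => c m a₁) (fun m => deriv (c m) a₁) u' Y Θ a₁ w) w := by
  set c₀ : Fin N → ℂ := fun m => c m a₁ with hc₀
  set c₁ : Fin N → ℂ := fun m => deriv (c m) a₁ with hc₁
  have hG₀ : AnalyticAt ℂ (numFun c₀ Y) a₁ := analyticAt_numFun c₀ hY
  have hG₁ : AnalyticAt ℂ (numFun c₁ Y) a₁ := analyticAt_numFun c₁ hY
  have hT : AnalyticAt ℂ (regFun u' Θ) a₁ := analyticAt_regFun u' hΘ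
  have hdG₀ : AnalyticAt ℂ (deriv (numFun c₀ Y)) a₁ := hG₀.deriv
  -- the function `H = G₁ + G₀'` vanishes at `a₁`
  set H : ℂ → ℂ := fun w => numFun c₁ Y w + deriv (numFun c₀ Y) w with hH
  have hHan : AnalyticAt ℂ H a₁ := hG₁.add hdG₀
  have hHa : H a₁ = 0 := by
    -- derivative of `Y ^ m` at `a₁`
    have hYd : ∀ m : ℕ, HasDerivAt (fun w => Y w ^ m) (m * Y a₁ ^ (m - 1) * deriv Y a₁) a₁ :=
      fun m => (hY.differentiableAt.hasDerivAt).fun_pow m
    have h1 : HasDerivAt (fun t => ∑ m : Fin N, c m t * Y t ^ (m : ℕ))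
        (∑ m : Fin N, (deriv (c m) a₁ * Y a₁ ^ (m : ℕ) +
          c m a₁ * ((m : ℕ) * Y a₁ ^ ((m : ℕ) - 1) * deriv Y a₁))) a₁ :=
      HasDerivAt.fun_sum fun m _ => ((hc m).differentiableAt.hasDerivAt).mul (hYd m)
    have h2 : HasDerivAt (fun t => ∑ m : Fin N, c m t * Y t ^ (m : ℕ)) 0 a₁ :=
      (hasDerivAt_const a₁ (1 : ℂ)).congr_of_eventuallyEq hone
    have h3 := h1.unique h2
    have h4 : HasDerivAt (numFun c₀ Y)
        (∑ m : Fin N, c₀ m * ((m : ℕ) * Y a₁ ^ ((m : ℕ) - 1) * deriv Y a₁)) a₁ :=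
      HasDerivAt.fun_sum fun m _ => (hYd m).const_mul (c₀ m)
    simp only [hH]
    rw [h4.deriv, ← h3, Finset.sum_add_distrib]
    rfl
  -- the regular part of the integrand
  set K : ℂ → ℂ := fun w => dslope H a₁ w - regFun u' Θ w with hK
  have hKan : AnalyticAt ℂ K a₁ := by
    obtain ⟨p, hp⟩ := hHan
    exact hp.has_fpower_series_dslope_fslope.analyticAt.sub hT
  have hKeq : ∀ w, w ≠ a₁ → K w = H w / (w - a₁) - regFun u' Θ w := by
    intro w hw
    simp only [hK]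
    rw [dslope_of_ne _ hw, slope_def_field, hHa, sub_zero]
  -- a primitive of the regular part
  obtain ⟨r, hr, hKr⟩ := hKan.exists_ball_analyticOnNhd
  obtain ⟨P, hP⟩ := hKr.differentiableOn.isExactOn_ball
  have hPan : AnalyticAt ℂ P a₁ := by
    have hd : DifferentiableOn ℂ P (Metric.ball a₁ r) := fun z hz =>
      (hP z hz).differentiableAt.differentiableWithinAt
    exact hd.analyticAt (Metric.ball_mem_nhds a₁ hr)
  refine ⟨fun w => -numFun c₀ Y w / (w - a₁) + P w, ?_, ?_⟩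
  · refine MeromorphicAt.add ?_ hPan.meromorphicAt
    exact MeromorphicAt.div hG₀.neg.meromorphicAt (by fun_prop)
  · have h1 : ∀ᶠ w in 𝓝 a₁, w ∈ Metric.ball a₁ r := Metric.ball_mem_nhds a₁ hr
    have h2 : ∀ᶠ w in 𝓝 a₁, AnalyticAt ℂ (numFun c₀ Y) w := hG₀.eventually_analyticAt
    filter_upwards [nhdsWithin_le_nhds h1, nhdsWithin_le_nhds h2, self_mem_nhdsWithin]
      with w hw1 hw2 hw3
    have hw : w ≠ a₁ := hw3
    have hw' : w - a₁ ≠ 0 := sub_ne_zero.2 hw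
    have hd1 : HasDerivAt (numFun c₀ Y) (deriv (numFun c₀ Y) w) w :=
      hw2.differentiableAt.hasDerivAt
    have hd2 : HasDerivAt (fun w : ℂ => w - a₁) 1 w := (hasDerivAt_id w).sub_const a₁
    have hd3 : HasDerivAt (fun w => -numFun c₀ Y w / (w - a₁) + P w)
        ((-deriv (numFun c₀ Y) w * (w - a₁) - (-numFun c₀ Y w) * 1) / (w - a₁) ^ 2 + K w) w :=
      (hd1.fun_neg.fun_div hd2 hw').fun_add (hP w hw1)
    refine hd3.congr_deriv ?_
    rw [kerFun'_eq, hKeq w hw]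
    simp only [hH]
    field_simp
    ring

end Fermat.Agent.P5.helper26
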