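/-
P5 / S27 (helper25): module SURJ, package FAM-AN, part 7: local exactness of `η` at the double
pole (from FAM-X, helper26) and the final statement

`anFamilyStatement' : RRCon F → MonoPackages M → AddPeriodExists M → AnFamilyStatement M`.
-/
import Mathlib
import Fermat.Agent.P5.helper25_FamAn
import Fermat.Agent.P5.helper26_FamX

set_option autoImplicit false
set_option linter.style.haveILetI false

open AlgebraicCurve Filter Topology KaehlerDifferential

namespace Fermat.Agent.P5.helper25

open Fermat.Agent.P5.helper4 Fermat.Agent.P5.helper27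

noncomputable section

variable {F : Type} [Field F] [Algebra ℂ F]

/-- **[FAM-X]** local exactness of the derivative of a good family at its double pole. -/
theorem localExactStatement (M : CutModel F) : LocalExactStatement M := by
  classical
  intro k a₁ ha₁ A hA
  have hball : ∀ t ∈ Metric.ball a₁ A.ε, t ∈ M.toCutGeometry.U₀ ∧ t ≠ A.a₀ := fun t ht =>
    ⟨A.ball_subset (Metric.ball_subset_closedBall ht), fun h =>
      A.a₀_notMem (h ▸ Metric.ball_subset_closedBall ht)⟩
  have hY : ∀ t ∈ Metric.ball a₁ A.ε, AnalyticAt ℂ (A.Ysh k) t := fun t ht =>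
    A.analyticAt_Ysh hA k (hball t ht).1 (hball t ht).2
  have hΘ : ∀ t ∈ Metric.ball a₁ A.ε, ∀ ν, AnalyticAt ℂ (A.Θsh k ν) t := fun t ht ν =>
    A.analyticAt_Θsh hA k ν (hball t ht).1 (hball t ht).2
  have ha₁B : a₁ ∈ Metric.ball a₁ A.ε := Metric.mem_ball_self A.ε_pos
  -- the interpolation identity
  have hone : ∀ t ∈ Metric.ball a₁ A.ε, ∑ m : Fin A.N, A.c m t * A.Ysh k t ^ (m : ℕ) = 1 := by
    intro t ht
    refine helper26.sum_eq_one_of_order (fun m => A.c m t) (fun ν => A.u ν t) (hY t ht)
      (hΘ t ht) ?_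
    have hres := hA.residue t ht (M.pl k t)
    have hne : A.P₀ ≠ M.pl k t := fun h =>
      (hball t ht).2 (M.pl_injective A.k₀ k A.a₀ t A.a₀_mem (hball t ht).1 h).2.symm
    have hD : (Finsupp.single (M.pl k t) 1 - Finsupp.single A.P₀ 1 : Divisor ℂ F)
        (M.pl k t) = 1 := by
      rw [Finsupp.sub_apply, Finsupp.single_apply, Finsupp.single_apply, if_pos rfl,
        if_neg hne, sub_zero]
    rw [hD] at hres
    have h1 := helper10.dictInterior M (A.τ t) 1 k t (hball t ht).1 hres
    have e : (fun w => M.ev k (M.coeff (A.τ t)) w - ((1 : ℤ) : ℂ) / (w - t)) =ᶠ[𝓝[≠] t]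
        fun w => kerFun (fun m => A.c m t) (fun ν => A.u ν t) (A.Ysh k) (A.Θsh k) t w -
          1 / (w - t) := by
      filter_upwards [A.isSheetOf_K t k t (hball t ht).1] with w hw
      rw [hw]
      simp [AlgFamily.K]
    rwa [meromorphicOrderAt_congr e] at h1
  have hc : ∀ m, AnalyticAt ℂ (A.c m) a₁ := fun m =>
    (A.c_differentiableOn m).analyticAt (Metric.ball_mem_nhds a₁ A.ε_pos)
  obtain ⟨g, hg, hgd⟩ := helper26.exists_local_primitive_kerFun' (c := A.c)
    (fun ν => deriv (A.u ν) a₁) hc (hY a₁ ha₁B) (hΘ a₁ ha₁B)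
    (by filter_upwards [Metric.ball_mem_nhds a₁ A.ε_pos] with t ht using hone t ht)
  refine ⟨g, hg, ?_⟩
  filter_upwards [hgd, A.isSheetOf_K' a₁ k a₁ ha₁] with w hw1 hw2
  rw [hw2]
  exact hw1

/-- **[FAM-AN]** the family of log-jumps of a good algebraic family. -/
theorem anFamilyStatement' (M : CutModel F) (RR : RRCon F) (hM : MonoPackages M)
    (hAP : AddPeriodExists M) : AnFamilyStatement M :=
  anFamilyStatement M RR hM hAP (localExactStatement M)

/-- **[FAM]** the family statement from FAM-ALG and the additive / multiplicative deliverables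
of module MONO. -/
theorem familyStatement_of_alg (M : CutModel F) (RR : RRCon F) (hM : MonoPackages M)
    (hAP : AddPeriodExists M) (hAlg : AlgFamilyStatement M) : FamilyStatement M :=
  familyStatement_of_alg_an hAlg (anFamilyStatement' M RR hM hAP)

end

end Fermat.Agent.P5.helper25
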