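/-
P5 / S27, module MOD (helper37): BR-UNIQ.

A continuous root function of a family of polynomials `P z` of degree `d` on a preconnected set
`V` on which `d` continuous, pointwise distinct root functions `y k` are given, is one of the
`y k`.
-/
import Mathlib

set_option autoImplicit false

open Filter Topology

namespace Fermat.Agent.P5.helper37

/-- `d` pairwise distinct roots of a polynomial of degree `d` are all the roots. -/
theorem exists_eq_of_isRoot {p : Polynomial ℂ} {d : ℕ} (hd : 0 < d) (hdeg : p.natDegree = d)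
    {y : Fin d → ℂ} (hroot : ∀ k, p.IsRoot (y k)) (hinj : Function.Injective y)
    {w : ℂ} (hw : p.IsRoot w) : ∃ k, w = y k := by
  classical
  have hp : p ≠ 0 := by
    rintro rfl
    simp at hdeg
    omega
  have h1 : Finset.univ.image y ⊆ p.roots.toFinset := by
    intro a ha
    obtain ⟨k, -, rfl⟩ := Finset.mem_image.1 ha
    rw [Multiset.mem_toFinset, Polynomial.mem_roots hp]
    exact hroot k
  have h2 : (Finset.univ.image y).card = d := by
    rw [Finset.card_image_of_injective _ hinj]
    simp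
  have h3 : p.roots.toFinset.card ≤ d := by
    calc p.roots.toFinset.card ≤ Multiset.card p.roots := Multiset.toFinset_card_le _
      _ ≤ p.natDegree := Polynomial.card_roots' p
      _ = d := hdeg
  have h4 : Finset.univ.image y = p.roots.toFinset :=
    Finset.eq_of_subset_of_card_le h1 (by rw [h2]; exact h3)
  have h5 : w ∈ p.roots.toFinset := by
    rw [Multiset.mem_toFinset, Polynomial.mem_roots hp]
    exact hw
  rw [← h4] at h5
  obtain ⟨k, -, hk⟩ := Finset.mem_image.1 h5
  exact ⟨k, hk.symm⟩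

/-- **[BR-UNIQ]** uniqueness of continuous root functions on a preconnected set. -/
theorem branch_unique {P : ℂ → Polynomial ℂ} {d : ℕ} {V : Set ℂ} {y : Fin d → ℂ → ℂ}
    (hd : 0 < d) (hdeg : ∀ z ∈ V, (P z).natDegree = d)
    (hy : ∀ k, ContinuousOn (y k) V) (hroot : ∀ k, ∀ z ∈ V, (P z).IsRoot (y k z))
    (hinj : ∀ z ∈ V, Function.Injective fun k => y k z)
    (hV : IsPreconnected V) {g : ℂ → ℂ} (hg : ContinuousOn g V)
    (hgroot : ∀ z ∈ V, (P z).IsRoot (g z)) :
    ∃ k, Set.EqOn g (y k) V := by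
  classical
  have hex : ∀ z, ∃ k : Fin d, z ∈ V → g z = y k z := by
    intro z
    by_cases hz : z ∈ V
    · obtain ⟨k, hk⟩ := exists_eq_of_isRoot hd (hdeg z hz) (fun k => hroot k z hz) (hinj z hz)
        (hgroot z hz)
      exact ⟨k, fun _ => hk⟩
    · exact ⟨⟨0, hd⟩, fun h => absurd h hz⟩
  choose κ hκ using hex
  letI : TopologicalSpace (Fin d) := ⊥
  haveI : DiscreteTopology (Fin d) := ⟨rfl⟩
  have hcont : ContinuousOn κ V := by
    intro z₁ hz₁
    have h1 : ∀ k : Fin d, k ≠ κ z₁ → ∀ᶠ z in 𝓝[V] z₁, g z ≠ y k z := by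
      intro k hk
      have hne : g z₁ ≠ y k z₁ := by
        rw [hκ z₁ hz₁]
        intro h
        exact hk ((hinj z₁ hz₁ h).symm)
      have hc1 : ContinuousWithinAt g V z₁ := hg z₁ hz₁
      have hc2 : ContinuousWithinAt (y k) V z₁ := hy k z₁ hz₁
      have hc3 : ContinuousWithinAt (fun z => g z - y k z) V z₁ := hc1.sub hc2
      have hne' : g z₁ - y k z₁ ≠ 0 := sub_ne_zero.2 hne
      have := hc3.eventually_ne hne'
      filter_upwards [this] with z hz
      exact fun h => hz (sub_eq_zero.2 h)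
    have h2 : ∀ᶠ z in 𝓝[V] z₁, ∀ k : Fin d, k ≠ κ z₁ → g z ≠ y k z := by
      rw [Filter.eventually_all]
      intro k
      by_cases hk : k = κ z₁
      · exact Eventually.of_forall fun z h => absurd hk h
      · filter_upwards [h1 k hk] with z hz _ using hz
    have h3 : ∀ᶠ z in 𝓝[V] z₁, κ z = κ z₁ := by
      filter_upwards [h2, self_mem_nhdsWithin] with z hz hzV
      by_contra hne
      exact hz (κ z) hne (hκ z hzV)
    change Tendsto κ (𝓝[V] z₁) (𝓝 (κ z₁))
    rw [nhds_discrete]
    exact tendsto_pure.2 h3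
  by_cases hne : V.Nonempty
  · obtain ⟨z₁, hz₁⟩ := hne
    refine ⟨κ z₁, fun z hz => ?_⟩
    rw [hκ z hz, hV.constant hcont hz hz₁]
  · exact ⟨⟨0, hd⟩, fun z hz => absurd ⟨z, hz⟩ hne⟩

end Fermat.Agent.P5.helper37
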