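/-
P5 / S27, module MOD (helper37, sub-coordinator, task 430): ANALYTIC INTERFACE.

Pure analysis, no function field: statements of the packages

* `BranchStatement`  (MOD-BR)  : analytic roots of an analytic family of monic separable
  polynomials over a star-convex open set;
* `RatStatement`     (MOD-RAT) : a function on the cut plane which continues meromorphically
  across the rays, to the bad points (after a substitution `z = b + s ^ E u`) and to `∞`
  is a rational function;
* `GeoStatement`     (MOD-GEO) : existence of a cut geometry with prescribed bad points and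
  prescribed interior points;
* `BranchData`, `CrossProp`, `PuisProp`, `InfProp` and the statements `CrossStatement`
  (MOD-CROSS), `PuisStatement` (MOD-PUIS), `InfStatement` (MOD-INF) about the monodromy of the
  roots of `f ∈ ℂ[X][Y]` on the cut plane.

Only definitions and `Prop`s here; proofs are in the package files.
-/
import Mathlib
import Fermat.Agent.P5.helper25_CutModel

set_option autoImplicit false

open Filter Topology

namespace Fermat.Agent.P5.helper37

open Fermat.Agent.P5.helper25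

noncomputable section

/-! ### MOD-BR: analytic branches -/

/-- **[MOD-BR]** Let `P z` be a family of monic polynomials of degree `d` whose coefficients are
analytic on the open set `U`, star-convex with respect to `z₀`, and such that `P z` is separable
for every `z ∈ U`. Then the roots of `P z` are given by `d` analytic functions on `U` with
pairwise distinct values at every point of `U`. -/
def BranchStatement : Prop :=
  ∀ (P : ℂ → Polynomial ℂ) (d : ℕ) (U : Set ℂ) (z₀ : ℂ), IsOpen U → StarConvex ℝ z₀ U →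
    (∀ z ∈ U, (P z).Monic) → (∀ z ∈ U, (P z).natDegree = d) →
    (∀ j : ℕ, AnalyticOnNhd ℂ (fun z => (P z).coeff j) U) →
    (∀ z ∈ U, (P z).Separable) →
    ∃ y : Fin d → ℂ → ℂ, (∀ k, AnalyticOnNhd ℂ (y k) U) ∧
      (∀ k, ∀ z ∈ U, (P z).IsRoot (y k z)) ∧ (∀ z ∈ U, Function.Injective fun k => y k z)

/-! ### MOD-RAT: meromorphic on the sphere implies rational -/

/-- **[MOD-RAT]** A function `c`, meromorphic on the cut plane `U₀`, which
* continues meromorphically across every open ray (the same function on both sides),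
* is, near every bad point `b i`, a meromorphic function of `s` where `z = b i + s ^ E * u`
  (`E ≥ 1` arbitrary, `u` the unit direction of the ray),
* is, near `∞`, a meromorphic function of `w` where `z = z₀ + w⁻¹`,
is a rational function: `c = p / q` near every point of `U₀`. -/
def RatStatement : Prop :=
  ∀ (G : CutGeometry) (c : ℂ → ℂ), MeromorphicOn c G.U₀ →
    (∀ (i : Fin G.r) (a : ℂ), a ∈ openRay G.z₀ (G.b i) → ∃ g : ℂ → ℂ, MeromorphicAt g a ∧
        (∀ᶠ z in 𝓝[≠] a, z ∈ leftSide G.z₀ (G.b i) → g z = c z) ∧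
        (∀ᶠ z in 𝓝[≠] a, z ∈ rightSide G.z₀ (G.b i) → g z = c z)) →
    (∀ i : Fin G.r, ∃ (E : ℕ) (K : ℂ → ℂ), 0 < E ∧ MeromorphicAt K 0 ∧
        ∀ᶠ s in 𝓝[≠] (0 : ℂ), G.b i + s ^ E * unitDir G.z₀ (G.b i) ∈ G.U₀ →
          K s = c (G.b i + s ^ E * unitDir G.z₀ (G.b i))) →
    (∃ K : ℂ → ℂ, MeromorphicAt K 0 ∧
        ∀ᶠ w in 𝓝[≠] (0 : ℂ), G.z₀ + w⁻¹ ∈ G.U₀ → K w = c (G.z₀ + w⁻¹)) →
    ∃ p q : Polynomial ℂ, q ≠ 0 ∧
      ∀ z ∈ G.U₀, c =ᶠ[𝓝[≠] z] fun w => p.eval w / q.eval w

/-! ### MOD-GEO: existence of cut geometries -/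

/-- **[MOD-GEO]** For finite disjoint sets `B` (nonempty; the bad points) and `A` (points to be
kept in the interior) there is a cut geometry whose bad points are exactly the points of `B` and
whose cut plane contains `A`. -/
def GeoStatement : Prop :=
  ∀ B A : Finset ℂ, B.Nonempty → Disjoint B A →
    ∃ G : CutGeometry, 0 < G.r ∧ (∀ z : ℂ, z ∈ B ↔ ∃ i, G.b i = z) ∧ ∀ a ∈ A, a ∈ G.U₀

/-! ### The roots of `f ∈ ℂ[X][Y]` on a cut plane -/

/-- Specialisation of `f ∈ ℂ[X][Y]` at `X = z`. -/
def specialize (f : Polynomial (Polynomial ℂ)) (z : ℂ) : Polynomial ℂ :=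
  f.map (Polynomial.evalRingHom z)

/-- `∞` is a good (unramified) point of `f`: near `w = 0` the polynomial `f(w⁻¹, Y)` has
`deg_Y f` pairwise distinct roots which are meromorphic functions of `w`. -/
def GoodAtInf (f : Polynomial (Polynomial ℂ)) : Prop :=
  ∃ Y : Fin f.natDegree → ℂ → ℂ, (∀ m, MeromorphicAt (Y m) 0) ∧
    ∀ᶠ w in 𝓝[≠] (0 : ℂ), (∀ m, (specialize f w⁻¹).IsRoot (Y m w)) ∧
      Function.Injective fun m => Y m w

/-- A cut geometry, a polynomial `f ∈ ℂ[X][Y]`, monic in `Y`, whose bad points are among the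
`b i` and for which `∞` is good, and the analytic roots of `f` on the cut plane. -/
structure BranchData extends CutGeometry where
  r_pos : 0 < r
  /-- the polynomial -/
  f : Polynomial (Polynomial ℂ)
  f_monic : f.Monic
  d_pos : 0 < f.natDegree
  good : ∀ z : ℂ, (∀ i, z ≠ b i) → (specialize f z).Separable
  goodAtInf : GoodAtInf f
  /-- the roots on the cut plane -/
  y : Fin f.natDegree → ℂ → ℂ
  y_analytic : ∀ k, AnalyticOnNhd ℂ (y k) toCutGeometry.U₀
  y_root : ∀ k, ∀ z ∈ toCutGeometry.U₀, (specialize f z).IsRoot (y k z)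
  y_inj : ∀ z ∈ toCutGeometry.U₀, Function.Injective fun k => y k z

namespace BranchData

variable (D : BranchData)

/-- the number of sheets -/
abbrev d : ℕ := D.f.natDegree

/-- **Crossing**: the root `y k` on the left of the `i`-th ray continues analytically across the
open ray to the root `y (σ i k)` on the right. -/
def CrossProp (σ : Fin D.r → Equiv.Perm (Fin D.d)) : Prop :=
  ∀ (i : Fin D.r) (k : Fin D.d) (a : ℂ), a ∈ openRay D.z₀ (D.b i) →
    ∃ g : ℂ → ℂ, AnalyticAt ℂ g a ∧
      (∀ᶠ z in 𝓝 a, z ∈ leftSide D.z₀ (D.b i) → g z = D.y k z) ∧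
      (∀ᶠ z in 𝓝 a, z ∈ rightSide D.z₀ (D.b i) → g z = D.y (σ i k) z)

/-- **Puiseux**: with `e` the length of the `σ i`-cycle of `k`, the roots
`y ((σ i)⁻¹ ^ j k) (b i + s ^ e u)` on the sectors of the `s`-disc glue to a function analytic
at `s = 0`. -/
def PuisProp (σ : Fin D.r → Equiv.Perm (Fin D.d)) : Prop :=
  ∀ (i : Fin D.r) (k : Fin D.d), ∃ H : ℂ → ℂ, AnalyticAt ℂ H 0 ∧
    ∀ j : ℕ, ∀ᶠ s in 𝓝[≠] (0 : ℂ),
      s ∈ sector (2 * Real.pi * j / Function.minimalPeriod (σ i) k)
          (2 * Real.pi * (j + 1) / Function.minimalPeriod (σ i) k) →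
        H s = D.y (((σ i)⁻¹ ^ j) k)
          (D.b i + s ^ Function.minimalPeriod (σ i) k * unitDir D.z₀ (D.b i))

/-- **Infinity**: the product of the crossing permutations is trivial and near `∞` the roots
are meromorphic functions of `w`, `z = z₀ + w⁻¹`. -/
def InfProp (σ : Fin D.r → Equiv.Perm (Fin D.d)) : Prop :=
  (List.ofFn σ).prod = 1 ∧
  ∀ k : Fin D.d, ∃ H : ℂ → ℂ, MeromorphicAt H 0 ∧
    ∀ i : Fin D.r, ∀ᶠ w in 𝓝[≠] (0 : ℂ), w⁻¹ ∈ D.toCutGeometry.sectorInf i →
      H w = D.y ((((List.ofFn σ).take (i + 1)).prod)⁻¹ k) (D.z₀ + w⁻¹)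

end BranchData

/-- **[MOD-CROSS]** existence of the crossing permutations. -/
def CrossStatement : Prop :=
  ∀ D : BranchData, ∃ σ : Fin D.r → Equiv.Perm (Fin D.d), D.CrossProp σ

/-- **[MOD-PUIS]** Puiseux parametrisations at the bad points. -/
def PuisStatement : Prop :=
  ∀ (D : BranchData) (σ : Fin D.r → Equiv.Perm (Fin D.d)), D.CrossProp σ → D.PuisProp σ

/-- **[MOD-INF]** behaviour at infinity. -/
def InfStatement : Prop :=
  ∀ (D : BranchData) (σ : Fin D.r → Equiv.Perm (Fin D.d)), D.CrossProp σ → D.InfProp σ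

end

end Fermat.Agent.P5.helper37
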