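import Fermat.Agent.P5.helper26_InfGeom
import Fermat.Agent.P5.helper37_ModAnalytic
import Fermat.Agent.P5.helper37_BranchUnique

/-!
# P5 / MOD-INF (helper26, task 599): behaviour of the roots at infinity

`infStatement : InfStatement` : for the analytic roots `y k` of `f ∈ ℂ[X][Y]` on a cut plane, with
crossing permutations `σ i`, the product of the `σ i` is trivial and near `∞` the roots are
meromorphic functions of `w`, `z = z₀ + w⁻¹`.

Proof.  `∞` is a good point: there are meromorphic `Y m` at `0` such that the `Y m z⁻¹` are the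
`d` distinct roots of `f(z, ·)` for `‖z‖ > R` (`FarData`).  On the far part of the `i`-th sector
at infinity (preconnected, inside the cut plane) the root `y k` is one of them, `Y (mu i k) z⁻¹`
(BR-UNIQ).  Crossing the `i`-th ray at a far point and the identity principle give
`mu i k = mu (i - 1) (σ i k)`, hence `mu i = mu (r - 1) ∘ (σ 0 * ⋯ * σ i)`; for `i = r - 1` this is
`∏ σ = 1` since `mu (r - 1)` is injective, and `H w := Y (mu (r - 1) k) (w / (1 + z₀ w))`.
-/

set_option autoImplicit false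

open Filter Topology Complex

namespace Fermat.Agent.P5.helper26

open Fermat.Agent.P5.helper25 Fermat.Agent.P5.helper4 Fermat.Agent.P5.helper38
  Fermat.Agent.P5.helper37

/-! ### the roots near infinity -/

theorem natDegree_specialize {f : Polynomial (Polynomial ℂ)} (hf : f.Monic) (z : ℂ) :
    (specialize f z).natDegree = f.natDegree :=
  hf.natDegree_map _

/-- the roots of `f` near `∞`, as functions of `z⁻¹` -/
structure FarData (D : BranchData) where
  /-- the radius -/
  R : ℝ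
  R_pos : 0 < R
  /-- the roots as functions of `z⁻¹` -/
  Y : Fin D.d → ℂ → ℂ
  mero : ∀ m, MeromorphicAt (Y m) 0
  analytic : ∀ z : ℂ, R < ‖z‖ → ∀ m, AnalyticAt ℂ (fun z => Y m z⁻¹) z
  root : ∀ z : ℂ, R < ‖z‖ → ∀ m, (specialize D.f z).IsRoot (Y m z⁻¹)
  inj : ∀ z : ℂ, R < ‖z‖ → Function.Injective fun m => Y m z⁻¹

theorem exists_farData (D : BranchData) : Nonempty (FarData D) := by
  obtain ⟨Y, hY, hev⟩ := D.goodAtInf
  have han : ∀ᶠ w in 𝓝[≠] (0 : ℂ), ∀ m, AnalyticAt ℂ (Y m) w :=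
    Filter.eventually_all.2 fun m => (hY m).eventually_analyticAt
  have h := hev.and han
  rw [eventually_nhdsWithin_iff, Metric.eventually_nhds_iff] at h
  obtain ⟨ε, hε, hball⟩ := h
  have key : ∀ z : ℂ, ε⁻¹ < ‖z‖ → z ≠ 0 ∧
      ((∀ m, (specialize D.f z).IsRoot (Y m z⁻¹)) ∧ Function.Injective fun m => Y m z⁻¹) ∧
        ∀ m, AnalyticAt ℂ (Y m) z⁻¹ := by
    intro z hz
    have hz0 : 0 < ‖z‖ := lt_trans (inv_pos.2 hε) hz
    have hzne : z ≠ 0 := norm_pos_iff.1 hz0
    have h1 : dist z⁻¹ 0 < ε := by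
      rw [dist_zero_right, norm_inv]
      exact inv_lt_of_inv_lt₀ hε hz
    have h2 := hball h1 (inv_ne_zero hzne)
    rw [inv_inv] at h2
    exact ⟨hzne, h2⟩
  refine ⟨⟨ε⁻¹, inv_pos.2 hε, Y, hY, ?_, ?_, ?_⟩⟩
  · intro z hz m
    obtain ⟨hzne, -, h3⟩ := key z hz
    exact AnalyticAt.comp (g := Y m) (f := fun z => z⁻¹) (h3 m) (analyticAt_inv hzne)
  · intro z hz
    exact (key z hz).2.1.1
  · intro z hz
    exact (key z hz).2.1.2

section Far

variable {D : BranchData} (A : FarData D)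

/-- the radius of the far sectors -/
noncomputable def FarData.R' : ℝ := A.R + ‖D.z₀‖

theorem FarData.R'_pos : 0 < A.R' := by
  unfold FarData.R'
  have := A.R_pos
  positivity

theorem FarData.lt_norm_of_lt_sub {z : ℂ} (hz : A.R' < ‖z - D.z₀‖) : A.R < ‖z‖ := by
  unfold FarData.R' at hz
  have h1 : ‖z - D.z₀‖ ≤ ‖z‖ + ‖D.z₀‖ := norm_sub_le _ _
  linarith

theorem FarData.lt_norm_of_mem {i : Fin D.r} {z : ℂ}
    (hz : z ∈ farSector D.toCutGeometry i A.R') : A.R < ‖z‖ :=
  A.lt_norm_of_lt_sub hz.2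

/-- on a far sector the root `y k` is one of the roots `Y m z⁻¹` -/
theorem FarData.exists_eqOn (i : Fin D.r) (k : Fin D.d) :
    ∃ m, Set.EqOn (D.y k) (fun z => A.Y m z⁻¹) (farSector D.toCutGeometry i A.R') := by
  refine branch_unique (P := specialize D.f) (d := D.d) (y := fun m z => A.Y m z⁻¹)
    D.d_pos ?_ ?_ ?_ ?_ (isPreconnected_farSector _ i A.R'_pos.le) ?_ ?_
  · intro z _
    exact natDegree_specialize D.f_monic z
  · intro m z hz
    exact (A.analytic z (A.lt_norm_of_mem hz) m).continuousAt.continuousWithinAt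
  · intro m z hz
    exact A.root z (A.lt_norm_of_mem hz) m
  · intro z hz
    exact A.inj z (A.lt_norm_of_mem hz)
  · exact (D.y_analytic k).continuousOn.mono (farSector_subset_U₀ _ i _)
  · intro z hz
    exact D.y_root k z (farSector_subset_U₀ _ i _ hz)

/-- the sheet of `Y` which is the root `y k` on the `i`-th far sector -/
noncomputable def FarData.mu (i : Fin D.r) (k : Fin D.d) : Fin D.d :=
  Classical.choose (A.exists_eqOn i k)

theorem FarData.mu_spec (i : Fin D.r) (k : Fin D.d) :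
    Set.EqOn (D.y k) (fun z => A.Y (A.mu i k) z⁻¹) (farSector D.toCutGeometry i A.R') :=
  Classical.choose_spec (A.exists_eqOn i k)

theorem FarData.mu_injective (i : Fin D.r) : Function.Injective (A.mu i) := by
  intro k k' h
  obtain ⟨z, hz⟩ := farSector_nonempty D.toCutGeometry i A.R'_pos.le
  have h1 := A.mu_spec i k hz
  have h2 := A.mu_spec i k' hz
  rw [h] at h1
  exact D.y_inj z (farSector_subset_U₀ _ i _ hz) (h1.trans h2.symm)

/-- **crossing at infinity** -/
theorem FarData.mu_cross {σ : Fin D.r → Equiv.Perm (Fin D.d)} (hσ : D.CrossProp σ)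
    (i : Fin D.r) (k : Fin D.d) :
    A.mu i k = A.mu (predIdx D.toCutGeometry i) (σ i k) := by
  set a := farPoint D.toCutGeometry i A.R' with ha_def
  have ha : a ∈ openRay D.z₀ (D.b i) := farPoint_mem_openRay _ i A.R'_pos.le
  have haR : A.R' < ‖a - D.z₀‖ := lt_norm_farPoint_sub _ i A.R'_pos.le
  have haR' : A.R < ‖a‖ := A.lt_norm_of_lt_sub haR
  obtain ⟨g, hg, hL, hR⟩ := hσ i k a ha
  have e1 : ∀ᶠ z in 𝓝 a, g z = A.Y (A.mu i k) z⁻¹ := by
    refine (hg.frequently_eq_iff_eventually_eq (A.analytic a haR' _)).1 ?_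
    refine (frequently_leftSide D.toCutGeometry i ha).mp ?_
    have h1 := eventually_leftSide_mem_farSector D.toCutGeometry i ha haR
    filter_upwards [nhdsWithin_le_nhds (hL.and h1)] with z hz hl
    rw [hz.1 hl]
    exact A.mu_spec i k (hz.2 hl)
  have e2 : ∀ᶠ z in 𝓝 a, g z = A.Y (A.mu (predIdx D.toCutGeometry i) (σ i k)) z⁻¹ := by
    refine (hg.frequently_eq_iff_eventually_eq (A.analytic a haR' _)).1 ?_
    refine (frequently_rightSide D.toCutGeometry i ha).mp ?_
    have h1 := eventually_rightSide_mem_farSector D.toCutGeometry i ha haR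
    filter_upwards [nhdsWithin_le_nhds (hR.and h1)] with z hz hl
    rw [hz.1 hl]
    exact A.mu_spec (predIdx D.toCutGeometry i) (σ i k) (hz.2 hl)
  have e3 : A.Y (A.mu i k) a⁻¹ = A.Y (A.mu (predIdx D.toCutGeometry i) (σ i k)) a⁻¹ :=
    e1.self_of_nhds.symm.trans e2.self_of_nhds
  exact A.inj a haR' e3

/-! ### the product of the crossing permutations -/

theorem take_prod_succ {r d : ℕ} (σ : Fin r → Equiv.Perm (Fin d)) (i : ℕ) (hi : i < r) :
    ((List.ofFn σ).take (i + 1)).prod = ((List.ofFn σ).take i).prod * σ ⟨i, hi⟩ := by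
  rw [List.prod_take_succ _ i (by rw [List.length_ofFn]; exact hi), List.getElem_ofFn]

/-- the last index -/
def lastIdx (D : BranchData) : Fin D.r := ⟨D.r - 1, Nat.sub_lt D.r_pos Nat.one_pos⟩

theorem FarData.mu_eq {σ : Fin D.r → Equiv.Perm (Fin D.d)} (hσ : D.CrossProp σ) :
    ∀ (i : ℕ) (hi : i < D.r) (k : Fin D.d),
      A.mu ⟨i, hi⟩ k = A.mu (lastIdx D) (((List.ofFn σ).take (i + 1)).prod k) := by
  intro i
  induction i with
  | zero =>
    intro hi k
    rw [A.mu_cross hσ ⟨0, hi⟩ k, take_prod_succ σ 0 hi]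
    have h1 : predIdx D.toCutGeometry ⟨0, hi⟩ = lastIdx D :=
      Fin.ext (predIdx_val_of_zero D.toCutGeometry rfl)
    rw [h1]
    simp
  | succ i ih =>
    intro hi k
    have hi' : i < D.r := Nat.lt_of_succ_lt hi
    rw [A.mu_cross hσ ⟨i + 1, hi⟩ k, take_prod_succ σ (i + 1) hi]
    have h1 : predIdx D.toCutGeometry ⟨i + 1, hi⟩ = ⟨i, hi'⟩ := by
      apply Fin.ext
      rw [predIdx_val_of_pos D.toCutGeometry (by simp)]
      simp
    rw [h1, ih hi' (σ ⟨i + 1, hi⟩ k), Equiv.Perm.mul_apply]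

theorem FarData.mu_eq' {σ : Fin D.r → Equiv.Perm (Fin D.d)} (hσ : D.CrossProp σ)
    (i : Fin D.r) (k : Fin D.d) :
    A.mu i k = A.mu (lastIdx D) (((List.ofFn σ).take (i + 1)).prod k) :=
  A.mu_eq hσ i i.2 k

include A in
theorem FarData.prod_eq_one {σ : Fin D.r → Equiv.Perm (Fin D.d)} (hσ : D.CrossProp σ) :
    (List.ofFn σ).prod = 1 := by
  have h1 : ((List.ofFn σ).take ((lastIdx D : ℕ) + 1)).prod = (List.ofFn σ).prod := by
    congr 1
    apply List.take_of_length_le
    rw [List.length_ofFn]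
    have := D.r_pos
    simp only [lastIdx]
    omega
  apply Equiv.ext
  intro k
  have h2 := A.mu_eq' hσ (lastIdx D) k
  rw [h1] at h2
  exact (A.mu_injective (lastIdx D) h2).symm

/-! ### the parametrisation at infinity -/

theorem inv_add_inv {z₀ w : ℂ} (hw : w ≠ 0) : (z₀ + w⁻¹)⁻¹ = w / (1 + z₀ * w) := by
  have h : z₀ + w⁻¹ = (1 + z₀ * w) / w := by
    field_simp
    ring
  rw [h, inv_div]

include A in
theorem FarData.exists_H {σ : Fin D.r → Equiv.Perm (Fin D.d)} (hσ : D.CrossProp σ)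
    (k : Fin D.d) :
    ∃ H : ℂ → ℂ, MeromorphicAt H 0 ∧
      ∀ i : Fin D.r, ∀ᶠ w in 𝓝[≠] (0 : ℂ), w⁻¹ ∈ D.toCutGeometry.sectorInf i →
        H w = D.y ((((List.ofFn σ).take (i + 1)).prod)⁻¹ k) (D.z₀ + w⁻¹) := by
  refine ⟨fun w => A.Y (A.mu (lastIdx D) k) (w / (1 + D.z₀ * w)), ?_, ?_⟩
  · have hg : AnalyticAt ℂ (fun w : ℂ => w / (1 + D.z₀ * w)) 0 :=
      analyticAt_id.div (by fun_prop) (by simp)
    have hf : MeromorphicAt (A.Y (A.mu (lastIdx D) k)) ((fun w : ℂ => w / (1 + D.z₀ * w)) 0) := by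
      simp only [zero_div]
      exact A.mero _
    exact MeromorphicAt.comp_analyticAt (f := A.Y (A.mu (lastIdx D) k))
      (g := fun w : ℂ => w / (1 + D.z₀ * w)) hf hg
  · intro i
    have hball : ∀ᶠ w in 𝓝 (0 : ℂ), ‖w‖ < A.R'⁻¹ := by
      have hc : ContinuousAt (fun w : ℂ => ‖w‖) 0 := by fun_prop
      have h0 : ‖(0 : ℂ)‖ < A.R'⁻¹ := by
        rw [norm_zero]
        exact inv_pos.2 A.R'_pos
      exact hc.eventually (gt_mem_nhds h0)
    filter_upwards [nhdsWithin_le_nhds hball, self_mem_nhdsWithin] with w hw hw0 hsec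
    have hw0' : w ≠ 0 := hw0
    have hz := inv_mem_farSector D.toCutGeometry i A.R'_pos hw0' hw hsec
    have h1 := A.mu_spec i ((((List.ofFn σ).take (i + 1)).prod)⁻¹ k) hz
    rw [h1, A.mu_eq' hσ i, Equiv.Perm.inv_def, Equiv.apply_symm_apply]
    simp only
    rw [inv_add_inv hw0']

end Far

/-- **[MOD-INF]** behaviour at infinity. -/
theorem infStatement : InfStatement := by
  intro D σ hσ
  obtain ⟨A⟩ := exists_farData D
  exact ⟨A.prod_eq_one hσ, fun k => A.exists_H hσ k⟩

end Fermat.Agent.P5.helper26
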