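/-
P5 / S27, module MONO, additive twin (helper27): package statements for the ADDITIVE
deliverables of MONO consumed by SURJ (`helper25.AddPeriodExists`, `helper25.AddCocycle`,
`helper25.AddKernel`).

* `RegularOutside M η` : `η` is regular at all non-interior places;
* `LocallyExact M η`   : the sheet functions of the coefficient of `η` have meromorphic local
  primitives at all points of the cut plane;
* `IsAddNice M G`      : the system `G` is analytic on the cut plane outside a finite set;
* `AddNiceExists M`, `AddNiceJump M`, `AddLocalBad M`, `AddLocalInf M` : the additive twins of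
  `NiceExists`, `NiceJump`, `LocalBad`, `LocalInf`.
-/
import Mathlib
import Fermat.Agent.P5.helper27_MonoDefs
import Fermat.Agent.P5.helper25_FamilyDefs

set_option autoImplicit false
set_option linter.style.haveILetI false

open AlgebraicCurve Filter Topology KaehlerDifferential

namespace Fermat.Agent.P5.helper27

open Fermat.Agent.P5.helper25

noncomputable section

variable {F : Type} [Field F] [Algebra ℂ F]

/-- `η` is regular at all non-interior places of the cut model. -/
def RegularOutside (M : CutModel F) (η : Ω[F⁄ℂ]) : Prop :=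
  ∀ v : Place ℂ F, v ∉ M.interior → IsRegularAt v η

/-- The sheet functions of the coefficient of `η` have meromorphic local primitives at all
points of the cut plane (analytic form of "all residues at interior places vanish"). -/
def LocallyExact (M : CutModel F) (η : Ω[F⁄ℂ]) : Prop :=
  ∀ (k : Fin M.d) (z : ℂ), z ∈ M.toCutGeometry.U₀ →
    ∃ g : ℂ → ℂ, MeromorphicAt g z ∧
      ∀ᶠ w in 𝓝[≠] z, HasDerivAt g (M.ev k (M.coeff η) w) w

/-- The system `G` is analytic on the cut plane outside a finite set. -/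
def IsAddNice (M : CutModel F) (G : Fin M.d → ℂ → ℂ) : Prop :=
  ∃ S : Set ℂ, S.Finite ∧ ∀ k, ∀ z ∈ M.toCutGeometry.U₀, z ∉ S → AnalyticAt ℂ (G k) z

/-- **[MONO-A4a]** locally exact differentials have nice additive primitives. -/
def AddNiceExists (M : CutModel F) : Prop :=
  ∀ η : Ω[F⁄ℂ], LocallyExact M η →
    ∃ G : Fin M.d → ℂ → ℂ, M.IsAddPrim η G ∧ IsAddNice M G

/-- **[MONO-A4b]** nice additive primitives of a differential which is regular outside the
interior places have (constant) jumps. -/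
def AddNiceJump (M : CutModel F) : Prop :=
  ∀ η : Ω[F⁄ℂ], RegularOutside M η → ∀ G : Fin M.d → ℂ → ℂ, M.IsAddPrim η G →
    IsAddNice M G → ∃ p : Fin M.r → Fin M.d → ℂ, M.IsAddJumpOf G p

/-- **[MONO-A5a]** the structure of nice additive primitives at a bad point: on the sectors of
the Puiseux disc they are ONE analytic function `A` plus constants `β j`, and the jump cochain
is the coboundary of the constants. -/
def AddLocalBad (M : CutModel F) : Prop :=
  ∀ η : Ω[F⁄ℂ], RegularOutside M η →
    ∀ (G : Fin M.d → ℂ → ℂ) (p : Fin M.r → Fin M.d → ℂ),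
    M.IsAddPrim η G → IsAddNice M G → M.IsAddJumpOf G p → ∀ (i : Fin M.r) (k : Fin M.d),
      ∃ (A : ℂ → ℂ) (β : ℕ → ℂ), AnalyticAt ℂ A 0 ∧
        (∀ j : ℕ, ∀ᶠ s in 𝓝[≠] (0 : ℂ),
          s ∈ sector (2 * Real.pi * j / Function.minimalPeriod (M.σ i) k)
              (2 * Real.pi * (j + 1) / Function.minimalPeriod (M.σ i) k) →
            G (((M.σ i)⁻¹ ^ j) k)
                (M.b i + s ^ Function.minimalPeriod (M.σ i) k * unitDir M.z₀ (M.b i)) =
              A s + β j) ∧
        ∀ j : ℕ, β (j + 1) = p i (((M.σ i)⁻¹ ^ (j + 1)) k) + β j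

/-- **[MONO-A5b]** the structure of nice additive primitives at infinity. -/
def AddLocalInf (M : CutModel F) : Prop :=
  ∀ η : Ω[F⁄ℂ], RegularOutside M η →
    ∀ (G : Fin M.d → ℂ → ℂ) (p : Fin M.r → Fin M.d → ℂ),
    M.IsAddPrim η G → IsAddNice M G → M.IsAddJumpOf G p → ∀ k : Fin M.d,
      ∃ (A : ℂ → ℂ) (β : Fin M.r → ℂ), AnalyticAt ℂ A 0 ∧
        (∀ i : Fin M.r, ∀ᶠ w in 𝓝[≠] (0 : ℂ), w⁻¹ ∈ M.toCutGeometry.sectorInf i →
          G (sheetInf M i k) (M.z₀ + w⁻¹) = A w + β i) ∧
        (M.r = 0 → ∃ a : ℂ, ∀ᶠ w in 𝓝[≠] (0 : ℂ), G k (M.z₀ + w⁻¹) = A w + a) ∧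
        (∀ (i : Fin M.r) (h : (i : ℕ) + 1 < M.r),
          β ⟨i + 1, h⟩ = p ⟨i + 1, h⟩ (sheetInf M ⟨i + 1, h⟩ k) + β i) ∧
        (∀ h : 0 < M.r, β ⟨0, h⟩ =
          p ⟨0, h⟩ (sheetInf M ⟨0, h⟩ k) + β ⟨M.r - 1, by omega⟩)

end

end Fermat.Agent.P5.helper27
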