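/-
P5 / S27, module MONO (helper27): the assembly of `helper25.MonoPackages M` from the package
statements of `helper27_MonoDefs.lean`:

  `monoPackages_of : MulPrimUnique → IsPreconnected U₀ → NiceExists M → NiceJump M →
      LocalBad M → LocalInf M → MonoPackages M`.

The fields `cocycle` and `kernel` for ARBITRARY systems of primitives are reduced to nice
systems by the field `unique` and `B¹ ≤ Z¹`.
-/
import Mathlib
import Fermat.Agent.P5.helper27_MonoUnique
import Fermat.Agent.P5.helper56_CombCore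

set_option autoImplicit false
set_option linter.style.haveILetI false

open AlgebraicCurve Filter Topology KaehlerDifferential

namespace Fermat.Agent.P5.helper27

open Fermat.Agent.P5.helper25 Fermat.Agent.P5.helper4

noncomputable section

/-! ### Two facts on sectors -/

theorem sector_shift_one (φ₁ φ₂ : ℝ) :
    sector (φ₁ + 2 * Real.pi) (φ₂ + 2 * Real.pi) = sector φ₁ φ₂ := by
  ext s
  constructor
  · rintro ⟨ρ, φ, hρ, h1, h2, rfl⟩
    refine ⟨ρ, φ - 2 * Real.pi, hρ, by linarith, by linarith, ?_⟩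
    congr 1
    push_cast
    rw [sub_mul, Complex.exp_sub]
    have : Complex.exp (2 * (Real.pi : ℂ) * Complex.I) = 1 := Complex.exp_two_pi_mul_I
    rw [this, div_one]
  · rintro ⟨ρ, φ, hρ, h1, h2, rfl⟩
    refine ⟨ρ, φ + 2 * Real.pi, hρ, by linarith, by linarith, ?_⟩
    congr 1
    push_cast
    rw [add_mul, Complex.exp_add]
    have : Complex.exp (2 * (Real.pi : ℂ) * Complex.I) = 1 := Complex.exp_two_pi_mul_I
    rw [this, mul_one]

theorem frequently_sector_zero {φ₁ φ₂ : ℝ} (h : φ₁ < φ₂) :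
    ∃ᶠ s in 𝓝[≠] (0 : ℂ), s ∈ sector φ₁ φ₂ := by
  refine frequently_of_line (c := 0)
    (v := Complex.exp ((((φ₁ + φ₂) / 2 : ℝ) : ℂ) * Complex.I)) (Complex.exp_ne_zero _) ?_
  filter_upwards [self_mem_nhdsWithin] with t ht
  have ht' : (0 : ℝ) < t := ht
  refine ⟨t, (φ₁ + φ₂) / 2, ht', by linarith, by linarith, ?_⟩
  rw [zero_add]

/-! ### The vertex relations -/

variable {F : Type} [Field F] [Algebra ℂ F] (M : CutModel F)

theorem inv_pow_minimalPeriod_apply (i : Fin M.r) (k : Fin M.d) :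
    (((M.σ i)⁻¹ ^ Function.minimalPeriod (M.σ i) k) k) = k := by
  have h := helper56.pow_minimalPeriod_apply M.permDatum i k
  have h' : ((M.σ i) ^ Function.minimalPeriod (M.σ i) k) k = k := h
  rw [inv_pow, Equiv.Perm.inv_eq_iff_eq]
  exact h'.symm

/-- The vertex relation at a bad point from the local structure. -/
theorem vertexSum_eq_zero_of_local {E : Fin M.d → ℂ → ℂ} {c : Fin M.r → Fin M.d → Additive ℂˣ}
    (i : Fin M.r) (k : Fin M.d) {G : ℂ → ℂ} {α : ℕ → ℂˣ} (hG : AnalyticAt ℂ G 0) (hG0 : G 0 ≠ 0)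
    (hsec : ∀ j : ℕ, ∀ᶠ s in 𝓝[≠] (0 : ℂ),
      s ∈ sector (2 * Real.pi * j / Function.minimalPeriod (M.σ i) k)
          (2 * Real.pi * (j + 1) / Function.minimalPeriod (M.σ i) k) →
        E (((M.σ i)⁻¹ ^ j) k)
            (M.b i + s ^ Function.minimalPeriod (M.σ i) k * unitDir M.z₀ (M.b i)) =
          (α j : ℂ) * G s)
    (hα : ∀ j : ℕ, α (j + 1) = Additive.toMul (c i (((M.σ i)⁻¹ ^ (j + 1)) k)) * α j) :
    M.permDatum.vertexSum c i k = 0 := by
  set e := Function.minimalPeriod (M.σ i) k with he_def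
  have he : 0 < e := helper56.minimalPeriod_pos M.permDatum i k
  have he' : (0 : ℝ) < e := by exact_mod_cast he
  -- periodicity of `α`
  have hper : α e = α 0 := by
    have h0 := hsec 0
    have h1 := hsec e
    have hs1 : sector (2 * Real.pi * (e : ℕ) / e) (2 * Real.pi * ((e : ℕ) + 1) / e) =
        sector (2 * Real.pi * (0 : ℕ) / e) (2 * Real.pi * ((0 : ℕ) + 1) / e) := by
      have e1 : 2 * Real.pi * (e : ℕ) / e = 2 * Real.pi * (0 : ℕ) / e + 2 * Real.pi := by
        field_simp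
        push_cast
        ring
      have e2 : 2 * Real.pi * ((e : ℕ) + 1) / e =
          2 * Real.pi * ((0 : ℕ) + 1) / e + 2 * Real.pi := by
        field_simp
        push_cast
        ring
      rw [e1, e2, sector_shift_one]
    rw [hs1, inv_pow_minimalPeriod_apply] at h1
    simp only [pow_zero, Equiv.Perm.one_apply] at h0
    have hne : ∀ᶠ s in 𝓝[≠] (0 : ℂ), G s ≠ 0 :=
      nhdsWithin_le_nhds (hG.continuousAt.eventually_ne hG0)
    have hfr : ∃ᶠ s in 𝓝[≠] (0 : ℂ),
        s ∈ sector (2 * Real.pi * (0 : ℕ) / e) (2 * Real.pi * ((0 : ℕ) + 1) / e) := by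
      refine frequently_sector_zero ?_
      have : (0 : ℝ) < 2 * Real.pi := by positivity
      simp only [Nat.cast_zero, mul_zero, zero_div, zero_add, mul_one]
      positivity
    obtain ⟨s, hs, hs0, hs1, hs2⟩ := (hfr.and_eventually (h0.and (h1.and hne))).exists
    have h3 : (α e : ℂ) * G s = (α 0 : ℂ) * G s := by
      rw [← hs1 hs, ← hs0 hs]
    exact Units.ext (mul_right_cancel₀ hs2 h3)
  -- telescoping
  have htel : ∑ j ∈ Finset.range e, c i (((M.σ i)⁻¹ ^ (j + 1)) k) = 0 := by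
    have h : ∀ j : ℕ, c i (((M.σ i)⁻¹ ^ (j + 1)) k) =
        (fun j => Additive.ofMul (α j)) (j + 1) - (fun j => Additive.ofMul (α j)) j := by
      intro j
      simp only
      rw [hα j, ofMul_mul, ofMul_toMul, add_sub_cancel_right]
    simp only [h]
    rw [Finset.sum_range_sub (fun j => Additive.ofMul (α j)) e, hper, sub_self]
  -- reindexing
  unfold PermDatum.vertexSum
  show ∑ j ∈ Finset.range e, c i (((M.σ i) ^ j) k) = 0
  rw [← Finset.sum_range_reflect, ← htel]
  refine Finset.sum_congr rfl fun j hj => ?_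
  have hj' : j < e := Finset.mem_range.1 hj
  congr 1
  have h1 : ((M.σ i) ^ e) k = k := helper56.pow_minimalPeriod_apply M.permDatum i k
  have h2 : ((M.σ i)⁻¹ ^ (j + 1)) k = ((M.σ i)⁻¹ ^ (j + 1)) (((M.σ i) ^ e) k) := by rw [h1]
  rw [h2, ← Equiv.Perm.mul_apply]
  congr 1
  have h3 : e = (j + 1) + (e - 1 - j) := by omega
  have h4 : (M.σ i) ^ e = (M.σ i) ^ (j + 1) * (M.σ i) ^ (e - 1 - j) := by
    rw [← pow_add, ← h3]
  rw [h4, inv_pow, inv_mul_cancel_left]

/-- The relation at infinity from the local structure. -/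
theorem infSum_eq_zero_of_local {c : Fin M.r → Fin M.d → Additive ℂˣ} (k : Fin M.d)
    {α : Fin M.r → ℂˣ}
    (h1 : ∀ (i : Fin M.r) (h : (i : ℕ) + 1 < M.r),
      α ⟨i + 1, h⟩ = Additive.toMul (c ⟨i + 1, h⟩ (sheetInf M ⟨i + 1, h⟩ k)) * α i)
    (h0 : ∀ h : 0 < M.r, α ⟨0, h⟩ =
      Additive.toMul (c ⟨0, h⟩ (sheetInf M ⟨0, h⟩ k)) * α ⟨M.r - 1, by omega⟩) :
    M.permDatum.infSum c k = 0 := by
  unfold PermDatum.infSum
  show ∑ i : Fin M.r, c i (sheetInf M i k) = 0
  rcases Nat.eq_zero_or_pos M.r with hr | hr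
  · have : IsEmpty (Fin M.r) := by rw [hr]; infer_instance
    simp
  -- `β n = α (n mod r)`
  let β : ℕ → Additive ℂˣ := fun n =>
    if h : n < M.r then Additive.ofMul (α ⟨n, h⟩) else 0
  let γ : ℕ → Additive ℂˣ := fun n =>
    if h : n < M.r then c ⟨n, h⟩ (sheetInf M ⟨n, h⟩ k) else 0
  have hγ : ∀ i : Fin M.r, c i (sheetInf M i k) = γ i := by
    intro i
    simp only [γ, i.2, dif_pos]
  simp only [hγ]
  rw [Fin.sum_univ_eq_sum_range γ M.r]
  obtain ⟨n, hn⟩ : ∃ n, M.r = n + 1 := ⟨M.r - 1, by omega⟩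
  rw [hn, Finset.sum_range_succ']
  have e1 : ∀ j ∈ Finset.range n, γ (j + 1) = β (j + 1) - β j := by
    intro j hj
    have hj' : j < n := Finset.mem_range.1 hj
    have hj1 : j + 1 < M.r := by omega
    have hj0 : j < M.r := by omega
    simp only [γ, β, hj1, hj0, dif_pos]
    have := h1 ⟨j, hj0⟩ hj1
    rw [this, ofMul_mul, ofMul_toMul, add_sub_cancel_right]
  rw [Finset.sum_congr rfl e1, Finset.sum_range_sub]
  have e0 : γ 0 = β 0 - β n := by
    have hn0 : n < M.r := by omega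
    simp only [γ, β, hr, hn0, dif_pos]
    have := h0 hr
    have hidx : (⟨M.r - 1, by omega⟩ : Fin M.r) = ⟨n, hn0⟩ := by
      apply Fin.ext
      simp only
      omega
    rw [hidx] at this
    rw [this, ofMul_mul, ofMul_toMul, add_sub_cancel_right]
  rw [e0]
  abel

/-- Nice primitives have cocycle jumps. -/
theorem niceCocycle (hLB : LocalBad M) (hLI : LocalInf M) {τ : Ω[F⁄ℂ]} (hτ : τ ∈ M.T₀)
    {E : Fin M.d → ℂ → ℂ} {c : Fin M.r → Fin M.d → Additive ℂˣ} (hE : M.IsMultPrim τ E)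
    (hN : IsNice M E) (hc : M.IsJumpOf E c) : c ∈ M.permDatum.Z1 (Additive ℂˣ) := by
  refine ⟨fun i k => ?_, fun k => ?_⟩
  · obtain ⟨G, α, hG, hG0, hsec, hα⟩ := hLB τ hτ E c hE hN hc i k
    exact vertexSum_eq_zero_of_local M i k hG hG0 hsec hα
  · obtain ⟨G, α, -, -, -, -, h1, h0⟩ := hLI τ hτ E c hE hN hc k
    exact infSum_eq_zero_of_local M k h1 h0

/-! ### The kernel -/

theorem isNice_rescale {E : Fin M.d → ℂ → ℂ} (κ : Fin M.d → ℂˣ) (hN : IsNice M E) :
    IsNice M (fun k z => (κ k : ℂ) * E k z) := by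
  obtain ⟨S, hS, h⟩ := hN
  refine ⟨S, hS, fun k z hz hzS => ?_⟩
  obtain ⟨h1, h2⟩ := h k z hz hzS
  exact ⟨analyticAt_const.mul h1, mul_ne_zero (κ k).ne_zero h2⟩

/-- If the sheet functions of `h` are multiplicative primitives of `τ` (generically), then
`τ = dlog h`. -/
theorem eq_dlog_of_prim {τ : Ω[F⁄ℂ]} {E : Fin M.d → ℂ → ℂ} (hE : M.IsMultPrim τ E) {h : F}
    (hh : ∀ k, ∀ z ∈ M.toCutGeometry.U₀, E k =ᶠ[𝓝[≠] z] M.ev k h) :
    h ≠ 0 ∧ τ = dlog F h := by
  let k : Fin M.d := ⟨0, M.d_pos⟩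
  have hz := base_mem_U₀ M.toCutGeometry
  have hh0 : h ≠ 0 := by
    rintro rfl
    have h1 : ∀ᶠ w in 𝓝[≠] M.z₀, False := by
      filter_upwards [hh k M.z₀ hz, (hE k).2 M.z₀ hz, eventually_ne_mem_U₀ M.toCutGeometry hz]
        with w hw1 hw2 hw3
      apply hw2.1
      rw [hw1, ev_zero M k hw3]
    exact h1.exists.choose_spec
  refine ⟨hh0, ?_⟩
  have key : M.coeff τ = M.coeff (dlog F h) := by
    refine eq_of_ev M k hz (Eventually.frequently ?_)
    have h1 := eventually_eventually_punctured (hh k M.z₀ hz)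
    filter_upwards [h1, (hE k).2 M.z₀ hz, (isMultPrim_ev M hh0 k).2 M.z₀ hz, hh k M.z₀ hz]
      with w hw1 hw2 hw3 hw4
    have h2 : HasDerivAt (M.ev k h) (M.ev k (M.coeff τ) w * E k w) w :=
      hw2.2.congr_of_eventuallyEq (hw1.mono fun v hv => hv.symm)
    have h3 := h2.unique hw3.2
    rw [hw4] at h3
    exact mul_right_cancel₀ hw3.1 h3
  rw [M.coeff_spec τ, key, ← M.coeff_spec]

/-- The kernel for nice primitives without jumps. -/
theorem niceKernel_zero (hLB : LocalBad M) (hLI : LocalInf M) {τ : Ω[F⁄ℂ]} (hτ : τ ∈ M.T₀)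
    {E : Fin M.d → ℂ → ℂ} (hE : M.IsMultPrim τ E) (hN : IsNice M E) (hc : M.IsJumpOf E 0) :
    ∃ h : F, h ≠ 0 ∧ τ = dlog F h := by
  refine (M.glue E (fun k => (hE k).1) ?_ ?_ ?_).imp fun h hh => eq_dlog_of_prim M hE hh
  · -- crossing
    intro i k a ha
    obtain ⟨g, hg, hL, hR⟩ := hc i k a ha
    refine ⟨g, hg, hL, ?_⟩
    filter_upwards [hR] with z hz hzR
    rw [hz hzR]
    simp
  · -- bad points
    intro i k
    obtain ⟨G, α, hG, -, hsec, hα⟩ := hLB τ hτ E 0 hE hN hc i k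
    have hconst : ∀ j, α j = α 0 := by
      intro j
      induction j with
      | zero => rfl
      | succ j ih =>
        rw [hα j, ih]
        simp
    refine ⟨fun s => (α 0 : ℂ) * G s, (analyticAt_const.mul hG).meromorphicAt, fun j => ?_⟩
    filter_upwards [hsec j] with s hs hsS
    rw [hs hsS, hconst j]
  · -- infinity
    intro k
    obtain ⟨G, α, hG, -, hsec, hr0, h1, h0⟩ := hLI τ hτ E 0 hE hN hc k
    rcases Nat.eq_zero_or_pos M.r with hr | hr
    · obtain ⟨a, ha⟩ := hr0 hr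
      refine ⟨fun w => (a : ℂ) * G w, (analyticAt_const.mul hG).meromorphicAt, fun i => ?_,
        fun _ => ?_⟩
      · exact absurd i.2 (by omega)
      · filter_upwards [ha] with w hw using hw.symm
    · have hconst : ∀ (n : ℕ) (hn : n < M.r), α ⟨n, hn⟩ = α ⟨0, hr⟩ := by
        intro n
        induction n with
        | zero => intro _; rfl
        | succ n ih =>
          intro hn
          have := h1 ⟨n, by omega⟩ hn
          rw [this, ih (by omega)]
          simp
      refine ⟨fun w => (α ⟨0, hr⟩ : ℂ) * G w, (analyticAt_const.mul hG).meromorphicAt,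
        fun i => ?_, fun h => absurd h (by omega)⟩
      filter_upwards [hsec i] with w hw hwS
      have h2 := hw hwS
      unfold sheetInf at h2
      rw [h2, hconst i i.2]

/-! ### The assembly -/

/-- **[MONO]** the packages of module MONO for a cut model, from the package statements. -/
theorem monoPackages_of (hMU : MulPrimUnique) (hconn : IsPreconnected M.toCutGeometry.U₀)
    (hNE : NiceExists M) (hNJ : NiceJump M) (hLB : LocalBad M) (hLI : LocalInf M) :
    MonoPackages M := by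
  have hB1 : M.permDatum.B1 (Additive ℂˣ) ≤ M.permDatum.Z1 (Additive ℂˣ) :=
    helper56.B1_le_Z1 M.permDatum M.prod_σ
  have hnice : ∀ τ ∈ M.T₀, ∃ (E : Fin M.d → ℂ → ℂ) (c : Fin M.r → Fin M.d → Additive ℂˣ),
      M.IsMultPrim τ E ∧ IsNice M E ∧ M.IsJumpOf E c := by
    intro τ hτ
    obtain ⟨E, hE, hN⟩ := hNE τ hτ
    obtain ⟨c, hc⟩ := hNJ τ hτ E hE hN
    exact ⟨E, c, hE, hN, hc⟩
  refine
    { exists_prim := ?_
      cocycle := ?_
      unique := monoUnique_of M hMU hconn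
      mul := monoMul M
      inv := monoInv M
      rescale := monoRescale M
      prim_dlog := monoPrimDlog M
      kernel := ?_ }
  · intro τ hτ
    obtain ⟨E, c, hE, -, hc⟩ := hnice τ hτ
    exact ⟨E, c, hE, hc⟩
  · intro τ hτ E c hE hc
    obtain ⟨E₀, c₀, hE₀, hN₀, hc₀⟩ := hnice τ hτ
    have h1 := monoUnique_of M hMU hconn τ hτ E E₀ c c₀ hE hc hE₀ hc₀
    have h2 := niceCocycle M hLB hLI hτ hE₀ hN₀ hc₀
    have h3 := (M.permDatum.Z1 (Additive ℂˣ)).add_mem (hB1 h1) h2
    have e : ((c : Fin M.permDatum.r → Fin M.permDatum.d → Additive ℂˣ) - c₀ + c₀) = c :=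
      sub_add_cancel _ _
    exact Eq.mp (congrArg (fun x => x ∈ M.permDatum.Z1 (Additive ℂˣ)) e) h3
  · intro τ hτ E c hE hc hcB
    obtain ⟨E₀, c₀, hE₀, hN₀, hc₀⟩ := hnice τ hτ
    have h1 := monoUnique_of M hMU hconn τ hτ E E₀ c c₀ hE hc hE₀ hc₀
    have h2 : c₀ ∈ M.permDatum.B1 (Additive ℂˣ) := by
      have := (M.permDatum.B1 (Additive ℂˣ)).sub_mem hcB h1
      have e : ((c : Fin M.permDatum.r → Fin M.permDatum.d → Additive ℂˣ) - (c - c₀)) = c₀ :=
        sub_sub_cancel _ _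
      exact Eq.mp (congrArg (fun x => x ∈ M.permDatum.B1 (Additive ℂˣ)) e) this
    obtain ⟨a, ha⟩ := h2
    let κ : Fin M.d → ℂˣ := fun k => Additive.toMul (-a k)
    have hE₁ := isMultPrim_rescale M κ hE₀
    have hc₁ := isJumpOf_rescale M κ hc₀
    have hN₁ := isNice_rescale M κ hN₀
    have hzero : (fun i k => c₀ i k + Additive.ofMul (κ k) - Additive.ofMul (κ (M.σ i k))) =
        (0 : Fin M.r → Fin M.d → Additive ℂˣ) := by
      funext i k
      have h3 : c₀ i k = a k - a (M.σ i k) := by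
        rw [← ha]
        rfl
      simp only [κ, ofMul_toMul, Pi.zero_apply, h3]
      abel
    rw [hzero] at hc₁
    exact niceKernel_zero M hLB hLI hτ hE₁ hN₁ hc₁

end

end Fermat.Agent.P5.helper27
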