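/-
P5 / S27, module MONO (helper27): [MONO-4a] differentials of the third kind with poles at
interior places have nice multiplicative primitives on the sheets of a cut model.
-/
import Mathlib
import Fermat.Agent.P5.helper27_MonoAsm
import Fermat.Agent.P5.helper27_StarPrim
import Fermat.Agent.P5.helper17_MulPrim
import Fermat.Agent.P5.helper38_CutStar
import Fermat.Agent.P5.helper10_DictA

set_option autoImplicit false
set_option linter.style.haveILetI false

open AlgebraicCurve Filter Topology KaehlerDifferential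

namespace Fermat.Agent.P5.helper27

open Fermat.Agent.P5.helper25 Fermat.Agent.P5.helper4

noncomputable section

variable {F : Type} [Field F] [Algebra ℂ F] (M : CutModel F)

theorem mulPrimUnique : MulPrimUnique :=
  fun hU hconn _ _ _ h₁ h₂ hE₁ hE₂ => helper17.mulPrimitive_unique hU hconn h₁ h₂ hE₁ hE₂

/-- The points of the `k`-th sheet over which a divisor is non-trivial form a finite set. -/
theorem finite_sheet_support (D : Divisor ℂ F) (k : Fin M.d) :
    {z : ℂ | z ∈ M.toCutGeometry.U₀ ∧ D (M.pl k z) ≠ 0}.Finite := by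
  have h : Set.InjOn (fun z => M.pl k z) {z : ℂ | z ∈ M.toCutGeometry.U₀ ∧ D (M.pl k z) ≠ 0} := by
    intro z hz z' hz' hzz'
    exact (M.pl_injective k k z z' hz.1 hz'.1 hzz').2
  refine Set.Finite.of_finite_image (D.support.finite_toSet.subset ?_) h
  rintro _ ⟨z, hz, rfl⟩
  simpa using hz.2

/-- **[MONO-4a]** -/
theorem niceExists : NiceExists M := by
  classical
  rintro τ ⟨D, hD, -⟩
  let m : Fin M.d → ℂ → ℤ := fun k z => if z ∈ M.toCutGeometry.U₀ then D (M.pl k z) else 0
  have hm : ∀ k, {z | m k z ≠ 0}.Finite := by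
    intro k
    refine (finite_sheet_support M D k).subset ?_
    intro z hz
    simp only [Set.mem_ofPred_eq, m] at hz ⊢
    by_cases hzU : z ∈ M.toCutGeometry.U₀
    · rw [if_pos hzU] at hz
      exact ⟨hzU, hz⟩
    · rw [if_neg hzU] at hz
      exact absurd rfl hz
  have hres : ∀ k, ∀ z ∈ M.toCutGeometry.U₀,
      0 ≤ meromorphicOrderAt (fun w => M.ev k (M.coeff τ) w - (m k z : ℂ) / (w - z)) z := by
    intro k z hz
    simp only [m, if_pos hz]
    exact helper10.dictInterior M τ (D (M.pl k z)) k z hz (hD (M.pl k z))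
  have hex : ∀ k, ∃ E : ℂ → ℂ, MeromorphicOn E M.toCutGeometry.U₀ ∧
      (∀ z ∈ M.toCutGeometry.U₀, meromorphicOrderAt E z = ((m k z : ℤ) : WithTop ℤ)) ∧
      (∀ z ∈ M.toCutGeometry.U₀, m k z = 0 → AnalyticAt ℂ E z ∧ E z ≠ 0) ∧
      ∀ z ∈ M.toCutGeometry.U₀, ∀ᶠ w in 𝓝[≠] z,
        E w ≠ 0 ∧ HasDerivAt E (M.ev k (M.coeff τ) w * E w) w := fun k =>
    helper17.exists_mulPrimitive (CutGeom.isOpen_U₀ _) (helper38.starConvex_U₀ _)
      (fun f hf => exists_primitive_of_starConvex (CutGeom.isOpen_U₀ _)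
        (helper38.starConvex_U₀ _) hf)
      (M.ev_meromorphicOn k (M.coeff τ)) (m k) (hm k) (hres k)
  choose E hE1 hE2 hE3 hE4 using hex
  refine ⟨E, fun k => ⟨hE1 k, hE4 k⟩, ⋃ k, {z | m k z ≠ 0}, Set.finite_iUnion hm,
    fun k z hz hzS => ?_⟩
  refine hE3 k z hz ?_
  by_contra h
  exact hzS (Set.mem_iUnion.2 ⟨k, h⟩)

end

end Fermat.Agent.P5.helper27
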