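/-
P5 / S27, module MONO, additive twin (helper27): the assembly of the additive deliverables of
MONO consumed by SURJ,

  `addPeriodExists_of`, `addCocycle_of`, `addKernel_of`,

from the package statements of `helper27_AddDefs.lean` (`AddNiceExists`, `AddNiceJump`,
`AddLocalBad`, `AddLocalInf`).
-/
import Mathlib
import Fermat.Agent.P5.helper27_AddDefs
import Fermat.Agent.P5.helper27_NiceExists

set_option autoImplicit false
set_option linter.style.haveILetI false

open AlgebraicCurve Filter Topology KaehlerDifferential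

namespace Fermat.Agent.P5.helper27

open Fermat.Agent.P5.helper25 Fermat.Agent.P5.helper4

noncomputable section

/-! ### Telescoping sums -/

section telescope

variable {F : Type} [Field F] [Algebra ℂ F] (M : CutModel F) {A : Type*} [AddCommGroup A]

theorem vertexSum_eq_zero_of_telescope (c : Fin M.r → Fin M.d → A) (i : Fin M.r)
    (k : Fin M.d) (a : ℕ → A)
    (h : ∀ j : ℕ, a (j + 1) = c i (((M.σ i)⁻¹ ^ (j + 1)) k) + a j)
    (hper : a (Function.minimalPeriod (M.σ i) k) = a 0) :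
    M.permDatum.vertexSum c i k = 0 := by
  set e := Function.minimalPeriod (M.σ i) k with he_def
  have htel : ∑ j ∈ Finset.range e, c i (((M.σ i)⁻¹ ^ (j + 1)) k) = 0 := by
    have h' : ∀ j : ℕ, c i (((M.σ i)⁻¹ ^ (j + 1)) k) = a (j + 1) - a j := by
      intro j
      rw [h j, add_sub_cancel_right]
    simp only [h']
    rw [Finset.sum_range_sub a e, hper, sub_self]
  unfold PermDatum.vertexSum
  show ∑ j ∈ Finset.range e, c i (((M.σ i) ^ j) k) = 0
  rw [← Finset.sum_range_reflect, ← htel]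
  refine Finset.sum_congr rfl fun j hj => ?_
  have hj' : j < e := Finset.mem_range.1 hj
  congr 1
  have h1 : ((M.σ i) ^ e) k = k := helper56.pow_minimalPeriod_apply M.permDatum i k
  have h2 : ((M.σ i)⁻¹ ^ (j + 1)) k = ((M.σ i)⁻¹ ^ (j + 1)) (((M.σ i) ^ e) k) := by rw [h1]
  rw [h2, ← Equiv.Perm.mul_apply]
  congr 1
  have h3 : e = (j + 1) + (e - 1 - j) := by omega
  have h4 : (M.σ i) ^ e = (M.σ i) ^ (j + 1) * (M.σ i) ^ (e - 1 - j) := by
    rw [← pow_add, ← h3]
  rw [h4, inv_pow, inv_mul_cancel_left]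

theorem infSum_eq_zero_of_telescope (c : Fin M.r → Fin M.d → A) (k : Fin M.d)
    (a : Fin M.r → A)
    (h1 : ∀ (i : Fin M.r) (h : (i : ℕ) + 1 < M.r),
      a ⟨i + 1, h⟩ = c ⟨i + 1, h⟩ (sheetInf M ⟨i + 1, h⟩ k) + a i)
    (h0 : ∀ h : 0 < M.r, a ⟨0, h⟩ =
      c ⟨0, h⟩ (sheetInf M ⟨0, h⟩ k) + a ⟨M.r - 1, by omega⟩) :
    M.permDatum.infSum c k = 0 := by
  unfold PermDatum.infSum
  show ∑ i : Fin M.r, c i (sheetInf M i k) = 0
  rcases Nat.eq_zero_or_pos M.r with hr | hr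
  · have : IsEmpty (Fin M.r) := by rw [hr]; infer_instance
    simp
  let β : ℕ → A := fun n => if h : n < M.r then a ⟨n, h⟩ else 0
  let γ : ℕ → A := fun n => if h : n < M.r then c ⟨n, h⟩ (sheetInf M ⟨n, h⟩ k) else 0
  have hγ : ∀ i : Fin M.r, c i (sheetInf M i k) = γ i := by
    intro i
    simp only [γ, i.2, dif_pos]
  simp only [hγ]
  rw [Fin.sum_univ_eq_sum_range γ M.r]
  obtain ⟨n, hn⟩ : ∃ n, M.r = n + 1 := ⟨M.r - 1, by omega⟩
  rw [hn, Finset.sum_range_succ']
  have e1 : ∀ j ∈ Finset.range n, γ (j + 1) = β (j + 1) - β j := by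
    intro j hj
    have hj' : j < n := Finset.mem_range.1 hj
    have hj1 : j + 1 < M.r := by omega
    have hj0 : j < M.r := by omega
    simp only [γ, β, hj1, hj0, dif_pos]
    have := h1 ⟨j, hj0⟩ hj1
    rw [this, add_sub_cancel_right]
  rw [Finset.sum_congr rfl e1, Finset.sum_range_sub]
  have e0 : γ 0 = β 0 - β n := by
    have hn0 : n < M.r := by omega
    simp only [γ, β, hr, hn0, dif_pos]
    have := h0 hr
    have hidx : (⟨M.r - 1, by omega⟩ : Fin M.r) = ⟨n, hn0⟩ := by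
      apply Fin.ext
      simp only
      omega
    rw [hidx] at this
    rw [this, add_sub_cancel_right]
  rw [e0]
  abel

end telescope

/-! ### Uniqueness -/

section sides

variable (G : CutGeometry) (i : Fin G.r) {a : ℂ}

/-- Identity principle across the left side, additive form. -/
theorem eventuallyEq_of_left_add {g g' : ℂ → ℂ} {E E' : ℂ → ℂ} {κ : ℂ}
    (ha : a ∈ openRay G.z₀ (G.b i)) (hg : MeromorphicAt g a) (hg' : MeromorphicAt g' a)
    (hL : ∀ᶠ z in 𝓝[≠] a, z ∈ leftSide G.z₀ (G.b i) → g z = E z)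
    (hL' : ∀ᶠ z in 𝓝[≠] a, z ∈ leftSide G.z₀ (G.b i) → g' z = E' z)
    (hEE : ∀ z ∈ G.U₀, ∀ᶠ w in 𝓝[≠] z, E' w = E w + κ) :
    g' =ᶠ[𝓝[≠] a] fun z => g z + κ := by
  refine eventuallyEq_of_frequently hg' (hg.add (MeromorphicAt.const κ a)) ?_
  have hP : ∀ᶠ z in 𝓝[≠] a, z ∈ leftSide G.z₀ (G.b i) ∩ G.U₀ → (g z = E z ∧ g' z = E' z) := by
    filter_upwards [hL, hL'] with z h1 h2 hz
    exact ⟨h1 hz.1, h2 hz.1⟩
  refine (frequently_generic G (isOpen_leftU G i) Set.inter_subset_right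
    (frequently_leftSide G i ha) hP hEE).mono ?_
  rintro z ⟨-, hz⟩
  filter_upwards [hz] with w hw
  rw [hw.2.1.2, hw.2.2, hw.2.1.1]

end sides

variable {F : Type} [Field F] [Algebra ℂ F] (M : CutModel F)

theorem add_jump_compare {G G' : Fin M.d → ℂ → ℂ} {p p' : Fin M.r → Fin M.d → ℂ}
    (hp : M.IsAddJumpOf G p) (hp' : M.IsAddJumpOf G' p') (κ : Fin M.d → ℂ)
    (hκ : ∀ k, ∀ z ∈ M.toCutGeometry.U₀, ∀ᶠ w in 𝓝[≠] z, G' k w = G k w + κ k)
    (i : Fin M.r) (k : Fin M.d) :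
    p' i k + κ (M.σ i k) = p i k + κ k := by
  have ha : M.b i + ((1 : ℝ) : ℂ) * (M.b i - M.z₀) ∈ openRay M.z₀ (M.b i) :=
    ⟨1, one_pos, rfl⟩
  set a : ℂ := M.b i + ((1 : ℝ) : ℂ) * (M.b i - M.z₀) with ha_def
  obtain ⟨g, hg, hL, hR⟩ := hp i k a ha
  obtain ⟨g', hg', hL', hR'⟩ := hp' i k a ha
  have key := eventuallyEq_of_left_add M.toCutGeometry i ha hg hg' hL hL' (hκ k)
  have hP : ∀ᶠ z in 𝓝[≠] a, z ∈ rightSide M.z₀ (M.b i) ∩ M.toCutGeometry.U₀ →
      (g' z = g z + κ k ∧ g z = p i k + G (M.σ i k) z ∧ g' z = p' i k + G' (M.σ i k) z) := by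
    filter_upwards [key, hR, hR'] with z h1 h2 h3 hz
    exact ⟨h1, h2 hz.1, h3 hz.1⟩
  obtain ⟨w, -, ⟨h1, h2, h3⟩, h5⟩ := exists_generic M.toCutGeometry
    (isOpen_rightU M.toCutGeometry i) Set.inter_subset_right
    (frequently_rightSide M.toCutGeometry i ha) hP (hκ (M.σ i k))
  rw [h2] at h1
  rw [h1, h5] at h3
  linear_combination -h3

/-- The class of the additive jump cochain does not depend on the primitives. -/
theorem addUnique {η : Ω[F⁄ℂ]} {G G' : Fin M.d → ℂ → ℂ} {p p' : Fin M.r → Fin M.d → ℂ}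
    (hG : M.IsAddPrim η G) (hp : M.IsAddJumpOf G p) (hG' : M.IsAddPrim η G')
    (hp' : M.IsAddJumpOf G' p') : p - p' ∈ M.permDatum.B1 ℂ := by
  have h1 : ∀ k, ∃ κ : ℂ, ∀ z ∈ M.toCutGeometry.U₀, ∀ᶠ w in 𝓝[≠] z, G' k w = G k w + κ :=
    fun k => helper17.addPrimitive_unique (CutGeom.isOpen_U₀ _) (helper38.isPreconnected_U₀ _)
      (hG k).1 (hG' k).1 (hG k).2 (hG' k).2
  choose κ hκ using h1
  refine ⟨fun k => -κ k, ?_⟩
  funext i k
  have h2 := add_jump_compare M hp hp' κ hκ i k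
  show -κ k - -κ (M.σ i k) = p i k - p' i k
  linear_combination h2

/-! ### Cocycles -/

theorem addNiceCocycle (hLB : AddLocalBad M) (hLI : AddLocalInf M) {η : Ω[F⁄ℂ]}
    (hη : RegularOutside M η) {G : Fin M.d → ℂ → ℂ} {p : Fin M.r → Fin M.d → ℂ}
    (hG : M.IsAddPrim η G) (hN : IsAddNice M G) (hp : M.IsAddJumpOf G p) :
    p ∈ M.permDatum.Z1 ℂ := by
  refine ⟨fun i k => ?_, fun k => ?_⟩
  · obtain ⟨A, β, hA, hsec, hβ⟩ := hLB η hη G p hG hN hp i k
    refine vertexSum_eq_zero_of_telescope M p i k β hβ ?_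
    set e := Function.minimalPeriod (M.σ i) k with he_def
    have he : 0 < e := helper56.minimalPeriod_pos M.permDatum i k
    have he' : (0 : ℝ) < e := by exact_mod_cast he
    have h0 := hsec 0
    have h1 := hsec e
    have hs1 : sector (2 * Real.pi * (e : ℕ) / e) (2 * Real.pi * ((e : ℕ) + 1) / e) =
        sector (2 * Real.pi * (0 : ℕ) / e) (2 * Real.pi * ((0 : ℕ) + 1) / e) := by
      have e1 : 2 * Real.pi * (e : ℕ) / e = 2 * Real.pi * (0 : ℕ) / e + 2 * Real.pi := by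
        field_simp
        push_cast
        ring
      have e2 : 2 * Real.pi * ((e : ℕ) + 1) / e =
          2 * Real.pi * ((0 : ℕ) + 1) / e + 2 * Real.pi := by
        field_simp
        push_cast
        ring
      rw [e1, e2, sector_shift_one]
    rw [hs1, inv_pow_minimalPeriod_apply] at h1
    simp only [pow_zero, Equiv.Perm.one_apply] at h0
    have hfr : ∃ᶠ s in 𝓝[≠] (0 : ℂ),
        s ∈ sector (2 * Real.pi * (0 : ℕ) / e) (2 * Real.pi * ((0 : ℕ) + 1) / e) := by
      refine frequently_sector_zero ?_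
      have : (0 : ℝ) < 2 * Real.pi := by positivity
      simp only [Nat.cast_zero, mul_zero, zero_div, zero_add, mul_one]
      positivity
    obtain ⟨s, hs, hs0, hs1⟩ := (hfr.and_eventually (h0.and h1)).exists
    have h3 : A s + β e = A s + β 0 := by
      rw [← hs1 hs, ← hs0 hs]
    exact add_left_cancel h3
  · obtain ⟨A, β, -, -, -, h1, h0⟩ := hLI η hη G p hG hN hp k
    exact infSum_eq_zero_of_telescope M p k β h1 h0

/-! ### The kernel -/

theorem isAddPrim_shift {η : Ω[F⁄ℂ]} {G : Fin M.d → ℂ → ℂ} (κ : Fin M.d → ℂ)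
    (hG : M.IsAddPrim η G) : M.IsAddPrim η (fun k z => G k z + κ k) := by
  intro k
  refine ⟨(hG k).1.add (MeromorphicOn.const (κ k)), fun z hz => ?_⟩
  filter_upwards [(hG k).2 z hz] with w hw
  exact hw.add_const (κ k)

theorem isAddJumpOf_shift {G : Fin M.d → ℂ → ℂ} {p : Fin M.r → Fin M.d → ℂ}
    (κ : Fin M.d → ℂ) (hp : M.IsAddJumpOf G p) :
    M.IsAddJumpOf (fun k z => G k z + κ k) (fun i k => p i k + κ k - κ (M.σ i k)) := by
  intro i k a ha
  obtain ⟨g, hg, hL, hR⟩ := hp i k a ha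
  refine ⟨fun z => g z + κ k, hg.add (MeromorphicAt.const (κ k) a), ?_, ?_⟩
  · filter_upwards [hL] with z hz hzL
    rw [hz hzL]
  · filter_upwards [hR] with z hz hzR
    rw [hz hzR]
    ring

theorem isAddNice_shift {G : Fin M.d → ℂ → ℂ} (κ : Fin M.d → ℂ) (hN : IsAddNice M G) :
    IsAddNice M (fun k z => G k z + κ k) := by
  obtain ⟨S, hS, h⟩ := hN
  exact ⟨S, hS, fun k z hz hzS => (h k z hz hzS).add analyticAt_const⟩

/-- If the sheet functions of `h` are additive primitives of `η` (generically), then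
`η = dh`. -/
theorem eq_D_of_addPrim {η : Ω[F⁄ℂ]} {G : Fin M.d → ℂ → ℂ} (hG : M.IsAddPrim η G) {h : F}
    (hh : ∀ k, ∀ z ∈ M.toCutGeometry.U₀, G k =ᶠ[𝓝[≠] z] M.ev k h) :
    η = KaehlerDifferential.D ℂ F h := by
  let k : Fin M.d := ⟨0, M.d_pos⟩
  have hz := base_mem_U₀ M.toCutGeometry
  have key : M.coeff η = M.coeff (KaehlerDifferential.D ℂ F h) := by
    refine eq_of_ev M k hz (Eventually.frequently ?_)
    have h1 := eventually_eventually_punctured (hh k M.z₀ hz)
    filter_upwards [h1, (hG k).2 M.z₀ hz, ev_coeff_D M k h hz] with w hw1 hw2 hw3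
    have h2 : HasDerivAt (M.ev k h) (M.ev k (M.coeff η) w) w :=
      hw2.congr_of_eventuallyEq (hw1.mono fun v hv => hv.symm)
    exact h2.unique hw3
  rw [M.coeff_spec η, key, ← M.coeff_spec]

/-- The kernel for nice additive primitives without jumps. -/
theorem addNiceKernel_zero (hLB : AddLocalBad M) (hLI : AddLocalInf M) {η : Ω[F⁄ℂ]}
    (hη : RegularOutside M η) {G : Fin M.d → ℂ → ℂ} (hG : M.IsAddPrim η G)
    (hN : IsAddNice M G) (hp : M.IsAddJumpOf G 0) :
    ∃ h : F, η = KaehlerDifferential.D ℂ F h := by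
  refine (M.glue G (fun k => (hG k).1) ?_ ?_ ?_).imp fun h hh => eq_D_of_addPrim M hG hh
  · -- crossing
    intro i k a ha
    obtain ⟨g, hg, hL, hR⟩ := hp i k a ha
    refine ⟨g, hg, hL, ?_⟩
    filter_upwards [hR] with z hz hzR
    rw [hz hzR]
    simp
  · -- bad points
    intro i k
    obtain ⟨A, β, hA, hsec, hβ⟩ := hLB η hη G 0 hG hN hp i k
    have hconst : ∀ j, β j = β 0 := by
      intro j
      induction j with
      | zero => rfl
      | succ j ih =>
        rw [hβ j, ih]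
        simp
    refine ⟨fun s => A s + β 0, (hA.add analyticAt_const).meromorphicAt, fun j => ?_⟩
    filter_upwards [hsec j] with s hs hsS
    rw [hs hsS, hconst j]
  · -- infinity
    intro k
    obtain ⟨A, β, hA, hsec, hr0, h1, h0⟩ := hLI η hη G 0 hG hN hp k
    rcases Nat.eq_zero_or_pos M.r with hr | hr
    · obtain ⟨a, ha⟩ := hr0 hr
      refine ⟨fun w => A w + a, (hA.add analyticAt_const).meromorphicAt, fun i => ?_,
        fun _ => ?_⟩
      · exact absurd i.2 (by omega)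
      · filter_upwards [ha] with w hw using hw.symm
    · have hconst : ∀ (n : ℕ) (hn : n < M.r), β ⟨n, hn⟩ = β ⟨0, hr⟩ := by
        intro n
        induction n with
        | zero => intro _; rfl
        | succ n ih =>
          intro hn
          have := h1 ⟨n, by omega⟩ hn
          rw [this, ih (by omega)]
          simp
      refine ⟨fun w => A w + β ⟨0, hr⟩, (hA.add analyticAt_const).meromorphicAt,
        fun i => ?_, fun h => absurd h (by omega)⟩
      filter_upwards [hsec i] with w hw hwS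
      have h2 := hw hwS
      unfold sheetInf at h2
      rw [h2, hconst i i.2]

/-! ### The assembly -/

theorem locallyExact_of_addPrim {η : Ω[F⁄ℂ]} {G : Fin M.d → ℂ → ℂ} (hG : M.IsAddPrim η G) :
    LocallyExact M η :=
  fun k z hz => ⟨G k, (hG k).1 z hz, (hG k).2 z hz⟩

/-- **[MONO-A1]** -/
theorem addPeriodExists_of (hNE : AddNiceExists M) (hNJ : AddNiceJump M) :
    AddPeriodExists M := by
  intro η hη hloc
  obtain ⟨G, hG, hN⟩ := hNE η hloc
  obtain ⟨p, hp⟩ := hNJ η hη G hG hN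
  exact ⟨p, G, hG, hp⟩

/-- **[MONO-A2]** -/
theorem addCocycle_of (hNE : AddNiceExists M) (hNJ : AddNiceJump M) (hLB : AddLocalBad M)
    (hLI : AddLocalInf M) : AddCocycle M := by
  rintro η p hη ⟨G, hG, hp⟩
  obtain ⟨G₀, hG₀, hN₀⟩ := hNE η (locallyExact_of_addPrim M hG)
  obtain ⟨p₀, hp₀⟩ := hNJ η hη G₀ hG₀ hN₀
  have hB1 : M.permDatum.B1 ℂ ≤ M.permDatum.Z1 ℂ := helper56.B1_le_Z1 M.permDatum M.prod_σ
  have h1 := addUnique M hG hp hG₀ hp₀
  have h2 := addNiceCocycle M hLB hLI hη hG₀ hN₀ hp₀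
  have h3 := (M.permDatum.Z1 ℂ).add_mem (hB1 h1) h2
  have e : ((p : Fin M.permDatum.r → Fin M.permDatum.d → ℂ) - p₀ + p₀) = p :=
    sub_add_cancel _ _
  exact Eq.mp (congrArg (fun x => x ∈ M.permDatum.Z1 ℂ) e) h3

/-- **[MONO-A3]** -/
theorem addKernel_of (hNE : AddNiceExists M) (hNJ : AddNiceJump M) (hLB : AddLocalBad M)
    (hLI : AddLocalInf M) : AddKernel M := by
  rintro η p hη ⟨G, hG, hp⟩ hpB
  obtain ⟨G₀, hG₀, hN₀⟩ := hNE η (locallyExact_of_addPrim M hG)
  obtain ⟨p₀, hp₀⟩ := hNJ η hη G₀ hG₀ hN₀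
  have h1 := addUnique M hG hp hG₀ hp₀
  have h2 : p₀ ∈ M.permDatum.B1 ℂ := by
    have := (M.permDatum.B1 ℂ).sub_mem hpB h1
    have e : ((p : Fin M.permDatum.r → Fin M.permDatum.d → ℂ) - (p - p₀)) = p₀ :=
      sub_sub_cancel _ _
    exact Eq.mp (congrArg (fun x => x ∈ M.permDatum.B1 ℂ) e) this
  obtain ⟨a, ha⟩ := h2
  let κ : Fin M.d → ℂ := fun k => -a k
  have hG₁ := isAddPrim_shift M κ hG₀
  have hp₁ := isAddJumpOf_shift M κ hp₀
  have hN₁ := isAddNice_shift M κ hN₀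
  have hzero : (fun i k => p₀ i k + κ k - κ (M.σ i k)) =
      (0 : Fin M.r → Fin M.d → ℂ) := by
    funext i k
    have h3 : p₀ i k = a k - a (M.σ i k) := by
      rw [← ha]
      rfl
    simp only [κ, Pi.zero_apply, h3]
    ring
  rw [hzero] at hp₁
  exact addNiceKernel_zero M hLB hLI hη hG₁ hN₁ hp₁

end

end Fermat.Agent.P5.helper27
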