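/-
P5 / S27, module MONO, additive twin (helper27): [MONO-A4a] locally exact differentials have
nice additive primitives on the sheets of a cut model.

`exists_addPrimitive_nice` is `helper17.exists_addPrimitive` (same proof, by helper17) with the
additional conclusion that the primitive is analytic outside the finite set `P`.
-/
import Mathlib
import Fermat.Agent.P5.helper27_AddAsm
import Fermat.Agent.P5.helper52_Adele
import Fermat.Agent.S24.helper75_FFCore2

set_option autoImplicit false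
set_option linter.style.haveILetI false

open AlgebraicCurve Filter Topology KaehlerDifferential

namespace Fermat.Agent.P5.helper27

open Fermat.Agent.P5.helper25 Fermat.Agent.P5.helper4

noncomputable section

/-- **MONO-2, existence** (additive primitives), with niceness. -/
theorem exists_addPrimitive_nice {U : Set ℂ} (hU : IsOpen U)
    (hprim : ∀ f : ℂ → ℂ, DifferentiableOn ℂ f U → ∃ g : ℂ → ℂ, ∀ z ∈ U, HasDerivAt g (f z) z)
    {φ : ℂ → ℂ} (hφ : MeromorphicOn φ U) (P : Set ℂ) (hP : P.Finite)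
    (hord : ∀ z ∈ U, z ∉ P → 0 ≤ meromorphicOrderAt φ z)
    (hloc : ∀ z ∈ U, z ∈ P → ∃ g : ℂ → ℂ, MeromorphicAt g z ∧
      ∀ᶠ w in 𝓝[≠] z, HasDerivAt g (φ w) w) :
    ∃ G : ℂ → ℂ, MeromorphicOn G U ∧ (∀ z ∈ U, ∀ᶠ w in 𝓝[≠] z, HasDerivAt G (φ w) w) ∧
      ∀ z ∈ U, z ∉ P → AnalyticAt ℂ G z := by
  classical
  -- local polar parts
  have hpol : ∀ p : ℂ, ∃ h : ℂ → ℂ, (∀ z, z ≠ p → AnalyticAt ℂ h z) ∧ MeromorphicAt h p ∧
      (p ∈ U → p ∈ P → ∃ b : ℂ → ℂ, AnalyticAt ℂ b p ∧
        ∀ᶠ w in 𝓝[≠] p, HasDerivAt b (φ w - deriv h w) w) := by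
    intro p
    by_cases hp : p ∈ U ∧ p ∈ P
    · obtain ⟨g, hg, hgd⟩ := hloc p hp.1 hp.2
      obtain ⟨n, hn⟩ := hg
      obtain ⟨h, b, hh, hm, hb, heq⟩ := helper17.exists_polar_part p n _ hn
      refine ⟨h, hh, hm, fun _ _ => ⟨b, hb, ?_⟩⟩
      have hne : ∀ᶠ w in 𝓝[≠] p, w ≠ p := eventually_mem_nhdsWithin
      filter_upwards [hgd, hne] with w hw1 hw2
      have hbeq : b =ᶠ[𝓝 w] fun v => g v - h v := by
        have hopen : ∀ᶠ v in 𝓝 w, v ≠ p := isOpen_ne.mem_nhds hw2
        filter_upwards [hopen] with v hv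
        have h3 := heq v hv
        have hvp : (v - p) ^ n ≠ 0 := pow_ne_zero _ (sub_ne_zero.mpr hv)
        rw [smul_eq_mul, mul_div_cancel_left₀ _ hvp] at h3
        rw [h3]; ring
      exact (hw1.sub (hh w hw2).differentiableAt.hasDerivAt).congr_of_eventuallyEq hbeq
    · exact ⟨fun _ => 0, fun _ _ => analyticAt_const, MeromorphicAt.const 0 p,
        fun h1 h2 => absurd ⟨h1, h2⟩ hp⟩
  choose h hh hm hb using hpol
  have hmer : ∀ p z : ℂ, MeromorphicAt (h p) z := by
    intro p z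
    by_cases hzp : z = p
    · rw [hzp]; exact hm p
    · exact (hh p z hzp).meromorphicAt
  have hPmem : ∀ p, p ∈ hP.toFinset.filter (· ∈ U) ↔ p ∈ P ∧ p ∈ U := fun p => by
    simp only [Finset.mem_filter, Set.Finite.mem_toFinset]
  have hψmer : MeromorphicOn
      (fun w => φ w - ∑ p ∈ hP.toFinset.filter (· ∈ U), deriv (h p) w) U :=
    fun z hz => (hφ z hz).sub (MeromorphicAt.fun_sum (fun p _ => (hmer p z).deriv))
  have hψord : ∀ z ∈ U, 0 ≤ meromorphicOrderAt
      (fun w => φ w - ∑ p ∈ hP.toFinset.filter (· ∈ U), deriv (h p) w) z := by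
    intro z hz
    have h2 : AnalyticAt ℂ
        (fun w => - ∑ p ∈ (hP.toFinset.filter (· ∈ U)).erase z, deriv (h p) w) z := by
      apply AnalyticAt.neg
      apply Finset.analyticAt_fun_sum
      intro p hp
      exact (hh p z (Finset.ne_of_mem_erase hp).symm).deriv
    by_cases hzP : z ∈ P
    · have hzS : z ∈ hP.toFinset.filter (· ∈ U) := (hPmem z).mpr ⟨hzP, hz⟩
      have heq : (fun w => φ w - ∑ p ∈ hP.toFinset.filter (· ∈ U), deriv (h p) w)
          = (fun w => φ w - deriv (h z) w)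
            + (fun w => - ∑ p ∈ (hP.toFinset.filter (· ∈ U)).erase z, deriv (h p) w) := by
        funext w
        simp only [Pi.add_apply]
        rw [← Finset.add_sum_erase _ _ hzS]; ring
      obtain ⟨b, hban, hbd⟩ := hb z hz hzP
      have h3 : (fun w => φ w - deriv (h z) w) =ᶠ[𝓝[≠] z] deriv b := by
        filter_upwards [hbd] with w hw
        exact hw.deriv.symm
      have h4 : 0 ≤ meromorphicOrderAt (fun w => φ w - deriv (h z) w) z := by
        rw [meromorphicOrderAt_congr h3]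
        exact hban.deriv.meromorphicOrderAt_nonneg
      rw [heq]
      exact le_trans (le_min h4 h2.meromorphicOrderAt_nonneg)
        (meromorphicOrderAt_add ((hφ z hz).sub (hmer z z).deriv) h2.meromorphicAt)
    · have hzS : z ∉ hP.toFinset.filter (· ∈ U) := fun hc => hzP ((hPmem z).mp hc).1
      have heq : (fun w => φ w - ∑ p ∈ hP.toFinset.filter (· ∈ U), deriv (h p) w)
          = φ + (fun w => - ∑ p ∈ (hP.toFinset.filter (· ∈ U)).erase z, deriv (h p) w) := by
        funext w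
        simp only [Pi.add_apply]
        rw [Finset.erase_eq_of_notMem hzS]; ring
      rw [heq]
      exact le_trans (le_min (hord z hz hzP) h2.meromorphicOrderAt_nonneg)
        (meromorphicOrderAt_add (hφ z hz) h2.meromorphicAt)
  obtain ⟨A, hAan, hAder⟩ := helper17.exists_analytic_primitive hU hprim hψmer hψord
  refine ⟨fun w => A w + ∑ p ∈ hP.toFinset.filter (· ∈ U), h p w, ?_, ?_, ?_⟩
  · intro z hz
    exact (hAan z hz).meromorphicAt.add (MeromorphicAt.fun_sum (fun p _ => hmer p z))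
  · intro z hz
    have h1 : ∀ᶠ w in 𝓝[≠] z,
        w ∉ (((hP.toFinset.filter (· ∈ U)).erase z : Finset ℂ) : Set ℂ) := by
      apply mem_nhdsWithin_of_mem_nhds
      exact ((hP.toFinset.filter (· ∈ U)).erase z).finite_toSet.isClosed.isOpen_compl.mem_nhds
        (by simp)
    have h2 : ∀ᶠ w in 𝓝[≠] z, w ≠ z := eventually_mem_nhdsWithin
    filter_upwards [h1, h2, hAder z hz] with w hw1 hw2 hw3
    have hwS : ∀ p ∈ hP.toFinset.filter (· ∈ U), w ≠ p := by
      intro p hp hwp
      by_cases hpz : p = z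
      · exact hw2 (hwp.trans hpz)
      · exact hw1 (by rw [hwp]; exact Finset.mem_coe.mpr (Finset.mem_erase.mpr ⟨hpz, hp⟩))
    have hsum : HasDerivAt (fun v => ∑ p ∈ hP.toFinset.filter (· ∈ U), h p v)
        (∑ p ∈ hP.toFinset.filter (· ∈ U), deriv (h p) w) w :=
      HasDerivAt.fun_sum (fun p hp => (hh p w (hwS p hp)).differentiableAt.hasDerivAt)
    exact (hw3.add hsum).congr_deriv (by ring)
  · intro z hz hzP
    refine (hAan z hz).add (Finset.analyticAt_fun_sum _ fun p hp => hh p z ?_)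
    rintro rfl
    exact hzP ((hPmem z).mp hp).1


variable {F : Type} [Field F] [Algebra ℂ F] (M : CutModel F)

/-- The poles of a sheet function on the cut plane form a finite set. -/
theorem finite_sheet_poles (f : F) (k : Fin M.d) :
    {z : ℂ | z ∈ M.toCutGeometry.U₀ ∧ meromorphicOrderAt (M.ev k f) z < 0}.Finite := by
  haveI := M.x_finite
  have hP := Fermat.Agent.S24.helper75.ff_hasPrincipalDivisors (K := ℂ) M.x M.x_transcendental
  have hfin := helper52.finite_poles_const hP f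
  have h : Set.InjOn (fun z => M.pl k z)
      {z : ℂ | z ∈ M.toCutGeometry.U₀ ∧ meromorphicOrderAt (M.ev k f) z < 0} := by
    intro z hz z' hz' hzz'
    exact (M.pl_injective k k z z' hz.1 hz'.1 hzz').2
  refine Set.Finite.of_finite_image (hfin.subset ?_) h
  rintro _ ⟨z, ⟨hzU, hz⟩, rfl⟩
  show (M.pl k z).ord f < 0
  rcases eq_or_ne f 0 with rfl | hf
  · exfalso
    have h0 : M.ev k 0 =ᶠ[𝓝[≠] z] fun _ => (0 : ℂ) := by
      filter_upwards [eventually_ne_mem_U₀ M.toCutGeometry hzU] with w hw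
      exact ev_zero M k hw
    rw [meromorphicOrderAt_congr h0] at hz
    have h1 : meromorphicOrderAt (fun _ : ℂ => (0 : ℂ)) z = ⊤ :=
      meromorphicOrderAt_eq_top_iff.2 (Eventually.of_forall fun _ => rfl)
    rw [h1] at hz
    exact not_top_lt hz
  · have h1 := M.pl_ord k z hzU f hf
    rw [← h1] at hz
    exact_mod_cast hz

/-- **[MONO-A4a]** -/
theorem addNiceExists : AddNiceExists M := by
  intro η hloc
  have hex : ∀ k, ∃ G : ℂ → ℂ, MeromorphicOn G M.toCutGeometry.U₀ ∧
      (∀ z ∈ M.toCutGeometry.U₀, ∀ᶠ w in 𝓝[≠] z, HasDerivAt G (M.ev k (M.coeff η) w) w) ∧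
      ∀ z ∈ M.toCutGeometry.U₀,
        z ∉ {z : ℂ | z ∈ M.toCutGeometry.U₀ ∧
          meromorphicOrderAt (M.ev k (M.coeff η)) z < 0} → AnalyticAt ℂ G z := fun k =>
    exists_addPrimitive_nice (CutGeom.isOpen_U₀ _)
      (fun f hf => exists_primitive_of_starConvex (CutGeom.isOpen_U₀ _)
        (helper38.starConvex_U₀ _) hf)
      (M.ev_meromorphicOn k (M.coeff η)) _ (finite_sheet_poles M (M.coeff η) k)
      (fun z hz hzP => not_lt.1 fun h => hzP ⟨hz, h⟩)
      (fun z hz _ => hloc k z hz)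
  choose G hG1 hG2 hG3 using hex
  refine ⟨G, fun k => ⟨hG1 k, hG2 k⟩,
    ⋃ k, {z : ℂ | z ∈ M.toCutGeometry.U₀ ∧ meromorphicOrderAt (M.ev k (M.coeff η)) z < 0},
    Set.finite_iUnion fun k => finite_sheet_poles M (M.coeff η) k, fun k z hz hzS => ?_⟩
  exact hG3 k z hz fun h => hzS (Set.mem_iUnion.2 ⟨k, h⟩)

end

end Fermat.Agent.P5.helper27
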