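import Mathlib
import Fermat.Agent.P5.helper27_AddDefs
import Fermat.Agent.P5.helper27_MonoUnique
import Fermat.Agent.P5.helper27_StarPrim
import Fermat.Agent.P5.helper10_DictA
import Fermat.Agent.P5.helper38_CutStar
import Fermat.Agent.P5.helper17_MulPrim
import Fermat.Agent.P5.helper4_Analysis

/-!
# P5 / MONO-A4b (helper9, task 704): nice additive primitives have constant jumps

`addNiceJump : helper27.AddNiceJump M` : for a differential `η` which is regular outside the
interior places, a system `G` of additive primitives which is analytic on the cut plane outside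
a finite set has a (constant) jump cochain `p`.

* `exists_const_add_of_generic` : on a preconnected open set, a continuous function with generic
  derivative `Φ` is a primitive of `Φ` plus a constant;
* `AddJumpAt M G i k a γ` : the jump relation at the point `a` of the `i`-th open ray, with
  constant `γ`; `exists_addJumpAt` (local step via `helper10.dictRay` and the two half-discs),
  `AddJumpAt.eventually` (openness), `AddJumpAt.unique` (uniqueness of the constant);
* `addJumpAt_const` : constancy along the (connected) open ray.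
-/

set_option autoImplicit false
set_option linter.style.haveILetI false

open AlgebraicCurve Filter Topology KaehlerDifferential

namespace Fermat.Agent.P5.helper9

open Fermat.Agent.P5.helper25 Fermat.Agent.P5.helper4 Fermat.Agent.P5.helper27

noncomputable section

/-! ### Generic analysis -/

/-- Pointwise constancy (additive form): on a preconnected open set, a continuous function `f`
with generic derivative `Φ` differs from a primitive `P` of `Φ` by a constant. -/
theorem exists_const_add_of_generic {U : Set ℂ} (hU : IsOpen U) (hconn : IsPreconnected U)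
    {f P Φ : ℂ → ℂ} (hf : ∀ s ∈ U, ContinuousAt f s)
    (hP : ∀ s ∈ U, HasDerivAt P (Φ s) s)
    (hder : ∀ s₀ ∈ U, ∀ᶠ s in 𝓝[≠] s₀, HasDerivAt f (Φ s) s) :
    ∃ β : ℂ, ∀ s ∈ U, f s = P s + β := by
  have hq : ∀ z ∈ U, ∀ᶠ w in 𝓝[≠] z, HasDerivAt (fun v => f v - P v) 0 w := by
    intro z hz
    filter_upwards [hder z hz, nhdsWithin_le_nhds (hU.mem_nhds hz)] with w h1 h2
    exact (h1.sub (hP w h2)).congr_deriv (sub_self _)
  obtain ⟨c, hc⟩ := helper17.eventually_const_of_hasDerivAt_zero hU hconn hq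
  refine ⟨c, fun z hz => ?_⟩
  have hcont : ContinuousAt (fun v => f v - P v) z := (hf z hz).sub (hP z hz).continuousAt
  have h1 : Tendsto (fun v => f v - P v) (𝓝[≠] z) (𝓝 (f z - P z)) :=
    hcont.tendsto.mono_left nhdsWithin_le_nhds
  have h2 : Tendsto (fun v => f v - P v) (𝓝[≠] z) (𝓝 c) :=
    (tendsto_const_nhds).congr' (by filter_upwards [hc z hz] with w hw; exact hw.symm)
  have h3 : f z - P z = c := tendsto_nhds_unique h1 h2
  rw [← h3]
  ring

/-- the coordinate `(z - b) / (b - z₀)` of a convex combination -/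
theorem rayQuot_combo (z₀ b z₁ z₂ : ℂ) {s t : ℝ} (hst : s + t = 1) :
    (s • z₁ + t • z₂ - b) / (b - z₀) =
      (s : ℂ) * ((z₁ - b) / (b - z₀)) + (t : ℂ) * ((z₂ - b) / (b - z₀)) := by
  have hs : (s : ℂ) = 1 - (t : ℂ) := by
    have : (s : ℂ) + (t : ℂ) = 1 := by exact_mod_cast hst
    linear_combination this
  rw [Complex.real_smul, Complex.real_smul, hs]
  ring

theorem combo_pos' {s t A B : ℝ} (hs : 0 ≤ s) (ht : 0 ≤ t) (hst : s + t = 1) (hA : 0 < A)
    (hB : 0 < B) : 0 < s * A + t * B := by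
  rcases hs.eq_or_lt with h | h
  · have ht1 : t = 1 := by linarith
    rw [← h, ht1]
    simpa using hB
  · have h1 : 0 < s * A := mul_pos h hA
    have h2 : 0 ≤ t * B := mul_nonneg ht hB.le
    linarith

theorem convex_leftSide' (z₀ b : ℂ) : Convex ℝ (leftSide z₀ b) := by
  intro z₁ hz₁ z₂ hz₂ s t hs ht hst
  have h1 : 0 < ((z₁ - b) / (b - z₀)).im := hz₁
  have h2 : 0 < ((z₂ - b) / (b - z₀)).im := hz₂
  show 0 < ((s • z₁ + t • z₂ - b) / (b - z₀)).im
  rw [rayQuot_combo z₀ b z₁ z₂ hst]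
  simp only [Complex.add_im, Complex.mul_im, Complex.ofReal_re, Complex.ofReal_im, zero_mul,
    add_zero]
  exact combo_pos' hs ht hst h1 h2

theorem convex_rightSide' (z₀ b : ℂ) : Convex ℝ (rightSide z₀ b) := by
  intro z₁ hz₁ z₂ hz₂ s t hs ht hst
  have h1 : ((z₁ - b) / (b - z₀)).im < 0 := hz₁
  have h2 : ((z₂ - b) / (b - z₀)).im < 0 := hz₂
  show ((s • z₁ + t • z₂ - b) / (b - z₀)).im < 0
  rw [rayQuot_combo z₀ b z₁ z₂ hst]
  simp only [Complex.add_im, Complex.mul_im, Complex.ofReal_re, Complex.ofReal_im, zero_mul,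
    add_zero]
  have := combo_pos' hs ht hst (neg_pos.2 h1) (neg_pos.2 h2)
  linarith

/-- a finite set is eventually avoided on a punctured neighbourhood -/
theorem eventually_not_mem_finite {S : Set ℂ} (hS : S.Finite) (a : ℂ) :
    ∀ᶠ z in 𝓝 a, z ≠ a → z ∉ S := by
  have hfin' : (S \ {a}).Finite := hS.subset Set.sdiff_subset
  have hmem : (S \ {a})ᶜ ∈ 𝓝 a :=
    hfin'.isClosed.isOpen_compl.mem_nhds (fun h => h.2 rfl)
  filter_upwards [hmem] with z hz hza hzS
  exact hz ⟨hzS, hza⟩

/-! ### The jump relation at a point of an open ray -/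

variable {F : Type} [Field F] [Algebra ℂ F]

/-- The (additive) jump relation at the point `a`: a meromorphic germ at `a` which is `G k` on
the left of the `i`-th cut and `γ + G (σ i k)` on the right. -/
def AddJumpAt (M : CutModel F) (G : Fin M.d → ℂ → ℂ) (i : Fin M.r) (k : Fin M.d) (a γ : ℂ) :
    Prop :=
  ∃ g : ℂ → ℂ, MeromorphicAt g a ∧
    (∀ᶠ z in 𝓝[≠] a, z ∈ leftSide M.z₀ (M.b i) → g z = G k z) ∧
    (∀ᶠ z in 𝓝[≠] a, z ∈ rightSide M.z₀ (M.b i) → g z = γ + G (M.σ i k) z)

/-- Differentials which are regular outside the interior places are regular at the ray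
places. -/
theorem hasLogPole_plRay_of_regularOutside (M : CutModel F) {η : Ω[F⁄ℂ]}
    (hreg : RegularOutside M η) (i : Fin M.r) (k : Fin M.d) {a : ℂ}
    (ha : a ∈ openRay M.z₀ (M.b i)) : HasLogPole (M.plRay i k a) η 0 := by
  have hnot : M.plRay i k a ∉ M.interior := by
    rintro ⟨k', z, hz, hP⟩
    exact M.pl_ne_plRay k' z i k a hz ha hP.symm
  have h0 : 0 ≤ (M.plRay i k a).ordDifferential η := hreg _ hnot
  have hv : (M.plRay i k a).ord (xsub M a) = 1 := by
    rw [ord_plRay M i k ha a, if_pos rfl]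
  exact ⟨xsub M a, hv, by rwa [zero_smul, sub_zero]⟩

/-- **Local step**: at every point of an open ray the jump relation holds with some constant
(and an ANALYTIC germ). -/
theorem exists_addJumpAt (M : CutModel F) {η : Ω[F⁄ℂ]} (hreg : RegularOutside M η)
    {G : Fin M.d → ℂ → ℂ} (hG : M.IsAddPrim η G) (hnice : IsAddNice M G) (i : Fin M.r)
    (k : Fin M.d) {a : ℂ} (ha : a ∈ openRay M.z₀ (M.b i)) :
    ∃ (γ : ℂ) (g : ℂ → ℂ), AnalyticAt ℂ g a ∧
      (∀ᶠ z in 𝓝[≠] a, z ∈ leftSide M.z₀ (M.b i) → g z = G k z) ∧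
      (∀ᶠ z in 𝓝[≠] a, z ∈ rightSide M.z₀ (M.b i) → g z = γ + G (M.σ i k) z) := by
  obtain ⟨S, hSfin, hS⟩ := hnice
  obtain ⟨gφ, hgφ, hL, hR⟩ :=
    helper10.dictRay M η i k a ha (hasLogPole_plRay_of_regularOutside M hreg i k ha)
  rw [eventually_nhdsWithin_iff] at hL hR
  have hall : ∀ᶠ z in 𝓝 a, AnalyticAt ℂ gφ z ∧
      (z ∈ leftSide M.z₀ (M.b i) → z ∈ M.toCutGeometry.U₀) ∧
      (z ∈ rightSide M.z₀ (M.b i) → z ∈ M.toCutGeometry.U₀) ∧
      (z ≠ a → z ∉ S) ∧
      (z ≠ a → z ∈ leftSide M.z₀ (M.b i) → gφ z = M.ev k (M.coeff η) z) ∧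
      (z ≠ a → z ∈ rightSide M.z₀ (M.b i) → gφ z = M.ev (M.σ i k) (M.coeff η) z) := by
    filter_upwards [hgφ.eventually_analyticAt,
      helper38.eventually_leftSide_mem_U₀ M.toCutGeometry i ha,
      helper38.eventually_rightSide_mem_U₀ M.toCutGeometry i ha,
      eventually_not_mem_finite hSfin a, hL, hR] with z h1 h2 h3 h4 h5 h6
    exact ⟨h1, h2, h3, h4, h5, h6⟩
  obtain ⟨ε, hε, hball⟩ := Metric.eventually_nhds_iff_ball.1 hall
  -- the primitive of the crossing germ on the ball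
  have hdiff : DifferentiableOn ℂ gφ (Metric.ball a ε) := fun s hs =>
    (hball s hs).1.differentiableAt.differentiableWithinAt
  obtain ⟨P, hP⟩ := helper27.exists_primitive_of_starConvex Metric.isOpen_ball
    ((convex_ball a ε).starConvex (Metric.mem_ball_self hε)) hdiff
  have hPd : DifferentiableOn ℂ P (Metric.ball a ε) := fun z hz =>
    (hP z hz).differentiableAt.differentiableWithinAt
  have hPa : AnalyticAt ℂ P a := hPd.analyticAt (Metric.isOpen_ball.mem_nhds
    (Metric.mem_ball_self hε))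
  have haL : a ∉ leftSide M.z₀ (M.b i) := fun h =>
    not_mem_ray_of_mem_leftSide (M.b_ne i) h (openRay_subset_ray _ _ ha)
  have haR : a ∉ rightSide M.z₀ (M.b i) := fun h =>
    helper27.not_mem_ray_of_mem_rightSide (M.b_ne i) h (openRay_subset_ray _ _ ha)
  -- the left half-disc
  have hUL : IsOpen (Metric.ball a ε ∩ leftSide M.z₀ (M.b i)) :=
    Metric.isOpen_ball.inter (isOpen_leftSide _ _)
  have hULc : IsPreconnected (Metric.ball a ε ∩ leftSide M.z₀ (M.b i)) :=
    ((convex_ball a ε).inter (convex_leftSide' _ _)).isPreconnected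
  obtain ⟨βL, hβL⟩ : ∃ β : ℂ, ∀ s ∈ Metric.ball a ε ∩ leftSide M.z₀ (M.b i),
      G k s = P s + β := by
    refine exists_const_add_of_generic hUL hULc (Φ := gφ) ?_ ?_ ?_
    · rintro s ⟨hs, hsL⟩
      have hsa : s ≠ a := fun h => haL (h ▸ hsL)
      obtain ⟨-, h2, -, h4, -, -⟩ := hball s hs
      exact (hS k s (h2 hsL) (h4 hsa)).continuousAt
    · rintro s ⟨hs, -⟩
      exact hP s hs
    · rintro s₀ ⟨hs₀, hs₀L⟩
      obtain ⟨-, h2, -, -, -, -⟩ := hball s₀ hs₀
      filter_upwards [(hG k).2 s₀ (h2 hs₀L), nhdsWithin_le_nhds (hUL.mem_nhds ⟨hs₀, hs₀L⟩)]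
        with w hw1 hw2
      have hwa : w ≠ a := fun h => haL (h ▸ hw2.2)
      rw [(hball w hw2.1).2.2.2.2.1 hwa hw2.2]
      exact hw1
  -- the right half-disc
  have hUR : IsOpen (Metric.ball a ε ∩ rightSide M.z₀ (M.b i)) :=
    Metric.isOpen_ball.inter (helper27.isOpen_rightSide _ _)
  have hURc : IsPreconnected (Metric.ball a ε ∩ rightSide M.z₀ (M.b i)) :=
    ((convex_ball a ε).inter (convex_rightSide' _ _)).isPreconnected
  obtain ⟨βR, hβR⟩ : ∃ β : ℂ, ∀ s ∈ Metric.ball a ε ∩ rightSide M.z₀ (M.b i),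
      G (M.σ i k) s = P s + β := by
    refine exists_const_add_of_generic hUR hURc (Φ := gφ) ?_ ?_ ?_
    · rintro s ⟨hs, hsR⟩
      have hsa : s ≠ a := fun h => haR (h ▸ hsR)
      obtain ⟨-, -, h3, h4, -, -⟩ := hball s hs
      exact (hS (M.σ i k) s (h3 hsR) (h4 hsa)).continuousAt
    · rintro s ⟨hs, -⟩
      exact hP s hs
    · rintro s₀ ⟨hs₀, hs₀R⟩
      obtain ⟨-, -, h3, -, -, -⟩ := hball s₀ hs₀
      filter_upwards [(hG (M.σ i k)).2 s₀ (h3 hs₀R),
        nhdsWithin_le_nhds (hUR.mem_nhds ⟨hs₀, hs₀R⟩)] with w hw1 hw2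
      have hwa : w ≠ a := fun h => haR (h ▸ hw2.2)
      rw [(hball w hw2.1).2.2.2.2.2 hwa hw2.2]
      exact hw1
  -- the germ
  refine ⟨βL - βR, fun z => P z + βL, hPa.add analyticAt_const, ?_, ?_⟩
  · filter_upwards [nhdsWithin_le_nhds (Metric.ball_mem_nhds a hε)] with z hz hzL
    exact (hβL z ⟨hz, hzL⟩).symm
  · filter_upwards [nhdsWithin_le_nhds (Metric.ball_mem_nhds a hε)] with z hz hzR
    rw [hβR z ⟨hz, hzR⟩]
    ring

theorem AddJumpAt.exists (M : CutModel F) {η : Ω[F⁄ℂ]} (hreg : RegularOutside M η)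
    {G : Fin M.d → ℂ → ℂ} (hG : M.IsAddPrim η G) (hnice : IsAddNice M G) (i : Fin M.r)
    (k : Fin M.d) {a : ℂ} (ha : a ∈ openRay M.z₀ (M.b i)) : ∃ γ : ℂ, AddJumpAt M G i k a γ := by
  obtain ⟨γ, g, hg, hL, hR⟩ := exists_addJumpAt M hreg hG hnice i k ha
  exact ⟨γ, g, hg.meromorphicAt, hL, hR⟩

/-- **Openness**: the jump relation with constant `γ` at `a` holds at all points near `a`. -/
theorem AddJumpAt.eventually {M : CutModel F} {G : Fin M.d → ℂ → ℂ} {i : Fin M.r}
    {k : Fin M.d} {a γ : ℂ} (h : AddJumpAt M G i k a γ) :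
    ∀ᶠ a' in 𝓝 a, AddJumpAt M G i k a' γ := by
  obtain ⟨g, hg, hL, hR⟩ := h
  have h1 : ∀ᶠ z in 𝓝[≠] a, AddJumpAt M G i k z γ := by
    filter_upwards [hg.eventually_analyticAt, eventually_eventually_punctured hL,
      eventually_eventually_punctured hR] with z hz1 hz2 hz3
    exact ⟨g, hz1.meromorphicAt, nhdsWithin_le_nhds hz2, nhdsWithin_le_nhds hz3⟩
  rw [eventually_nhdsWithin_iff] at h1
  filter_upwards [h1] with z hz
  by_cases hza : z = a
  · rw [hza]
    exact ⟨g, hg, hL, hR⟩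
  · exact hz hza

/-- **Uniqueness** of the constant of the jump relation at a point of the open ray. -/
theorem AddJumpAt.unique {M : CutModel F} {G : Fin M.d → ℂ → ℂ} {i : Fin M.r}
    {k : Fin M.d} {a γ γ' : ℂ} (ha : a ∈ openRay M.z₀ (M.b i)) (h : AddJumpAt M G i k a γ)
    (h' : AddJumpAt M G i k a γ') : γ = γ' := by
  obtain ⟨g, hg, hL, hR⟩ := h
  obtain ⟨g', hg', hL', hR'⟩ := h'
  have key : g' =ᶠ[𝓝[≠] a] fun z => 1 * g z :=
    helper27.eventuallyEq_of_left M.toCutGeometry i ha hg hg' hL hL'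
      (fun z _ => Eventually.of_forall fun w => (one_mul _).symm)
  have hfr := helper38.frequently_rightSide M.toCutGeometry i ha
  obtain ⟨z, hzR, h1, h2, h3⟩ := (hfr.and_eventually (key.and (hR.and hR'))).exists
  have e1 : g' z = g z := h1.trans (one_mul _)
  have e2 := h2 hzR
  have e3 := h3 hzR
  rw [e1, e2] at e3
  exact add_right_cancel e3

/-- **Constancy**: the constant of the jump relation is the same at all points of the open
ray. -/
theorem addJumpAt_const (M : CutModel F) {η : Ω[F⁄ℂ]} (hreg : RegularOutside M η)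
    {G : Fin M.d → ℂ → ℂ} (hG : M.IsAddPrim η G) (hnice : IsAddNice M G) (i : Fin M.r)
    (k : Fin M.d) :
    ∃ γ : ℂ, ∀ a ∈ openRay M.z₀ (M.b i), AddJumpAt M G i k a γ := by
  have hex : ∀ a : openRay M.z₀ (M.b i), ∃ γ : ℂ, AddJumpAt M G i k a γ := fun a =>
    AddJumpAt.exists M hreg hG hnice i k a.2
  choose γ hγ using hex
  have hpc : PreconnectedSpace (openRay M.z₀ (M.b i)) :=
    isPreconnected_iff_preconnectedSpace.1 (helper38.isPreconnected_openRay _ _)
  have hloc : IsLocallyConstant γ := by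
    rw [IsLocallyConstant.iff_eventually_eq]
    intro a
    have h1 : ∀ᶠ a' in 𝓝 (a : ℂ), AddJumpAt M G i k a' (γ a) := (hγ a).eventually
    have h2 : ∀ᶠ a' : openRay M.z₀ (M.b i) in 𝓝 a, AddJumpAt M G i k a' (γ a) :=
      continuous_subtype_val.continuousAt.eventually h1
    filter_upwards [h2] with a' ha'
    exact AddJumpAt.unique a'.2 (hγ a') ha'
  have ha₀ : M.b i + ((1 : ℝ) : ℂ) * (M.b i - M.z₀) ∈ openRay M.z₀ (M.b i) :=
    ⟨1, one_pos, rfl⟩
  refine ⟨γ ⟨_, ha₀⟩, fun a ha => ?_⟩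
  have e : γ ⟨a, ha⟩ = γ ⟨_, ha₀⟩ := hloc.apply_eq_of_preconnectedSpace _ _
  rw [← e]
  exact hγ ⟨a, ha⟩

/-! ### The deliverable -/

/-- **[MONO-A4b]** nice additive primitives of a differential which is regular outside the
interior places have constant jumps across the cuts. -/
theorem addNiceJump (M : helper25.CutModel F) : helper27.AddNiceJump M := by
  intro η hreg G hG hnice
  have h := fun i k => addJumpAt_const M hreg hG hnice i k
  choose p hp using h
  exact ⟨p, fun i k a ha => hp i k a ha⟩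

end

end Fermat.Agent.P5.helper9
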