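/-
P5 / S27, module MONO, additive twin (helper27): `helper25.AddPeriodExists M` for every cut
model, unconditional [MONO-A1]; `AddCocycle M` and `AddKernel M` from the two local packages.
-/
import Mathlib
import Fermat.Agent.P5.helper27_AddNiceExists
import Fermat.Agent.P5.helper9_AddNiceJump

set_option autoImplicit false
set_option linter.style.haveILetI false

open AlgebraicCurve Filter Topology KaehlerDifferential

namespace Fermat.Agent.P5.helper27

open Fermat.Agent.P5.helper25

noncomputable section

variable {F : Type} [Field F] [Algebra ℂ F]

/-- **[MONO-A1]** a differential which is regular outside the interior places and locally exact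
at the interior places has a period cochain. -/
theorem addPeriodExists (M : CutModel F) : AddPeriodExists M :=
  addPeriodExists_of M (addNiceExists M) (helper9.addNiceJump M)

/-- **[MONO-A2]** from the local packages. -/
theorem addCocycle_of_local (M : CutModel F) (hLB : AddLocalBad M) (hLI : AddLocalInf M) :
    AddCocycle M :=
  addCocycle_of M (addNiceExists M) (helper9.addNiceJump M) hLB hLI

/-- **[MONO-A3]** from the local packages. -/
theorem addKernel_of_local (M : CutModel F) (hLB : AddLocalBad M) (hLI : AddLocalInf M) :
    AddKernel M :=
  addKernel_of M (addNiceExists M) (helper9.addNiceJump M) hLB hLI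

end

end Fermat.Agent.P5.helper27
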