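/-
P5 / S27, module MONO (helper56): primitives in the Puiseux disc at a bad point.

Generic analysis for the packages LocalBad / AddLocalBad: a function `Gk` on the cut plane with
generic derivative `ψ`, pulled back by the Puiseux map `s ↦ b + s ^ e * u` to a sector of the
`s`-disc, differs by a constant from a primitive `A` of the pulled back coefficient; and the
jump relation between the constants of two adjacent sectors.
-/
import Mathlib
import Fermat.Agent.P5.helper41_Sectors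
import Fermat.Agent.P5.helper4_Orders

set_option autoImplicit false
set_option linter.unusedSectionVars false
set_option linter.unusedVariables false

open Filter Topology

namespace Fermat.Agent.P5.helper56

open Fermat.Agent.P5.helper25 Fermat.Agent.P5.helper4 Fermat.Agent.P5.helper41

/-! ### Constancy from a generically vanishing derivative -/

/-- An analytic function on a preconnected open set whose derivative vanishes generically is
constant. -/
theorem exists_const_of_generic_deriv_zero {U : Set ℂ} (hU : IsOpen U) (hUc : IsPreconnected U)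
    {f : ℂ → ℂ} (hf : AnalyticOnNhd ℂ f U)
    (hd : ∀ s₁ ∈ U, ∀ᶠ s in 𝓝[≠] s₁, deriv f s = 0) :
    ∃ c, ∀ s ∈ U, f s = c := by
  refine hU.exists_is_const_of_deriv_eq_zero hUc hf.differentiableOn fun s₁ hs₁ => ?_
  have hcont : ContinuousAt (deriv f) s₁ := (hf s₁ hs₁).deriv.continuousAt
  have h1 : Tendsto (deriv f) (𝓝[≠] s₁) (𝓝 (deriv f s₁)) :=
    hcont.tendsto.mono_left nhdsWithin_le_nhds
  have h2 : Tendsto (deriv f) (𝓝[≠] s₁) (𝓝 0) := by
    refine tendsto_const_nhds.congr' ?_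
    filter_upwards [hd s₁ hs₁] with s hs
    exact hs.symm
  exact tendsto_nhds_unique h1 h2

/-! ### The Puiseux map -/

/-- The Puiseux map `s ↦ b + s ^ e * u`. -/
noncomputable def puiseuxMap (b u : ℂ) (e : ℕ) (s : ℂ) : ℂ := b + s ^ e * u

theorem puiseuxMap_apply (b u : ℂ) (e : ℕ) (s : ℂ) : puiseuxMap b u e s = b + s ^ e * u := rfl

theorem analyticAt_puiseuxMap (b u : ℂ) (e : ℕ) (s : ℂ) : AnalyticAt ℂ (puiseuxMap b u e) s := by
  unfold puiseuxMap
  fun_prop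

theorem continuous_puiseuxMap (b u : ℂ) (e : ℕ) : Continuous (puiseuxMap b u e) := by
  unfold puiseuxMap
  fun_prop

theorem hasDerivAt_puiseuxMap (b u : ℂ) (e : ℕ) (s : ℂ) :
    HasDerivAt (puiseuxMap b u e) ((e : ℂ) * s ^ (e - 1) * u) s := by
  have h1 : HasDerivAt (fun s : ℂ => s ^ e) ((e : ℂ) * s ^ (e - 1)) s := hasDerivAt_pow e s
  have h2 := (h1.mul_const u).const_add b
  exact h2

theorem puiseuxMap_zero (b u : ℂ) {e : ℕ} (he : 0 < e) : puiseuxMap b u e 0 = b := by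
  simp [puiseuxMap, he.ne']

theorem puiseuxMap_ne_of_pow_ne {b u : ℂ} (hu : u ≠ 0) {e : ℕ} {s s₁ : ℂ}
    (h : s ^ e ≠ s₁ ^ e) : puiseuxMap b u e s ≠ puiseuxMap b u e s₁ := by
  intro heq
  apply h
  have h1 : s ^ e * u = s₁ ^ e * u := add_left_cancel heq
  exact mul_right_cancel₀ hu h1

/-- The Puiseux map is locally injective. -/
theorem tendsto_puiseuxMap_nhdsNE {b u : ℂ} (hu : u ≠ 0) {e : ℕ} (he : 0 < e) (s₁ : ℂ) :
    Tendsto (puiseuxMap b u e) (𝓝[≠] s₁) (𝓝[≠] (puiseuxMap b u e s₁)) := by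
  rw [tendsto_nhdsWithin_iff]
  refine ⟨(continuous_puiseuxMap b u e).continuousAt.tendsto.mono_left nhdsWithin_le_nhds, ?_⟩
  filter_upwards [eventually_pow_ne he s₁] with s hs
  exact puiseuxMap_ne_of_pow_ne hu hs

/-! ### Primitives on a sector of the Puiseux disc -/

/-- On a small sector of the Puiseux disc, the pull-back of a function `Gk` with generic
derivative `ψ` on `W` differs by a constant from a primitive `A` of the pulled back
coefficient `Φ`. -/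
theorem sector_primitive_const {e : ℕ} (he : 0 < e) {b u : ℂ} (hu : u ≠ 0) {φ₁ φ₂ : ℝ}
    {W S : Set ℂ} (hS : S.Finite) {Gk ψ Φ A : ℂ → ℂ} {ε₀ : ℝ} (hε₀ : 0 < ε₀)
    (hG1 : ∀ z ∈ W, ∀ᶠ w in 𝓝[≠] z, HasDerivAt Gk (ψ w) w)
    (hG2 : ∀ z ∈ W, z ∉ S → AnalyticAt ℂ Gk z) (hb : b ∉ W)
    (hΦ : ∀ᶠ s in 𝓝[≠] (0 : ℂ), s ∈ sector φ₁ φ₂ →
      Φ s = (e : ℂ) * s ^ (e - 1) * u * ψ (b + s ^ e * u))
    (hA : ∀ s ∈ Metric.ball (0 : ℂ) ε₀, HasDerivAt A (Φ s) s)
    (hW : ∀ᶠ s in 𝓝[≠] (0 : ℂ), s ∈ sector φ₁ φ₂ → b + s ^ e * u ∈ W) :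
    ∃ (β : ℂ) (ε : ℝ), 0 < ε ∧ ∀ s ∈ sector φ₁ φ₂, ‖s‖ < ε → Gk (b + s ^ e * u) = A s + β := by
  -- the exceptional set is avoided near `0`
  have hS' : ∀ᶠ s in 𝓝 (0 : ℂ), ∀ a ∈ S, a ≠ b → puiseuxMap b u e s ≠ a := by
    rw [eventually_all_finite hS]
    intro a _
    by_cases hab : a = b
    · exact Eventually.of_forall fun s h => absurd hab h
    · have hc : ContinuousAt (puiseuxMap b u e) 0 := (continuous_puiseuxMap b u e).continuousAt
      have hne : puiseuxMap b u e 0 ≠ a := by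
        rw [puiseuxMap_zero b u he]
        exact fun h => hab h.symm
      filter_upwards [hc.eventually_ne hne] with s hs _
      exact hs
  have hball : ∀ᶠ s in 𝓝 (0 : ℂ), s ∈ Metric.ball (0 : ℂ) ε₀ := Metric.ball_mem_nhds 0 hε₀
  have hall : ∀ᶠ s in 𝓝 (0 : ℂ), s ≠ 0 →
      (s ∈ sector φ₁ φ₂ → Φ s = (e : ℂ) * s ^ (e - 1) * u * ψ (b + s ^ e * u)) ∧
      (s ∈ sector φ₁ φ₂ → b + s ^ e * u ∈ W) ∧
      (∀ a ∈ S, a ≠ b → puiseuxMap b u e s ≠ a) ∧ s ∈ Metric.ball (0 : ℂ) ε₀ := by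
    filter_upwards [eventually_nhdsWithin_iff.1 hΦ, eventually_nhdsWithin_iff.1 hW, hS', hball]
      with s h1 h2 h3 h4 hs
    exact ⟨h1 hs, h2 hs, h3, h4⟩
  obtain ⟨ε, hε, hεball⟩ := Metric.mem_nhds_iff.1 hall
  have hkey : ∀ s ∈ sector φ₁ φ₂ ∩ Metric.ball (0 : ℂ) ε,
      Φ s = (e : ℂ) * s ^ (e - 1) * u * ψ (b + s ^ e * u) ∧ puiseuxMap b u e s ∈ W ∧
      puiseuxMap b u e s ∉ S ∧ s ∈ Metric.ball (0 : ℂ) ε₀ := by
    rintro s ⟨hsec, hsb⟩
    have hs0 : s ≠ 0 := fun h => zero_not_mem_sector φ₁ φ₂ (h ▸ hsec)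
    obtain ⟨h1, h2, h3, h4⟩ := hεball hsb hs0
    refine ⟨h1 hsec, h2 hsec, fun hmem => ?_, h4⟩
    exact h3 _ hmem (fun hab => hb (hab ▸ h2 hsec)) rfl
  have hUo : IsOpen (sector φ₁ φ₂ ∩ Metric.ball (0 : ℂ) ε) :=
    (isOpen_sector φ₁ φ₂).inter Metric.isOpen_ball
  have hUc : IsPreconnected (sector φ₁ φ₂ ∩ Metric.ball (0 : ℂ) ε) :=
    isPreconnected_sector_inter_ball φ₁ φ₂ ε
  have hAan : AnalyticOnNhd ℂ A (Metric.ball (0 : ℂ) ε₀) :=
    DifferentiableOn.analyticOnNhd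
      (fun s hs => (hA s hs).differentiableAt.differentiableWithinAt) Metric.isOpen_ball
  have hfan : AnalyticOnNhd ℂ (fun s => Gk (puiseuxMap b u e s) - A s)
      (sector φ₁ φ₂ ∩ Metric.ball (0 : ℂ) ε) := by
    intro s hs
    obtain ⟨-, h2, h3, h4⟩ := hkey s hs
    have hG : AnalyticAt ℂ (fun s => Gk (puiseuxMap b u e s)) s :=
      (hG2 _ h2 h3).comp (analyticAt_puiseuxMap b u e s)
    exact hG.sub (hAan s h4)
  have hd : ∀ s₁ ∈ sector φ₁ φ₂ ∩ Metric.ball (0 : ℂ) ε,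
      ∀ᶠ s in 𝓝[≠] s₁, deriv (fun s => Gk (puiseuxMap b u e s) - A s) s = 0 := by
    intro s₁ hs₁
    obtain ⟨-, h2, -, -⟩ := hkey s₁ hs₁
    have hgen := (tendsto_puiseuxMap_nhdsNE (b := b) hu he s₁).eventually (hG1 _ h2)
    filter_upwards [hgen, nhdsWithin_le_nhds (hUo.mem_nhds hs₁)] with s hs hsU
    obtain ⟨k1, -, -, k4⟩ := hkey s hsU
    have hc : HasDerivAt (fun s => Gk (puiseuxMap b u e s))
        (ψ (puiseuxMap b u e s) * ((e : ℂ) * s ^ (e - 1) * u)) s :=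
      HasDerivAt.comp s hs (hasDerivAt_puiseuxMap b u e s)
    have hsub := hc.sub (hA s k4)
    have hzero : ψ (puiseuxMap b u e s) * ((e : ℂ) * s ^ (e - 1) * u) - Φ s = 0 := by
      rw [k1, puiseuxMap_apply]
      ring
    rw [hzero] at hsub
    exact hsub.deriv
  obtain ⟨c, hc⟩ := exists_const_of_generic_deriv_zero hUo hUc hfan hd
  refine ⟨c, ε, hε, fun s hsec hsε => ?_⟩
  have hs : s ∈ sector φ₁ φ₂ ∩ Metric.ball (0 : ℂ) ε :=
    ⟨hsec, by rw [Metric.mem_ball, dist_zero_right]; exact hsε⟩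
  have := hc s hs
  simp only [puiseuxMap_apply] at this
  rw [← this]
  ring

/-! ### The identity principle on a set accumulating at a point -/

/-- Two meromorphic germs which agree on a set accumulating at the point agree. -/
theorem eventuallyEq_of_frequently_mem {F H : ℂ → ℂ} {c : ℂ} {S : Set ℂ}
    (hF : MeromorphicAt F c) (hH : MeromorphicAt H c) (hS : ∃ᶠ z in 𝓝[≠] c, z ∈ S)
    (h : ∀ᶠ z in 𝓝[≠] c, z ∈ S → F z = H z) : F =ᶠ[𝓝[≠] c] H := by
  have hFH : MeromorphicAt (F - H) c := hF.sub hH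
  rcases hFH.eventually_eq_zero_or_eventually_ne_zero with h0 | h1
  · filter_upwards [h0] with z hz
    exact sub_eq_zero.1 hz
  · exfalso
    obtain ⟨z, ⟨hzS, hz⟩, hne⟩ := ((hS.and_eventually h).and_eventually h1).exists
    exact hne (sub_eq_zero.2 (hz hzS))

/-! ### The boundary between two sectors -/

/-- At a point `s₀` of the boundary ray of angle `2 π J / e` of the Puiseux disc: a germ `g`
at the image point which continues `fL` on the left and `fR` on the right of the cut, and two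
meromorphic germs `hL₀`, `hR₀` at `s₀` which are the pull-backs of `fL`, `fR` on the two adjacent
half-sectors. Then `hL₀ = hR₀` near `s₀`. -/
theorem sector_jump_eq {e : ℕ} (he : 0 < e) {z₀ b : ℂ} (hb : b ≠ z₀) (J : ℕ) {ρ : ℝ}
    (hρ : 0 < ρ) {g fL fR hL₀ hR₀ : ℂ → ℂ}
    (hg : MeromorphicAt g (puiseuxMap b (unitDir z₀ b) e
      ((ρ : ℂ) * Complex.exp (((2 * Real.pi * J / e : ℝ) : ℂ) * Complex.I))))
    (hgL : ∀ᶠ z in 𝓝[≠] (puiseuxMap b (unitDir z₀ b) e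
      ((ρ : ℂ) * Complex.exp (((2 * Real.pi * J / e : ℝ) : ℂ) * Complex.I))),
      z ∈ leftSide z₀ b → g z = fL z)
    (hgR : ∀ᶠ z in 𝓝[≠] (puiseuxMap b (unitDir z₀ b) e
      ((ρ : ℂ) * Complex.exp (((2 * Real.pi * J / e : ℝ) : ℂ) * Complex.I))),
      z ∈ rightSide z₀ b → g z = fR z)
    (hHL : MeromorphicAt hL₀ ((ρ : ℂ) * Complex.exp (((2 * Real.pi * J / e : ℝ) : ℂ) * Complex.I)))
    (hHR : MeromorphicAt hR₀ ((ρ : ℂ) * Complex.exp (((2 * Real.pi * J / e : ℝ) : ℂ) * Complex.I)))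
    (hL : ∀ᶠ s in 𝓝 ((ρ : ℂ) * Complex.exp (((2 * Real.pi * J / e : ℝ) : ℂ) * Complex.I)),
      s ∈ sector (2 * Real.pi * J / e) (2 * Real.pi * J / e + Real.pi / e) →
        fL (puiseuxMap b (unitDir z₀ b) e s) = hL₀ s)
    (hR : ∀ᶠ s in 𝓝 ((ρ : ℂ) * Complex.exp (((2 * Real.pi * J / e : ℝ) : ℂ) * Complex.I)),
      s ∈ sector (2 * Real.pi * J / e - Real.pi / e) (2 * Real.pi * J / e) →
        fR (puiseuxMap b (unitDir z₀ b) e s) = hR₀ s) :
    hL₀ =ᶠ[𝓝[≠] ((ρ : ℂ) * Complex.exp (((2 * Real.pi * J / e : ℝ) : ℂ) * Complex.I))] hR₀ := by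
  have hu : unitDir z₀ b ≠ 0 := unitDir_ne_zero hb
  have he' : (0 : ℝ) < e := by exact_mod_cast he
  have hpe : 0 < Real.pi / e := div_pos Real.pi_pos he'
  obtain ⟨s₀, hs₀⟩ : ∃ s₀ : ℂ,
      s₀ = (ρ : ℂ) * Complex.exp (((2 * Real.pi * J / e : ℝ) : ℂ) * Complex.I) := ⟨_, rfl⟩
  rw [← hs₀] at hg hgL hgR hHL hHR hL hR ⊢
  have hh : MeromorphicAt (g ∘ puiseuxMap b (unitDir z₀ b) e) s₀ :=
    hg.comp_analyticAt (analyticAt_puiseuxMap b (unitDir z₀ b) e s₀)
  have htend := tendsto_puiseuxMap_nhdsNE (b := b) hu he s₀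
  have hfL : ∃ᶠ s in 𝓝[≠] s₀,
      s ∈ sector (2 * Real.pi * J / e) (2 * Real.pi * J / e + Real.pi / e) := by
    rw [hs₀]
    exact frequently_mem_sector_left hρ (by linarith)
  have hfR : ∃ᶠ s in 𝓝[≠] s₀,
      s ∈ sector (2 * Real.pi * J / e - Real.pi / e) (2 * Real.pi * J / e) := by
    rw [hs₀]
    exact frequently_mem_sector_right hρ (by linarith)
  have h1 : (g ∘ puiseuxMap b (unitDir z₀ b) e) =ᶠ[𝓝[≠] s₀] hL₀ := by
    refine eventuallyEq_of_frequently_mem hh hHL hfL ?_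
    filter_upwards [htend.eventually hgL, nhdsWithin_le_nhds hL] with s hs1 hs2 hsec
    have hleft : puiseuxMap b (unitDir z₀ b) e s ∈ leftSide z₀ b :=
      puiseux_mem_leftSide hb he J hsec
    rw [Function.comp_apply, hs1 hleft, hs2 hsec]
  have h2 : (g ∘ puiseuxMap b (unitDir z₀ b) e) =ᶠ[𝓝[≠] s₀] hR₀ := by
    refine eventuallyEq_of_frequently_mem hh hHR hfR ?_
    filter_upwards [htend.eventually hgR, nhdsWithin_le_nhds hR] with s hs1 hs2 hsec
    have hright : puiseuxMap b (unitDir z₀ b) e s ∈ rightSide z₀ b :=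
      puiseux_mem_rightSide hb he J hsec
    rw [Function.comp_apply, hs1 hright, hs2 hsec]
  exact h1.symm.trans h2

/-- The image of the boundary point is on the open ray. -/
theorem puiseuxMap_mem_openRay {z₀ b : ℂ} (hb : b ≠ z₀) {e : ℕ} (he : 0 < e) (J : ℕ) {ρ : ℝ}
    (hρ : 0 < ρ) :
    puiseuxMap b (unitDir z₀ b) e
      ((ρ : ℂ) * Complex.exp (((2 * Real.pi * J / e : ℝ) : ℂ) * Complex.I)) ∈ openRay z₀ b :=
  puiseux_mem_openRay hb he J hρ

end Fermat.Agent.P5.helper56
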