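import Mathlib
import Fermat.Agent.P5.helper27_MonoDefs
import Fermat.Agent.P5.helper27_MonoBasic
import Fermat.Agent.P5.helper42_RRLoc

/-!
# P5 / MONO-3B (helper9, task 661): the local dictionary at the bad places and at infinity

* `dictBad : helper27.DictBad M` : if `τ` is regular at `plBad i k`, the pull-back of `τ` to the
  Puiseux disc has an analytic coefficient;
* `dictInf : helper27.DictInf M` : the same at `plInf k` for the disc at infinity.

Verbatim, unconditional.
-/

set_option autoImplicit false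

open AlgebraicCurve Filter Topology KaehlerDifferential Complex

namespace Fermat.Agent.P5.helper9

open Fermat.Agent.P5.helper25 Fermat.Agent.P5.helper4 Fermat.Agent.P5.helper27
  Fermat.Agent.P5.helper42

noncomputable section

/-! ### Analysis -/

/-- a product of meromorphic functions of non-negative total order extends analytically -/
theorem exists_analytic_mul {f H : ℂ → ℂ} {x : ℂ} (hf : MeromorphicAt f x)
    (hH : MeromorphicAt H x) (m : ℤ) (hfm : meromorphicOrderAt f x = (m : WithTop ℤ))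
    (hHm : ((-m : ℤ) : WithTop ℤ) ≤ meromorphicOrderAt H x) :
    ∃ Φ : ℂ → ℂ, AnalyticAt ℂ Φ x ∧ Φ =ᶠ[𝓝[≠] x] fun s => f s * H s := by
  have hG : MeromorphicAt (f * H) x := hf.mul hH
  have hord : 0 ≤ meromorphicOrderAt (f * H) x := by
    rw [meromorphicOrderAt_mul hf hH, hfm]
    have h0 : (0 : WithTop ℤ) = (m : WithTop ℤ) + ((-m : ℤ) : WithTop ℤ) := by
      rw [← WithTop.coe_add, add_neg_cancel]
      rfl
    rw [h0]
    exact add_le_add_right hHm _
  exact ⟨toMeromorphicNFAt (f * H) x,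
    hG.meromorphicOrderAt_nonneg_iff_analyticAt_toMeromorphicNFAt.1 hord,
    hG.eq_nhdsNE_toMeromorphicNFAt.symm⟩

/-- the order of `s ↦ c s ^ n` at `0` -/
theorem order_monomial {c : ℂ} (hc : c ≠ 0) (n : ℕ) :
    meromorphicOrderAt (fun s : ℂ => c * s ^ n) 0 = ((n : ℤ) : WithTop ℤ) := by
  have hm : MeromorphicAt (fun s : ℂ => c * s ^ n) 0 := by fun_prop
  rw [meromorphicOrderAt_eq_int_iff hm]
  refine ⟨fun _ => c, analyticAt_const, hc, Eventually.of_forall fun s => ?_⟩
  simp only [sub_zero, zpow_natCast, smul_eq_mul]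
  ring

/-- the order of `w ↦ - (w⁻¹) ^ 2` at `0` -/
theorem order_neg_inv_sq :
    meromorphicOrderAt (fun w : ℂ => -(w⁻¹) ^ 2) 0 = ((-2 : ℤ) : WithTop ℤ) := by
  have hm : MeromorphicAt (fun w : ℂ => -(w⁻¹) ^ 2) 0 := by fun_prop
  rw [meromorphicOrderAt_eq_int_iff hm]
  refine ⟨fun _ => -1, analyticAt_const, by norm_num, Eventually.of_forall fun w => ?_⟩
  simp only [sub_zero, smul_eq_mul]
  rw [show (-2 : ℤ) = -((2 : ℕ) : ℤ) from rfl, zpow_neg, zpow_natCast, inv_pow]
  ring

/-! ### Geometry -/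

/-- points of the `j`-th sector of the Puiseux disc do not map to the ray -/
theorem puiseux_not_mem_ray_sector {z₀ b : ℂ} (hb : b ≠ z₀) {e : ℕ} (he : 0 < e) (j : ℕ)
    {s : ℂ} (hs : s ∈ sector (2 * Real.pi * j / e) (2 * Real.pi * (j + 1) / e)) :
    b + s ^ e * unitDir z₀ b ∉ ray z₀ b := by
  obtain ⟨ρ, φ, hρ, hφ1, hφ2, rfl⟩ := hs
  have he' : (0 : ℝ) < e := by exact_mod_cast he
  set φ' : ℝ := φ - 2 * Real.pi * j / e with hφ'
  have hs' : (ρ : ℂ) * exp ((φ' : ℂ) * I) ∈ sector 0 (2 * Real.pi / e) := by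
    refine ⟨ρ, φ', hρ, by rw [hφ']; linarith, ?_, rfl⟩
    rw [hφ']
    have : 2 * Real.pi * ((j : ℝ) + 1) / e = 2 * Real.pi * j / e + 2 * Real.pi / e := by ring
    linarith
  have hpow : ((ρ : ℂ) * exp ((φ : ℂ) * I)) ^ e = ((ρ : ℂ) * exp ((φ' : ℂ) * I)) ^ e := by
    rw [mul_pow, mul_pow, ← Complex.exp_nat_mul, ← Complex.exp_nat_mul]
    congr 1
    have hne : (e : ℂ) ≠ 0 := by exact_mod_cast he.ne'
    have h1 : (e : ℂ) * ((φ : ℂ) * I) = (e : ℂ) * ((φ' : ℂ) * I) + (j : ℂ) * (2 * Real.pi * I) := by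
      rw [hφ']
      push_cast
      field_simp
      ring
    rw [h1, Complex.exp_add, Complex.exp_nat_mul_two_pi_mul_I, mul_one]
  rw [hpow]
  exact puiseux_not_mem_ray hb he hs'

variable {F : Type} [Field F] [Algebra ℂ F] (M : CutModel F)

/-- the Puiseux parametrisation maps the sectors near `0` into the cut plane -/
theorem eventually_puiseux_mem_U₀ (i : Fin M.r) (e : ℕ) (he : 0 < e) (j : ℕ) :
    ∀ᶠ s in 𝓝[≠] (0 : ℂ), s ∈ sector (2 * Real.pi * j / e) (2 * Real.pi * (j + 1) / e) →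
      M.b i + s ^ e * unitDir M.z₀ (M.b i) ∈ M.toCutGeometry.U₀ := by
  set ψ : ℂ → ℂ := fun s => M.b i + s ^ e * unitDir M.z₀ (M.b i) with hψ
  have hψc : Continuous ψ := by fun_prop
  have hU : ψ ⁻¹' (CutGeom.Uexcept M.toCutGeometry i) ∈ 𝓝 (0 : ℂ) := by
    refine ((CutGeom.isOpen_Uexcept _ i).preimage hψc).mem_nhds ?_
    show ψ 0 ∈ CutGeom.Uexcept M.toCutGeometry i
    have : ψ 0 = M.b i := by simp [hψ, he.ne']
    rw [this]
    exact CutGeom.ray_subset_Uexcept _ i (self_mem_ray _ _)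
  filter_upwards [nhdsWithin_le_nhds hU] with s hs1 hs2
  exact CutGeom.mem_U₀_of_mem_Uexcept _ hs1 (puiseux_not_mem_ray_sector (M.b_ne i) he j hs2)

/-- points in the sectors at infinity lie in the cut plane -/
theorem inf_mem_U₀_sector (i : Fin M.r) {v : ℂ} (hv : v ∈ M.toCutGeometry.sectorInf i) :
    M.z₀ + v ∈ M.toCutGeometry.U₀ := by
  have hmono := CutGeom.θ_strictMono M.toCutGeometry
  unfold CutGeometry.sectorInf at hv
  split_ifs at hv with h
  · intro j hj
    obtain ⟨ρ, φ, hρ, hφ1, hφ2, rfl⟩ := hv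
    obtain ⟨R, hR, h1⟩ := exists_of_mem_ray (M.b_ne j) hj
    rw [add_sub_cancel_left] at h1
    obtain ⟨n, hn⟩ := exists_int_of_polar_eq hρ hR h1
    have hjm := CutGeom.θ_mem M.toCutGeometry j
    have him := CutGeom.θ_mem M.toCutGeometry i
    have him' := CutGeom.θ_mem M.toCutGeometry ⟨i + 1, h⟩
    change φ - M.toCutGeometry.θ j = n * (2 * Real.pi) at hn
    rcases le_or_gt j i with hji | hji
    · have h0 : M.toCutGeometry.θ j ≤ M.toCutGeometry.θ i := hmono.monotone hji
      refine no_int_between (x := φ - M.toCutGeometry.θ j) ?_ ?_ ⟨n, hn⟩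
      · linarith
      · linarith [hjm.1, him'.2]
    · have h0 : M.toCutGeometry.θ ⟨i + 1, h⟩ ≤ M.toCutGeometry.θ j :=
        hmono.monotone (Fin.le_def.2 (by simp only; exact Nat.succ_le_of_lt (Fin.lt_def.1 hji)))
      refine no_int_between (x := M.toCutGeometry.θ j - φ) ?_ ?_ ⟨-n, ?_⟩
      · linarith
      · linarith [hjm.2, him.1]
      · push_cast
        linarith
  · have hr : 0 < M.r := Nat.pos_of_ne_zero (fun h0 => (Fin.pos i).ne' h0)
    have hi : (⟨M.r - 1, by omega⟩ : Fin M.r) = i := by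
      apply Fin.ext
      simp only
      have := i.2
      omega
    have hθ : M.toCutGeometry.θ ⟨M.r - 1, by omega⟩ = M.toCutGeometry.θ i := by rw [hi]
    exact inf_mem_U₀ M hr (by rw [hθ]; exact hv)

/-! ### The place side -/

/-- the local setting of the function field of a cut model -/
theorem localSetting (M : CutModel F) : LocalSetting ℂ F :=
  haveI := M.x_finite
  LocalSetting.of_ff M.x M.x_transcendental

/-- regularity of `τ` from `HasLogPole v τ 0` -/
theorem regular_of_hasLogPole_zero {v : Place ℂ F} {τ : Ω[F⁄ℂ]} (h : HasLogPole v τ 0) :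
    0 ≤ v.ordDifferential τ := by
  obtain ⟨t, -, ht⟩ := h
  rwa [zero_smul, sub_zero] at ht

/-- the order of the coefficient of a regular differential in terms of the order of `dx` -/
theorem ord_coeff_ge {v : Place ℂ F} {τ : Ω[F⁄ℂ]} (h : 0 ≤ v.ordDifferential τ)
    (hφ : M.coeff τ ≠ 0) :
    -v.ordDifferential (D ℂ F M.x) ≤ v.ord (M.coeff τ) := by
  have h1 := ordDifferential_smul_eq (localSetting M) v hφ (dx_ne_zero M)
  rw [← M.coeff_spec τ] at h1
  rw [h1] at h
  linarith

theorem ordDifferential_dx_plBad (i : Fin M.r) (k : Fin M.d) :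
    (M.plBad i k).ordDifferential (D ℂ F M.x) =
      (Function.minimalPeriod (M.σ i) k : ℤ) - 1 := by
  have := M.x_finite
  have h1 : (M.plBad i k).ord (M.x - algebraMap ℂ F (M.b i)) =
      (Function.minimalPeriod (M.σ i) k : ℤ) := by
    have := ord_plBad M i k (M.b i)
    rwa [if_pos rfl] at this
  have h2 : 0 < (M.plBad i k).ord (M.x - algebraMap ℂ F (M.b i)) := by
    rw [h1]
    exact_mod_cast minimalPeriod_pos M i k
  rw [Fermat.Agent.S24.helper88.ff_ordDifferential_D_of_zero M.x M.x_transcendental M.x (M.b i)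
    (M.plBad i k) h2, h1]

theorem ordDifferential_dx_plInf (k : Fin M.d) :
    (M.plInf k).ordDifferential (D ℂ F M.x) = -2 := by
  have := M.x_finite
  have h1 : (M.plInf k).ord M.x = -1 := by
    have := ord_plInf M k 0
    unfold xsub at this
    rwa [map_zero, sub_zero] at this
  have h2 : (M.plInf k).ord M.x < 0 := by rw [h1]; norm_num
  rw [Fermat.Agent.S24.helper88.ff_ordDifferential_D_of_pole M.x M.x_transcendental M.x
    (M.plInf k) h2, h1]
  norm_num

/-! ### The dictionary -/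

/-- **[MONO-3c]** bad places. -/
theorem dictBad : DictBad M := by
  intro τ i k hτ
  have hreg := regular_of_hasLogPole_zero hτ
  set e := Function.minimalPeriod (M.σ i) k with he_def
  have he : 0 < e := minimalPeriod_pos M i k
  have hu : unitDir M.z₀ (M.b i) ≠ 0 := unitDir_ne_zero (M.b_ne i)
  by_cases hφ : M.coeff τ = 0
  · refine ⟨fun _ => 0, analyticAt_const, fun j => ?_⟩
    filter_upwards [eventually_puiseux_mem_U₀ M i e he j] with s hs hsec
    rw [hφ, ev_zero M _ (hs hsec), mul_zero]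
  · obtain ⟨H, hH, hsec, hord⟩ := M.puiseux i k (M.coeff τ) hφ
    have hge := ord_coeff_ge M hreg hφ
    rw [ordDifferential_dx_plBad] at hge
    have hf : MeromorphicAt (fun s : ℂ => (e : ℂ) * unitDir M.z₀ (M.b i) * s ^ (e - 1)) 0 := by
      fun_prop
    have hfm := order_monomial (c := (e : ℂ) * unitDir M.z₀ (M.b i))
      (mul_ne_zero (by exact_mod_cast he.ne') hu) (e - 1)
    have hHm : ((-((e - 1 : ℕ) : ℤ) : ℤ) : WithTop ℤ) ≤ meromorphicOrderAt H 0 := by
      rw [← hord]
      have : -((e - 1 : ℕ) : ℤ) ≤ (M.plBad i k).ord (M.coeff τ) := by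
        have h1 : ((e - 1 : ℕ) : ℤ) = (e : ℤ) - 1 := by
          rw [Nat.cast_sub he]
          simp
        rw [h1]
        exact hge
      exact_mod_cast this
    obtain ⟨Φ, hΦ, hΦeq⟩ := exists_analytic_mul hf hH _ hfm hHm
    refine ⟨Φ, hΦ, fun j => ?_⟩
    filter_upwards [hΦeq, hsec j] with s hs1 hs2 hs3
    rw [hs1, hs2 hs3]
    ring

/-- **[MONO-3d]** places at infinity. -/
theorem dictInf : DictInf M := by
  intro τ k hτ
  have hreg := regular_of_hasLogPole_zero hτ
  by_cases hφ : M.coeff τ = 0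
  · refine ⟨fun _ => 0, analyticAt_const, fun i => ?_, fun hr => ?_⟩
    · filter_upwards with w hw
      rw [hφ, ev_zero M _ (inf_mem_U₀_sector M i hw), mul_zero]
    · have hU : ∀ z : ℂ, z ∈ M.toCutGeometry.U₀ := by
        intro z i
        have hi : (i : ℕ) < M.r := i.2
        omega
      filter_upwards with w
      rw [hφ, ev_zero M _ (hU _), mul_zero]
  · obtain ⟨H, hH, hsec, h0, hord⟩ := M.atInf k (M.coeff τ) hφ
    have hge := ord_coeff_ge M hreg hφ
    rw [ordDifferential_dx_plInf] at hge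
    have hf : MeromorphicAt (fun w : ℂ => -(w⁻¹) ^ 2) 0 := by fun_prop
    have hHm : ((-(-2 : ℤ) : ℤ) : WithTop ℤ) ≤ meromorphicOrderAt H 0 := by
      rw [← hord]
      exact_mod_cast hge
    obtain ⟨Ψ, hΨ, hΨeq⟩ := exists_analytic_mul hf hH _ order_neg_inv_sq hHm
    refine ⟨Ψ, hΨ, fun i => ?_, fun hr => ?_⟩
    · filter_upwards [hΨeq, hsec i] with w hw1 hw2 hw3
      rw [hw1, hw2 hw3]
    · filter_upwards [hΨeq, h0 hr] with w hw1 hw2
      rw [hw1, hw2]

end

end Fermat.Agent.P5.helper9
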