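/-
P5 / S27, module MONO, package MONO-A5a (helper56, task 702): the structure of nice additive
primitives at a bad point.
-/
import Mathlib
import Fermat.Agent.P5.helper27_AddDefs
import Fermat.Agent.P5.helper9_DictB
import Fermat.Agent.P5.helper27_StarPrim
import Fermat.Agent.P5.helper56_SectorPrim

set_option autoImplicit false
set_option linter.unusedSectionVars false
set_option linter.unusedVariables false
set_option linter.style.haveILetI false

open AlgebraicCurve Filter Topology KaehlerDifferential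

namespace Fermat.Agent.P5.helper56

open Fermat.Agent.P5.helper25 Fermat.Agent.P5.helper27 Fermat.Agent.P5.helper4
  Fermat.Agent.P5.helper41

variable {F : Type} [Field F] [Algebra ℂ F]

/-- A differential which is regular outside the interior places has a logarithmic pole with
residue `0` at the bad places. -/
theorem hasLogPole_plBad_of_regularOutside (M : CutModel F) {η : Ω[F⁄ℂ]}
    (hreg : RegularOutside M η) (i : Fin M.r) (k : Fin M.d) :
    HasLogPole (M.plBad i k) η 0 := by
  obtain ⟨t, ht⟩ := helper42.exists_ord_eq_one (M.plBad i k)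
  refine ⟨t, ht, ?_⟩
  rw [zero_smul, sub_zero]
  refine hreg _ fun hmem => ?_
  obtain ⟨k', z, hz, h⟩ := hmem
  exact M.pl_ne_plBad k' z i k hz h.symm

theorem perm_apply_inv_pow_succ {d : ℕ} (σ : Equiv.Perm (Fin d)) (j : ℕ) (k : Fin d) :
    σ ((σ⁻¹ ^ (j + 1)) k) = (σ⁻¹ ^ j) k := by
  rw [pow_succ', Equiv.Perm.mul_apply]
  exact σ.apply_symm_apply _

/-- **[MONO-A5a]** the structure of nice additive primitives at a bad point. -/
theorem addLocalBad (M : CutModel F) : AddLocalBad M := by
  intro η hreg G p hprim hnice hjump i k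
  have hlog := hasLogPole_plBad_of_regularOutside M hreg i k
  obtain ⟨Φ, hΦan, hΦ⟩ := helper9.dictBad M η i k hlog
  have he : 0 < Function.minimalPeriod (M.σ i) k := Fermat.Agent.P5.helper4.minimalPeriod_pos M i k
  have hb : M.b i ≠ M.z₀ := M.b_ne i
  have hu : unitDir M.z₀ (M.b i) ≠ 0 := unitDir_ne_zero hb
  have he' : (0 : ℝ) < (Function.minimalPeriod (M.σ i) k : ℝ) := by exact_mod_cast he
  -- the primitive `A` of `Φ` on a small ball
  obtain ⟨ε₀, hε₀, hΦball⟩ : ∃ ε₀ : ℝ, 0 < ε₀ ∧ AnalyticOnNhd ℂ Φ (Metric.ball (0 : ℂ) ε₀) := by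
    obtain ⟨ε₀, hε₀, h⟩ := Metric.mem_nhds_iff.1 hΦan.eventually_analyticAt
    exact ⟨ε₀, hε₀, fun s hs => h hs⟩
  obtain ⟨A, hA⟩ := exists_primitive_of_starConvex Metric.isOpen_ball
    ((convex_ball (0 : ℂ) ε₀).starConvex (Metric.mem_ball_self hε₀)) hΦball.differentiableOn
  have hAan : AnalyticOnNhd ℂ A (Metric.ball (0 : ℂ) ε₀) :=
    DifferentiableOn.analyticOnNhd
      (fun s hs => (hA s hs).differentiableAt.differentiableWithinAt) Metric.isOpen_ball
  -- the constants on the sectors
  obtain ⟨S, hSfin, hS⟩ := hnice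
  have step3 : ∀ j : ℕ, ∃ (β : ℂ) (ε : ℝ), 0 < ε ∧
      ∀ s ∈ sector (2 * Real.pi * j / Function.minimalPeriod (M.σ i) k)
          (2 * Real.pi * (j + 1) / Function.minimalPeriod (M.σ i) k), ‖s‖ < ε →
        G (((M.σ i)⁻¹ ^ j) k)
          (M.b i + s ^ Function.minimalPeriod (M.σ i) k * unitDir M.z₀ (M.b i)) = A s + β :=
    fun j => sector_primitive_const he hu hSfin hε₀ (hprim _).2
      (fun z hz hzS => hS _ z hz hzS) (CutGeom.b_not_mem_U₀ M.toCutGeometry i)
      (by
        filter_upwards [hΦ j] with s hs hsec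
        rw [hs hsec])
      hA (helper9.eventually_puiseux_mem_U₀ M i _ he j)
  choose β ε hε hβ using step3
  refine ⟨A, β, hAan 0 (Metric.mem_ball_self hε₀), fun j => ?_, fun j => ?_⟩
  · filter_upwards [nhdsWithin_le_nhds (Metric.ball_mem_nhds (0 : ℂ) (hε j))] with s hs hsec
    exact hβ j s hsec (by simpa using hs)
  · -- the jump relation at the boundary between the sectors `j` and `j + 1`
    obtain ⟨ρ, hρ, hρ1, hρ2, hρ0⟩ : ∃ ρ : ℝ, 0 < ρ ∧ ρ < ε (j + 1) ∧ ρ < ε j ∧ ρ < ε₀ := by
      refine ⟨min (min (ε (j + 1)) (ε j)) ε₀ / 2, ?_, ?_, ?_, ?_⟩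
      · have := lt_min (lt_min (hε (j + 1)) (hε j)) hε₀
        linarith
      · have h1 : min (min (ε (j + 1)) (ε j)) ε₀ ≤ ε (j + 1) :=
          (min_le_left _ _).trans (min_le_left _ _)
        have := lt_min (lt_min (hε (j + 1)) (hε j)) hε₀
        linarith
      · have h1 : min (min (ε (j + 1)) (ε j)) ε₀ ≤ ε j :=
          (min_le_left _ _).trans (min_le_right _ _)
        have := lt_min (lt_min (hε (j + 1)) (hε j)) hε₀
        linarith
      · have h1 : min (min (ε (j + 1)) (ε j)) ε₀ ≤ ε₀ := min_le_right _ _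
        have := lt_min (lt_min (hε (j + 1)) (hε j)) hε₀
        linarith
    obtain ⟨s₀, hs₀⟩ : ∃ s₀ : ℂ, s₀ = (ρ : ℂ) * Complex.exp
        (((2 * Real.pi * ((j + 1 : ℕ) : ℝ) / Function.minimalPeriod (M.σ i) k : ℝ) : ℂ) *
          Complex.I) := ⟨_, rfl⟩
    have hnorm : ‖s₀‖ = ρ := by
      rw [hs₀]
      exact norm_polar hρ.le _
    have ha := puiseuxMap_mem_openRay hb he (j + 1) hρ
    obtain ⟨g, hg, hgL, hgR⟩ := hjump i (((M.σ i)⁻¹ ^ (j + 1)) k) _ ha
    have hmem : ∀ {δ : ℝ}, ρ < δ → ∀ᶠ s in 𝓝 s₀, ‖s‖ < δ := by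
      intro δ hδ
      have : Metric.ball (0 : ℂ) δ ∈ 𝓝 s₀ :=
        Metric.isOpen_ball.mem_nhds (by rw [Metric.mem_ball, dist_zero_right, hnorm]; exact hδ)
      filter_upwards [this] with s hs
      simpa using hs
    have hAs₀ : AnalyticAt ℂ A s₀ :=
      hAan s₀ (by rw [Metric.mem_ball, dist_zero_right, hnorm]; exact hρ0)
    have hpe : 0 < Real.pi / Function.minimalPeriod (M.σ i) k := div_pos Real.pi_pos he'
    have key := sector_jump_eq he hb (j + 1) hρ
      (fL := G (((M.σ i)⁻¹ ^ (j + 1)) k))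
      (fR := fun z => p i (((M.σ i)⁻¹ ^ (j + 1)) k) +
        G (M.σ i (((M.σ i)⁻¹ ^ (j + 1)) k)) z)
      (hL₀ := fun s => A s + β (j + 1))
      (hR₀ := fun s => p i (((M.σ i)⁻¹ ^ (j + 1)) k) + (A s + β j))
      hg hgL hgR
      (by
        rw [← hs₀]
        exact (hAs₀.add analyticAt_const).meromorphicAt)
      (by
        rw [← hs₀]
        exact (analyticAt_const.add (hAs₀.add analyticAt_const)).meromorphicAt)
      (by
        rw [← hs₀]
        filter_upwards [hmem hρ1] with s hs hsec
        refine hβ (j + 1) s (sector_mono le_rfl ?_ hsec) hs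
        have : 2 * Real.pi * (((j + 1 : ℕ) : ℝ) + 1) / Function.minimalPeriod (M.σ i) k =
            2 * Real.pi * ((j + 1 : ℕ) : ℝ) / Function.minimalPeriod (M.σ i) k +
              2 * (Real.pi / Function.minimalPeriod (M.σ i) k) := by ring
        rw [this]
        linarith)
      (by
        rw [← hs₀]
        filter_upwards [hmem hρ2] with s hs hsec
        have hsec' : s ∈ sector (2 * Real.pi * j / Function.minimalPeriod (M.σ i) k)
            (2 * Real.pi * (j + 1) / Function.minimalPeriod (M.σ i) k) := by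
          refine sector_mono ?_ ?_ hsec
          · have : 2 * Real.pi * ((j + 1 : ℕ) : ℝ) / Function.minimalPeriod (M.σ i) k =
                2 * Real.pi * j / Function.minimalPeriod (M.σ i) k +
                  2 * (Real.pi / Function.minimalPeriod (M.σ i) k) := by
              push_cast
              ring
            rw [this]
            linarith
          · push_cast
            exact le_rfl
        have := hβ j s hsec' hs
        simp only [perm_apply_inv_pow_succ]
        rw [puiseuxMap_apply, this])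
    rw [← hs₀] at key
    obtain ⟨s, hs⟩ := key.exists
    have hs' : A s + β (j + 1) = p i (((M.σ i)⁻¹ ^ (j + 1)) k) + (A s + β j) := hs
    linear_combination hs'

end Fermat.Agent.P5.helper56
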