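import Mathlib
import Fermat.Agent.P5.helper25_CutModel
import Fermat.Agent.P5.helper4_CutGeom
import Fermat.Agent.P5.helper4_Orders

/-!
# P5 / MONO-SECT (helper41): sector geometry

Sectors are open, preconnected (near `0` and near `∞`) and accumulate at their boundary
points; Puiseux sectors and sectors at infinity versus the left / right side of a cut.
-/

set_option autoImplicit false

open Filter Topology Complex

namespace Fermat.Agent.P5.helper41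

open Fermat.Agent.P5.helper25 Fermat.Agent.P5.helper4

/-! ### General sectors -/

theorem sector_mono {φ₁ φ₂ ψ₁ ψ₂ : ℝ} (h1 : ψ₁ ≤ φ₁) (h2 : φ₂ ≤ ψ₂) : sector φ₁ φ₂ ⊆ sector ψ₁ ψ₂ := by
  rintro s ⟨ρ, φ, hρ, hφ1, hφ2, rfl⟩
  exact ⟨ρ, φ, hρ, lt_of_le_of_lt h1 hφ1, lt_of_lt_of_le hφ2 h2, rfl⟩

/-- `exp` of an angle shifted by a multiple of `2π`. -/
theorem exp_add_int_mul_two_pi (φ : ℝ) (n : ℤ) :
    exp (((φ + n * (2 * Real.pi) : ℝ) : ℂ) * I) = exp ((φ : ℂ) * I) := by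
  rw [Complex.exp_eq_exp_iff_exists_int]
  exact ⟨n, by push_cast; ring⟩

theorem sector_add_two_pi (φ₁ φ₂ : ℝ) (n : ℤ) : sector (φ₁ + n * (2 * Real.pi)) (φ₂ + n * (2 * Real.pi)) = sector φ₁ φ₂ := by
  ext s
  constructor
  · rintro ⟨ρ, φ, hρ, hφ1, hφ2, rfl⟩
    refine ⟨ρ, φ - n * (2 * Real.pi), hρ, by linarith, by linarith, ?_⟩
    congr 1
    have := exp_add_int_mul_two_pi (φ - n * (2 * Real.pi)) n
    rw [← this]
    congr 3
    ring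
  · rintro ⟨ρ, φ, hρ, hφ1, hφ2, rfl⟩
    refine ⟨ρ, φ + n * (2 * Real.pi), hρ, by linarith, by linarith, ?_⟩
    rw [exp_add_int_mul_two_pi]

theorem isOpen_sector (φ₁ φ₂ : ℝ) : IsOpen (sector φ₁ φ₂) := by
  rw [isOpen_iff_forall_mem_open]
  rintro s ⟨ρ, φ, hρ, hφ1, hφ2, rfl⟩
  set δ := min (φ - φ₁) (φ₂ - φ) with hδ
  have hδpos : 0 < δ := lt_min (by linarith) (by linarith)
  refine ⟨wedge φ δ, ?_, isOpen_wedge φ δ, mem_wedge_of_pos hδpos hρ⟩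
  refine (wedge_subset_sector φ δ).trans (sector_mono ?_ ?_)
  · have := min_le_left (φ - φ₁) (φ₂ - φ)
    linarith
  · have := min_le_right (φ - φ₁) (φ₂ - φ)
    linarith

theorem zero_not_mem_sector (φ₁ φ₂ : ℝ) : (0 : ℂ) ∉ sector φ₁ φ₂ := by
  rintro ⟨ρ, φ, hρ, -, -, h⟩
  have h1 : (ρ : ℂ) ≠ 0 := by exact_mod_cast hρ.ne'
  exact mul_ne_zero h1 (Complex.exp_ne_zero _) h.symm

/-- the norm of a point in polar form -/
theorem norm_polar {ρ : ℝ} (hρ : 0 ≤ ρ) (φ : ℝ) : ‖(ρ : ℂ) * exp ((φ : ℂ) * I)‖ = ρ := by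
  rw [norm_mul, Complex.norm_exp_ofReal_mul_I, mul_one, Complex.norm_real,
    Real.norm_of_nonneg hρ]

/-- the polar coordinate map -/
noncomputable def polarMap (x : ℝ × ℝ) : ℂ := (x.1 : ℂ) * exp ((x.2 : ℂ) * I)

theorem continuous_polarMap : Continuous polarMap := by
  unfold polarMap
  fun_prop

theorem isPreconnected_sector_inter_ball (φ₁ φ₂ ε : ℝ) : IsPreconnected (sector φ₁ φ₂ ∩ Metric.ball (0 : ℂ) ε) := by
  have h : sector φ₁ φ₂ ∩ Metric.ball (0 : ℂ) ε =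
      polarMap '' (Set.Ioo 0 ε ×ˢ Set.Ioo φ₁ φ₂) := by
    ext s
    constructor
    · rintro ⟨⟨ρ, φ, hρ, hφ1, hφ2, rfl⟩, hs⟩
      rw [Metric.mem_ball, dist_zero_right, norm_polar hρ.le] at hs
      exact ⟨(ρ, φ), ⟨⟨hρ, hs⟩, ⟨hφ1, hφ2⟩⟩, rfl⟩
    · rintro ⟨⟨ρ, φ⟩, ⟨⟨hρ, hs⟩, ⟨hφ1, hφ2⟩⟩, rfl⟩
      refine ⟨⟨ρ, φ, hρ, hφ1, hφ2, rfl⟩, ?_⟩
      rw [Metric.mem_ball, dist_zero_right]
      change ‖(ρ : ℂ) * exp ((φ : ℂ) * I)‖ < ε
      rw [norm_polar hρ.le]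
      exact hs
  rw [h]
  exact (((convex_Ioo 0 ε).prod (convex_Ioo φ₁ φ₂)).isPreconnected).image _
    continuous_polarMap.continuousOn

theorem isPreconnected_sector_diff_closedBall (φ₁ φ₂ R : ℝ) : IsPreconnected (sector φ₁ φ₂ \ Metric.closedBall (0 : ℂ) R) := by
  have h : sector φ₁ φ₂ \ Metric.closedBall (0 : ℂ) R =
      polarMap '' (Set.Ioi (max R 0) ×ˢ Set.Ioo φ₁ φ₂) := by
    ext s
    constructor
    · rintro ⟨⟨ρ, φ, hρ, hφ1, hφ2, rfl⟩, hs⟩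
      rw [Metric.mem_closedBall, dist_zero_right, norm_polar hρ.le, not_le] at hs
      exact ⟨(ρ, φ), ⟨max_lt hs hρ, ⟨hφ1, hφ2⟩⟩, rfl⟩
    · rintro ⟨⟨ρ, φ⟩, ⟨hρ, ⟨hφ1, hφ2⟩⟩, rfl⟩
      have hρ0 : 0 < ρ := lt_of_le_of_lt (le_max_right R 0) hρ
      have hρR : R < ρ := lt_of_le_of_lt (le_max_left R 0) hρ
      refine ⟨⟨ρ, φ, hρ0, hφ1, hφ2, rfl⟩, ?_⟩
      rw [Metric.mem_closedBall, dist_zero_right, not_le]
      change R < ‖(ρ : ℂ) * exp ((φ : ℂ) * I)‖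
      rw [norm_polar hρ0.le]
      exact hρR
  rw [h]
  exact (((convex_Ioi (max R 0)).prod (convex_Ioo φ₁ φ₂)).isPreconnected).image _
    continuous_polarMap.continuousOn

/-- points of an arc do not return to the starting point for small angles -/
theorem polar_ne_of_lt {ρ φ₀ t : ℝ} (hρ : 0 < ρ) (ht0 : 0 < t) (ht : t < 2 * Real.pi) :
    (ρ : ℂ) * exp (((φ₀ + t : ℝ) : ℂ) * I) ≠ (ρ : ℂ) * exp ((φ₀ : ℂ) * I) := by
  intro h
  obtain ⟨n, hn⟩ := exists_int_of_polar_eq hρ hρ h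
  exact no_int_between ht0 ht ⟨n, by linarith⟩

theorem tendsto_arc (ρ φ₀ : ℝ) :
    Tendsto (fun t : ℝ => (ρ : ℂ) * exp (((φ₀ + t : ℝ) : ℂ) * I)) (𝓝 0)
      (𝓝 ((ρ : ℂ) * exp ((φ₀ : ℂ) * I))) := by
  have hc : Continuous fun t : ℝ => (ρ : ℂ) * exp (((φ₀ + t : ℝ) : ℂ) * I) := by fun_prop
  have := hc.tendsto 0
  simpa using this

theorem frequently_mem_sector_left {φ₀ φ₂ ρ : ℝ} (hρ : 0 < ρ) (h : φ₀ < φ₂) : ∃ᶠ s in 𝓝[≠] ((ρ : ℂ) * exp ((φ₀ : ℂ) * I)), s ∈ sector φ₀ φ₂ := by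
  have hpi : (0 : ℝ) < 2 * Real.pi := by positivity
  have ht : Tendsto (fun t : ℝ => (ρ : ℂ) * exp (((φ₀ + t : ℝ) : ℂ) * I)) (𝓝[>] (0 : ℝ))
      (𝓝[≠] ((ρ : ℂ) * exp ((φ₀ : ℂ) * I))) := by
    rw [tendsto_nhdsWithin_iff]
    refine ⟨(tendsto_arc ρ φ₀).mono_left nhdsWithin_le_nhds, ?_⟩
    filter_upwards [Ioo_mem_nhdsGT hpi] with t ht
    exact polar_ne_of_lt hρ ht.1 ht.2
  refine ht.frequently (Eventually.frequently ?_)
  have h2 : (0 : ℝ) < φ₂ - φ₀ := by linarith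
  filter_upwards [Ioo_mem_nhdsGT h2] with t ht
  exact ⟨ρ, φ₀ + t, hρ, by linarith [ht.1], by linarith [ht.2], rfl⟩

theorem frequently_mem_sector_right {φ₁ φ₀ ρ : ℝ} (hρ : 0 < ρ) (h : φ₁ < φ₀) : ∃ᶠ s in 𝓝[≠] ((ρ : ℂ) * exp ((φ₀ : ℂ) * I)), s ∈ sector φ₁ φ₀ := by
  have hpi : (0 : ℝ) < 2 * Real.pi := by positivity
  have ht : Tendsto (fun t : ℝ => (ρ : ℂ) * exp (((φ₀ + t : ℝ) : ℂ) * I)) (𝓝[<] (0 : ℝ))
      (𝓝[≠] ((ρ : ℂ) * exp ((φ₀ : ℂ) * I))) := by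
    rw [tendsto_nhdsWithin_iff]
    refine ⟨(tendsto_arc ρ φ₀).mono_left nhdsWithin_le_nhds, ?_⟩
    have hneg : -(2 * Real.pi) < 0 := by linarith
    filter_upwards [Ioo_mem_nhdsLT hneg] with t ht h1
    have h2 := polar_ne_of_lt (φ₀ := φ₀ + t) (t := -t) hρ (by linarith [ht.2]) (by linarith [ht.1])
    apply h2
    rw [h1]
    congr 3
    push_cast
    ring
  refine ht.frequently (Eventually.frequently ?_)
  have h2 : -(φ₀ - φ₁) < 0 := by linarith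
  filter_upwards [Ioo_mem_nhdsLT h2] with t ht
  exact ⟨ρ, φ₀ + t, hρ, by linarith [ht.1], by linarith [ht.2], rfl⟩

theorem frequently_mem_sector_zero {φ₁ φ₂ : ℝ} (h : φ₁ < φ₂) : ∃ᶠ s in 𝓝[≠] (0 : ℂ), s ∈ sector φ₁ φ₂ := by
  refine frequently_of_line (c := 0) (v := exp ((((φ₁ + φ₂) / 2 : ℝ) : ℂ) * I))
    (Complex.exp_ne_zero _) ?_
  filter_upwards [self_mem_nhdsWithin] with t ht
  rw [zero_add]
  exact ⟨t, (φ₁ + φ₂) / 2, ht, by linarith, by linarith, rfl⟩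

/-! ### Bad points -/

theorem polar_pow (ρ φ : ℝ) (e : ℕ) :
    ((ρ : ℂ) * exp ((φ : ℂ) * I)) ^ e = ((ρ ^ e : ℝ) : ℂ) * exp (((e * φ : ℝ) : ℂ) * I) := by
  rw [mul_pow, ← Complex.exp_nat_mul]
  push_cast
  ring_nf

theorem im_polar_div (ρ φ N : ℝ) :
    ((ρ : ℂ) * exp ((φ : ℂ) * I) / (N : ℂ)).im = ρ * Real.sin φ / N := by
  rw [Complex.div_ofReal_im, Complex.im_ofReal_mul, Complex.exp_ofReal_mul_I_im]

/-- the quotient `(z - b) / (b - z₀)` at a point of the Puiseux disc -/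
theorem puiseux_quot {z₀ b : ℂ} (hb : b ≠ z₀) (e : ℕ) (ρ φ : ℝ) :
    (b + ((ρ : ℂ) * exp ((φ : ℂ) * I)) ^ e * unitDir z₀ b - b) / (b - z₀) =
      ((ρ ^ e : ℝ) : ℂ) * exp (((e * φ : ℝ) : ℂ) * I) / ((‖b - z₀‖ : ℝ) : ℂ) := by
  rw [add_sub_cancel_left, unitDir_div hb, polar_pow]

theorem puiseux_not_mem_ray' {z₀ b : ℂ} (hb : b ≠ z₀) {e : ℕ} (he : 0 < e) (j : ℕ) {s : ℂ} (hs : s ∈ sector (2 * Real.pi * j / e) (2 * Real.pi * (j + 1) / e)) : b + s ^ e * unitDir z₀ b ∉ ray z₀ b := by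
  obtain ⟨ρ, φ, hρ, hφ1, hφ2, rfl⟩ := hs
  have he' : (0 : ℝ) < e := by exact_mod_cast he
  have hs' : (ρ : ℂ) * exp (((φ - 2 * Real.pi * j / e : ℝ) : ℂ) * I) ∈
      sector 0 (2 * Real.pi / e) := by
    refine ⟨ρ, φ - 2 * Real.pi * j / e, hρ, by linarith, ?_, rfl⟩
    have : 2 * Real.pi * (j + 1) / e = 2 * Real.pi * j / e + 2 * Real.pi / e := by ring
    linarith
  have h := puiseux_not_mem_ray hb he hs'
  have hpow : ((ρ : ℂ) * exp (((φ - 2 * Real.pi * j / e : ℝ) : ℂ) * I)) ^ e =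
      ((ρ : ℂ) * exp ((φ : ℂ) * I)) ^ e := by
    rw [polar_pow, polar_pow]
    congr 1
    have h1 : (e : ℝ) * (φ - 2 * Real.pi * j / e) =
        e * φ + ((-(j : ℤ) : ℤ) : ℝ) * (2 * Real.pi) := by
      push_cast
      field_simp
      ring
    rw [h1]
    exact exp_add_int_mul_two_pi _ _
  rw [hpow] at h
  exact h

theorem exists_puiseux_mem_U₀ (G : CutGeometry) (i : Fin G.r) {e : ℕ} (he : 0 < e) : ∃ ε > 0, ∀ (j : ℕ) (s : ℂ), s ∈ sector (2 * Real.pi * j / e) (2 * Real.pi * (j + 1) / e) → ‖s‖ < ε → G.b i + s ^ e * unitDir G.z₀ (G.b i) ∈ G.U₀ := by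
  have hc : Continuous fun s : ℂ => G.b i + s ^ e * unitDir G.z₀ (G.b i) := by fun_prop
  have h0 : (fun s : ℂ => G.b i + s ^ e * unitDir G.z₀ (G.b i)) 0 ∈ CutGeom.Uexcept G i := by
    simp only [zero_pow he.ne', zero_mul, add_zero]
    exact CutGeom.ray_subset_Uexcept G i (self_mem_ray _ _)
  have hmem := hc.continuousAt.preimage_mem_nhds ((CutGeom.isOpen_Uexcept G i).mem_nhds h0)
  obtain ⟨ε, hε, hball⟩ := Metric.mem_nhds_iff.1 hmem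
  refine ⟨ε, hε, fun j s hs hsε => ?_⟩
  have h1 : s ∈ Metric.ball (0 : ℂ) ε := by
    rw [Metric.mem_ball, dist_zero_right]
    exact hsε
  exact CutGeom.mem_U₀_of_mem_Uexcept G (hball h1) (puiseux_not_mem_ray' (G.b_ne i) he j hs)

theorem puiseux_mem_openRay {z₀ b : ℂ} (hb : b ≠ z₀) {e : ℕ} (he : 0 < e) (j : ℕ) {ρ : ℝ} (hρ : 0 < ρ) : b + ((ρ : ℂ) * exp (((2 * Real.pi * j / e : ℝ) : ℂ) * I)) ^ e * unitDir z₀ b ∈ openRay z₀ b := by
  have he' : (0 : ℝ) < e := by exact_mod_cast he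
  have hN : (0 : ℝ) < ‖b - z₀‖ := norm_pos_iff.2 (sub_ne_zero.2 hb)
  have hN' : ((‖b - z₀‖ : ℝ) : ℂ) ≠ 0 := by exact_mod_cast hN.ne'
  refine ⟨ρ ^ e / ‖b - z₀‖, div_pos (pow_pos hρ e) hN, ?_⟩
  congr 1
  rw [polar_pow]
  have h1 : (e : ℝ) * (2 * Real.pi * j / e) = 0 + ((j : ℤ) : ℝ) * (2 * Real.pi) := by
    push_cast
    field_simp
    ring
  rw [h1, exp_add_int_mul_two_pi]
  unfold unitDir
  push_cast
  simp only [zero_mul, Complex.exp_zero, mul_one]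
  field_simp

theorem puiseux_mem_leftSide {z₀ b : ℂ} (hb : b ≠ z₀) {e : ℕ} (he : 0 < e) (j : ℕ) {s : ℂ} (hs : s ∈ sector (2 * Real.pi * j / e) (2 * Real.pi * j / e + Real.pi / e)) : b + s ^ e * unitDir z₀ b ∈ leftSide z₀ b := by
  obtain ⟨ρ, φ, hρ, hφ1, hφ2, rfl⟩ := hs
  have he' : (0 : ℝ) < e := by exact_mod_cast he
  have hN : (0 : ℝ) < ‖b - z₀‖ := norm_pos_iff.2 (sub_ne_zero.2 hb)
  change 0 < ((b + ((ρ : ℂ) * exp ((φ : ℂ) * I)) ^ e * unitDir z₀ b - b) / (b - z₀)).im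
  rw [puiseux_quot hb, im_polar_div]
  have h1 : (0 : ℝ) < e * φ - j * (2 * Real.pi) := by
    have := mul_lt_mul_of_pos_left hφ1 he'
    have h2 : (e : ℝ) * (2 * Real.pi * j / e) = j * (2 * Real.pi) := by field_simp
    linarith
  have h2 : e * φ - j * (2 * Real.pi) < Real.pi := by
    have := mul_lt_mul_of_pos_left hφ2 he'
    have h2 : (e : ℝ) * (2 * Real.pi * j / e + Real.pi / e) = j * (2 * Real.pi) + Real.pi := by
      field_simp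
    linarith
  have h3 : 0 < Real.sin (e * φ) := by
    rw [← Real.sin_sub_nat_mul_two_pi (e * φ) j]
    exact Real.sin_pos_of_pos_of_lt_pi h1 h2
  exact div_pos (mul_pos (pow_pos hρ e) h3) hN

theorem puiseux_mem_rightSide {z₀ b : ℂ} (hb : b ≠ z₀) {e : ℕ} (he : 0 < e) (j : ℕ) {s : ℂ} (hs : s ∈ sector (2 * Real.pi * j / e - Real.pi / e) (2 * Real.pi * j / e)) : b + s ^ e * unitDir z₀ b ∈ rightSide z₀ b := by
  obtain ⟨ρ, φ, hρ, hφ1, hφ2, rfl⟩ := hs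
  have he' : (0 : ℝ) < e := by exact_mod_cast he
  have hN : (0 : ℝ) < ‖b - z₀‖ := norm_pos_iff.2 (sub_ne_zero.2 hb)
  change ((b + ((ρ : ℂ) * exp ((φ : ℂ) * I)) ^ e * unitDir z₀ b - b) / (b - z₀)).im < 0
  rw [puiseux_quot hb, im_polar_div]
  have h1 : e * φ - j * (2 * Real.pi) < 0 := by
    have := mul_lt_mul_of_pos_left hφ2 he'
    have h2 : (e : ℝ) * (2 * Real.pi * j / e) = j * (2 * Real.pi) := by field_simp
    linarith
  have h2 : -Real.pi < e * φ - j * (2 * Real.pi) := by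
    have := mul_lt_mul_of_pos_left hφ1 he'
    have h2 : (e : ℝ) * (2 * Real.pi * j / e - Real.pi / e) = j * (2 * Real.pi) - Real.pi := by
      field_simp
    linarith
  have h3 : Real.sin (e * φ) < 0 := by
    rw [← Real.sin_sub_nat_mul_two_pi (e * φ) j]
    exact Real.sin_neg_of_neg_of_neg_pi_lt h1 h2
  exact div_neg_of_neg_of_pos (mul_neg_of_pos_of_neg (pow_pos hρ e) h3) hN

/-! ### Infinity -/

theorem sectorInf_mem_U₀ (G : CutGeometry) (i : Fin G.r) {v : ℂ} (hv : v ∈ G.sectorInf i) : G.z₀ + v ∈ G.U₀ := by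
  intro j hj
  obtain ⟨R, hR, h1⟩ := exists_of_mem_ray (G.b_ne j) hj
  rw [add_sub_cancel_left] at h1
  have hmono := CutGeom.θ_strictMono G
  have hpi : (0 : ℝ) < Real.pi := Real.pi_pos
  unfold CutGeometry.sectorInf at hv
  split_ifs at hv with h
  · obtain ⟨ρ, φ, hρ, hφ1, hφ2, rfl⟩ := hv
    obtain ⟨n, hn⟩ := exists_int_of_polar_eq hρ hR h1
    change φ - G.θ j = n * (2 * Real.pi) at hn
    rcases le_or_gt j i with hji | hji
    · have h2 : G.θ j ≤ G.θ i := hmono.monotone hji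
      have h3 := (CutGeom.θ_mem G ⟨i + 1, h⟩).2
      have h4 := (CutGeom.θ_mem G j).1
      exact no_int_between (x := φ - G.θ j) (by linarith) (by linarith) ⟨n, hn⟩
    · have h2 : G.θ ⟨i + 1, h⟩ ≤ G.θ j := hmono.monotone (Fin.le_def.2 (Nat.succ_le_of_lt hji))
      have h3 := (CutGeom.θ_mem G j).2
      have h4 := (CutGeom.θ_mem G i).1
      exact no_int_between (x := G.θ j - φ) (by linarith) (by linarith)
        ⟨-n, by push_cast; linarith⟩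
  · obtain ⟨ρ, φ, hρ, hφ1, hφ2, rfl⟩ := hv
    obtain ⟨n, hn⟩ := exists_int_of_polar_eq hρ hR h1
    change φ - G.θ j = n * (2 * Real.pi) at hn
    have hji : j ≤ i := by
      rw [Fin.le_def]
      have := j.2
      omega
    have h2 : G.θ j ≤ G.θ i := hmono.monotone hji
    have h3 : G.θ ⟨0, Nat.pos_of_ne_zero (fun h0 => (Fin.pos i).ne' h0)⟩ ≤ G.θ j :=
      hmono.monotone (Fin.le_def.2 (Nat.zero_le _))
    exact no_int_between (x := φ - G.θ j) (by linarith) (by linarith) ⟨n, hn⟩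

theorem inf_mem_openRay (G : CutGeometry) (i : Fin G.r) {t : ℝ} (ht : 1 < t) : G.z₀ + (t : ℂ) * (G.b i - G.z₀) ∈ openRay G.z₀ (G.b i) :=
  ⟨t - 1, by linarith, by push_cast; ring⟩

theorem inf_polar (G : CutGeometry) (i : Fin G.r) (t : ℝ) : (t : ℂ) * (G.b i - G.z₀) = ((t * ‖G.b i - G.z₀‖ : ℝ) : ℂ) * exp ((G.θ i : ℂ) * I) := by
  have h := Complex.norm_mul_exp_arg_mul_I (G.b i - G.z₀)
  unfold CutGeometry.θ
  push_cast
  rw [mul_assoc, h]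

/-- the quotient `(z - b) / (b - z₀)` at a point `z = z₀ + ρ e^{iφ}` -/
theorem inf_quot (G : CutGeometry) (i : Fin G.r) (ρ φ : ℝ) :
    (G.z₀ + (ρ : ℂ) * exp ((φ : ℂ) * I) - G.b i) / (G.b i - G.z₀) =
      (ρ : ℂ) * exp (((φ - G.θ i : ℝ) : ℂ) * I) / ((‖G.b i - G.z₀‖ : ℝ) : ℂ) - 1 := by
  have hb : G.b i - G.z₀ ≠ 0 := sub_ne_zero.2 (G.b_ne i)
  have hN : ((‖G.b i - G.z₀‖ : ℝ) : ℂ) ≠ 0 := by
    exact_mod_cast (norm_pos_iff.2 hb).ne'
  have h := inf_polar G i 1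
  simp only [Complex.ofReal_one, one_mul] at h
  have he : exp (((φ - G.θ i : ℝ) : ℂ) * I) = exp ((φ : ℂ) * I) / exp ((G.θ i : ℂ) * I) := by
    rw [← Complex.exp_sub]
    congr 1
    push_cast
    ring
  have hexp : exp ((G.θ i : ℂ) * I) ≠ 0 := Complex.exp_ne_zero _
  have h1 : G.z₀ + (ρ : ℂ) * exp ((φ : ℂ) * I) - G.b i =
      (ρ : ℂ) * exp ((φ : ℂ) * I) - (G.b i - G.z₀) := by ring
  rw [h1, sub_div, div_self hb, he]
  congr 1
  generalize ((‖G.b i - G.z₀‖ : ℝ) : ℂ) = N at h hN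
  rw [h]
  field_simp

theorem inf_mem_leftSide (G : CutGeometry) (i : Fin G.r) {v : ℂ} (hv : v ∈ sector (G.θ i) (G.θ i + Real.pi)) : G.z₀ + v ∈ leftSide G.z₀ (G.b i) := by
  obtain ⟨ρ, φ, hρ, hφ1, hφ2, rfl⟩ := hv
  have hN : (0 : ℝ) < ‖G.b i - G.z₀‖ := norm_pos_iff.2 (sub_ne_zero.2 (G.b_ne i))
  change 0 < ((G.z₀ + (ρ : ℂ) * exp ((φ : ℂ) * I) - G.b i) / (G.b i - G.z₀)).im
  rw [inf_quot, Complex.sub_im, Complex.one_im, sub_zero, im_polar_div]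
  have h3 : 0 < Real.sin (φ - G.θ i) :=
    Real.sin_pos_of_pos_of_lt_pi (by linarith) (by linarith)
  exact div_pos (mul_pos hρ h3) hN

theorem inf_mem_rightSide (G : CutGeometry) (i : Fin G.r) {v : ℂ} (hv : v ∈ sector (G.θ i - Real.pi) (G.θ i)) : G.z₀ + v ∈ rightSide G.z₀ (G.b i) := by
  obtain ⟨ρ, φ, hρ, hφ1, hφ2, rfl⟩ := hv
  have hN : (0 : ℝ) < ‖G.b i - G.z₀‖ := norm_pos_iff.2 (sub_ne_zero.2 (G.b_ne i))
  change ((G.z₀ + (ρ : ℂ) * exp ((φ : ℂ) * I) - G.b i) / (G.b i - G.z₀)).im < 0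
  rw [inf_quot, Complex.sub_im, Complex.one_im, sub_zero, im_polar_div]
  have h3 : Real.sin (φ - G.θ i) < 0 :=
    Real.sin_neg_of_neg_of_neg_pi_lt (by linarith) (by linarith)
  exact div_neg_of_neg_of_pos (mul_neg_of_pos_of_neg hρ h3) hN

theorem exists_sector_subset_sectorInf_left (G : CutGeometry) (i : Fin G.r) : ∃ δ > 0, δ ≤ Real.pi ∧ sector (G.θ i) (G.θ i + δ) ⊆ G.sectorInf i := by
  have hmono := CutGeom.θ_strictMono G
  have hpi : (0 : ℝ) < Real.pi := Real.pi_pos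
  unfold CutGeometry.sectorInf
  split_ifs with h
  · have h1 : G.θ i < G.θ ⟨i + 1, h⟩ := hmono (Fin.lt_def.2 (Nat.lt_succ_self _))
    refine ⟨min Real.pi (G.θ ⟨i + 1, h⟩ - G.θ i), lt_min hpi (by linarith), min_le_left _ _,
      sector_mono le_rfl ?_⟩
    have := min_le_right Real.pi (G.θ ⟨i + 1, h⟩ - G.θ i)
    linarith
  · have h1 := (CutGeom.θ_mem G i).2
    have h2 := (CutGeom.θ_mem G ⟨0, Nat.pos_of_ne_zero (fun h0 => (Fin.pos i).ne' h0)⟩).1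
    refine ⟨min Real.pi
      (G.θ ⟨0, Nat.pos_of_ne_zero (fun h0 => (Fin.pos i).ne' h0)⟩ + 2 * Real.pi - G.θ i),
      lt_min hpi (by linarith), min_le_left _ _, sector_mono le_rfl ?_⟩
    have := min_le_right Real.pi
      (G.θ ⟨0, Nat.pos_of_ne_zero (fun h0 => (Fin.pos i).ne' h0)⟩ + 2 * Real.pi - G.θ i)
    linarith

theorem exists_sector_subset_sectorInf_right (G : CutGeometry) (i : Fin G.r) : ∃ δ > 0, δ ≤ Real.pi ∧ sector (G.θ i - δ) (G.θ i) ⊆ G.sectorInf (if h : (i : ℕ) = 0 then ⟨G.r - 1, by have := i.2; omega⟩ else ⟨i - 1, by have := i.2; omega⟩) := by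
  have hmono := CutGeom.θ_strictMono G
  have hpi : (0 : ℝ) < Real.pi := Real.pi_pos
  by_cases h0 : (i : ℕ) = 0
  · rw [dif_pos h0]
    have hi : i = ⟨0, Fin.pos i⟩ := Fin.ext h0
    unfold CutGeometry.sectorInf
    have hnot : ¬ ((⟨G.r - 1, by have := i.2; omega⟩ : Fin G.r) : ℕ) + 1 < G.r := by
      simp only
      have := i.2
      omega
    rw [dif_neg hnot]
    have h1 := (CutGeom.θ_mem G ⟨G.r - 1, by have := i.2; omega⟩).2
    have h2 := (CutGeom.θ_mem G ⟨0, Fin.pos i⟩).1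
    refine ⟨min Real.pi (G.θ ⟨0, Fin.pos i⟩ + 2 * Real.pi - G.θ ⟨G.r - 1, by have := i.2; omega⟩),
      lt_min hpi (by linarith), min_le_left _ _, ?_⟩
    have h3 := sector_add_two_pi (G.θ i - min Real.pi
      (G.θ ⟨0, Fin.pos i⟩ + 2 * Real.pi - G.θ ⟨G.r - 1, by have := i.2; omega⟩)) (G.θ i) 1
    rw [← h3]
    have h4 := min_le_right Real.pi
      (G.θ ⟨0, Fin.pos i⟩ + 2 * Real.pi - G.θ ⟨G.r - 1, by have := i.2; omega⟩)
    have h5 : G.θ i = G.θ ⟨0, Fin.pos i⟩ := congrArg G.θ hi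
    refine sector_mono ?_ ?_
    · push_cast
      linarith
    · push_cast
      linarith
  · rw [dif_neg h0]
    unfold CutGeometry.sectorInf
    have hyes : ((⟨i - 1, by have := i.2; omega⟩ : Fin G.r) : ℕ) + 1 < G.r := by
      simp only
      have := i.2
      omega
    rw [dif_pos hyes]
    have hi : (⟨(i : ℕ) - 1 + 1, hyes⟩ : Fin G.r) = i := by
      apply Fin.ext
      simp only
      omega
    have h1 : G.θ ⟨i - 1, by have := i.2; omega⟩ < G.θ i := by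
      apply hmono
      rw [Fin.lt_def]
      simp only
      omega
    refine ⟨min Real.pi (G.θ i - G.θ ⟨i - 1, by have := i.2; omega⟩), lt_min hpi (by linarith),
      min_le_left _ _, sector_mono ?_ ?_⟩
    · have := min_le_right Real.pi (G.θ i - G.θ ⟨i - 1, by have := i.2; omega⟩)
      linarith
    · rw [hi]

end Fermat.Agent.P5.helper41
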