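import Mathlib
import Fermat.Agent.P5.helper27_AddDefs
import Fermat.Agent.P5.helper9_DictB
import Fermat.Agent.P5.helper41_Sectors
import Fermat.Agent.P5.helper17_MulPrim
import Fermat.Agent.P5.helper27_StarPrim
import Fermat.Agent.P5.helper4_Analysis

/-!
# P5 / S27, module MONO, package MONO-A5b (helper83, task 703): `addLocalInf`

The structure of nice additive primitives at infinity: in the coordinate `w`, `z = z₀ + w⁻¹`,
they are ONE analytic function `A` plus constants `β i` on the sectors at infinity, and the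
constants satisfy the jump relations.

The analytic core (`const_on_region`, `exists_primitive_at`, the regions `regionInf`) is written
for arbitrary functions and can be reused for the multiplicative twin.
-/

set_option autoImplicit false
set_option linter.unusedSectionVars false
set_option linter.unusedVariables false

open AlgebraicCurve Filter Topology KaehlerDifferential

namespace Fermat.Agent.P5.helper83

open Fermat.Agent.P5.helper25 Fermat.Agent.P5.helper27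

noncomputable section

/-! ### The chart at infinity -/

/-- the chart at infinity `w ↦ z₀ + w⁻¹` maps punctured neighbourhoods to punctured
neighbourhoods -/
theorem tendsto_chartInf (z₀ : ℂ) {w₀ : ℂ} (hw₀ : w₀ ≠ 0) :
    Tendsto (fun w : ℂ => z₀ + w⁻¹) (𝓝[≠] w₀) (𝓝[≠] (z₀ + w₀⁻¹)) := by
  rw [tendsto_nhdsWithin_iff]
  constructor
  · have hc : ContinuousAt (fun w : ℂ => z₀ + w⁻¹) w₀ :=
      continuousAt_const.add (continuousAt_inv₀ hw₀)
    exact hc.tendsto.mono_left nhdsWithin_le_nhds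
  · filter_upwards [self_mem_nhdsWithin] with w hw
    intro h
    apply hw
    have h1 : w⁻¹ = w₀⁻¹ := add_left_cancel h
    exact inv_injective h1

/-- the derivative in the chart at infinity -/
theorem hasDerivAt_chartInf (z₀ : ℂ) {g : ℂ → ℂ} {c w : ℂ} (hw : w ≠ 0)
    (hg : HasDerivAt g c (z₀ + w⁻¹)) :
    HasDerivAt (fun w : ℂ => g (z₀ + w⁻¹)) (-(w⁻¹) ^ 2 * c) w := by
  have h1 : HasDerivAt (fun w : ℂ => z₀ + w⁻¹) (-(w ^ 2)⁻¹) w :=
    (hasDerivAt_inv hw).const_add z₀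
  have h2 := HasDerivAt.comp w hg h1
  have e : c * -(w ^ 2)⁻¹ = -(w⁻¹) ^ 2 * c := by
    rw [inv_pow]
    ring
  rw [e] at h2
  exact h2

/-- **analytic core**: on an open preconnected region `V` of the `w`-plane on which `A` is a
primitive of `Ψ = -(w⁻¹)² φ (z₀ + w⁻¹)`, a generic primitive `g` of `φ` which is continuous at the
points of `z₀ + V⁻¹` equals `A + c` in the chart. -/
theorem const_on_region {z₀ : ℂ} {U V : Set ℂ} (hV : IsOpen V) (hVc : IsPreconnected V)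
    (h0 : (0 : ℂ) ∉ V) {g φ A Ψ : ℂ → ℂ}
    (hVU : ∀ w ∈ V, z₀ + w⁻¹ ∈ U)
    (hg : ∀ z ∈ U, ∀ᶠ w in 𝓝[≠] z, HasDerivAt g (φ w) w)
    (hgc : ∀ w ∈ V, ContinuousAt g (z₀ + w⁻¹))
    (hA : ∀ w ∈ V, HasDerivAt A (Ψ w) w)
    (hΨ : ∀ w ∈ V, Ψ w = -(w⁻¹) ^ 2 * φ (z₀ + w⁻¹)) :
    ∃ c : ℂ, ∀ w ∈ V, g (z₀ + w⁻¹) = A w + c := by
  have hne : ∀ w ∈ V, w ≠ 0 := fun w hw h => h0 (h ▸ hw)
  have hq : ∀ z ∈ V, ∀ᶠ w in 𝓝[≠] z, HasDerivAt (fun w => g (z₀ + w⁻¹) - A w) 0 w := by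
    intro z hz
    have h1 := (tendsto_chartInf z₀ (hne z hz)).eventually (hg _ (hVU z hz))
    have h2 : ∀ᶠ w in 𝓝[≠] z, w ∈ V := nhdsWithin_le_nhds (hV.mem_nhds hz)
    filter_upwards [h1, h2] with w hw1 hw2
    have h3 := (hasDerivAt_chartInf z₀ (hne w hw2) hw1).sub (hA w hw2)
    rw [hΨ w hw2, sub_self] at h3
    exact h3
  obtain ⟨c, hc⟩ := helper17.eventually_const_of_hasDerivAt_zero hV hVc hq
  refine ⟨c, fun w hw => ?_⟩
  have hcont : ContinuousAt (fun w => g (z₀ + w⁻¹) - A w) w := by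
    have h1 : ContinuousAt (fun w : ℂ => z₀ + w⁻¹) w :=
      continuousAt_const.add (continuousAt_inv₀ (hne w hw))
    exact (ContinuousAt.comp (f := fun w : ℂ => z₀ + w⁻¹) (hgc w hw) h1).sub
      (hA w hw).continuousAt
  have h1 : Tendsto (fun w => g (z₀ + w⁻¹) - A w) (𝓝[≠] w) (𝓝 (g (z₀ + w⁻¹) - A w)) :=
    hcont.tendsto.mono_left nhdsWithin_le_nhds
  have h2 : Tendsto (fun w => g (z₀ + w⁻¹) - A w) (𝓝[≠] w) (𝓝 c) :=
    tendsto_const_nhds.congr' ((hc w hw).mono fun _ h => h.symm)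
  have h3 := tendsto_nhds_unique h1 h2
  rw [← h3]
  ring

/-- a function analytic at `0` has a primitive on a small ball, analytic at `0` -/
theorem exists_primitive_at {Ψ : ℂ → ℂ} (hΨ : AnalyticAt ℂ Ψ 0) :
    ∃ (ε : ℝ) (A : ℂ → ℂ), 0 < ε ∧ AnalyticAt ℂ A 0 ∧
      ∀ w ∈ Metric.ball (0 : ℂ) ε, HasDerivAt A (Ψ w) w := by
  obtain ⟨ε, hε, hball⟩ := hΨ.exists_ball_analyticOnNhd
  have hd : DifferentiableOn ℂ Ψ (Metric.ball (0 : ℂ) ε) :=
    fun w hw => (hball w hw).differentiableAt.differentiableWithinAt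
  obtain ⟨A, hA⟩ := helper27.exists_primitive_of_starConvex (z₀ := 0) Metric.isOpen_ball
    ((convex_ball (0 : ℂ) ε).starConvex (Metric.mem_ball_self hε)) hd
  refine ⟨ε, A, hε, ?_, hA⟩
  have hd' : DifferentiableOn ℂ A (Metric.ball (0 : ℂ) ε) :=
    fun w hw => (hA w hw).differentiableAt.differentiableWithinAt
  exact hd'.analyticAt (Metric.ball_mem_nhds 0 hε)

/-! ### Regions at infinity -/

/-- the part of the punctured `ε`-disc in the `w`-plane whose inverse lies in `S` -/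
def regionInf (S : Set ℂ) (ε : ℝ) : Set ℂ := {w | w ≠ 0 ∧ ‖w‖ < ε ∧ w⁻¹ ∈ S}

theorem isOpen_regionInf {S : Set ℂ} (hS : IsOpen S) (ε : ℝ) : IsOpen (regionInf S ε) := by
  have h1 : IsOpen {w : ℂ | w ≠ 0} := isOpen_ne
  have h2 : IsOpen {w : ℂ | ‖w‖ < ε} := isOpen_lt continuous_norm continuous_const
  have h3 : IsOpen ({w : ℂ | w ≠ 0} ∩ (fun w : ℂ => w⁻¹) ⁻¹' S) :=
    (continuousOn_inv₀ (G₀ := ℂ)).isOpen_inter_preimage h1 hS
  have e : regionInf S ε = {w : ℂ | ‖w‖ < ε} ∩ ({w : ℂ | w ≠ 0} ∩ (fun w : ℂ => w⁻¹) ⁻¹' S) := by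
    ext w
    simp only [regionInf, Set.mem_ofPred_eq, Set.mem_inter_iff, Set.mem_preimage]
    tauto
  rw [e]
  exact h2.inter h3

theorem regionInf_eq_image (φ₁ φ₂ : ℝ) {ε : ℝ} (hε : 0 < ε) :
    regionInf (sector φ₁ φ₂) ε =
      (fun v : ℂ => v⁻¹) '' (sector φ₁ φ₂ \ Metric.closedBall (0 : ℂ) ε⁻¹) := by
  ext w
  simp only [regionInf, Set.mem_ofPred_eq, Set.mem_image, Set.mem_sdiff, Metric.mem_closedBall,
    dist_zero_right, not_le]
  constructor
  · rintro ⟨hw0, hw, hs⟩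
    refine ⟨w⁻¹, ⟨hs, ?_⟩, inv_inv w⟩
    rw [norm_inv]
    exact (inv_lt_inv₀ hε (norm_pos_iff.2 hw0)).2 hw
  · rintro ⟨v, ⟨hv, hvn⟩, rfl⟩
    have hv0 : v ≠ 0 := fun h => helper41.zero_not_mem_sector φ₁ φ₂ (h ▸ hv)
    refine ⟨inv_ne_zero hv0, ?_, by rwa [inv_inv]⟩
    rw [norm_inv]
    exact inv_lt_of_inv_lt₀ hε hvn

theorem isPreconnected_regionInf_sector (φ₁ φ₂ : ℝ) {ε : ℝ} (hε : 0 < ε) :
    IsPreconnected (regionInf (sector φ₁ φ₂) ε) := by
  rw [regionInf_eq_image φ₁ φ₂ hε]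
  refine (helper41.isPreconnected_sector_diff_closedBall φ₁ φ₂ ε⁻¹).image _ ?_
  refine (continuousOn_inv₀ (G₀ := ℂ)).mono ?_
  rintro v ⟨hv, -⟩
  exact fun h => helper41.zero_not_mem_sector φ₁ φ₂ (h ▸ hv)

theorem exists_sectorInf_eq (G : CutGeometry) (i : Fin G.r) :
    ∃ φ₁ φ₂ : ℝ, G.sectorInf i = sector φ₁ φ₂ := by
  unfold CutGeometry.sectorInf
  split_ifs
  · exact ⟨_, _, rfl⟩
  · exact ⟨_, _, rfl⟩

/-- a finite set is avoided near infinity -/
theorem exists_eps_notMem {S : Set ℂ} (hS : S.Finite) (z₀ : ℂ) :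
    ∃ ε > 0, ∀ w : ℂ, w ≠ 0 → ‖w‖ < ε → z₀ + w⁻¹ ∉ S := by
  obtain ⟨R, hR⟩ := hS.isBounded.subset_closedBall z₀
  refine ⟨(|R| + 1)⁻¹, by positivity, fun w hw0 hw hmem => ?_⟩
  have h1 := hR hmem
  rw [Metric.mem_closedBall, dist_eq_norm, add_sub_cancel_left, norm_inv] at h1
  have h2 : |R| + 1 < ‖w‖⁻¹ :=
    (lt_inv_comm₀ (norm_pos_iff.2 hw0) (by positivity)).1 hw
  have h4 := le_abs_self R
  linarith

/-- an eventual property near `0` holds on a punctured ball -/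
theorem exists_eps_of_eventually {P : ℂ → Prop} (h : ∀ᶠ w in 𝓝[≠] (0 : ℂ), P w) :
    ∃ ε > 0, ∀ w : ℂ, w ≠ 0 → ‖w‖ < ε → P w := by
  rw [eventually_nhdsWithin_iff, Metric.eventually_nhds_iff] at h
  obtain ⟨ε, hε, h⟩ := h
  exact ⟨ε, hε, fun w hw0 hw => h (by rwa [dist_zero_right]) hw0⟩

/-! ### The jump relation at infinity -/

/-- the part of a translated sector far from `z₀` -/
def farSector (z₀ : ℂ) (Sec : Set ℂ) (ε : ℝ) : Set ℂ := {z | z - z₀ ∈ Sec ∧ ε⁻¹ < ‖z - z₀‖}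

theorem isOpen_farSector (z₀ : ℂ) {Sec : Set ℂ} (hSec : IsOpen Sec) (ε : ℝ) :
    IsOpen (farSector z₀ Sec ε) := by
  have h1 : IsOpen {z : ℂ | z - z₀ ∈ Sec} := hSec.preimage (continuous_id.sub continuous_const)
  have h2 : IsOpen {z : ℂ | ε⁻¹ < ‖z - z₀‖} :=
    isOpen_lt continuous_const (continuous_id.sub continuous_const).norm
  exact h1.inter h2

/-- points of a far sector in the chart at infinity -/
theorem farSector_chart {z₀ : ℂ} {Sec : Set ℂ} {ε : ℝ} (hε : 0 < ε) {z : ℂ}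
    (hz : z ∈ farSector z₀ Sec ε) :
    (z - z₀)⁻¹ ≠ 0 ∧ ‖(z - z₀)⁻¹‖ < ε ∧ ((z - z₀)⁻¹)⁻¹ ∈ Sec ∧ z₀ + ((z - z₀)⁻¹)⁻¹ = z := by
  have h0 : 0 < ‖z - z₀‖ := lt_trans (inv_pos.2 hε) hz.2
  refine ⟨inv_ne_zero (norm_pos_iff.1 h0), ?_, ?_, ?_⟩
  · rw [norm_inv]
    exact inv_lt_of_inv_lt₀ hε hz.2
  · rw [inv_inv]
    exact hz.1
  · rw [inv_inv]
    ring

theorem frequently_farSector {z₀ s₀ : ℂ} {Sec : Set ℂ} {ε : ℝ} (hs₀ : ε⁻¹ < ‖s₀‖)
    (h : ∃ᶠ s in 𝓝[≠] s₀, s ∈ Sec) :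
    ∃ᶠ z in 𝓝[≠] (z₀ + s₀), z ∈ farSector z₀ Sec ε := by
  have h1 : ∀ᶠ s in 𝓝[≠] s₀, ε⁻¹ < ‖s‖ :=
    nhdsWithin_le_nhds ((isOpen_lt continuous_const continuous_norm).mem_nhds hs₀)
  have h2 : ∃ᶠ s in 𝓝[≠] s₀, z₀ + s ∈ farSector z₀ Sec ε := by
    refine (h.and_eventually h1).mono ?_
    rintro s ⟨hs1, hs2⟩
    simp only [farSector, Set.mem_ofPred_eq, add_sub_cancel_left]
    exact ⟨hs1, hs2⟩
  have ht : Tendsto (fun s : ℂ => z₀ + s) (𝓝[≠] s₀) (𝓝[≠] (z₀ + s₀)) := by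
    rw [tendsto_nhdsWithin_iff]
    constructor
    · exact ((continuous_const.add continuous_id).tendsto s₀).mono_left nhdsWithin_le_nhds
    · filter_upwards [self_mem_nhdsWithin] with s hs
      exact fun h => hs (add_left_cancel h)
  exact ht.frequently h2

/-- **jump core**: if `gL = A + cL` on the sector after the `j`-th direction, `gR = A + cR` on
the sector before it (in the chart at infinity) and `gL` continues across the `j`-th cut to
`pj + gR`, then `cL = pj + cR`. -/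
theorem jump_at_infinity (G : CutGeometry) (j jm : Fin G.r)
    (hjm : ∃ δ > 0, δ ≤ Real.pi ∧ sector (G.θ j - δ) (G.θ j) ⊆ G.sectorInf jm)
    {gL gR A Ψ : ℂ → ℂ} {cL cR pj : ℂ} {ε₀ εL εR : ℝ} (hε₀ : 0 < ε₀) (hεL : 0 < εL)
    (hεR : 0 < εR)
    (hA : ∀ w ∈ Metric.ball (0 : ℂ) ε₀, HasDerivAt A (Ψ w) w)
    (hL : ∀ w : ℂ, w ≠ 0 → ‖w‖ < εL → w⁻¹ ∈ G.sectorInf j → gL (G.z₀ + w⁻¹) = A w + cL)
    (hR : ∀ w : ℂ, w ≠ 0 → ‖w‖ < εR → w⁻¹ ∈ G.sectorInf jm → gR (G.z₀ + w⁻¹) = A w + cR)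
    (hjump : ∀ a ∈ openRay G.z₀ (G.b j), ∃ g : ℂ → ℂ, MeromorphicAt g a ∧
      (∀ᶠ z in 𝓝[≠] a, z ∈ leftSide G.z₀ (G.b j) → g z = gL z) ∧
      (∀ᶠ z in 𝓝[≠] a, z ∈ rightSide G.z₀ (G.b j) → g z = pj + gR z)) :
    cL = pj + cR := by
  obtain ⟨δL, hδL, hδLπ, hsubL⟩ := helper41.exists_sector_subset_sectorInf_left G j
  obtain ⟨δR, hδR, hδRπ, hsubR⟩ := hjm
  set ε : ℝ := min ε₀ (min εL εR) with hε
  have hεpos : 0 < ε := lt_min hε₀ (lt_min hεL hεR)
  have hε0 : ε ≤ ε₀ := min_le_left _ _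
  have hεl : ε ≤ εL := (min_le_right _ _).trans (min_le_left _ _)
  have hεr : ε ≤ εR := (min_le_right _ _).trans (min_le_right _ _)
  have hN : 0 < ‖G.b j - G.z₀‖ := norm_pos_iff.2 (sub_ne_zero.2 (G.b_ne j))
  set t : ℝ := (ε * ‖G.b j - G.z₀‖)⁻¹ + 2 with ht
  have hεN : 0 < (ε * ‖G.b j - G.z₀‖)⁻¹ := inv_pos.2 (mul_pos hεpos hN)
  have ht1 : 1 < t := by linarith
  set ρ : ℝ := t * ‖G.b j - G.z₀‖ with hρ
  have hρpos : 0 < ρ := mul_pos (by linarith) hN
  have hρε : ε⁻¹ < ρ := by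
    have h1 : (ε * ‖G.b j - G.z₀‖)⁻¹ * ‖G.b j - G.z₀‖ = ε⁻¹ := by
      rw [mul_inv, mul_assoc, inv_mul_cancel₀ hN.ne', mul_one]
    have h2 : ρ = ε⁻¹ + 2 * ‖G.b j - G.z₀‖ := by
      rw [hρ, ht, add_mul, h1]
    linarith
  set s₀ : ℂ := (ρ : ℂ) * Complex.exp ((G.θ j : ℂ) * Complex.I) with hs₀
  have hs₀n : ‖s₀‖ = ρ := helper41.norm_polar hρpos.le _
  have hpol : (t : ℂ) * (G.b j - G.z₀) = s₀ := helper41.inf_polar G j t
  set a : ℂ := G.z₀ + s₀ with ha
  have haray : a ∈ openRay G.z₀ (G.b j) := by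
    rw [ha, ← hpol]
    exact helper41.inf_mem_openRay G j ht1
  obtain ⟨g, hg, hgL, hgR⟩ := hjump a haray
  -- the model function
  have hmer : ∀ c : ℂ, MeromorphicAt (fun z : ℂ => A ((z - G.z₀)⁻¹) + c) a := by
    intro c
    have has : a - G.z₀ = s₀ := by rw [ha]; ring
    have hs₀0 : s₀ ≠ 0 := by
      rw [← norm_pos_iff, hs₀n]
      exact hρpos
    have hw1 : (a - G.z₀)⁻¹ ∈ Metric.ball (0 : ℂ) ε₀ := by
      rw [Metric.mem_ball, dist_zero_right, has, norm_inv, hs₀n]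
      exact lt_of_lt_of_le (inv_lt_of_inv_lt₀ hεpos hρε) hε0
    have hAd : DifferentiableOn ℂ A (Metric.ball (0 : ℂ) ε₀) :=
      fun w hw => (hA w hw).differentiableAt.differentiableWithinAt
    have hAa : AnalyticAt ℂ A ((a - G.z₀)⁻¹) :=
      hAd.analyticAt (Metric.isOpen_ball.mem_nhds hw1)
    have hsub : AnalyticAt ℂ (fun z : ℂ => z - G.z₀) a := analyticAt_id.sub analyticAt_const
    have hinv : AnalyticAt ℂ (fun z : ℂ => (z - G.z₀)⁻¹) a :=
      hsub.inv (by show a - G.z₀ ≠ 0; rw [has]; exact hs₀0)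
    have hcomp : AnalyticAt ℂ (fun z : ℂ => A ((z - G.z₀)⁻¹)) a :=
      AnalyticAt.comp (g := A) (f := fun z : ℂ => (z - G.z₀)⁻¹) hAa hinv
    exact (hcomp.add analyticAt_const).meromorphicAt
  -- left side
  have hleft : g =ᶠ[𝓝[≠] a] fun z : ℂ => A ((z - G.z₀)⁻¹) + cL := by
    have hlt : G.θ j < G.θ j + δL := by linarith
    have hs₀' : ε⁻¹ < ‖s₀‖ := by rw [hs₀n]; exact hρε
    refine helper4.eventuallyEq_of_open (E := gL)
      (isOpen_farSector G.z₀ (helper41.isOpen_sector (G.θ j) (G.θ j + δL)) ε)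
      (frequently_farSector hs₀' (helper41.frequently_mem_sector_left hρpos hlt))
      hg (hmer cL) ?_ ?_
    · filter_upwards [hgL] with z hz hzT
      apply hz
      have h1 := helper41.inf_mem_leftSide G j
        (helper41.sector_mono le_rfl (by linarith) hzT.1)
      rwa [add_sub_cancel] at h1
    · intro z hz
      filter_upwards [nhdsWithin_le_nhds
        ((isOpen_farSector G.z₀ (helper41.isOpen_sector (G.θ j) (G.θ j + δL)) ε).mem_nhds hz)]
        with z' hz'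
      obtain ⟨h1, h2, h3, h4⟩ := farSector_chart hεpos hz'
      have h5 := hL _ h1 (lt_of_lt_of_le h2 hεl) (hsubL h3)
      rw [h4] at h5
      exact h5
  -- right side
  have hright : g =ᶠ[𝓝[≠] a] fun z : ℂ => pj + (A ((z - G.z₀)⁻¹) + cR) := by
    have hmer' : MeromorphicAt (fun z : ℂ => pj + (A ((z - G.z₀)⁻¹) + cR)) a :=
      (MeromorphicAt.const pj a).add (hmer cR)
    have hlt : G.θ j - δR < G.θ j := by linarith
    have hs₀' : ε⁻¹ < ‖s₀‖ := by rw [hs₀n]; exact hρε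
    refine helper4.eventuallyEq_of_open (E := fun z => pj + gR z)
      (isOpen_farSector G.z₀ (helper41.isOpen_sector (G.θ j - δR) (G.θ j)) ε)
      (frequently_farSector hs₀' (helper41.frequently_mem_sector_right hρpos hlt))
      hg hmer' ?_ ?_
    · filter_upwards [hgR] with z hz hzT
      apply hz
      have h1 := helper41.inf_mem_rightSide G j
        (helper41.sector_mono (by linarith) le_rfl hzT.1)
      rwa [add_sub_cancel] at h1
    · intro z hz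
      filter_upwards [nhdsWithin_le_nhds
        ((isOpen_farSector G.z₀ (helper41.isOpen_sector (G.θ j - δR) (G.θ j)) ε).mem_nhds hz)]
        with z' hz'
      obtain ⟨h1, h2, h3, h4⟩ := farSector_chart hεpos hz'
      have h5 := hR _ h1 (lt_of_lt_of_le h2 hεr) (hsubR h3)
      rw [h4] at h5
      show pj + gR z' = pj + (A ((z' - G.z₀)⁻¹) + cR)
      rw [h5]
  obtain ⟨z, hz⟩ := (hleft.symm.trans hright).exists
  have hz' : A ((z - G.z₀)⁻¹) + cL = pj + (A ((z - G.z₀)⁻¹) + cR) := hz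
  have e : pj + (A ((z - G.z₀)⁻¹) + cR) = A ((z - G.z₀)⁻¹) + (pj + cR) := by ring
  rw [e] at hz'
  exact add_left_cancel hz'

/-! ### The sheets at infinity -/

section Sheets

variable {F : Type} [Field F] [Algebra ℂ F] (M : CutModel F)

theorem perm_apply_inv {n : ℕ} (g : Equiv.Perm (Fin n)) (k : Fin n) : g (g⁻¹ k) = k := by
  rw [← Equiv.Perm.mul_apply, mul_inv_cancel, Equiv.Perm.one_apply]

theorem sheetInf_succ (i : Fin M.r) (h : (i : ℕ) + 1 < M.r) (k : Fin M.d) :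
    M.σ ⟨i + 1, h⟩ (sheetInf M ⟨i + 1, h⟩ k) = sheetInf M i k := by
  have hlen : (i : ℕ) + 1 < (List.ofFn M.σ).length := by rw [List.length_ofFn]; exact h
  have h1 : ((List.ofFn M.σ).take ((i : ℕ) + 1 + 1)).prod =
      ((List.ofFn M.σ).take ((i : ℕ) + 1)).prod * M.σ ⟨i + 1, h⟩ := by
    rw [List.prod_take_succ _ _ hlen, List.getElem_ofFn]
  unfold sheetInf
  simp only []
  rw [h1, mul_inv_rev, Equiv.Perm.mul_apply, perm_apply_inv]

theorem sheetInf_zero (h : 0 < M.r) (k : Fin M.d) :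
    M.σ ⟨0, h⟩ (sheetInf M ⟨0, h⟩ k) = k := by
  have hlen : 0 < (List.ofFn M.σ).length := by rw [List.length_ofFn]; exact h
  have h1 : ((List.ofFn M.σ).take (0 + 1)).prod = M.σ ⟨0, h⟩ := by
    rw [List.prod_take_succ _ _ hlen, List.getElem_ofFn, List.take_zero, List.prod_nil, one_mul]
  unfold sheetInf
  simp only []
  rw [h1, perm_apply_inv]

theorem sheetInf_last (h : 0 < M.r) (k : Fin M.d) :
    sheetInf M ⟨M.r - 1, by omega⟩ k = k := by
  have h1 : ((List.ofFn M.σ).take (M.r - 1 + 1)).prod = 1 := by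
    rw [Nat.sub_add_cancel h, ← M.prod_σ]
    congr 1
    apply List.take_of_length_le
    rw [List.length_ofFn]
  unfold sheetInf
  simp only []
  rw [h1, inv_one, Equiv.Perm.one_apply]

end Sheets

/-! ### The theorem -/

variable {F : Type} [Field F] [Algebra ℂ F]

/-- **[MONO-A5b]** the structure of nice additive primitives at infinity. -/
theorem addLocalInf (M : CutModel F) : AddLocalInf M := by
  intro η hη G p hG hnice hjump k
  obtain ⟨S, hS, hSan⟩ := hnice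
  have hreg : HasLogPole (M.plInf k) η 0 := by
    have h1 : M.plInf k ∉ M.interior := by
      rintro ⟨k', z, hz, h⟩
      exact M.pl_ne_plInf k' z k hz h.symm
    obtain ⟨t, ht⟩ := helper42.exists_ord_eq_one (M.plInf k)
    refine ⟨t, ht, ?_⟩
    rw [zero_smul, sub_zero]
    exact hη _ h1
  obtain ⟨Ψ, hΨ, hΨsec, hΨ0⟩ := helper9.dictInf M η k hreg
  obtain ⟨ε₀, A, hε₀, hAan, hA⟩ := exists_primitive_at hΨ
  obtain ⟨ε₂, hε₂, hSavoid⟩ := exists_eps_notMem hS M.z₀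
  -- the constants on the sectors
  have hsec : ∀ i : Fin M.r, ∃ (c : ℂ) (ε : ℝ), 0 < ε ∧ ∀ w : ℂ, w ≠ 0 → ‖w‖ < ε →
      w⁻¹ ∈ M.toCutGeometry.sectorInf i → G (sheetInf M i k) (M.z₀ + w⁻¹) = A w + c := by
    intro i
    obtain ⟨ε₁, hε₁, hΨi⟩ := exists_eps_of_eventually (hΨsec i)
    set ε : ℝ := min ε₀ (min ε₁ ε₂) with hε
    have hεpos : 0 < ε := lt_min hε₀ (lt_min hε₁ hε₂)
    have hε0 : ε ≤ ε₀ := min_le_left _ _
    have hε1 : ε ≤ ε₁ := (min_le_right _ _).trans (min_le_left _ _)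
    have hε2 : ε ≤ ε₂ := (min_le_right _ _).trans (min_le_right _ _)
    obtain ⟨φ₁, φ₂, hsect⟩ := exists_sectorInf_eq M.toCutGeometry i
    have hV : IsOpen (regionInf (M.toCutGeometry.sectorInf i) ε) := by
      rw [hsect]
      exact isOpen_regionInf (helper41.isOpen_sector φ₁ φ₂) ε
    have hVc : IsPreconnected (regionInf (M.toCutGeometry.sectorInf i) ε) := by
      rw [hsect]
      exact isPreconnected_regionInf_sector φ₁ φ₂ hεpos
    have hVU : ∀ w ∈ regionInf (M.toCutGeometry.sectorInf i) ε,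
        M.z₀ + w⁻¹ ∈ M.toCutGeometry.U₀ := fun w hw => helper9.inf_mem_U₀_sector M i hw.2.2
    obtain ⟨c, hc⟩ := const_on_region (z₀ := M.z₀) (U := M.toCutGeometry.U₀) hV hVc
      (fun h => h.1 rfl) (g := G (sheetInf M i k))
      (φ := M.ev (sheetInf M i k) (M.coeff η)) (A := A) (Ψ := Ψ) hVU (hG _).2
      (fun w hw => (hSan _ _ (hVU w hw)
        (hSavoid w hw.1 (lt_of_lt_of_le hw.2.1 hε2))).continuousAt)
      (fun w hw => hA w (by
        rw [Metric.mem_ball, dist_zero_right]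
        exact lt_of_lt_of_le hw.2.1 hε0))
      (fun w hw => hΨi w hw.1 (lt_of_lt_of_le hw.2.1 hε1) hw.2.2)
    exact ⟨c, ε, hεpos, fun w hw0 hw hs => hc w ⟨hw0, hw, hs⟩⟩
  choose β ε hε hβ using hsec
  refine ⟨A, β, hAan, fun i => ?_, fun hr => ?_, fun i h => ?_, fun h => ?_⟩
  · have h1 : ∀ᶠ w in 𝓝[≠] (0 : ℂ), ‖w‖ < ε i := by
      refine nhdsWithin_le_nhds ?_
      have := Metric.ball_mem_nhds (0 : ℂ) (hε i)
      filter_upwards [this] with w hw
      rwa [Metric.mem_ball, dist_zero_right] at hw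
    filter_upwards [h1, self_mem_nhdsWithin] with w hw hw0 hs
    exact hβ i w hw0 hw hs
  · -- no cuts
    have hU : ∀ z : ℂ, z ∈ M.toCutGeometry.U₀ := by
      intro z i
      have hi : (i : ℕ) < M.r := i.2
      omega
    obtain ⟨ε₁, hε₁, hΨi⟩ := exists_eps_of_eventually (hΨ0 hr)
    set ε' : ℝ := min ε₀ (min ε₁ ε₂) with hε'
    have hεpos : 0 < ε' := lt_min hε₀ (lt_min hε₁ hε₂)
    have hε0 : ε' ≤ ε₀ := min_le_left _ _
    have hε1 : ε' ≤ ε₁ := (min_le_right _ _).trans (min_le_left _ _)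
    have hε2 : ε' ≤ ε₂ := (min_le_right _ _).trans (min_le_right _ _)
    have hV : IsOpen (regionInf (Set.univ : Set ℂ) ε') := isOpen_regionInf isOpen_univ ε'
    have hVe : regionInf (Set.univ : Set ℂ) ε' = Metric.ball (0 : ℂ) ε' \ {0} := by
      ext w
      simp only [regionInf, Set.mem_ofPred_eq, Set.mem_univ, and_true, Set.mem_sdiff,
        Metric.mem_ball, dist_zero_right, Set.mem_singleton_iff]
      tauto
    have hVc : IsPreconnected (regionInf (Set.univ : Set ℂ) ε') := by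
      rw [hVe]
      exact helper17.isPreconnected_ball_diff_singleton 0 ε'
    obtain ⟨c, hc⟩ := const_on_region (z₀ := M.z₀) (U := M.toCutGeometry.U₀) hV hVc
      (fun h => h.1 rfl) (g := G k) (φ := M.ev k (M.coeff η)) (A := A) (Ψ := Ψ)
      (fun w _ => hU _) (hG _).2
      (fun w hw => (hSan _ _ (hU _)
        (hSavoid w hw.1 (lt_of_lt_of_le hw.2.1 hε2))).continuousAt)
      (fun w hw => hA w (by
        rw [Metric.mem_ball, dist_zero_right]
        exact lt_of_lt_of_le hw.2.1 hε0))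
      (fun w hw => hΨi w hw.1 (lt_of_lt_of_le hw.2.1 hε1))
    refine ⟨c, ?_⟩
    have h1 : ∀ᶠ w in 𝓝[≠] (0 : ℂ), ‖w‖ < ε' := by
      refine nhdsWithin_le_nhds ?_
      have := Metric.ball_mem_nhds (0 : ℂ) hεpos
      filter_upwards [this] with w hw
      rwa [Metric.mem_ball, dist_zero_right] at hw
    filter_upwards [h1, self_mem_nhdsWithin] with w hw hw0
    exact hc w ⟨hw0, hw, Set.mem_univ _⟩
  · -- the jump across the cut `i + 1`
    have hright := helper41.exists_sector_subset_sectorInf_right M.toCutGeometry ⟨i + 1, h⟩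
    have hne : ¬ ((⟨(i : ℕ) + 1, h⟩ : Fin M.r) : ℕ) = 0 := Nat.succ_ne_zero _
    rw [dif_neg hne] at hright
    have hi : (⟨((⟨(i : ℕ) + 1, h⟩ : Fin M.r) : ℕ) - 1, by
        have := (⟨(i : ℕ) + 1, h⟩ : Fin M.r).2; omega⟩ : Fin M.r) = i := Fin.ext (by simp)
    rw [hi] at hright
    refine jump_at_infinity M.toCutGeometry ⟨i + 1, h⟩ i hright hε₀ (hε _) (hε _) hA
      (hβ ⟨i + 1, h⟩) (hβ i) (fun a ha => ?_)
    have hj := hjump ⟨i + 1, h⟩ (sheetInf M ⟨i + 1, h⟩ k) a ha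
    rw [sheetInf_succ] at hj
    exact hj
  · -- the jump across the cut `0`
    have hright := helper41.exists_sector_subset_sectorInf_right M.toCutGeometry ⟨0, h⟩
    rw [dif_pos rfl] at hright
    have hβ' := hβ ⟨M.r - 1, by omega⟩
    rw [sheetInf_last M h k] at hβ'
    refine jump_at_infinity M.toCutGeometry ⟨0, h⟩ ⟨M.r - 1, by omega⟩ hright hε₀ (hε _)
      (hε _) hA (hβ ⟨0, h⟩) hβ' (fun a ha => ?_)
    have hj := hjump ⟨0, h⟩ (sheetInf M ⟨0, h⟩ k) a ha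
    rw [sheetInf_zero] at hj
    exact hj

end

end Fermat.Agent.P5.helper83
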