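/-
P5 / S27, module MONO, additive twin (helper27): THE ADDITIVE DELIVERABLES OF MONO, verbatim
and unconditional, for every cut model `M`:

* `addPeriodExists M : helper25.AddPeriodExists M` (in `helper27_AddPeriod.lean`),
* `addCocycle M : helper25.AddCocycle M`,
* `addKernel M : helper25.AddKernel M`.
-/
import Mathlib
import Fermat.Agent.P5.helper27_AddPeriod
import Fermat.Agent.P5.helper56_AddLocalBad
import Fermat.Agent.P5.helper83_AddLocalInf

set_option autoImplicit false
set_option linter.style.haveILetI false

open AlgebraicCurve Filter Topology KaehlerDifferential

namespace Fermat.Agent.P5.helper27

open Fermat.Agent.P5.helper25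

noncomputable section

variable {F : Type} [Field F] [Algebra ℂ F]

/-- **[MONO-A2]** period cochains of differentials which are regular outside the interior
places are cocycles. -/
theorem addCocycle (M : CutModel F) : AddCocycle M :=
  addCocycle_of_local M (helper56.addLocalBad M) (helper83.addLocalInf M)

/-- **[MONO-A3]** additive primitives with coboundary jumps come from a function. -/
theorem addKernel (M : CutModel F) : AddKernel M :=
  addKernel_of_local M (helper56.addLocalBad M) (helper83.addLocalInf M)

end

end Fermat.Agent.P5.helper27
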