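import Mathlib
import Fermat.Agent.P5.helper27_MonoDefs
import Fermat.Agent.P5.helper27_MonoBasic
import Fermat.Agent.P5.helper27_StarPrim
import Fermat.Agent.P5.helper9_DictB
import Fermat.Agent.P5.helper41_Sectors
import Fermat.Agent.P5.helper17_MulPrim
import Fermat.Agent.P5.helper4_Analysis

/-!
# P5 / MONO-5A (helper48, task 697): nice multiplicative primitives at a bad point

`localBad : helper27.LocalBad M` : on the sectors of the Puiseux disc at a bad point the nice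
multiplicative primitives are constant multiples `α j` of ONE analytic non-vanishing function
`G`, and the jump cochain is the coboundary of the constants.

Generic tools (reusable at infinity):
* `exists_const_mul_of_generic` : pointwise constancy of `f / G` on a preconnected open set;
* `exists_exp_primitive` : the exponential of a primitive of an analytic germ;
* `eq_of_two_sides` : comparison of two constants across a boundary point.
-/

set_option autoImplicit false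

open AlgebraicCurve Filter Topology KaehlerDifferential Complex

namespace Fermat.Agent.P5.helper48

open Fermat.Agent.P5.helper25 Fermat.Agent.P5.helper4 Fermat.Agent.P5.helper27
  Fermat.Agent.P5.helper41

noncomputable section

/-! ### Generic analysis -/

/-- Pointwise constancy: on a preconnected open set, a continuous non-vanishing function `f`
with generic logarithmic derivative `Φ` is a constant multiple of a non-vanishing function `G`
with logarithmic derivative `Φ`. -/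
theorem exists_const_mul_of_generic {U : Set ℂ} (hU : IsOpen U) (hconn : IsPreconnected U)
    {f G Φ : ℂ → ℂ} (hf : ∀ s ∈ U, ContinuousAt f s) (hf0 : ∀ s ∈ U, f s ≠ 0)
    (hG : ∀ s ∈ U, HasDerivAt G (Φ s * G s) s) (hG0 : ∀ s ∈ U, G s ≠ 0)
    (hder : ∀ s₀ ∈ U, ∀ᶠ s in 𝓝[≠] s₀, HasDerivAt f (Φ s * f s) s) :
    ∃ α : ℂˣ, ∀ s ∈ U, f s = α * G s := by
  rcases Set.eq_empty_or_nonempty U with hE | ⟨z₁, hz₁⟩
  · exact ⟨1, fun s hs => by rw [hE] at hs; exact absurd hs (Set.notMem_empty s)⟩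
  have hq : ∀ z ∈ U, ∀ᶠ w in 𝓝[≠] z, HasDerivAt (fun v => f v / G v) 0 w := by
    intro z hz
    filter_upwards [hder z hz, nhdsWithin_le_nhds (hU.mem_nhds hz)] with w h1 h2
    refine (h1.div (hG w h2) (hG0 w h2)).congr_deriv ?_
    have : Φ w * f w * G w - f w * (Φ w * G w) = 0 := by ring
    rw [this, zero_div]
  obtain ⟨c, hc⟩ := helper17.eventually_const_of_hasDerivAt_zero hU hconn hq
  have hpt : ∀ z ∈ U, f z / G z = c := by
    intro z hz
    have hcont : ContinuousAt (fun v => f v / G v) z :=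
      (hf z hz).div (hG z hz).continuousAt (hG0 z hz)
    have h1 : Tendsto (fun v => f v / G v) (𝓝[≠] z) (𝓝 (f z / G z)) :=
      hcont.tendsto.mono_left nhdsWithin_le_nhds
    have h2 : Tendsto (fun v => f v / G v) (𝓝[≠] z) (𝓝 c) :=
      (tendsto_const_nhds).congr' (by filter_upwards [hc z hz] with w hw; exact hw.symm)
    exact tendsto_nhds_unique h1 h2
  have hc0 : c ≠ 0 := by
    rw [← hpt z₁ hz₁]
    exact div_ne_zero (hf0 z₁ hz₁) (hG0 z₁ hz₁)
  refine ⟨Units.mk0 c hc0, fun s hs => ?_⟩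
  rw [Units.val_mk0, ← hpt s hs, div_mul_cancel₀ _ (hG0 s hs)]

/-- The exponential of a primitive of an analytic germ. -/
theorem exists_exp_primitive {Φ : ℂ → ℂ} {c : ℂ} (hΦ : AnalyticAt ℂ Φ c) :
    ∃ (ε : ℝ) (G : ℂ → ℂ), 0 < ε ∧ (∀ s ∈ Metric.ball c ε, HasDerivAt G (Φ s * G s) s) ∧
      (∀ s, G s ≠ 0) ∧ ∀ s ∈ Metric.ball c ε, AnalyticAt ℂ G s := by
  obtain ⟨ε, hε, hball⟩ := Metric.eventually_nhds_iff.1 hΦ.eventually_analyticAt
  have hdiff : DifferentiableOn ℂ Φ (Metric.ball c ε) := fun s hs =>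
    (hball (Metric.mem_ball.1 hs)).differentiableAt.differentiableWithinAt
  obtain ⟨A, hA⟩ := helper27.exists_primitive_of_starConvex Metric.isOpen_ball
    ((convex_ball c ε).starConvex (Metric.mem_ball_self hε)) hdiff
  refine ⟨ε, fun s => Complex.exp (A s), hε, fun s hs => ?_, fun s => Complex.exp_ne_zero _,
    fun s hs => ?_⟩
  · exact (hA s hs).cexp.congr_deriv (mul_comm _ _)
  · have hAd : DifferentiableOn ℂ A (Metric.ball c ε) := fun z hz =>
      (hA z hz).differentiableAt.differentiableWithinAt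
    have hAa : AnalyticAt ℂ A s := hAd.analyticAt (Metric.isOpen_ball.mem_nhds hs)
    exact hAa.cexp

/-- Comparison across a boundary point: a meromorphic germ at `s₀` which equals `a * G` on an
open set accumulating at `s₀` and `b * G` on another one, with `G` analytic and non-vanishing,
forces `a = b`. -/
theorem eq_of_two_sides {H G : ℂ → ℂ} {s₀ : ℂ} {SL SR : Set ℂ} (hSL : IsOpen SL)
    (hSR : IsOpen SR) (haccL : ∃ᶠ s in 𝓝[≠] s₀, s ∈ SL) (haccR : ∃ᶠ s in 𝓝[≠] s₀, s ∈ SR)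
    (hH : MeromorphicAt H s₀) (hG : AnalyticAt ℂ G s₀) (hG0 : ∀ s, G s ≠ 0) {a b : ℂ}
    (hL : ∀ᶠ s in 𝓝[≠] s₀, s ∈ SL → H s = a * G s)
    (hR : ∀ᶠ s in 𝓝[≠] s₀, s ∈ SR → H s = b * G s) : a = b := by
  have hmL : MeromorphicAt (fun s => a * G s) s₀ :=
    (MeromorphicAt.const a s₀).mul hG.meromorphicAt
  have hmR : MeromorphicAt (fun s => b * G s) s₀ :=
    (MeromorphicAt.const b s₀).mul hG.meromorphicAt
  have h1 : H =ᶠ[𝓝[≠] s₀] fun s => a * G s :=
    eventuallyEq_of_open hSL haccL hH hmL hL (fun z _ => EventuallyEq.rfl)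
  have h2 : H =ᶠ[𝓝[≠] s₀] fun s => b * G s :=
    eventuallyEq_of_open hSR haccR hH hmR hR (fun z _ => EventuallyEq.rfl)
  obtain ⟨s, hs1, hs2⟩ := (h1.and h2).exists
  have h3 : a * G s = b * G s := hs1.symm.trans hs2
  exact mul_right_cancel₀ (hG0 s) h3

/-! ### The Puiseux map -/

/-- The Puiseux map `s ↦ b + s ^ e * u` is locally injective. -/
theorem tendsto_puiseux {e : ℕ} (he : 0 < e) (b : ℂ) {u : ℂ} (hu : u ≠ 0) (s₀ : ℂ) :
    Tendsto (fun s : ℂ => b + s ^ e * u) (𝓝[≠] s₀) (𝓝[≠] (b + s₀ ^ e * u)) := by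
  rw [tendsto_nhdsWithin_iff]
  constructor
  · have hc : Continuous fun s : ℂ => b + s ^ e * u := by fun_prop
    exact (hc.tendsto s₀).mono_left nhdsWithin_le_nhds
  · filter_upwards [eventually_pow_ne he s₀] with s hs
    simp only [Set.mem_compl_iff, Set.mem_singleton_iff]
    intro h
    exact hs (mul_right_cancel₀ hu (add_left_cancel h))

theorem hasDerivAt_puiseux (e : ℕ) (b u s : ℂ) :
    HasDerivAt (fun s : ℂ => b + s ^ e * u) ((e : ℂ) * s ^ (e - 1) * u) s :=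
  ((hasDerivAt_pow e s).mul_const u).const_add b

/-- Near `0` the Puiseux map avoids a given finite set. -/
theorem eventually_puiseux_not_mem {e : ℕ} (he : 0 < e) (b : ℂ) {u : ℂ} (hu : u ≠ 0)
    {S : Set ℂ} (hS : S.Finite) : ∀ᶠ s in 𝓝[≠] (0 : ℂ), b + s ^ e * u ∉ S := by
  have hfin' : (S \ {b}).Finite := hS.subset Set.sdiff_subset
  have hc : Continuous fun s : ℂ => b + s ^ e * u := by fun_prop
  have hmem : (S \ {b})ᶜ ∈ 𝓝 ((fun s : ℂ => b + s ^ e * u) 0) := by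
    refine hfin'.isClosed.isOpen_compl.mem_nhds ?_
    simp [he.ne']
  filter_upwards [nhdsWithin_le_nhds (hc.continuousAt.preimage_mem_nhds hmem),
    self_mem_nhdsWithin] with s hs1 hs2 hs3
  refine hs1 ⟨hs3, ?_⟩
  simp only [Set.mem_singleton_iff]
  intro h
  have h0 : s ^ e * u = 0 := by
    have : b + s ^ e * u = b + 0 := by rw [h, add_zero]
    exact add_left_cancel this
  rcases mul_eq_zero.1 h0 with h1 | h1
  · exact hs2 (pow_eq_zero_iff he.ne' |>.1 h1)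
  · exact hu h1

/-! ### The bad points -/

variable {F : Type} [Field F] [Algebra ℂ F] (M : CutModel F)

/-- Differentials in `T₀` are regular at the bad places. -/
theorem hasLogPole_plBad_of_mem_T₀ {τ : Ω[F⁄ℂ]} (hτ : τ ∈ M.T₀) (i : Fin M.r) (k : Fin M.d) :
    HasLogPole (M.plBad i k) τ 0 := by
  obtain ⟨D, hD, hDint⟩ := hτ
  have h0 : D (M.plBad i k) = 0 := by
    by_contra hne
    obtain ⟨k', z, hz, hP⟩ := hDint _ hne
    exact M.pl_ne_plBad k' z i k hz hP.symm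
  have := hD (M.plBad i k)
  rwa [h0] at this

/-- **The sector step**: on a sector of the Puiseux disc which maps into the cut plane, a nice
multiplicative primitive is a constant multiple of `G`. -/
theorem sector_const {τ : Ω[F⁄ℂ]} {E : Fin M.d → ℂ → ℂ} (hE : M.IsMultPrim τ E)
    (hnice : IsNice M E) (i : Fin M.r) (k' : Fin M.d) {e : ℕ} (he : 0 < e) (φ₁ φ₂ : ℝ)
    {Φ G : ℂ → ℂ} {ε₀ : ℝ} (hε₀ : 0 < ε₀)
    (hG : ∀ s ∈ Metric.ball (0 : ℂ) ε₀, HasDerivAt G (Φ s * G s) s) (hG0 : ∀ s, G s ≠ 0)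
    (hU₀ : ∀ᶠ s in 𝓝[≠] (0 : ℂ), s ∈ sector φ₁ φ₂ →
      M.b i + s ^ e * unitDir M.z₀ (M.b i) ∈ M.toCutGeometry.U₀)
    (hΦ : ∀ᶠ s in 𝓝[≠] (0 : ℂ), s ∈ sector φ₁ φ₂ →
      Φ s = (e : ℂ) * s ^ (e - 1) * unitDir M.z₀ (M.b i) *
        M.ev k' (M.coeff τ) (M.b i + s ^ e * unitDir M.z₀ (M.b i))) :
    ∃ α : ℂˣ, ∀ᶠ s in 𝓝[≠] (0 : ℂ), s ∈ sector φ₁ φ₂ →
      E k' (M.b i + s ^ e * unitDir M.z₀ (M.b i)) = (α : ℂ) * G s := by
  obtain ⟨S, hSfin, hS⟩ := hnice
  have hu : unitDir M.z₀ (M.b i) ≠ 0 := unitDir_ne_zero (M.b_ne i)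
  set u : ℂ := unitDir M.z₀ (M.b i) with hu_def
  set ζ : ℂ → ℂ := fun s => M.b i + s ^ e * u with hζ_def
  have hall : ∀ᶠ s in 𝓝[≠] (0 : ℂ), s ∈ Metric.ball (0 : ℂ) ε₀ ∧ ζ s ∉ S ∧
      (s ∈ sector φ₁ φ₂ → ζ s ∈ M.toCutGeometry.U₀) ∧
      (s ∈ sector φ₁ φ₂ → Φ s = (e : ℂ) * s ^ (e - 1) * u * M.ev k' (M.coeff τ) (ζ s)) := by
    filter_upwards [nhdsWithin_le_nhds (Metric.ball_mem_nhds (0 : ℂ) hε₀),
      eventually_puiseux_not_mem he (M.b i) hu hSfin, hU₀, hΦ] with s h1 h2 h3 h4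
    exact ⟨h1, h2, h3, h4⟩
  rw [eventually_nhdsWithin_iff, Metric.eventually_nhds_iff] at hall
  obtain ⟨ε, hε, hall⟩ := hall
  have hUo : IsOpen (sector φ₁ φ₂ ∩ Metric.ball (0 : ℂ) ε) :=
    (isOpen_sector _ _).inter Metric.isOpen_ball
  have hUc : IsPreconnected (sector φ₁ φ₂ ∩ Metric.ball (0 : ℂ) ε) :=
    isPreconnected_sector_inter_ball _ _ _
  have hprop : ∀ s ∈ sector φ₁ φ₂ ∩ Metric.ball (0 : ℂ) ε,
      s ∈ Metric.ball (0 : ℂ) ε₀ ∧ ζ s ∉ S ∧ ζ s ∈ M.toCutGeometry.U₀ ∧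
        Φ s = (e : ℂ) * s ^ (e - 1) * u * M.ev k' (M.coeff τ) (ζ s) := by
    intro s hs
    have hs0 : s ≠ 0 := fun h => zero_not_mem_sector φ₁ φ₂ (h ▸ hs.1)
    obtain ⟨h1, h2, h3, h4⟩ := hall (Metric.mem_ball.1 hs.2) hs0
    exact ⟨h1, h2, h3 hs.1, h4 hs.1⟩
  have hmain : ∃ α : ℂˣ, ∀ s ∈ sector φ₁ φ₂ ∩ Metric.ball (0 : ℂ) ε,
      E k' (ζ s) = (α : ℂ) * G s := by
    refine exists_const_mul_of_generic hUo hUc (f := fun s => E k' (ζ s)) (G := G)
      (Φ := Φ) ?_ ?_ ?_ ?_ ?_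
    · intro s hs
      obtain ⟨-, h2, h3, -⟩ := hprop s hs
      have h5 : ContinuousAt (E k') (ζ s) := (hS k' (ζ s) h3 h2).1.continuousAt
      have h6 : ContinuousAt ζ s := by
        have hc : Continuous ζ := by fun_prop
        exact hc.continuousAt
      exact ContinuousAt.comp (g := E k') (f := ζ) h5 h6
    · intro s hs
      obtain ⟨-, h2, h3, -⟩ := hprop s hs
      exact (hS k' (ζ s) h3 h2).2
    · intro s hs
      exact hG s (hprop s hs).1
    · intro s _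
      exact hG0 s
    · intro s₀ hs₀
      obtain ⟨-, -, h3, -⟩ := hprop s₀ hs₀
      have h5 := (tendsto_puiseux he (M.b i) hu s₀).eventually ((hE k').2 (ζ s₀) h3)
      filter_upwards [h5, nhdsWithin_le_nhds (hUo.mem_nhds hs₀)] with s hs1 hs2
      obtain ⟨-, -, -, h4⟩ := hprop s hs2
      have hζ : HasDerivAt ζ ((e : ℂ) * s ^ (e - 1) * u) s := hasDerivAt_puiseux e (M.b i) u s
      have h6 : HasDerivAt (fun s => E k' (ζ s))
          (M.ev k' (M.coeff τ) (ζ s) * E k' (ζ s) * ((e : ℂ) * s ^ (e - 1) * u)) s :=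
        HasDerivAt.comp s hs1.2 hζ
      refine h6.congr_deriv ?_
      rw [h4]
      ring
  obtain ⟨α, hα⟩ := hmain
  refine ⟨α, ?_⟩
  rw [eventually_nhdsWithin_iff, Metric.eventually_nhds_iff]
  exact ⟨ε, hε, fun s hs _ hsec => hα s ⟨hsec, Metric.mem_ball.2 hs⟩⟩

/-- **The jump step** at the boundary ray of index `j` of the Puiseux disc: the constant on
the left half-sector is the jump constant times the constant on the right half-sector. -/
theorem bad_jump {E : Fin M.d → ℂ → ℂ} {c : Fin M.r → Fin M.d → Additive ℂˣ}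
    (hjump : M.IsJumpOf E c) (i : Fin M.r) (kL : Fin M.d) {e : ℕ} (he : 0 < e) (j : ℕ)
    {G : ℂ → ℂ} {ε₀ : ℝ} (hε₀ : 0 < ε₀)
    (hGan : ∀ s ∈ Metric.ball (0 : ℂ) ε₀, AnalyticAt ℂ G s) (hG0 : ∀ s, G s ≠ 0)
    (αL αR : ℂˣ)
    (hL : ∀ᶠ s in 𝓝[≠] (0 : ℂ),
      s ∈ sector (2 * Real.pi * j / e) (2 * Real.pi * j / e + Real.pi / e) →
        E kL (M.b i + s ^ e * unitDir M.z₀ (M.b i)) = (αL : ℂ) * G s)
    (hR : ∀ᶠ s in 𝓝[≠] (0 : ℂ),
      s ∈ sector (2 * Real.pi * j / e - Real.pi / e) (2 * Real.pi * j / e) →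
        E (M.σ i kL) (M.b i + s ^ e * unitDir M.z₀ (M.b i)) = (αR : ℂ) * G s) :
    αL = Additive.toMul (c i kL) * αR := by
  have hu : unitDir M.z₀ (M.b i) ≠ 0 := unitDir_ne_zero (M.b_ne i)
  have he' : (0 : ℝ) < e := by exact_mod_cast he
  have hpie : 0 < Real.pi / e := div_pos Real.pi_pos he'
  set u : ℂ := unitDir M.z₀ (M.b i) with hu_def
  set ζ : ℂ → ℂ := fun s => M.b i + s ^ e * u with hζ_def
  set φ₀ : ℝ := 2 * Real.pi * j / e with hφ₀
  have hall : ∀ᶠ s in 𝓝[≠] (0 : ℂ), s ∈ Metric.ball (0 : ℂ) ε₀ ∧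
      (s ∈ sector φ₀ (φ₀ + Real.pi / e) → E kL (ζ s) = (αL : ℂ) * G s) ∧
      (s ∈ sector (φ₀ - Real.pi / e) φ₀ → E (M.σ i kL) (ζ s) = (αR : ℂ) * G s) := by
    filter_upwards [nhdsWithin_le_nhds (Metric.ball_mem_nhds (0 : ℂ) hε₀), hL, hR]
      with s h1 h2 h3
    exact ⟨h1, h2, h3⟩
  rw [eventually_nhdsWithin_iff, Metric.eventually_nhds_iff] at hall
  obtain ⟨ε, hε, hall⟩ := hall
  have hρ : (0 : ℝ) < ε / 2 := by positivity
  set s₀ : ℂ := ((ε / 2 : ℝ) : ℂ) * exp ((φ₀ : ℂ) * I) with hs₀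
  have hs₀norm : ‖s₀‖ = ε / 2 := norm_polar hρ.le φ₀
  have hs₀ne : s₀ ≠ 0 := by
    intro h
    rw [h, norm_zero] at hs₀norm
    linarith
  have hs₀ball : s₀ ∈ Metric.ball (0 : ℂ) ε := by
    rw [Metric.mem_ball, dist_zero_right, hs₀norm]
    linarith
  have ha : ζ s₀ ∈ openRay M.z₀ (M.b i) := puiseux_mem_openRay (M.b_ne i) he j hρ
  obtain ⟨g, hg, hgL, hgR⟩ := hjump i kL (ζ s₀) ha
  have hζan : AnalyticAt ℂ ζ s₀ := by
    have : AnalyticAt ℂ (fun s : ℂ => M.b i + s ^ e * u) s₀ := by fun_prop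
    exact this
  have hH : MeromorphicAt (g ∘ ζ) s₀ := hg.comp_analyticAt hζan
  have htend := tendsto_puiseux he (M.b i) hu s₀
  have hnear : ∀ᶠ s in 𝓝[≠] s₀, s ∈ Metric.ball (0 : ℂ) ε :=
    nhdsWithin_le_nhds (Metric.isOpen_ball.mem_nhds hs₀ball)
  have hGs₀ : AnalyticAt ℂ G s₀ := by
    refine hGan s₀ ?_
    obtain ⟨h1, -, -⟩ : s₀ ∈ Metric.ball (0 : ℂ) ε₀ ∧ _ :=
      hall (Metric.mem_ball.1 hs₀ball) hs₀ne
    exact h1
  have key : (αL : ℂ) = ((Additive.toMul (c i kL) : ℂˣ) : ℂ) * (αR : ℂ) := by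
    refine eq_of_two_sides (H := g ∘ ζ) (G := G) (s₀ := s₀) (isOpen_sector φ₀ (φ₀ + Real.pi / e))
      (isOpen_sector (φ₀ - Real.pi / e) φ₀) (frequently_mem_sector_left hρ (by linarith))
      (frequently_mem_sector_right hρ (by linarith)) hH hGs₀ hG0 ?_ ?_
    · filter_upwards [htend.eventually hgL, hnear] with s hs1 hs2 hsec
      have hs0 : s ≠ 0 := fun h => zero_not_mem_sector _ _ (h ▸ hsec)
      have h1 : ζ s ∈ leftSide M.z₀ (M.b i) := puiseux_mem_leftSide (M.b_ne i) he j hsec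
      have h2 := (hall (Metric.mem_ball.1 hs2) hs0).2.1 hsec
      show g (ζ s) = _
      rw [hs1 h1, h2]
    · filter_upwards [htend.eventually hgR, hnear] with s hs1 hs2 hsec
      have hs0 : s ≠ 0 := fun h => zero_not_mem_sector _ _ (h ▸ hsec)
      have h1 : ζ s ∈ rightSide M.z₀ (M.b i) := puiseux_mem_rightSide (M.b_ne i) he j hsec
      have h2 := (hall (Metric.mem_ball.1 hs2) hs0).2.2 hsec
      show g (ζ s) = _
      rw [hs1 h1, h2, mul_assoc]
  apply Units.ext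
  rw [Units.val_mul]
  exact key

/-- **[MONO-5a]** the structure of nice primitives at a bad point. -/
theorem localBad (M : CutModel F) : LocalBad M := by
  intro τ hτ E c hE hnice hjump i k
  have hlog := hasLogPole_plBad_of_mem_T₀ M hτ i k
  obtain ⟨Φ, hΦ, hΦeq⟩ := helper9.dictBad M τ i k hlog
  have he : 0 < Function.minimalPeriod (M.σ i) k := minimalPeriod_pos M i k
  have he' : (0 : ℝ) < (Function.minimalPeriod (M.σ i) k : ℝ) := by exact_mod_cast he
  obtain ⟨ε₀, G, hε₀, hG, hG0, hGan⟩ := exists_exp_primitive hΦ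
  have hex : ∀ j : ℕ, ∃ α : ℂˣ, ∀ᶠ s in 𝓝[≠] (0 : ℂ),
      s ∈ sector (2 * Real.pi * j / Function.minimalPeriod (M.σ i) k)
          (2 * Real.pi * (j + 1) / Function.minimalPeriod (M.σ i) k) →
        E (((M.σ i)⁻¹ ^ j) k)
            (M.b i + s ^ Function.minimalPeriod (M.σ i) k * unitDir M.z₀ (M.b i)) =
          (α : ℂ) * G s := fun j =>
    sector_const M hE hnice i _ he _ _ hε₀ hG hG0
      (helper9.eventually_puiseux_mem_U₀ M i _ he j) (hΦeq j)
  choose α hα using hex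
  refine ⟨G, α, hGan 0 (Metric.mem_ball_self hε₀), hG0 0, hα, fun j => ?_⟩
  have hσ : M.σ i (((M.σ i)⁻¹ ^ (j + 1)) k) = ((M.σ i)⁻¹ ^ j) k := by
    rw [pow_succ', Equiv.Perm.mul_apply]
    exact (M.σ i).apply_symm_apply _
  have hpie : 0 < Real.pi / (Function.minimalPeriod (M.σ i) k : ℝ) := div_pos Real.pi_pos he'
  refine bad_jump M hjump i (((M.σ i)⁻¹ ^ (j + 1)) k) he (j + 1) hε₀ hGan hG0 (α (j + 1)) (α j)
    ?_ ?_
  · filter_upwards [hα (j + 1)] with s hs hsec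
    refine hs (sector_mono le_rfl ?_ hsec)
    have : 2 * Real.pi * (((j + 1 : ℕ) : ℝ) + 1) / (Function.minimalPeriod (M.σ i) k : ℝ) =
        2 * Real.pi * ((j + 1 : ℕ) : ℝ) / (Function.minimalPeriod (M.σ i) k : ℝ) +
          2 * (Real.pi / (Function.minimalPeriod (M.σ i) k : ℝ)) := by
      field_simp
    rw [this]
    linarith
  · filter_upwards [hα j] with s hs hsec
    rw [hσ]
    refine hs (sector_mono ?_ ?_ hsec)
    · have : 2 * Real.pi * ((j + 1 : ℕ) : ℝ) / (Function.minimalPeriod (M.σ i) k : ℝ) =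
          2 * Real.pi * (j : ℝ) / (Function.minimalPeriod (M.σ i) k : ℝ) +
            2 * (Real.pi / (Function.minimalPeriod (M.σ i) k : ℝ)) := by
        push_cast
        field_simp
      rw [this]
      linarith
    · apply le_of_eq
      push_cast
      rfl

end

end Fermat.Agent.P5.helper48
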