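/-
P5 / S27, module MONO (helper27): [MONO-5b] the structure of nice multiplicative primitives at
infinity, `localInf : LocalInf M`.

Multiplicative twin of `helper83.addLocalInf` (whose chart lemmas and regions at infinity are
reused) with the generic analysis of `helper48_LocalBad.lean`.
-/
import Mathlib
import Fermat.Agent.P5.helper27_MonoDefs
import Fermat.Agent.P5.helper48_LocalBad
import Fermat.Agent.P5.helper83_AddLocalInf

set_option autoImplicit false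
set_option linter.style.haveILetI false
set_option linter.unusedVariables false

open AlgebraicCurve Filter Topology KaehlerDifferential

namespace Fermat.Agent.P5.helper27

open Fermat.Agent.P5.helper25 Fermat.Agent.P5.helper83

noncomputable section

/-- **analytic core**: on an open preconnected region `V` of the `w`-plane on which `Gx` is a
multiplicative primitive of `Ψ = -(w⁻¹)² φ (z₀ + w⁻¹)`, a generic multiplicative primitive `g`
of `φ` which is continuous and non-vanishing at the points of `z₀ + V⁻¹` equals `α * Gx` in the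
chart. -/
theorem mul_const_on_region {z₀ : ℂ} {U V : Set ℂ} (hV : IsOpen V) (hVc : IsPreconnected V)
    (h0 : (0 : ℂ) ∉ V) {g φ Gx Ψ : ℂ → ℂ}
    (hVU : ∀ w ∈ V, z₀ + w⁻¹ ∈ U)
    (hg : ∀ z ∈ U, ∀ᶠ w in 𝓝[≠] z, g w ≠ 0 ∧ HasDerivAt g (φ w * g w) w)
    (hgc : ∀ w ∈ V, ContinuousAt g (z₀ + w⁻¹)) (hg0 : ∀ w ∈ V, g (z₀ + w⁻¹) ≠ 0)
    (hGx : ∀ w ∈ V, HasDerivAt Gx (Ψ w * Gx w) w) (hGx0 : ∀ w, Gx w ≠ 0)
    (hΨ : ∀ w ∈ V, Ψ w = -(w⁻¹) ^ 2 * φ (z₀ + w⁻¹)) :
    ∃ α : ℂˣ, ∀ w ∈ V, g (z₀ + w⁻¹) = α * Gx w := by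
  have hne : ∀ w ∈ V, w ≠ 0 := fun w hw h => h0 (h ▸ hw)
  refine helper48.exists_const_mul_of_generic hV hVc (f := fun w => g (z₀ + w⁻¹)) (G := Gx)
    (Φ := Ψ) ?_ hg0 hGx (fun w _ => hGx0 w) ?_
  · intro w hw
    have h1 : ContinuousAt (fun w : ℂ => z₀ + w⁻¹) w :=
      continuousAt_const.add (continuousAt_inv₀ (hne w hw))
    exact ContinuousAt.comp (f := fun w : ℂ => z₀ + w⁻¹) (hgc w hw) h1
  · intro z hz
    have h1 := (tendsto_chartInf z₀ (hne z hz)).eventually (hg _ (hVU z hz))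
    have h2 : ∀ᶠ w in 𝓝[≠] z, w ∈ V := nhdsWithin_le_nhds (hV.mem_nhds hz)
    filter_upwards [h1, h2] with w hw1 hw2
    have h3 := hasDerivAt_chartInf z₀ (hne w hw2) hw1.2
    refine h3.congr_deriv ?_
    rw [hΨ w hw2]
    ring

/-- **jump core**: if `gL = αL * Gx` on the sector after the `j`-th direction, `gR = αR * Gx` on
the sector before it (in the chart at infinity) and `gL` continues across the `j`-th cut to
`γ * gR`, then `αL = γ * αR`. -/
theorem mul_jump_at_infinity (G : CutGeometry) (j jm : Fin G.r)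
    (hjm : ∃ δ > 0, δ ≤ Real.pi ∧ sector (G.θ j - δ) (G.θ j) ⊆ G.sectorInf jm)
    {gL gR Gx : ℂ → ℂ} {αL αR γ : ℂ} {ε₀ εL εR : ℝ} (hε₀ : 0 < ε₀) (hεL : 0 < εL)
    (hεR : 0 < εR)
    (hGx : ∀ w ∈ Metric.ball (0 : ℂ) ε₀, AnalyticAt ℂ Gx w) (hGx0 : ∀ w, Gx w ≠ 0)
    (hL : ∀ w : ℂ, w ≠ 0 → ‖w‖ < εL → w⁻¹ ∈ G.sectorInf j → gL (G.z₀ + w⁻¹) = αL * Gx w)
    (hR : ∀ w : ℂ, w ≠ 0 → ‖w‖ < εR → w⁻¹ ∈ G.sectorInf jm → gR (G.z₀ + w⁻¹) = αR * Gx w)
    (hjump : ∀ a ∈ openRay G.z₀ (G.b j), ∃ g : ℂ → ℂ, MeromorphicAt g a ∧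
      (∀ᶠ z in 𝓝[≠] a, z ∈ leftSide G.z₀ (G.b j) → g z = gL z) ∧
      (∀ᶠ z in 𝓝[≠] a, z ∈ rightSide G.z₀ (G.b j) → g z = γ * gR z)) :
    αL = γ * αR := by
  obtain ⟨δL, hδL, hδLπ, hsubL⟩ := helper41.exists_sector_subset_sectorInf_left G j
  obtain ⟨δR, hδR, hδRπ, hsubR⟩ := hjm
  set ε : ℝ := min ε₀ (min εL εR) with hε
  have hεpos : 0 < ε := lt_min hε₀ (lt_min hεL hεR)
  have hε0 : ε ≤ ε₀ := min_le_left _ _
  have hεl : ε ≤ εL := (min_le_right _ _).trans (min_le_left _ _)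
  have hεr : ε ≤ εR := (min_le_right _ _).trans (min_le_right _ _)
  have hN : 0 < ‖G.b j - G.z₀‖ := norm_pos_iff.2 (sub_ne_zero.2 (G.b_ne j))
  set t : ℝ := (ε * ‖G.b j - G.z₀‖)⁻¹ + 2 with ht
  have hεN : 0 < (ε * ‖G.b j - G.z₀‖)⁻¹ := inv_pos.2 (mul_pos hεpos hN)
  have ht1 : 1 < t := by linarith
  set ρ : ℝ := t * ‖G.b j - G.z₀‖ with hρ
  have hρpos : 0 < ρ := mul_pos (by linarith) hN
  have hρε : ε⁻¹ < ρ := by
    have h1 : (ε * ‖G.b j - G.z₀‖)⁻¹ * ‖G.b j - G.z₀‖ = ε⁻¹ := by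
      rw [mul_inv, mul_assoc, inv_mul_cancel₀ hN.ne', mul_one]
    have h2 : ρ = ε⁻¹ + 2 * ‖G.b j - G.z₀‖ := by
      rw [hρ, ht, add_mul, h1]
    linarith
  set s₀ : ℂ := (ρ : ℂ) * Complex.exp ((G.θ j : ℂ) * Complex.I) with hs₀
  have hs₀n : ‖s₀‖ = ρ := helper41.norm_polar hρpos.le _
  have hpol : (t : ℂ) * (G.b j - G.z₀) = s₀ := helper41.inf_polar G j t
  set a : ℂ := G.z₀ + s₀ with ha
  have haray : a ∈ openRay G.z₀ (G.b j) := by
    rw [ha, ← hpol]
    exact helper41.inf_mem_openRay G j ht1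
  obtain ⟨g, hg, hgL, hgR⟩ := hjump a haray
  -- the model function
  have hmer : ∀ c : ℂ, MeromorphicAt (fun z : ℂ => c * Gx ((z - G.z₀)⁻¹)) a := by
    intro c
    have has : a - G.z₀ = s₀ := by rw [ha]; ring
    have hs₀0 : s₀ ≠ 0 := by
      rw [← norm_pos_iff, hs₀n]
      exact hρpos
    have hw1 : (a - G.z₀)⁻¹ ∈ Metric.ball (0 : ℂ) ε₀ := by
      rw [Metric.mem_ball, dist_zero_right, has, norm_inv, hs₀n]
      exact lt_of_lt_of_le (inv_lt_of_inv_lt₀ hεpos hρε) hε0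
    have hAa : AnalyticAt ℂ Gx ((a - G.z₀)⁻¹) := hGx _ hw1
    have hsub : AnalyticAt ℂ (fun z : ℂ => z - G.z₀) a := analyticAt_id.sub analyticAt_const
    have hinv : AnalyticAt ℂ (fun z : ℂ => (z - G.z₀)⁻¹) a :=
      hsub.inv (by show a - G.z₀ ≠ 0; rw [has]; exact hs₀0)
    have hcomp : AnalyticAt ℂ (fun z : ℂ => Gx ((z - G.z₀)⁻¹)) a :=
      AnalyticAt.comp (g := Gx) (f := fun z : ℂ => (z - G.z₀)⁻¹) hAa hinv
    exact (analyticAt_const.mul hcomp).meromorphicAt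
  -- left side
  have hleft : g =ᶠ[𝓝[≠] a] fun z : ℂ => αL * Gx ((z - G.z₀)⁻¹) := by
    have hlt : G.θ j < G.θ j + δL := by linarith
    have hs₀' : ε⁻¹ < ‖s₀‖ := by rw [hs₀n]; exact hρε
    refine helper4.eventuallyEq_of_open (E := gL)
      (isOpen_farSector G.z₀ (helper41.isOpen_sector (G.θ j) (G.θ j + δL)) ε)
      (frequently_farSector hs₀' (helper41.frequently_mem_sector_left hρpos hlt))
      hg (hmer αL) ?_ ?_
    · filter_upwards [hgL] with z hz hzT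
      apply hz
      have h1 := helper41.inf_mem_leftSide G j
        (helper41.sector_mono le_rfl (by linarith) hzT.1)
      rwa [add_sub_cancel] at h1
    · intro z hz
      filter_upwards [nhdsWithin_le_nhds
        ((isOpen_farSector G.z₀ (helper41.isOpen_sector (G.θ j) (G.θ j + δL)) ε).mem_nhds hz)]
        with z' hz'
      obtain ⟨h1, h2, h3, h4⟩ := farSector_chart hεpos hz'
      have h5 := hL _ h1 (lt_of_lt_of_le h2 hεl) (hsubL h3)
      rw [h4] at h5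
      exact h5
  -- right side
  have hright : g =ᶠ[𝓝[≠] a] fun z : ℂ => γ * (αR * Gx ((z - G.z₀)⁻¹)) := by
    have hmer' : MeromorphicAt (fun z : ℂ => γ * (αR * Gx ((z - G.z₀)⁻¹))) a :=
      (MeromorphicAt.const γ a).mul (hmer αR)
    have hlt : G.θ j - δR < G.θ j := by linarith
    have hs₀' : ε⁻¹ < ‖s₀‖ := by rw [hs₀n]; exact hρε
    refine helper4.eventuallyEq_of_open (E := fun z => γ * gR z)
      (isOpen_farSector G.z₀ (helper41.isOpen_sector (G.θ j - δR) (G.θ j)) ε)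
      (frequently_farSector hs₀' (helper41.frequently_mem_sector_right hρpos hlt))
      hg hmer' ?_ ?_
    · filter_upwards [hgR] with z hz hzT
      apply hz
      have h1 := helper41.inf_mem_rightSide G j
        (helper41.sector_mono (by linarith) le_rfl hzT.1)
      rwa [add_sub_cancel] at h1
    · intro z hz
      filter_upwards [nhdsWithin_le_nhds
        ((isOpen_farSector G.z₀ (helper41.isOpen_sector (G.θ j - δR) (G.θ j)) ε).mem_nhds hz)]
        with z' hz'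
      obtain ⟨h1, h2, h3, h4⟩ := farSector_chart hεpos hz'
      have h5 := hR _ h1 (lt_of_lt_of_le h2 hεr) (hsubR h3)
      rw [h4] at h5
      show γ * gR z' = γ * (αR * Gx ((z' - G.z₀)⁻¹))
      rw [h5]
  obtain ⟨z, hz⟩ := (hleft.symm.trans hright).exists
  have hz' : αL * Gx ((z - G.z₀)⁻¹) = γ * (αR * Gx ((z - G.z₀)⁻¹)) := hz
  have e : γ * (αR * Gx ((z - G.z₀)⁻¹)) = (γ * αR) * Gx ((z - G.z₀)⁻¹) := by ring
  rw [e] at hz'
  exact mul_right_cancel₀ (hGx0 _) hz'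

/-! ### The theorem -/

variable {F : Type} [Field F] [Algebra ℂ F]

/-- **[MONO-5b]** the structure of nice multiplicative primitives at infinity. -/
theorem localInf (M : CutModel F) : LocalInf M := by
  intro τ hτ E c hE hnice hjump k
  obtain ⟨S, hS, hSan⟩ := hnice
  have hreg : HasLogPole (M.plInf k) τ 0 := by
    obtain ⟨D, hD, hDint⟩ := hτ
    have h0 : D (M.plInf k) = 0 := by
      by_contra hne
      obtain ⟨k', z, hz, hP⟩ := hDint _ hne
      exact M.pl_ne_plInf k' z k hz hP.symm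
    have := hD (M.plInf k)
    rwa [h0] at this
  obtain ⟨Ψ, hΨ, hΨsec, hΨ0⟩ := helper9.dictInf M τ k hreg
  obtain ⟨ε₀, Gx, hε₀, hGx, hGx0, hGxan⟩ := helper48.exists_exp_primitive hΨ
  obtain ⟨ε₂, hε₂, hSavoid⟩ := exists_eps_notMem hS M.z₀
  -- the constants on the sectors
  have hsec : ∀ i : Fin M.r, ∃ (α : ℂˣ) (ε : ℝ), 0 < ε ∧ ∀ w : ℂ, w ≠ 0 → ‖w‖ < ε →
      w⁻¹ ∈ M.toCutGeometry.sectorInf i →
        E (sheetInf M i k) (M.z₀ + w⁻¹) = (α : ℂ) * Gx w := by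
    intro i
    obtain ⟨ε₁, hε₁, hΨi⟩ := exists_eps_of_eventually (hΨsec i)
    set ε : ℝ := min ε₀ (min ε₁ ε₂) with hε
    have hεpos : 0 < ε := lt_min hε₀ (lt_min hε₁ hε₂)
    have hε0 : ε ≤ ε₀ := min_le_left _ _
    have hε1 : ε ≤ ε₁ := (min_le_right _ _).trans (min_le_left _ _)
    have hε2 : ε ≤ ε₂ := (min_le_right _ _).trans (min_le_right _ _)
    obtain ⟨φ₁, φ₂, hsect⟩ := exists_sectorInf_eq M.toCutGeometry i
    have hV : IsOpen (regionInf (M.toCutGeometry.sectorInf i) ε) := by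
      rw [hsect]
      exact isOpen_regionInf (helper41.isOpen_sector φ₁ φ₂) ε
    have hVc : IsPreconnected (regionInf (M.toCutGeometry.sectorInf i) ε) := by
      rw [hsect]
      exact isPreconnected_regionInf_sector φ₁ φ₂ hεpos
    have hVU : ∀ w ∈ regionInf (M.toCutGeometry.sectorInf i) ε,
        M.z₀ + w⁻¹ ∈ M.toCutGeometry.U₀ := fun w hw => helper9.inf_mem_U₀_sector M i hw.2.2
    obtain ⟨α, hα⟩ := mul_const_on_region (z₀ := M.z₀) (U := M.toCutGeometry.U₀) hV hVc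
      (fun h => h.1 rfl) (g := E (sheetInf M i k))
      (φ := M.ev (sheetInf M i k) (M.coeff τ)) (Gx := Gx) (Ψ := Ψ) hVU (hE _).2
      (fun w hw => (hSan _ _ (hVU w hw)
        (hSavoid w hw.1 (lt_of_lt_of_le hw.2.1 hε2))).1.continuousAt)
      (fun w hw => (hSan _ _ (hVU w hw)
        (hSavoid w hw.1 (lt_of_lt_of_le hw.2.1 hε2))).2)
      (fun w hw => hGx w (by
        rw [Metric.mem_ball, dist_zero_right]
        exact lt_of_lt_of_le hw.2.1 hε0)) hGx0
      (fun w hw => hΨi w hw.1 (lt_of_lt_of_le hw.2.1 hε1) hw.2.2)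
    exact ⟨α, ε, hεpos, fun w hw0 hw hs => hα w ⟨hw0, hw, hs⟩⟩
  choose α ε hε hα using hsec
  refine ⟨Gx, α, hGxan 0 (Metric.mem_ball_self hε₀), hGx0 0, fun i => ?_, fun hr => ?_,
    fun i h => ?_, fun h => ?_⟩
  · have h1 : ∀ᶠ w in 𝓝[≠] (0 : ℂ), ‖w‖ < ε i := by
      refine nhdsWithin_le_nhds ?_
      have := Metric.ball_mem_nhds (0 : ℂ) (hε i)
      filter_upwards [this] with w hw
      rwa [Metric.mem_ball, dist_zero_right] at hw
    filter_upwards [h1, self_mem_nhdsWithin] with w hw hw0 hs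
    exact hα i w hw0 hw hs
  · -- no cuts
    have hU : ∀ z : ℂ, z ∈ M.toCutGeometry.U₀ := by
      intro z i
      have hi : (i : ℕ) < M.r := i.2
      omega
    obtain ⟨ε₁, hε₁, hΨi⟩ := exists_eps_of_eventually (hΨ0 hr)
    set ε' : ℝ := min ε₀ (min ε₁ ε₂) with hε'
    have hεpos : 0 < ε' := lt_min hε₀ (lt_min hε₁ hε₂)
    have hε0 : ε' ≤ ε₀ := min_le_left _ _
    have hε1 : ε' ≤ ε₁ := (min_le_right _ _).trans (min_le_left _ _)
    have hε2 : ε' ≤ ε₂ := (min_le_right _ _).trans (min_le_right _ _)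
    have hV : IsOpen (regionInf (Set.univ : Set ℂ) ε') := isOpen_regionInf isOpen_univ ε'
    have hVe : regionInf (Set.univ : Set ℂ) ε' = Metric.ball (0 : ℂ) ε' \ {0} := by
      ext w
      simp only [regionInf, Set.mem_ofPred_eq, Set.mem_univ, and_true, Set.mem_sdiff,
        Metric.mem_ball, dist_zero_right, Set.mem_singleton_iff]
      tauto
    have hVc : IsPreconnected (regionInf (Set.univ : Set ℂ) ε') := by
      rw [hVe]
      exact helper17.isPreconnected_ball_diff_singleton 0 ε'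
    obtain ⟨a, ha⟩ := mul_const_on_region (z₀ := M.z₀) (U := M.toCutGeometry.U₀) hV hVc
      (fun h => h.1 rfl) (g := E k) (φ := M.ev k (M.coeff τ)) (Gx := Gx) (Ψ := Ψ)
      (fun w _ => hU _) (hE _).2
      (fun w hw => (hSan _ _ (hU _)
        (hSavoid w hw.1 (lt_of_lt_of_le hw.2.1 hε2))).1.continuousAt)
      (fun w hw => (hSan _ _ (hU _)
        (hSavoid w hw.1 (lt_of_lt_of_le hw.2.1 hε2))).2)
      (fun w hw => hGx w (by
        rw [Metric.mem_ball, dist_zero_right]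
        exact lt_of_lt_of_le hw.2.1 hε0)) hGx0
      (fun w hw => hΨi w hw.1 (lt_of_lt_of_le hw.2.1 hε1))
    refine ⟨a, ?_⟩
    have h1 : ∀ᶠ w in 𝓝[≠] (0 : ℂ), ‖w‖ < ε' := by
      refine nhdsWithin_le_nhds ?_
      have := Metric.ball_mem_nhds (0 : ℂ) hεpos
      filter_upwards [this] with w hw
      rwa [Metric.mem_ball, dist_zero_right] at hw
    filter_upwards [h1, self_mem_nhdsWithin] with w hw hw0
    exact ha w ⟨hw0, hw, Set.mem_univ _⟩
  · -- the jump across the cut `i + 1`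
    have hright := helper41.exists_sector_subset_sectorInf_right M.toCutGeometry ⟨i + 1, h⟩
    have hne : ¬ ((⟨(i : ℕ) + 1, h⟩ : Fin M.r) : ℕ) = 0 := Nat.succ_ne_zero _
    rw [dif_neg hne] at hright
    have hi : (⟨((⟨(i : ℕ) + 1, h⟩ : Fin M.r) : ℕ) - 1, by
        have := (⟨(i : ℕ) + 1, h⟩ : Fin M.r).2; omega⟩ : Fin M.r) = i := Fin.ext (by simp)
    rw [hi] at hright
    have key := mul_jump_at_infinity M.toCutGeometry ⟨i + 1, h⟩ i hright hε₀ (hε _) (hε _)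
      hGxan hGx0 (hα ⟨i + 1, h⟩) (hα i)
      (γ := ((Additive.toMul (c ⟨i + 1, h⟩ (sheetInf M ⟨i + 1, h⟩ k)) : ℂˣ) : ℂ))
      (fun a ha => by
        have hj := hjump ⟨i + 1, h⟩ (sheetInf M ⟨i + 1, h⟩ k) a ha
        rw [sheetInf_succ] at hj
        exact hj)
    apply Units.ext
    rw [Units.val_mul]
    exact key
  · -- the jump across the cut `0`
    have hright := helper41.exists_sector_subset_sectorInf_right M.toCutGeometry ⟨0, h⟩
    rw [dif_pos rfl] at hright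
    have hα' := hα ⟨M.r - 1, by omega⟩
    rw [sheetInf_last M h k] at hα'
    have key := mul_jump_at_infinity M.toCutGeometry ⟨0, h⟩ ⟨M.r - 1, by omega⟩ hright hε₀
      (hε _) (hε _) hGxan hGx0 (hα ⟨0, h⟩) hα'
      (γ := ((Additive.toMul (c ⟨0, h⟩ (sheetInf M ⟨0, h⟩ k)) : ℂˣ) : ℂ))
      (fun a ha => by
        have hj := hjump ⟨0, h⟩ (sheetInf M ⟨0, h⟩ k) a ha
        rw [sheetInf_zero] at hj
        exact hj)
    apply Units.ext
    rw [Units.val_mul]
    exact key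

end

end Fermat.Agent.P5.helper27
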