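/-
P5 / S27, module MONO-4b (helper65, task 699): nice multiplicative primitives have constant
jumps across the cuts.

* `exists_jumpAt` : the local step at a point `a` of an open ray (crossing germ of the
  coefficient from `dictRay`, primitive on a ball, comparison on the two half-discs);
* `JumpAt.eventually`, `JumpAt.unique` : the jump constant is locally constant along the ray;
* `niceJump : helper27.NiceJump M` : constancy by connectedness of the open ray.
-/
import Mathlib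
import Fermat.Agent.P5.helper10_DictA
import Fermat.Agent.P5.helper38_CutStar
import Fermat.Agent.P5.helper27_MonoUnique
import Fermat.Agent.P5.helper17_MulPrim
import Fermat.Agent.P5.helper27_StarPrim

set_option autoImplicit false

open AlgebraicCurve Filter Topology KaehlerDifferential

namespace Fermat.Agent.P5.helper65

open Fermat.Agent.P5.helper25

noncomputable section

/-! ### Plane geometry and elementary analysis -/

theorem convex_leftSide (z₀ b : ℂ) : Convex ℝ (leftSide z₀ b) := by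
  intro x hx y hy s t hs ht hst
  have hx' : 0 < ((x - b) / (b - z₀)).im := hx
  have hy' : 0 < ((y - b) / (b - z₀)).im := hy
  have e : (s • x + t • y - b) / (b - z₀) =
      (s : ℂ) * ((x - b) / (b - z₀)) + (t : ℂ) * ((y - b) / (b - z₀)) := by
    have h1 : (s : ℂ) + (t : ℂ) = 1 := by exact_mod_cast hst
    rw [Complex.real_smul, Complex.real_smul]
    have : (s : ℂ) * x + (t : ℂ) * y - b = (s : ℂ) * (x - b) + (t : ℂ) * (y - b) := by
      linear_combination b * h1
    rw [this]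
    ring
  show 0 < ((s • x + t • y - b) / (b - z₀)).im
  rw [e]
  simp only [Complex.add_im, Complex.im_ofReal_mul]
  rcases hs.lt_or_eq with hs' | hs'
  · have := mul_pos hs' hx'
    have := mul_nonneg ht hy'.le
    linarith
  · have ht1 : t = 1 := by linarith
    rw [← hs', ht1]
    simpa using hy'

theorem convex_rightSide (z₀ b : ℂ) : Convex ℝ (rightSide z₀ b) := by
  intro x hx y hy s t hs ht hst
  have hx' : ((x - b) / (b - z₀)).im < 0 := hx
  have hy' : ((y - b) / (b - z₀)).im < 0 := hy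
  have e : (s • x + t • y - b) / (b - z₀) =
      (s : ℂ) * ((x - b) / (b - z₀)) + (t : ℂ) * ((y - b) / (b - z₀)) := by
    have h1 : (s : ℂ) + (t : ℂ) = 1 := by exact_mod_cast hst
    rw [Complex.real_smul, Complex.real_smul]
    have : (s : ℂ) * x + (t : ℂ) * y - b = (s : ℂ) * (x - b) + (t : ℂ) * (y - b) := by
      linear_combination b * h1
    rw [this]
    ring
  show ((s • x + t • y - b) / (b - z₀)).im < 0
  rw [e]
  simp only [Complex.add_im, Complex.im_ofReal_mul]
  rcases hs.lt_or_eq with hs' | hs'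
  · have := mul_neg_of_pos_of_neg hs' hx'
    have := mul_nonpos_of_nonneg_of_nonpos ht hy'.le
    linarith
  · have ht1 : t = 1 := by linarith
    rw [← hs', ht1]
    simpa using hy'

/-- Two functions continuous at `z` which agree on a punctured neighbourhood agree at `z`. -/
theorem eq_of_eventuallyEq_nhdsNE {f g : ℂ → ℂ} {z : ℂ} (hf : ContinuousAt f z)
    (hg : ContinuousAt g z) (h : f =ᶠ[𝓝[≠] z] g) : f z = g z := by
  have h1 : Tendsto f (𝓝[≠] z) (𝓝 (f z)) := hf.tendsto.mono_left nhdsWithin_le_nhds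
  have h2 : Tendsto g (𝓝[≠] z) (𝓝 (g z)) := hg.tendsto.mono_left nhdsWithin_le_nhds
  exact tendsto_nhds_unique (h1.congr' h) h2

/-- Comparison of a multiplicative primitive with a nowhere vanishing exact solution on a
preconnected open set. -/
theorem exists_const_mul {U : Set ℂ} (hU : IsOpen U) (hconn : IsPreconnected U)
    {φ G₀ E₀ : ℂ → ℂ} (hG : ∀ z ∈ U, G₀ z ≠ 0 ∧ HasDerivAt G₀ (φ z * G₀ z) z)
    (hE₀ : MeromorphicOn E₀ U)
    (hE : ∀ z ∈ U, ∀ᶠ w in 𝓝[≠] z, E₀ w ≠ 0 ∧ HasDerivAt E₀ (φ w * E₀ w) w) :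
    ∃ α : ℂˣ, ∀ z ∈ U, ContinuousAt E₀ z → E₀ z = α * G₀ z := by
  have hGm : MeromorphicOn G₀ U := by
    intro z hz
    have hd : DifferentiableOn ℂ G₀ U :=
      fun w hw => (hG w hw).2.differentiableAt.differentiableWithinAt
    exact (hd.analyticAt (hU.mem_nhds hz)).meromorphicAt
  have hG' : ∀ z ∈ U, ∀ᶠ w in 𝓝[≠] z, G₀ w ≠ 0 ∧ HasDerivAt G₀ (φ w * G₀ w) w := by
    intro z hz
    filter_upwards [mem_nhdsWithin_of_mem_nhds (hU.mem_nhds hz)] with w hw
    exact hG w hw
  obtain ⟨α, hα⟩ := helper17.mulPrimitive_unique hU hconn hGm hE₀ hG' hE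
  refine ⟨α, fun z hz hc => ?_⟩
  have hGc : ContinuousAt (fun w => (α : ℂ) * G₀ w) z :=
    continuousAt_const.mul (hG z hz).2.continuousAt
  exact eq_of_eventuallyEq_nhdsNE hc hGc (hα z hz)


/-! ### The local jump relation -/

variable {F : Type} [Field F] [Algebra ℂ F] (M : CutModel F)

/-- The jump relation at the point `a` of the `i`-th ray, for the sheet `k`, with constant
`γ`. -/
def JumpAt (E : Fin M.d → ℂ → ℂ) (i : Fin M.r) (k : Fin M.d) (a : ℂ) (γ : ℂˣ) : Prop :=
  ∃ g : ℂ → ℂ, MeromorphicAt g a ∧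
    (∀ᶠ z in 𝓝[≠] a, z ∈ leftSide M.z₀ (M.b i) → g z = E k z) ∧
    (∀ᶠ z in 𝓝[≠] a, z ∈ rightSide M.z₀ (M.b i) → g z = (γ : ℂ) * E (M.σ i k) z)

theorem hasLogPole_plRay_of_mem_T₀ {τ : Ω[F⁄ℂ]} (hτ : τ ∈ M.T₀) (i : Fin M.r) (k : Fin M.d)
    {a : ℂ} (ha : a ∈ openRay M.z₀ (M.b i)) : HasLogPole (M.plRay i k a) τ 0 := by
  obtain ⟨D, hD, hint⟩ := hτ
  have h0 : D (M.plRay i k a) = 0 := by
    by_contra hne
    obtain ⟨k', z, hz, hP⟩ := hint _ hne
    exact M.pl_ne_plRay k' z i k a hz ha hP.symm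
  have := hD (M.plRay i k a)
  rwa [h0] at this

theorem eventually_not_mem_finite {S : Set ℂ} (hS : S.Finite) (a : ℂ) :
    ∀ᶠ z in 𝓝[≠] a, z ∉ S := by
  have hc : IsClosed (S \ {a}) := (hS.subset Set.sdiff_subset).isClosed
  have h1 : ∀ᶠ z in 𝓝 a, z ∉ S \ {a} :=
    hc.isOpen_compl.mem_nhds (fun h => h.2 rfl)
  filter_upwards [nhdsWithin_le_nhds h1, self_mem_nhdsWithin] with z hz hza hzS
  exact hz ⟨hzS, hza⟩

/-- **The local step**: at every point of the open ray the jump relation holds with some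
constant. -/
theorem exists_jumpAt {τ : Ω[F⁄ℂ]} (hτ : τ ∈ M.T₀) {E : Fin M.d → ℂ → ℂ}
    (hE : M.IsMultPrim τ E) (hN : helper27.IsNice M E) (i : Fin M.r) (k : Fin M.d) {a : ℂ}
    (ha : a ∈ openRay M.z₀ (M.b i)) : ∃ γ : ℂˣ, JumpAt M E i k a γ := by
  obtain ⟨gφ, hgφ, hL, hR⟩ :=
    helper10.dictRay M τ i k a ha (hasLogPole_plRay_of_mem_T₀ M hτ i k ha)
  obtain ⟨S, hSfin, hS⟩ := hN
  -- the ball
  have h1 : ∀ᶠ z in 𝓝 a, AnalyticAt ℂ gφ z := hgφ.eventually_analyticAt
  have h2 := helper38.eventually_leftSide_mem_U₀ M.toCutGeometry i ha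
  have h3 := helper38.eventually_rightSide_mem_U₀ M.toCutGeometry i ha
  have h4 := eventually_nhdsWithin_iff.mp hL
  have h5 := eventually_nhdsWithin_iff.mp hR
  obtain ⟨ε, hε, hball⟩ :=
    Metric.eventually_nhds_iff_ball.1 (h1.and (h2.and (h3.and (h4.and h5))))
  have ha_left : a ∉ leftSide M.z₀ (M.b i) := fun h =>
    helper4.not_mem_ray_of_mem_leftSide (M.b_ne i) h (helper4.openRay_subset_ray _ _ ha)
  have ha_right : a ∉ rightSide M.z₀ (M.b i) := fun h =>
    helper38.not_mem_ray_of_mem_rightSide (M.b_ne i) h (helper4.openRay_subset_ray _ _ ha)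
  -- the primitive and its exponential
  have hd : DifferentiableOn ℂ gφ (Metric.ball a ε) := fun z hz =>
    (hball z hz).1.differentiableAt.differentiableWithinAt
  obtain ⟨P, hP⟩ := helper27.exists_primitive_of_starConvex Metric.isOpen_ball
    ((convex_ball a ε).starConvex (Metric.mem_ball_self hε)) hd
  have hG : ∀ z ∈ Metric.ball a ε, Complex.exp (P z) ≠ 0 ∧
      HasDerivAt (fun w => Complex.exp (P w)) (gφ z * Complex.exp (P z)) z := by
    intro z hz
    refine ⟨Complex.exp_ne_zero _, ?_⟩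
    have := (hP z hz).cexp
    rwa [mul_comm] at this
  -- the left half-disc
  have hGL : ∀ z ∈ Metric.ball a ε ∩ leftSide M.z₀ (M.b i), Complex.exp (P z) ≠ 0 ∧
      HasDerivAt (fun w => Complex.exp (P w)) (M.ev k (M.coeff τ) z * Complex.exp (P z)) z := by
    rintro z ⟨hzB, hzL⟩
    have hza : z ≠ a := fun h => ha_left (h ▸ hzL)
    have := (hball z hzB).2.2.2.1 hza hzL
    rw [← this]
    exact hG z hzB
  have hLU : Metric.ball a ε ∩ leftSide M.z₀ (M.b i) ⊆ M.toCutGeometry.U₀ :=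
    fun z hz => (hball z hz.1).2.1 hz.2
  obtain ⟨αL, hαL⟩ := exists_const_mul (Metric.isOpen_ball.inter (helper4.isOpen_leftSide _ _))
    ((convex_ball a ε).inter (convex_leftSide _ _)).isPreconnected hGL ((hE k).1.mono_set hLU)
    (fun z hz => (hE k).2 z (hLU hz))
  -- the right half-disc
  have hGR : ∀ z ∈ Metric.ball a ε ∩ rightSide M.z₀ (M.b i), Complex.exp (P z) ≠ 0 ∧
      HasDerivAt (fun w => Complex.exp (P w))
        (M.ev (M.σ i k) (M.coeff τ) z * Complex.exp (P z)) z := by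
    rintro z ⟨hzB, hzR⟩
    have hza : z ≠ a := fun h => ha_right (h ▸ hzR)
    have := (hball z hzB).2.2.2.2 hza hzR
    rw [← this]
    exact hG z hzB
  have hRU : Metric.ball a ε ∩ rightSide M.z₀ (M.b i) ⊆ M.toCutGeometry.U₀ :=
    fun z hz => (hball z hz.1).2.2.1 hz.2
  obtain ⟨αR, hαR⟩ := exists_const_mul
    (Metric.isOpen_ball.inter (helper38.isOpen_rightSide _ _))
    ((convex_ball a ε).inter (convex_rightSide _ _)).isPreconnected hGR
    ((hE (M.σ i k)).1.mono_set hRU) (fun z hz => (hE (M.σ i k)).2 z (hRU hz))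
  -- the germ
  have hGan : AnalyticAt ℂ (fun w => (αL : ℂ) * Complex.exp (P w)) a := by
    have hd' : DifferentiableOn ℂ (fun w => (αL : ℂ) * Complex.exp (P w)) (Metric.ball a ε) :=
      fun w hw => ((hG w hw).2.differentiableAt.const_mul _).differentiableWithinAt
    exact hd'.analyticAt (Metric.ball_mem_nhds a hε)
  have hball' : ∀ᶠ z in 𝓝[≠] a, z ∈ Metric.ball a ε :=
    mem_nhdsWithin_of_mem_nhds (Metric.ball_mem_nhds a hε)
  refine ⟨αL / αR, fun w => (αL : ℂ) * Complex.exp (P w), hGan.meromorphicAt, ?_, ?_⟩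
  · filter_upwards [hball', eventually_not_mem_finite hSfin a] with z hzB hzS hzL
    exact (hαL z ⟨hzB, hzL⟩ (hS k z (hLU ⟨hzB, hzL⟩) hzS).1.continuousAt).symm
  · filter_upwards [hball', eventually_not_mem_finite hSfin a] with z hzB hzS hzR
    rw [hαR z ⟨hzB, hzR⟩ (hS (M.σ i k) z (hRU ⟨hzB, hzR⟩) hzS).1.continuousAt]
    have hne : (αR : ℂ) ≠ 0 := αR.ne_zero
    push_cast
    field_simp

/-- The jump relation is open in the base point. -/
theorem JumpAt.eventually {E : Fin M.d → ℂ → ℂ} {i : Fin M.r} {k : Fin M.d} {a : ℂ} {γ : ℂˣ}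
    (h : JumpAt M E i k a γ) : ∀ᶠ a' in 𝓝 a, JumpAt M E i k a' γ := by
  obtain ⟨g, hg, hL, hR⟩ := h
  have h1 : ∀ᶠ z in 𝓝[≠] a, AnalyticAt ℂ g z ∧
      (z ∈ leftSide M.z₀ (M.b i) → g z = E k z) ∧
      (z ∈ rightSide M.z₀ (M.b i) → g z = (γ : ℂ) * E (M.σ i k) z) :=
    hg.eventually_analyticAt.and (hL.and hR)
  have h2 := helper4.eventually_eventually_punctured h1
  rw [eventually_nhdsWithin_iff] at h2
  filter_upwards [h2] with a' ha'
  by_cases haa : a' = a
  · rw [haa]
    exact ⟨g, hg, hL, hR⟩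
  · have h3 := ha' haa
    refine ⟨g, h3.self_of_nhds.1.meromorphicAt, ?_, ?_⟩
    · filter_upwards [nhdsWithin_le_nhds h3] with w hw using hw.2.1
    · filter_upwards [nhdsWithin_le_nhds h3] with w hw using hw.2.2

/-- The jump constant at a point of the open ray is unique. -/
theorem JumpAt.unique {τ : Ω[F⁄ℂ]} {E : Fin M.d → ℂ → ℂ} (hE : M.IsMultPrim τ E)
    {i : Fin M.r} {k : Fin M.d} {a : ℂ} (ha : a ∈ openRay M.z₀ (M.b i)) {γ γ' : ℂˣ}
    (h : JumpAt M E i k a γ) (h' : JumpAt M E i k a γ') : γ = γ' := by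
  obtain ⟨g, hg, hL, hR⟩ := h
  obtain ⟨g', hg', hL', hR'⟩ := h'
  have key := helper27.eventuallyEq_of_left M.toCutGeometry i ha hg hg' hL hL' (κ := 1)
    (fun z _ => Eventually.of_forall fun w => (one_mul _).symm)
  have hP : ∀ᶠ z in 𝓝[≠] a, z ∈ rightSide M.z₀ (M.b i) ∩ M.toCutGeometry.U₀ →
      (g' z = 1 * g z ∧ g z = (γ : ℂ) * E (M.σ i k) z ∧ g' z = (γ' : ℂ) * E (M.σ i k) z) := by
    filter_upwards [key, hR, hR'] with z h1 h2 h3 hz
    exact ⟨h1, h2 hz.1, h3 hz.1⟩
  have hQ : ∀ z ∈ M.toCutGeometry.U₀, ∀ᶠ w in 𝓝[≠] z, E (M.σ i k) w ≠ 0 := by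
    intro z hz
    filter_upwards [(hE (M.σ i k)).2 z hz] with w hw using hw.1
  obtain ⟨w, -, ⟨h1, h2, h3⟩, h4⟩ := helper27.exists_generic M.toCutGeometry
    (helper27.isOpen_rightU M.toCutGeometry i) Set.inter_subset_right
    (helper27.frequently_rightSide M.toCutGeometry i ha) hP hQ
  rw [one_mul, h2] at h1
  rw [h1] at h3
  have h5 := mul_right_cancel₀ h4 h3
  exact Units.ext h5

/-- **[MONO-4b]** nice multiplicative primitives have constant jumps. -/
theorem niceJump (M : helper25.CutModel F) : helper27.NiceJump M := by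
  intro τ hτ E hE hN
  have key : ∀ (i : Fin M.r) (k : Fin M.d), ∃ γ : ℂˣ,
      ∀ a ∈ openRay M.z₀ (M.b i), JumpAt M E i k a γ := by
    intro i k
    have ha₀ : M.b i + ((1 : ℝ) : ℂ) * (M.b i - M.z₀) ∈ openRay M.z₀ (M.b i) :=
      ⟨1, one_pos, rfl⟩
    obtain ⟨γ₀, hγ₀⟩ := exists_jumpAt M hτ hE hN i k ha₀
    refine ⟨γ₀, ?_⟩
    classical
    have hf : ContinuousOn (fun a => decide (JumpAt M E i k a γ₀))
        (openRay M.z₀ (M.b i)) := by
      intro a ha
      by_cases hJ : JumpAt M E i k a γ₀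
      · have h1 : (fun a => decide (JumpAt M E i k a γ₀)) =ᶠ[𝓝[openRay M.z₀ (M.b i)] a]
            fun _ => true := by
          filter_upwards [nhdsWithin_le_nhds (JumpAt.eventually M hJ)] with a' ha'
          simp [ha']
        exact continuousWithinAt_const.congr_of_eventuallyEq h1 (by simp [hJ])
      · obtain ⟨γ₁, hγ₁⟩ := exists_jumpAt M hτ hE hN i k ha
        have hne : γ₁ ≠ γ₀ := fun h => hJ (h ▸ hγ₁)
        have h1 : (fun a => decide (JumpAt M E i k a γ₀)) =ᶠ[𝓝[openRay M.z₀ (M.b i)] a]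
            fun _ => false := by
          filter_upwards [nhdsWithin_le_nhds (JumpAt.eventually M hγ₁), self_mem_nhdsWithin]
            with a' ha' ha'r
          simp only [decide_eq_false_iff_not]
          intro hJ'
          exact hne (JumpAt.unique M hE ha'r ha' hJ')
        exact continuousWithinAt_const.congr_of_eventuallyEq h1 (by simp [hJ])
    intro a ha
    have h2 : decide (JumpAt M E i k a γ₀) =
        decide (JumpAt M E i k (M.b i + ((1 : ℝ) : ℂ) * (M.b i - M.z₀)) γ₀) :=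
      (helper38.isPreconnected_openRay M.z₀ (M.b i)).constant hf ha ha₀
    exact (decide_eq_decide.mp h2).mpr hγ₀
  choose γ hγ using key
  refine ⟨fun i k => Additive.ofMul (γ i k), fun i k a ha => ?_⟩
  obtain ⟨g, hg, hL, hR⟩ := hγ i k a ha
  exact ⟨g, hg, hL, by simpa using hR⟩

end

end Fermat.Agent.P5.helper65
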