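/-
P5 / S27, module MONO (helper27): **THE DELIVERABLE OF MODULE MONO**,

  `monoStatement : helper25.MonoStatement`,

verbatim and unconditional: for every cut model `M` of a function field `F/ℂ` the eight
packages of `helper25.MonoPackages M` hold.

Contributors: helper17 (multiplicative primitives), helper38 (geometry of the cut plane),
helper41 (sectors), helper10 and helper9 (local dictionary), helper65 (jumps), helper48 (bad
points), helper83 (chart at infinity), helper56 (the permutation complex), helper4 (orders and
identity principle), helper25 (interface), helper27 (primitives on star-shaped sets, functoriality,
uniqueness, nice primitives, infinity, assembly).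
-/
import Mathlib
import Fermat.Agent.P5.helper27_NiceExists
import Fermat.Agent.P5.helper27_LocalInf
import Fermat.Agent.P5.helper48_LocalBad
import Fermat.Agent.P5.helper65_NiceJump

set_option autoImplicit false
set_option linter.style.haveILetI false

open AlgebraicCurve Filter Topology KaehlerDifferential

namespace Fermat.Agent.P5.helper27

open Fermat.Agent.P5.helper25

noncomputable section

/-- **[MONO]** for one cut model. -/
theorem monoPackages {F : Type} [Field F] [Algebra ℂ F] (M : CutModel F) : MonoPackages M :=
  monoPackages_of M mulPrimUnique (helper38.isPreconnected_U₀ _) (niceExists M)
    (helper65.niceJump M) (helper48.localBad M) (localInf M)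

/-- **[MONO]** the statement of module MONO. -/
theorem monoStatement : MonoStatement := fun _ _ _ _ _ M => monoPackages M

end

end Fermat.Agent.P5.helper27
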