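/-
P5 / S27, module MOD (helper37, sub-coordinator, task 430): ALGEBRAIC INTERFACE.

* `Presentation F` : `F = ℂ(x)[y]/(f)`, `f ∈ ℂ[X][Y]` monic in `Y` (output of MOD-ALG);
* `SheetModel F`   : a cut model WITHOUT places and WITHOUT global generation (output of MOD-EV);
* `PlaceData M`    : the four families of places of a sheet model and the dictionary
                     (output of MOD-PL);
* `GlueProp M`     : global generation (output of MOD-GLUE);
* `CutModel.ofParts` : a sheet model + place data + glue + transitivity is a `CutModel`.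
-/
import Mathlib
import Fermat.Agent.P5.helper37_ModAnalytic

set_option autoImplicit false

open AlgebraicCurve Filter Topology

namespace Fermat.Agent.P5.helper37

open Fermat.Agent.P5.helper25

noncomputable section

variable (F : Type) [Field F] [Algebra ℂ F]

/-! ### Presentations -/

/-- A presentation `F = ℂ(x)[y]/(f)` with `f ∈ ℂ[X][Y]` monic in `Y` of degree `[F : ℂ(x)]`. -/
structure Presentation where
  /-- the coordinate function -/
  x : F
  /-- a primitive element, integral over `ℂ[x]` -/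
  y : F
  /-- the equation -/
  f : Polynomial (Polynomial ℂ)
  x_transcendental : Transcendental ℂ x
  x_finite : FiniteDimensional (IntermediateField.adjoin ℂ {x}) F
  f_monic : f.Monic
  f_natDegree : f.natDegree = Module.finrank (IntermediateField.adjoin ℂ {x}) F
  f_root : Polynomial.eval₂ ((Polynomial.aeval x : Polynomial ℂ →ₐ[ℂ] F) : Polynomial ℂ →+* F)
    y f = 0
  /-- `1, y, …, y ^ (d - 1)` generate `F` over `ℂ(x)` -/
  gen : ∀ h : F, ∃ (p : Fin f.natDegree → Polynomial ℂ) (q : Polynomial ℂ), q ≠ 0 ∧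
    Polynomial.aeval x q * h = ∑ j, Polynomial.aeval x (p j) * y ^ (j : ℕ)

/-! ### Sheet models -/

/-- **A sheet model** of `F/ℂ`: all the data of a cut model except the places and the global
generation property. -/
structure SheetModel extends CutGeometry where
  r_pos : 0 < r
  /-- the coordinate function -/
  x : F
  x_transcendental : Transcendental ℂ x
  x_finite : FiniteDimensional (IntermediateField.adjoin ℂ {x}) F
  /-- the number of sheets `d = [F : ℂ(x)]` -/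
  d : ℕ
  d_pos : 0 < d
  d_eq : d = Module.finrank (IntermediateField.adjoin ℂ {x}) F
  /-- evaluation of `h ∈ F` on the `k`-th sheet -/
  ev : Fin d → F → ℂ → ℂ
  /-- the crossing permutations -/
  σ : Fin r → Equiv.Perm (Fin d)
  ev_meromorphicOn : ∀ k h, MeromorphicOn (ev k h) toCutGeometry.U₀
  ev_x : ∀ k, Set.EqOn (ev k x) id toCutGeometry.U₀
  ev_algebraMap : ∀ k (c : ℂ), Set.EqOn (ev k (algebraMap ℂ F c)) (fun _ => c) toCutGeometry.U₀
  ev_add : ∀ k h₁ h₂, ∀ z ∈ toCutGeometry.U₀,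
    ev k (h₁ + h₂) =ᶠ[𝓝[≠] z] fun w => ev k h₁ w + ev k h₂ w
  ev_mul : ∀ k h₁ h₂, ∀ z ∈ toCutGeometry.U₀,
    ev k (h₁ * h₂) =ᶠ[𝓝[≠] z] fun w => ev k h₁ w * ev k h₂ w
  /-- different sheets are different embeddings -/
  ev_separated : ∀ k k', k ≠ k' → ∀ z ∈ toCutGeometry.U₀,
    ∃ h : F, ¬ (ev k h =ᶠ[𝓝[≠] z] ev k' h)
  /-- crossing -/
  cross : ∀ (i : Fin r) (k : Fin d) (a : ℂ), a ∈ openRay z₀ (b i) → ∀ h : F,
    ∃ g : ℂ → ℂ, MeromorphicAt g a ∧
      (∀ᶠ z in 𝓝[≠] a, z ∈ leftSide z₀ (b i) → g z = ev k h z) ∧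
      (∀ᶠ z in 𝓝[≠] a, z ∈ rightSide z₀ (b i) → g z = ev (σ i k) h z)
  /-- Puiseux parametrisation at the bad points -/
  puiseux : ∀ (i : Fin r) (k : Fin d) (h : F),
    ∃ H : ℂ → ℂ, MeromorphicAt H 0 ∧
      ∀ j : ℕ, ∀ᶠ s in 𝓝[≠] (0 : ℂ),
        s ∈ sector (2 * Real.pi * j / Function.minimalPeriod (σ i) k)
            (2 * Real.pi * (j + 1) / Function.minimalPeriod (σ i) k) →
          H s = ev (((σ i)⁻¹ ^ j) k) h
            (b i + s ^ Function.minimalPeriod (σ i) k * unitDir z₀ (b i))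
  prod_σ : (List.ofFn σ).prod = 1
  /-- parametrisation at infinity -/
  atInf : ∀ (k : Fin d) (h : F),
    ∃ H : ℂ → ℂ, MeromorphicAt H 0 ∧
      ∀ i : Fin r, ∀ᶠ w in 𝓝[≠] (0 : ℂ), w⁻¹ ∈ toCutGeometry.sectorInf i →
          H w = ev ((((List.ofFn σ).take (i + 1)).prod)⁻¹ k) h (z₀ + w⁻¹)

variable {F}

/-! ### Places of a sheet model -/

/-- The four families of places of a sheet model, with the complete dictionary. -/
structure PlaceData (M : SheetModel F) where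
  /-- interior places -/
  pl : Fin M.d → ℂ → Place ℂ F
  /-- places over the open rays, labelled by the sheet on the LEFT side -/
  plRay : Fin M.r → Fin M.d → ℂ → Place ℂ F
  /-- places over the bad points -/
  plBad : Fin M.r → Fin M.d → Place ℂ F
  /-- places over `∞` -/
  plInf : Fin M.d → Place ℂ F
  pl_ord : ∀ k z, z ∈ M.toCutGeometry.U₀ → ∀ h : F, h ≠ 0 →
    ((pl k z).ord h : WithTop ℤ) = meromorphicOrderAt (M.ev k h) z
  plRay_ord : ∀ (i : Fin M.r) (k : Fin M.d) (a : ℂ), a ∈ openRay M.z₀ (M.b i) →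
    ∀ h : F, h ≠ 0 → ∀ g : ℂ → ℂ, MeromorphicAt g a →
      (∀ᶠ z in 𝓝[≠] a, z ∈ leftSide M.z₀ (M.b i) → g z = M.ev k h z) →
      ((plRay i k a).ord h : WithTop ℤ) = meromorphicOrderAt g a
  plBad_ord : ∀ (i : Fin M.r) (k : Fin M.d) (h : F), h ≠ 0 → ∀ H : ℂ → ℂ, MeromorphicAt H 0 →
    (∀ j : ℕ, ∀ᶠ s in 𝓝[≠] (0 : ℂ),
        s ∈ sector (2 * Real.pi * j / Function.minimalPeriod (M.σ i) k)
            (2 * Real.pi * (j + 1) / Function.minimalPeriod (M.σ i) k) →
          H s = M.ev (((M.σ i)⁻¹ ^ j) k) h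
            (M.b i + s ^ Function.minimalPeriod (M.σ i) k * unitDir M.z₀ (M.b i))) →
    ((plBad i k).ord h : WithTop ℤ) = meromorphicOrderAt H 0
  plBad_apply : ∀ i k, plBad i (M.σ i k) = plBad i k
  plInf_ord : ∀ (k : Fin M.d) (h : F), h ≠ 0 → ∀ H : ℂ → ℂ, MeromorphicAt H 0 →
    (∀ i : Fin M.r, ∀ᶠ w in 𝓝[≠] (0 : ℂ), w⁻¹ ∈ M.toCutGeometry.sectorInf i →
        H w = M.ev ((((List.ofFn M.σ).take (i + 1)).prod)⁻¹ k) h (M.z₀ + w⁻¹)) →
    ((plInf k).ord h : WithTop ℤ) = meromorphicOrderAt H 0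
  exhaust : ∀ P : Place ℂ F,
    (∃ k z, z ∈ M.toCutGeometry.U₀ ∧ P = pl k z) ∨
    (∃ i k a, a ∈ openRay M.z₀ (M.b i) ∧ P = plRay i k a) ∨
    (∃ i k, P = plBad i k) ∨ (∃ k, P = plInf k)
  pl_injective : ∀ k k' z z', z ∈ M.toCutGeometry.U₀ → z' ∈ M.toCutGeometry.U₀ →
    pl k z = pl k' z' → k = k' ∧ z = z'
  pl_ne_plRay : ∀ k z i k' a, z ∈ M.toCutGeometry.U₀ → a ∈ openRay M.z₀ (M.b i) →
    pl k z ≠ plRay i k' a
  pl_ne_plBad : ∀ k z i k', z ∈ M.toCutGeometry.U₀ → pl k z ≠ plBad i k'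
  pl_ne_plInf : ∀ k z k', z ∈ M.toCutGeometry.U₀ → pl k z ≠ plInf k'
  plBad_injective : ∀ i k i' k', plBad i k = plBad i' k' →
    i = i' ∧ ∃ j : ℕ, ((M.σ i) ^ j) k = k'
  plBad_ne_plInf : ∀ i k k', plBad i k ≠ plInf k'
  plBad_ne_plRay : ∀ i k i' k' a, a ∈ openRay M.z₀ (M.b i') → plBad i k ≠ plRay i' k' a
  plInf_injective : Function.Injective plInf
  plInf_ne_plRay : ∀ k i' k' a, a ∈ openRay M.z₀ (M.b i') → plInf k ≠ plRay i' k' a

/-! ### Global generation -/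

/-- **Global generation** for a sheet model (the field `glue` of a cut model). -/
def GlueProp (M : SheetModel F) : Prop :=
  ∀ u : Fin M.d → ℂ → ℂ, (∀ k, MeromorphicOn (u k) M.toCutGeometry.U₀) →
    (∀ (i : Fin M.r) (k : Fin M.d) (a : ℂ), a ∈ openRay M.z₀ (M.b i) →
      ∃ g : ℂ → ℂ, MeromorphicAt g a ∧
        (∀ᶠ z in 𝓝[≠] a, z ∈ leftSide M.z₀ (M.b i) → g z = u k z) ∧
        (∀ᶠ z in 𝓝[≠] a, z ∈ rightSide M.z₀ (M.b i) → g z = u (M.σ i k) z)) →
    (∀ (i : Fin M.r) (k : Fin M.d), ∃ H : ℂ → ℂ, MeromorphicAt H 0 ∧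
      ∀ j : ℕ, ∀ᶠ s in 𝓝[≠] (0 : ℂ),
        s ∈ sector (2 * Real.pi * j / Function.minimalPeriod (M.σ i) k)
            (2 * Real.pi * (j + 1) / Function.minimalPeriod (M.σ i) k) →
          H s = u (((M.σ i)⁻¹ ^ j) k)
            (M.b i + s ^ Function.minimalPeriod (M.σ i) k * unitDir M.z₀ (M.b i))) →
    (∀ k : Fin M.d, ∃ H : ℂ → ℂ, MeromorphicAt H 0 ∧
      (∀ i : Fin M.r, ∀ᶠ w in 𝓝[≠] (0 : ℂ), w⁻¹ ∈ M.toCutGeometry.sectorInf i →
          H w = u ((((List.ofFn M.σ).take (i + 1)).prod)⁻¹ k) (M.z₀ + w⁻¹)) ∧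
      (M.r = 0 → ∀ᶠ w in 𝓝[≠] (0 : ℂ), H w = u k (M.z₀ + w⁻¹))) →
    ∃ h : F, ∀ k, ∀ z ∈ M.toCutGeometry.U₀, u k =ᶠ[𝓝[≠] z] M.ev k h

/-- Compatibility of a sheet model with `d/dx` (the field `ev_deriv` of a cut model). -/
def DerivProp (M : SheetModel F) : Prop :=
  ∀ k (h h' : F), KaehlerDifferential.D ℂ F h = h' • KaehlerDifferential.D ℂ F M.x →
    ∀ z ∈ M.toCutGeometry.U₀, M.ev k h' =ᶠ[𝓝[≠] z] deriv (M.ev k h)

/-- `dx` generates the differentials. -/
def DxSpansProp (M : SheetModel F) : Prop :=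
  ∀ τ : Ω[F⁄ℂ], ∃ h : F, τ = h • KaehlerDifferential.D ℂ F M.x

/-- Transitivity of the monodromy. -/
def TransProp (M : SheetModel F) : Prop :=
  ∀ k k' : Fin M.d, ∃ g ∈ Subgroup.closure (Set.range M.σ), g k = k'

/-! ### Assembly of a cut model from its parts -/

/-- A sheet model with place data, `d/dx`-compatibility, global generation and transitive
monodromy is a cut model. -/
def CutModel.ofParts (M : SheetModel F) (pd : PlaceData M) (hderiv : DerivProp M)
    (hdx : DxSpansProp M) (hglue : GlueProp M) (htrans : TransProp M) : CutModel F where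
  toCutGeometry := M.toCutGeometry
  x := M.x
  x_transcendental := M.x_transcendental
  x_finite := M.x_finite
  d := M.d
  d_pos := M.d_pos
  ev := M.ev
  σ := M.σ
  ev_meromorphicOn := M.ev_meromorphicOn
  ev_x := M.ev_x
  ev_algebraMap := M.ev_algebraMap
  ev_add := M.ev_add
  ev_mul := M.ev_mul
  ev_deriv := hderiv
  dx_spans := hdx
  pl := pd.pl
  plRay := pd.plRay
  plBad := pd.plBad
  plInf := pd.plInf
  pl_ord := pd.pl_ord
  cross := fun i k a ha h hh => by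
    obtain ⟨g, hg, hL, hR⟩ := M.cross i k a ha h
    exact ⟨g, hg, hL, hR, pd.plRay_ord i k a ha h hh g hg hL⟩
  puiseux := fun i k h hh => by
    obtain ⟨H, hH, hsec⟩ := M.puiseux i k h
    exact ⟨H, hH, hsec, pd.plBad_ord i k h hh H hH hsec⟩
  plBad_apply := pd.plBad_apply
  prod_σ := M.prod_σ
  atInf := fun k h hh => by
    obtain ⟨H, hH, hsec⟩ := M.atInf k h
    exact ⟨H, hH, hsec, fun h0 => absurd h0 M.r_pos.ne', pd.plInf_ord k h hh H hH hsec⟩
  exhaust := pd.exhaust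
  pl_injective := pd.pl_injective
  pl_ne_plRay := pd.pl_ne_plRay
  pl_ne_plBad := pd.pl_ne_plBad
  pl_ne_plInf := pd.pl_ne_plInf
  plBad_injective := pd.plBad_injective
  plBad_ne_plInf := pd.plBad_ne_plInf
  plBad_ne_plRay := pd.plBad_ne_plRay
  plInf_injective := pd.plInf_injective
  plInf_ne_plRay := pd.plInf_ne_plRay
  transitive := htrans
  glue := hglue

end

end Fermat.Agent.P5.helper37
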