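/-
P5 / S27, module MOD (helper37, sub-coordinator, task 430): STATEMENTS OF THE PACKAGES
(algebraic side). The analytic statements are in `helper37_ModAnalytic`.
-/
import Mathlib
import Fermat.Agent.P5.helper37_ModDefs

set_option autoImplicit false

open AlgebraicCurve Filter Topology

namespace Fermat.Agent.P5.helper37

open Fermat.Agent.P5.helper25

noncomputable section

/-! ### MOD-ALG -/

/-- **[MOD-ALG0]** a function field of one variable has a separating coordinate. -/
def Alg0Statement : Prop :=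
  ∀ (F : Type) [Field F] [Algebra ℂ F] [IsCurveOver ℂ F] [Algebra.EssFiniteType ℂ F],
    ∃ x : F, Transcendental ℂ x ∧ FiniteDimensional (IntermediateField.adjoin ℂ {x}) F

/-- **[MOD-ALG1]** every coordinate extends to a presentation. -/
def Alg1Statement : Prop :=
  ∀ (F : Type) [Field F] [Algebra ℂ F] (x : F), Transcendental ℂ x →
    FiniteDimensional (IntermediateField.adjoin ℂ {x}) F → ∃ p : Presentation F, p.x = x

/-- **[MOD-SEP]** a presentation has finitely many bad values. -/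
def SepStatement : Prop :=
  ∀ (F : Type) [Field F] [Algebra ℂ F] (p : Presentation F),
    {z : ℂ | ¬ (specialize p.f z).Separable}.Finite

/-- **[MOD-ALG2]** inversion at a good value: there is a presentation for which `∞` is good. -/
def Alg2Statement : Prop :=
  ∀ (F : Type) [Field F] [Algebra ℂ F], Nonempty (Presentation F) →
    ∃ p : Presentation F, GoodAtInf p.f

/-- **[MOD-ALG]** = ALG0 + ALG1 + ALG2. -/
def PresStatement : Prop :=
  ∀ (F : Type) [Field F] [Algebra ℂ F] [IsCurveOver ℂ F] [Algebra.EssFiniteType ℂ F],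
    ∃ p : Presentation F, GoodAtInf p.f

theorem presStatement_of (h0 : Alg0Statement) (h1 : Alg1Statement) (h2 : Alg2Statement) :
    PresStatement := by
  intro F _ _ _ _
  obtain ⟨x, hx, hfin⟩ := h0 F
  obtain ⟨p, -⟩ := h1 F x hx hfin
  exact h2 F ⟨p⟩

/-- **[MOD-LIFT]** the universal property of a presentation. -/
def LiftStatement : Prop :=
  ∀ (F : Type) [Field F] [Algebra ℂ F] (p : Presentation F) (L : Type) [Field L] [Algebra ℂ L]
    (ξ γ : L), Transcendental ℂ ξ →
    Polynomial.eval₂ ((Polynomial.aeval ξ : Polynomial ℂ →ₐ[ℂ] L) : Polynomial ℂ →+* L) γ p.f = 0 →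
    ∃ Φ : F →ₐ[ℂ] L, Φ p.x = ξ ∧ Φ p.y = γ

/-! ### MOD-EV, MOD-DERIV -/

/-- **[MOD-EV]** a presentation and the monodromy data of its equation give a sheet model. -/
def EvStatement : Prop :=
  ∀ (F : Type) [Field F] [Algebra ℂ F] (p : Presentation F) (D : BranchData)
    (σ : Fin D.r → Equiv.Perm (Fin D.d)), D.f = p.f → D.CrossProp σ → D.PuisProp σ →
    D.InfProp σ → ∃ M : SheetModel F, M.toCutGeometry = D.toCutGeometry ∧ M.x = p.x

/-- **[MOD-DERIV]** the sheets are compatible with `d/dx`. -/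
def DerivStatement : Prop :=
  ∀ (F : Type) [Field F] [Algebra ℂ F] (M : SheetModel F), DerivProp M

/-! ### MOD-DICT, MOD-PL -/

/-- **[MOD-DICT]** the abstract dictionary: `d = [F : ℂ(t)]` pairwise distinct embeddings of `F`
into a valued field `L`, agreeing on `ℂ(t)`, with `V(t) = exp(-E)` and permuted by a "rotation"
`π` preserving `V`, give ALL the places over `t = 0`: one for each cycle of `π`, with
ramification index the length of the cycle. -/
def DictStatement : Prop :=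
  ∀ (F : Type) [Field F] [Algebra ℂ F] (L : Type) [Field L] (t : F), Transcendental ℂ t →
    FiniteDimensional (IntermediateField.adjoin ℂ {t}) F →
    ∀ (V : Valuation L (WithZero (Multiplicative ℤ))) (d : ℕ) (σ : Fin d → F →+* L),
    Function.Injective σ → d = Module.finrank (IntermediateField.adjoin ℂ {t}) F →
    (∀ i (c : ℂ), c ≠ 0 → V (σ i (algebraMap ℂ F c)) = 1) →
    (∀ i j (c : ℂ), σ i (algebraMap ℂ F c) = σ j (algebraMap ℂ F c)) →
    (∀ i j, σ i t = σ j t) →
    ∀ E : ℕ, 0 < E → (∀ i, V (σ i t) = WithZero.exp (-(E : ℤ))) →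
    ∀ π : Equiv.Perm (Fin d), π ^ E = 1 → (∀ i f, V (σ (π i) f) = V (σ i f)) →
    (∀ (i : Fin d) (k : ℕ), k ∣ E → (π ^ (E / k)) i = i →
      ∀ f : F, f ≠ 0 → ∃ m : ℤ, V (σ i f) = WithZero.exp (m * k)) →
    ∃ W : Fin d → Place ℂ F,
      (∀ i f, f ≠ 0 → V (σ i f) =
        WithZero.exp (-(((E / Function.minimalPeriod π i : ℕ) : ℤ) * (W i).ord f))) ∧
      (∀ i, (W i).ord t = (Function.minimalPeriod π i : ℤ)) ∧
      (∀ w : Place ℂ F, 0 < w.ord t → ∃ i, W i = w) ∧
      (∀ i j, W i = W j ↔ ∃ n : ℕ, (π ^ n) i = j)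

variable {F : Type} [Field F] [Algebra ℂ F]

/-- interior places of a sheet model -/
def IntPlaces (M : SheetModel F) : Prop :=
  ∃ pl : Fin M.d → ℂ → Place ℂ F,
    (∀ k z, z ∈ M.toCutGeometry.U₀ → ∀ h : F, h ≠ 0 →
      ((pl k z).ord h : WithTop ℤ) = meromorphicOrderAt (M.ev k h) z) ∧
    (∀ z ∈ M.toCutGeometry.U₀, ∀ P : Place ℂ F, 0 < P.ord (M.x - algebraMap ℂ F z) →
      ∃ k, P = pl k z) ∧
    (∀ z ∈ M.toCutGeometry.U₀, Function.Injective fun k => pl k z)

/-- ray places of a sheet model -/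
def RayPlaces (M : SheetModel F) : Prop :=
  ∃ plRay : Fin M.r → Fin M.d → ℂ → Place ℂ F,
    (∀ (i : Fin M.r) (k : Fin M.d) (a : ℂ), a ∈ openRay M.z₀ (M.b i) →
      ∀ h : F, h ≠ 0 → ∀ g : ℂ → ℂ, MeromorphicAt g a →
        (∀ᶠ z in 𝓝[≠] a, z ∈ leftSide M.z₀ (M.b i) → g z = M.ev k h z) →
        ((plRay i k a).ord h : WithTop ℤ) = meromorphicOrderAt g a) ∧
    (∀ (i : Fin M.r) (a : ℂ), a ∈ openRay M.z₀ (M.b i) → ∀ P : Place ℂ F,
      0 < P.ord (M.x - algebraMap ℂ F a) → ∃ k, P = plRay i k a)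

/-- bad places of a sheet model -/
def BadPlaces (M : SheetModel F) : Prop :=
  ∃ plBad : Fin M.r → Fin M.d → Place ℂ F,
    (∀ (i : Fin M.r) (k : Fin M.d) (h : F), h ≠ 0 → ∀ H : ℂ → ℂ, MeromorphicAt H 0 →
      (∀ j : ℕ, ∀ᶠ s in 𝓝[≠] (0 : ℂ),
          s ∈ sector (2 * Real.pi * j / Function.minimalPeriod (M.σ i) k)
              (2 * Real.pi * (j + 1) / Function.minimalPeriod (M.σ i) k) →
            H s = M.ev (((M.σ i)⁻¹ ^ j) k) h
              (M.b i + s ^ Function.minimalPeriod (M.σ i) k * unitDir M.z₀ (M.b i))) →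
      ((plBad i k).ord h : WithTop ℤ) = meromorphicOrderAt H 0) ∧
    (∀ i k, plBad i (M.σ i k) = plBad i k) ∧
    (∀ (i : Fin M.r) (P : Place ℂ F), 0 < P.ord (M.x - algebraMap ℂ F (M.b i)) →
      ∃ k, P = plBad i k) ∧
    (∀ i k k', plBad i k = plBad i k' → ∃ j : ℕ, ((M.σ i) ^ j) k = k')

/-- places at infinity of a sheet model -/
def InfPlaces (M : SheetModel F) : Prop :=
  ∃ plInf : Fin M.d → Place ℂ F,
    (∀ (k : Fin M.d) (h : F), h ≠ 0 → ∀ H : ℂ → ℂ, MeromorphicAt H 0 →
      (∀ i : Fin M.r, ∀ᶠ w in 𝓝[≠] (0 : ℂ), w⁻¹ ∈ M.toCutGeometry.sectorInf i →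
          H w = M.ev ((((List.ofFn M.σ).take (i + 1)).prod)⁻¹ k) h (M.z₀ + w⁻¹)) →
      ((plInf k).ord h : WithTop ℤ) = meromorphicOrderAt H 0) ∧
    (∀ P : Place ℂ F, P.ord M.x < 0 → ∃ k, P = plInf k) ∧
    Function.Injective plInf

/-- **[MOD-PL-INT]** -/
def IntPlacesStatement : Prop :=
  DictStatement → ∀ (F : Type) [Field F] [Algebra ℂ F] (M : SheetModel F), IntPlaces M

/-- **[MOD-PL-RAY]** -/
def RayPlacesStatement : Prop :=
  DictStatement → ∀ (F : Type) [Field F] [Algebra ℂ F] (M : SheetModel F), RayPlaces M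

/-- **[MOD-PL-BAD]** -/
def BadPlacesStatement : Prop :=
  DictStatement → ∀ (F : Type) [Field F] [Algebra ℂ F] (M : SheetModel F), BadPlaces M

/-- **[MOD-PL-INF]** -/
def InfPlacesStatement : Prop :=
  DictStatement → ∀ (F : Type) [Field F] [Algebra ℂ F] (M : SheetModel F), InfPlaces M

/-- **[MOD-PL-ASM]** -/
def PlAsmStatement : Prop :=
  ∀ (F : Type) [Field F] [Algebra ℂ F] (M : SheetModel F), IntPlaces M → RayPlaces M →
    BadPlaces M → InfPlaces M → Nonempty (PlaceData M)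

/-- **[MOD-PL]** -/
def PlacesStatement : Prop :=
  ∀ (F : Type) [Field F] [Algebra ℂ F] (M : SheetModel F), Nonempty (PlaceData M)

theorem placesStatement_of (hD : DictStatement) (h1 : IntPlacesStatement)
    (h2 : RayPlacesStatement) (h3 : BadPlacesStatement) (h4 : InfPlacesStatement)
    (h5 : PlAsmStatement) : PlacesStatement :=
  fun F _ _ M => h5 F M (h1 hD F M) (h2 hD F M) (h3 hD F M) (h4 hD F M)

/-! ### MOD-GLUE -/

/-- **[MOD-GLUE]** global generation, from the rationality statement. -/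
def GlueStatement : Prop :=
  RatStatement → ∀ (F : Type) [Field F] [Algebra ℂ F] (M : SheetModel F), GlueProp M

end

end Fermat.Agent.P5.helper37
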