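/-
P5 / S27, module MOD (helper37): MOD-ALG0.

A function field of one variable over `ℂ` (in the sense `IsCurveOver` + `EssFiniteType`) has a
coordinate `x`: transcendental, with `F / ℂ(x)` finite.
-/
import Mathlib
import Fermat.Agent.P5.helper37_ModStatements
import Fermat.Agent.S24.helper82_FFBasic

set_option autoImplicit false

open AlgebraicCurve IntermediateField

namespace Fermat.Agent.P5.helper37

/-- **[MOD-ALG0]** -/
theorem alg0Statement : Alg0Statement := by
  intro F _ _ _ _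
  obtain ⟨hfree, hrank⟩ := IsCurveOver.kaehler_free_rank_one (K := ℂ) (F := F)
  -- some `D x` is nonzero
  have hex : ∃ x : F, KaehlerDifferential.D ℂ F x ≠ 0 := by
    by_contra hcon
    push Not at hcon
    have hspan := KaehlerDifferential.span_range_derivation ℂ F
    have hle : Submodule.span F (Set.range (KaehlerDifferential.D ℂ F)) ≤ ⊥ := by
      rw [Submodule.span_le]
      rintro _ ⟨x, rfl⟩
      simp [hcon x]
    rw [hspan] at hle
    have hbot : (⊤ : Submodule F Ω[F⁄ℂ]) = ⊥ := le_bot_iff.1 hle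
    have h0 : Module.finrank F Ω[F⁄ℂ] = 0 := by
      rw [← finrank_top F Ω[F⁄ℂ], hbot, finrank_bot]
    omega
  obtain ⟨x, hx⟩ := hex
  have hxr : x ∉ Set.range (algebraMap ℂ F) := by
    rintro ⟨c, rfl⟩
    exact hx ((KaehlerDifferential.D ℂ F).map_algebraMap c)
  have hxT : Transcendental ℂ x :=
    Fermat.Agent.S24.helper82.transcendental_of_not_mem_range hxr
  refine ⟨x, hxT, ?_⟩
  -- `Ω[F/ℂ(x)] = 0`
  have hgen : ∀ w : Ω[F⁄ℂ], ∃ c : F, c • KaehlerDifferential.D ℂ F x = w :=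
    (finrank_eq_one_iff_of_nonzero' (KaehlerDifferential.D ℂ F x) hx).1 hrank
  have hDx : KaehlerDifferential.D ℂ⟮x⟯ F x = 0 := by
    have h1 : x = algebraMap ℂ⟮x⟯ F ⟨x, mem_adjoin_simple_self ℂ x⟩ := rfl
    rw [h1]
    exact (KaehlerDifferential.D ℂ⟮x⟯ F).map_algebraMap _
  have hsub : Subsingleton Ω[F⁄ℂ⟮x⟯] := by
    have hsurj := KaehlerDifferential.map_surjective ℂ ℂ⟮x⟯ F
    have hzero : ∀ v : Ω[F⁄ℂ⟮x⟯], v = 0 := by
      intro v
      obtain ⟨w, rfl⟩ := hsurj v
      obtain ⟨c, rfl⟩ := hgen w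
      rw [map_smul, KaehlerDifferential.map_D]
      simp [hDx]
    exact ⟨fun a b => by rw [hzero a, hzero b]⟩
  have hun : Algebra.FormallyUnramified ℂ⟮x⟯ F := ⟨hsub⟩
  have hess : Algebra.EssFiniteType ℂ⟮x⟯ F := Algebra.EssFiniteType.of_comp ℂ ℂ⟮x⟯ F
  have hsep : Algebra.IsSeparable ℂ⟮x⟯ F :=
    (Algebra.FormallyUnramified.iff_isSeparable ℂ⟮x⟯ F).mp hun
  exact Algebra.finite_of_essFiniteType_of_isAlgebraic

end Fermat.Agent.P5.helper37
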