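/-
P5 / S27, module MOD (helper37): MOD-DICT.

The full dictionary form of `Fermat.Agent.S24.helper43.local_count_of`: `d = [F : ℂ(t)]`
pairwise distinct embeddings of `F` into a valued field, agreeing on `ℂ(t)`, with
`V(t) = exp(-E)`, permuted by a rotation `π` preserving `V`, give all the places over `t = 0`,
one for each cycle of `π`, with ramification index the length of the cycle.
-/
import Mathlib
import Fermat.Agent.P5.helper37_ModStatements
import Fermat.Agent.S24.helper43_LocalCount
import Fermat.Agent.S24.helper75_FFCore2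

set_option autoImplicit false

open AlgebraicCurve IntermediateField WithZero

namespace Fermat.Agent.P5.helper37

open Fermat.Agent.S24.helper43

/-- powers of a permutation of finite order: integer powers are natural powers -/
theorem exists_nat_pow_of_mem_zpowers {α : Type*} {π : Equiv.Perm α} {E : ℕ} (hE : 0 < E)
    (hπE : π ^ E = 1) {g : Equiv.Perm α} (hg : g ∈ Subgroup.zpowers π) :
    ∃ n : ℕ, g = π ^ n := by
  obtain ⟨z, rfl⟩ := Subgroup.mem_zpowers_iff.1 hg
  refine ⟨(z % (E : ℤ)).toNat, ?_⟩
  have hEz : (0 : ℤ) < E := by exact_mod_cast hE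
  have h1 : 0 ≤ z % (E : ℤ) := Int.emod_nonneg _ hEz.ne'
  have h2 : z = z % (E : ℤ) + (E : ℤ) * (z / (E : ℤ)) := (Int.emod_add_mul_ediv z E).symm
  have h3 : π ^ z = π ^ (z % (E : ℤ)) := by
    conv_lhs => rw [h2]
    rw [zpow_add, zpow_mul, zpow_natCast, hπE, one_zpow, mul_one]
  rw [h3]
  conv_lhs => rw [← Int.toNat_of_nonneg h1]
  rw [zpow_natCast]

/-- **[MOD-DICT]** -/
theorem dictStatement : DictStatement := by
  classical
  intro F _ _ L _ t ht hfd V d σ hσ hcard0 hK hKagree htagree E hE htE π hπE hπ hdiv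
  haveI := hfd
  have hfin := Fermat.Agent.S24.helper75.ff_finite_zeros t ht
  have hsum := Fermat.Agent.S24.helper75.ff_sum_ord_zeros t ht
  have hsep : ∀ (w : Place ℂ F) (s : Finset (Place ℂ F)), w ∉ s →
      ∃ f : F, 0 < w.ord f ∧ ∀ v ∈ s, v.ord f = 0 :=
    fun w s hw => Fermat.Agent.S24.helper75.ff_exists_separating t ht w s hw
  have hcard : Fintype.card (Fin d) = Module.finrank ℂ⟮t⟯ F := by
    rw [Fintype.card_fin]
    exact hcard0
  have hVt_lt : ∀ i, V (σ i t) < 1 := fun i => by
    rw [htE, ← exp_zero, exp_lt_exp]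
    omega
  have ht0 : t ≠ 0 := by
    rintro rfl
    exact ht (isAlgebraic_zero)
  let v : Fin d → Valuation F ℤᵐ⁰ := fun i => V.comap (σ i)
  have hvK : ∀ i (c : ℂ), c ≠ 0 → v i (algebraMap ℂ F c) = 1 := hK
  have hnt : ∀ i, ∃ x : F, v i x ≠ 0 ∧ v i x ≠ 1 := fun i =>
    ⟨t, (Valuation.ne_zero_iff _).mpr ht0, (hVt_lt i).ne⟩
  let W : Fin d → Place ℂ F := fun i => placeOf (v i) (hvK i) (hnt i)
  have hex := fun i => exists_val_eq_exp_ord (v i) (hvK i) (hnt i)
  choose dd hd hdπ hdord using hex
  have hEd : ∀ i, (E : ℤ) = dd i * (W i).ord t := by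
    intro i
    have h1 := hdord i t ht0
    have h2 : v i t = exp (-(E : ℤ)) := htE i
    rw [h2, exp_inj] at h1
    linarith
  have hWpos : ∀ i, 0 < (W i).ord t := by
    intro i
    have h1 : 0 < dd i * (W i).ord t := by
      rw [← hEd i]
      exact_mod_cast hE
    exact (mul_pos_iff_of_pos_left (hd i)).mp h1
  -- every place over `t = 0` is one of the `W i`
  have hsurj : ∀ w : Place ℂ F, 0 < w.ord t → ∃ i, W i = w := by
    intro w hw
    by_contra hne
    push Not at hne
    have hws : w ∉ Finset.univ.image W := by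
      simp only [Finset.mem_image, Finset.mem_univ, true_and, not_exists]
      exact hne
    obtain ⟨f, hf, hfs⟩ := hsep w _ hws
    have hf0 : f ≠ 0 := by
      rintro rfl
      simp at hf
    refine false_of_val_eq_one t V σ hσ hcard hK hKagree htagree hVt_lt ht0 w hw f hf ?_
    intro i
    have h1 := hdord i f hf0
    have h2 : (W i).ord f = 0 := hfs _ (Finset.mem_image_of_mem W (Finset.mem_univ i))
    rw [h2, mul_zero, neg_zero, exp_zero] at h1
    exact h1
  -- invariance under `π`
  have hWπ : ∀ i, W (π i) = W i := by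
    intro i
    apply Place.ext
    ext f
    change V (σ (π i) f) ≤ 1 ↔ V (σ i f) ≤ 1
    rw [hπ]
  have hWg : ∀ g ∈ Subgroup.zpowers π, ∀ i, W (g i) = W i := by
    let H : Subgroup (Equiv.Perm (Fin d)) :=
      { carrier := {g | ∀ i, W (g i) = W i}
        mul_mem' := fun {a b} ha hb i => by
          rw [Equiv.Perm.mul_apply, ha, hb]
        one_mem' := fun i => rfl
        inv_mem' := fun {a} ha i => by
          have := ha (a⁻¹ i)
          have h' : a (a⁻¹ i) = i := by
            change (a * a⁻¹) i = i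
            rw [mul_inv_cancel]
            rfl
          rw [h'] at this
          exact this.symm }
    have hle : Subgroup.zpowers π ≤ H := Subgroup.zpowers_le.mpr hWπ
    exact fun g hg => hle hg
  -- minimal periods
  have hmp : ∀ i : Fin d, Function.minimalPeriod (fun x : Fin d => π • x) i =
      Function.minimalPeriod π i := fun i => rfl
  have hper : ∀ i : Fin d, Function.IsPeriodicPt (fun x : Fin d => π • x) E i := by
    intro i
    rw [Function.IsPeriodicPt, Function.IsFixedPt, smul_iterate, hπE]
    exact one_smul _ i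
  have hmE : ∀ i, Function.minimalPeriod π i ∣ E := fun i => by
    rw [← hmp]
    exact (hper i).minimalPeriod_dvd
  have hmpos : ∀ i, 0 < Function.minimalPeriod π i := fun i => by
    rw [← hmp]
    exact Function.minimalPeriod_pos_of_mem_periodicPts (Function.mk_mem_periodicPts hE (hper i))
  -- the orbit bound
  have hbound : ∀ i, (W i).ord t ≤ (Function.minimalPeriod π i : ℤ) := by
    intro i
    have hmfix : (π ^ Function.minimalPeriod π i) i = i := by
      have := Function.isPeriodicPt_minimalPeriod (fun x : Fin d => π • x) i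
      rw [Function.IsPeriodicPt, Function.IsFixedPt, smul_iterate] at this
      exact this
    set m := Function.minimalPeriod π i with hm
    set k := E / m with hk
    have hkE : k ∣ E := Nat.div_dvd_of_dvd (hmE i)
    have hEk : E / k = m := Nat.div_div_self (hmE i) hE.ne'
    have hkm : k * m = E := Nat.div_mul_cancel (hmE i)
    have hkpos : 0 < k := Nat.div_pos (Nat.le_of_dvd hE (hmE i)) (hmpos i)
    obtain ⟨ϖ, hϖ0, hϖ⟩ := hdπ i
    obtain ⟨z, hz⟩ := hdiv i k hkE (by rw [hEk]; exact hmfix) ϖ hϖ0
    have hz' : -(dd i) = z * k := by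
      have : v i ϖ = V (σ i ϖ) := rfl
      rw [this, hz, exp_inj] at hϖ
      exact hϖ.symm
    have hkd : (k : ℤ) ≤ dd i := by
      have hdvd : (k : ℤ) ∣ dd i := ⟨-z, by linarith⟩
      exact Int.le_of_dvd (hd i) hdvd
    have h2 := hWpos i
    have h3 : (k : ℤ) * (W i).ord t ≤ (k : ℤ) * m := by
      calc (k : ℤ) * (W i).ord t ≤ dd i * (W i).ord t := by gcongr
        _ = E := (hEd i).symm
        _ = (k : ℤ) * m := by exact_mod_cast hkm.symm
    exact le_of_mul_le_mul_left h3 (by exact_mod_cast hkpos)
  -- the counting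
  let _ : Fintype {w : Place ℂ F // 0 < w.ord t} := hfin.fintype
  let Q := MulAction.orbitRel.Quotient (Subgroup.zpowers π) (Fin d)
  let Wbar : Q → {w : Place ℂ F // 0 < w.ord t} :=
    Quotient.lift (fun i => (⟨W i, hWpos i⟩ : {w : Place ℂ F // 0 < w.ord t}))
      (fun a b hab => by
        apply Subtype.ext
        change W a = W b
        obtain ⟨g, rfl⟩ := hab
        exact hWg g.1 g.2 b)
  have hWbar_surj : Function.Surjective Wbar := by
    rintro ⟨w, hw⟩
    obtain ⟨i, rfl⟩ := hsurj w hw
    exact ⟨Quotient.mk'' i, rfl⟩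
  let g : Q → ℕ := fun o => Fintype.card o.orbit
  let h : {w : Place ℂ F // 0 < w.ord t} → ℕ := fun w => (w.1.ord t).toNat
  have hgpos : ∀ o, 0 < g o := by
    intro o
    induction o using Quotient.inductionOn' with
    | h i =>
      apply Fintype.card_pos_iff.mpr
      exact ⟨⟨i, MulAction.orbitRel.Quotient.mem_orbit.mpr rfl⟩⟩
  have hgmk : ∀ i, g (Quotient.mk'' i : Q) = Function.minimalPeriod π i := by
    intro i
    have h2 : Fintype.card (MulAction.orbitRel.Quotient.orbit
        (Quotient.mk'' i : Q)) = Fintype.card (MulAction.orbit (Subgroup.zpowers π) i) := by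
      apply Fintype.card_congr
      rw [MulAction.orbitRel.Quotient.orbit_mk]
    change Fintype.card (MulAction.orbitRel.Quotient.orbit (Quotient.mk'' i : Q)) = _
    rw [h2, ← MulAction.minimalPeriod_eq_card π i]
    exact hmp i
  have hle : ∀ o, h (Wbar o) ≤ g o := by
    intro o
    induction o using Quotient.inductionOn' with
    | h i =>
      have h1 := hbound i
      rw [hgmk i]
      change ((W i).ord t).toNat ≤ _
      omega
  have hsumg : ∑ o, g o = Fintype.card (Fin d) := by
    rw [Fintype.card_congr (MulAction.selfEquivSigmaOrbits' (Subgroup.zpowers π) (Fin d)),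
      Fintype.card_sigma]
  have hsumh : ∑ w, h w = Fintype.card (Fin d) := by
    have h1 : ∑ w ∈ hfin.toFinset, w.ord t =
        ∑ w : {w : Place ℂ F // 0 < w.ord t}, w.1.ord t := by
      apply Finset.sum_subtype
      intro x
      simp
    have h2 : ((∑ w, h w : ℕ) : ℤ) = ∑ w : {w : Place ℂ F // 0 < w.ord t}, w.1.ord t := by
      push_cast
      apply Finset.sum_congr rfl
      intro w _
      exact Int.toNat_of_nonneg w.2.le
    have h3 : ((∑ w, h w : ℕ) : ℤ) = (Fintype.card (Fin d) : ℤ) := by
      rw [h2, ← h1, hsum, hcard]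
    exact_mod_cast h3
  have hbij := bijective_of_sum_eq Wbar hWbar_surj g h hgpos hle (hsumg.trans hsumh.symm)
  -- equality in the orbit bound
  have heq : ∀ o, h (Wbar o) = g o := by
    have hsum2 : ∑ o, h (Wbar o) = ∑ o, g o := by
      rw [hsumg, ← hsumh]
      exact Function.Bijective.sum_comp hbij h
    intro o
    by_contra hne
    have hlt : h (Wbar o) < g o := lt_of_le_of_ne (hle o) hne
    have : ∑ o, h (Wbar o) < ∑ o, g o :=
      Finset.sum_lt_sum (fun o _ => hle o) ⟨o, Finset.mem_univ o, hlt⟩
    omega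
  have hord_t : ∀ i, (W i).ord t = (Function.minimalPeriod π i : ℤ) := by
    intro i
    have h1 := heq (Quotient.mk'' i : Q)
    rw [hgmk i] at h1
    change ((W i).ord t).toNat = _ at h1
    have h2 := hWpos i
    omega
  have hdd : ∀ i, dd i = ((E / Function.minimalPeriod π i : ℕ) : ℤ) := by
    intro i
    have h1 := hEd i
    rw [hord_t i] at h1
    have h2 : ((E / Function.minimalPeriod π i : ℕ) : ℤ) * (Function.minimalPeriod π i : ℤ)
        = (E : ℤ) := by
      exact_mod_cast Nat.div_mul_cancel (hmE i)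
    have h3 : (0 : ℤ) < (Function.minimalPeriod π i : ℤ) := by exact_mod_cast hmpos i
    apply mul_right_cancel₀ h3.ne'
    rw [h2, ← h1]
  refine ⟨W, ?_, hord_t, hsurj, ?_⟩
  · intro i f hf
    have h1 := hdord i f hf
    rw [hdd i] at h1
    exact h1
  · intro i j
    constructor
    · intro hij
      have h1 : Wbar (Quotient.mk'' i) = Wbar (Quotient.mk'' j) := Subtype.ext hij
      have h2 : (Quotient.mk'' i : Q) = Quotient.mk'' j := hbij.1 h1
      have h3 : i ∈ MulAction.orbit (Subgroup.zpowers π) j := by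
        have := Quotient.exact' h2
        exact this
      obtain ⟨⟨g', hg'⟩, hgj⟩ := h3
      have hgj' : g' j = i := hgj
      -- `j = g'⁻¹ i`
      have hinv : g'⁻¹ ∈ Subgroup.zpowers π := (Subgroup.zpowers π).inv_mem hg'
      obtain ⟨n, hn⟩ := exists_nat_pow_of_mem_zpowers hE hπE hinv
      refine ⟨n, ?_⟩
      rw [← hn, ← hgj']
      simp
    · rintro ⟨n, rfl⟩
      exact (hWg (π ^ n) (Subgroup.pow_mem _ (Subgroup.mem_zpowers π) n) i).symm

end Fermat.Agent.P5.helper37
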