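/-
P5 / S27, module MOD (helper37): MOD-EV, part 1.

For a presentation `p` of `F`: the value `evP p h z Y` of `h ∈ F` at the point `(z, Y)` of the
plane curve `f = 0`, defined by a formula, and the KEY LEMMA: for a meromorphic parametrisation
`s ↦ (ξ s, γ s)` of the curve, `h ↦ [s ↦ evP p h (ξ s) (γ s)]` is a ring homomorphism from `F`
to the field of meromorphic germs.
-/
import Mathlib
import Fermat.Agent.P5.helper37_ModStatements
import Fermat.Agent.S24.helper99_Germ

set_option autoImplicit false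

open AlgebraicCurve Filter Topology Polynomial

namespace Fermat.Agent.P5.helper37

open Fermat.Agent.S24.helper99

namespace EV

/-! ### Germs of polynomial expressions -/

section Germ

variable {c : ℂ}

theorem mk_fun_sum {ι : Type*} (s : Finset ι) (g : ι → ℂ → ℂ)
    (hg : ∀ i, MeromorphicAt (g i) c) :
    MeroGerm.mk (fun w => ∑ i ∈ s, g i w) (MeromorphicAt.fun_sum fun i _ => hg i) =
      ∑ i ∈ s, MeroGerm.mk (g i) (hg i) := by
  classical
  induction s using Finset.induction_on with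
  | empty =>
    simp only [Finset.sum_empty]
    exact MeroGerm.mk_zero
  | insert a s ha ih =>
    rw [Finset.sum_insert ha, ← ih, ← MeroGerm.mk_add, MeroGerm.mk_eq_mk_iff]
    exact Eventually.of_forall fun w => by simp [Finset.sum_insert ha]

theorem meromorphicAt_polyEval (q : ℂ[X]) {ξ : ℂ → ℂ} (hξ : MeromorphicAt ξ c) :
    MeromorphicAt (fun s => q.eval (ξ s)) c := by
  have h : (fun s => q.eval (ξ s)) = fun s => ∑ i ∈ Finset.range (q.natDegree + 1),
      q.coeff i * ξ s ^ i := by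
    funext s
    rw [Polynomial.eval_eq_sum_range]
  rw [h]
  exact MeromorphicAt.fun_sum fun i _ => (MeromorphicAt.const _ _).fun_mul (hξ.fun_pow i)

/-- the ring homomorphism `ℂ[X] → MeroGerm c`, `X ↦ [ξ]` -/
noncomputable def polyHom {ξ : ℂ → ℂ} (hξ : MeromorphicAt ξ c) : ℂ[X] →+* MeroGerm c :=
  Polynomial.eval₂RingHom (MeroGerm.constHom c) (MeroGerm.mk ξ hξ)

theorem polyHom_apply (q : ℂ[X]) {ξ : ℂ → ℂ} (hξ : MeromorphicAt ξ c) :
    polyHom hξ q = MeroGerm.mk (fun s => q.eval (ξ s)) (meromorphicAt_polyEval q hξ) := by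
  induction q using Polynomial.induction_on' with
  | add p q hp hq =>
    rw [map_add, hp, hq, ← MeroGerm.mk_add, MeroGerm.mk_eq_mk_iff]
    exact Eventually.of_forall fun s => by simp
  | monomial n a =>
    have h1 : polyHom hξ (Polynomial.monomial n a) =
        MeroGerm.const c a * MeroGerm.mk ξ hξ ^ n := by
      simp [polyHom, Polynomial.eval₂_monomial]
    rw [h1, ← MeroGerm.mk_pow, MeroGerm.const, ← MeroGerm.mk_mul, MeroGerm.mk_eq_mk_iff]
    exact Eventually.of_forall fun s => by simp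

end Germ

/-! ### The value of `h` at a point of the plane curve -/

variable {F : Type} [Field F] [Algebra ℂ F] (p : Presentation F)

/-- a chosen numerator of `h` -/
noncomputable def num (h : F) : Fin p.f.natDegree → ℂ[X] := (p.gen h).choose

/-- a chosen denominator of `h` -/
noncomputable def den (h : F) : ℂ[X] := (p.gen h).choose_spec.choose

theorem den_ne_zero (h : F) : den p h ≠ 0 := (p.gen h).choose_spec.choose_spec.1

theorem repr (h : F) :
    Polynomial.aeval p.x (den p h) * h = ∑ j, Polynomial.aeval p.x (num p h j) * p.y ^ (j : ℕ) :=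
  (p.gen h).choose_spec.choose_spec.2

open Classical in
/-- the value of `h ∈ F` at the point `(z, Y)` -/
noncomputable def evP (h : F) (z Y : ℂ) : ℂ :=
  if h = p.x then z
  else if hc : ∃ a : ℂ, algebraMap ℂ F a = h then hc.choose
  else (∑ j, (num p h j).eval z * Y ^ (j : ℕ)) / (den p h).eval z

theorem x_ne_algebraMap (a : ℂ) : algebraMap ℂ F a ≠ p.x := by
  intro h
  apply p.x_transcendental
  rw [← h]
  exact isAlgebraic_algebraMap a

theorem evP_x (z Y : ℂ) : evP p p.x z Y = z := by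
  simp [evP]

theorem evP_algebraMap (a z Y : ℂ) : evP p (algebraMap ℂ F a) z Y = a := by
  have hex : ∃ a' : ℂ, algebraMap ℂ F a' = algebraMap ℂ F a := ⟨a, rfl⟩
  simp only [evP, x_ne_algebraMap p a, if_false, dif_pos hex]
  exact (algebraMap ℂ F).injective hex.choose_spec

theorem evP_of_generic {h : F} (hx : h ≠ p.x) (hc : ¬ ∃ a : ℂ, algebraMap ℂ F a = h)
    (z Y : ℂ) :
    evP p h z Y = (∑ j, (num p h j).eval z * Y ^ (j : ℕ)) / (den p h).eval z := by
  simp [evP, hx, hc]

theorem meromorphicAt_evP (h : F) {ξ γ : ℂ → ℂ} {c : ℂ} (hξ : MeromorphicAt ξ c)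
    (hγ : MeromorphicAt γ c) : MeromorphicAt (fun s => evP p h (ξ s) (γ s)) c := by
  by_cases hx : h = p.x
  · subst hx
    simp only [evP_x]
    exact hξ
  by_cases hc : ∃ a : ℂ, algebraMap ℂ F a = h
  · obtain ⟨a, rfl⟩ := hc
    simp only [evP_algebraMap]
    exact MeromorphicAt.const a c
  · simp only [evP_of_generic p hx hc]
    exact (MeromorphicAt.fun_sum fun j _ =>
      (meromorphicAt_polyEval _ hξ).fun_mul (hγ.fun_pow _)).fun_div (meromorphicAt_polyEval _ hξ)

/-! ### The key lemma -/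

/-- the `ℂ`-algebra structure on the field of meromorphic germs -/
@[reducible] noncomputable def meroAlgebra (c : ℂ) : Algebra ℂ (MeroGerm c) := (MeroGerm.constHom c).toAlgebra

theorem aeval_mk (c : ℂ) (q : ℂ[X]) {ξ : ℂ → ℂ} (hξ : MeromorphicAt ξ c) :
    @Polynomial.aeval ℂ (MeroGerm c) _ _ (meroAlgebra c) (MeroGerm.mk ξ hξ) q =
      MeroGerm.mk (fun s => q.eval (ξ s)) (meromorphicAt_polyEval q hξ) := by
  rw [← polyHom_apply]
  rfl

/-- **KEY LEMMA**: a meromorphic parametrisation `s ↦ (ξ s, γ s)` of the curve `f = 0`, with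
`ξ` not algebraic, defines a ring homomorphism `F → MeroGerm c` given by the formula `evP`. -/
theorem exists_hom (hLIFT : LiftStatement) {c : ℂ} {ξ γ : ℂ → ℂ} (hξ : MeromorphicAt ξ c)
    (hγ : MeromorphicAt γ c)
    (htr : ∀ q : ℂ[X], q ≠ 0 → ¬ (∀ᶠ s in 𝓝[≠] c, q.eval (ξ s) = 0))
    (hroot : ∀ᶠ s in 𝓝[≠] c, (specialize p.f (ξ s)).IsRoot (γ s)) :
    ∃ Φ : F →+* MeroGerm c, Φ p.x = MeroGerm.mk ξ hξ ∧ Φ p.y = MeroGerm.mk γ hγ ∧ ∀ h,
      Φ h = MeroGerm.mk (fun s => evP p h (ξ s) (γ s)) (meromorphicAt_evP p h hξ hγ) := by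
  letI := meroAlgebra c
  have hmap : ∀ a : ℂ, algebraMap ℂ (MeroGerm c) a = MeroGerm.const c a := fun a => rfl
  have hT : Transcendental ℂ (MeroGerm.mk ξ hξ) := by
    rw [transcendental_iff]
    intro q hq
    by_contra hne
    apply htr q hne
    rw [aeval_mk] at hq
    exact MeroGerm.mk_eq_zero_iff.1 hq
  have hR : Polynomial.eval₂ ((Polynomial.aeval (MeroGerm.mk ξ hξ) : ℂ[X] →ₐ[ℂ] MeroGerm c) :
      ℂ[X] →+* MeroGerm c) (MeroGerm.mk γ hγ) p.f = 0 := by
    rw [Polynomial.eval₂_eq_sum_range]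
    have h1 : ∀ j ∈ Finset.range (p.f.natDegree + 1),
        ((Polynomial.aeval (MeroGerm.mk ξ hξ) : ℂ[X] →ₐ[ℂ] MeroGerm c) : ℂ[X] →+* MeroGerm c)
          (p.f.coeff j) * MeroGerm.mk γ hγ ^ j =
        MeroGerm.mk (fun s => (p.f.coeff j).eval (ξ s) * γ s ^ j)
          ((meromorphicAt_polyEval _ hξ).fun_mul (hγ.fun_pow j)) := by
      intro j _
      have h2 : ((Polynomial.aeval (MeroGerm.mk ξ hξ) : ℂ[X] →ₐ[ℂ] MeroGerm c) :
          ℂ[X] →+* MeroGerm c) (p.f.coeff j) =
          MeroGerm.mk (fun s => (p.f.coeff j).eval (ξ s)) (meromorphicAt_polyEval _ hξ) :=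
        aeval_mk c (p.f.coeff j) hξ
      rw [h2, ← MeroGerm.mk_pow, ← MeroGerm.mk_mul, MeroGerm.mk_eq_mk_iff]
      exact Eventually.of_forall fun s => by simp
    rw [Finset.sum_congr rfl h1, ← mk_fun_sum, MeroGerm.mk_eq_zero_iff]
    filter_upwards [hroot] with s hs
    have h3 : (specialize p.f (ξ s)).eval (γ s) = 0 := hs
    rw [specialize, Polynomial.eval_map, Polynomial.eval₂_eq_sum_range] at h3
    simpa using h3
  obtain ⟨Φ, hΦx, hΦy⟩ := hLIFT F p (MeroGerm c) (MeroGerm.mk ξ hξ) (MeroGerm.mk γ hγ) hT hR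
  refine ⟨Φ.toRingHom, hΦx, hΦy, fun h => ?_⟩
  change Φ h = _
  by_cases hx : h = p.x
  · subst hx
    rw [hΦx, MeroGerm.mk_eq_mk_iff]
    exact Eventually.of_forall fun s => by simp [evP_x]
  by_cases hc : ∃ a : ℂ, algebraMap ℂ F a = h
  · obtain ⟨a, rfl⟩ := hc
    rw [Φ.commutes, hmap, MeroGerm.const, MeroGerm.mk_eq_mk_iff]
    exact Eventually.of_forall fun s => by simp [evP_algebraMap]
  · -- the generic case: apply `Φ` to the representation of `h`
    have hrep := congrArg Φ (repr p h)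
    rw [map_mul, map_sum] at hrep
    have hΦaeval : ∀ q : ℂ[X], Φ (Polynomial.aeval p.x q) =
        MeroGerm.mk (fun s => q.eval (ξ s)) (meromorphicAt_polyEval q hξ) := by
      intro q
      rw [← Polynomial.aeval_algHom_apply, hΦx, aeval_mk]
    have hden : MeroGerm.mk (fun s => (den p h).eval (ξ s)) (meromorphicAt_polyEval _ hξ) ≠ 0 := by
      intro h0
      exact htr _ (den_ne_zero p h) (MeroGerm.mk_eq_zero_iff.1 h0)
    have hsum : ∑ j, Φ (Polynomial.aeval p.x (num p h j) * p.y ^ (j : ℕ)) =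
        MeroGerm.mk (fun s => ∑ j, (num p h j).eval (ξ s) * γ s ^ (j : ℕ))
          (MeromorphicAt.fun_sum fun j _ =>
            (meromorphicAt_polyEval _ hξ).fun_mul (hγ.fun_pow _)) := by
      rw [mk_fun_sum Finset.univ (fun j s => (num p h j).eval (ξ s) * γ s ^ (j : ℕ))
        (fun j => (meromorphicAt_polyEval _ hξ).fun_mul (hγ.fun_pow _))]
      apply Finset.sum_congr rfl
      intro j _
      rw [map_mul, map_pow, hΦaeval, hΦy, ← MeroGerm.mk_pow, ← MeroGerm.mk_mul,
        MeroGerm.mk_eq_mk_iff]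
      exact Eventually.of_forall fun s => by simp
    rw [hΦaeval, hsum] at hrep
    have hΦh : Φ h = MeroGerm.mk (fun s => ∑ j, (num p h j).eval (ξ s) * γ s ^ (j : ℕ))
          (MeromorphicAt.fun_sum fun j _ =>
            (meromorphicAt_polyEval _ hξ).fun_mul (hγ.fun_pow _)) /
        MeroGerm.mk (fun s => (den p h).eval (ξ s)) (meromorphicAt_polyEval _ hξ) := by
      rw [eq_div_iff hden, mul_comm]
      exact hrep
    rw [hΦh, ← MeroGerm.mk_div, MeroGerm.mk_eq_mk_iff]
    exact Eventually.of_forall fun s => by simp [evP_of_generic p hx hc]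

end EV

end Fermat.Agent.P5.helper37
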