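/-
P5 / S27, module MOD (helper37): MOD-EV, part 2: the sheet model of a presentation.
-/
import Mathlib
import Fermat.Agent.P5.helper37_EvCore
import Fermat.Agent.P5.helper4_CutGeom

set_option autoImplicit false

open AlgebraicCurve Filter Topology Polynomial

namespace Fermat.Agent.P5.helper37

open Fermat.Agent.S24.helper99 Fermat.Agent.P5.helper25 Fermat.Agent.P5.helper4

namespace EV

/-- the identity function is transcendental as a germ -/
theorem not_eventually_eval_id_eq_zero (z : ℂ) (q : ℂ[X]) (hq : q ≠ 0) :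
    ¬ (∀ᶠ s in 𝓝[≠] z, q.eval s = 0) := by
  intro h
  apply hq
  apply Polynomial.eq_zero_of_infinite_isRoot
  rw [eventually_nhdsWithin_iff] at h
  have h1 : {s : ℂ | s ∈ ({z}ᶜ : Set ℂ) → q.eval s = 0} ∈ 𝓝 z := h
  have h2 := infinite_of_mem_nhds z h1
  have h3 : {s : ℂ | s ∈ ({z}ᶜ : Set ℂ) → q.eval s = 0} ⊆ {x | q.IsRoot x} ∪ {z} := by
    intro s hs
    by_cases hsz : s = z
    · right; exact hsz
    · left; exact hs hsz
  have h4 := h2.mono h3
  rcases Set.infinite_union.1 h4 with h5 | h5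
  · exact h5
  · exact absurd (Set.finite_singleton z) h5

variable {F : Type} [Field F] [Algebra ℂ F]

/-- **[MOD-EV]** -/
theorem evStatement_aux (hLIFT : LiftStatement) (p : Presentation F) (D : BranchData)
    (σ : Fin D.r → Equiv.Perm (Fin D.d)) (hf : D.f = p.f) (hc : D.CrossProp σ)
    (hp : D.PuisProp σ) (hi : D.InfProp σ) :
    ∃ M : SheetModel F, M.toCutGeometry = D.toCutGeometry ∧ M.x = p.x := by
  classical
  have hroot : ∀ k, ∀ z ∈ D.toCutGeometry.U₀, (specialize p.f z).IsRoot (D.y k z) := by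
    intro k z hz
    rw [← hf]
    exact D.y_root k z hz
  have hopen : ∀ z ∈ D.toCutGeometry.U₀, ∀ᶠ w in 𝓝[≠] z, w ∈ D.toCutGeometry.U₀ := fun z hz =>
    nhdsWithin_le_nhds ((CutGeom.isOpen_U₀ _).mem_nhds hz)
  -- the homomorphisms at the interior points
  have hΦ : ∀ (k : Fin D.d) (z : ℂ) (hz : z ∈ D.toCutGeometry.U₀),
      ∃ Φ : F →+* MeroGerm z, Φ p.x = MeroGerm.mk id (MeromorphicAt.id z) ∧
        Φ p.y = MeroGerm.mk (D.y k) (D.y_analytic k z hz).meromorphicAt ∧ ∀ h,
        Φ h = MeroGerm.mk (fun s => evP p h s (D.y k s))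
          (meromorphicAt_evP p h (MeromorphicAt.id z) (D.y_analytic k z hz).meromorphicAt) := by
    intro k z hz
    exact exists_hom p hLIFT (MeromorphicAt.id z) (D.y_analytic k z hz).meromorphicAt
      (not_eventually_eval_id_eq_zero z)
      ((hopen z hz).mono fun w hw => hroot k w hw)
  refine ⟨{
    toCutGeometry := D.toCutGeometry
    r_pos := D.r_pos
    x := p.x
    x_transcendental := p.x_transcendental
    x_finite := p.x_finite
    d := D.d
    d_pos := D.d_pos
    d_eq := by
      show D.f.natDegree = _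
      rw [hf, p.f_natDegree]
    ev := fun k h z => evP p h z (D.y k z)
    σ := σ
    ev_meromorphicOn := fun k h z hz =>
      meromorphicAt_evP p h (MeromorphicAt.id z) (D.y_analytic k z hz).meromorphicAt
    ev_x := fun k z _ => evP_x p z _
    ev_algebraMap := fun k a z _ => evP_algebraMap p a z _
    ev_add := fun k h₁ h₂ z hz => by
      obtain ⟨Φ, -, -, hΦf⟩ := hΦ k z hz
      have h1 := map_add Φ h₁ h₂
      rw [hΦf, hΦf, hΦf, ← MeroGerm.mk_add, MeroGerm.mk_eq_mk_iff] at h1
      exact h1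
    ev_mul := fun k h₁ h₂ z hz => by
      obtain ⟨Φ, -, -, hΦf⟩ := hΦ k z hz
      have h1 := map_mul Φ h₁ h₂
      rw [hΦf, hΦf, hΦf, ← MeroGerm.mk_mul, MeroGerm.mk_eq_mk_iff] at h1
      exact h1
    ev_separated := fun k k' hkk z hz => by
      refine ⟨p.y, fun heq => ?_⟩
      obtain ⟨Φ, -, hΦy, hΦf⟩ := hΦ k z hz
      obtain ⟨Φ', -, hΦy', hΦf'⟩ := hΦ k' z hz
      have h1 := (hΦf p.y).symm.trans hΦy
      have h2 := (hΦf' p.y).symm.trans hΦy'
      rw [MeroGerm.mk_eq_mk_iff] at h1 h2
      have h3 : ∀ᶠ w in 𝓝[≠] z, False := by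
        filter_upwards [h1, h2, heq, hopen z hz] with w hw1 hw2 hw3 hwU
        have h4 : D.y k w = D.y k' w := by
          rw [← hw1, ← hw2]
          exact hw3
        exact hkk (D.y_inj w hwU h4)
      obtain ⟨_, hF⟩ := h3.exists
      exact hF
    cross := fun i k a ha h => by
      obtain ⟨g, hg, hL, hR⟩ := hc i k a ha
      refine ⟨fun z => evP p h z (g z),
        meromorphicAt_evP p h (MeromorphicAt.id a) hg.meromorphicAt, ?_, ?_⟩
      · filter_upwards [nhdsWithin_le_nhds hL] with z hz hzL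
        rw [hz hzL]
      · filter_upwards [nhdsWithin_le_nhds hR] with z hz hzR
        rw [hz hzR]
    puiseux := fun i k h => by
      obtain ⟨H, hH, hsec⟩ := hp i k
      refine ⟨fun s => evP p h
          (D.b i + s ^ Function.minimalPeriod (σ i) k * unitDir D.z₀ (D.b i)) (H s),
        meromorphicAt_evP p h (by fun_prop) hH.meromorphicAt, fun j => ?_⟩
      filter_upwards [hsec j] with s hs hsS
      rw [hs hsS]
    prod_σ := hi.1
    atInf := fun k h => by
      obtain ⟨H, hH, hsec⟩ := hi.2 k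
      refine ⟨fun w => evP p h (D.z₀ + w⁻¹) (H w),
        meromorphicAt_evP p h (by fun_prop) hH, fun i => ?_⟩
      filter_upwards [hsec i] with w hw hwS
      rw [hw hwS] }, rfl, rfl⟩

end EV

/-- **[MOD-EV]** -/
theorem evStatement (hLIFT : LiftStatement) : EvStatement :=
  fun _ _ _ p D σ hf hc hp hi => EV.evStatement_aux hLIFT p D σ hf hc hp hi

end Fermat.Agent.P5.helper37
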