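/-
P5 / S27, module MOD (helper37, sub-coordinator, task 430): THE ASSEMBLY.

`existsCutModel_of` : all package statements of module MOD imply `ExistsCutModel`.
-/
import Mathlib
import Fermat.Agent.P5.helper37_ModStatements
import Fermat.Agent.P5.helper4_Orders
import Fermat.Agent.S24.helper75_FFCore2
import Fermat.Agent.S24.helper82_FFBasic
import Fermat.Agent.S24.helper55_RH

set_option autoImplicit false

open AlgebraicCurve Filter Topology IntermediateField

namespace Fermat.Agent.P5.helper37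

open Fermat.Agent.P5.helper25 Fermat.Agent.P5.helper4

noncomputable section

variable {F : Type} [Field F] [Algebra ℂ F]

/-! ### Elementary consequences of the axioms of a sheet model -/

namespace SheetModel

variable (M : SheetModel F)

theorem z₀_mem_U₀ : M.z₀ ∈ M.toCutGeometry.U₀ := by
  intro i hi
  obtain ⟨s, hs, h⟩ := hi
  have h1 : ((1 : ℂ) + s) * (M.b i - M.z₀) = 0 := by
    linear_combination -h
  rcases mul_eq_zero.1 h1 with h2 | h2
  · have h3 : ((1 + s : ℝ) : ℂ) = 0 := by push_cast; exact h2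
    have h4 : (1 + s : ℝ) = 0 := by exact_mod_cast h3
    linarith
  · exact M.b_ne i (sub_eq_zero.1 h2)

theorem ev_zero (k : Fin M.d) {z : ℂ} (hz : z ∈ M.toCutGeometry.U₀) : M.ev k 0 z = 0 := by
  have h := M.ev_algebraMap k 0 hz
  simpa using h

theorem ev_one (k : Fin M.d) {z : ℂ} (hz : z ∈ M.toCutGeometry.U₀) : M.ev k 1 z = 1 := by
  have h := M.ev_algebraMap k 1 hz
  simpa using h

theorem eventually_mem_U₀ {z : ℂ} (hz : z ∈ M.toCutGeometry.U₀) :
    ∀ᶠ w in 𝓝[≠] z, w ∈ M.toCutGeometry.U₀ :=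
  nhdsWithin_le_nhds ((CutGeom.isOpen_U₀ _).mem_nhds hz)

/-- a sheet is an injective ring homomorphism -/
theorem eq_zero_of_ev_eventuallyEq_zero (k : Fin M.d) {z : ℂ} (hz : z ∈ M.toCutGeometry.U₀)
    {h : F} (h0 : M.ev k h =ᶠ[𝓝[≠] z] fun _ => 0) : h = 0 := by
  by_contra hne
  have h1 := M.ev_mul k h h⁻¹ z hz
  rw [mul_inv_cancel₀ hne] at h1
  have h2 : ∀ᶠ w in 𝓝[≠] z, False := by
    filter_upwards [h1, h0, M.eventually_mem_U₀ hz] with w hw1 hw0 hwU
    rw [M.ev_one k hwU, hw0, zero_mul] at hw1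
    exact one_ne_zero hw1
  haveI : (𝓝[≠] z).NeBot := inferInstance
  obtain ⟨_, hf⟩ := h2.exists
  exact hf

end SheetModel

/-! ### Transitivity from global generation -/

theorem take_prod_mem_closure {G : Type*} [Group G] {r : ℕ} (σ : Fin r → G) (n : ℕ) :
    ((List.ofFn σ).take n).prod ∈ Subgroup.closure (Set.range σ) := by
  apply Subgroup.list_prod_mem
  intro g hg
  have hg' : g ∈ List.ofFn σ := List.mem_of_mem_take hg
  rw [List.mem_ofFn] at hg'
  exact Subgroup.subset_closure hg'

/-- **transitivity of the monodromy is a consequence of global generation**: the indicator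
function of an orbit is the sheet function of an idempotent of `F`. -/
theorem transProp_of_glue (M : SheetModel F) (hglue : GlueProp M) : TransProp M := by
  classical
  intro k₀ k₁
  set Γ : Subgroup (Equiv.Perm (Fin M.d)) := Subgroup.closure (Set.range M.σ) with hΓ
  -- the indicator of the orbit of `k₀`
  let O : Fin M.d → Prop := fun k => ∃ g ∈ Γ, g k₀ = k
  have hO_inv : ∀ (g : Equiv.Perm (Fin M.d)), g ∈ Γ → ∀ k, O (g k) ↔ O k := by
    intro g hg k
    constructor
    · rintro ⟨g', hg', h⟩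
      refine ⟨g⁻¹ * g', Γ.mul_mem (Γ.inv_mem hg) hg', ?_⟩
      simp [Equiv.Perm.mul_apply, h]
    · rintro ⟨g', hg', h⟩
      exact ⟨g * g', Γ.mul_mem hg hg', by rw [Equiv.Perm.mul_apply, h]⟩
  have hσ : ∀ i, M.σ i ∈ Γ := fun i => Subgroup.subset_closure ⟨i, rfl⟩
  let c : Fin M.d → ℂ := fun k => if O k then 1 else 0
  have hc_inv : ∀ (g : Equiv.Perm (Fin M.d)), g ∈ Γ → ∀ k, c (g k) = c k := by
    intro g hg k
    simp only [c, hO_inv g hg k]
  let u : Fin M.d → ℂ → ℂ := fun k _ => c k
  obtain ⟨h, hh⟩ := hglue u (fun k => fun z _ => MeromorphicAt.const (c k) z)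
    (fun i k a _ => ⟨fun _ => c k, MeromorphicAt.const _ _, Eventually.of_forall fun _ _ => rfl,
      Eventually.of_forall fun _ _ => (hc_inv _ (hσ i) k).symm⟩)
    (fun i k => ⟨fun _ => c k, MeromorphicAt.const _ _, fun j => Eventually.of_forall fun _ _ =>
      (hc_inv _ (Γ.pow_mem (Γ.inv_mem (hσ i)) j) k).symm⟩)
    (fun k => ⟨fun _ => c k, MeromorphicAt.const _ _, fun i => Eventually.of_forall fun _ _ =>
      (hc_inv _ (Γ.inv_mem (take_prod_mem_closure M.σ _)) k).symm,
      fun _ => Eventually.of_forall fun _ => rfl⟩)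
  have hz₀ := M.z₀_mem_U₀
  -- `h` is an idempotent
  have hidem : h * (h - 1) = 0 := by
    apply M.eq_zero_of_ev_eventuallyEq_zero k₀ hz₀
    have h1 := M.ev_mul k₀ h (h - 1) M.z₀ hz₀
    have h2 : M.ev k₀ (h - 1) =ᶠ[𝓝[≠] M.z₀] fun w => M.ev k₀ h w - 1 := by
      have h3 := M.ev_add k₀ h (algebraMap ℂ F (-1)) M.z₀ hz₀
      have h4 : h + algebraMap ℂ F (-1) = h - 1 := by simp [sub_eq_add_neg]
      rw [h4] at h3
      filter_upwards [h3, M.eventually_mem_U₀ hz₀] with w hw hwU
      rw [hw, M.ev_algebraMap k₀ (-1) hwU]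
      ring
    filter_upwards [h1, h2, hh k₀ M.z₀ hz₀] with w hw1 hw2 hw3
    rw [hw1, hw2, ← hw3]
    have : c k₀ = 1 := by
      have : O k₀ := ⟨1, Γ.one_mem, rfl⟩
      simp [c, this]
    simp [u, this]
  have hk₀ : c k₀ = 1 := by
    have : O k₀ := ⟨1, Γ.one_mem, rfl⟩
    simp [c, this]
  have hh1 : h = 1 := by
    rcases mul_eq_zero.1 hidem with h0 | h1
    · exfalso
      have h2 := hh k₀ M.z₀ hz₀
      have h3 : ∀ᶠ w in 𝓝[≠] M.z₀, False := by
        filter_upwards [h2, M.eventually_mem_U₀ hz₀] with w hw hwU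
        rw [h0, M.ev_zero k₀ hwU] at hw
        simp only [u, hk₀] at hw
        exact one_ne_zero hw
      obtain ⟨_, hf⟩ := h3.exists
      exact hf
    · exact sub_eq_zero.1 h1
  -- hence every sheet is in the orbit
  have hk₁ : c k₁ = 1 := by
    have h2 := hh k₁ M.z₀ hz₀
    have h3 : ∀ᶠ w in 𝓝[≠] M.z₀, c k₁ = 1 := by
      filter_upwards [h2, M.eventually_mem_U₀ hz₀] with w hw hwU
      rw [hh1, M.ev_one k₁ hwU] at hw
      exact hw
    obtain ⟨_, hf⟩ := h3.exists
    exact hf
  by_contra hcon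
  have : ¬ O k₁ := hcon
  simp [c, this] at hk₁

/-! ### `dx` spans -/

theorem dxSpansProp (M : SheetModel F) : DxSpansProp M := by
  intro τ
  haveI := M.x_finite
  have hx : M.x ∉ Set.range (algebraMap ℂ F) := by
    rintro ⟨c, hc⟩
    apply M.x_transcendental
    rw [← hc]
    exact isAlgebraic_algebraMap c
  have h := Fermat.Agent.S24.helper82.ff_span_D_eq_top (K := ℂ) M.x M.x_transcendental M.x hx
  have hτ : τ ∈ Submodule.span F {KaehlerDifferential.D ℂ F M.x} := by
    rw [h]
    exact Submodule.mem_top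
  obtain ⟨a, ha⟩ := Submodule.mem_span_singleton.1 hτ
  exact ⟨a, ha.symm⟩

/-! ### The assembly -/

/-- **[MOD-ASM]** all package statements of module MOD imply the existence of cut models. -/
theorem existsCutModel_of (hALG : PresStatement) (hSEP : SepStatement) (hGEO : GeoStatement)
    (hSTAR : ∀ G : CutGeometry, StarConvex ℝ G.z₀ G.U₀) (hBR : BranchStatement)
    (hCROSS : CrossStatement) (hPUIS : PuisStatement) (hINF : InfStatement)
    (hEV : EvStatement) (hDERIV : DerivStatement) (hPL : PlacesStatement)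
    (hGLUE : ∀ (F : Type) [Field F] [Algebra ℂ F] (M : SheetModel F), GlueProp M) :
    ExistsCutModel := by
  classical
  intro F _ _ _ _
  obtain ⟨p, hpinf⟩ := hALG F
  haveI := p.x_finite
  have hxT := p.x_transcendental
  set B : Finset ℂ := insert 0 (hSEP F p).toFinset with hB
  have hxsubT : ∀ b : ℂ, Transcendental ℂ (p.x - algebraMap ℂ F b) := by
    intro b halg
    apply hxT
    have := halg.add (isAlgebraic_algebraMap (R := ℂ) (A := F) b)
    simpa using this
  have hfd : ∀ b : ℂ, FiniteDimensional ℂ⟮p.x - algebraMap ℂ F b⟯ F := by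
    intro b
    rw [Fermat.Agent.S24.helper55.adjoin_sub_algebraMap_eq]
    infer_instance
  have hfinB : ∀ b : ℂ, {w : Place ℂ F | 0 < w.ord (p.x - algebraMap ℂ F b)}.Finite := by
    intro b
    haveI := hfd b
    exact Fermat.Agent.S24.helper75.ff_finite_zeros _ (hxsubT b)
  have hfinP : {w : Place ℂ F | w.ord p.x < 0}.Finite :=
    Fermat.Agent.S24.helper75.ff_finite_poles p.x hxT
  refine ⟨hfinP.toFinset ∪ B.biUnion (fun b => (hfinB b).toFinset), fun S hS => ?_⟩
  -- the values of `x` at the points of `S`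
  have hval : ∀ P ∈ S, ∃ a : ℂ, a ∉ B ∧ 0 < P.ord (p.x - algebraMap ℂ F a) := by
    intro P hP
    have hPbad : P ∉ hfinP.toFinset ∪ B.biUnion (fun b => (hfinB b).toFinset) :=
      Finset.disjoint_left.1 hS hP
    rw [Finset.mem_union, not_or] at hPbad
    have h1 : 0 ≤ P.ord p.x := by
      by_contra hneg
      exact hPbad.1 ((Set.Finite.mem_toFinset _).2 (not_le.1 hneg))
    obtain ⟨a, ha | ha⟩ := Fermat.Agent.S24.helper82.ff_exists_residue p.x hxT P p.x h1
    · exfalso
      apply hxT
      rw [ha]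
      exact isAlgebraic_algebraMap a
    · refine ⟨a, fun haB => hPbad.2 ?_, ha⟩
      rw [Finset.mem_biUnion]
      exact ⟨a, haB, (Set.Finite.mem_toFinset _).2 ha⟩
  choose! a ha using hval
  obtain ⟨G, hr, hGB, hGA⟩ := hGEO B (S.image a) ⟨0, Finset.mem_insert_self _ _⟩ (by
    rw [Finset.disjoint_left]
    intro z hzB hzA
    obtain ⟨P, hP, rfl⟩ := Finset.mem_image.1 hzA
    exact (ha P hP).1 hzB)
  -- the branches
  have hgood : ∀ z : ℂ, (∀ i, z ≠ G.b i) → (specialize p.f z).Separable := by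
    intro z hz
    by_contra hns
    have hzB : z ∈ B := Finset.mem_insert_of_mem ((Set.Finite.mem_toFinset _).2 hns)
    obtain ⟨i, hi⟩ := (hGB z).1 hzB
    exact hz i hi.symm
  have hmonic : ∀ z : ℂ, (specialize p.f z).Monic := fun z => p.f_monic.map _
  have hdeg : ∀ z : ℂ, (specialize p.f z).natDegree = p.f.natDegree :=
    fun z => p.f_monic.natDegree_map _
  obtain ⟨y, hy1, hy2, hy3⟩ := hBR (fun z => specialize p.f z) p.f.natDegree G.U₀ G.z₀
    (CutGeom.isOpen_U₀ G) (hSTAR G) (fun z _ => hmonic z) (fun z _ => hdeg z)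
    (fun j => by
      have h : (fun z => (specialize p.f z).coeff j) = fun z => (p.f.coeff j).eval z := by
        funext z
        simp [specialize, Polynomial.coeff_map]
      rw [h]
      intro z _
      exact (Polynomial.differentiable _).analyticAt z)
    (fun z hz => hgood z (fun i => CutGeom.ne_b_of_mem_U₀ G hz i))
  have hdpos : 0 < p.f.natDegree := by
    rw [p.f_natDegree]
    exact Module.finrank_pos
  let D : BranchData :=
    { toCutGeometry := G
      r_pos := hr
      f := p.f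
      f_monic := p.f_monic
      d_pos := hdpos
      good := hgood
      goodAtInf := hpinf
      y := y
      y_analytic := hy1
      y_root := hy2
      y_inj := hy3 }
  obtain ⟨σ, hσ⟩ := hCROSS D
  obtain ⟨M, hMG, hMx⟩ := hEV F p D σ rfl hσ (hPUIS D σ hσ) (hINF D σ hσ)
  obtain ⟨pd⟩ := hPL F M
  have hglue := hGLUE F M
  refine ⟨CutModel.ofParts M pd (hDERIV F M) (dxSpansProp M) hglue (transProp_of_glue M hglue),
    fun P hP => ?_⟩
  set CM := CutModel.ofParts M pd (hDERIV F M) (dxSpansProp M) hglue (transProp_of_glue M hglue)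
    with hCM
  have haU : a P ∈ CM.toCutGeometry.U₀ := by
    have h1 : a P ∈ G.U₀ := hGA _ (Finset.mem_image_of_mem a hP)
    have h2 : CM.toCutGeometry = G := hMG
    rw [h2]
    exact h1
  have hord : 0 < P.ord (xsub CM (a P)) := by
    have h1 : xsub CM (a P) = p.x - algebraMap ℂ F (a P) := by
      show M.x - _ = _
      rw [hMx]
    rw [h1]
    exact (ha P hP).2
  have key : ∀ c : ℂ, c ∈ CM.toCutGeometry.U₀ → 0 < P.ord (xsub CM c) → P ∈ CM.interior := by
    intro c hcU hord
    rcases CM.exhaust P with ⟨k, z, hz, hPz⟩ | ⟨i, k, a', ha', hPa⟩ | ⟨i, k, hPb⟩ | ⟨k, hPi⟩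
    · exact ⟨k, z, hz, hPz⟩
    · exfalso
      rw [hPa, ord_plRay CM i k ha' c] at hord
      split_ifs at hord with h
      · exact CutGeom.not_mem_U₀_of_mem_openRay CM.toCutGeometry ha' (h ▸ hcU)
      · exact lt_irrefl _ hord
    · exfalso
      rw [hPb, ord_plBad CM i k c] at hord
      split_ifs at hord with h
      · exact CutGeom.b_not_mem_U₀ CM.toCutGeometry i (h ▸ hcU)
      · exact lt_irrefl _ hord
    · exfalso
      rw [hPi, ord_plInf CM k c] at hord
      omega
  exact key (a P) haU hord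

end

end Fermat.Agent.P5.helper37
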