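/-
P5 / S27, module MOD (helper37): PL-CORE.

`places_of_germs` : the dictionary `DictStatement` specialised to embeddings of `F` into the
field of meromorphic germs at a point `c` given by FUNCTIONS `e k h : ℂ → ℂ` (additive and
multiplicative up to `=ᶠ[𝓝[≠] c]`), with a rotation `w ↦ c + ζ (w - c)` permuting the sheets.
`places_of_germs_one` : the unramified case `E = 1`.

These are the common core of the packages MOD-PL-INT / -RAY / -BAD / -INF.
-/
import Mathlib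
import Fermat.Agent.P5.helper37_ModStatements
import Fermat.Agent.S24.helper99_Germ

set_option autoImplicit false

open AlgebraicCurve IntermediateField WithZero Filter Topology

namespace Fermat.Agent.P5.helper37

open Fermat.Agent.S24.helper99

variable {F : Type} [Field F] [Algebra ℂ F]

/-- The ring homomorphism into meromorphic germs defined by a family of functions which is
additive and multiplicative up to `=ᶠ[𝓝[≠] c]`. -/
noncomputable def germHom (c : ℂ) (e : F → ℂ → ℂ) (hmero : ∀ h, MeromorphicAt (e h) c)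
    (hadd : ∀ h₁ h₂, e (h₁ + h₂) =ᶠ[𝓝[≠] c] fun w => e h₁ w + e h₂ w)
    (hmul : ∀ h₁ h₂, e (h₁ * h₂) =ᶠ[𝓝[≠] c] fun w => e h₁ w * e h₂ w)
    (hconst : ∀ a : ℂ, e (algebraMap ℂ F a) =ᶠ[𝓝[≠] c] fun _ => a) : F →+* MeroGerm c where
  toFun h := MeroGerm.mk (e h) (hmero h)
  map_one' := by
    rw [← MeroGerm.mk_one, MeroGerm.mk_eq_mk_iff]
    have := hconst 1
    simpa using this
  map_mul' a b := by
    rw [← MeroGerm.mk_mul, MeroGerm.mk_eq_mk_iff]
    exact hmul a b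
  map_zero' := by
    rw [← MeroGerm.mk_zero, MeroGerm.mk_eq_mk_iff]
    have := hconst 0
    simpa using this
  map_add' a b := by
    rw [← MeroGerm.mk_add, MeroGerm.mk_eq_mk_iff]
    exact hadd a b

@[simp] theorem germHom_apply (c : ℂ) (e : F → ℂ → ℂ) (hmero : ∀ h, MeromorphicAt (e h) c)
    (hadd : ∀ h₁ h₂, e (h₁ + h₂) =ᶠ[𝓝[≠] c] fun w => e h₁ w + e h₂ w)
    (hmul : ∀ h₁ h₂, e (h₁ * h₂) =ᶠ[𝓝[≠] c] fun w => e h₁ w * e h₂ w)
    (hconst : ∀ a : ℂ, e (algebraMap ℂ F a) =ᶠ[𝓝[≠] c] fun _ => a) (h : F) :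
    germHom c e hmero hadd hmul hconst h = MeroGerm.mk (e h) (hmero h) := rfl

/-- the rotation `w ↦ c + ζ (w - c)` -/
noncomputable def rot (c ζ : ℂ) : ℂ → ℂ := fun w => c + ζ * (w - c)

theorem rot_self (c ζ : ℂ) : rot c ζ c = c := by simp [rot]

theorem analyticAt_rot (c ζ w : ℂ) : AnalyticAt ℂ (rot c ζ) w := by
  unfold rot
  fun_prop

theorem deriv_rot (c ζ w : ℂ) : deriv (rot c ζ) w = ζ := by
  have h : HasDerivAt (rot c ζ) ζ w := by
    have h1 : HasDerivAt (fun w : ℂ => w - c) 1 w := (hasDerivAt_id w).sub_const c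
    have h2 : HasDerivAt (fun w : ℂ => c + ζ * (w - c)) (ζ * 1) w :=
      (h1.const_mul ζ).const_add c
    rw [mul_one] at h2
    exact h2
  exact h.deriv

theorem rot_comp (c ζ ξ : ℂ) : rot c ζ ∘ rot c ξ = rot c (ζ * ξ) := by
  funext w
  simp only [rot, Function.comp_apply]
  ring

theorem tendsto_rot {c ζ : ℂ} (hζ : ζ ≠ 0) : Tendsto (rot c ζ) (𝓝[≠] c) (𝓝[≠] c) := by
  rw [tendsto_nhdsWithin_iff]
  constructor
  · have h := (analyticAt_rot c ζ c).continuousAt.tendsto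
    rw [rot_self] at h
    exact h.mono_left nhdsWithin_le_nhds
  · filter_upwards [self_mem_nhdsWithin] with w hw
    have hw' : w ≠ c := hw
    simp only [rot, Set.mem_compl_iff, Set.mem_singleton_iff, add_eq_left, mul_eq_zero, not_or]
    exact ⟨hζ, sub_ne_zero.2 hw'⟩

/-- **[PL-CORE]** places from germs of functions, with rotation. -/
theorem places_of_germs (hD : DictStatement) (t : F) (ht : Transcendental ℂ t)
    (hfd : FiniteDimensional ℂ⟮t⟯ F) (c : ℂ) (d : ℕ) (hd : d = Module.finrank ℂ⟮t⟯ F)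
    (e : Fin d → F → ℂ → ℂ) (hmero : ∀ k h, MeromorphicAt (e k h) c)
    (hadd : ∀ k h₁ h₂, e k (h₁ + h₂) =ᶠ[𝓝[≠] c] fun w => e k h₁ w + e k h₂ w)
    (hmul : ∀ k h₁ h₂, e k (h₁ * h₂) =ᶠ[𝓝[≠] c] fun w => e k h₁ w * e k h₂ w)
    (hconst : ∀ k (a : ℂ), e k (algebraMap ℂ F a) =ᶠ[𝓝[≠] c] fun _ => a)
    (hsep : ∀ k k', k ≠ k' → ∃ h, ¬ (e k h =ᶠ[𝓝[≠] c] e k' h))
    (E : ℕ) (hE : 0 < E) (τ : ℂ → ℂ) (hτ : ∀ k, e k t =ᶠ[𝓝[≠] c] τ)
    (hτord : meromorphicOrderAt τ c = (E : ℤ))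
    (π : Equiv.Perm (Fin d)) (hπE : π ^ E = 1) (ζ : ℂ) (hζ : IsPrimitiveRoot ζ E)
    (hrot : ∀ k h, e (π k) h =ᶠ[𝓝[≠] c] fun w => e k h (rot c ζ w)) :
    ∃ W : Fin d → Place ℂ F,
      (∀ k h, h ≠ 0 → meromorphicOrderAt (e k h) c =
        ((((E / Function.minimalPeriod π k : ℕ) : ℤ) * (W k).ord h : ℤ) : WithTop ℤ)) ∧
      (∀ k, (W k).ord t = (Function.minimalPeriod π k : ℤ)) ∧
      (∀ w : Place ℂ F, 0 < w.ord t → ∃ k, W k = w) ∧
      (∀ i j, W i = W j ↔ ∃ n : ℕ, (π ^ n) i = j) := by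
  classical
  set σ : Fin d → F →+* MeroGerm c := fun k =>
    germHom c (e k) (hmero k) (hadd k) (hmul k) (hconst k) with hσdef
  have hσapp : ∀ k h, σ k h = MeroGerm.mk (e k h) (hmero k h) := fun k h => rfl
  have hζ0 : ζ ≠ 0 := hζ.ne_zero hE.ne'
  have hσinj : Function.Injective σ := by
    intro k k' hkk
    by_contra hne
    obtain ⟨h, hh⟩ := hsep k k' hne
    apply hh
    have := congrArg (fun φ : F →+* MeroGerm c => φ h) hkk
    simp only [hσapp] at this
    exact MeroGerm.mk_eq_mk_iff.1 this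
  have hmkconst : ∀ k (a : ℂ), σ k (algebraMap ℂ F a) = MeroGerm.const c a := by
    intro k a
    rw [hσapp]
    exact MeroGerm.mk_eq_mk_iff.2 (hconst k a)
  have hmkt : ∀ k, σ k t = MeroGerm.mk τ ((hmero k t).congr (hτ k)) := by
    intro k
    rw [hσapp]
    exact MeroGerm.mk_eq_mk_iff.2 (hτ k)
  -- iterated rotation
  have hrotn : ∀ (n : ℕ) k h, e ((π ^ n) k) h =ᶠ[𝓝[≠] c] fun w => e k h (rot c (ζ ^ n) w) := by
    intro n
    induction n with
    | zero =>
      intro k h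
      simp only [pow_zero, Equiv.Perm.coe_one, id_eq]
      exact Eventually.of_forall fun w => by simp [rot]
    | succ n ih =>
      intro k h
      have h1 : (π ^ (n + 1)) k = π ((π ^ n) k) := by
        rw [pow_succ', Equiv.Perm.mul_apply]
      rw [h1]
      have h2 := hrot ((π ^ n) k) h
      have h3 := (tendsto_rot (c := c) hζ0).eventually (ih k h)
      filter_upwards [h2, h3] with w hw2 hw3
      rw [hw2, hw3]
      have := congrFun (rot_comp c (ζ ^ n) ζ) w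
      simp only [Function.comp_apply] at this
      rw [this, pow_succ]
  have hne0 : ∀ k (f : F), f ≠ 0 → σ k f ≠ 0 := fun k f hf =>
    (map_ne_zero (σ k)).2 hf
  obtain ⟨W, hW1, hW2, hW3, hW4⟩ := hD F (MeroGerm c) t ht hfd (MeroGerm.V c) d σ hσinj hd
    (fun k a ha => by rw [hmkconst]; exact MeroGerm.V_const ha)
    (fun i j a => by rw [hmkconst, hmkconst])
    (fun i j => by rw [hmkt i, hmkt j])
    E hE
    (fun k => by
      rw [hmkt k]
      have := MeroGerm.V_mk_of_order_eq ((hmero k t).congr (hτ k)) hτord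
      exact this)
    π hπE
    (fun i f => by
      rw [hσapp, hσapp]
      have h1 : MeroGerm.mk (e (π i) f) (hmero (π i) f) =
          MeroGerm.mk (e i f ∘ rot c ζ)
            (((rot_self c ζ).symm ▸ hmero i f : MeromorphicAt (e i f) (rot c ζ c)).comp_analyticAt
              (analyticAt_rot c ζ c)) :=
        MeroGerm.mk_eq_mk_iff.2 (hrot i f)
      rw [h1]
      exact MeroGerm.V_mk_comp (analyticAt_rot c ζ c) (rot_self c ζ)
        (by rw [deriv_rot]; exact hζ0) (hmero i f))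
    (fun i k hkE hfix f hf => by
      rw [hσapp]
      have hk0 : 0 < k := Nat.pos_of_dvd_of_pos hkE hE
      have hprim : IsPrimitiveRoot (ζ ^ (E / k)) k :=
        hζ.pow hE (Nat.div_mul_cancel hkE).symm
      have hinv : e i f ∘ rot c (ζ ^ (E / k)) =ᶠ[𝓝[≠] c] e i f := by
        have h1 := hrotn (E / k) i f
        rw [hfix] at h1
        exact h1.symm
      refine MeroGerm.exists_V_eq_exp_mul_of_comp_eventuallyEq hk0
        (analyticAt_rot c _ c).differentiableAt (rot_self c _) ?_ (hmero i f) (hne0 i f hf) hinv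
      rw [deriv_rot]
      exact hprim)
  refine ⟨W, ?_, hW2, hW3, hW4⟩
  intro k h hh
  have h1 := hW1 k h hh
  rw [hσapp] at h1
  have hne := hne0 k h hh
  rw [hσapp] at hne
  have htop : meromorphicOrderAt (e k h) c ≠ ⊤ := fun htop =>
    hne (MeroGerm.mk_eq_zero_iff_order.mpr htop)
  obtain ⟨n, hn⟩ := WithTop.ne_top_iff_exists.mp htop
  rw [MeroGerm.V_mk_of_order_eq (hmero k h) hn.symm, exp_inj] at h1
  rw [← hn]
  have : n = ((E / Function.minimalPeriod π k : ℕ) : ℤ) * (W k).ord h := by linarith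
  rw [this]

/-- **[PL-CORE, unramified case]** places from germs of functions, `E = 1`. -/
theorem places_of_germs_one (hD : DictStatement) (t : F) (ht : Transcendental ℂ t)
    (hfd : FiniteDimensional ℂ⟮t⟯ F) (c : ℂ) (d : ℕ) (hd : d = Module.finrank ℂ⟮t⟯ F)
    (e : Fin d → F → ℂ → ℂ) (hmero : ∀ k h, MeromorphicAt (e k h) c)
    (hadd : ∀ k h₁ h₂, e k (h₁ + h₂) =ᶠ[𝓝[≠] c] fun w => e k h₁ w + e k h₂ w)
    (hmul : ∀ k h₁ h₂, e k (h₁ * h₂) =ᶠ[𝓝[≠] c] fun w => e k h₁ w * e k h₂ w)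
    (hconst : ∀ k (a : ℂ), e k (algebraMap ℂ F a) =ᶠ[𝓝[≠] c] fun _ => a)
    (hsep : ∀ k k', k ≠ k' → ∃ h, ¬ (e k h =ᶠ[𝓝[≠] c] e k' h))
    (τ : ℂ → ℂ) (hτ : ∀ k, e k t =ᶠ[𝓝[≠] c] τ)
    (hτord : meromorphicOrderAt τ c = ((1 : ℤ) : WithTop ℤ)) :
    ∃ W : Fin d → Place ℂ F,
      (∀ k h, h ≠ 0 → ((W k).ord h : WithTop ℤ) = meromorphicOrderAt (e k h) c) ∧
      (∀ k, (W k).ord t = 1) ∧
      (∀ w : Place ℂ F, 0 < w.ord t → ∃ k, W k = w) ∧ Function.Injective W := by
  obtain ⟨W, hW1, hW2, hW3, hW4⟩ := places_of_germs hD t ht hfd c d hd e hmero hadd hmul hconst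
    hsep 1 one_pos τ hτ (by simpa using hτord) 1 (by simp) 1 (by simp)
    (fun k h => Eventually.of_forall fun w => by simp [rot])
  have hmp : ∀ k : Fin d, Function.minimalPeriod (1 : Equiv.Perm (Fin d)) k = 1 := by
    intro k
    have h1 : Function.minimalPeriod (1 : Equiv.Perm (Fin d)) k ∣ 1 := by
      apply Function.IsPeriodicPt.minimalPeriod_dvd
      simp [Function.IsPeriodicPt, Function.IsFixedPt]
    exact Nat.dvd_one.1 h1
  refine ⟨W, ?_, ?_, hW3, ?_⟩
  · intro k h hh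
    rw [hW1 k h hh, hmp k]
    simp
  · intro k
    rw [hW2 k, hmp k]
    simp
  · intro i j hij
    obtain ⟨n, hn⟩ := (hW4 i j).1 hij
    simpa using hn

end Fermat.Agent.P5.helper37
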