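/-
P5 / S27, module MOD (helper37): MOD-PL-INT, the interior places of a sheet model.
-/
import Mathlib
import Fermat.Agent.P5.helper37_PlCore
import Fermat.Agent.P5.helper37_ModAsm

set_option autoImplicit false

open AlgebraicCurve IntermediateField WithZero Filter Topology

namespace Fermat.Agent.P5.helper37

open Fermat.Agent.P5.helper25 Fermat.Agent.P5.helper4

variable {F : Type} [Field F] [Algebra ℂ F]

namespace SheetModel

variable (M : SheetModel F)

/-- the function `x - a` -/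
def xsub (a : ℂ) : F := M.x - algebraMap ℂ F a

theorem xsub_transcendental (a : ℂ) : Transcendental ℂ (M.xsub a) := by
  intro halg
  apply M.x_transcendental
  have := halg.add (isAlgebraic_algebraMap (R := ℂ) (A := F) a)
  simpa [xsub] using this

theorem xsub_ne_zero (a : ℂ) : M.xsub a ≠ 0 := by
  intro h
  apply M.xsub_transcendental a
  rw [h]
  exact isAlgebraic_zero

theorem xsub_finite (a : ℂ) : FiniteDimensional ℂ⟮M.xsub a⟯ F := by
  haveI := M.x_finite
  unfold xsub
  rw [Fermat.Agent.S24.helper55.adjoin_sub_algebraMap_eq]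
  infer_instance

theorem d_eq_xsub (a : ℂ) : M.d = Module.finrank ℂ⟮M.xsub a⟯ F := by
  rw [M.d_eq]
  exact Fermat.Agent.S24.helper75.finrank_congr_intermediateField
    (Fermat.Agent.S24.helper55.adjoin_sub_algebraMap_eq M.x a).symm

theorem ev_xsub (k : Fin M.d) (a : ℂ) {z : ℂ} (hz : z ∈ M.toCutGeometry.U₀) :
    M.ev k (M.xsub a) =ᶠ[𝓝[≠] z] fun w => w - a := by
  have h1 : M.xsub a = M.x + algebraMap ℂ F (-a) := by
    simp [xsub, sub_eq_add_neg]
  rw [h1]
  have h2 := M.ev_add k M.x (algebraMap ℂ F (-a)) z hz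
  filter_upwards [h2, M.eventually_mem_U₀ hz] with w hw hwU
  rw [hw, M.ev_x k hwU, M.ev_algebraMap k (-a) hwU]
  simp [sub_eq_add_neg]

theorem ev_const_eventuallyEq (k : Fin M.d) (a : ℂ) {z : ℂ} (hz : z ∈ M.toCutGeometry.U₀) :
    M.ev k (algebraMap ℂ F a) =ᶠ[𝓝[≠] z] fun _ => a := by
  filter_upwards [M.eventually_mem_U₀ hz] with w hwU
  exact M.ev_algebraMap k a hwU

end SheetModel

/-- **[MOD-PL-INT]** -/
theorem intPlacesStatement : IntPlacesStatement := by
  classical
  intro hD F _ _ M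
  have key : ∀ z : ℂ, z ∈ M.toCutGeometry.U₀ → ∃ W : Fin M.d → Place ℂ F,
      (∀ k h, h ≠ 0 → ((W k).ord h : WithTop ℤ) = meromorphicOrderAt (M.ev k h) z) ∧
      (∀ k, (W k).ord (M.xsub z) = 1) ∧
      (∀ w : Place ℂ F, 0 < w.ord (M.xsub z) → ∃ k, W k = w) ∧ Function.Injective W := by
    intro z hz
    exact places_of_germs_one hD (M.xsub z) (M.xsub_transcendental z) (M.xsub_finite z) z M.d
      (M.d_eq_xsub z) M.ev (fun k h => M.ev_meromorphicOn k h z hz)
      (fun k h₁ h₂ => M.ev_add k h₁ h₂ z hz) (fun k h₁ h₂ => M.ev_mul k h₁ h₂ z hz)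
      (fun k a => M.ev_const_eventuallyEq k a hz) (fun k k' hkk => M.ev_separated k k' hkk z hz)
      (fun w => w - z) (fun k => M.ev_xsub k z hz) (by
        rw [order_sub_const]
        simp)
  obtain ⟨W₀, -⟩ := key M.z₀ M.z₀_mem_U₀
  have hne : Nonempty (Place ℂ F) := ⟨W₀ ⟨0, M.d_pos⟩⟩
  let pl : Fin M.d → ℂ → Place ℂ F := fun k z =>
    if hz : z ∈ M.toCutGeometry.U₀ then (key z hz).choose k else Classical.choice hne
  have hpl : ∀ z (hz : z ∈ M.toCutGeometry.U₀) k, pl k z = (key z hz).choose k := by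
    intro z hz k
    simp only [pl, dif_pos hz]
  refine ⟨pl, ?_, ?_, ?_⟩
  · intro k z hz h hh
    rw [hpl z hz k]
    exact (key z hz).choose_spec.1 k h hh
  · intro z hz P hP
    obtain ⟨k, hk⟩ := (key z hz).choose_spec.2.2.1 P hP
    exact ⟨k, by rw [hpl z hz k, hk]⟩
  · intro z hz k k' hkk
    simp only [hpl z hz] at hkk
    exact (key z hz).choose_spec.2.2.2 hkk

end Fermat.Agent.P5.helper37
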