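import Fermat.Agent.P5.helper37_ModAnalytic
import Fermat.Agent.P5.helper4_Orders
import Fermat.Agent.P5.helper38_CutStar

/-!
# P5 / MOD-GEO (helper38, task 596): existence of cut geometries and sector lemmas

* `geoStatement : GeoStatement` : for finite disjoint sets `B ≠ ∅`, `A` there is a cut geometry
  with bad points `B` whose cut plane contains `A` (base point on the parabola `t + t² i`,
  off the finitely many lines through two points of `B ∪ A`);
* `eventually_sector_of_mem_U₀`, `eventually_mem_U₀_of_sector` : the preimage of the cut plane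
  under `s ↦ b i + s ^ E * u` near `s = 0` is the union of the `E` open sectors;
* `eventually_sectorInf_of_mem_U₀`, `eventually_mem_U₀_of_sectorInf` : the cut plane near `∞`;
* `pow_mem_sector`.
-/

set_option autoImplicit false

open Filter Topology Complex

namespace Fermat.Agent.P5.helper38

open Fermat.Agent.P5.helper25 Fermat.Agent.P5.helper4 Fermat.Agent.P5.helper37

/-! ### lines and the parabola -/

/-- `z` lies on the line through `p` and `q` -/
def OnLine (p q z : ℂ) : Prop := ((z - p) * (starRingEnd ℂ) (q - p)).im = 0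

/-- the point `t + t² i` of the parabola -/
noncomputable def par (t : ℝ) : ℂ := ⟨t, t ^ 2⟩

lemma onLine_par_iff (p q : ℂ) (t : ℝ) :
    OnLine p q (par t) ↔
      (q - p).re * t ^ 2 - (q - p).im * t + (p.re * (q - p).im - p.im * (q - p).re) = 0 := by
  unfold OnLine par
  simp only [Complex.mul_im, Complex.sub_re, Complex.sub_im, Complex.conj_re, Complex.conj_im]
  constructor <;> intro h <;> linarith

lemma finite_onLine_par {p q : ℂ} (hpq : p ≠ q) : {t : ℝ | OnLine p q (par t)}.Finite := by
  set d1 : ℝ := (q - p).re with hd1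
  set d2 : ℝ := (q - p).im with hd2
  set c : ℝ := p.re * d2 - p.im * d1 with hc
  set P : Polynomial ℝ := Polynomial.C d1 * Polynomial.X ^ 2
    - Polynomial.C d2 * Polynomial.X + Polynomial.C c with hP
  have hP0 : P ≠ 0 := by
    intro h0
    have h2 : P.coeff 2 = 0 := by rw [h0]; simp
    have h1 : P.coeff 1 = 0 := by rw [h0]; simp
    have e2 : P.coeff 2 = d1 := by
      rw [hP]
      simp
    have e1 : P.coeff 1 = -d2 := by
      rw [hP]
      simp
    rw [e2] at h2
    rw [e1] at h1
    apply hpq
    have : q - p = 0 := Complex.ext h2 (neg_eq_zero.1 h1)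
    exact (sub_eq_zero.1 this).symm
  refine (Polynomial.finite_setOfPred_isRoot hP0).subset ?_
  intro t ht
  have := (onLine_par_iff p q t).1 ht
  simp only [Set.mem_ofPred_eq, Polynomial.IsRoot, hP, Polynomial.eval_add, Polynomial.eval_sub,
    Polynomial.eval_mul, Polynomial.eval_C, Polynomial.eval_pow, Polynomial.eval_X]
  exact this

lemma finite_par_eq (b : ℂ) : {t : ℝ | par t = b}.Finite := by
  refine (Set.finite_singleton b.re).subset ?_
  intro t ht
  have : (par t).re = b.re := by rw [ht]
  exact this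

/-- a base point off a finite set and off the lines through pairs of points of a finite set -/
lemma exists_basePoint (B C : Finset ℂ) :
    ∃ z₀ : ℂ, z₀ ∉ B ∧ ∀ p ∈ C, ∀ q ∈ C, p ≠ q → ¬ OnLine p q z₀ := by
  classical
  have hfin : ((⋃ b ∈ B, {t : ℝ | par t = b}) ∪
      (⋃ p ∈ C, ⋃ q ∈ C, ⋃ (_ : p ≠ q), {t : ℝ | OnLine p q (par t)})).Finite := by
    refine Set.Finite.union ?_ ?_
    · exact Set.Finite.biUnion B.finite_toSet fun b _ => finite_par_eq b
    · refine Set.Finite.biUnion C.finite_toSet fun p _ => ?_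
      refine Set.Finite.biUnion C.finite_toSet fun q _ => ?_
      by_cases hpq : p = q
      · simp [hpq]
      · have : (⋃ (_ : p ≠ q), {t : ℝ | OnLine p q (par t)}) = {t : ℝ | OnLine p q (par t)} := by
          simp [hpq]
        rw [this]
        exact finite_onLine_par hpq
  obtain ⟨t, ht⟩ := hfin.infinite_compl.nonempty
  simp only [Set.mem_compl_iff, Set.mem_union, Set.mem_iUnion, Set.mem_ofPred_eq, not_or,
    not_exists] at ht
  refine ⟨par t, fun hB => ht.1 (par t) (by simpa using hB) rfl, fun p hp q hq hpq h => ?_⟩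
  exact ht.2 p (by simpa using hp) q (by simpa using hq) hpq h

lemma onLine_aux (z₀ b : ℂ) (c : ℝ) :
    ((z₀ - b) * ((c : ℂ) * (starRingEnd ℂ) (b - z₀))).im = 0 := by
  simp only [Complex.mul_im, Complex.mul_re, Complex.sub_re, Complex.sub_im, Complex.conj_re,
    Complex.conj_im, Complex.ofReal_re, Complex.ofReal_im]
  ring

lemma onLine_of_arg_eq {z₀ b b' : ℂ} (hb : b ≠ z₀) (hb' : b' ≠ z₀)
    (h : arg (b - z₀) = arg (b' - z₀)) : OnLine b b' z₀ := by
  have h1 := (Complex.arg_eq_arg_iff (sub_ne_zero.2 hb) (sub_ne_zero.2 hb')).1 h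
  set lam : ℝ := ‖b' - z₀‖ / ‖b - z₀‖ with hlam
  have h2 : (lam : ℂ) * (b - z₀) = b' - z₀ := by
    rw [← h1, hlam]
    push_cast
    rfl
  have h3 : b' - b = ((lam - 1 : ℝ) : ℂ) * (b - z₀) := by
    push_cast
    linear_combination -h2
  unfold OnLine
  rw [h3, map_mul, Complex.conj_ofReal]
  exact onLine_aux z₀ b _

lemma onLine_of_mem_ray {z₀ b a : ℂ} (ha : a ∈ ray z₀ b) : OnLine b a z₀ := by
  obtain ⟨s, hs, rfl⟩ := ha
  unfold OnLine
  rw [add_sub_cancel_left, map_mul, Complex.conj_ofReal]
  exact onLine_aux z₀ b _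

/-! ### MOD-GEO -/

/-- **[MOD-GEO]** existence of cut geometries. -/
theorem geoStatement : GeoStatement := by
  classical
  intro B A hB hBA
  obtain ⟨z₀, hz₀, hline⟩ := exists_basePoint B (B ∪ A)
  set f : ℂ → ℝ := fun b => arg (b - z₀) with hf
  have hne : ∀ b ∈ B, b ≠ z₀ := fun b hb h => hz₀ (h ▸ hb)
  have hinj : Set.InjOn f (B : Set ℂ) := by
    intro b hb b' hb' h
    by_contra hbb
    exact hline b (Finset.mem_union_left _ hb) b' (Finset.mem_union_left _ hb') hbb
      (onLine_of_arg_eq (hne b hb) (hne b' hb') h)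
  have hcard : (B.image f).card = B.card := Finset.card_image_of_injOn hinj
  set e : Fin B.card ↪o ℝ := (B.image f).orderEmbOfFin hcard with he
  have hmem : ∀ i, e i ∈ B.image f := fun i => Finset.orderEmbOfFin_mem _ hcard i
  have hex : ∀ i, ∃ b ∈ B, f b = e i := fun i => by
    obtain ⟨b, hb, h⟩ := Finset.mem_image.1 (hmem i)
    exact ⟨b, hb, h⟩
  choose b hbB hbf using hex
  refine ⟨⟨z₀, B.card, b, fun i => hne _ (hbB i), ?_⟩, Finset.card_pos.2 hB, ?_, ?_⟩
  · intro i j hij
    show f (b i) < f (b j)
    rw [hbf, hbf]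
    exact e.strictMono hij
  · intro z
    constructor
    · intro hz
      have hz' : f z ∈ B.image f := Finset.mem_image_of_mem f hz
      have hrange : f z ∈ Set.range e := by
        rw [he, Finset.range_orderEmbOfFin]
        exact hz'
      obtain ⟨i, hi⟩ := hrange
      refine ⟨i, hinj (hbB i) hz ?_⟩
      rw [hbf, hi]
    · rintro ⟨i, rfl⟩
      exact hbB i
  · intro a ha i hmem
    have hab : b i ≠ a := fun h =>
      Finset.disjoint_left.1 hBA (hbB i) (h ▸ ha)
    exact hline (b i) (Finset.mem_union_left _ (hbB i)) a (Finset.mem_union_right _ ha) hab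
      (onLine_of_mem_ray hmem)

end Fermat.Agent.P5.helper38
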