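/-
P5 / S27, module MOD, package MOD-BR (helper56): analytic roots of an analytic family of monic
separable polynomials. Part 1: the local theory (implicit function theorem).
-/
import Mathlib
import Fermat.Agent.P5.helper37_ModAnalytic

set_option autoImplicit false
set_option linter.unusedSectionVars false
set_option linter.unusedVariables false

open Filter Topology

namespace Fermat.Agent.P5.helper56

/-- The hypotheses of `BranchStatement` on a family of polynomials (without star-convexity). -/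
structure BranchHyp (P : ℂ → Polynomial ℂ) (d : ℕ) (U : Set ℂ) : Prop where
  isOpen : IsOpen U
  monic : ∀ z ∈ U, (P z).Monic
  natDegree : ∀ z ∈ U, (P z).natDegree = d
  analytic : ∀ j : ℕ, AnalyticOnNhd ℂ (fun z => (P z).coeff j) U
  separable : ∀ z ∈ U, (P z).Separable

/-- The two-variable function `(z, w) ↦ P_z(w)`. -/
noncomputable def evalFun (P : ℂ → Polynomial ℂ) (x : ℂ × ℂ) : ℂ := (P x.1).eval x.2

variable {P : ℂ → Polynomial ℂ} {d : ℕ} {U : Set ℂ}

theorem evalFun_apply (z w : ℂ) : evalFun P (z, w) = (P z).eval w := rfl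

theorem BranchHyp.mono (h : BranchHyp P d U) {V : Set ℂ} (hV : IsOpen V) (hVU : V ⊆ U) :
    BranchHyp P d V :=
  ⟨hV, fun z hz => h.monic z (hVU hz), fun z hz => h.natDegree z (hVU hz),
    fun j => (h.analytic j).mono hVU, fun z hz => h.separable z (hVU hz)⟩

/-! ### Analyticity of the evaluation -/

theorem analyticAt_evalFun (h : BranchHyp P d U) {z : ℂ} (hz : z ∈ U) (w : ℂ) :
    AnalyticAt ℂ (evalFun P) (z, w) := by
  have h1 : AnalyticAt ℂ
      (fun x : ℂ × ℂ => ∑ j ∈ Finset.range (d + 1), (P x.1).coeff j * x.2 ^ j) (z, w) := by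
    refine Finset.analyticAt_fun_sum _ fun j _ => ?_
    refine AnalyticAt.mul ?_ (analyticAt_snd.pow j)
    exact (h.analytic j z hz).comp_of_eq analyticAt_fst rfl
  refine h1.congr ?_
  have hmem : Prod.fst ⁻¹' U ∈ 𝓝 ((z, w) : ℂ × ℂ) :=
    (h.isOpen.preimage continuous_fst).mem_nhds hz
  filter_upwards [hmem] with x hx
  rw [evalFun, Polynomial.eval_eq_sum_range, h.natDegree x.1 hx]

theorem fderiv_evalFun_inr (h : BranchHyp P d U) {z : ℂ} (hz : z ∈ U) (w : ℂ) :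
    (fderiv ℂ (evalFun P) (z, w)).comp (ContinuousLinearMap.inr ℂ ℂ ℂ) (1 : ℂ) =
      (P z).derivative.eval w := by
  have h1 : HasFDerivAt (evalFun P) (fderiv ℂ (evalFun P) (z, w)) (z, w) :=
    (analyticAt_evalFun h hz w).differentiableAt.hasFDerivAt
  have h2 : HasFDerivAt (fun w' : ℂ => ((z, w') : ℂ × ℂ)) (ContinuousLinearMap.inr ℂ ℂ ℂ) w :=
    hasFDerivAt_prodMk_right z w
  have h3 : HasFDerivAt (fun w' : ℂ => evalFun P (z, w'))
      ((fderiv ℂ (evalFun P) (z, w)).comp (ContinuousLinearMap.inr ℂ ℂ ℂ)) w :=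
    h1.comp w h2
  have h4 : HasDerivAt (fun w' : ℂ => evalFun P (z, w'))
      (((fderiv ℂ (evalFun P) (z, w)).comp (ContinuousLinearMap.inr ℂ ℂ ℂ)) 1) w :=
    h3.hasDerivAt
  have h5 : HasDerivAt (fun w' : ℂ => evalFun P (z, w')) ((P z).derivative.eval w) w :=
    (P z).hasDerivAt w
  exact h4.unique h5

theorem isInvertible_of_apply_one_ne_zero (L : ℂ →L[ℂ] ℂ) (hL : L 1 ≠ 0) : L.IsInvertible := by
  refine ⟨ContinuousLinearEquiv.unitsEquivAut ℂ (Units.mk0 (L 1) hL), ?_⟩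
  ext
  simp

theorem derivative_eval_ne_zero (h : BranchHyp P d U) {z : ℂ} (hz : z ∈ U) {w : ℂ}
    (hw : (P z).IsRoot w) : (P z).derivative.eval w ≠ 0 := by
  have := (h.separable z hz).eval₂_derivative_ne_zero (RingHom.id ℂ) (x := w)
    (by simpa [Polynomial.eval₂_id] using hw)
  simpa [Polynomial.eval₂_id] using this

/-! ### The local root function through a given root -/

/-- The implicit function theorem for a root of `P z₁`. -/
theorem exists_local_root (h : BranchHyp P d U) {z₁ : ℂ} (hz : z₁ ∈ U) {w₁ : ℂ}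
    (hw : (P z₁).IsRoot w₁) :
    ∃ ψ : ℂ → ℂ, ψ z₁ = w₁ ∧ DifferentiableAt ℂ ψ z₁ ∧
      (∀ᶠ z in 𝓝 z₁, (P z).IsRoot (ψ z)) ∧
      (∀ᶠ v in 𝓝 ((z₁, w₁) : ℂ × ℂ), (P v.1).IsRoot v.2 → ψ v.1 = v.2) := by
  have hs : HasStrictFDerivAt (evalFun P) (fderiv ℂ (evalFun P) (z₁, w₁)) (z₁, w₁) :=
    (analyticAt_evalFun h hz w₁).hasStrictFDerivAt
  have hinv : ((fderiv ℂ (evalFun P) (z₁, w₁)).comp
      (ContinuousLinearMap.inr ℂ ℂ ℂ)).IsInvertible := by
    apply isInvertible_of_apply_one_ne_zero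
    rw [fderiv_evalFun_inr h hz]
    exact derivative_eval_ne_zero h hz hw
  have h0 : evalFun P (z₁, w₁) = 0 := hw
  have hiff := hs.eventually_apply_eq_iff_implicitFunctionOfProdDomain hinv
  have hev := hs.eventually_apply_implicitFunctionOfProdDomain hinv
  have hder := hs.hasStrictFDerivAt_implicitFunctionOfProdDomain hinv
  refine ⟨hs.implicitFunctionOfProdDomain hinv, ?_, hder.differentiableAt, ?_, ?_⟩
  · exact (hiff.self_of_nhds).1 rfl
  · filter_upwards [hev] with z hz'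
    rw [h0] at hz'
    exact hz'
  · filter_upwards [hiff] with v hv hroot
    exact hv.1 (by rw [h0]; exact hroot)

/-- A root function which is continuous at a point is differentiable there. -/
theorem differentiableAt_of_continuousAt_root (h : BranchHyp P d U) {z₁ : ℂ} (hz : z₁ ∈ U)
    {g : ℂ → ℂ} (hg : ContinuousAt g z₁) (hroot : ∀ᶠ z in 𝓝 z₁, (P z).IsRoot (g z)) :
    DifferentiableAt ℂ g z₁ := by
  obtain ⟨ψ, -, hψd, -, hψu⟩ := exists_local_root h hz (hroot.self_of_nhds)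
  have ht : Tendsto (fun z => ((z, g z) : ℂ × ℂ)) (𝓝 z₁) (𝓝 (z₁, g z₁)) :=
    (continuousAt_id.prodMk hg).tendsto
  have h1 := ht.eventually hψu
  have h2 : ψ =ᶠ[𝓝 z₁] g := by
    filter_upwards [h1, hroot] with z hz1 hz2
    exact hz1 hz2
  exact hψd.congr_of_eventuallyEq h2.symm

/-- A continuous root function on an open subset of `U` is analytic. -/
theorem analyticOnNhd_of_continuousOn_root (h : BranchHyp P d U) {V : Set ℂ} (hV : IsOpen V)
    (hVU : V ⊆ U) {g : ℂ → ℂ} (hg : ContinuousOn g V) (hroot : ∀ z ∈ V, (P z).IsRoot (g z)) :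
    AnalyticOnNhd ℂ g V := by
  refine DifferentiableOn.analyticOnNhd (fun z hz => ?_) hV
  refine (differentiableAt_of_continuousAt_root h (hVU hz) (hg.continuousAt (hV.mem_nhds hz))
    ?_).differentiableWithinAt
  filter_upwards [hV.mem_nhds hz] with z' hz'
  exact hroot z' hz'

/-- The local root function through a given root, on a ball. -/
theorem exists_local_root_ball (h : BranchHyp P d U) {z₁ : ℂ} (hz : z₁ ∈ U) {w₁ : ℂ}
    (hw : (P z₁).IsRoot w₁) :
    ∃ (ψ : ℂ → ℂ) (δ : ℝ), 0 < δ ∧ Metric.ball z₁ δ ⊆ U ∧ ψ z₁ = w₁ ∧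
      ContinuousOn ψ (Metric.ball z₁ δ) ∧ ∀ z ∈ Metric.ball z₁ δ, (P z).IsRoot (ψ z) := by
  obtain ⟨ψ, hψ1, hψd, hψr, hψu⟩ := exists_local_root h hz hw
  -- a product neighbourhood on which uniqueness holds
  rw [nhds_prod_eq] at hψu
  obtain ⟨A, hA, B, hB, hAB⟩ := Filter.eventually_prod_iff.1 hψu
  obtain ⟨ε, hε, hεB⟩ := Metric.mem_nhds_iff.1 hB
  have hψc : ContinuousAt ψ z₁ := hψd.continuousAt
  have hψε : ∀ᶠ z in 𝓝 z₁, ψ z ∈ Metric.ball w₁ ε := by
    have : Metric.ball w₁ ε ∈ 𝓝 (ψ z₁) := by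
      rw [hψ1]
      exact Metric.ball_mem_nhds w₁ hε
    exact hψc.eventually this
  have hU : ∀ᶠ z in 𝓝 z₁, z ∈ U := h.isOpen.mem_nhds hz
  have hall : ∀ᶠ z in 𝓝 z₁, z ∈ U ∧ A z ∧ (P z).IsRoot (ψ z) ∧ ψ z ∈ Metric.ball w₁ ε :=
    hU.and (hA.and (hψr.and hψε))
  obtain ⟨δ, hδ, hδs⟩ := Metric.mem_nhds_iff.1 hall
  refine ⟨ψ, δ, hδ, fun z hz' => (hδs hz').1, hψ1, fun z₂ hz₂ => ?_, fun z hz' => (hδs hz').2.2.1⟩
  -- continuity at `z₂`
  obtain ⟨hz₂U, hz₂A, hz₂r, hz₂ε⟩ := hδs hz₂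
  obtain ⟨ψ', hψ'1, hψ'd, hψ'r, -⟩ := exists_local_root h hz₂U hz₂r
  have hψ'c : ContinuousAt ψ' z₂ := hψ'd.continuousAt
  have h1 : ∀ᶠ z in 𝓝 z₂, ψ' z ∈ Metric.ball w₁ ε := by
    have : Metric.ball w₁ ε ∈ 𝓝 (ψ' z₂) := by
      rw [hψ'1]
      exact Metric.isOpen_ball.mem_nhds hz₂ε
    exact hψ'c.eventually this
  have h2 : ∀ᶠ z in 𝓝 z₂, z ∈ Metric.ball z₁ δ := Metric.isOpen_ball.mem_nhds hz₂
  have h3 : ψ =ᶠ[𝓝 z₂] ψ' := by
    filter_upwards [h1, h2, hψ'r] with z hz1 hz2 hz3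
    exact hAB (hδs hz2).2.1 (hεB hz1) hz3
  exact (hψ'c.congr h3.symm).continuousWithinAt

end Fermat.Agent.P5.helper56
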