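/-
P5 / S27, module MOD, package MOD-BR (helper56): analytic roots of an analytic family of monic
separable polynomials. Part 2: the covering space of roots, lifting, and `BranchStatement`.
-/
import Mathlib
import Fermat.Agent.P5.helper37_ModAnalytic
import Fermat.Agent.P5.helper56_BranchLocal

set_option autoImplicit false
set_option linter.unusedSectionVars false
set_option linter.unusedVariables false

open Filter Topology

namespace Fermat.Agent.P5.helper56

variable {P : ℂ → Polynomial ℂ} {d : ℕ} {U : Set ℂ}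

/-! ### Enumerating the roots -/

theorem BranchHyp.ne_zero (h : BranchHyp P d U) {z : ℂ} (hz : z ∈ U) : P z ≠ 0 :=
  (h.monic z hz).ne_zero

/-- The roots of `P z` can be enumerated by `Fin d`. -/
theorem exists_roots_enum (h : BranchHyp P d U) {z : ℂ} (hz : z ∈ U) :
    ∃ w : Fin d → ℂ, Function.Injective w ∧ ∀ k, (P z).IsRoot (w k) := by
  classical
  have hnd : (P z).roots.Nodup := Polynomial.nodup_roots (h.separable z hz)
  have hcard : (P z).roots.toFinset.card = d := by
    rw [Multiset.toFinset_card_of_nodup hnd, IsAlgClosed.card_roots_eq_natDegree,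
      h.natDegree z hz]
  have hcard' : Fintype.card ((P z).roots.toFinset) = d := by
    rw [Fintype.card_coe, hcard]
  let e := Fintype.equivFinOfCardEq hcard'
  refine ⟨fun k => (e.symm k).1, fun j k hjk => ?_, fun k => ?_⟩
  · exact e.symm.injective (Subtype.ext hjk)
  · have := (e.symm k).2
    rw [Multiset.mem_toFinset, Polynomial.mem_roots (h.ne_zero hz)] at this
    exact this

/-- `d` pairwise distinct roots of `P z` are all the roots. -/
theorem exists_eq_of_isRoot_of_injective (h : BranchHyp P d U) {z : ℂ} (hz : z ∈ U)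
    {w : Fin d → ℂ} (hw : Function.Injective w) (hr : ∀ k, (P z).IsRoot (w k)) {c : ℂ}
    (hc : (P z).IsRoot c) : ∃ k, w k = c := by
  classical
  have hp : P z ≠ 0 := h.ne_zero hz
  have h1 : Finset.univ.image w ⊆ (P z).roots.toFinset := by
    intro a ha
    obtain ⟨k, -, rfl⟩ := Finset.mem_image.1 ha
    rw [Multiset.mem_toFinset, Polynomial.mem_roots hp]
    exact hr k
  have h2 : (Finset.univ.image w).card = d := by
    rw [Finset.card_image_of_injective _ hw]
    simp
  have h3 : (P z).roots.toFinset.card ≤ d := by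
    calc (P z).roots.toFinset.card ≤ Multiset.card (P z).roots := Multiset.toFinset_card_le _
      _ ≤ (P z).natDegree := Polynomial.card_roots' (P z)
      _ = d := h.natDegree z hz
  have h4 : Finset.univ.image w = (P z).roots.toFinset :=
    Finset.eq_of_subset_of_card_le h1 (by rw [h2]; exact h3)
  have h5 : c ∈ (P z).roots.toFinset := by
    rw [Multiset.mem_toFinset, Polynomial.mem_roots hp]
    exact hc
  rw [← h4] at h5
  obtain ⟨k, -, hk⟩ := Finset.mem_image.1 h5
  exact ⟨k, hk⟩

/-- `d` pairwise distinct roots of `P z` give the factorisation of `P z`. -/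
theorem eq_prod_of_injective (h : BranchHyp P d U) {z : ℂ} (hz : z ∈ U)
    {w : Fin d → ℂ} (hw : Function.Injective w) (hr : ∀ k, (P z).IsRoot (w k)) :
    P z = ∏ k, (Polynomial.X - Polynomial.C (w k)) := by
  classical
  have hp : P z ≠ 0 := h.ne_zero hz
  have hnd : (P z).roots.Nodup := Polynomial.nodup_roots (h.separable z hz)
  have h1 : Finset.univ.image w ⊆ (P z).roots.toFinset := by
    intro a ha
    obtain ⟨k, -, rfl⟩ := Finset.mem_image.1 ha
    rw [Multiset.mem_toFinset, Polynomial.mem_roots hp]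
    exact hr k
  have h2 : (Finset.univ.image w).card = d := by
    rw [Finset.card_image_of_injective _ hw]
    simp
  have h3 : (P z).roots.toFinset.card ≤ d := by
    calc (P z).roots.toFinset.card ≤ Multiset.card (P z).roots := Multiset.toFinset_card_le _
      _ ≤ (P z).natDegree := Polynomial.card_roots' (P z)
      _ = d := h.natDegree z hz
  have h4 : Finset.univ.image w = (P z).roots.toFinset :=
    Finset.eq_of_subset_of_card_le h1 (by rw [h2]; exact h3)
  have h5 : (P z).roots = (Finset.univ.image w).val := by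
    rw [h4, Multiset.toFinset_val, Multiset.dedup_eq_self.2 hnd]
  have h6 := (IsAlgClosed.splits (P z)).eq_prod_roots_of_monic (h.monic z hz)
  rw [h6, h5]
  rw [Finset.image_val_of_injOn hw.injOn, Multiset.map_map]
  rfl

/-! ### Local branches -/

/-- Near every point of `U` the roots are given by `d` continuous pointwise distinct functions
on a ball. -/
theorem exists_local_branches (h : BranchHyp P d U) {z₁ : ℂ} (hz : z₁ ∈ U) :
    ∃ (g : Fin d → ℂ → ℂ) (δ : ℝ), 0 < δ ∧ Metric.ball z₁ δ ⊆ U ∧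
      (∀ k, ContinuousOn (g k) (Metric.ball z₁ δ)) ∧
      (∀ k, ∀ z ∈ Metric.ball z₁ δ, (P z).IsRoot (g k z)) ∧
      (∀ z ∈ Metric.ball z₁ δ, Function.Injective fun k => g k z) := by
  obtain ⟨w, hw, hwr⟩ := exists_roots_enum h hz
  have hex : ∀ k, ∃ (ψ : ℂ → ℂ) (δ : ℝ), 0 < δ ∧ Metric.ball z₁ δ ⊆ U ∧ ψ z₁ = w k ∧
      ContinuousOn ψ (Metric.ball z₁ δ) ∧ ∀ z ∈ Metric.ball z₁ δ, (P z).IsRoot (ψ z) :=
    fun k => exists_local_root_ball h hz (hwr k)
  choose ψ δ hδ hδU hψ1 hψc hψr using hex
  have hcont : ∀ k, ContinuousAt (ψ k) z₁ := fun k =>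
    (hψc k).continuousAt (Metric.ball_mem_nhds z₁ (hδ k))
  have h1 : ∀ᶠ z in 𝓝 z₁, ∀ k, z ∈ Metric.ball z₁ (δ k) := by
    rw [Filter.eventually_all]
    exact fun k => Metric.ball_mem_nhds z₁ (hδ k)
  have h2 : ∀ᶠ z in 𝓝 z₁, ∀ j k, j ≠ k → ψ j z ≠ ψ k z := by
    rw [Filter.eventually_all]
    intro j
    rw [Filter.eventually_all]
    intro k
    by_cases hjk : j = k
    · exact Eventually.of_forall fun z hne => absurd hjk hne
    · have hne : ψ j z₁ - ψ k z₁ ≠ 0 := by
        rw [hψ1, hψ1]
        exact sub_ne_zero.2 fun hh => hjk (hw hh)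
      have := ((hcont j).sub (hcont k)).eventually_ne hne
      filter_upwards [this] with z hz' _ hh
      exact hz' (sub_eq_zero.2 hh)
  have h0 : ∀ᶠ z in 𝓝 z₁, z ∈ U := h.isOpen.mem_nhds hz
  obtain ⟨δ₀, hδ₀, hball⟩ := Metric.mem_nhds_iff.1 (h0.and (h1.and h2))
  refine ⟨ψ, δ₀, hδ₀, fun z hz' => (hball hz').1, fun k => ?_, fun k z hz' => ?_,
    fun z hz' j k hjk => ?_⟩
  · exact (hψc k).mono fun z hz' => (hball hz').2.1 k
  · exact hψr k z ((hball hz').2.1 k)
  · by_contra hne
    exact (hball hz').2.2 j k hne hjk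

/-! ### The covering space of roots -/

/-- The space of pairs `(z, w)` with `w` a root of `P z`. -/
abbrev RootSpace (P : ℂ → Polynomial ℂ) : Type := {x : ℂ × ℂ // (P x.1).IsRoot x.2}

/-- The projection of the space of roots to the base. -/
def rootProj (P : ℂ → Polynomial ℂ) (e : RootSpace P) : ℂ := e.1.1

theorem continuous_rootProj : Continuous (rootProj P) :=
  continuous_fst.comp continuous_subtype_val

theorem isEvenlyCovered_rootProj (h : BranchHyp P d U) {z₁ : ℂ} (hz : z₁ ∈ U) :
    IsEvenlyCovered (rootProj P) z₁ (Fin d) := by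
  classical
  obtain ⟨g, δ, hδ, hδU, hgc, hgr, hgi⟩ := exists_local_branches h hz
  have hidx : ∀ e : rootProj P ⁻¹' Metric.ball z₁ δ, ∃ k, g k (rootProj P e.1) = e.1.1.2 :=
    fun e => exists_eq_of_isRoot_of_injective h (hδU e.2) (hgi _ e.2) (fun k => hgr k _ e.2)
      e.1.2
  choose idx hidx using hidx
  have hidx_unique : ∀ (e : rootProj P ⁻¹' Metric.ball z₁ δ) (k : Fin d),
      g k (rootProj P e.1) = e.1.1.2 → idx e = k := by
    intro e k hk
    exact hgi _ e.2 ((hidx e).trans hk.symm)
  have hgcont : ∀ k, Continuous fun e : rootProj P ⁻¹' Metric.ball z₁ δ =>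
      g k (rootProj P e.1) := fun k =>
    (hgc k).comp_continuous (continuous_rootProj.comp continuous_subtype_val) fun e => e.2
  have hsnd : Continuous fun e : rootProj P ⁻¹' Metric.ball z₁ δ => e.1.1.2 :=
    continuous_snd.comp (continuous_subtype_val.comp continuous_subtype_val)
  have hidx_cont : Continuous idx := by
    rw [continuous_discrete_rng]
    intro k
    have : idx ⁻¹' {k} = ⋂ j : Fin d, {e : rootProj P ⁻¹' Metric.ball z₁ δ |
        j ≠ k → g j (rootProj P e.1) ≠ e.1.1.2} := by
      ext e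
      simp only [Set.mem_preimage, Set.mem_singleton_iff, Set.mem_iInter, Set.mem_ofPred_eq]
      constructor
      · rintro rfl j hj hh
        exact hj (hidx_unique e j hh).symm
      · intro hall
        by_contra hne
        exact hall (idx e) hne (hidx e)
    rw [this]
    refine isOpen_iInter_of_finite fun j => ?_
    by_cases hj : j = k
    · simp [hj]
    · simp only [ne_eq, hj, not_false_eq_true, forall_const]
      exact isOpen_ne_fun (hgcont j) hsnd
  refine ⟨inferInstance, Metric.ball z₁ δ, Metric.mem_ball_self hδ, Metric.isOpen_ball,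
    Metric.isOpen_ball.preimage continuous_rootProj, ?_⟩
  refine ⟨{ toFun := fun e => (⟨rootProj P e.1, e.2⟩, idx e)
            invFun := fun x => ⟨⟨(x.1.1, g x.2 x.1.1), hgr x.2 x.1.1 x.1.2⟩, x.1.2⟩
            left_inv := ?_
            right_inv := ?_
            continuous_toFun := ?_
            continuous_invFun := ?_ }, fun e => rfl⟩
  · intro e
    apply Subtype.ext
    apply Subtype.ext
    exact Prod.ext rfl (hidx e)
  · intro x
    refine Prod.ext rfl ?_
    exact hidx_unique _ _ rfl
  · exact (Continuous.subtype_mk (continuous_rootProj.comp continuous_subtype_val) _).prodMk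
      hidx_cont
  · rw [continuous_prod_of_discrete_right]
    intro k
    refine Continuous.subtype_mk (Continuous.subtype_mk ?_ _) _
    exact continuous_subtype_val.prodMk
      ((hgc k).comp_continuous continuous_subtype_val fun v => v.2)

/-- The projection from the space of roots is a covering map over `U`. -/
theorem isCoveringMapOn_rootProj (h : BranchHyp P d U) : IsCoveringMapOn (rootProj P) U :=
  fun _ hx => (isEvenlyCovered_rootProj h hx).to_isEvenlyCovered_preimage

/-! ### Global continuous root functions -/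

/-- On a simply connected open set, there is a continuous root function through every root. -/
theorem exists_global_root (h : BranchHyp P d U) [SimplyConnectedSpace U] {z₁ : ℂ}
    (hz : z₁ ∈ U) {w₁ : ℂ} (hw : (P z₁).IsRoot w₁) :
    ∃ F : C(U, ℂ), F ⟨z₁, hz⟩ = w₁ ∧ ∀ z : U, (P z.1).IsRoot (F z) := by
  have := h.isOpen.locallyPathConnectedSpace
  obtain ⟨F, ⟨hF1, hF2⟩, -⟩ := (isCoveringMapOn_rootProj h).existsUnique_continuousMap_lifts
    (⟨Subtype.val, continuous_subtype_val⟩ : C(U, ℂ)) (a₀ := ⟨z₁, hz⟩)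
    (e₀ := (⟨(z₁, w₁), hw⟩ : RootSpace P)) rfl (fun a => a.2)
  have hF3 : ∀ z : U, (F z).1.1 = z.1 := fun z => congrFun hF2 z
  refine ⟨⟨fun z => (F z).1.2,
    continuous_snd.comp (continuous_subtype_val.comp F.continuous)⟩, ?_, fun z => ?_⟩
  · change (F ⟨z₁, hz⟩).1.2 = w₁
    rw [hF1]
  · have := (F z).2
    rw [hF3] at this
    exact this

/-- Two continuous root functions on a simply connected open set which agree at one point are
equal. -/
theorem global_root_unique (h : BranchHyp P d U) [SimplyConnectedSpace U] {F G : C(U, ℂ)}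
    (hF : ∀ z : U, (P z.1).IsRoot (F z)) (hG : ∀ z : U, (P z.1).IsRoot (G z)) {z : U}
    (hz : F z = G z) : F = G := by
  have := h.isOpen.locallyPathConnectedSpace
  obtain ⟨F₀, -, huniq⟩ := (isCoveringMapOn_rootProj h).existsUnique_continuousMap_lifts
    (⟨Subtype.val, continuous_subtype_val⟩ : C(U, ℂ)) (a₀ := z)
    (e₀ := (⟨(z.1, F z), hF z⟩ : RootSpace P)) rfl (fun a => a.2)
  let F' : C(U, RootSpace P) := ⟨fun a => ⟨(a.1, F a), hF a⟩,
    Continuous.subtype_mk (continuous_subtype_val.prodMk F.continuous) _⟩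
  let G' : C(U, RootSpace P) := ⟨fun a => ⟨(a.1, G a), hG a⟩,
    Continuous.subtype_mk (continuous_subtype_val.prodMk G.continuous) _⟩
  have h1 := huniq F' ⟨rfl, rfl⟩
  have h2 := huniq G' ⟨Subtype.ext (Prod.ext rfl hz.symm), rfl⟩
  ext a
  exact congrArg (fun H : C(U, RootSpace P) => (H a).1.2) (h1.trans h2.symm)

/-! ### The main theorem -/

/-- **[MOD-BR]**, in terms of `BranchHyp`. -/
theorem exists_branches (h : BranchHyp P d U) {z₀ : ℂ} (hstar : StarConvex ℝ z₀ U) :
    ∃ y : Fin d → ℂ → ℂ, (∀ k, AnalyticOnNhd ℂ (y k) U) ∧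
      (∀ k, ∀ z ∈ U, (P z).IsRoot (y k z)) ∧ (∀ z ∈ U, Function.Injective fun k => y k z) := by
  classical
  rcases U.eq_empty_or_nonempty with hU | hne
  · subst hU
    exact ⟨fun _ _ => 0, fun k z hz => absurd hz (Set.notMem_empty z),
      fun k z hz => absurd hz (Set.notMem_empty z), fun z hz => absurd hz (Set.notMem_empty z)⟩
  have : ContractibleSpace U := hstar.contractibleSpace hne
  have : SimplyConnectedSpace U := inferInstance
  have hz₀ : z₀ ∈ U := hstar.mem hne
  obtain ⟨w, hw, hwr⟩ := exists_roots_enum h hz₀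
  have hex : ∀ k, ∃ F : C(U, ℂ), F ⟨z₀, hz₀⟩ = w k ∧ ∀ z : U, (P z.1).IsRoot (F z) :=
    fun k => exists_global_root h hz₀ (hwr k)
  choose F hF1 hFr using hex
  refine ⟨fun k z => if hz : z ∈ U then F k ⟨z, hz⟩ else 0, fun k => ?_, fun k z hz => ?_,
    fun z hz j k hjk => ?_⟩
  · refine analyticOnNhd_of_continuousOn_root h h.isOpen subset_rfl ?_ ?_
    · rw [continuousOn_iff_continuous_domRestrict]
      refine (F k).continuous.congr fun z => ?_
      simp only [Set.domRestrict_apply, dif_pos z.2]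
    · intro z hz
      simp only [dif_pos hz]
      exact hFr k ⟨z, hz⟩
  · simp only [dif_pos hz]
    exact hFr k ⟨z, hz⟩
  · simp only [dif_pos hz] at hjk
    have := global_root_unique h (hFr j) (hFr k) hjk
    apply hw
    rw [← hF1 j, ← hF1 k, this]

/-- **[MOD-BR]** analytic roots of an analytic family of monic separable polynomials on a
star-convex open set. -/
theorem branchStatement : Fermat.Agent.P5.helper37.BranchStatement := by
  intro P d U z₀ hU hstar hmonic hdeg han hsep
  exact exists_branches ⟨hU, hmonic, hdeg, han, hsep⟩ hstar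

/-! ### Complements for the consumers -/

/-- The values of pointwise distinct root functions are all the roots. -/
theorem branch_exists_eq (h : BranchHyp P d U) {y : Fin d → ℂ → ℂ}
    (hroot : ∀ k, ∀ z ∈ U, (P z).IsRoot (y k z))
    (hinj : ∀ z ∈ U, Function.Injective fun k => y k z) {z : ℂ} (hz : z ∈ U) {c : ℂ}
    (hc : (P z).IsRoot c) : ∃ k, y k z = c :=
  exists_eq_of_isRoot_of_injective h hz (hinj z hz) (fun k => hroot k z hz) hc

/-- `P z` is the product of the `X - y k z`. -/
theorem branch_eq_prod (h : BranchHyp P d U) {y : Fin d → ℂ → ℂ}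
    (hroot : ∀ k, ∀ z ∈ U, (P z).IsRoot (y k z))
    (hinj : ∀ z ∈ U, Function.Injective fun k => y k z) {z : ℂ} (hz : z ∈ U) :
    P z = ∏ k, (Polynomial.X - Polynomial.C (y k z)) :=
  eq_prod_of_injective h hz (hinj z hz) (fun k => hroot k z hz)

/-- `P z` evaluated at `c` is the product of the `c - y k z`. -/
theorem branch_eval_eq_prod (h : BranchHyp P d U) {y : Fin d → ℂ → ℂ}
    (hroot : ∀ k, ∀ z ∈ U, (P z).IsRoot (y k z))
    (hinj : ∀ z ∈ U, Function.Injective fun k => y k z) {z : ℂ} (hz : z ∈ U) (c : ℂ) :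
    (P z).eval c = ∏ k, (c - y k z) := by
  rw [branch_eq_prod h hroot hinj hz, Polynomial.eval_prod]
  simp

/-- **[MOD-BR]**, full form: analytic, pointwise distinct root functions which exhaust the
roots and factor `P z`. -/
theorem exists_branches_full (h : BranchHyp P d U) {z₀ : ℂ} (hstar : StarConvex ℝ z₀ U) :
    ∃ y : Fin d → ℂ → ℂ, (∀ k, AnalyticOnNhd ℂ (y k) U) ∧
      (∀ k, ∀ z ∈ U, (P z).IsRoot (y k z)) ∧ (∀ z ∈ U, Function.Injective fun k => y k z) ∧
      (∀ z ∈ U, ∀ c, (P z).IsRoot c → ∃ k, y k z = c) ∧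
      (∀ z ∈ U, P z = ∏ k, (Polynomial.X - Polynomial.C (y k z))) := by
  obtain ⟨y, hy, hroot, hinj⟩ := exists_branches h hstar
  exact ⟨y, hy, hroot, hinj, fun z hz c hc => branch_exists_eq h hroot hinj hz hc,
    fun z hz => branch_eq_prod h hroot hinj hz⟩

/-- **[MOD-BR]**, convex form. -/
theorem exists_branches_of_convex (h : BranchHyp P d U) (hconv : Convex ℝ U) :
    ∃ y : Fin d → ℂ → ℂ, (∀ k, AnalyticOnNhd ℂ (y k) U) ∧
      (∀ k, ∀ z ∈ U, (P z).IsRoot (y k z)) ∧ (∀ z ∈ U, Function.Injective fun k => y k z) ∧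
      (∀ z ∈ U, ∀ c, (P z).IsRoot c → ∃ k, y k z = c) ∧
      (∀ z ∈ U, P z = ∏ k, (Polynomial.X - Polynomial.C (y k z))) := by
  rcases U.eq_empty_or_nonempty with hU | ⟨z₀, hz₀⟩
  · subst hU
    exact ⟨fun _ _ => 0, fun k z hz => absurd hz (Set.notMem_empty z),
      fun k z hz => absurd hz (Set.notMem_empty z), fun z hz => absurd hz (Set.notMem_empty z),
      fun z hz => absurd hz (Set.notMem_empty z), fun z hz => absurd hz (Set.notMem_empty z)⟩
  · exact exists_branches_full h (hconv.starConvex hz₀)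

/-- **[MOD-BR]**, local form: near every point of `U` the roots are given by `d` analytic
pointwise distinct functions on a ball. -/
theorem exists_branches_ball (h : BranchHyp P d U) {z₁ : ℂ} (hz : z₁ ∈ U) :
    ∃ (δ : ℝ) (y : Fin d → ℂ → ℂ), 0 < δ ∧ Metric.ball z₁ δ ⊆ U ∧
      (∀ k, AnalyticOnNhd ℂ (y k) (Metric.ball z₁ δ)) ∧
      (∀ k, ∀ z ∈ Metric.ball z₁ δ, (P z).IsRoot (y k z)) ∧
      (∀ z ∈ Metric.ball z₁ δ, Function.Injective fun k => y k z) ∧
      (∀ z ∈ Metric.ball z₁ δ, ∀ c, (P z).IsRoot c → ∃ k, y k z = c) ∧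
      (∀ z ∈ Metric.ball z₁ δ, P z = ∏ k, (Polynomial.X - Polynomial.C (y k z))) := by
  obtain ⟨δ, hδ, hδU⟩ := Metric.mem_nhds_iff.1 (h.isOpen.mem_nhds hz)
  obtain ⟨y, h1, h2, h3, h4, h5⟩ :=
    exists_branches_of_convex (h.mono Metric.isOpen_ball hδU) (convex_ball z₁ δ)
  exact ⟨δ, y, hδ, hδU, h1, h2, h3, h4, h5⟩

/-- **[MOD-BR]**, on a given ball contained in `U`. -/
theorem exists_branches_on_ball (h : BranchHyp P d U) {c : ℂ} {r : ℝ}
    (hr : Metric.ball c r ⊆ U) :
    ∃ y : Fin d → ℂ → ℂ, (∀ k, AnalyticOnNhd ℂ (y k) (Metric.ball c r)) ∧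
      (∀ k, ∀ z ∈ Metric.ball c r, (P z).IsRoot (y k z)) ∧
      (∀ z ∈ Metric.ball c r, Function.Injective fun k => y k z) ∧
      (∀ z ∈ Metric.ball c r, ∀ w, (P z).IsRoot w → ∃ k, y k z = w) ∧
      (∀ z ∈ Metric.ball c r, P z = ∏ k, (Polynomial.X - Polynomial.C (y k z))) :=
  exists_branches_of_convex (h.mono Metric.isOpen_ball hr) (convex_ball c r)

end Fermat.Agent.P5.helper56
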