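/-
P5 / S27, module MOD, package MOD-CROSS (helper56): the crossing permutations of the roots
across the rays of a cut plane.
-/
import Mathlib
import Fermat.Agent.P5.helper37_ModAnalytic
import Fermat.Agent.P5.helper37_BranchUnique
import Fermat.Agent.P5.helper4_CutGeom
import Fermat.Agent.P5.helper56_Branch

set_option autoImplicit false
set_option linter.unusedSectionVars false
set_option linter.unusedVariables false

open Filter Topology

namespace Fermat.Agent.P5.helper56

open Fermat.Agent.P5.helper25 Fermat.Agent.P5.helper37 Fermat.Agent.P5.helper4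

/-! ### `BranchHyp` for the specialisations of `f ∈ ℂ[X][Y]` -/

theorem specialize_monic {f : Polynomial (Polynomial ℂ)} (hf : f.Monic) (z : ℂ) :
    (specialize f z).Monic := hf.map _

theorem specialize_natDegree {f : Polynomial (Polynomial ℂ)} (hf : f.Monic) (z : ℂ) :
    (specialize f z).natDegree = f.natDegree := hf.natDegree_map _

theorem specialize_coeff (f : Polynomial (Polynomial ℂ)) (z : ℂ) (j : ℕ) :
    (specialize f z).coeff j = (f.coeff j).eval z := by
  simp [specialize, Polynomial.coeff_map]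

theorem analyticOnNhd_specialize_coeff (f : Polynomial (Polynomial ℂ)) (j : ℕ) (V : Set ℂ) :
    AnalyticOnNhd ℂ (fun z => (specialize f z).coeff j) V := by
  have h : (fun z => (specialize f z).coeff j) = fun z => (f.coeff j).eval z := by
    funext z
    exact specialize_coeff f z j
  rw [h]
  exact ((f.coeff j).differentiable.differentiableOn.analyticOnNhd isOpen_univ).mono
    (Set.subset_univ V)

/-- The family of specialisations of a monic `f` satisfies `BranchHyp` on every open set on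
which the specialisations are separable. -/
theorem branchHyp_specialize {f : Polynomial (Polynomial ℂ)} (hf : f.Monic) {V : Set ℂ}
    (hV : IsOpen V) (hsep : ∀ z ∈ V, (specialize f z).Separable) :
    BranchHyp (fun z => specialize f z) f.natDegree V :=
  ⟨hV, fun z _ => specialize_monic hf z, fun z _ => specialize_natDegree hf z,
    fun j => analyticOnNhd_specialize_coeff f j V, hsep⟩

/-- The family of specialisations of the polynomial of a `BranchData` satisfies `BranchHyp` on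
every open set avoiding the bad points. -/
theorem branchHyp_of_branchData (D : BranchData) {V : Set ℂ} (hV : IsOpen V)
    (hgood : ∀ z ∈ V, ∀ i, z ≠ D.b i) :
    BranchHyp (fun z => specialize D.f z) D.d V :=
  branchHyp_specialize D.f_monic hV fun z hz => D.good z (hgood z hz)

/-! ### The affine coordinate adapted to a ray -/

/-- The affine coordinate `w = (z - b) / (b - z₀)`: the ray from `b` is `w ≥ 0`. -/
noncomputable def rayCoord (z₀ b z : ℂ) : ℂ := (z - b) / (b - z₀)

theorem rayCoord_combo (z₀ b : ℂ) {z₁ z₂ : ℂ} {s t : ℝ} (hst : s + t = 1) :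
    rayCoord z₀ b (s • z₁ + t • z₂) = s • rayCoord z₀ b z₁ + t • rayCoord z₀ b z₂ := by
  have h1 : (s : ℂ) + (t : ℂ) = 1 := by exact_mod_cast hst
  have h2 : (t : ℂ) = 1 - s := by rw [← h1]; ring
  simp only [rayCoord, Complex.real_smul, h2]
  ring

theorem continuous_rayCoord (z₀ b : ℂ) : Continuous (rayCoord z₀ b) := by
  unfold rayCoord
  fun_prop

theorem rayCoord_self (z₀ b : ℂ) : rayCoord z₀ b b = 0 := by simp [rayCoord]

theorem rayCoord_apply {z₀ b : ℂ} (hb : b ≠ z₀) (w : ℂ) :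
    rayCoord z₀ b (b + w * (b - z₀)) = w := by
  have hb' : b - z₀ ≠ 0 := sub_ne_zero.2 hb
  simp only [rayCoord]
  field_simp
  ring

theorem rayCoord_add_one {z₀ b : ℂ} (hb : b ≠ z₀) (z : ℂ) :
    rayCoord z₀ b z + 1 = (z - z₀) / (b - z₀) := by
  have hb' : b - z₀ ≠ 0 := sub_ne_zero.2 hb
  simp only [rayCoord]
  field_simp
  ring

theorem combo_pos {s t p q : ℝ} (hs : 0 ≤ s) (ht : 0 ≤ t) (hst : s + t = 1) (hp : 0 < p)
    (hq : 0 < q) : 0 < s * p + t * q := by
  rcases hs.eq_or_lt with h | h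
  · subst h
    have ht1 : t = 1 := by linarith
    subst ht1
    simpa using hq
  · have h1 := mul_pos h hp
    have h2 := mul_nonneg ht hq.le
    linarith

theorem leftSide_eq (z₀ b : ℂ) : leftSide z₀ b = {z | 0 < (rayCoord z₀ b z).im} := rfl

theorem rightSide_eq (z₀ b : ℂ) : rightSide z₀ b = {z | (rayCoord z₀ b z).im < 0} := rfl

theorem convex_leftSide (z₀ b : ℂ) : Convex ℝ (leftSide z₀ b) := by
  intro z₁ hz₁ z₂ hz₂ s t hs ht hst
  rw [leftSide_eq] at *
  simp only [Set.mem_ofPred_eq] at *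
  rw [rayCoord_combo z₀ b hst]
  simp only [Complex.add_im, Complex.smul_im, smul_eq_mul]
  exact combo_pos hs ht hst hz₁ hz₂

theorem convex_rightSide (z₀ b : ℂ) : Convex ℝ (rightSide z₀ b) := by
  intro z₁ hz₁ z₂ hz₂ s t hs ht hst
  rw [rightSide_eq] at *
  simp only [Set.mem_ofPred_eq] at *
  rw [rayCoord_combo z₀ b hst]
  simp only [Complex.add_im, Complex.smul_im, smul_eq_mul]
  have := combo_pos hs ht hst (neg_pos.2 hz₁) (neg_pos.2 hz₂)
  linarith

theorem not_mem_ray_of_mem_rightSide' {z₀ b z : ℂ} (hb : b ≠ z₀) (hz : z ∈ rightSide z₀ b) :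
    z ∉ ray z₀ b := by
  intro h
  have h1 := ((mem_ray_iff hb).1 h).2
  have h2 : ((z - b) / (b - z₀)).im < 0 := hz
  rw [h1] at h2
  exact lt_irrefl _ h2

/-! ### The thin truncated sector around an open ray -/

/-- The thin truncated sector around the open ray from `b`: in the coordinate `w`,
`0 < re w` and `|im w| < ε (1 + re w)`. -/
def rayTube (z₀ b : ℂ) (ε : ℝ) : Set ℂ :=
  {z | 0 < (rayCoord z₀ b z).re ∧
    0 < ε * (1 + (rayCoord z₀ b z).re) - (rayCoord z₀ b z).im ∧
    0 < ε * (1 + (rayCoord z₀ b z).re) + (rayCoord z₀ b z).im}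

theorem isOpen_rayTube (z₀ b : ℂ) (ε : ℝ) : IsOpen (rayTube z₀ b ε) := by
  have hc := continuous_rayCoord z₀ b
  have h1 : IsOpen {z | 0 < (rayCoord z₀ b z).re} :=
    isOpen_lt continuous_const (Complex.continuous_re.comp hc)
  have h2 : IsOpen {z | 0 < ε * (1 + (rayCoord z₀ b z).re) - (rayCoord z₀ b z).im} :=
    isOpen_lt continuous_const
      ((continuous_const.mul (continuous_const.add (Complex.continuous_re.comp hc))).sub
        (Complex.continuous_im.comp hc))
  have h3 : IsOpen {z | 0 < ε * (1 + (rayCoord z₀ b z).re) + (rayCoord z₀ b z).im} :=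
    isOpen_lt continuous_const
      ((continuous_const.mul (continuous_const.add (Complex.continuous_re.comp hc))).add
        (Complex.continuous_im.comp hc))
  exact h1.inter (h2.inter h3)

theorem convex_rayTube (z₀ b : ℂ) (ε : ℝ) : Convex ℝ (rayTube z₀ b ε) := by
  rintro z₁ ⟨h11, h12, h13⟩ z₂ ⟨h21, h22, h23⟩ s t hs ht hst
  simp only [rayTube, Set.mem_ofPred_eq]
  rw [rayCoord_combo z₀ b hst]
  simp only [Complex.add_im, Complex.smul_im, Complex.add_re, Complex.smul_re, smul_eq_mul]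
  have e1 := combo_pos hs ht hst h11 h21
  have e2 := combo_pos hs ht hst h12 h22
  have e3 := combo_pos hs ht hst h13 h23
  have ht' : t = 1 - s := by linarith
  subst ht'
  refine ⟨e1, ?_, ?_⟩
  · nlinarith [e2]
  · nlinarith [e3]

theorem mem_rayTube_of_coord {z₀ b : ℂ} (hb : b ≠ z₀) {ε : ℝ} {w : ℂ} (h1 : 0 < w.re)
    (h2 : 0 < ε * (1 + w.re) - w.im) (h3 : 0 < ε * (1 + w.re) + w.im) :
    b + w * (b - z₀) ∈ rayTube z₀ b ε := by
  simp only [rayTube, Set.mem_ofPred_eq, rayCoord_apply hb]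
  exact ⟨h1, h2, h3⟩

theorem openRay_subset_rayTube {z₀ b : ℂ} (hb : b ≠ z₀) {ε : ℝ} (hε : 0 < ε) :
    openRay z₀ b ⊆ rayTube z₀ b ε := by
  rintro z ⟨s, hs, rfl⟩
  refine mem_rayTube_of_coord hb ?_ ?_ ?_
  · simpa using hs
  · simp only [Complex.ofReal_re, Complex.ofReal_im, sub_zero]
    positivity
  · simp only [Complex.ofReal_re, Complex.ofReal_im, add_zero]
    positivity

theorem self_notMem_rayTube (z₀ b : ℂ) (ε : ℝ) : b ∉ rayTube z₀ b ε := by
  rintro ⟨h1, -, -⟩
  rw [rayCoord_self] at h1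
  simp at h1

/-- A point of the tube on the left of the ray. -/
theorem exists_mem_rayTube_leftSide {z₀ b : ℂ} (hb : b ≠ z₀) {ε : ℝ} (hε : 0 < ε) :
    ∃ z, z ∈ rayTube z₀ b ε ∧ z ∈ leftSide z₀ b := by
  refine ⟨b + (⟨1, ε / 2⟩ : ℂ) * (b - z₀), mem_rayTube_of_coord hb ?_ ?_ ?_, ?_⟩
  · simp
  · simp only
    linarith
  · simp only
    linarith
  · rw [leftSide_eq]
    simp only [Set.mem_ofPred_eq, rayCoord_apply hb]
    linarith

/-- A point of the tube on the right of the ray. -/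
theorem exists_mem_rayTube_rightSide {z₀ b : ℂ} (hb : b ≠ z₀) {ε : ℝ} (hε : 0 < ε) :
    ∃ z, z ∈ rayTube z₀ b ε ∧ z ∈ rightSide z₀ b := by
  refine ⟨b + (⟨1, -(ε / 2)⟩ : ℂ) * (b - z₀), mem_rayTube_of_coord hb ?_ ?_ ?_, ?_⟩
  · simp
  · simp only
    linarith
  · simp only
    linarith
  · rw [rightSide_eq]
    simp only [Set.mem_ofPred_eq, rayCoord_apply hb]
    linarith

/-! ### Thin tubes miss the other rays -/

/-- A ray in another direction misses every sufficiently thin tube. -/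
theorem exists_rayTube_disjoint_ray (G : CutGeometry) {i j : Fin G.r} (hij : j ≠ i) :
    ∃ ε₀ : ℝ, 0 < ε₀ ∧ ∀ ε ≤ ε₀, ∀ z ∈ rayTube G.z₀ (G.b i) ε, z ∉ ray G.z₀ (G.b j) := by
  have hbi := G.b_ne i
  have hbj := G.b_ne j
  have hui : G.b i - G.z₀ ≠ 0 := sub_ne_zero.2 hbi
  obtain ⟨q, hq⟩ : ∃ q : ℂ, q = (G.b j - G.z₀) / (G.b i - G.z₀) := ⟨_, rfl⟩
  have key : ∀ ε : ℝ, ∀ z ∈ rayTube G.z₀ (G.b i) ε, z ∈ ray G.z₀ (G.b j) →
      0 < q.re ∧ 0 < ε * q.re - q.im ∧ 0 < ε * q.re + q.im := by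
    rintro ε z ⟨h1, h2, h3⟩ ⟨t, ht, rfl⟩
    have hw : rayCoord G.z₀ (G.b i) (G.b j + t * (G.b j - G.z₀)) + 1 =
        ((1 + t : ℝ) : ℂ) * q := by
      rw [rayCoord_add_one hbi, hq]
      push_cast
      field_simp
      ring
    have hre : (rayCoord G.z₀ (G.b i) (G.b j + t * (G.b j - G.z₀))).re + 1 =
        (1 + t) * q.re := by
      have := congrArg Complex.re hw
      rw [Complex.re_ofReal_mul] at this
      simpa using this
    have him : (rayCoord G.z₀ (G.b i) (G.b j + t * (G.b j - G.z₀))).im = (1 + t) * q.im := by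
      have := congrArg Complex.im hw
      rw [Complex.im_ofReal_mul] at this
      simpa using this
    have ht1 : 0 < 1 + t := by linarith
    have hre' : 1 + (rayCoord G.z₀ (G.b i) (G.b j + t * (G.b j - G.z₀))).re =
        (1 + t) * q.re := by linarith
    rw [hre', him] at h2 h3
    have hqre : 0 < q.re := by
      have : 0 < (1 + t) * q.re := by linarith
      exact (mul_pos_iff_of_pos_left ht1).1 this
    refine ⟨hqre, ?_, ?_⟩
    · have : 0 < (1 + t) * (ε * q.re - q.im) := by linarith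
      exact (mul_pos_iff_of_pos_left ht1).1 this
    · have : 0 < (1 + t) * (ε * q.re + q.im) := by linarith
      exact (mul_pos_iff_of_pos_left ht1).1 this
  by_cases hre : 0 < q.re
  · have him : q.im ≠ 0 := by
      intro h0
      have hq1 : q = ((q.re : ℝ) : ℂ) := Complex.ext (by simp) (by simp [h0])
      have hq' : G.b j - G.z₀ = ((q.re : ℝ) : ℂ) * (G.b i - G.z₀) := by
        rw [← hq1, hq]
        field_simp
      have harg : Complex.arg (G.b j - G.z₀) = Complex.arg (G.b i - G.z₀) := by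
        rw [hq', Complex.arg_real_mul _ hre]
      exact hij (G.arg_strictMono.injective harg)
    refine ⟨|q.im| / q.re, div_pos (abs_pos.2 him) hre, fun ε hε z hz hzj => ?_⟩
    obtain ⟨-, h2, h3⟩ := key ε z hz hzj
    have h4 : ε * q.re ≤ |q.im| := by
      calc ε * q.re ≤ |q.im| / q.re * q.re := mul_le_mul_of_nonneg_right hε hre.le
        _ = |q.im| := div_mul_cancel₀ _ hre.ne'
    have h5 : |q.im| < ε * q.re := abs_lt.2 ⟨by linarith, by linarith⟩
    linarith
  · exact ⟨1, one_pos, fun ε _ z hz hzj => hre (key ε z hz hzj).1⟩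

/-- A thin tube around the `i`-th open ray which misses all the other rays. -/
theorem exists_rayTube (G : CutGeometry) (i : Fin G.r) :
    ∃ ε : ℝ, 0 < ε ∧ ∀ j, j ≠ i → ∀ z ∈ rayTube G.z₀ (G.b i) ε, z ∉ ray G.z₀ (G.b j) := by
  have h : ∀ j, ∀ᶠ ε in 𝓝[>] (0 : ℝ), j ≠ i →
      ∀ z ∈ rayTube G.z₀ (G.b i) ε, z ∉ ray G.z₀ (G.b j) := by
    intro j
    by_cases hj : j = i
    · exact Eventually.of_forall fun ε h => absurd hj h
    · obtain ⟨ε₀, hpos, hε⟩ := exists_rayTube_disjoint_ray G hj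
      filter_upwards [Ioc_mem_nhdsGT hpos] with ε hε' _
      exact hε ε hε'.2
  have h0 : ∀ᶠ ε in 𝓝[>] (0 : ℝ), 0 < ε := eventually_mem_nhdsWithin
  exact (h0.and (Filter.eventually_all.2 h)).exists

/-- The tube minus the ray is contained in the cut plane (left part). -/
theorem rayTube_inter_leftSide_subset (G : CutGeometry) (i : Fin G.r) {ε : ℝ}
    (hdisj : ∀ j, j ≠ i → ∀ z ∈ rayTube G.z₀ (G.b i) ε, z ∉ ray G.z₀ (G.b j)) :
    rayTube G.z₀ (G.b i) ε ∩ leftSide G.z₀ (G.b i) ⊆ G.U₀ := by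
  rintro z ⟨hz, hzL⟩ j
  by_cases hj : j = i
  · subst hj
    exact not_mem_ray_of_mem_leftSide (G.b_ne _) hzL
  · exact hdisj j hj z hz

/-- The tube minus the ray is contained in the cut plane (right part). -/
theorem rayTube_inter_rightSide_subset (G : CutGeometry) (i : Fin G.r) {ε : ℝ}
    (hdisj : ∀ j, j ≠ i → ∀ z ∈ rayTube G.z₀ (G.b i) ε, z ∉ ray G.z₀ (G.b j)) :
    rayTube G.z₀ (G.b i) ε ∩ rightSide G.z₀ (G.b i) ⊆ G.U₀ := by
  rintro z ⟨hz, hzR⟩ j
  by_cases hj : j = i
  · subst hj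
    exact not_mem_ray_of_mem_rightSide' (G.b_ne _) hzR
  · exact hdisj j hj z hz

/-- The tube contains no bad point. -/
theorem ne_b_of_mem_rayTube (G : CutGeometry) (i : Fin G.r) {ε : ℝ}
    (hdisj : ∀ j, j ≠ i → ∀ z ∈ rayTube G.z₀ (G.b i) ε, z ∉ ray G.z₀ (G.b j)) {z : ℂ}
    (hz : z ∈ rayTube G.z₀ (G.b i) ε) (j : Fin G.r) : z ≠ G.b j := by
  intro hzj
  by_cases hj : j = i
  · subst hj
    rw [hzj] at hz
    exact self_notMem_rayTube _ _ _ hz
  · exact hdisj j hj z hz (hzj ▸ self_mem_ray _ _)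

/-! ### The crossing permutations -/

/-- The crossing permutation of the `i`-th ray, together with the analytic roots on a tube
around the open ray. -/
theorem exists_cross_tube (D : BranchData) (i : Fin D.r) :
    ∃ (σ : Equiv.Perm (Fin D.d)) (ε : ℝ) (g : Fin D.d → ℂ → ℂ), 0 < ε ∧
      (∀ z ∈ rayTube D.z₀ (D.b i) ε, ∀ j, z ≠ D.b j) ∧
      rayTube D.z₀ (D.b i) ε ∩ leftSide D.z₀ (D.b i) ⊆ D.toCutGeometry.U₀ ∧
      rayTube D.z₀ (D.b i) ε ∩ rightSide D.z₀ (D.b i) ⊆ D.toCutGeometry.U₀ ∧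
      (∀ k, AnalyticOnNhd ℂ (g k) (rayTube D.z₀ (D.b i) ε)) ∧
      (∀ k, ∀ z ∈ rayTube D.z₀ (D.b i) ε, (specialize D.f z).IsRoot (g k z)) ∧
      (∀ k, Set.EqOn (g k) (D.y k) (rayTube D.z₀ (D.b i) ε ∩ leftSide D.z₀ (D.b i))) ∧
      (∀ k, Set.EqOn (g k) (D.y (σ k)) (rayTube D.z₀ (D.b i) ε ∩ rightSide D.z₀ (D.b i))) := by
  classical
  obtain ⟨ε, hε, hdisj⟩ := exists_rayTube D.toCutGeometry i
  have hbi := D.b_ne i
  have hTo : IsOpen (rayTube D.z₀ (D.b i) ε) := isOpen_rayTube _ _ _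
  have hgood : ∀ z ∈ rayTube D.z₀ (D.b i) ε, ∀ j, z ≠ D.b j := fun z hz j =>
    ne_b_of_mem_rayTube D.toCutGeometry i hdisj hz j
  have hB := branchHyp_of_branchData D hTo hgood
  obtain ⟨G, hGan, hGroot, hGinj, -, -⟩ := exists_branches_of_convex hB (convex_rayTube _ _ _)
  have hLU := rayTube_inter_leftSide_subset D.toCutGeometry i hdisj
  have hRU := rayTube_inter_rightSide_subset D.toCutGeometry i hdisj
  have hLc : IsPreconnected (rayTube D.z₀ (D.b i) ε ∩ leftSide D.z₀ (D.b i)) :=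
    ((convex_rayTube _ _ _).inter (convex_leftSide _ _)).isPreconnected
  have hRc : IsPreconnected (rayTube D.z₀ (D.b i) ε ∩ rightSide D.z₀ (D.b i)) :=
    ((convex_rayTube _ _ _).inter (convex_rightSide _ _)).isPreconnected
  have hlam : ∀ k, ∃ m, Set.EqOn (D.y k) (G m)
      (rayTube D.z₀ (D.b i) ε ∩ leftSide D.z₀ (D.b i)) := fun k =>
    branch_unique D.d_pos (fun z hz => hB.natDegree z hz.1)
      (fun m => (hGan m).continuousOn.mono Set.inter_subset_left)
      (fun m z hz => hGroot m z hz.1) (fun z hz => hGinj z hz.1) hLc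
      ((D.y_analytic k).continuousOn.mono hLU) (fun z hz => D.y_root k z (hLU hz))
  have hrho : ∀ k, ∃ m, Set.EqOn (D.y k) (G m)
      (rayTube D.z₀ (D.b i) ε ∩ rightSide D.z₀ (D.b i)) := fun k =>
    branch_unique D.d_pos (fun z hz => hB.natDegree z hz.1)
      (fun m => (hGan m).continuousOn.mono Set.inter_subset_left)
      (fun m z hz => hGroot m z hz.1) (fun z hz => hGinj z hz.1) hRc
      ((D.y_analytic k).continuousOn.mono hRU) (fun z hz => D.y_root k z (hRU hz))
  choose lam hlam using hlam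
  choose rho hrho using hrho
  obtain ⟨pL, hpLT, hpLL⟩ := exists_mem_rayTube_leftSide hbi hε
  obtain ⟨pR, hpRT, hpRR⟩ := exists_mem_rayTube_rightSide hbi hε
  have hlam_inj : Function.Injective lam := by
    intro k k' hkk'
    apply D.y_inj pL (hLU ⟨hpLT, hpLL⟩)
    change D.y k pL = D.y k' pL
    rw [hlam k ⟨hpLT, hpLL⟩, hlam k' ⟨hpLT, hpLL⟩, hkk']
  have hrho_inj : Function.Injective rho := by
    intro k k' hkk'
    apply D.y_inj pR (hRU ⟨hpRT, hpRR⟩)
    change D.y k pR = D.y k' pR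
    rw [hrho k ⟨hpRT, hpRR⟩, hrho k' ⟨hpRT, hpRR⟩, hkk']
  let lamE : Equiv.Perm (Fin D.d) :=
    Equiv.ofBijective lam (Finite.injective_iff_bijective.1 hlam_inj)
  let rhoE : Equiv.Perm (Fin D.d) :=
    Equiv.ofBijective rho (Finite.injective_iff_bijective.1 hrho_inj)
  have hσ : ∀ k, rho ((lamE.trans rhoE.symm) k) = lam k := by
    intro k
    change rhoE (rhoE.symm (lamE k)) = lam k
    rw [Equiv.apply_symm_apply]
    rfl
  refine ⟨lamE.trans rhoE.symm, ε, fun k => G (lam k), hε, hgood, hLU, hRU,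
    fun k => hGan (lam k), fun k z hz => hGroot (lam k) z hz, fun k z hz => (hlam k hz).symm,
    fun k z hz => ?_⟩
  rw [hrho _ hz, hσ]

/-- The crossing permutation of the `i`-th ray. -/
theorem exists_cross (D : BranchData) (i : Fin D.r) :
    ∃ σ : Equiv.Perm (Fin D.d), ∀ (k : Fin D.d) (a : ℂ), a ∈ openRay D.z₀ (D.b i) →
      ∃ g : ℂ → ℂ, AnalyticAt ℂ g a ∧
        (∀ᶠ z in 𝓝 a, z ∈ leftSide D.z₀ (D.b i) → g z = D.y k z) ∧
        (∀ᶠ z in 𝓝 a, z ∈ rightSide D.z₀ (D.b i) → g z = D.y (σ k) z) := by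
  obtain ⟨σ, ε, g, hε, -, -, -, hgan, -, hgL, hgR⟩ := exists_cross_tube D i
  refine ⟨σ, fun k a ha => ⟨g k, ?_, ?_, ?_⟩⟩
  · exact hgan k a (openRay_subset_rayTube (D.b_ne i) hε ha)
  · filter_upwards [(isOpen_rayTube D.z₀ (D.b i) ε).mem_nhds
      (openRay_subset_rayTube (D.b_ne i) hε ha)] with z hz hzL
    exact hgL k ⟨hz, hzL⟩
  · filter_upwards [(isOpen_rayTube D.z₀ (D.b i) ε).mem_nhds
      (openRay_subset_rayTube (D.b_ne i) hε ha)] with z hz hzR
    exact hgR k ⟨hz, hzR⟩

/-- **[MOD-CROSS]** existence of the crossing permutations (unconditional). -/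
theorem crossStatement' : CrossStatement := by
  intro D
  choose σ hσ using exists_cross D
  exact ⟨σ, fun i k a ha => hσ i k a ha⟩

/-- **[MOD-CROSS]** existence of the crossing permutations, in the form of the task
(`BranchStatement` is a theorem, see `branchStatement`). -/
theorem crossStatement (hBR : BranchStatement) : CrossStatement := crossStatement'

end Fermat.Agent.P5.helper56
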