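import Fermat.Agent.P5.helper37_ModStatements
import Fermat.Agent.P5.helper4_Orders
import Fermat.Agent.S24.helper82_FFBasic

/-!
# P5 / S27, module MOD, package [MOD-PL-ASM] (task 655): the four families of places of a sheet
model form a `PlaceData`

* `sxsub M a = x - a`, `sev_xsub` : its sheet functions;
* `sord_pl`, `sord_plRay`, `sord_plBad`, `sord_plInf` : the order of `x - a` at the four kinds of
  places of a sheet model, from the order formulas of `IntPlaces`, `RayPlaces`, `BadPlaces`,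
  `InfPlaces` (the proofs of `helper4_Orders` for a `CutModel`, adapted);
* `plAsmStatement : helper37.PlAsmStatement`.
-/

set_option autoImplicit false
set_option linter.unusedSectionVars false
set_option linter.unusedVariables false
set_option linter.style.longLine false
set_option linter.style.haveILetI false

open Filter Topology Complex AlgebraicCurve

namespace Fermat.Agent.P5.helper62

open Fermat.Agent.P5.helper25 Fermat.Agent.P5.helper4 Fermat.Agent.P5.helper37

variable {F : Type} [Field F] [Algebra ℂ F] (M : SheetModel F)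

/-- the function `x - a` -/
def sxsub (a : ℂ) : F := M.x - algebraMap ℂ F a

theorem sxsub_ne_zero (a : ℂ) : sxsub M a ≠ 0 := by
  intro h
  apply M.x_transcendental
  have h1 : M.x = algebraMap ℂ F a := sub_eq_zero.1 h
  rw [h1]
  exact isAlgebraic_algebraMap a

theorem sev_xsub (k : Fin M.d) (a : ℂ) {z : ℂ} (hz : z ∈ M.toCutGeometry.U₀) :
    M.ev k (sxsub M a) =ᶠ[𝓝[≠] z] fun w => w - a := by
  have h1 : sxsub M a = M.x + algebraMap ℂ F (-a) := by
    simp [sxsub, sub_eq_add_neg]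
  rw [h1]
  have h2 := M.ev_add k M.x (algebraMap ℂ F (-a)) z hz
  have h3 : ∀ᶠ w in 𝓝[≠] z, w ∈ M.toCutGeometry.U₀ :=
    nhdsWithin_le_nhds ((CutGeom.isOpen_U₀ _).mem_nhds hz)
  filter_upwards [h2, h3] with w hw hwU
  rw [hw, M.ev_x k hwU, M.ev_algebraMap k (-a) hwU]
  simp [sub_eq_add_neg]

/-- pull-back of `sev_xsub` along a map which is locally injective at `s` -/
theorem sev_xsub_comp (k : Fin M.d) (a : ℂ) {ψ : ℂ → ℂ} {s : ℂ} (hc : ContinuousAt ψ s)
    (hne : ∀ᶠ w in 𝓝[≠] s, ψ w ≠ ψ s) (hz : ψ s ∈ M.toCutGeometry.U₀) :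
    (fun w => M.ev k (sxsub M a) (ψ w)) =ᶠ[𝓝[≠] s] fun w => ψ w - a := by
  have ht : Tendsto ψ (𝓝[≠] s) (𝓝[≠] (ψ s)) :=
    tendsto_nhdsWithin_iff.2 ⟨hc.tendsto.mono_left nhdsWithin_le_nhds, hne⟩
  exact ht.eventually (sev_xsub M k a hz)

/-! ### Interior places -/

theorem sord_pl (pl : Fin M.d → ℂ → Place ℂ F)
    (hpl : ∀ k z, z ∈ M.toCutGeometry.U₀ → ∀ h : F, h ≠ 0 →
      ((pl k z).ord h : WithTop ℤ) = meromorphicOrderAt (M.ev k h) z)
    (k : Fin M.d) {z : ℂ} (hz : z ∈ M.toCutGeometry.U₀) (a : ℂ) :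
    (pl k z).ord (sxsub M a) = if z = a then 1 else 0 := by
  have h := hpl k z hz (sxsub M a) (sxsub_ne_zero M a)
  rw [meromorphicOrderAt_congr (sev_xsub M k a hz), order_sub_const] at h
  split_ifs at h ⊢ <;> exact_mod_cast h

/-! ### Ray places -/

theorem sord_plRay (plRay : Fin M.r → Fin M.d → ℂ → Place ℂ F)
    (hray : ∀ (i : Fin M.r) (k : Fin M.d) (a : ℂ), a ∈ openRay M.z₀ (M.b i) →
      ∀ h : F, h ≠ 0 → ∀ g : ℂ → ℂ, MeromorphicAt g a →
        (∀ᶠ z in 𝓝[≠] a, z ∈ leftSide M.z₀ (M.b i) → g z = M.ev k h z) →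
        ((plRay i k a).ord h : WithTop ℤ) = meromorphicOrderAt g a)
    (i : Fin M.r) (k : Fin M.d) {a' : ℂ} (ha' : a' ∈ openRay M.z₀ (M.b i))
    (a : ℂ) : (plRay i k a').ord (sxsub M a) = if a' = a then 1 else 0 := by
  obtain ⟨g, hg, hL, -⟩ := M.cross i k a' ha' (sxsub M a)
  have hord := hray i k a' ha' (sxsub M a) (sxsub_ne_zero M a) g hg hL
  have hbi : M.b i - M.z₀ ≠ 0 := sub_ne_zero.2 (M.b_ne i)
  have key : g =ᶠ[𝓝[≠] a'] fun w => w - a := by
    refine eventuallyEq_of_open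
      (S := leftSide M.z₀ (M.b i) ∩ CutGeom.Uexcept M.toCutGeometry i)
      (E := M.ev k (sxsub M a)) ?_ ?_ hg (by fun_prop) ?_ ?_
    · exact (isOpen_leftSide _ _).inter (CutGeom.isOpen_Uexcept _ i)
    · refine frequently_of_line (v := I * (M.b i - M.z₀)) (mul_ne_zero I_ne_zero hbi) ?_
      have hc : Continuous fun t : ℝ => a' + (t : ℂ) * (I * (M.b i - M.z₀)) := by fun_prop
      have ht : Tendsto (fun t : ℝ => a' + (t : ℂ) * (I * (M.b i - M.z₀))) (𝓝[>] (0 : ℝ))
          (𝓝 a') := by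
        have := hc.tendsto 0
        simp only [ofReal_zero, zero_mul, add_zero] at this
        exact this.mono_left nhdsWithin_le_nhds
      have hU : CutGeom.Uexcept M.toCutGeometry i ∈ 𝓝 a' :=
        (CutGeom.isOpen_Uexcept _ i).mem_nhds
          (CutGeom.ray_subset_Uexcept _ i (openRay_subset_ray _ _ ha'))
      filter_upwards [ht.eventually hU, self_mem_nhdsWithin] with t ht1 ht2
      refine ⟨?_, ht1⟩
      have ht2' : (0 : ℝ) < t := ht2
      obtain ⟨s, hs, rfl⟩ := ha'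
      show 0 < ((M.b i + (s : ℂ) * (M.b i - M.z₀) + (t : ℂ) * (I * (M.b i - M.z₀)) - M.b i) /
        (M.b i - M.z₀)).im
      have : (M.b i + (s : ℂ) * (M.b i - M.z₀) + (t : ℂ) * (I * (M.b i - M.z₀)) - M.b i) /
          (M.b i - M.z₀) = (s : ℂ) + (t : ℂ) * I := by
        field_simp
        ring
      rw [this]
      simpa using ht2'
    · filter_upwards [hL] with z hz hzS using hz hzS.1
    · intro z hz
      exact sev_xsub M k a (CutGeom.mem_U₀_of_mem_Uexcept _ hz.2
        (not_mem_ray_of_mem_leftSide (M.b_ne i) hz.1))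
  rw [meromorphicOrderAt_congr key, order_sub_const] at hord
  split_ifs at hord ⊢ <;> exact_mod_cast hord

/-! ### Bad places -/

theorem sminimalPeriod_pos (i : Fin M.r) (k : Fin M.d) :
    0 < Function.minimalPeriod (M.σ i) k := by
  have h1 : Function.IsPeriodicPt (M.σ i) (orderOf (M.σ i)) k := by
    unfold Function.IsPeriodicPt Function.IsFixedPt
    rw [Equiv.Perm.iterate_eq_pow, pow_orderOf_eq_one]
    rfl
  exact h1.minimalPeriod_pos (orderOf_pos _)

theorem sord_plBad (plBad : Fin M.r → Fin M.d → Place ℂ F)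
    (hbad : ∀ (i : Fin M.r) (k : Fin M.d) (h : F), h ≠ 0 → ∀ H : ℂ → ℂ, MeromorphicAt H 0 →
      (∀ j : ℕ, ∀ᶠ s in 𝓝[≠] (0 : ℂ),
          s ∈ sector (2 * Real.pi * j / Function.minimalPeriod (M.σ i) k)
              (2 * Real.pi * (j + 1) / Function.minimalPeriod (M.σ i) k) →
            H s = M.ev (((M.σ i)⁻¹ ^ j) k) h
              (M.b i + s ^ Function.minimalPeriod (M.σ i) k * unitDir M.z₀ (M.b i))) →
      ((plBad i k).ord h : WithTop ℤ) = meromorphicOrderAt H 0)
    (i : Fin M.r) (k : Fin M.d) (a : ℂ) :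
    (plBad i k).ord (sxsub M a) =
      if a = M.b i then (Function.minimalPeriod (M.σ i) k : ℤ) else 0 := by
  obtain ⟨H, hH, hsec⟩ := M.puiseux i k (sxsub M a)
  have hord := hbad i k (sxsub M a) (sxsub_ne_zero M a) H hH hsec
  set e := Function.minimalPeriod (M.σ i) k with he_def
  have he : 0 < e := sminimalPeriod_pos M i k
  have he' : (0 : ℝ) < e := by exact_mod_cast he
  have hu : unitDir M.z₀ (M.b i) ≠ 0 := unitDir_ne_zero (M.b_ne i)
  set ψ : ℂ → ℂ := fun s => M.b i + s ^ e * unitDir M.z₀ (M.b i) with hψ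
  have hψc : Continuous ψ := by fun_prop
  have hsec0 := hsec 0
  have hsector : sector (2 * Real.pi * ((0 : ℕ) : ℝ) / e) (2 * Real.pi * (((0 : ℕ) : ℝ) + 1) / e)
      = sector 0 (2 * Real.pi / e) := by
    congr 1
    · simp
    · simp
  rw [hsector] at hsec0
  have hwedge : wedge (Real.pi / e) (Real.pi / e) ⊆ sector 0 (2 * Real.pi / e) := by
    have h := wedge_subset_sector (Real.pi / e) (Real.pi / e)
    have h1 : Real.pi / e - Real.pi / e = 0 := sub_self _
    have h2 : Real.pi / e + Real.pi / e = 2 * Real.pi / e := by ring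
    rwa [h1, h2] at h
  have key : H =ᶠ[𝓝[≠] 0] fun s => M.b i + s ^ e * unitDir M.z₀ (M.b i) - a := by
    refine eventuallyEq_of_open
      (S := wedge (Real.pi / e) (Real.pi / e) ∩ ψ ⁻¹' (CutGeom.Uexcept M.toCutGeometry i))
      (E := fun s => M.ev k (sxsub M a) (ψ s)) ?_ ?_ hH (by fun_prop) ?_ ?_
    · exact (isOpen_wedge _ _).inter ((CutGeom.isOpen_Uexcept _ i).preimage hψc)
    · have h1 := frequently_of_line (c := 0) (v := exp (((Real.pi / e : ℝ) : ℂ) * I))
        (Complex.exp_ne_zero _)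
        (S := wedge (Real.pi / e) (Real.pi / e) ∩ ψ ⁻¹' (CutGeom.Uexcept M.toCutGeometry i))
      apply h1
      have hc : Continuous fun t : ℝ => (0 : ℂ) + (t : ℂ) * exp (((Real.pi / e : ℝ) : ℂ) * I) := by
        fun_prop
      have ht : Tendsto (fun t : ℝ => (0 : ℂ) + (t : ℂ) * exp (((Real.pi / e : ℝ) : ℂ) * I))
          (𝓝[>] (0 : ℝ)) (𝓝 0) := by
        have := hc.tendsto 0
        simp only [ofReal_zero, zero_mul, add_zero] at this
        exact this.mono_left nhdsWithin_le_nhds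
      have hU : ψ ⁻¹' (CutGeom.Uexcept M.toCutGeometry i) ∈ 𝓝 (0 : ℂ) := by
        refine ((CutGeom.isOpen_Uexcept _ i).preimage hψc).mem_nhds ?_
        show ψ 0 ∈ CutGeom.Uexcept M.toCutGeometry i
        have : ψ 0 = M.b i := by simp [hψ, he.ne']
        rw [this]
        exact CutGeom.ray_subset_Uexcept _ i (self_mem_ray _ _)
      filter_upwards [ht.eventually hU, self_mem_nhdsWithin] with t ht1 ht2
      refine ⟨?_, ht1⟩
      rw [zero_add]
      exact mem_wedge_of_pos (by positivity) ht2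
    · filter_upwards [hsec0] with s hs hsS
      have := hs (hwedge hsS.1)
      simpa using this
    · intro s hs
      have hs0 : s ≠ 0 := by
        rintro rfl
        obtain ⟨ρ, φ, hρ, -, -, h0⟩ := hwedge hs.1
        have : (ρ : ℂ) * exp ((φ : ℂ) * I) ≠ 0 :=
          mul_ne_zero (by exact_mod_cast hρ.ne') (Complex.exp_ne_zero _)
        exact this h0.symm
      have hzU : ψ s ∈ M.toCutGeometry.U₀ :=
        CutGeom.mem_U₀_of_mem_Uexcept _ hs.2 (puiseux_not_mem_ray (M.b_ne i) he (hwedge hs.1))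
      refine sev_xsub_comp M k a hψc.continuousAt ?_ hzU
      filter_upwards [eventually_pow_ne he s] with w hw hcon
      apply hw
      have h1 : w ^ e * unitDir M.z₀ (M.b i) = s ^ e * unitDir M.z₀ (M.b i) := by
        have := congrArg (fun z => z - M.b i) hcon
        simpa [hψ] using this
      exact mul_right_cancel₀ hu h1
  rw [meromorphicOrderAt_congr key, order_puiseux a (M.b i) _ hu e he] at hord
  split_ifs at hord ⊢ <;> exact_mod_cast hord

/-! ### Places at infinity -/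

theorem seventually_inv_ne (z₀ : ℂ) {w₀ : ℂ} :
    ∀ᶠ w in 𝓝[≠] w₀, (fun w : ℂ => z₀ + w⁻¹) w ≠ (fun w : ℂ => z₀ + w⁻¹) w₀ := by
  filter_upwards [self_mem_nhdsWithin] with w hw hcon
  apply hw
  have h1 : w⁻¹ = w₀⁻¹ := add_left_cancel hcon
  exact inv_injective h1

/-- points in the wrap-around sector at infinity lie in the cut plane -/
theorem sinf_mem_U₀ (G : CutGeometry) (hr : 0 < G.r) {v : ℂ}
    (hv : v ∈ sector (G.θ ⟨G.r - 1, by omega⟩) (G.θ ⟨0, hr⟩ + 2 * Real.pi)) :
    G.z₀ + v ∈ G.U₀ := by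
  intro j hj
  obtain ⟨ρ, φ, hρ, hφ1, hφ2, rfl⟩ := hv
  obtain ⟨R, hR, h1⟩ := exists_of_mem_ray (G.b_ne j) hj
  rw [add_sub_cancel_left] at h1
  obtain ⟨n, hn⟩ := exists_int_of_polar_eq hρ hR h1
  have hmono := CutGeom.θ_strictMono G
  have h0 : G.θ ⟨0, hr⟩ ≤ G.θ j :=
    hmono.monotone (Fin.mk_le_of_le_val (Nat.zero_le _))
  have hlast : G.θ j ≤ G.θ ⟨G.r - 1, by omega⟩ :=
    hmono.monotone (Fin.le_def.2 (by have := j.2; simp only; omega))
  refine no_int_between (x := φ - Complex.arg (G.b j - G.z₀)) ?_ ?_ ⟨n, hn⟩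
  · change 0 < φ - G.θ j
    linarith
  · change φ - G.θ j < 2 * Real.pi
    linarith

theorem sord_plInf (plInf : Fin M.d → Place ℂ F)
    (hinf : ∀ (k : Fin M.d) (h : F), h ≠ 0 → ∀ H : ℂ → ℂ, MeromorphicAt H 0 →
      (∀ i : Fin M.r, ∀ᶠ w in 𝓝[≠] (0 : ℂ), w⁻¹ ∈ M.toCutGeometry.sectorInf i →
          H w = M.ev ((((List.ofFn M.σ).take (i + 1)).prod)⁻¹ k) h (M.z₀ + w⁻¹)) →
      ((plInf k).ord h : WithTop ℤ) = meromorphicOrderAt H 0)
    (k : Fin M.d) (a : ℂ) : (plInf k).ord (sxsub M a) = -1 := by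
  obtain ⟨H, hH, hsec⟩ := M.atInf k (sxsub M a)
  have hord := hinf k (sxsub M a) (sxsub_ne_zero M a) H hH hsec
  have hr : 0 < M.r := M.r_pos
  have key : H =ᶠ[𝓝[≠] 0] fun w => M.z₀ + w⁻¹ - a := by
    set i : Fin M.r := ⟨M.r - 1, by omega⟩ with hi
    set θl := M.toCutGeometry.θ i with hθl
    set θ0 := M.toCutGeometry.θ ⟨0, hr⟩ with hθ0
    have hsecI : M.toCutGeometry.sectorInf i = sector θl (θ0 + 2 * Real.pi) := by
      unfold CutGeometry.sectorInf
      rw [dif_neg]
      simp only [hi]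
      omega
    have hθ0m := CutGeom.θ_mem M.toCutGeometry ⟨0, hr⟩
    have hθlm := CutGeom.θ_mem M.toCutGeometry i
    set φ₀ : ℝ := (θl + θ0 + 2 * Real.pi) / 2 with hφ₀
    set δ : ℝ := (θ0 + 2 * Real.pi - θl) / 2 with hδ
    have hδpos : 0 < δ := by
      rw [hδ]
      have h1 : -Real.pi < θ0 := hθ0m.1
      have h2 : θl ≤ Real.pi := hθlm.2
      linarith
    have hwedge : wedge φ₀ δ ⊆ sector θl (θ0 + 2 * Real.pi) := by
      have h := wedge_subset_sector φ₀ δ
      have h1 : φ₀ - δ = θl := by rw [hφ₀, hδ]; ring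
      have h2 : φ₀ + δ = θ0 + 2 * Real.pi := by rw [hφ₀, hδ]; ring
      rwa [h1, h2] at h
    set k' : Fin M.d := (((List.ofFn M.σ).take (i + 1)).prod)⁻¹ k with hk'
    have hopen : IsOpen (({0}ᶜ : Set ℂ) ∩ (fun w : ℂ => w⁻¹) ⁻¹' wedge φ₀ δ) :=
      (continuousOn_inv₀ (G₀ := ℂ)).isOpen_inter_preimage isOpen_compl_singleton
        (isOpen_wedge _ _)
    refine eventuallyEq_of_open (S := ({0}ᶜ : Set ℂ) ∩ (fun w : ℂ => w⁻¹) ⁻¹' wedge φ₀ δ)
      (E := fun w => M.ev k' (sxsub M a) (M.z₀ + w⁻¹)) hopen ?_ hH (by fun_prop) ?_ ?_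
    · have h1 := frequently_of_line (c := 0) (v := exp (-((φ₀ : ℝ) : ℂ) * I))
        (Complex.exp_ne_zero _)
        (S := ({0}ᶜ : Set ℂ) ∩ (fun w : ℂ => w⁻¹) ⁻¹' wedge φ₀ δ)
      apply h1
      filter_upwards [self_mem_nhdsWithin] with t ht
      have ht' : (0 : ℝ) < t := ht
      rw [zero_add]
      refine ⟨?_, ?_⟩
      · exact mul_ne_zero (by exact_mod_cast ht'.ne') (Complex.exp_ne_zero _)
      · show ((t : ℂ) * exp (-((φ₀ : ℝ) : ℂ) * I))⁻¹ ∈ wedge φ₀ δ
        have h2 : ((t : ℂ) * exp (-((φ₀ : ℝ) : ℂ) * I))⁻¹ =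
            ((t⁻¹ : ℝ) : ℂ) * exp (((φ₀ : ℝ) : ℂ) * I) := by
          rw [mul_inv, ← Complex.exp_neg]
          push_cast
          congr 2
          ring
        rw [h2]
        exact mem_wedge_of_pos hδpos (inv_pos.2 ht')
    · filter_upwards [hsec i] with w hw hwS
      apply hw
      rw [hsecI]
      exact hwedge hwS.2
    · intro w hw
      have hw0 : w ≠ 0 := hw.1
      refine sev_xsub_comp M k' a (ψ := fun w => M.z₀ + w⁻¹) ?_ (seventually_inv_ne M.z₀) ?_
      · exact continuousAt_const.add (continuousAt_inv₀ hw0)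
      · exact sinf_mem_U₀ M.toCutGeometry hr (hwedge hw.2)
  rw [meromorphicOrderAt_congr key, order_inf] at hord
  exact_mod_cast hord

/-! ### The assembly -/

/-- a point outside the cut plane is a bad point or lies on an open ray -/
theorem exists_ray_of_not_mem_U₀ (G : CutGeometry) {a : ℂ} (ha : a ∉ G.U₀) :
    ∃ i, a = G.b i ∨ a ∈ openRay G.z₀ (G.b i) := by
  have h : ∃ i, a ∈ ray G.z₀ (G.b i) := by
    by_contra hcon
    exact ha fun i hi => hcon ⟨i, hi⟩
  obtain ⟨i, s, hs, rfl⟩ := h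
  refine ⟨i, ?_⟩
  rcases hs.lt_or_eq with h | h
  · exact Or.inr ⟨s, h, rfl⟩
  · left
    rw [← h]
    simp

/-- **[MOD-PL-ASM]** -/
theorem plAsmStatement : PlAsmStatement := by
  intro F _ _ M hInt hRay hBad hInf
  obtain ⟨pl, hpl_ord, hpl_ex, hpl_inj⟩ := hInt
  obtain ⟨plRay, hray_ord, hray_ex⟩ := hRay
  obtain ⟨plBad, hbad_ord, hbad_apply, hbad_ex, hbad_inj⟩ := hBad
  obtain ⟨plInf, hinf_ord, hinf_ex, hinf_inj⟩ := hInf
  have o1 := fun k {z : ℂ} (hz : z ∈ M.toCutGeometry.U₀) a => sord_pl M pl hpl_ord k hz a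
  have o2 := fun i k {a' : ℂ} (ha' : a' ∈ openRay M.z₀ (M.b i)) a =>
    sord_plRay M plRay hray_ord i k ha' a
  have o3 := sord_plBad M plBad hbad_ord
  have o4 := sord_plInf M plInf hinf_ord
  haveI := M.x_finite
  refine ⟨{
    pl := pl
    plRay := plRay
    plBad := plBad
    plInf := plInf
    pl_ord := hpl_ord
    plRay_ord := hray_ord
    plBad_ord := hbad_ord
    plBad_apply := hbad_apply
    plInf_ord := hinf_ord
    exhaust := ?_
    pl_injective := ?_
    pl_ne_plRay := ?_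
    pl_ne_plBad := ?_
    pl_ne_plInf := ?_
    plBad_injective := ?_
    plBad_ne_plInf := ?_
    plBad_ne_plRay := ?_
    plInf_injective := hinf_inj
    plInf_ne_plRay := ?_ }⟩
  · -- exhaust
    intro P
    by_cases hneg : P.ord M.x < 0
    · obtain ⟨k, hk⟩ := hinf_ex P hneg
      exact Or.inr (Or.inr (Or.inr ⟨k, hk⟩))
    · have h1 : 0 ≤ P.ord M.x := not_lt.1 hneg
      obtain ⟨a, ha | ha⟩ :=
        Fermat.Agent.S24.helper82.ff_exists_residue M.x M.x_transcendental P M.x h1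
      · exfalso
        apply M.x_transcendental
        rw [ha]
        exact isAlgebraic_algebraMap a
      · by_cases haU : a ∈ M.toCutGeometry.U₀
        · obtain ⟨k, hk⟩ := hpl_ex a haU P ha
          exact Or.inl ⟨k, a, haU, hk⟩
        · obtain ⟨i, hi | hi⟩ := exists_ray_of_not_mem_U₀ M.toCutGeometry haU
          · subst hi
            obtain ⟨k, hk⟩ := hbad_ex i P ha
            exact Or.inr (Or.inr (Or.inl ⟨i, k, hk⟩))
          · obtain ⟨k, hk⟩ := hray_ex i a hi P ha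
            exact Or.inr (Or.inl ⟨i, k, a, hi, hk⟩)
  · -- pl_injective
    intro k k' z z' hz hz' h
    have e1 := o1 k hz z
    have e2 := o1 k' hz' z
    rw [h] at e1
    rw [e1] at e2
    have hzz : z' = z := by
      by_contra hne
      rw [if_pos rfl, if_neg hne] at e2
      exact one_ne_zero e2
    subst hzz
    exact ⟨hpl_inj z' hz h, rfl⟩
  · -- pl_ne_plRay
    intro k z i k' a hz ha h
    have e1 := o1 k hz z
    have e2 := o2 i k' ha z
    rw [h, e2, if_pos rfl] at e1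
    have hne : a ≠ z := fun h' => CutGeom.not_mem_U₀_of_mem_openRay M.toCutGeometry ha (h' ▸ hz)
    rw [if_neg hne] at e1
    exact zero_ne_one e1
  · -- pl_ne_plBad
    intro k z i k' hz h
    have e1 := o1 k hz z
    have e2 := o3 i k' z
    rw [h, e2, if_pos rfl, if_neg (CutGeom.ne_b_of_mem_U₀ M.toCutGeometry hz i)] at e1
    exact zero_ne_one e1
  · -- pl_ne_plInf
    intro k z k' hz h
    have e1 := o1 k hz z
    rw [h, o4 k' z, if_pos rfl] at e1
    omega
  · -- plBad_injective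
    intro i k i' k' h
    have e1 := o3 i k (M.b i)
    have e2 := o3 i' k' (M.b i)
    rw [h] at e1
    rw [e1, if_pos rfl] at e2
    have hii : i = i' := by
      by_contra hne
      have hb : M.b i ≠ M.b i' := fun hb => hne (CutGeom.b_injective M.toCutGeometry hb)
      rw [if_neg hb] at e2
      have := sminimalPeriod_pos M i k
      omega
    subst hii
    exact ⟨rfl, hbad_inj i k k' h⟩
  · -- plBad_ne_plInf
    intro i k k' h
    have e1 := o3 i k (M.b i)
    rw [h, o4 k' (M.b i), if_pos rfl] at e1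
    have := sminimalPeriod_pos M i k
    omega
  · -- plBad_ne_plRay
    intro i k i' k' a ha h
    have e1 := o3 i k a
    have e2 := o2 i' k' ha a
    rw [h, e2, if_pos rfl, if_neg (CutGeom.ne_b_of_mem_openRay M.toCutGeometry ha i)] at e1
    exact one_ne_zero e1
  · -- plInf_ne_plRay
    intro k i' k' a ha h
    have e1 := o4 k a
    rw [h, o2 i' k' ha a, if_pos rfl] at e1
    omega

end Fermat.Agent.P5.helper62
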