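/-
P5 / S27, module MOD, package MOD-DERIV (helper86, task 649).

`derivStatement : DerivStatement` : the sheets of a sheet model are compatible with `d/dx`.

Proof: for an interior point `z` and a sheet `k`, `h ↦ germ of ev k h at z` is a ring
homomorphism `Φ : F → MeroGerm z`, and `h ↦ germ of deriv (ev k h)` is a `ℂ`-derivation of `F`
into `MeroGerm z` (an `F`-module through `Φ`).  By the universal property of the Kaehler
differentials it factors through `D`, so `D h = h' • D x` gives
`germ (deriv (ev k h)) = Φ h' * germ (deriv (ev k x)) = Φ h'`.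
-/
import Mathlib
import Fermat.Agent.P5.helper37_ModStatements
import Fermat.Agent.P5.helper4_CutGeom
import Fermat.Agent.S24.helper99_Germ

set_option autoImplicit false

open AlgebraicCurve Filter Topology

namespace Fermat.Agent.P5.helper86

open Fermat.Agent.P5.helper25 Fermat.Agent.P5.helper37 Fermat.Agent.P5.helper4
open Fermat.Agent.S24.helper99

noncomputable section

/-! ### Analytic preliminaries -/

/-- `deriv` respects eventual equality on a punctured neighbourhood. -/
theorem deriv_eventuallyEq_nhdsNE {f g : ℂ → ℂ} {z : ℂ} (h : f =ᶠ[𝓝[≠] z] g) :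
    deriv f =ᶠ[𝓝[≠] z] deriv g := by
  have h' : ∀ᶠ y in 𝓝[≠] z, ∀ᶠ x in 𝓝 y, f x = g x :=
    eventually_nhdsNE_eventually_nhds_iff.mpr h
  filter_upwards [h'] with y hy
  exact Filter.EventuallyEq.deriv_eq hy

/-- A function meromorphic at `z` is differentiable on a punctured neighbourhood. -/
theorem eventually_differentiableAt_of_meromorphicAt {f : ℂ → ℂ} {z : ℂ}
    (hf : MeromorphicAt f z) : ∀ᶠ w in 𝓝[≠] z, DifferentiableAt ℂ f w := by
  filter_upwards [hf.eventually_analyticAt] with w hw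
  exact hw.differentiableAt

/-- the sum rule for germs -/
theorem deriv_add_eventuallyEq {f g s : ℂ → ℂ} {z : ℂ} (hf : MeromorphicAt f z)
    (hg : MeromorphicAt g z) (hs : s =ᶠ[𝓝[≠] z] fun w => f w + g w) :
    deriv s =ᶠ[𝓝[≠] z] fun w => deriv f w + deriv g w := by
  filter_upwards [deriv_eventuallyEq_nhdsNE hs, eventually_differentiableAt_of_meromorphicAt hf,
    eventually_differentiableAt_of_meromorphicAt hg] with w hw hfw hgw
  rw [hw]
  exact deriv_add hfw hgw

/-- the Leibniz rule for germs -/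
theorem deriv_mul_eventuallyEq {f g s : ℂ → ℂ} {z : ℂ} (hf : MeromorphicAt f z)
    (hg : MeromorphicAt g z) (hs : s =ᶠ[𝓝[≠] z] fun w => f w * g w) :
    deriv s =ᶠ[𝓝[≠] z] fun w => f w * deriv g w + g w * deriv f w := by
  filter_upwards [deriv_eventuallyEq_nhdsNE hs, eventually_differentiableAt_of_meromorphicAt hf,
    eventually_differentiableAt_of_meromorphicAt hg] with w hw hfw hgw
  rw [hw, show (fun w => f w * g w) = f * g from rfl, deriv_mul hfw hgw]
  ring

/-- a function eventually equal to a constant has eventually vanishing derivative -/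
theorem deriv_const_eventuallyEq {s : ℂ → ℂ} {z c : ℂ} (hs : s =ᶠ[𝓝[≠] z] fun _ => c) :
    deriv s =ᶠ[𝓝[≠] z] fun _ => 0 := by
  filter_upwards [deriv_eventuallyEq_nhdsNE hs] with w hw
  rw [hw]
  exact deriv_const w c

/-- a function eventually equal to the identity has derivative eventually `1` -/
theorem deriv_id_eventuallyEq {s : ℂ → ℂ} {z : ℂ} (hs : s =ᶠ[𝓝[≠] z] id) :
    deriv s =ᶠ[𝓝[≠] z] fun _ => 1 := by
  filter_upwards [deriv_eventuallyEq_nhdsNE hs] with w hw
  rw [hw]
  exact deriv_id w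

/-! ### The germ homomorphism of a sheet -/

variable {F : Type} [Field F] [Algebra ℂ F]

theorem eventually_mem_U₀' (M : SheetModel F) {z : ℂ} (hz : z ∈ M.toCutGeometry.U₀) :
    ∀ᶠ w in 𝓝[≠] z, w ∈ M.toCutGeometry.U₀ :=
  nhdsWithin_le_nhds ((CutGeom.isOpen_U₀ _).mem_nhds hz)

theorem ev_algebraMap_eventuallyEq (M : SheetModel F) (k : Fin M.d) {z : ℂ}
    (hz : z ∈ M.toCutGeometry.U₀) (c : ℂ) :
    M.ev k (algebraMap ℂ F c) =ᶠ[𝓝[≠] z] fun _ => c := by
  filter_upwards [eventually_mem_U₀' M hz] with w hw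
  exact M.ev_algebraMap k c hw

theorem ev_x_eventuallyEq (M : SheetModel F) (k : Fin M.d) {z : ℂ}
    (hz : z ∈ M.toCutGeometry.U₀) : M.ev k M.x =ᶠ[𝓝[≠] z] id := by
  filter_upwards [eventually_mem_U₀' M hz] with w hw
  exact M.ev_x k hw

/-- The germ at an interior point `z` of the `k`-th sheet, as a ring homomorphism. -/
def sheetGerm (M : SheetModel F) (k : Fin M.d) {z : ℂ} (hz : z ∈ M.toCutGeometry.U₀) :
    F →+* MeroGerm z where
  toFun h := MeroGerm.mk (M.ev k h) (M.ev_meromorphicOn k h z hz)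
  map_one' := by
    rw [← MeroGerm.mk_one, MeroGerm.mk_eq_mk_iff]
    have := ev_algebraMap_eventuallyEq M k hz 1
    simpa using this
  map_mul' a b := by
    rw [← MeroGerm.mk_mul, MeroGerm.mk_eq_mk_iff]
    exact M.ev_mul k a b z hz
  map_zero' := by
    rw [← MeroGerm.mk_zero, MeroGerm.mk_eq_mk_iff]
    have := ev_algebraMap_eventuallyEq M k hz 0
    simpa using this
  map_add' a b := by
    rw [← MeroGerm.mk_add, MeroGerm.mk_eq_mk_iff]
    exact M.ev_add k a b z hz

theorem sheetGerm_apply (M : SheetModel F) (k : Fin M.d) {z : ℂ} (hz : z ∈ M.toCutGeometry.U₀)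
    (h : F) : sheetGerm M k hz h = MeroGerm.mk (M.ev k h) (M.ev_meromorphicOn k h z hz) := rfl

/-- The germ of the derivative of the `k`-th sheet. -/
def sheetDeriv (M : SheetModel F) (k : Fin M.d) {z : ℂ} (hz : z ∈ M.toCutGeometry.U₀)
    (h : F) : MeroGerm z :=
  MeroGerm.mk (deriv (M.ev k h)) (M.ev_meromorphicOn k h z hz).deriv

theorem sheetDeriv_add (M : SheetModel F) (k : Fin M.d) {z : ℂ} (hz : z ∈ M.toCutGeometry.U₀)
    (a b : F) : sheetDeriv M k hz (a + b) = sheetDeriv M k hz a + sheetDeriv M k hz b := by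
  unfold sheetDeriv
  rw [← MeroGerm.mk_add, MeroGerm.mk_eq_mk_iff]
  exact deriv_add_eventuallyEq (M.ev_meromorphicOn k a z hz) (M.ev_meromorphicOn k b z hz)
    (M.ev_add k a b z hz)

theorem sheetDeriv_mul (M : SheetModel F) (k : Fin M.d) {z : ℂ} (hz : z ∈ M.toCutGeometry.U₀)
    (a b : F) : sheetDeriv M k hz (a * b) =
      sheetGerm M k hz a * sheetDeriv M k hz b + sheetGerm M k hz b * sheetDeriv M k hz a := by
  unfold sheetDeriv
  rw [sheetGerm_apply, sheetGerm_apply, ← MeroGerm.mk_mul, ← MeroGerm.mk_mul, ← MeroGerm.mk_add,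
    MeroGerm.mk_eq_mk_iff]
  exact deriv_mul_eventuallyEq (M.ev_meromorphicOn k a z hz) (M.ev_meromorphicOn k b z hz)
    (M.ev_mul k a b z hz)

theorem sheetDeriv_algebraMap (M : SheetModel F) (k : Fin M.d) {z : ℂ}
    (hz : z ∈ M.toCutGeometry.U₀) (c : ℂ) : sheetDeriv M k hz (algebraMap ℂ F c) = 0 := by
  unfold sheetDeriv
  rw [← MeroGerm.mk_zero, MeroGerm.mk_eq_mk_iff]
  exact deriv_const_eventuallyEq (ev_algebraMap_eventuallyEq M k hz c)

theorem sheetDeriv_x (M : SheetModel F) (k : Fin M.d) {z : ℂ}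
    (hz : z ∈ M.toCutGeometry.U₀) : sheetDeriv M k hz M.x = 1 := by
  unfold sheetDeriv
  rw [← MeroGerm.mk_one, MeroGerm.mk_eq_mk_iff]
  exact deriv_id_eventuallyEq (ev_x_eventuallyEq M k hz)

/-! ### The derivation -/

/-- **Key step**: `D h = h' • D x` implies `germ (deriv (ev k h)) = germ (ev k h')`. -/
theorem sheetDeriv_eq_of_D_eq (M : SheetModel F) (k : Fin M.d) {z : ℂ}
    (hz : z ∈ M.toCutGeometry.U₀) (h h' : F)
    (hD : KaehlerDifferential.D ℂ F h = h' • KaehlerDifferential.D ℂ F M.x) :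
    sheetDeriv M k hz h = sheetGerm M k hz h' := by
  let algF : Algebra F (MeroGerm z) := (sheetGerm M k hz).toAlgebra
  let algC : Algebra ℂ (MeroGerm z) := ((sheetGerm M k hz).comp (algebraMap ℂ F)).toAlgebra
  have tower : IsScalarTower ℂ F (MeroGerm z) := IsScalarTower.of_algebraMap_eq (fun _ => rfl)
  have hsmulF : ∀ (a : F) (g : MeroGerm z), a • g = sheetGerm M k hz a * g := fun a g => rfl
  -- the ℂ-linear map
  let L : F →ₗ[ℂ] MeroGerm z :=
    { toFun := sheetDeriv M k hz
      map_add' := sheetDeriv_add M k hz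
      map_smul' := by
        intro c a
        rw [Algebra.smul_def, sheetDeriv_mul, sheetDeriv_algebraMap, mul_zero, add_zero,
          RingHom.id_apply, ← hsmulF, algebraMap_smul] }
  have hL : ∀ a, L a = sheetDeriv M k hz a := fun _ => rfl
  let δ : Derivation ℂ F (MeroGerm z) := Derivation.mk' L (by
    intro a b
    rw [hL, hL, hL, sheetDeriv_mul, hsmulF, hsmulF])
  have hδ : ∀ a, δ a = sheetDeriv M k hz a := fun _ => rfl
  have key := congrArg (δ.liftKaehlerDifferential) hD
  rw [Derivation.liftKaehlerDifferential_comp_D, map_smul,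
    Derivation.liftKaehlerDifferential_comp_D, hδ, hδ, sheetDeriv_x, hsmulF, mul_one] at key
  exact key

/-- **[MOD-DERIV]** the sheets of a sheet model are compatible with `d/dx`. -/
theorem derivStatement : DerivStatement := by
  intro F _ _ M k h h' hD z hz
  have key := sheetDeriv_eq_of_D_eq M k hz h h' hD
  rw [sheetGerm_apply] at key
  unfold sheetDeriv at key
  exact (MeroGerm.mk_eq_mk_iff.mp key).symm

end

end Fermat.Agent.P5.helper86
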