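/-
P5 / S27, module MOD (helper37, sub-coordinator, task 430): FINAL WIRING.

`existsCutModel_of_pending` : `ExistsCutModel` from the packages which are not yet on main;
all landed packages are already plugged in.
-/
import Mathlib
import Fermat.Agent.P5.helper37_ModAsm
import Fermat.Agent.P5.helper37_Alg0
import Fermat.Agent.P5.helper37_Dict
import Fermat.Agent.P5.helper37_PlInt
import Fermat.Agent.P5.helper37_Ev
import Fermat.Agent.P5.helper10_Alg1
import Fermat.Agent.P5.helper12_ModSep
import Fermat.Agent.P5.helper12_ModAlg2
import Fermat.Agent.P5.helper9_Lift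
import Fermat.Agent.P5.helper56_Branch
import Fermat.Agent.P5.helper86_ModDeriv
import Fermat.Agent.P5.helper38_CutStar
import Fermat.Agent.P5.helper38_Geo
import Fermat.Agent.P5.helper56_Cross
import Fermat.Agent.P5.helper62_PlAsm

set_option autoImplicit false

namespace Fermat.Agent.P5.helper37

open Fermat.Agent.P5.helper25

/-- MOD-ALG = ALG0 + ALG1 + ALG2 (with BR, SEP). -/
theorem presStatement : PresStatement :=
  presStatement_of alg0Statement Fermat.Agent.P5.helper10.alg1Statement
    (Fermat.Agent.P5.helper12.alg2Statement Fermat.Agent.P5.helper56.branchStatement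
      Fermat.Agent.P5.helper12.sepStatement)

/-- MOD-EV, unconditional. -/
theorem evStatement' : EvStatement := evStatement Fermat.Agent.P5.helper9.liftStatement

/-- **[MOD]** `ExistsCutModel` from the pending packages. -/
theorem existsCutModel_of_pending (hGEO : GeoStatement)
    (hCROSS : CrossStatement) (hPUIS : PuisStatement) (hINF : InfStatement)
    (hRay : RayPlacesStatement) (hBad : BadPlacesStatement) (hInf : InfPlacesStatement)
    (hAsm : PlAsmStatement) (hRAT : RatStatement) (hGLUE : GlueStatement) : ExistsCutModel :=
  existsCutModel_of presStatement Fermat.Agent.P5.helper12.sepStatement hGEO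
    (fun G => Fermat.Agent.P5.helper38.starConvex_U₀ G)
    Fermat.Agent.P5.helper56.branchStatement hCROSS hPUIS hINF evStatement'
    Fermat.Agent.P5.helper86.derivStatement
    (placesStatement_of dictStatement intPlacesStatement hRay hBad hInf hAsm)
    (hGLUE hRAT)

/-- **[MOD]** `ExistsCutModel` from the seven packages still in progress
(GEO, CROSS, PL-ASM are plugged in). -/
theorem existsCutModel_of_pending7 (hPUIS : PuisStatement) (hINF : InfStatement)
    (hRay : RayPlacesStatement) (hBad : BadPlacesStatement) (hInf : InfPlacesStatement)
    (hRAT : RatStatement) (hGLUE : GlueStatement) : ExistsCutModel :=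
  existsCutModel_of_pending Fermat.Agent.P5.helper38.geoStatement
    Fermat.Agent.P5.helper56.crossStatement' hPUIS hINF hRay hBad hInf
    Fermat.Agent.P5.helper62.plAsmStatement hRAT hGLUE

end Fermat.Agent.P5.helper37
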