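import Fermat.Agent.P5.helper41_Sectors

/-!
# P5 / MOD-GEO (helper38, task 596, items (4)-(6)): the cut plane in Puiseux / inverse coordinates

* `sector_of_puiseux_mem_U₀`, `eventually_sector_of_mem_U₀`, `eventually_mem_U₀_of_sector`,
  `eventually_mem_U₀_iff_sector` : near `s = 0` the preimage of the cut plane under
  `s ↦ b i + s ^ E * u` is the union of the `E` open sectors
  `sector (2πj/E) (2π(j+1)/E)`, `j < E`;
* `exists_sectorInf_of_mem_U₀`, `eventually_sectorInf_of_mem_U₀`,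
  `eventually_mem_U₀_iff_sectorInf` : near `∞` the cut plane is the union of the sectors at
  infinity;
* `pow_mem_sector`.
-/

set_option autoImplicit false

open Filter Topology Complex

namespace Fermat.Agent.P5.helper38

open Fermat.Agent.P5.helper25 Fermat.Agent.P5.helper4 Fermat.Agent.P5.helper41

/-! ### polar coordinates -/

/-- polar form with angle in `[0, 2π)` -/
theorem exists_polar {s : ℂ} (hs : s ≠ 0) :
    ∃ ρ φ : ℝ, 0 < ρ ∧ 0 ≤ φ ∧ φ < 2 * Real.pi ∧ s = (ρ : ℂ) * exp ((φ : ℂ) * I) := by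
  have hρ : 0 < ‖s‖ := norm_pos_iff.2 hs
  have h := Complex.norm_mul_exp_arg_mul_I s
  have hpi := Real.pi_pos
  rcases lt_or_ge (arg s) 0 with h0 | h0
  · refine ⟨‖s‖, arg s + 2 * Real.pi, hρ, ?_, by linarith, ?_⟩
    · have := Complex.neg_pi_lt_arg s
      linarith
    · have h1 := exp_add_int_mul_two_pi (arg s) 1
      have h2 : ((arg s + ((1 : ℤ) : ℝ) * (2 * Real.pi) : ℝ)) = arg s + 2 * Real.pi := by
        push_cast
        ring
      rw [h2] at h1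
      rw [h1, h]
  · refine ⟨‖s‖, arg s, hρ, h0, ?_, h.symm⟩
    have := Complex.arg_le_pi s
    linarith

/-- every nonzero complex number lies in a sector of opening `> 2π` around any direction -/
theorem mem_sector_of_ne_zero {s : ℂ} (hs : s ≠ 0) {φ₁ φ₂ : ℝ} (h : φ₁ + 2 * Real.pi < φ₂) :
    s ∈ sector φ₁ φ₂ := by
  obtain ⟨ρ, φ, hρ, hφ0, hφ1, rfl⟩ := exists_polar hs
  have hpi : (0 : ℝ) < 2 * Real.pi := by positivity
  -- shift `φ` into `(φ₁, φ₁ + 2π]`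
  set n : ℤ := ⌊(φ₁ - φ) / (2 * Real.pi)⌋ + 1 with hn
  have h1 : (φ₁ - φ) / (2 * Real.pi) < n := by
    rw [hn]
    push_cast
    exact Int.lt_floor_add_one _
  have h2 : (n : ℝ) ≤ (φ₁ - φ) / (2 * Real.pi) + 1 := by
    rw [hn]
    push_cast
    linarith [Int.floor_le ((φ₁ - φ) / (2 * Real.pi))]
  have h1' : φ₁ - φ < n * (2 * Real.pi) := by
    rwa [div_lt_iff₀ hpi] at h1
  have h2' : (n : ℝ) * (2 * Real.pi) ≤ φ₁ - φ + 2 * Real.pi := by
    have := mul_le_mul_of_nonneg_right h2 hpi.le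
    rwa [add_mul, div_mul_cancel₀ _ hpi.ne', one_mul] at this
  refine ⟨ρ, φ + n * (2 * Real.pi), hρ, by linarith, by linarith, ?_⟩
  rw [exp_add_int_mul_two_pi]

/-! ### (6) powers of sectors -/

/-- general form: the `m`-th power maps `sector φ₁ φ₂` into `sector (m φ₁) (m φ₂)` -/
theorem pow_mem_sector_mul {m : ℕ} (hm : 0 < m) {φ₁ φ₂ : ℝ} {s : ℂ} (hs : s ∈ sector φ₁ φ₂) :
    s ^ m ∈ sector (m * φ₁) (m * φ₂) := by
  obtain ⟨ρ, φ, hρ, hφ1, hφ2, rfl⟩ := hs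
  have hm' : (0 : ℝ) < m := by exact_mod_cast hm
  refine ⟨ρ ^ m, m * φ, pow_pos hρ m, ?_, ?_, polar_pow ρ φ m⟩
  · exact mul_lt_mul_of_pos_left hφ1 hm'
  · exact mul_lt_mul_of_pos_left hφ2 hm'

/-- **(6)** `s ↦ s ^ m` maps the `j`-th sector of opening `2π/(m e)` into the `j`-th sector of
opening `2π/e`. -/
theorem pow_mem_sector {m e : ℕ} (hm : 0 < m) (he : 0 < e) (j : ℕ) {s : ℂ}
    (hs : s ∈ sector (2 * Real.pi * j / (m * e)) (2 * Real.pi * (j + 1) / (m * e))) :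
    s ^ m ∈ sector (2 * Real.pi * j / e) (2 * Real.pi * (j + 1) / e) := by
  have hm' : (0 : ℝ) < m := by exact_mod_cast hm
  have he' : (0 : ℝ) < e := by exact_mod_cast he
  have h := pow_mem_sector_mul hm hs
  have e1 : (m : ℝ) * (2 * Real.pi * j / (m * e)) = 2 * Real.pi * j / e := by
    field_simp
  have e2 : (m : ℝ) * (2 * Real.pi * (j + 1) / (m * e)) = 2 * Real.pi * (j + 1) / e := by
    field_simp
  rwa [e1, e2] at h

/-- **(6)**, with the product taken in `ℕ` -/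
theorem pow_mem_sector' {m e : ℕ} (hm : 0 < m) (he : 0 < e) (j : ℕ) {s : ℂ}
    (hs : s ∈ sector (2 * Real.pi * j / ((m * e : ℕ) : ℝ))
      (2 * Real.pi * (j + 1) / ((m * e : ℕ) : ℝ))) :
    s ^ m ∈ sector (2 * Real.pi * j / e) (2 * Real.pi * (j + 1) / e) := by
  refine pow_mem_sector hm he j ?_
  rwa [Nat.cast_mul] at hs

/-! ### (4) bad points -/

/-- a point of the Puiseux disc off the ray lies in one of the `E` sectors -/
theorem sector_of_puiseux_not_mem_ray {z₀ b : ℂ} (hb : b ≠ z₀) {E : ℕ} (hE : 0 < E) {s : ℂ}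
    (hs : s ≠ 0) (h : b + s ^ E * unitDir z₀ b ∉ ray z₀ b) :
    ∃ j : ℕ, j < E ∧ s ∈ sector (2 * Real.pi * j / E) (2 * Real.pi * (j + 1) / E) := by
  obtain ⟨ρ, φ, hρ, hφ0, hφ1, rfl⟩ := exists_polar hs
  have hE' : (0 : ℝ) < E := by exact_mod_cast hE
  have hpi : (0 : ℝ) < 2 * Real.pi := by positivity
  set t : ℝ := E * φ / (2 * Real.pi) with ht
  have ht0 : 0 ≤ t := by positivity
  have htE : t < E := by
    rw [ht, div_lt_iff₀ hpi]
    exact mul_lt_mul_of_pos_left hφ1 hE'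
  have hφt : φ = 2 * Real.pi * t / E := by
    rw [ht]
    field_simp
  set j : ℕ := ⌊t⌋₊ with hj
  have hj1 : (j : ℝ) ≤ t := Nat.floor_le ht0
  have hj2 : t < j + 1 := Nat.lt_floor_add_one t
  have hjE : j < E := by
    have : (j : ℝ) < E := lt_of_le_of_lt hj1 htE
    exact_mod_cast this
  refine ⟨j, hjE, ρ, φ, hρ, ?_, ?_, rfl⟩
  · rcases hj1.lt_or_eq with hlt | heq
    · rw [hφt]
      apply div_lt_div_of_pos_right _ hE'
      exact mul_lt_mul_of_pos_left hlt hpi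
    · exfalso
      apply h
      have hEφ : (E : ℝ) * φ = 0 + ((j : ℤ) : ℝ) * (2 * Real.pi) := by
        rw [hφt, ← heq]
        push_cast
        field_simp
        ring
      have hpow : ((ρ : ℂ) * exp ((φ : ℂ) * I)) ^ E = ((ρ ^ E : ℝ) : ℂ) := by
        rw [polar_pow, hEφ, exp_add_int_mul_two_pi]
        simp
      rw [hpow]
      have hN : (0 : ℝ) < ‖b - z₀‖ := norm_pos_iff.2 (sub_ne_zero.2 hb)
      refine ⟨ρ ^ E / ‖b - z₀‖, by positivity, ?_⟩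
      unfold unitDir
      push_cast
      field_simp
  · rw [hφt]
    apply div_lt_div_of_pos_right _ hE'
    exact mul_lt_mul_of_pos_left hj2 hpi

/-- **(4)**, pointwise: if the Puiseux point over `s ≠ 0` lies in the cut plane, then `s` lies in
one of the `E` sectors. -/
theorem sector_of_puiseux_mem_U₀ (G : CutGeometry) (i : Fin G.r) {E : ℕ} (hE : 0 < E) {s : ℂ}
    (hs : s ≠ 0) (h : G.b i + s ^ E * unitDir G.z₀ (G.b i) ∈ G.U₀) :
    ∃ j : ℕ, j < E ∧ s ∈ sector (2 * Real.pi * j / E) (2 * Real.pi * (j + 1) / E) :=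
  sector_of_puiseux_not_mem_ray (G.b_ne i) hE hs (h i)

/-- **(4)** -/
theorem eventually_sector_of_mem_U₀ (G : CutGeometry) (i : Fin G.r) {E : ℕ} (hE : 0 < E) :
    ∀ᶠ s in 𝓝[≠] (0 : ℂ), G.b i + s ^ E * unitDir G.z₀ (G.b i) ∈ G.U₀ →
      ∃ j : ℕ, j < E ∧ s ∈ sector (2 * Real.pi * j / E) (2 * Real.pi * (j + 1) / E) := by
  filter_upwards [self_mem_nhdsWithin] with s hs h
  exact sector_of_puiseux_mem_U₀ G i hE hs h

/-- **(4)**, converse -/
theorem eventually_mem_U₀_of_sector (G : CutGeometry) (i : Fin G.r) {E : ℕ} (hE : 0 < E) :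
    ∀ᶠ s in 𝓝[≠] (0 : ℂ),
      (∃ j : ℕ, s ∈ sector (2 * Real.pi * j / E) (2 * Real.pi * (j + 1) / E)) →
        G.b i + s ^ E * unitDir G.z₀ (G.b i) ∈ G.U₀ := by
  obtain ⟨ε, hε, hball⟩ := exists_puiseux_mem_U₀ G i hE
  have hmem : Metric.ball (0 : ℂ) ε ∈ 𝓝[≠] (0 : ℂ) :=
    mem_nhdsWithin_of_mem_nhds (Metric.ball_mem_nhds _ hε)
  filter_upwards [hmem] with s hs hj
  obtain ⟨j, hj⟩ := hj
  exact hball j s hj (by simpa using hs)

/-- **(4)**, as an equivalence -/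
theorem eventually_mem_U₀_iff_sector (G : CutGeometry) (i : Fin G.r) {E : ℕ} (hE : 0 < E) :
    ∀ᶠ s in 𝓝[≠] (0 : ℂ), (G.b i + s ^ E * unitDir G.z₀ (G.b i) ∈ G.U₀ ↔
      ∃ j : ℕ, j < E ∧ s ∈ sector (2 * Real.pi * j / E) (2 * Real.pi * (j + 1) / E)) := by
  filter_upwards [eventually_sector_of_mem_U₀ G i hE, eventually_mem_U₀_of_sector G i hE]
    with s h1 h2
  exact ⟨h1, fun ⟨j, _, hj⟩ => h2 ⟨j, hj⟩⟩

/-! ### (5) infinity -/

/-- a point far out in the direction of `b i` lies on the `i`-th ray -/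
theorem mem_ray_of_arg_eq (G : CutGeometry) (i : Fin G.r) {v : ℂ} (hv : ‖G.b i - G.z₀‖ ≤ ‖v‖)
    (h : arg v = G.θ i) : G.z₀ + v ∈ ray G.z₀ (G.b i) := by
  have hb : G.b i - G.z₀ ≠ 0 := sub_ne_zero.2 (G.b_ne i)
  have hN : 0 < ‖G.b i - G.z₀‖ := norm_pos_iff.2 hb
  have hv0 : v ≠ 0 := norm_pos_iff.1 (lt_of_lt_of_le hN hv)
  have h1 := (Complex.arg_eq_arg_iff hb hv0).1 h.symm
  refine ⟨‖v‖ / ‖G.b i - G.z₀‖ - 1, ?_, ?_⟩
  · rw [sub_nonneg, le_div_iff₀ hN, one_mul]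
    exact hv
  · push_cast
    linear_combination -h1

/-- **(5)**, pointwise: a point of the cut plane beyond all bad points lies in one of the sectors
at infinity. -/
theorem exists_sectorInf_of_mem_U₀ (G : CutGeometry) (hr : 0 < G.r) {v : ℂ}
    (hv : ∀ i, ‖G.b i - G.z₀‖ ≤ ‖v‖) (h : G.z₀ + v ∈ G.U₀) : ∃ i, v ∈ G.sectorInf i := by
  classical
  have hpi := Real.pi_pos
  have hne : ∀ i, arg v ≠ G.θ i := fun i hi => h i (mem_ray_of_arg_eq G i (hv i) hi)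
  have hv0 : v ≠ 0 := by
    have hN : 0 < ‖G.b ⟨0, hr⟩ - G.z₀‖ := norm_pos_iff.2 (sub_ne_zero.2 (G.b_ne _))
    exact norm_pos_iff.1 (lt_of_lt_of_le hN (hv _))
  have hρ : 0 < ‖v‖ := norm_pos_iff.2 hv0
  have hpol : v = (‖v‖ : ℂ) * exp ((arg v : ℂ) * I) := (Complex.norm_mul_exp_arg_mul_I v).symm
  have hpol' : v = (‖v‖ : ℂ) * exp (((arg v + 2 * Real.pi : ℝ) : ℂ) * I) := by
    have h1 := exp_add_int_mul_two_pi (arg v) 1
    have h2 : ((arg v + ((1 : ℤ) : ℝ) * (2 * Real.pi) : ℝ)) = arg v + 2 * Real.pi := by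
      push_cast
      ring
    rw [h2] at h1
    rw [h1]
    exact hpol
  have hlast : G.r - 1 < G.r := by omega
  have hwrap : ¬ ((⟨G.r - 1, hlast⟩ : Fin G.r) : ℕ) + 1 < G.r := by
    simp only
    omega
  by_cases hex : ∃ n, ∃ hn : n < G.r, arg v < G.θ ⟨n, hn⟩
  · obtain ⟨hn₀, hlt⟩ := Nat.find_spec hex
    have hmin := fun m (hm : m < Nat.find hex) => Nat.find_min hex hm
    rcases Nat.eq_zero_or_pos (Nat.find hex) with h0 | hpos
    · -- `arg v` is below all directions: wrap-around sector, angle `arg v + 2π`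
      refine ⟨⟨G.r - 1, hlast⟩, ?_⟩
      rw [CutGeometry.sectorInf, dif_neg hwrap]
      refine ⟨‖v‖, arg v + 2 * Real.pi, hρ, ?_, ?_, hpol'⟩
      · have h1 := (CutGeom.θ_mem G ⟨G.r - 1, hlast⟩).2
        have h2 := Complex.neg_pi_lt_arg v
        linarith
      · have h3 : G.θ ⟨Nat.find hex, hn₀⟩ = G.θ ⟨0, hr⟩ := by
          congr 1
          exact Fin.ext h0
        rw [h3] at hlt
        have : G.θ ⟨0, Nat.pos_of_ne_zero
            (fun h0 => (Fin.pos (⟨G.r - 1, hlast⟩ : Fin G.r)).ne' h0)⟩ = G.θ ⟨0, hr⟩ := rfl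
        rw [this]
        linarith
    · -- between two consecutive directions
      obtain ⟨m, hm⟩ : ∃ m, Nat.find hex = m + 1 := ⟨Nat.find hex - 1, by omega⟩
      have hm1 : m + 1 < G.r := hm ▸ hn₀
      have hm0 : m < G.r := by omega
      have hnot : ¬ arg v < G.θ ⟨m, hm0⟩ := fun hcon =>
        hmin m (by omega) ⟨hm0, hcon⟩
      have hgt : G.θ ⟨m, hm0⟩ < arg v :=
        lt_of_le_of_ne (not_lt.1 hnot) (fun heq => hne _ heq.symm)
      have hlt' : arg v < G.θ ⟨m + 1, hm1⟩ := by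
        have h3 : G.θ ⟨Nat.find hex, hn₀⟩ = G.θ ⟨m + 1, hm1⟩ := by
          congr 1
          exact Fin.ext hm
        rwa [h3] at hlt
      refine ⟨⟨m, hm0⟩, ?_⟩
      rw [CutGeometry.sectorInf, dif_pos (show ((⟨m, hm0⟩ : Fin G.r) : ℕ) + 1 < G.r from hm1)]
      exact ⟨‖v‖, arg v, hρ, hgt, hlt', hpol⟩
  · -- `arg v` is above all directions: wrap-around sector, angle `arg v`
    have hall : ∀ i, G.θ i < arg v := fun i =>
      lt_of_le_of_ne (not_lt.1 fun hcon => hex ⟨i, i.2, hcon⟩) (fun heq => hne _ heq.symm)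
    refine ⟨⟨G.r - 1, hlast⟩, ?_⟩
    rw [CutGeometry.sectorInf, dif_neg hwrap]
    refine ⟨‖v‖, arg v, hρ, hall _, ?_, hpol⟩
    have h1 := (CutGeom.θ_mem G ⟨0, Nat.pos_of_ne_zero
      (fun h0 => (Fin.pos (⟨G.r - 1, hlast⟩ : Fin G.r)).ne' h0)⟩).1
    have h2 := Complex.arg_le_pi v
    linarith

/-- all bad points lie in a ball around the base point -/
theorem exists_bound_b (G : CutGeometry) : ∃ R : ℝ, 0 < R ∧ ∀ i, ‖G.b i - G.z₀‖ < R := by
  refine ⟨1 + ∑ i, ‖G.b i - G.z₀‖, ?_, fun i => ?_⟩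
  · have : 0 ≤ ∑ i, ‖G.b i - G.z₀‖ := Finset.sum_nonneg fun _ _ => norm_nonneg _
    linarith
  · have : ‖G.b i - G.z₀‖ ≤ ∑ i, ‖G.b i - G.z₀‖ :=
      Finset.single_le_sum (f := fun i => ‖G.b i - G.z₀‖) (fun _ _ => norm_nonneg _)
        (Finset.mem_univ i)
    linarith

/-- near `w = 0` the point `w⁻¹` is beyond all bad points -/
theorem eventually_norm_inv_gt (G : CutGeometry) :
    ∀ᶠ w in 𝓝[≠] (0 : ℂ), ∀ i, ‖G.b i - G.z₀‖ < ‖w⁻¹‖ := by
  obtain ⟨R, hR, hb⟩ := exists_bound_b G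
  have hmem : Metric.ball (0 : ℂ) R⁻¹ ∈ 𝓝[≠] (0 : ℂ) :=
    mem_nhdsWithin_of_mem_nhds (Metric.ball_mem_nhds _ (inv_pos.2 hR))
  filter_upwards [hmem, self_mem_nhdsWithin] with w hw hw0 i
  have hw' : ‖w‖ < R⁻¹ := by simpa using hw
  have hwpos : 0 < ‖w‖ := norm_pos_iff.2 hw0
  have : R < ‖w‖⁻¹ := by
    rw [lt_inv_comm₀ hR hwpos]
    exact hw'
  rw [norm_inv]
  exact lt_trans (hb i) this

/-- **(5)** -/
theorem eventually_sectorInf_of_mem_U₀ (G : CutGeometry) (hr : 0 < G.r) :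
    ∀ᶠ w in 𝓝[≠] (0 : ℂ), G.z₀ + w⁻¹ ∈ G.U₀ → ∃ i, w⁻¹ ∈ G.sectorInf i := by
  filter_upwards [eventually_norm_inv_gt G] with w hw h
  exact exists_sectorInf_of_mem_U₀ G hr (fun i => (hw i).le) h

/-- **(5)**, as an equivalence (the converse holds everywhere: `helper41.sectorInf_mem_U₀`) -/
theorem eventually_mem_U₀_iff_sectorInf (G : CutGeometry) (hr : 0 < G.r) :
    ∀ᶠ w in 𝓝[≠] (0 : ℂ), (G.z₀ + w⁻¹ ∈ G.U₀ ↔ ∃ i, w⁻¹ ∈ G.sectorInf i) := by
  filter_upwards [eventually_sectorInf_of_mem_U₀ G hr] with w hw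
  exact ⟨hw, fun ⟨i, hi⟩ => sectorInf_mem_U₀ G i hi⟩

/-- for `r = 0` the cut plane is the whole plane -/
theorem U₀_eq_univ_of_r_eq_zero (G : CutGeometry) (hr : G.r = 0) : G.U₀ = Set.univ := by
  ext z
  simp only [CutGeometry.U₀, Set.mem_ofPred_eq, Set.mem_univ, iff_true]
  intro i
  exact absurd i.2 (by omega)

end Fermat.Agent.P5.helper38
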