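import Mathlib

/-!
# P5 [MOD-RAT-0]: a function meromorphic on `ℂ` and at infinity is rational

`exists_ratFunc_of_meromorphic`: if `c : ℂ → ℂ` is meromorphic at every point and
`w ↦ c w⁻¹` is meromorphic at `0`, then there are polynomials `p`, `q ≠ 0` with `c = p / q`
on a punctured neighbourhood of every point.

Route: `c` is analytic and of polynomial growth outside a ball (`exists_bound_at_infty`); the
poles are finite in number (`finite_poles`); `q :=` product of `(X - u) ^ (pole order)`; the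
normal form of `q c` is entire of polynomial growth, hence a polynomial
(`exists_polynomial_of_growth`, Liouville + `dslope`).
-/

set_option autoImplicit false

open Polynomial Metric Filter Topology

namespace Fermat.Agent.P5.helper54

/-- An entire function bounded by `C ‖z‖ ^ N` outside a ball is a polynomial. -/
theorem exists_polynomial_of_growth (N : ℕ) : ∀ (f : ℂ → ℂ), Differentiable ℂ f → ∀ (C R : ℝ),
    (∀ z, R ≤ ‖z‖ → ‖f z‖ ≤ C * ‖z‖ ^ N) → ∃ p : Polynomial ℂ, ∀ z, f z = p.eval z := by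
  induction N with
  | zero =>
    intro f hf C R hb
    have hbdd : Bornology.IsBounded (Set.range f) := by
      obtain ⟨M, hM⟩ := (isCompact_closedBall (0 : ℂ) R).exists_bound_of_continuousOn
        hf.continuous.continuousOn
      rw [isBounded_iff_forall_norm_le]
      refine ⟨max M C, ?_⟩
      rintro _ ⟨z, rfl⟩
      rcases le_or_gt R ‖z‖ with h | h
      · have := hb z h
        simp only [pow_zero, mul_one] at this
        exact this.trans (le_max_right _ _)
      · exact (hM z (by simpa using h.le)).trans (le_max_left _ _)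
    obtain ⟨c, hc⟩ := hf.exists_eq_const_of_bounded hbdd
    exact ⟨Polynomial.C c, fun z => by simp [hc]⟩
  | succ N ih =>
    intro f hf C R hb
    have hg : Differentiable ℂ (dslope f 0) := by
      have := (Complex.differentiableOn_dslope (f := f) (s := Set.univ) (c := 0)
        Filter.univ_mem).mpr hf.differentiableOn
      exact differentiableOn_univ.mp this
    obtain ⟨q, hq⟩ := ih (dslope f 0) hg (|C| + ‖f 0‖) (max R 1) (by
      intro z hz
      have hz1 : 1 ≤ ‖z‖ := (le_max_right _ _).trans hz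
      have hzR : R ≤ ‖z‖ := (le_max_left _ _).trans hz
      have hz0 : z ≠ 0 := by
        intro h
        rw [h, norm_zero] at hz1
        linarith
      have hzpos : 0 < ‖z‖ := norm_pos_iff.mpr hz0
      rw [dslope_of_ne _ hz0, slope_def_field, sub_zero, norm_div]
      rw [div_le_iff₀ hzpos]
      have h1 : ‖f z - f 0‖ ≤ C * ‖z‖ ^ (N + 1) + ‖f 0‖ :=
        (norm_sub_le _ _).trans (add_le_add (hb z hzR) le_rfl)
      have h2 : C * ‖z‖ ^ (N + 1) ≤ |C| * ‖z‖ ^ (N + 1) :=
        mul_le_mul_of_nonneg_right (le_abs_self C) (by positivity)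
      have h3 : ‖f 0‖ ≤ ‖f 0‖ * ‖z‖ ^ (N + 1) := by
        have : (1 : ℝ) ≤ ‖z‖ ^ (N + 1) := one_le_pow₀ hz1
        nlinarith [norm_nonneg (f 0)]
      calc ‖f z - f 0‖ ≤ C * ‖z‖ ^ (N + 1) + ‖f 0‖ := h1
        _ ≤ |C| * ‖z‖ ^ (N + 1) + ‖f 0‖ * ‖z‖ ^ (N + 1) := add_le_add h2 h3
        _ = (|C| + ‖f 0‖) * ‖z‖ ^ N * ‖z‖ := by ring)
    refine ⟨Polynomial.C (f 0) + Polynomial.X * q, fun z => ?_⟩
    have := sub_smul_dslope f 0 z
    rw [sub_zero, smul_eq_mul, hq z] at this
    simp only [eval_add, eval_C, eval_mul, eval_X]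
    rw [this]
    ring

/-- Behaviour at infinity: if `w ↦ c w⁻¹` is meromorphic at `0`, then outside a ball `c` is
analytic and bounded by a power of `‖z‖`. -/
theorem exists_bound_at_infty (c : ℂ → ℂ) (hinf : MeromorphicAt (fun w => c w⁻¹) 0) :
    ∃ (n : ℕ) (R C : ℝ), 0 < R ∧ 0 ≤ C ∧
      ∀ z, R < ‖z‖ → AnalyticAt ℂ c z ∧ ‖c z‖ ≤ C * ‖z‖ ^ n := by
  obtain ⟨n, hn⟩ := hinf
  set F : ℂ → ℂ := fun w => (w - 0) ^ n • c w⁻¹ with hF
  have h1 : ∀ᶠ w in 𝓝 (0 : ℂ), AnalyticAt ℂ F w := hn.eventually_analyticAt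
  have h2 : ∀ᶠ w in 𝓝 (0 : ℂ), ‖F w‖ < ‖F 0‖ + 1 :=
    hn.continuousAt.norm.eventually (gt_mem_nhds (lt_add_one _))
  obtain ⟨δ, hδ, hball⟩ := Metric.eventually_nhds_iff.mp (h1.and h2)
  refine ⟨n, δ⁻¹, ‖F 0‖ + 1, inv_pos.mpr hδ, by positivity, fun z hz => ?_⟩
  have hδz : δ⁻¹ < ‖z‖ := hz
  have hzpos : 0 < ‖z‖ := (inv_pos.mpr hδ).trans hz
  have hz0 : z ≠ 0 := norm_pos_iff.mp hzpos
  have key : ∀ y : ℂ, δ⁻¹ < ‖y‖ → AnalyticAt ℂ F y⁻¹ ∧ ‖F y⁻¹‖ < ‖F 0‖ + 1 ∧
      c y = y ^ n * F y⁻¹ := by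
    intro y hy
    have hypos : 0 < ‖y‖ := (inv_pos.mpr hδ).trans hy
    have hy0 : y ≠ 0 := norm_pos_iff.mp hypos
    have hd : dist y⁻¹ 0 < δ := by
      rw [dist_zero_right, norm_inv]
      exact inv_lt_of_inv_lt₀ hδ hy
    obtain ⟨ha, hb⟩ := hball hd
    refine ⟨ha, hb, ?_⟩
    simp only [hF, sub_zero, inv_inv, smul_eq_mul, inv_pow]
    field_simp
  obtain ⟨ha, hb, hc⟩ := key z hz
  constructor
  · have hev : c =ᶠ[𝓝 z] fun y => y ^ n * F y⁻¹ := by
      have hopen : IsOpen {y : ℂ | δ⁻¹ < ‖y‖} := isOpen_lt continuous_const continuous_norm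
      filter_upwards [hopen.mem_nhds hz] with y hy
      exact (key y hy).2.2
    refine AnalyticAt.congr ?_ hev.symm
    exact (analyticAt_id.pow n).mul (ha.comp (analyticAt_inv hz0))
  · rw [hc, norm_mul, norm_pow, mul_comm]
    exact mul_le_mul_of_nonneg_right hb.le (by positivity)

/-- A polynomial is bounded by a multiple of `‖z‖ ^ natDegree` for `‖z‖ ≥ 1`. -/
theorem exists_polynomial_bound (q : Polynomial ℂ) :
    ∃ K : ℝ, 0 ≤ K ∧ ∀ z : ℂ, 1 ≤ ‖z‖ → ‖q.eval z‖ ≤ K * ‖z‖ ^ q.natDegree := by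
  refine ⟨∑ i ∈ Finset.range (q.natDegree + 1), ‖q.coeff i‖,
    Finset.sum_nonneg fun _ _ => norm_nonneg _, fun z hz => ?_⟩
  rw [Polynomial.eval_eq_sum_range, Finset.sum_mul]
  refine (norm_sum_le _ _).trans (Finset.sum_le_sum fun i hi => ?_)
  rw [norm_mul, norm_pow]
  refine mul_le_mul_of_nonneg_left ?_ (norm_nonneg _)
  exact pow_le_pow_right₀ hz (Nat.lt_succ_iff.mp (Finset.mem_range.mp hi))

/-- The pole order of `c` at `u` (zero if `c` has no pole at `u`). -/
noncomputable def poleOrder (c : ℂ → ℂ) (u : ℂ) : ℕ := (-(meromorphicOrderAt c u).untop₀).toNat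

theorem poleOrder_add_nonneg (c : ℂ → ℂ) (u : ℂ) :
    0 ≤ ((poleOrder c u : ℤ) : WithTop ℤ) + meromorphicOrderAt c u := by
  unfold poleOrder
  cases h : meromorphicOrderAt c u with
  | top => simp
  | coe n =>
    rw [WithTop.untop₀_coe, ← WithTop.coe_add, ← WithTop.coe_zero, WithTop.coe_le_coe]
    omega

theorem meromorphicOrderAt_neg_of_poleOrder_ne_zero (c : ℂ → ℂ) (u : ℂ)
    (h : poleOrder c u ≠ 0) : meromorphicOrderAt c u < 0 := by
  unfold poleOrder at h
  cases h' : meromorphicOrderAt c u with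
  | top => simp [h'] at h
  | coe n =>
    rw [h', WithTop.untop₀_coe] at h
    rw [← WithTop.coe_zero, WithTop.coe_lt_coe]
    omega

/-- The set of poles of a function meromorphic on `ℂ` and at infinity is finite. -/
theorem finite_poles (c : ℂ → ℂ) (hc : ∀ z, MeromorphicAt c z)
    (hinf : MeromorphicAt (fun w => c w⁻¹) 0) : {u : ℂ | poleOrder c u ≠ 0}.Finite := by
  obtain ⟨n, R, C, hR, hC, hb⟩ := exists_bound_at_infty c hinf
  have hmero : MeromorphicOn c (closedBall (0 : ℂ) R) := fun z _ => hc z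
  refine ((MeromorphicOn.divisor c (closedBall (0 : ℂ) R)).finiteSupport
    (isCompact_closedBall 0 R)).subset fun u hu => ?_
  have hneg := meromorphicOrderAt_neg_of_poleOrder_ne_zero c u hu
  have huK : u ∈ closedBall (0 : ℂ) R := by
    by_contra hcon
    have : R < ‖u‖ := by simpa using hcon
    exact absurd (hb u this).1.meromorphicOrderAt_nonneg (not_le.mpr hneg)
  rw [Function.mem_support, MeromorphicOn.divisor_apply hmero huK]
  intro h0
  apply hu
  unfold poleOrder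
  rw [h0]
  rfl

/-- The denominator: the product of `(X - u) ^ (pole order at u)` over the poles. -/
noncomputable def denom (c : ℂ → ℂ) (hP : {u : ℂ | poleOrder c u ≠ 0}.Finite) : Polynomial ℂ :=
  ∏ u ∈ hP.toFinset, (X - Polynomial.C u) ^ poleOrder c u

theorem denom_ne_zero (c : ℂ → ℂ) (hP : {u : ℂ | poleOrder c u ≠ 0}.Finite) :
    denom c hP ≠ 0 :=
  Finset.prod_ne_zero_iff.mpr fun u _ => pow_ne_zero _ (X_sub_C_ne_zero u)

theorem exists_denom_eq (c : ℂ → ℂ) (hP : {u : ℂ | poleOrder c u ≠ 0}.Finite) (z : ℂ) :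
    ∃ r : Polynomial ℂ, denom c hP = (X - Polynomial.C z) ^ poleOrder c z * r := by
  classical
  by_cases hz : z ∈ hP.toFinset
  · exact ⟨∏ u ∈ hP.toFinset.erase z, (X - Polynomial.C u) ^ poleOrder c u,
      (Finset.mul_prod_erase _ _ hz).symm⟩
  · refine ⟨denom c hP, ?_⟩
    have : poleOrder c z = 0 := by
      by_contra h
      exact hz (hP.mem_toFinset.mpr h)
    rw [this, pow_zero, one_mul]

theorem analyticAt_eval (q : Polynomial ℂ) (z : ℂ) : AnalyticAt ℂ (fun w => q.eval w) z :=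
  (Polynomial.differentiable q).analyticAt z

theorem le_meromorphicOrderAt_denom (c : ℂ → ℂ) (hP : {u : ℂ | poleOrder c u ≠ 0}.Finite)
    (z : ℂ) :
    ((poleOrder c z : ℤ) : WithTop ℤ) ≤ meromorphicOrderAt (fun w => (denom c hP).eval w) z := by
  obtain ⟨r, hr⟩ := exists_denom_eq c hP z
  have h1 : (fun w => (denom c hP).eval w) = (fun w => (w - z) ^ poleOrder c z) *
      (fun w => r.eval w) := by
    ext w
    simp [hr]
  rw [h1, meromorphicOrderAt_mul (by fun_prop) (analyticAt_eval r z).meromorphicAt]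
  have h2 : meromorphicOrderAt (fun w : ℂ => (w - z) ^ poleOrder c z) z =
      ((poleOrder c z : ℕ) : WithTop ℤ) := meromorphicOrderAt_pow_id_sub_const
  rw [h2]
  have h3 := (analyticAt_eval r z).meromorphicOrderAt_nonneg
  calc ((poleOrder c z : ℤ) : WithTop ℤ) = ((poleOrder c z : ℕ) : WithTop ℤ) + 0 := by simp
    _ ≤ _ := by gcongr


/-- **A function meromorphic on the Riemann sphere is rational.** -/
theorem exists_ratFunc_of_meromorphic (c : ℂ → ℂ) (hc : ∀ z, MeromorphicAt c z)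
    (hinf : MeromorphicAt (fun w => c w⁻¹) 0) :
    ∃ p q : Polynomial ℂ, q ≠ 0 ∧ ∀ z, c =ᶠ[𝓝[≠] z] fun w => p.eval w / q.eval w := by
  obtain ⟨n, R, C, hR, hC, hb⟩ := exists_bound_at_infty c hinf
  have hP := finite_poles c hc hinf
  set q := denom c hP with hq
  have hq0 : q ≠ 0 := denom_ne_zero c hP
  -- the function `q c` and its normal form
  set h : ℂ → ℂ := (fun w => q.eval w) * c with hh
  have hmero : MeromorphicOn h Set.univ := fun z _ =>
    (analyticAt_eval q z).meromorphicAt.mul (hc z)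
  have hord : ∀ z, 0 ≤ meromorphicOrderAt h z := by
    intro z
    rw [hh, meromorphicOrderAt_mul (analyticAt_eval q z).meromorphicAt (hc z)]
    exact (poleOrder_add_nonneg c z).trans
      (add_le_add (le_meromorphicOrderAt_denom c hP z) le_rfl)
  set H : ℂ → ℂ := toMeromorphicNFOn h Set.univ with hH
  have hNF : MeromorphicNFOn H Set.univ := meromorphicNFOn_toMeromorphicNFOn h Set.univ
  have hHan : ∀ z, AnalyticAt ℂ H z := by
    intro z
    rw [← (hNF (Set.mem_univ z)).meromorphicOrderAt_nonneg_iff_analyticAt, hH,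
      meromorphicOrderAt_toMeromorphicNFOn hmero (Set.mem_univ z)]
    exact hord z
  have hHd : Differentiable ℂ H := fun z => (hHan z).differentiableAt
  have hHh : ∀ z, H =ᶠ[𝓝[≠] z] h := fun z =>
    hmero.toMeromorphicNFOn_eq_self_on_nhdsNE (Set.mem_univ z)
  -- growth of `H`
  obtain ⟨K, hK, hKb⟩ := exists_polynomial_bound q
  have hgrowth : ∀ z, max R 1 + 1 ≤ ‖z‖ → ‖H z‖ ≤ K * C * ‖z‖ ^ (q.natDegree + n) := by
    intro z hz
    have hzR : R < ‖z‖ := lt_of_lt_of_le (lt_of_le_of_lt (le_max_left R 1) (lt_add_one _)) hz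
    have hz1 : 1 ≤ ‖z‖ := ((le_max_right R 1).trans (le_add_of_nonneg_right zero_le_one)).trans hz
    obtain ⟨hcan, hcb⟩ := hb z hzR
    have hhan : AnalyticAt ℂ h z := (analyticAt_eval q z).mul hcan
    have heq : H =ᶠ[𝓝 z] h :=
      ((hNF (Set.mem_univ z)).eventuallyEq_nhdsNE_iff_eventuallyEq_nhds
        hhan.meromorphicNFAt).mp (hHh z)
    rw [heq.eq_of_nhds, hh, Pi.mul_apply, norm_mul, pow_add]
    calc ‖q.eval z‖ * ‖c z‖ ≤ (K * ‖z‖ ^ q.natDegree) * (C * ‖z‖ ^ n) :=
          mul_le_mul (hKb z hz1) hcb (norm_nonneg _) (by positivity)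
      _ = K * C * (‖z‖ ^ q.natDegree * ‖z‖ ^ n) := by ring
  obtain ⟨p, hp⟩ := exists_polynomial_of_growth (q.natDegree + n) H hHd (K * C) (max R 1 + 1)
    hgrowth
  refine ⟨p, q, hq0, fun z => ?_⟩
  -- `q` does not vanish on a punctured neighbourhood of `z`
  have hroots : ∀ᶠ w in 𝓝[≠] z, q.eval w ≠ 0 := by
    have hfin : ({w : ℂ | q.IsRoot w} \ {z}).Finite :=
      (Polynomial.finite_setOfPred_isRoot hq0).subset Set.sdiff_subset
    have hnhds : ({w : ℂ | q.IsRoot w} \ {z})ᶜ ∈ 𝓝 z :=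
      hfin.isClosed.compl_mem_nhds (by simp)
    filter_upwards [mem_nhdsWithin_of_mem_nhds hnhds, self_mem_nhdsWithin] with w hw hwz
    intro h0
    exact hw ⟨h0, hwz⟩
  filter_upwards [hHh z, hroots] with w hw hqw
  rw [← hp w, hw, hh, Pi.mul_apply, mul_div_cancel_left₀ _ hqw]

end Fermat.Agent.P5.helper54
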