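/-
P5 / S27, module MOD, package RAT (helper37, task 595): `ratStatement : RatStatement`.

A function `c` on the cut plane `U₀` which continues meromorphically across the open rays, to
the bad points (after `z = b + s ^ E u`) and to `∞` is rational.

* `Rat.ext G c` : the extension of `c` to the whole plane (`c` on `U₀`, the limit of `c` along
  `U₀` elsewhere);
* `Rat.ext_eventuallyEq` : `ext G c` agrees near `a` with every meromorphic germ at `a` which
  agrees with `c` on `U₀`;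
* `Rat.exists_cont_bad` : continuation to the bad points (identity principle + RAT-DESC,
  `helper60.exists_meromorphicAt_comp_pow`);
* `Rat.meromorphicAt_ext_inv` : `ext G c` is meromorphic at `∞`;
* `ratStatement` : by RAT-0 (`helper54.exists_ratFunc_of_meromorphic`).
-/
import Mathlib
import Fermat.Agent.P5.helper37_ModAnalytic
import Fermat.Agent.P5.helper38_CutStar
import Fermat.Agent.P5.helper38_Sector
import Fermat.Agent.P5.helper54_Rat0
import Fermat.Agent.P5.helper60_RatDesc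

set_option autoImplicit false

open Filter Topology

namespace Fermat.Agent.P5.helper37

open Fermat.Agent.P5.helper25 Fermat.Agent.P5.helper4 Fermat.Agent.P5.helper38
  Fermat.Agent.P5.helper41

namespace Rat

/-! ### The cut plane is dense -/

/-- points of the cut plane accumulate at every point -/
theorem frequently_mem_U₀ (G : CutGeometry) (z : ℂ) : ∃ᶠ w in 𝓝 z, w ∈ G.U₀ := by
  by_cases hz : z ∈ G.U₀
  · exact Filter.Eventually.frequently (f := 𝓝 z) ((CutGeom.isOpen_U₀ G).mem_nhds hz)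
  · obtain ⟨i, hi⟩ : ∃ i, z ∈ ray G.z₀ (G.b i) := by
      by_contra h
      exact hz fun i hi => h ⟨i, hi⟩
    have hb' : G.b i - G.z₀ ≠ 0 := sub_ne_zero.2 (G.b_ne i)
    have him : (rayCoord G.z₀ (G.b i) z).im = 0 := ((mem_ray_iff' (G.b_ne i)).1 hi).2
    have h1 : ∃ᶠ w in 𝓝[≠] z, w ∈ G.U₀ := by
      refine frequently_of_line (v := Complex.I * (G.b i - G.z₀))
        (mul_ne_zero Complex.I_ne_zero hb') ?_
      have hU : ∀ᶠ t : ℝ in 𝓝[>] (0 : ℝ),
          z + (t : ℂ) * (Complex.I * (G.b i - G.z₀)) ∈ CutGeom.Uexcept G i := by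
        have hc : Continuous fun t : ℝ => z + (t : ℂ) * (Complex.I * (G.b i - G.z₀)) := by
          fun_prop
        have h0 : (fun t : ℝ => z + (t : ℂ) * (Complex.I * (G.b i - G.z₀))) 0 ∈
            CutGeom.Uexcept G i := by
          simpa using CutGeom.ray_subset_Uexcept G i hi
        exact nhdsWithin_le_nhds
          (hc.continuousAt.eventually ((CutGeom.isOpen_Uexcept G i).mem_nhds h0))
      filter_upwards [hU, self_mem_nhdsWithin] with t ht1 ht
      have ht' : (0 : ℝ) < t := ht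
      refine CutGeom.mem_U₀_of_mem_Uexcept G ht1
        (not_mem_ray_of_mem_leftSide (G.b_ne i) ?_)
      rw [mem_leftSide_iff, ← mul_assoc, rayCoord_add_mul _ _ _ (G.b_ne i)]
      simp [him, ht']
    exact h1.filter_mono nhdsWithin_le_nhds

theorem neBot_nhdsWithin_U₀ (G : CutGeometry) (z : ℂ) : (𝓝[G.U₀] z).NeBot :=
  mem_closure_iff_nhdsWithin_neBot.1 (mem_closure_iff_frequently.2 (frequently_mem_U₀ G z))

/-! ### The extension -/

open scoped Classical in
/-- the extension of `c` from the cut plane to the whole plane by limits along the cut plane -/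
noncomputable def ext (G : CutGeometry) (c : ℂ → ℂ) (z : ℂ) : ℂ :=
  if z ∈ G.U₀ then c z else limUnder (𝓝[G.U₀] z) c

theorem ext_eq_of_continuousAt (G : CutGeometry) (c g : ℂ → ℂ) (z : ℂ) (hg : ContinuousAt g z)
    (h : ∀ᶠ w in 𝓝 z, w ∈ G.U₀ → g w = c w) : ext G c z = g z := by
  unfold ext
  split_ifs with hz
  · exact (h.self_of_nhds hz).symm
  · have := neBot_nhdsWithin_U₀ G z
    apply Tendsto.limUnder_eq
    have h1 : Tendsto g (𝓝[G.U₀] z) (𝓝 (g z)) := hg.tendsto.mono_left nhdsWithin_le_nhds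
    refine h1.congr' ?_
    rw [EventuallyEq, eventually_nhdsWithin_iff]
    exact h

/-- the extension agrees with every local meromorphic continuation of `c` -/
theorem ext_eventuallyEq (G : CutGeometry) (c g : ℂ → ℂ) (a : ℂ) (hg : MeromorphicAt g a)
    (h : ∀ᶠ z in 𝓝[≠] a, z ∈ G.U₀ → g z = c z) : ext G c =ᶠ[𝓝[≠] a] g := by
  filter_upwards [hg.eventually_analyticAt, eventually_eventually_punctured h] with z hz1 hz2
  exact ext_eq_of_continuousAt G c g z hz1.continuousAt hz2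

/-! ### Infinity -/

theorem ext_inf (G : CutGeometry) (c K : ℂ → ℂ) (hK : MeromorphicAt K 0)
    (h : ∀ᶠ w in 𝓝[≠] (0 : ℂ), G.z₀ + w⁻¹ ∈ G.U₀ → K w = c (G.z₀ + w⁻¹)) :
    ∀ᶠ w in 𝓝[≠] (0 : ℂ), ext G c (G.z₀ + w⁻¹) = K w := by
  filter_upwards [hK.eventually_analyticAt, eventually_eventually_punctured h,
    self_mem_nhdsWithin] with w hw1 hw2 hw0
  have hw0' : w ≠ 0 := hw0
  have hφw : (G.z₀ + w⁻¹ - G.z₀)⁻¹ = w := by simp
  have hφ : ContinuousAt (fun z : ℂ => (z - G.z₀)⁻¹) (G.z₀ + w⁻¹) := by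
    apply ContinuousAt.inv₀ (by fun_prop)
    simpa using hw0'
  have hg : ContinuousAt (fun z : ℂ => K ((z - G.z₀)⁻¹)) (G.z₀ + w⁻¹) := by
    apply ContinuousAt.comp (g := K) (f := fun z : ℂ => (z - G.z₀)⁻¹)
    · rw [hφw]
      exact hw1.continuousAt
    · exact hφ
  have h2 : ∀ᶠ z in 𝓝 (G.z₀ + w⁻¹), z ∈ G.U₀ → K ((z - G.z₀)⁻¹) = c z := by
    have h3 : Tendsto (fun z : ℂ => (z - G.z₀)⁻¹) (𝓝 (G.z₀ + w⁻¹)) (𝓝 w) := by
      have := hφ.tendsto
      rwa [hφw] at this
    have h4 := h3.eventually hw2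
    filter_upwards [h4] with z hz hzU
    have h5 : G.z₀ + ((z - G.z₀)⁻¹)⁻¹ = z := by simp
    have h6 := hz (by rwa [h5])
    rw [h6, h5]
  rw [ext_eq_of_continuousAt G c _ _ hg h2, hφw]

/-- the extension is meromorphic at `∞` -/
theorem meromorphicAt_ext_inv (G : CutGeometry) (c K : ℂ → ℂ) (hK : MeromorphicAt K 0)
    (h : ∀ᶠ w in 𝓝[≠] (0 : ℂ), G.z₀ + w⁻¹ ∈ G.U₀ → K w = c (G.z₀ + w⁻¹)) :
    MeromorphicAt (fun w => ext G c w⁻¹) 0 := by
  have h1 := ext_inf G c K hK h
  set ψ : ℂ → ℂ := fun w => w / (1 - G.z₀ * w) with hψdef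
  have hψ : AnalyticAt ℂ ψ 0 := by
    apply AnalyticAt.div analyticAt_id (by fun_prop)
    simp
  have hψ0 : ψ 0 = 0 := by simp [ψ]
  have hne : ∀ᶠ w in 𝓝[≠] (0 : ℂ), 1 - G.z₀ * w ≠ 0 := by
    have hc : ContinuousAt (fun w : ℂ => 1 - G.z₀ * w) 0 := by fun_prop
    exact nhdsWithin_le_nhds (hc.eventually_ne (by simp))
  have hT : Tendsto ψ (𝓝[≠] 0) (𝓝[≠] 0) := by
    rw [tendsto_nhdsWithin_iff]
    constructor
    · have := hψ.continuousAt.tendsto
      rw [hψ0] at this
      exact this.mono_left nhdsWithin_le_nhds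
    · filter_upwards [hne, self_mem_nhdsWithin] with w hw hw0
      have hw0' : w ≠ 0 := hw0
      exact div_ne_zero hw0' hw
  have h2 := hT.eventually h1
  have hKψ : MeromorphicAt (K ∘ ψ) 0 := MeromorphicAt.comp_analyticAt (by rwa [hψ0]) hψ
  refine hKψ.congr ?_
  filter_upwards [h2, hne, self_mem_nhdsWithin] with w hw hw1 hw0
  have hw0' : w ≠ 0 := hw0
  have h3 : G.z₀ + (ψ w)⁻¹ = w⁻¹ := by
    simp only [hψdef]
    field_simp
    ring
  rw [h3] at hw
  simp [Function.comp, hw]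

/-! ### Bad points -/

theorem norm_unitDir {z₀ b : ℂ} (hb : b ≠ z₀) : ‖unitDir z₀ b‖ = 1 := by
  unfold unitDir
  have h1 : (0 : ℝ) < ‖b - z₀‖ := norm_pos_iff.2 (sub_ne_zero.2 hb)
  rw [norm_div, Complex.norm_real, Real.norm_eq_abs, abs_of_pos h1, div_self h1.ne']

/-- continuation to a bad point -/
theorem exists_cont_bad (G : CutGeometry) (c : ℂ → ℂ) (i : Fin G.r) (E : ℕ) (K : ℂ → ℂ)
    (hE : 0 < E) (hK : MeromorphicAt K 0)
    (h : ∀ᶠ s in 𝓝[≠] (0 : ℂ), G.b i + s ^ E * unitDir G.z₀ (G.b i) ∈ G.U₀ →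
      K s = c (G.b i + s ^ E * unitDir G.z₀ (G.b i))) :
    ∃ g : ℂ → ℂ, MeromorphicAt g (G.b i) ∧ ∀ᶠ z in 𝓝[≠] (G.b i), z ∈ G.U₀ → g z = c z := by
  set u := unitDir G.z₀ (G.b i) with hu
  have hu0 : u ≠ 0 := unitDir_ne_zero (G.b_ne i)
  have hu1 : ‖u‖ = 1 := norm_unitDir (G.b_ne i)
  set ζ : ℂ := Complex.exp (2 * Real.pi * Complex.I / E) with hζ
  have hζp : IsPrimitiveRoot ζ E := Complex.isPrimitiveRoot_exp E hE.ne'
  have hζE : ζ ^ E = 1 := hζp.pow_eq_one
  have hζ1 : ‖ζ‖ = 1 := Complex.norm_eq_one_of_pow_eq_one hζE hE.ne'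
  have hζ0 : ζ ≠ 0 := by
    intro h0
    rw [h0] at hζ1
    simp at hζ1
  -- a ball on which `K` represents `c`
  obtain ⟨ε, hε, hball⟩ := Metric.eventually_nhds_iff_ball.1 (eventually_nhdsWithin_iff.1 h)
  set S : Set ℂ := {s | s ∈ Metric.ball (0 : ℂ) ε ∧ s ≠ 0 ∧ G.b i + s ^ E * u ∈ G.U₀} with hS
  have hSo : IsOpen S := by
    have h1 : IsOpen (Metric.ball (0 : ℂ) ε) := Metric.isOpen_ball
    have h2 : IsOpen {s : ℂ | s ≠ 0} := isOpen_ne
    have h3 : IsOpen {s : ℂ | G.b i + s ^ E * u ∈ G.U₀} :=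
      (CutGeom.isOpen_U₀ G).preimage (by fun_prop : Continuous fun s : ℂ => G.b i + s ^ E * u)
    exact h1.inter (h2.inter h3)
  have hKS : ∀ s ∈ S, K s = c (G.b i + s ^ E * u) := fun s hs => hball s hs.1 hs.2.1 hs.2.2
  -- invariance
  have hinv : (fun s => K (ζ * s)) =ᶠ[𝓝[≠] (0 : ℂ)] K := by
    refine eventuallyEq_of_open (E := fun s => c (G.b i + s ^ E * u)) hSo ?_ ?_ hK ?_ ?_
    · have hE' : (0 : ℝ) < E := by exact_mod_cast hE
      have hlt : 2 * Real.pi * ((0 : ℕ) : ℝ) / E < 2 * Real.pi * (((0 : ℕ) : ℝ) + 1) / E := by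
        apply div_lt_div_of_pos_right _ hE'
        have := Real.pi_pos
        simp only [Nat.cast_zero, mul_zero, zero_add, mul_one]
        positivity
      have h1 := frequently_mem_sector_zero hlt
      have h2 := eventually_mem_U₀_of_sector G i hE
      have h3 : ∀ᶠ s in 𝓝[≠] (0 : ℂ), s ∈ Metric.ball (0 : ℂ) ε :=
        nhdsWithin_le_nhds (Metric.ball_mem_nhds _ hε)
      have h4 : ∀ᶠ s in 𝓝[≠] (0 : ℂ), s ≠ 0 := self_mem_nhdsWithin
      refine (h1.and_eventually (h2.and (h3.and h4))).mono ?_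
      rintro s ⟨hs1, hs2, hs3, hs4⟩
      exact ⟨hs3, hs4, hs2 ⟨0, hs1⟩⟩
    · have : MeromorphicAt (K ∘ fun s : ℂ => ζ * s) 0 := by
        apply MeromorphicAt.comp_analyticAt
        · simpa using hK
        · fun_prop
      exact this
    · refine Eventually.of_forall fun s hs => ?_
      have h1 : ζ * s ∈ S := by
        refine ⟨?_, mul_ne_zero hζ0 hs.2.1, ?_⟩
        · have := hs.1
          simp only [Metric.mem_ball, dist_zero_right] at this ⊢
          rwa [norm_mul, hζ1, one_mul]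
        · rw [mul_pow, hζE, one_mul]
          exact hs.2.2
      have h2 := hKS _ h1
      rw [mul_pow, hζE, one_mul] at h2
      exact h2
    · intro z hz
      have h1 : ∀ᶠ w in 𝓝 z, w ∈ S := hSo.mem_nhds hz
      filter_upwards [nhdsWithin_le_nhds h1] with w hw
      exact (hKS w hw).symm
  obtain ⟨g, hg, hgK⟩ := helper60.exists_meromorphicAt_comp_pow E hE K hK hinv
  obtain ⟨ε₂, hε₂, hball₂⟩ := Metric.eventually_nhds_iff_ball.1 (eventually_nhdsWithin_iff.1 hgK)
  refine ⟨fun z => g ((z - G.b i) / u), ?_, ?_⟩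
  · have : MeromorphicAt (g ∘ fun z : ℂ => (z - G.b i) / u) (G.b i) := by
      apply MeromorphicAt.comp_analyticAt
      · simpa using hg
      · fun_prop
    exact this
  · set δ := min ε ε₂ with hδ
    have hδ0 : 0 < δ := lt_min hε hε₂
    have hδE : 0 < δ ^ E := pow_pos hδ0 E
    have hnear : ∀ᶠ z in 𝓝[≠] (G.b i), z ∈ Metric.ball (G.b i) (δ ^ E) :=
      nhdsWithin_le_nhds (Metric.ball_mem_nhds _ hδE)
    filter_upwards [hnear, self_mem_nhdsWithin] with z hz1 hz0 hzU
    have hz0' : z ≠ G.b i := hz0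
    obtain ⟨s, hs⟩ := IsAlgClosed.exists_pow_nat_eq ((z - G.b i) / u) hE
    have hs0 : s ≠ 0 := by
      rintro rfl
      rw [zero_pow hE.ne'] at hs
      exact div_ne_zero (sub_ne_zero.2 hz0') hu0 hs.symm
    have hsn : ‖s‖ < δ := by
      apply lt_of_pow_lt_pow_left₀ E hδ0.le
      rw [← norm_pow, hs, norm_div, hu1, div_one]
      simpa [Metric.mem_ball, dist_eq_norm] using hz1
    have hzs : G.b i + s ^ E * u = z := by
      rw [hs]
      field_simp
      ring
    have h1 : K s = g (s ^ E) :=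
      hball₂ s (by simpa [Metric.mem_ball] using lt_of_lt_of_le hsn (min_le_right _ _)) hs0
    have h2 : K s = c (G.b i + s ^ E * u) :=
      hball s (by simpa [Metric.mem_ball] using lt_of_lt_of_le hsn (min_le_left _ _)) hs0
        (by rw [hzs]; exact hzU)
    rw [hzs] at h2
    rw [← h2, h1, hs]

end Rat

/-! ### The statement -/

/-- **[MOD-RAT]** -/
theorem ratStatement : RatStatement := by
  intro G c hc hray hbad hinf
  have hloc : ∀ a, ∃ g : ℂ → ℂ, MeromorphicAt g a ∧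
      ∀ᶠ z in 𝓝[≠] a, z ∈ G.U₀ → g z = c z := by
    intro a
    by_cases ha : a ∈ G.U₀
    · exact ⟨c, hc a ha, Eventually.of_forall fun _ _ => rfl⟩
    · obtain ⟨i, hi⟩ : ∃ i, a ∈ ray G.z₀ (G.b i) := by
        by_contra h
        exact ha fun i hi => h ⟨i, hi⟩
      by_cases hab : a = G.b i
      · subst hab
        obtain ⟨E, K, hE, hK, h⟩ := hbad i
        exact Rat.exists_cont_bad G c i E K hE hK h
      · have hopen : a ∈ openRay G.z₀ (G.b i) := by
          obtain ⟨s, hs, rfl⟩ := hi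
          refine ⟨s, lt_of_le_of_ne hs ?_, rfl⟩
          rintro rfl
          apply hab
          simp
        obtain ⟨g, hg, hl, hr⟩ := hray i a hopen
        refine ⟨g, hg, ?_⟩
        filter_upwards [hl, hr, nhdsWithin_le_nhds (eventually_mem_U₀_iff G i hopen)]
          with z h1 h2 h3 hz
        rcases h3.1 hz with h | h
        · exact h1 h
        · exact h2 h
  have hmero : ∀ a, MeromorphicAt (Rat.ext G c) a := by
    intro a
    obtain ⟨g, hg, h⟩ := hloc a
    exact hg.congr (Rat.ext_eventuallyEq G c g a hg h).symm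
  obtain ⟨K, hK, h⟩ := hinf
  obtain ⟨p, q, hq, hpq⟩ := helper54.exists_ratFunc_of_meromorphic (Rat.ext G c) hmero
    (Rat.meromorphicAt_ext_inv G c K hK h)
  refine ⟨p, q, hq, fun z hz => ?_⟩
  have h1 : Rat.ext G c =ᶠ[𝓝[≠] z] c :=
    Rat.ext_eventuallyEq G c c z (hc z hz) (Eventually.of_forall fun _ _ => rfl)
  exact h1.symm.trans (hpq z)

end Fermat.Agent.P5.helper37
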