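import Mathlib
import Fermat.Prelude.Def_AlgebraicCurve_Repartitions
import Fermat.Agent.P2.helper74_NonSpecial
import Fermat.Agent.P5.helper42_RRDefs
import Fermat.Agent.P5.helper42_RRLoc

/-!
# P5 / RR-DUAL part 1 (helper42): Weil differentials

Adele basics and the space `weil A` of `K`-linear functionals on the adeles (`repartitions`)
vanishing on `𝒜(A) + F`; its dimension is the index of speciality (`H1Statement`), and any two
nonzero Weil differentials differ by a factor in `F` (Stichtenoth 1.5.9).
-/

set_option autoImplicit false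

namespace Fermat.Agent.P5.helper42

open AlgebraicCurve Fermat.Agent.P2.helper74

universe u v

variable {K : Type u} {F : Type v} [Field K] [Field F] [Algebra K F]

/-! ### Adele basics -/

theorem finite_poles_const (hP : HasPrincipalDivisors K F) (f : F) :
    {v : Place K F | v.ord f < 0}.Finite := by
  rcases eq_or_ne f 0 with rfl | hf
  · refine Set.Finite.subset Set.finite_empty fun v hv => ?_
    simp at hv
  · obtain ⟨D, hD, -⟩ := hP.exists_divisor f hf
    refine D.support.finite_toSet.subset fun v hv => ?_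
    rw [Finset.mem_coe, Finsupp.mem_support_iff, hD]
    exact ne_of_lt hv

theorem finite_zeros_const (hP : HasPrincipalDivisors K F) (f : F) :
    {v : Place K F | 0 < v.ord f}.Finite := by
  rcases eq_or_ne f 0 with rfl | hf
  · refine Set.Finite.subset Set.finite_empty fun v hv => ?_
    simp at hv
  · obtain ⟨D, hD, -⟩ := hP.exists_divisor f hf
    refine D.support.finite_toSet.subset fun v hv => ?_
    rw [Finset.mem_coe, Finsupp.mem_support_iff, hD]
    exact (ne_of_lt hv).symm

/-- Every adele has finitely many poles. -/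
theorem finite_poles_adele (hP : HasPrincipalDivisors K F) (α : ↥(repartitions K F)) :
    {v : Place K F | v.ord ((α : Place K F → F) v) < 0}.Finite := by
  have key : ∀ (a : Place K F → F), a ∈ repartitions K F →
      {v : Place K F | v.ord (a v) < 0}.Finite := by
    intro a ha
    unfold repartitions at ha
    induction ha using Algebra.adjoin_induction with
    | mem x hx =>
      refine Set.Finite.subset hx fun v hv => ?_
      exact (v.not_adicValuation_le_one_iff).mpr hv
    | algebraMap r => exact finite_poles_const hP r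
    | add x y _ _ hx hy =>
      refine (hx.union hy).subset fun v hv => ?_
      by_contra hcon
      simp only [Set.mem_union, Set.mem_ofPred_eq, not_or, not_lt] at hcon
      have := ord_add_nonneg v hcon.1 hcon.2
      have hv' : v.ord (x v + y v) < 0 := hv
      omega
    | mul x y _ _ hx hy =>
      refine (hx.union hy).subset fun v hv => ?_
      by_contra hcon
      simp only [Set.mem_union, Set.mem_ofPred_eq, not_or, not_lt] at hcon
      have := ord_mul_nonneg v hcon.1 hcon.2
      have hv' : v.ord (x v * y v) < 0 := hv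
      omega
  exact key α.1 α.2

/-- The adele with entry `f` at `v₀` and `0` elsewhere. -/
noncomputable def singleAdele (v₀ : Place K F) (f : F) : ↥(repartitions K F) :=
  ⟨fun v => by classical exact if v = v₀ then f else 0, by
    classical
    refine mem_repartitions_of_finite_ord ((Set.finite_singleton v₀).subset fun v hv => ?_)
    by_contra hne
    have hne' : v ≠ v₀ := hne
    simp only [Set.mem_ofPred_eq, if_neg hne', Place.ord_zero, lt_self_iff_false] at hv⟩

theorem singleAdele_apply_self (v₀ : Place K F) (f : F) :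
    ((singleAdele v₀ f : ↥(repartitions K F)) : Place K F → F) v₀ = f := by
  classical
  show (if v₀ = v₀ then f else 0) = f
  rw [if_pos rfl]

theorem singleAdele_apply_of_ne {v₀ v : Place K F} (h : v ≠ v₀) (f : F) :
    ((singleAdele v₀ f : ↥(repartitions K F)) : Place K F → F) v = 0 := by
  classical
  show (if v = v₀ then f else 0) = 0
  rw [if_neg h]

theorem coe_smul_adele (z : F) (α : ↥(repartitions K F)) (v : Place K F) :
    ((z • α : ↥(repartitions K F)) : Place K F → F) v = z * (α : Place K F → F) v := rfl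

theorem coe_const_smul_adele (c : K) (α : ↥(repartitions K F)) (v : Place K F) :
    ((c • α : ↥(repartitions K F)) : Place K F → F) v = c • (α : Place K F → F) v := rfl

theorem coe_add_adele (α β : ↥(repartitions K F)) (v : Place K F) :
    ((α + β : ↥(repartitions K F)) : Place K F → F) v
      = (α : Place K F → F) v + (β : Place K F → F) v := rfl

/-! ### Weil differentials -/

/-- The functionals on the adeles vanishing on `𝒜(A) + F`. -/
noncomputable def weil (A : Divisor K F) : Submodule K (Module.Dual K ↥(repartitions K F)) :=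
  (repartitionsOf A ⊔ principalRepartitions K F).dualAnnihilator

theorem mem_weil_iff {A : Divisor K F} {ψ : Module.Dual K ↥(repartitions K F)} :
    ψ ∈ weil A ↔ (∀ α ∈ repartitionsOf A, ψ α = 0) ∧
      ∀ β ∈ principalRepartitions K F, ψ β = 0 := by
  unfold weil
  rw [Submodule.mem_dualAnnihilator]
  constructor
  · intro h
    exact ⟨fun α hα => h α (Submodule.mem_sup_left hα),
      fun β hβ => h β (Submodule.mem_sup_right hβ)⟩
  · rintro ⟨h1, h2⟩ w hw
    obtain ⟨a, ha, b, hb, rfl⟩ := Submodule.mem_sup.mp hw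
    rw [map_add, h1 a ha, h2 b hb, add_zero]

/-- `weil A` is the dual of `H1 A`. -/
noncomputable def weilEquiv (A : Divisor K F) : Module.Dual K (H1 A) ≃ₗ[K] weil A :=
  Submodule.dualQuotEquivDualAnnihilator _

theorem finrank_weil (h1 : H1Statement.{u, v}) (hS : RiemannSetting K F) {g : ℕ}
    (hg : ∃ c : ℤ, ∀ D : Divisor K F, c ≤ Divisor.degree D →
      (ell D : ℤ) + g = Divisor.degree D + 1) (A : Divisor K F) :
    Module.Finite K (weil A) ∧
      (Module.finrank K (weil A) : ℤ) = ell A - Divisor.degree A + g - 1 := by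
  obtain ⟨hfin, hrank⟩ := h1 K F hS g hg A
  have hfd : Module.Finite K (Module.Dual K (H1 A)) := inferInstance
  refine ⟨Module.Finite.equiv (weilEquiv A), ?_⟩
  rw [← (weilEquiv A).finrank_eq, Subspace.dual_finrank_eq]
  exact hrank

/-- The action of `F` on functionals: `(z • ψ) α = ψ (z α)`. -/
noncomputable def actDual (ψ : Module.Dual K ↥(repartitions K F)) :
    F →ₗ[K] Module.Dual K ↥(repartitions K F) where
  toFun z := ψ ∘ₗ Tate.mulEnd K F z
  map_add' z z' := by
    ext α
    simp only [LinearMap.coe_comp, Function.comp_apply, Tate.mulEnd_apply, LinearMap.add_apply]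
    rw [add_smul, map_add]
  map_smul' c z := by
    ext α
    simp only [LinearMap.coe_comp, Function.comp_apply, Tate.mulEnd_apply, LinearMap.smul_apply,
      RingHom.id_apply]
    rw [smul_assoc, map_smul]

@[simp] theorem actDual_apply (ψ : Module.Dual K ↥(repartitions K F)) (z : F)
    (α : ↥(repartitions K F)) : actDual ψ z α = ψ (z • α) := rfl

theorem actDual_actDual (ψ : Module.Dual K ↥(repartitions K F)) (z z' : F) :
    actDual (actDual ψ z) z' = actDual ψ (z * z') := by
  ext α
  rw [actDual_apply, actDual_apply, actDual_apply, smul_smul]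

theorem actDual_one (ψ : Module.Dual K ↥(repartitions K F)) : actDual ψ 1 = ψ := by
  ext α
  rw [actDual_apply, one_smul]

theorem actDual_injective {ψ : Module.Dual K ↥(repartitions K F)} (hψ : ψ ≠ 0) :
    Function.Injective (actDual ψ) := by
  rw [injective_iff_map_eq_zero]
  intro z hz
  by_contra hz0
  apply hψ
  have := actDual_actDual ψ z z⁻¹
  rw [hz, mul_inv_cancel₀ hz0, actDual_one] at this
  rw [← this]
  ext α
  rfl

/-- `L(E) • weil A ⊆ weil (A - E)`. -/
theorem actDual_mem_weil {A E : Divisor K F} {ψ : Module.Dual K ↥(repartitions K F)}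
    (hψ : ψ ∈ weil A) {z : F} (hz : z ∈ riemannRochSpace E) : actDual ψ z ∈ weil (A - E) := by
  rw [mem_weil_iff] at hψ ⊢
  refine ⟨fun α hα => hψ.1 _ ?_, fun β hβ => hψ.2 _ ?_⟩
  · rw [mem_repartitionsOf_iff] at hα ⊢
    intro v
    rw [Tate.mulEnd_apply, coe_smul_adele]
    rcases eq_or_ne z 0 with rfl | hz0
    · left; rw [zero_mul]
    by_cases h0 : (α : Place K F → F) v = 0
    · left; rw [h0, mul_zero]
    · right
      have h := (hα v).resolve_left h0
      rw [v.ord_mul hz0 h0]
      have := (mem_L_iff' hz0).mp hz v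
      rw [Finsupp.sub_apply] at h
      linarith
  · rw [mem_principalRepartitions_iff] at hβ ⊢
    obtain ⟨f, hf⟩ := hβ
    exact ⟨z * f, funext fun v => by rw [Tate.mulEnd_apply, coe_smul_adele, hf]⟩

theorem actDual_zero_right (ψ : Module.Dual K ↥(repartitions K F)) : actDual ψ 0 = 0 :=
  map_zero _

/-- **Weil differentials form a one-dimensional `F`-space** (Stichtenoth 1.5.9): two nonzero
Weil differentials differ by a factor in `F`. -/
theorem exists_actDual_eq (h1 : H1Statement.{u, v}) (hS : RiemannSetting K F) {g : ℕ} {c : ℤ}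
    (hc : ∀ D : Divisor K F, c ≤ Divisor.degree D → (ell D : ℤ) + g = Divisor.degree D + 1)
    {A₁ A₂ : Divisor K F} {ψ₁ ψ₂ : Module.Dual K ↥(repartitions K F)}
    (h₁ : ψ₁ ∈ weil A₁) (h₂ : ψ₂ ∈ weil A₂) (hψ₁ : ψ₁ ≠ 0) (hψ₂ : ψ₂ ≠ 0) :
    ∃ f : F, f ≠ 0 ∧ ψ₂ = actDual ψ₁ f := by
  obtain ⟨P₀⟩ := hS.nonempty
  set n : ℕ := (max 1 (3 * (g : ℤ) - Divisor.degree A₁ - Divisor.degree A₂)).toNat with hn
  have hn1 : (1 : ℤ) ≤ n := by
    rw [hn, Int.toNat_of_nonneg (le_trans zero_le_one (le_max_left _ _))]
    exact le_max_left _ _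
  have hn2 : 3 * (g : ℤ) - Divisor.degree A₁ - Divisor.degree A₂ ≤ n := by
    rw [hn, Int.toNat_of_nonneg (le_trans zero_le_one (le_max_left _ _))]
    exact le_max_right _ _
  set B : Divisor K F := Finsupp.single P₀ (n : ℤ) with hB
  have hdegB : Divisor.degree B = n := by
    rw [hB, Divisor.degree_single, hS.deg_one]
    simp
  have hfd₁ := finiteDimensional_L hS (A₁ + B)
  have hfd₂ := finiteDimensional_L hS (A₂ + B)
  set R₁ := (riemannRochSpace (A₁ + B)).map (actDual ψ₁) with hR₁
  set R₂ := (riemannRochSpace (A₂ + B)).map (actDual ψ₂) with hR₂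
  have hR₁le : R₁ ≤ weil (-B) := by
    rintro _ ⟨y, hy, rfl⟩
    have := actDual_mem_weil h₁ hy
    rwa [sub_add_cancel_left] at this
  have hR₂le : R₂ ≤ weil (-B) := by
    rintro _ ⟨y, hy, rfl⟩
    have := actDual_mem_weil h₂ hy
    rwa [sub_add_cancel_left] at this
  have hr₁ : Module.finrank K R₁ = ell (A₁ + B) :=
    (Submodule.equivMapOfInjective (actDual ψ₁) (actDual_injective hψ₁) _).finrank_eq.symm
  have hr₂ : Module.finrank K R₂ = ell (A₂ + B) :=
    (Submodule.equivMapOfInjective (actDual ψ₂) (actDual_injective hψ₂) _).finrank_eq.symm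
  have hi₁ := riemann_ineq_of_eq hS hc (A₁ + B)
  have hi₂ := riemann_ineq_of_eq hS hc (A₂ + B)
  rw [map_add, hdegB] at hi₁ hi₂
  obtain ⟨hWfin, hWrank⟩ := finrank_weil h1 hS ⟨c, hc⟩ (-B)
  have hellB : ell (-B) = 0 := by
    unfold ell
    rw [L_eq_bot_of_degree_neg hS (by rw [map_neg, hdegB]; omega)]
    exact finrank_bot K F
  rw [hellB, map_neg, hdegB] at hWrank
  have hsup : Module.finrank K ↥(R₁ ⊔ R₂) ≤ Module.finrank K (weil (-B)) :=
    Submodule.finrank_mono (sup_le hR₁le hR₂le)
  have hadd := Submodule.finrank_sup_add_finrank_inf_eq R₁ R₂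
  have hpos : 0 < Module.finrank K ↥(R₁ ⊓ R₂) := by
    have e1 : (Module.finrank K ↥(R₁ ⊔ R₂) : ℤ) + Module.finrank K ↥(R₁ ⊓ R₂)
        = ell (A₁ + B) + ell (A₂ + B) := by
      rw [← hr₁, ← hr₂]
      exact_mod_cast hadd
    have e2 : (Module.finrank K ↥(R₁ ⊔ R₂) : ℤ) ≤ Module.finrank K (weil (-B)) := by
      exact_mod_cast hsup
    have : (0 : ℤ) < Module.finrank K ↥(R₁ ⊓ R₂) := by
      push_cast at hWrank
      linarith
    exact_mod_cast this
  have hne : R₁ ⊓ R₂ ≠ ⊥ := by
    intro h
    rw [h, finrank_bot] at hpos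
    exact lt_irrefl _ hpos
  obtain ⟨ξ, hξ, hξ0'⟩ := (Submodule.ne_bot_iff _).mp hne
  obtain ⟨⟨y, -, hy⟩, ⟨z, -, hz⟩⟩ := Submodule.mem_inf.mp hξ
  have hz0 : z ≠ 0 := by
    rintro rfl
    rw [actDual_zero_right] at hz
    exact hξ0' hz.symm
  have hy0 : y ≠ 0 := by
    rintro rfl
    rw [actDual_zero_right] at hy
    exact hξ0' hy.symm
  refine ⟨y * z⁻¹, mul_ne_zero hy0 (inv_ne_zero hz0), ?_⟩
  rw [← actDual_actDual, hy, ← hz, actDual_actDual, mul_inv_cancel₀ hz0, actDual_one]

end Fermat.Agent.P5.helper42
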