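import Mathlib
import Fermat.Agent.P5.helper42_Weil
import Fermat.Agent.P2.helper74_RiemannChar0

/-!
# P5 / RR-DUAL (helper42): the Riemann-Roch theorem for Kähler differentials

`rrFull_of_residue : ResidueStatement → H1Statement → RRFullStatement`.

The residue pairing `pairing ω α = ∑_v res_v (α_v ω)` realises Kähler differentials as Weil
differentials; the divisor of `pairing ω` is the divisor of `ω`; since Weil differentials form a
one-dimensional `F`-space (`exists_actDual_eq`) the map `L(W - A) → weil A`, `f ↦ pairing (f ω₀)`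
is bijective, which is the Riemann-Roch theorem.
-/

set_option autoImplicit false

namespace Fermat.Agent.P5.helper42

open AlgebraicCurve KaehlerDifferential IntermediateField Fermat.Agent.P2.helper74

universe u v

section Pairing

variable {K : Type u} {F : Type v} [Field K] [Field F] [Algebra K F]
  (hL : LocalSetting K F) (hP : HasPrincipalDivisors K F)
  (hpoles : ∀ ω : Ω[F⁄K], {v : Place K F | v.ordDifferential ω < 0}.Finite)
  {res : Place K F → (Ω[F⁄K] →ₗ[K] K)} (hres : IsResidueSystem res)

include hres in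
/-- The residue of a differential with a logarithmic pole. -/
theorem res_eq_of_logPoleK' {v : Place K F} {τ : Ω[F⁄K]} {a : K} {t : F} (ht : v.ord t = 1)
    (h : 0 ≤ v.ordDifferential (τ - a • (t⁻¹ • D K F t))) : res v τ = a := by
  have h1 := hres.1 v _ h
  rw [map_sub, map_smul, hres.2.1 v t ht, smul_eq_mul, mul_one, sub_eq_zero] at h1
  exact h1

include hL hres in
theorem res_smul_eq_zero {v : Place K F} {ω : Ω[F⁄K]} {a : F} (ha : 0 ≤ v.ord a)
    (hω : 0 ≤ v.ordDifferential ω) : res v (a • ω) = 0 :=
  hres.1 v _ (regular_smul hL v ha hω)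

include hL hP hpoles hres in
theorem support_pairing_finite (ω : Ω[F⁄K]) (α : ↥(repartitions K F)) :
    (Function.support fun v => res v ((α : Place K F → F) v • ω)).Finite := by
  refine ((finite_poles_adele hP α).union (hpoles ω)).subset fun v hv => ?_
  rw [Function.mem_support] at hv
  by_contra hcon
  simp only [Set.mem_union, Set.mem_ofPred_eq, not_or, not_lt] at hcon
  exact hv (res_smul_eq_zero hL hres hcon.1 hcon.2)

/-- The residue pairing. -/
noncomputable def pairing (ω : Ω[F⁄K]) : Module.Dual K ↥(repartitions K F) where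
  toFun α := ∑ᶠ v, res v ((α : Place K F → F) v • ω)
  map_add' α β := by
    rw [← finsum_add_distrib (support_pairing_finite hL hP hpoles hres ω α)
      (support_pairing_finite hL hP hpoles hres ω β)]
    refine finsum_congr fun v => ?_
    rw [coe_add_adele, add_smul, map_add]
  map_smul' c α := by
    rw [RingHom.id_apply, smul_eq_mul, mul_finsum]
    refine finsum_congr fun v => ?_
    rw [coe_const_smul_adele, smul_assoc, map_smul, smul_eq_mul]

theorem pairing_apply (ω : Ω[F⁄K]) (α : ↥(repartitions K F)) :
    pairing hL hP hpoles hres ω α = ∑ᶠ v, res v ((α : Place K F → F) v • ω) := rfl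

/-- `pairing (f ω) = f • pairing ω`. -/
theorem pairing_smul (f : F) (ω : Ω[F⁄K]) :
    pairing hL hP hpoles hres (f • ω) = actDual (pairing hL hP hpoles hres ω) f := by
  ext α
  rw [actDual_apply, pairing_apply, pairing_apply]
  refine finsum_congr fun v => ?_
  rw [coe_smul_adele, smul_smul, mul_comm]

/-- The pairing with `ω` vanishes on `𝒜(A) + F` if `A ≤ div ω`. -/
theorem pairing_mem_weil {ω : Ω[F⁄K]} (hω : ω ≠ 0) {A : Divisor K F}
    (hA : ∀ v, A v ≤ v.ordDifferential ω) : pairing hL hP hpoles hres ω ∈ weil A := by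
  rw [mem_weil_iff]
  refine ⟨fun α hα => ?_, fun β hβ => ?_⟩
  · rw [pairing_apply]
    refine finsum_eq_zero_of_forall_eq_zero fun v => ?_
    rw [mem_repartitionsOf_iff] at hα
    by_cases h0 : (α : Place K F → F) v = 0
    · rw [h0, zero_smul, map_zero]
    · have h := (hα v).resolve_left h0
      refine hres.1 v _ ?_
      rw [ordDifferential_smul_eq hL v h0 hω]
      have := hA v
      linarith
  · rw [mem_principalRepartitions_iff] at hβ
    obtain ⟨f, hf⟩ := hβ
    rw [pairing_apply]
    have := hres.2.2.2.2 (f • ω)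
    rw [← this]
    refine finsum_congr fun v => ?_
    rw [hf]

/-- If `A v₀ > ord_{v₀} ω`, the pairing with `ω` does not vanish on `𝒜(A)`. -/
theorem exists_pairing_ne_zero {ω : Ω[F⁄K]} (hω : ω ≠ 0) {A : Divisor K F} {v₀ : Place K F}
    (hA : v₀.ordDifferential ω < A v₀) :
    ∃ α ∈ repartitionsOf A, pairing hL hP hpoles hres ω α ≠ 0 := by
  obtain ⟨t, ht⟩ := exists_ord_eq_one v₀
  have ht0 := ne_zero_of_ord_eq_one v₀ ht
  set n : ℤ := v₀.ordDifferential ω with hn
  set a₀ : F := t ^ (-n - 1) with ha₀
  have ha₀0 : a₀ ≠ 0 := zpow_ne_zero _ ht0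
  have horda : v₀.ord a₀ = -n - 1 := by
    rw [ha₀, Place.ord_zpow, ht, mul_one]
  refine ⟨singleAdele v₀ a₀, ?_, ?_⟩
  · rw [mem_repartitionsOf_iff]
    intro v
    by_cases hv : v = v₀
    · subst hv
      right
      rw [singleAdele_apply_self, horda]
      omega
    · left
      exact singleAdele_apply_of_ne hv _
  · rw [pairing_apply, finsum_eq_single _ v₀ (fun v hv => by
      rw [singleAdele_apply_of_ne hv, zero_smul, map_zero]), singleAdele_apply_self]
    have hord : v₀.ordDifferential (a₀ • ω) = -1 := by
      rw [ordDifferential_smul_eq hL v₀ ha₀0 hω, horda]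
      omega
    obtain ⟨a, ha⟩ := exists_logPoleK hL v₀ (τ := a₀ • ω) (by rw [hord]) ht
    have ha0 : a ≠ 0 := logPoleK_ne_zero v₀ (by rw [hord]; norm_num) ha
    rw [res_eq_of_logPoleK' hres ht ha]
    exact ha0

theorem pairing_ne_zero (v₀ : Place K F) {ω : Ω[F⁄K]} (hω : ω ≠ 0) :
    pairing hL hP hpoles hres ω ≠ 0 := by
  classical
  obtain ⟨α, -, hα⟩ := exists_pairing_ne_zero hL hP hpoles hres hω
    (A := Finsupp.single v₀ (v₀.ordDifferential ω + 1)) (v₀ := v₀)
    (by rw [Finsupp.single_eq_same]; omega)
  intro h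
  rw [h] at hα
  exact hα rfl

/-- The divisor of `pairing ω` is the divisor of `ω`. -/
theorem le_ordDifferential_of_pairing_mem_weil {ω : Ω[F⁄K]} (hω : ω ≠ 0) {A : Divisor K F}
    (h : pairing hL hP hpoles hres ω ∈ weil A) (v : Place K F) : A v ≤ v.ordDifferential ω := by
  by_contra hcon
  rw [not_le] at hcon
  obtain ⟨α, hα, hne⟩ := exists_pairing_ne_zero hL hP hpoles hres hω hcon
  exact hne ((mem_weil_iff.mp h).1 α hα)

end Pairing

section Main

variable {K : Type u} {F : Type v} [Field K] [Field F] [Algebra K F]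
  (h1 : H1Statement.{u, v}) (hL : LocalSetting K F) (hS : RiemannSetting K F)
  (hpoles : ∀ ω : Ω[F⁄K], {v : Place K F | v.ordDifferential ω < 0}.Finite)
  {res : Place K F → (Ω[F⁄K] →ₗ[K] K)} (hres : IsResidueSystem res)
  {g : ℕ} {c : ℤ}
  (hc : ∀ D : Divisor K F, c ≤ Divisor.degree D → (ell D : ℤ) + g = Divisor.degree D + 1)

include h1 hL hS hpoles hres hc in
/-- A nonzero differential has finitely many zeros. -/
theorem finite_zeros_diff {ω : Ω[F⁄K]} (hω : ω ≠ 0) :
    {v : Place K F | 0 < v.ordDifferential ω}.Finite := by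
  classical
  by_contra hinf
  have hinf' : {v : Place K F | 0 < v.ordDifferential ω}.Infinite := hinf
  obtain ⟨v₀⟩ := hS.nonempty
  have hsuppP : (Function.support fun v : Place K F => min (v.ordDifferential ω) 0).Finite := by
    refine (hpoles ω).subset fun v hv => ?_
    rw [Function.mem_support] at hv
    show v.ordDifferential ω < 0
    by_contra h
    exact hv (min_eq_right (not_lt.mp h))
  set Dp : Divisor K F := Finsupp.ofSupportFinite _ hsuppP with hDpdef
  have hDp : ∀ v, Dp v = min (v.ordDifferential ω) 0 := fun v => rfl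
  set N : ℕ := (c - Divisor.degree Dp).toNat with hN
  obtain ⟨T, hTsub, hTcard⟩ := hinf'.exists_subset_card_eq N
  set A : Divisor K F := Dp + sumSingle T with hA
  have hAle : ∀ v, A v ≤ v.ordDifferential ω := by
    intro v
    rw [hA, Finsupp.add_apply, hDp, sumSingle_apply]
    split_ifs with hv
    · have h0 : 0 < v.ordDifferential ω := hTsub hv
      rw [min_eq_right h0.le]
      omega
    · rw [add_zero]
      exact min_le_left _ _
  have hmem := pairing_mem_weil hL hS.principal hpoles hres hω hAle
  have hne := pairing_ne_zero hL hS.principal hpoles hres v₀ hω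
  obtain ⟨hfin, hrank⟩ := finrank_weil h1 hS ⟨c, hc⟩ A
  have hdeg : Divisor.degree A = Divisor.degree Dp + N := by
    rw [hA, map_add, degree_sumSingle hS, hTcard]
  have hcA : c ≤ Divisor.degree A := by
    rw [hdeg]
    have := Int.self_le_toNat (c - Divisor.degree Dp)
    omega
  have hcA' := hc A hcA
  have h0 : Module.finrank K (weil A) = 0 := by
    have : (Module.finrank K (weil A) : ℤ) = 0 := by linarith
    exact_mod_cast this
  have hbot : weil A = ⊥ := Submodule.finrank_eq_zero.mp h0
  rw [hbot, Submodule.mem_bot] at hmem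
  exact hne hmem

include h1 hL hS hpoles hres hc in
/-- **Riemann-Roch** for the divisor of a Kähler differential. -/
theorem rr_of_residue {ω₀ : Ω[F⁄K]} (hω₀ : ω₀ ≠ 0) :
    ∃ W : Divisor K F, (∀ v, W v = v.ordDifferential ω₀) ∧
      ∀ A : Divisor K F, (ell A : ℤ) = Divisor.degree A + 1 - g + ell (W - A) := by
  classical
  obtain ⟨v₀⟩ := hS.nonempty
  have hsupp : (Function.support fun v : Place K F => v.ordDifferential ω₀).Finite := by
    refine ((hpoles ω₀).union (finite_zeros_diff h1 hL hS hpoles hres hc hω₀)).subset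
      fun v hv => ?_
    rw [Function.mem_support] at hv
    rcases lt_trichotomy (v.ordDifferential ω₀) 0 with h | h | h
    · exact Or.inl h
    · exact absurd h hv
    · exact Or.inr h
  set W : Divisor K F := Finsupp.ofSupportFinite _ hsupp with hWdef
  have hW : ∀ v, W v = v.ordDifferential ω₀ := fun v => rfl
  refine ⟨W, hW, fun A => ?_⟩
  set ψ₀ := pairing hL hS.principal hpoles hres ω₀ with hψ₀
  have hψ₀W : ψ₀ ∈ weil W :=
    pairing_mem_weil hL hS.principal hpoles hres hω₀ (fun v => (hW v).le)
  have hψ₀ne : ψ₀ ≠ 0 := pairing_ne_zero hL hS.principal hpoles hres v₀ hω₀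
  have himg : (riemannRochSpace (W - A)).map (actDual ψ₀) = weil A := by
    apply le_antisymm
    · rintro _ ⟨z, hz, rfl⟩
      have := actDual_mem_weil hψ₀W hz
      rwa [sub_sub_cancel] at this
    · intro ψ hψ
      rcases eq_or_ne ψ 0 with rfl | hψne
      · exact zero_mem _
      obtain ⟨f, hf0, hf⟩ := exists_actDual_eq h1 hS hc hψ₀W hψ hψ₀ne hψne
      refine ⟨f, ?_, hf.symm⟩
      rw [SetLike.mem_coe, mem_L_iff' hf0]
      intro v
      have hfω : f • ω₀ ≠ 0 := smul_ne_zero hf0 hω₀
      have hmem : pairing hL hS.principal hpoles hres (f • ω₀) ∈ weil A := by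
        rw [pairing_smul, ← hf]
        exact hψ
      have := le_ordDifferential_of_pairing_mem_weil hL hS.principal hpoles hres hfω hmem v
      rw [ordDifferential_smul_eq hL v hf0 hω₀, ← hW v] at this
      rw [Finsupp.sub_apply]
      linarith
  have hfdL := finiteDimensional_L hS (W - A)
  have hrank : Module.finrank K (weil A) = ell (W - A) := by
    rw [← himg]
    exact ((Submodule.equivMapOfInjective (actDual ψ₀)
      (actDual_injective hψ₀ne) _).finrank_eq).symm
  obtain ⟨-, hr⟩ := finrank_weil h1 hS ⟨c, hc⟩ A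
  rw [hrank] at hr
  linarith

end Main

/-- Every Kähler differential of a function field has finitely many poles. -/
theorem finite_poles_diff {K : Type u} {F : Type v} [Field K] [Field F] [Algebra K F]
    [IsAlgClosed K] [CharZero K] (x : F) (hx : Transcendental K x) [FiniteDimensional K⟮x⟯ F]
    (ω : Ω[F⁄K]) : {v : Place K F | v.ordDifferential ω < 0}.Finite := by
  have hL : LocalSetting K F := LocalSetting.of_ff x hx
  have hP := Fermat.Agent.S24.helper75.ff_hasPrincipalDivisors x hx
  have hxr : x ∉ Set.range (algebraMap K F) := by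
    rintro ⟨a, rfl⟩
    exact hx (isAlgebraic_algebraMap a)
  have hspan := Fermat.Agent.S24.helper82.ff_span_D_eq_top x hx x hxr
  obtain ⟨f, rfl⟩ : ∃ f : F, f • D K F x = ω :=
    Submodule.mem_span_singleton.mp (hspan ▸ Submodule.mem_top)
  refine ((finite_poles_const hP f).union (finite_poles_const hP x)).subset fun v hv => ?_
  by_contra hcon
  simp only [Set.mem_union, Set.mem_ofPred_eq, not_or, not_lt] at hcon
  have := regular_smul hL v hcon.1 (regular_D hL v hcon.2)
  exact absurd hv (not_lt.mpr this)

/-- **[RR-DUAL]** the Riemann-Roch theorem from the residue theorem and the index of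
speciality. -/
theorem rrFull_of_residue (hR : ResidueStatement.{u, v}) (h1 : H1Statement.{u, v}) :
    RRFullStatement.{u, v} := by
  intro K F _ _ _ _ _ x hx hfin g hg ω₀ hω₀
  obtain ⟨c, hc⟩ := hg
  have hL : LocalSetting K F := LocalSetting.of_ff x hx
  have hS : RiemannSetting K F := riemannSetting_charZero x hx
  obtain ⟨res, hres⟩ := hR K F x hx hfin
  exact rr_of_residue h1 hL hS (finite_poles_diff x hx) hres hc hω₀

end Fermat.Agent.P5.helper42
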