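import Mathlib
import Fermat.Agent.P5.helper42_RRCon
import Fermat.Agent.P5.helper42_RRGenus

/-!
# P5 / RR (helper42): the degree of the canonical divisor

`canonDeg_of_full` is `Fermat.Agent.P5.helper4.CanonDegStatement` (unfolded): the divisor of a
nonzero Kähler differential has degree `2 genusFF - 2`; also the general-field versions.
-/

set_option autoImplicit false

namespace Fermat.Agent.P5.helper42

open AlgebraicCurve KaehlerDifferential IntermediateField
open Fermat.Agent.P2.helper74

universe u v

section General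

variable {K : Type u} {F : Type v} [Field K] [Field F] [Algebra K F]

/-- `ℓ(W) = g` for the divisor `W` of a differential. -/
theorem ell_canonical' (hS : RiemannSetting K F) {g : ℕ} {W : Divisor K F}
    (hRR : ∀ A : Divisor K F, (ell A : ℤ) = Divisor.degree A + 1 - g + ell (W - A)) :
    ell W = g := by
  have h := hRR 0
  rw [ell_zero hS, map_zero, sub_zero] at h
  have : (ell W : ℤ) = g := by push_cast at h; linarith
  exact_mod_cast this

/-- `deg W = 2 g - 2` for the divisor `W` of a differential. -/
theorem degree_canonical' (hS : RiemannSetting K F) {g : ℕ} {W : Divisor K F}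
    (hRR : ∀ A : Divisor K F, (ell A : ℤ) = Divisor.degree A + 1 - g + ell (W - A)) :
    Divisor.degree W = 2 * (g : ℤ) - 2 := by
  have h := hRR W
  rw [sub_self, ell_zero hS, ell_canonical' hS hRR] at h
  push_cast at h
  linarith

/-- **The degree of the canonical divisor**, general constant field of characteristic zero. -/
theorem degree_eq_of_full (hF : RRFullStatement.{u, v}) (h1 : H1Statement.{u, v})
    [IsAlgClosed K] [CharZero K] [IsCurveOver K F] [Algebra.EssFiniteType K F]
    (ω : Ω[F⁄K]) (hω : ω ≠ 0) (Dv : Divisor K F)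
    (hD : ∀ v : Place K F, Dv v = v.ordDifferential ω) :
    Divisor.degree Dv = 2 * (genusFF K F : ℤ) - 2 := by
  obtain ⟨x, hx, hfin, -, -⟩ := exists_separating_transcendental (K := K) (F := F)
  have hS : RiemannSetting K F := riemannSetting_charZero x hx
  obtain ⟨g, -, c, hc⟩ := exists_genus_charZero (K := K) (F := F) x hx
  obtain ⟨W, hW, hRR⟩ := hF K F x hx hfin g ⟨c, hc⟩ ω hω
  have hWD : Dv = W := Finsupp.ext fun v => by rw [hD, hW]
  rw [hWD, degree_canonical' hS hRR, genusFF_eq_of_h1 h1 hS ⟨c, hc⟩]

/-- Every nonzero differential has a divisor (`HasCanonicalDivisor`). -/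
theorem hasCanonicalDivisor_of_full (hF : RRFullStatement.{u, v})
    [IsAlgClosed K] [CharZero K] [IsCurveOver K F] [Algebra.EssFiniteType K F] :
    HasCanonicalDivisor (K := K) (F := F) := by
  obtain ⟨x, hx, hfin, -, -⟩ := exists_separating_transcendental (K := K) (F := F)
  obtain ⟨g, -, c, hc⟩ := exists_genus_charZero (K := K) (F := F) x hx
  refine ⟨fun ω hω => ?_⟩
  obtain ⟨W, hW, -⟩ := hF K F x hx hfin g ⟨c, hc⟩ ω hω
  exact ⟨W, hW⟩

end General

/-- **[CanonDeg]** `Fermat.Agent.P5.helper4.CanonDegStatement`, unfolded. -/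
theorem canonDeg_of_full (hF : RRFullStatement.{0, 0}) (h1 : H1Statement.{0, 0}) :
    ∀ (F : Type) [Field F] [Algebra ℂ F] [IsCurveOver ℂ F] [Algebra.EssFiniteType ℂ F]
      (ω : Ω[F⁄ℂ]) (_ : ω ≠ 0) (Dv : Divisor ℂ F),
      (∀ v : Place ℂ F, Dv v = v.ordDifferential ω) →
        Divisor.degree Dv = 2 * (genusFF ℂ F : ℤ) - 2 :=
  fun _ _ _ _ _ ω hω Dv hD => degree_eq_of_full hF h1 ω hω Dv hD

end Fermat.Agent.P5.helper42
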