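import Fermat.Agent.P5.helper4_B1
import Fermat.Agent.S24.helper88_FFDeriv

/-!
# P5 / M6 (helper4): Riemann–Hurwitz for `genusFF` from the degree of the canonical divisor

`rhCountStatement_of_canonDeg : CanonDegStatement → RHCountStatement`, where `CanonDegStatement`
says that the divisor of a nonzero differential has degree `2 genusFF - 2`.  All function-field
inputs are the landed S24 lemmas (`helper55.riemann_hurwitz_of_ff`, `helper75.ff_*`,
`helper82.ff_*`, `helper88.ff_*`), which hold for every function field over `ℂ`.

Consequently `b1Statement_of_canonDeg : CanonDegStatement → B1Statement`.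
-/

set_option autoImplicit false

open AlgebraicCurve IntermediateField KaehlerDifferential

namespace Fermat.Agent.P5.helper4

open Fermat.Agent.P5.helper25 Fermat.Agent.S24

/-- **Degree of the canonical divisor**: the divisor of a nonzero differential has degree
`2 genusFF - 2`. -/
def CanonDegStatement : Prop :=
  ∀ (F : Type) [Field F] [Algebra ℂ F] [IsCurveOver ℂ F] [Algebra.EssFiniteType ℂ F]
    (ω : Ω[F⁄ℂ]) (_ : ω ≠ 0) (Dv : Divisor ℂ F),
    (∀ v : Place ℂ F, Dv v = v.ordDifferential ω) →
      Divisor.degree Dv = 2 * (genusFF ℂ F : ℤ) - 2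

section

variable {F : Type} [Field F] [Algebra ℂ F]

/-- The differential `dx` has finite support as soon as `x` is unramified outside a finite set
of values. -/
theorem finite_support_dx (x : F) (hx : Transcendental ℂ x) [FiniteDimensional ℂ⟮x⟯ F]
    (B : Finset ℂ)
    (hunr : ∀ (w : Place ℂ F) (a : ℂ), a ∉ B → 0 < w.ord (x - algebraMap ℂ F a) →
      w.ord (x - algebraMap ℂ F a) = 1) :
    {v : Place ℂ F | v.ordDifferential (D ℂ F x) ≠ 0}.Finite := by
  have hpoles := helper75.ff_finite_poles x hx
  have hzeros : ∀ a : ℂ, {w : Place ℂ F | 0 < w.ord (x - algebraMap ℂ F a)}.Finite := by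
    intro a
    have hfd : FiniteDimensional ℂ⟮x - algebraMap ℂ F a⟯ F := by
      rw [helper55.adjoin_sub_algebraMap_eq]
      infer_instance
    exact helper75.ff_finite_zeros _ (helper55.transcendental_sub_algebraMap hx a)
  have hfin : ({w : Place ℂ F | w.ord x < 0} ∪
      ⋃ a ∈ B, {w : Place ℂ F | 0 < w.ord (x - algebraMap ℂ F a)}).Finite :=
    hpoles.union (B.finite_toSet.biUnion fun a _ => hzeros a)
  refine hfin.subset ?_
  intro v hv
  by_cases hpole : v.ord x < 0
  · exact Or.inl hpole
  · right
    push Not at hpole
    obtain ⟨a, ha | ha⟩ := helper82.ff_exists_residue x hx v x hpole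
    · exact absurd ⟨a, ha.symm⟩ (helper55.not_mem_range_of_transcendental hx)
    · have hd := helper88.ff_ordDifferential_D_of_zero x hx x a v ha
      have haB : a ∈ B := by
        by_contra hcon
        apply hv
        rw [hd, hunr v a hcon ha]
        rfl
      exact Set.mem_biUnion haB ha

end

/-- **Riemann–Hurwitz for `genusFF`** (counting form) from the degree of the canonical
divisor. -/
theorem rhCountStatement_of_canonDeg (h : CanonDegStatement) : RHCountStatement := by
  intro F _ _ _ _ x hx _ B hunr
  have hxr := helper55.not_mem_range_of_transcendental hx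
  have hω : D ℂ F x ≠ 0 := helper82.ff_D_ne_zero x hx x hxr
  set Dv : Divisor ℂ F :=
    Finsupp.ofSupportFinite (fun v : Place ℂ F => v.ordDifferential (D ℂ F x))
      (finite_support_dx x hx B hunr) with hDv
  have hD : ∀ v : Place ℂ F, Dv v = v.ordDifferential (D ℂ F x) := fun v => rfl
  have hRH := helper55.riemann_hurwitz_of_ff x hx
    (fun v => helper82.ff_deg_eq_one x hx v)
    (fun v f hf => helper82.ff_exists_residue x hx v f hf)
    (fun t ht => helper82.ff_span_D_eq_top x hx t ht)
    (fun t ht => helper82.ff_D_ne_zero x hx t ht)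
    (fun v => helper82.ff_dCoordGenerates x hx v)
    IsCurveOver.hasPrincipalDivisors
    (fun y hy _ => helper75.ff_finite_zeros y hy)
    (fun y hy _ => helper75.ff_sum_ord_zeros y hy)
    (fun y a w hw => helper88.ff_ordDifferential_D_of_zero x hx y a w hw)
    (fun y w hw => helper88.ff_ordDifferential_D_of_pole x hx y w hw)
    B hunr (D ℂ F x) hω Dv hD
  rw [h F (D ℂ F x) hω Dv hD] at hRH
  exact hRH

/-- **[M6]** `B1Statement` from the degree of the canonical divisor. -/
theorem b1Statement_of_canonDeg (h : CanonDegStatement) : B1Statement :=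
  b1Statement (rhCountStatement_of_canonDeg h)

end Fermat.Agent.P5.helper4
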