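import Fermat.Agent.P5.helper65_TateProps

/-!
# P5 / RR / TATE-B, part 6: property (R5) `res_A + res_B = res_(A+B) + res_(A∩B)`
-/

set_option autoImplicit false

namespace Fermat.Agent.P5.helper65

open Fermat.Agent.P5.helper42 Fermat.Agent.P5.helper42.Tate KaehlerDifferential

universe u v

section FourProj

variable {K : Type u} [Field K] {V : Type v} [AddCommGroup V] [Module K V]

/-- Four compatible projections onto `A`, `B`, `A + B`, `A ∩ B`. -/
theorem exists_four_proj (A B : Submodule K V) :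
    ∃ πA πB πS π0 : V →ₗ[K] V, LinearMap.IsProj A πA ∧ LinearMap.IsProj B πB ∧
      LinearMap.IsProj (A ⊔ B) πS ∧ LinearMap.IsProj (A ⊓ B) π0 ∧ πA + πB = πS + π0 := by
  obtain ⟨D, hD⟩ := (A ⊓ B).exists_isCompl
  obtain ⟨C', hC'⟩ := (A ⊔ B).exists_isCompl
  have hCAB : Disjoint (A ⊓ D) (B ⊓ D) := by
    rw [disjoint_iff, eq_bot_iff]
    intro x hx
    have h1 : x ∈ (A ⊓ B) ⊓ D := ⟨⟨hx.1.1, hx.2.1⟩, hx.1.2⟩
    rwa [hD.inf_eq_bot] at h1
  obtain ⟨N, hN⟩ := ((A ⊓ D) ⊔ (B ⊓ D)).exists_isCompl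
  have hR : IsCompl (A ⊓ D) ((B ⊓ D) ⊔ N) := by
    refine ⟨hCAB.disjoint_sup_right_of_disjoint_sup_left hN.disjoint, ?_⟩
    rw [codisjoint_iff, ← sup_assoc]
    exact hN.sup_eq_top
  set P : V →ₗ[K] V := (A ⊔ B).projection C' hC' with hP
  set Q : V →ₗ[K] V := (A ⊓ B).projection D hD with hQ
  set R : V →ₗ[K] V := (A ⊓ D).projection ((B ⊓ D) ⊔ N) hR with hRdef
  have hPmem : ∀ v, P v ∈ A ⊔ B := fun v => Submodule.projection_apply_mem hC' v
  have hPid : ∀ s ∈ A ⊔ B, P s = s := fun s hs => Submodule.projection_apply_of_mem_left hC' hs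
  have hQmem : ∀ v, Q v ∈ A ⊓ B := fun v => Submodule.projection_apply_mem hD v
  have hQid : ∀ s ∈ A ⊓ B, Q s = s := fun s hs => Submodule.projection_apply_of_mem_left hD hs
  have hQD : ∀ v, v - Q v ∈ D := fun v => Submodule.sub_projection_mem hD v
  have hRmem : ∀ v, R v ∈ A ⊓ D := fun v => Submodule.projection_apply_mem hR v
  have hRid : ∀ s ∈ A ⊓ D, R s = s := fun s hs => Submodule.projection_apply_of_mem_left hR hs
  have hRzero : ∀ s ∈ B ⊓ D, R s = 0 := fun s hs =>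
    (Submodule.projection_apply_eq_zero_iff hR).mpr (Submodule.mem_sup_left hs)
  have hCA : ∀ a ∈ A, a - Q a ∈ A ⊓ D := fun a ha =>
    ⟨A.sub_mem ha (hQmem a).1, hQD a⟩
  have hCB : ∀ b ∈ B, b - Q b ∈ B ⊓ D := fun b hb =>
    ⟨B.sub_mem hb (hQmem b).2, hQD b⟩
  refine ⟨Q * P + R * ((1 - Q) * P), Q * P + (1 - R) * ((1 - Q) * P), P, Q * P,
    ⟨?_, ?_⟩, ⟨?_, ?_⟩, ⟨hPmem, hPid⟩, ⟨?_, ?_⟩, ?_⟩
  · intro v
    simp only [LinearMap.add_apply, Module.End.mul_apply]
    exact A.add_mem (hQmem _).1 (hRmem _).1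
  · intro a ha
    simp only [LinearMap.add_apply, Module.End.mul_apply, LinearMap.sub_apply,
      Module.End.one_apply]
    rw [hPid a (Submodule.mem_sup_left ha), hRid _ (hCA a ha)]
    abel
  · intro v
    simp only [LinearMap.add_apply, Module.End.mul_apply, LinearMap.sub_apply,
      Module.End.one_apply]
    obtain ⟨a, ha, b, hb, hab⟩ := Submodule.mem_sup.mp (hPmem v)
    rw [← hab]
    have e : (a + b) - Q (a + b) = (a - Q a) + (b - Q b) := by rw [map_add]; abel
    rw [e, map_add R, hRid _ (hCA a ha), hRzero _ (hCB b hb)]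
    have e2 : a - Q a + (b - Q b) - (a - Q a + 0) = b - Q b := by abel
    rw [e2]
    exact B.add_mem (hQmem _).2 (hCB b hb).1
  · intro b hb
    simp only [LinearMap.add_apply, Module.End.mul_apply, LinearMap.sub_apply,
      Module.End.one_apply]
    rw [hPid b (Submodule.mem_sup_right hb), hRzero _ (hCB b hb)]
    abel
  · intro v
    rw [Module.End.mul_apply]
    exact hQmem _
  · intro c hc
    rw [Module.End.mul_apply, hPid c (Submodule.mem_sup_left hc.1), hQid c hc]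
  · simp only [sub_mul, mul_sub, one_mul]
    abel

end FourProj

section R5

variable {K : Type u} {F : Type v} [Field K] [Field F] [Algebra K F]
  {tr : ∀ (V : Type v) [AddCommGroup V] [Module K V], (V →ₗ[K] V) → K}
  {V : Type v} [AddCommGroup V] [Module K V] [Module F V] [IsScalarTower K F V]

theorem nearlyStable_sup {A B : Submodule K V} (hA : NearlyStable F A)
    (hB : NearlyStable F B) : NearlyStable F (A ⊔ B) := by
  intro f
  rw [Submodule.map_sup]
  exact nmb_sup (nmb_mono_right le_sup_left (hA f)) (nmb_mono_right le_sup_right (hB f))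

theorem nearlyStable_inf {A B : Submodule K V} (hA : NearlyStable F A)
    (hB : NearlyStable F B) : NearlyStable F (A ⊓ B) := by
  intro f
  exact nmb_inf (nmb_mono_left (Submodule.map_mono inf_le_left) (hA f))
    (nmb_mono_left (Submodule.map_mono inf_le_right) (hB f))

omit [Module F V] [IsScalarTower K F V] in
theorem map_sub_le (A : Submodule K V) (θ φ : V →ₗ[K] V) :
    A.map (θ - φ) ≤ A.map θ ⊔ A.map φ := by
  rintro _ ⟨a, ha, rfl⟩
  rw [LinearMap.sub_apply]
  exact Submodule.sub_mem _ (Submodule.mem_sup_left ⟨a, ha, rfl⟩)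
    (Submodule.mem_sup_right ⟨a, ha, rfl⟩)

/-- The finite-potent subspace used in (R5). -/
def FF (A B : Submodule K V) : Submodule K (V →ₗ[K] V) where
  carrier := {θ | NotMuchBigger ((⊤ : Submodule K V).map θ) (A ⊔ B) ∧
    NotMuchBigger ((A ⊔ B).map θ) (A ⊓ B) ∧ NotMuchBigger ((A ⊓ B).map θ) ⊥}
  add_mem' := fun {θ φ} hθ hφ =>
    ⟨nmb_mono_left (map_add_le ⊤ θ φ) (nmb_sup hθ.1 hφ.1),
      nmb_mono_left (map_add_le _ θ φ) (nmb_sup hθ.2.1 hφ.2.1),
      nmb_mono_left (map_add_le _ θ φ) (nmb_sup hθ.2.2 hφ.2.2)⟩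
  zero_mem' := by
    refine ⟨?_, ?_, ?_⟩ <;>
    · rw [Submodule.map_zero]
      exact nmb_of_le bot_le
  smul_mem' := fun c θ hθ =>
    ⟨nmb_mono_left (map_smul_le ⊤ c θ) hθ.1, nmb_mono_left (map_smul_le _ c θ) hθ.2.1,
      nmb_mono_left (map_smul_le _ c θ) hθ.2.2⟩

omit [Module F V] [IsScalarTower K F V] in
theorem mem_FF {A B : Submodule K V} {θ : V →ₗ[K] V} :
    θ ∈ FF A B ↔ NotMuchBigger ((⊤ : Submodule K V).map θ) (A ⊔ B) ∧
      NotMuchBigger ((A ⊔ B).map θ) (A ⊓ B) ∧ NotMuchBigger ((A ⊓ B).map θ) ⊥ := Iff.rfl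

omit [Module F V] [IsScalarTower K F V] in
theorem finite_range_list_prod_FF (A B : Submodule K V) (l : List (V →ₗ[K] V))
    (hl : l.length = 3) (hmem : ∀ θ ∈ l, θ ∈ FF A B) :
    Module.Finite K (LinearMap.range l.prod) := by
  match l, hl with
  | [θ₁, θ₂, θ₃], _ =>
    have h1 := hmem θ₁ (by simp)
    have h2 := hmem θ₂ (by simp)
    have h3 := hmem θ₃ (by simp)
    rw [List.prod_cons, List.prod_cons, List.prod_cons, List.prod_nil, mul_one,
      ← nmb_bot_iff, range_eq_map_top, map_mul_eq, map_mul_eq]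
    exact nmb_trans (nmb_map θ₁ (nmb_trans (nmb_map θ₂ h3.1) h2.2.1)) h1.2.2

omit [Module F V] [IsScalarTower K F V] in
theorem mem_FF_of_E0_sup {A B : Submodule K V} {θ : V →ₗ[K] V} (h : θ ∈ E0 (A ⊔ B)) :
    θ ∈ FF A B :=
  ⟨h.1, nmb_mono_right bot_le h.2, nmb_mono_left (Submodule.map_mono inf_le_sup) h.2⟩

omit [Module F V] [IsScalarTower K F V] in
theorem mem_FF_of_E0_inf {A B : Submodule K V} {θ : V →ₗ[K] V} (h : θ ∈ E0 (A ⊓ B)) :
    θ ∈ FF A B :=
  ⟨nmb_mono_right inf_le_sup h.1, nmb_mono_left (Submodule.map_mono le_top) h.1, h.2⟩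

omit [Module F V] [IsScalarTower K F V] in
theorem mem_FF_of_E0_left {A B : Submodule K V} {θ : V →ₗ[K] V} (h : θ ∈ E0 A)
    (hB : NotMuchBigger (B.map θ) (A ⊓ B)) : θ ∈ FF A B := by
  refine ⟨nmb_mono_right le_sup_left h.1, ?_, nmb_mono_left (Submodule.map_mono inf_le_left) h.2⟩
  rw [Submodule.map_sup]
  exact nmb_sup (nmb_mono_right bot_le h.2) hB

omit [Module F V] [IsScalarTower K F V] in
theorem mem_FF_of_E0_right {A B : Submodule K V} {θ : V →ₗ[K] V} (h : θ ∈ E0 B)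
    (hA : NotMuchBigger (A.map θ) (A ⊓ B)) : θ ∈ FF A B := by
  refine ⟨nmb_mono_right le_sup_right h.1, ?_,
    nmb_mono_left (Submodule.map_mono inf_le_right) h.2⟩
  rw [Submodule.map_sup]
  exact nmb_sup hA (nmb_mono_right bot_le h.2)

/-- For an endomorphism `π` mapping `B` into `C`, with `B` and `C` nearly stable:
`[π f, g] B ≺ C`. -/
theorem nmb_map_brk {B C : Submodule K V} {π : V →ₗ[K] V}
    (hπB : ∀ b ∈ B, π b ∈ C) (hB : NearlyStable F B) (hC : NearlyStable F C) (f g : F) :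
    NotMuchBigger (B.map (brk (π * mulEnd K F f) (mulEnd K F g))) C := by
  have hπ : NotMuchBigger (B.map π) C := by
    apply nmb_of_le
    rintro _ ⟨b, hb, rfl⟩
    exact hπB b hb
  rw [brk_def]
  refine nmb_mono_left (map_sub_le _ _ _) (nmb_sup ?_ ?_)
  · rw [map_mul_eq, map_mul_eq]
    exact nmb_trans (nmb_map π (nmb_trans (nmb_map _ (hB g)) (hB f))) hπ
  · rw [map_mul_eq, map_mul_eq]
    exact nmb_trans (nmb_map _ (nmb_trans (nmb_map π (hB f)) hπ)) (hC g)

/-- The lift pair `(π f, g)`. -/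
theorem isLiftPair_proj_left {A : Submodule K V} {π : V →ₗ[K] V} (hπ : LinearMap.IsProj A π)
    (hA : NearlyStable F A) (f g : F) :
    IsLiftPair A (mulEnd K F f) (mulEnd K F g) (π * mulEnd K F f) (mulEnd K F g) :=
  ⟨isProj_mul_sub_mem_E2 hπ (hA f), by rw [sub_self]; exact (E2 A).zero_mem,
    Or.inl (isProj_mul_mem_E1 hπ _)⟩

/-- **(R5)** -/
theorem tateRes_R5 (htr : IsFpTrace K tr) {A B : Submodule K V} (hA : NearlyStable F A)
    (hB : NearlyStable F B) :
    tateRes htr F V A + tateRes htr F V B =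
      tateRes htr F V (A ⊔ B) + tateRes htr F V (A ⊓ B) := by
  have hS : NearlyStable F (A ⊔ B) := nearlyStable_sup hA hB
  have hI : NearlyStable F (A ⊓ B) := nearlyStable_inf hA hB
  apply ext_smul_D
  intro f g
  rw [LinearMap.add_apply, LinearMap.add_apply, tateRes_apply htr hA, tateRes_apply htr hB,
    tateRes_apply htr hS, tateRes_apply htr hI]
  unfold rF
  obtain ⟨πA, πB, πS, π0, hπA, hπB, hπS, hπ0, hsum⟩ := exists_four_proj A B
  have lA := isLiftPair_proj_left hπA hA f g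
  have lB := isLiftPair_proj_left hπB hB f g
  have lS := isLiftPair_proj_left hπS hS f g
  have l0 := isLiftPair_proj_left hπ0 hI f g
  have hc := mulEnd_comm (K := K) (V := V) f g
  rw [pairing_eq htr hc (hA f) (hA g) lA, pairing_eq htr hc (hB f) (hB g) lB,
    pairing_eq htr hc (hS f) (hS g) lS, pairing_eq htr hc (hI f) (hI g) l0]
  -- `π_A` maps `B` into `A ⊓ B` and `π_B` maps `A` into `A ⊓ B`
  have hπAB : ∀ b ∈ B, πA b ∈ A ⊓ B := by
    intro b hb
    have h1 := congrArg (fun φ : V →ₗ[K] V => φ b) hsum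
    simp only [LinearMap.add_apply] at h1
    rw [hπB.map_id b hb, hπS.map_id b (Submodule.mem_sup_right hb)] at h1
    have h2 : πA b = π0 b := by
      have := congrArg (fun x => x - b) h1
      simpa using this
    rw [h2]
    exact hπ0.map_mem b
  have hπBA : ∀ a ∈ A, πB a ∈ A ⊓ B := by
    intro a ha
    have h1 := congrArg (fun φ : V →ₗ[K] V => φ a) hsum
    simp only [LinearMap.add_apply] at h1
    rw [hπA.map_id a ha, hπS.map_id a (Submodule.mem_sup_left ha)] at h1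
    have h2 : πB a = π0 a := by
      have := congrArg (fun x => x - a) h1
      simpa using this
    rw [h2]
    exact hπ0.map_mem a
  -- membership in the finite-potent subspace
  have mA : brk (πA * mulEnd K F f) (mulEnd K F g) ∈ FF A B :=
    mem_FF_of_E0_left (lA.brk_mem_E0 hc (hA f) (hA g)) (nmb_map_brk hπAB hB hI f g)
  have mB : brk (πB * mulEnd K F f) (mulEnd K F g) ∈ FF A B :=
    mem_FF_of_E0_right (lB.brk_mem_E0 hc (hB f) (hB g)) (nmb_map_brk hπBA hA hI f g)
  have mS : brk (πS * mulEnd K F f) (mulEnd K F g) ∈ FF A B :=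
    mem_FF_of_E0_sup (lS.brk_mem_E0 hc (hS f) (hS g))
  have m0 : brk (π0 * mulEnd K F f) (mulEnd K F g) ∈ FF A B :=
    mem_FF_of_E0_inf (l0.brk_mem_E0 hc (hI f) (hI g))
  have hlin := (htr.lin V (FF A B) 3 (finite_range_list_prod_FF A B)).1
  rw [← hlin _ mA _ mB, ← hlin _ mS _ m0, ← brk_add_left, ← brk_add_left, ← add_mul, ← add_mul,
    hsum]

end R5

end Fermat.Agent.P5.helper65
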