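import Fermat.Agent.P5.helper65_TateR1a
import Fermat.Agent.P5.helper65_TateR5

/-!
# P5 / RR / TATE-B: Tate's abstract residue from the finite-potent trace

`tateStatement_of_fpTrace : FpTraceStatement → TateStatement`.
-/

set_option autoImplicit false

namespace Fermat.Agent.P5.helper65

open Fermat.Agent.P5.helper42 Fermat.Agent.P5.helper42.Tate KaehlerDifferential

universe u v

/-- **[TATE-B]** Tate's abstract residue with (R1a), (R1b), (R2), (R3), (R4), (R5). -/
theorem tateStatement_of_fpTrace : FpTraceStatement.{u, v} → TateStatement.{u, v} := by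
  intro hfp K F _ _ _
  obtain ⟨tr, h1, h2, h3, h4⟩ := hfp K
  have htr : IsFpTrace K tr := ⟨h1, h2, h3, h4⟩
  refine ⟨fun V _ _ _ _ A => tateRes htr F V A, ?_, ?_, ?_, ?_, ?_, ?_⟩
  · intro V V' _ _ _ _ _ _ _ _ j A' hj hA'
    exact tateRes_R1a htr j A' hj hA'
  · intro V _ _ _ _ A A' hA h h'
    exact tateRes_congr_nmb htr hA h h'
  · intro V _ _ _ _ A f g hA hf hg
    exact tateRes_R2 htr hA f g hf hg
  · intro V _ _ _ _ A g hA
    exact tateRes_R3 htr hA g
  · intro V _ _ _ _ A W g hA hg hW hsup hdisj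
    exact tateRes_R4 htr hA W g hg hW hsup hdisj
  · intro V _ _ _ _ A B hA hB
    exact tateRes_R5 htr hA hB

end Fermat.Agent.P5.helper65
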