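import Fermat.Agent.P5.helper42_RRDefs

/-!
# P5 / RR, package TATE-A (helper78): the trace of finite-potent endomorphisms

Tate, *Residues of differentials on curves*, section 1.

* `rtr θ W` : the trace of the restriction of `θ` to a stable subspace `W` (junk `0` otherwise);
* `rtr_eq_of_pow_map_le` : `W ≤ W'` finite-dimensional stable, `θ ^ m W' ≤ W` ⇒ same trace;
* `ftr V θ` : the finite-potent trace;
* `ftr_eq_rtr` : MASTER lemma;
* `fpTraceStatement : FpTraceStatement`.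
-/

set_option autoImplicit false

open LinearMap

namespace Fermat.Agent.P5.helper78

universe u v

section Basic

variable {K : Type u} [Field K] {V : Type v} [AddCommGroup V] [Module K V]

open Classical in
/-- the trace of the restriction of `θ` to a stable subspace `W` (`0` if `W` is not stable) -/
noncomputable def rtr (θ : V →ₗ[K] V) (W : Submodule K V) : K :=
  if h : ∀ w ∈ W, θ w ∈ W then LinearMap.trace K W (θ.restrict h) else 0

theorem rtr_eq (θ : V →ₗ[K] V) (W : Submodule K V) (h : ∀ w ∈ W, θ w ∈ W) :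
    rtr θ W = LinearMap.trace K W (θ.restrict h) := dif_pos h

/-- one step: if `θ` maps `W'` into `W ≤ W'` then the traces on `W'` and `W` agree -/
theorem rtr_eq_of_map_le {θ : V →ₗ[K] V} {W W' : Submodule K V} (hWW' : W ≤ W')
    (hfin : Module.Finite K W') (h : ∀ w ∈ W', θ w ∈ W) : rtr θ W' = rtr θ W := by
  have hW : ∀ w ∈ W, θ w ∈ W := fun w hw => h w (hWW' hw)
  have hW' : ∀ w ∈ W', θ w ∈ W' := fun w hw => hWW' (h w hw)
  have : Module.Finite K W := Submodule.finiteDimensional_of_le hWW'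
  rw [rtr_eq θ W hW, rtr_eq θ W' hW']
  let f : W' →ₗ[K] W := θ.restrict h
  let i : W →ₗ[K] W' := Submodule.inclusion hWW'
  have h1 : θ.restrict hW' = i ∘ₗ f := by
    ext x
    rfl
  have h2 : θ.restrict hW = f ∘ₗ i := by
    ext x
    rfl
  rw [h1, h2]
  exact LinearMap.trace_comp_comm' f i

theorem pow_mem_of_stable {θ : V →ₗ[K] V} {W : Submodule K V} (hW : ∀ w ∈ W, θ w ∈ W)
    (m : ℕ) : ∀ w ∈ W, (θ ^ m) w ∈ W := by
  induction m with
  | zero => intro w hw; simpa using hw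
  | succ m ih =>
    intro w hw
    rw [pow_succ', Module.End.mul_apply]
    exact hW _ (ih w hw)

/-- `W ≤ W'` finite-dimensional and stable, `θ ^ m W' ≤ W` ⇒ the traces agree -/
theorem rtr_eq_of_pow_map_le {θ : V →ₗ[K] V} (m : ℕ) :
    ∀ {W W' : Submodule K V}, W ≤ W' → Module.Finite K W' → (∀ w ∈ W, θ w ∈ W) →
      (∀ w ∈ W', θ w ∈ W') → (∀ w ∈ W', (θ ^ m) w ∈ W) → rtr θ W' = rtr θ W := by
  induction m with
  | zero =>
    intro W W' hWW' _ _ _ h
    have : W' ≤ W := fun w hw => by simpa using h w hw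
    rw [le_antisymm this hWW']
  | succ m ih =>
    intro W W' hWW' hfin hW hW' h
    let W'' : Submodule K V := W ⊔ W'.map θ
    have hmap : W'.map θ ≤ W' := by
      rintro _ ⟨w, hw, rfl⟩
      exact hW' w hw
    have h1 : W ≤ W'' := le_sup_left
    have h2 : W'' ≤ W' := sup_le hWW' hmap
    have h3 : ∀ w ∈ W', θ w ∈ W'' := fun w hw =>
      (le_sup_right : W'.map θ ≤ W'') (Submodule.mem_map_of_mem hw)
    have h4 : ∀ w ∈ W'', θ w ∈ W'' := fun w hw => h3 w (h2 hw)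
    have hfin'' : Module.Finite K W'' := Submodule.finiteDimensional_of_le h2
    have h5 : ∀ w ∈ W'', (θ ^ m) w ∈ W := by
      intro w hw
      obtain ⟨a, ha, b, hb, rfl⟩ := Submodule.mem_sup.mp hw
      obtain ⟨c, hc, rfl⟩ := hb
      rw [map_add]
      refine W.add_mem (pow_mem_of_stable hW m a ha) ?_
      have := h c hc
      rwa [pow_succ, Module.End.mul_apply] at this
    rw [rtr_eq_of_map_le h2 hfin h3, ih h1 hfin'' hW h4 h5]

/-- any two finite-dimensional stable subspaces containing the image of a power of `θ` give the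
same trace -/
theorem rtr_eq_of_range_le {θ : V →ₗ[K] V} {W W' : Submodule K V} (n n' : ℕ)
    (hfin : Module.Finite K W) (hfin' : Module.Finite K W')
    (hW : ∀ w ∈ W, θ w ∈ W) (hW' : ∀ w ∈ W', θ w ∈ W')
    (hn : LinearMap.range (θ ^ n) ≤ W) (hn' : LinearMap.range (θ ^ n') ≤ W') :
    rtr θ W = rtr θ W' := by
  have hfin1 : Module.Finite K (W ⊔ W' : Submodule K V) := Submodule.finiteDimensional_sup W W'
  have hst : ∀ w ∈ W ⊔ W', θ w ∈ W ⊔ W' := by
    intro w hw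
    obtain ⟨a, ha, b, hb, rfl⟩ := Submodule.mem_sup.mp hw
    rw [map_add]
    exact Submodule.add_mem_sup (hW a ha) (hW' b hb)
  rw [← rtr_eq_of_pow_map_le n le_sup_left hfin1 hW hst (fun w _ => hn ⟨w, rfl⟩),
    ← rtr_eq_of_pow_map_le n' le_sup_right hfin1 hW' hst (fun w _ => hn' ⟨w, rfl⟩)]

theorem range_pow_stable (θ : V →ₗ[K] V) (n : ℕ) :
    ∀ w ∈ LinearMap.range (θ ^ n), θ w ∈ LinearMap.range (θ ^ n) := by
  rintro _ ⟨v, rfl⟩
  refine ⟨θ v, ?_⟩
  rw [← Module.End.mul_apply, ← Module.End.mul_apply, ← pow_succ, ← pow_succ']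

variable (V) in
open Classical in
/-- **the finite-potent trace** -/
noncomputable def ftr (θ : V →ₗ[K] V) : K :=
  if h : ∃ n, Module.Finite K (LinearMap.range (θ ^ n)) then
    rtr θ (LinearMap.range (θ ^ Nat.find h)) else 0

/-- MASTER lemma -/
theorem ftr_eq_rtr (θ : V →ₗ[K] V) (W : Submodule K V) (n : ℕ) (hW : ∀ w ∈ W, θ w ∈ W)
    (hfin : Module.Finite K W) (hn : LinearMap.range (θ ^ n) ≤ W) : ftr V θ = rtr θ W := by
  classical
  have h : ∃ n, Module.Finite K (LinearMap.range (θ ^ n)) :=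
    ⟨n, Submodule.finiteDimensional_of_le hn⟩
  rw [ftr, dif_pos h]
  exact rtr_eq_of_range_le (Nat.find h) n (Nat.find_spec h) hfin (range_pow_stable θ _) hW
    le_rfl hn

theorem ftr_eq_trace (θ : V →ₗ[K] V) (W : Submodule K V) (n : ℕ) (hW : ∀ w ∈ W, θ w ∈ W)
    (hfin : Module.Finite K W) (hn : LinearMap.range (θ ^ n) ≤ W) :
    ftr V θ = LinearMap.trace K W (θ.restrict hW) := by
  rw [ftr_eq_rtr θ W n hW hfin hn, rtr_eq]

theorem ftr_eq_zero_of_pow_eq_zero (θ : V →ₗ[K] V) (n : ℕ) (h : θ ^ n = 0) : ftr V θ = 0 := by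
  have hW : ∀ w ∈ (⊥ : Submodule K V), θ w ∈ (⊥ : Submodule K V) := by
    intro w hw
    rw [Submodule.mem_bot] at hw ⊢
    rw [hw, map_zero]
  have hfin : Module.Finite K (⊥ : Submodule K V) := inferInstance
  rw [ftr_eq_trace θ ⊥ n hW hfin (by rw [h, LinearMap.range_zero])]
  have : θ.restrict hW = 0 := by
    ext x
  rw [this, map_zero]

end Basic

section Additive

variable {K : Type u} [Field K] {V : Type v} [AddCommGroup V] [Module K V]

/-- the span of the images of the words of length `k` in `θ₁`, `θ₂` -/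
def wordSpan (θ₁ θ₂ : V →ₗ[K] V) : ℕ → Submodule K V
  | 0 => ⊤
  | k + 1 => (wordSpan θ₁ θ₂ k).map θ₁ ⊔ (wordSpan θ₁ θ₂ k).map θ₂

theorem wordSpan_succ_le (θ₁ θ₂ : V →ₗ[K] V) (k : ℕ) :
    wordSpan θ₁ θ₂ (k + 1) ≤ wordSpan θ₁ θ₂ k := by
  induction k with
  | zero => exact le_top
  | succ k ih =>
    show (wordSpan θ₁ θ₂ (k + 1)).map θ₁ ⊔ (wordSpan θ₁ θ₂ (k + 1)).map θ₂ ≤
      (wordSpan θ₁ θ₂ k).map θ₁ ⊔ (wordSpan θ₁ θ₂ k).map θ₂
    exact sup_le_sup (Submodule.map_mono ih) (Submodule.map_mono ih)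

/-- a map sending each `wordSpan k` into `wordSpan (k + 1)` -/
def Shifts (θ₁ θ₂ θ : V →ₗ[K] V) : Prop :=
  ∀ k, (wordSpan θ₁ θ₂ k).map θ ≤ wordSpan θ₁ θ₂ (k + 1)

theorem shifts_left (θ₁ θ₂ : V →ₗ[K] V) : Shifts θ₁ θ₂ θ₁ := fun _ => le_sup_left

theorem shifts_right (θ₁ θ₂ : V →ₗ[K] V) : Shifts θ₁ θ₂ θ₂ := fun _ => le_sup_right

theorem shifts_add (θ₁ θ₂ : V →ₗ[K] V) : Shifts θ₁ θ₂ (θ₁ + θ₂) := by
  rintro k _ ⟨w, hw, rfl⟩
  rw [LinearMap.add_apply]
  exact Submodule.add_mem_sup (Submodule.mem_map_of_mem hw) (Submodule.mem_map_of_mem hw)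

theorem shifts_smul (θ₁ θ₂ : V →ₗ[K] V) (c : K) : Shifts θ₁ θ₂ (c • θ₁) := by
  rintro k _ ⟨w, hw, rfl⟩
  rw [LinearMap.smul_apply]
  exact (le_sup_left : (wordSpan θ₁ θ₂ k).map θ₁ ≤ _)
    (Submodule.smul_mem _ c (Submodule.mem_map_of_mem hw))

theorem Shifts.stable {θ₁ θ₂ θ : V →ₗ[K] V} (h : Shifts θ₁ θ₂ θ) (k : ℕ) :
    ∀ w ∈ wordSpan θ₁ θ₂ k, θ w ∈ wordSpan θ₁ θ₂ k := fun _ hw =>
  wordSpan_succ_le θ₁ θ₂ k (h k (Submodule.mem_map_of_mem hw))

theorem Shifts.range_pow_le {θ₁ θ₂ θ : V →ₗ[K] V} (h : Shifts θ₁ θ₂ θ) (k : ℕ) :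
    LinearMap.range (θ ^ k) ≤ wordSpan θ₁ θ₂ k := by
  induction k with
  | zero => exact le_top
  | succ k ih =>
    rintro _ ⟨v, rfl⟩
    rw [pow_succ', Module.End.mul_apply]
    exact h k (Submodule.mem_map_of_mem (ih ⟨v, rfl⟩))

/-- the word span of length `n` is finite-dimensional if all products of `n` elements of a set
containing `θ₁`, `θ₂` have finite rank -/
theorem finite_wordSpan (θ₁ θ₂ : V →ₗ[K] V) (n : ℕ) (P : (V →ₗ[K] V) → Prop) (h₁ : P θ₁)
    (h₂ : P θ₂)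
    (hfin : ∀ l : List (V →ₗ[K] V), l.length = n → (∀ θ ∈ l, P θ) →
      Module.Finite K (LinearMap.range l.prod)) :
    Module.Finite K (wordSpan θ₁ θ₂ n) := by
  have key : ∀ k, k ≤ n → ∀ l : List (V →ₗ[K] V), l.length + k = n → (∀ θ ∈ l, P θ) →
      Module.Finite K ((wordSpan θ₁ θ₂ k).map l.prod) := by
    intro k
    induction k with
    | zero =>
      intro _ l hl hP
      show Module.Finite K ((⊤ : Submodule K V).map l.prod)
      rw [Submodule.map_top]
      exact hfin l (by simpa using hl) hP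
    | succ k ih =>
      intro hk l hl hP
      show Module.Finite K (((wordSpan θ₁ θ₂ k).map θ₁ ⊔ (wordSpan θ₁ θ₂ k).map θ₂).map l.prod)
      rw [Submodule.map_sup, ← Submodule.map_comp, ← Submodule.map_comp]
      have e₁ : l.prod ∘ₗ θ₁ = (l ++ [θ₁]).prod := by
        rw [List.prod_append, List.prod_singleton]
        rfl
      have e₂ : l.prod ∘ₗ θ₂ = (l ++ [θ₂]).prod := by
        rw [List.prod_append, List.prod_singleton]
        rfl
      have f₁ := ih (by omega) (l ++ [θ₁]) (by simp; omega) (by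
        intro θ hθ
        rcases List.mem_append.mp hθ with h | h
        · exact hP θ h
        · rw [List.mem_singleton.mp h]; exact h₁)
      have f₂ := ih (by omega) (l ++ [θ₂]) (by simp; omega) (by
        intro θ hθ
        rcases List.mem_append.mp hθ with h | h
        · exact hP θ h
        · rw [List.mem_singleton.mp h]; exact h₂)
      rw [e₁, e₂]
      exact Submodule.finiteDimensional_sup _ _
  have := key n le_rfl [] (by simp) (by simp)
  rw [List.prod_nil, Module.End.one_eq_id, Submodule.map_id] at this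
  exact this

theorem ftr_add_of_shifts {θ₁ θ₂ : V →ₗ[K] V} (n : ℕ)
    (hfin : Module.Finite K (wordSpan θ₁ θ₂ n)) :
    ftr V (θ₁ + θ₂) = ftr V θ₁ + ftr V θ₂ := by
  have s₁ := shifts_left θ₁ θ₂
  have s₂ := shifts_right θ₁ θ₂
  have s₃ := shifts_add θ₁ θ₂
  rw [ftr_eq_trace θ₁ _ n (s₁.stable n) hfin (s₁.range_pow_le n),
    ftr_eq_trace θ₂ _ n (s₂.stable n) hfin (s₂.range_pow_le n),
    ftr_eq_trace (θ₁ + θ₂) _ n (s₃.stable n) hfin (s₃.range_pow_le n), ← map_add]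
  congr 1

theorem ftr_smul_of_shifts {θ₁ θ₂ : V →ₗ[K] V} (n : ℕ)
    (hfin : Module.Finite K (wordSpan θ₁ θ₂ n)) (c : K) :
    ftr V (c • θ₁) = c * ftr V θ₁ := by
  have s₁ := shifts_left θ₁ θ₂
  have s₃ := shifts_smul θ₁ θ₂ c
  rw [ftr_eq_trace θ₁ _ n (s₁.stable n) hfin (s₁.range_pow_le n),
    ftr_eq_trace (c • θ₁) _ n (s₃.stable n) hfin (s₃.range_pow_le n), ← smul_eq_mul, ← map_smul]
  congr 1

end Additive

section Comm

variable {K : Type u} [Field K] {V : Type v} [AddCommGroup V] [Module K V]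

theorem mul_pow_succ_eq (φ ψ : V →ₗ[K] V) (n : ℕ) :
    (ψ * φ) ^ (n + 1) = ψ * (φ * ψ) ^ n * φ := by
  induction n with
  | zero => simp
  | succ m ih => rw [pow_succ, ih, pow_succ]; simp only [mul_assoc]

theorem ftr_mul_comm (φ ψ : V →ₗ[K] V) (n : ℕ)
    (hfin : Module.Finite K (LinearMap.range ((φ * ψ) ^ n))) :
    ftr V (φ * ψ) = ftr V (ψ * φ) := by
  let W : Submodule K V := LinearMap.range ((φ * ψ) ^ n)
  let W' : Submodule K V := W.map ψ
  have hW : ∀ w ∈ W, (φ * ψ) w ∈ W := range_pow_stable (φ * ψ) n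
  have hψ : ∀ w ∈ W, ψ w ∈ W' := fun w hw => Submodule.mem_map_of_mem hw
  have hφ : ∀ w ∈ W', φ w ∈ W := by
    rintro _ ⟨w, hw, rfl⟩
    exact hW w hw
  have hW' : ∀ w ∈ W', (ψ * φ) w ∈ W' := fun w hw => hψ _ (hφ w hw)
  have hfin' : Module.Finite K W' := by
    have : Module.Finite K W := hfin
    exact Module.Finite.map W ψ
  have hrange : LinearMap.range ((ψ * φ) ^ (n + 1)) ≤ W' := by
    rintro _ ⟨v, rfl⟩
    rw [mul_pow_succ_eq φ ψ n]
    exact hψ _ ⟨φ v, rfl⟩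
  rw [ftr_eq_trace (φ * ψ) W n hW hfin le_rfl,
    ftr_eq_trace (ψ * φ) W' (n + 1) hW' hfin' hrange]
  let f : W →ₗ[K] W' := ψ.restrict hψ
  let g : W' →ₗ[K] W := φ.restrict hφ
  have h1 : (φ * ψ).restrict hW = g ∘ₗ f := by
    ext x
    rfl
  have h2 : (ψ * φ).restrict hW' = f ∘ₗ g := by
    ext x
    rfl
  have : Module.Finite K W := hfin
  rw [h1, h2]
  exact LinearMap.trace_comp_comm' f g

end Comm

/-- **[TATE-A]** -/
theorem fpTraceStatement : Fermat.Agent.P5.helper42.FpTraceStatement.{u, v} := by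
  intro K _
  refine ⟨fun V _ _ θ => ftr V θ, ?_, ?_, ?_, ?_⟩
  · intro V _ _ θ W n hW hfin hn
    exact ftr_eq_trace θ W n hW hfin hn
  · intro V _ _ θ n h
    exact ftr_eq_zero_of_pow_eq_zero θ n h
  · intro V _ _ 𝔉 n hfin
    refine ⟨fun θ₁ h₁ θ₂ h₂ => ?_, fun c θ hθ => ?_⟩
    · exact ftr_add_of_shifts n (finite_wordSpan θ₁ θ₂ n (· ∈ 𝔉) h₁ h₂ hfin)
    · exact ftr_smul_of_shifts (θ₂ := θ) n (finite_wordSpan θ θ n (· ∈ 𝔉) hθ hθ hfin) c
  · intro V _ _ φ ψ n hfin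
    exact ftr_mul_comm φ ψ n hfin

end Fermat.Agent.P5.helper78
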