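import Mathlib
import Fermat.Agent.P5.helper42_RRDefs

/-!
# P5 / RR-RTHM (helper97): abstract consequences of Tate's residue axioms

For a Tate residue `res` (the conclusion of `helper42.TateStatement` for one pair `K`, `F`,
packaged as `IsTateRes`):

* `IsTateRes.eq_zero_of_stable`     : `res V A = 0` if `A` is `F`-stable;
* `IsTateRes.eq_zero_of_finite`     : `res V A = 0` if `A` is finite-dimensional;
* `IsTateRes.eq_zero_of_cofinite`   : `res V A = 0` if `A` has finite codimension;
* `IsTateRes.sup_of_disjoint`       : `res V (A ⊔ B) = res V A + res V B` if `A ⊓ B = ⊥`;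
* `IsTateRes.eq_zero_of_sup_inf`    : `res V A = 0` if `B` is `F`-stable, `A ⊔ B` has finite
  codimension and `A ⊓ B` is finite-dimensional (the heart of Tate's proof of the residue
  theorem).
-/

set_option autoImplicit false

open KaehlerDifferential

namespace Fermat.Agent.P5.helper97

open Fermat.Agent.P5.helper42 Fermat.Agent.P5.helper42.Tate

universe u v

/-- The six properties of Tate's residue, for a fixed pair of fields. -/
structure IsTateRes (K : Type u) (F : Type v) [Field K] [Field F] [Algebra K F]
    (res : ∀ (V : Type v) [AddCommGroup V] [Module K V] [Module F V] [IsScalarTower K F V],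
      Submodule K V → (Ω[F⁄K] →ₗ[K] K)) : Prop where
  r1a : ∀ (V V' : Type v) [AddCommGroup V] [Module K V] [Module F V] [IsScalarTower K F V]
      [AddCommGroup V'] [Module K V'] [Module F V'] [IsScalarTower K F V']
      (j : V' →ₗ[F] V) (A' : Submodule K V'), Function.Injective j → NearlyStable F A' →
      res V (A'.map (j.restrictScalars K)) = res V' A'
  r1b : ∀ (V : Type v) [AddCommGroup V] [Module K V] [Module F V] [IsScalarTower K F V]
      (A A' : Submodule K V), NearlyStable F A → NotMuchBigger A A' → NotMuchBigger A' A →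
      res V A = res V A'
  r2 : ∀ (V : Type v) [AddCommGroup V] [Module K V] [Module F V] [IsScalarTower K F V]
      (A : Submodule K V) (f g : F), NearlyStable F A → A.map (mulEnd K F f) ≤ A →
      A.map (mulEnd K F g) ≤ A → res V A (f • D K F g) = 0
  r3 : ∀ (V : Type v) [AddCommGroup V] [Module K V] [Module F V] [IsScalarTower K F V]
      (A : Submodule K V) (g : F), NearlyStable F A → res V A (D K F g) = 0
  r4 : ∀ (V : Type v) [AddCommGroup V] [Module K V] [Module F V] [IsScalarTower K F V]
      (A W : Submodule K V) (g : F), NearlyStable F A → g ≠ 0 → Module.Finite K W →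
      A.map (mulEnd K F g) ⊔ W = A → Disjoint (A.map (mulEnd K F g)) W →
      res V A (g⁻¹ • D K F g) = (Module.finrank K W : K)
  r5 : ∀ (V : Type v) [AddCommGroup V] [Module K V] [Module F V] [IsScalarTower K F V]
      (A B : Submodule K V), NearlyStable F A → NearlyStable F B →
      res V A + res V B = res V (A ⊔ B) + res V (A ⊓ B)

/-- `TateStatement` gives a Tate residue for every pair of fields. -/
theorem exists_isTateRes (hT : TateStatement.{u, v}) (K : Type u) (F : Type v) [Field K]
    [Field F] [Algebra K F] :
    ∃ res : ∀ (V : Type v) [AddCommGroup V] [Module K V] [Module F V] [IsScalarTower K F V],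
      Submodule K V → (Ω[F⁄K] →ₗ[K] K), IsTateRes K F res := by
  obtain ⟨res, h1, h2, h3, h4, h5, h6⟩ := hT K F
  exact ⟨res, ⟨h1, h2, h3, h4, h5, h6⟩⟩

section NMB

variable {K : Type*} [Field K] {V : Type*} [AddCommGroup V] [Module K V]

theorem notMuchBigger_of_le {A B : Submodule K V} (h : A ≤ B) : NotMuchBigger A B :=
  ⟨⊥, inferInstance, h.trans le_sup_left⟩

theorem notMuchBigger_of_finite (A B : Submodule K V) [Module.Finite K A] :
    NotMuchBigger A B :=
  ⟨A, inferInstance, le_sup_right⟩

theorem NotMuchBigger.sup {A A' B B' : Submodule K V} (h : NotMuchBigger A B)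
    (h' : NotMuchBigger A' B') : NotMuchBigger (A ⊔ A') (B ⊔ B') := by
  obtain ⟨W, hW, hle⟩ := h
  obtain ⟨W', hW', hle'⟩ := h'
  refine ⟨W ⊔ W', inferInstance, sup_le ?_ ?_⟩
  · exact hle.trans (sup_le (le_sup_left.trans le_sup_left) (le_sup_left.trans le_sup_right))
  · exact hle'.trans (sup_le (le_sup_right.trans le_sup_left) (le_sup_right.trans le_sup_right))

theorem NotMuchBigger.mono_left {A A' B : Submodule K V} (h : NotMuchBigger A B) (hle : A' ≤ A) :
    NotMuchBigger A' B := by
  obtain ⟨W, hW, hW'⟩ := h
  exact ⟨W, hW, hle.trans hW'⟩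

/-- a subspace of finite codimension: everything is not much bigger -/
theorem notMuchBigger_top_of_finite_quotient (A : Submodule K V) [Module.Finite K (V ⧸ A)] :
    NotMuchBigger (⊤ : Submodule K V) A := by
  obtain ⟨W, hW⟩ := Submodule.exists_isCompl A
  have e : (V ⧸ A) ≃ₗ[K] W := Submodule.quotientEquivOfIsCompl A W hW
  have : Module.Finite K W := Module.Finite.equiv e
  exact ⟨W, this, hW.sup_eq_top.ge⟩

end NMB

section Stable

variable {K : Type*} [Field K] {F : Type*} [Field F] [Algebra K F] {V : Type*} [AddCommGroup V]
  [Module K V] [Module F V] [IsScalarTower K F V]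

theorem nearlyStable_of_stable {A : Submodule K V}
    (h : ∀ f : F, A.map (mulEnd K F f) ≤ A) : NearlyStable F A :=
  fun f => notMuchBigger_of_le (h f)

theorem nearlyStable_top : NearlyStable F (⊤ : Submodule K V) :=
  nearlyStable_of_stable fun _ => le_top

theorem nearlyStable_bot : NearlyStable F (⊥ : Submodule K V) :=
  nearlyStable_of_stable fun f => by rw [Submodule.map_bot]

theorem nearlyStable_of_finite (A : Submodule K V) [Module.Finite K A] : NearlyStable F A :=
  fun f => ⟨A.map (mulEnd K F f), inferInstance, le_sup_right⟩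

theorem NearlyStable.sup {A B : Submodule K V} (hA : NearlyStable F A) (hB : NearlyStable F B) :
    NearlyStable F (A ⊔ B) := fun f => by
  rw [Submodule.map_sup]
  exact NotMuchBigger.sup (hA f) (hB f)

end Stable

namespace IsTateRes

variable {K : Type u} {F : Type v} [Field K] [Field F] [Algebra K F]
  {res : ∀ (V : Type v) [AddCommGroup V] [Module K V] [Module F V] [IsScalarTower K F V],
      Submodule K V → (Ω[F⁄K] →ₗ[K] K)} (hres : IsTateRes K F res)
  {V : Type v} [AddCommGroup V] [Module K V] [Module F V] [IsScalarTower K F V]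

include hres

/-- the residue of an `F`-stable subspace vanishes on `c • ω` -/
theorem apply_smul_eq_zero_of_stable {A : Submodule K V}
    (h : ∀ f : F, A.map (mulEnd K F f) ≤ A) (ω : Ω[F⁄K]) : ∀ c : F, res V A (c • ω) = 0 := by
  have hω : ω ∈ Submodule.span F (Set.range (D K F)) := by
    rw [KaehlerDifferential.span_range_derivation]
    exact Submodule.mem_top
  induction hω using Submodule.span_induction with
  | mem x hx =>
    obtain ⟨g, rfl⟩ := hx
    intro c
    exact hres.r2 V A c g (nearlyStable_of_stable h) (h c) (h g)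
  | zero =>
    intro c
    rw [smul_zero, map_zero]
  | add x y _ _ hx hy =>
    intro c
    rw [smul_add, map_add, hx c, hy c, add_zero]
  | smul a x _ hx =>
    intro c
    rw [smul_smul]
    exact hx (c * a)

/-- the residue of an `F`-stable subspace vanishes -/
theorem eq_zero_of_stable {A : Submodule K V} (h : ∀ f : F, A.map (mulEnd K F f) ≤ A) :
    res V A = 0 := by
  refine LinearMap.ext fun ω => ?_
  have := hres.apply_smul_eq_zero_of_stable h ω 1
  rwa [one_smul] at this

theorem eq_zero_of_top : res V (⊤ : Submodule K V) = 0 :=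
  hres.eq_zero_of_stable fun _ => le_top

theorem eq_zero_of_bot : res V (⊥ : Submodule K V) = 0 :=
  hres.eq_zero_of_stable fun f => by rw [Submodule.map_bot]

/-- the residue of a finite-dimensional subspace vanishes -/
theorem eq_zero_of_finite (A : Submodule K V) [Module.Finite K A] : res V A = 0 := by
  rw [hres.r1b V A ⊥ (nearlyStable_of_finite A) (notMuchBigger_of_finite A ⊥)
    (notMuchBigger_of_le bot_le)]
  exact hres.eq_zero_of_bot

/-- the residue of a subspace of finite codimension vanishes -/
theorem eq_zero_of_cofinite (A : Submodule K V) [Module.Finite K (V ⧸ A)] : res V A = 0 := by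
  rw [← hres.r1b V ⊤ A nearlyStable_top (notMuchBigger_top_of_finite_quotient A)
    (notMuchBigger_of_le le_top)]
  exact hres.eq_zero_of_top

/-- additivity on disjoint subspaces -/
theorem sup_of_disjoint {A B : Submodule K V} (hA : NearlyStable F A) (hB : NearlyStable F B)
    (hd : Disjoint A B) : res V (A ⊔ B) = res V A + res V B := by
  have h := hres.r5 V A B hA hB
  rw [hd.eq_bot, hres.eq_zero_of_bot, add_zero] at h
  exact h.symm

/-- the heart of Tate's proof of the residue theorem -/
theorem eq_zero_of_sup_inf {A B : Submodule K V} (hA : NearlyStable F A)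
    (hB : ∀ f : F, B.map (mulEnd K F f) ≤ B) [Module.Finite K (V ⧸ (A ⊔ B))]
    [Module.Finite K ↥(A ⊓ B)] : res V A = 0 := by
  have h := hres.r5 V A B hA (nearlyStable_of_stable hB)
  rw [hres.eq_zero_of_stable hB, hres.eq_zero_of_cofinite (A ⊔ B), hres.eq_zero_of_finite (A ⊓ B),
    add_zero, add_zero] at h
  exact h

end IsTateRes

end Fermat.Agent.P5.helper97
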