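import Mathlib
import Fermat.Agent.P5.helper97_TateAbs
import Fermat.Agent.P5.helper42_RRLoc
import Fermat.Agent.S24.helper88_Deriv

/-!
# P5 / RR-RTHM (helper97): the local residues `res_v = res^F_(O_v)`

* `OvN v n` : the `K`-subspace `{f | ord_v f ≥ -n}` of `F`; `OvN v 0 = O_v`;
* `nearlyStable_Ov` : `O_v` is nearly stable under `F`;
* the local properties of `res F (OvN v 0)`: vanishing on regular differentials,
  `res (dt / t) = 1`, vanishing on exact differentials.
-/

set_option autoImplicit false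

open KaehlerDifferential AlgebraicCurve

namespace Fermat.Agent.P5.helper97

open Fermat.Agent.P5.helper42 Fermat.Agent.P5.helper42.Tate

universe u v

section Local

variable {K : Type*} {F : Type*} [Field K] [Field F] [Algebra K F]

/-- the `K`-subspace `{f | ord_v f ≥ -n}` of `F` -/
def OvN (v : Place K F) (n : ℤ) : Submodule K F where
  carrier := {f | v.adicValuation f ≤ WithZero.exp n}
  zero_mem' := by
    show v.adicValuation (0 : F) ≤ WithZero.exp n
    simp
  add_mem' := by
    intro f g hf hg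
    have hf' : v.adicValuation f ≤ WithZero.exp n := hf
    have hg' : v.adicValuation g ≤ WithZero.exp n := hg
    exact (Valuation.map_add _ _ _).trans (max_le hf' hg')
  smul_mem' := by
    intro c f hf
    have hf' : v.adicValuation f ≤ WithZero.exp n := hf
    show v.adicValuation (c • f) ≤ WithZero.exp n
    rw [Algebra.smul_def, map_mul]
    exact (mul_le_of_le_one_left' (v.adicValuation_algebraMap_le_one c)).trans hf'

theorem mem_OvN_iff {v : Place K F} {n : ℤ} {f : F} :
    f ∈ OvN v n ↔ f = 0 ∨ -n ≤ v.ord f :=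
  v.adicValuation_le_exp_iff

theorem mem_OvN_of_ne_zero {v : Place K F} {n : ℤ} {f : F} (hf : f ≠ 0) :
    f ∈ OvN v n ↔ -n ≤ v.ord f := by
  rw [mem_OvN_iff, or_iff_right hf]

theorem mem_Ov_iff {v : Place K F} {f : F} : f ∈ OvN v 0 ↔ 0 ≤ v.ord f := by
  rw [mem_OvN_iff, neg_zero]
  constructor
  · rintro (rfl | h)
    · simp
    · exact h
  · exact fun h => Or.inr h

theorem OvN_mono (v : Place K F) {m n : ℤ} (h : m ≤ n) : OvN v m ≤ OvN v n := by
  intro f hf
  rw [mem_OvN_iff] at hf ⊢
  rcases hf with hf | hf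
  · exact Or.inl hf
  · exact Or.inr (by omega)

/-- multiplication by `f` maps `OvN v n` into `OvN v (n - ord f)` -/
theorem map_mulEnd_OvN_le (v : Place K F) (n : ℤ) {f : F} (hf : f ≠ 0) :
    (OvN v n).map (mulEnd K F f) ≤ OvN v (n - v.ord f) := by
  rintro _ ⟨g, hg, rfl⟩
  rw [mulEnd_apply, smul_eq_mul]
  rcases eq_or_ne g 0 with rfl | hg0
  · rw [mul_zero]
    exact zero_mem _
  · have hg' := (mem_OvN_of_ne_zero hg0).1 hg
    rw [mem_OvN_of_ne_zero (mul_ne_zero hf hg0), v.ord_mul hf hg0]
    omega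

theorem map_mulEnd_zero (A : Submodule K F) : A.map (mulEnd K F (0 : F)) = ⊥ := by
  rw [eq_bot_iff]
  rintro _ ⟨g, -, rfl⟩
  rw [mulEnd_apply, zero_smul]
  exact zero_mem _

/-- multiplication by a regular function preserves `O_v` -/
theorem map_mulEnd_Ov_le (v : Place K F) {f : F} (hf : 0 ≤ v.ord f) :
    (OvN v 0).map (mulEnd K F f) ≤ OvN v 0 := by
  rcases eq_or_ne f 0 with rfl | hf0
  · rw [map_mulEnd_zero]
    exact bot_le
  · exact (map_mulEnd_OvN_le v 0 hf0).trans (OvN_mono v (by omega))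

variable (hL : LocalSetting K F)

include hL

/-- one step: `OvN v (n+1) ≤ OvN v n + K t^{-(n+1)}` -/
theorem OvN_succ_le (v : Place K F) (n : ℤ) {t : F} (ht : v.ord t = 1) :
    OvN v (n + 1) ≤ OvN v n ⊔ Submodule.span K {t ^ (-(n + 1))} := by
  intro g hg
  have ht0 : t ≠ 0 := ne_zero_of_ord_eq_one v ht
  rcases eq_or_ne g 0 with rfl | hg0
  · exact zero_mem _
  have hg' := (mem_OvN_of_ne_zero hg0).1 hg
  have hh0 : g * t ^ (n + 1) ≠ 0 := mul_ne_zero hg0 (zpow_ne_zero _ ht0)
  have hh : 0 ≤ v.ord (g * t ^ (n + 1)) := by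
    rw [v.ord_mul hg0 (zpow_ne_zero _ ht0), v.ord_zpow, ht]
    omega
  obtain ⟨a, ha⟩ := hL.residue v _ hh
  have hdecomp : g = (g * t ^ (n + 1) - algebraMap K F a) * t ^ (-(n + 1)) +
      a • t ^ (-(n + 1)) := by
    rw [Algebra.smul_def, ← add_mul, sub_add_cancel, mul_assoc, ← zpow_add₀ ht0,
      add_neg_cancel, zpow_zero, mul_one]
  rw [hdecomp]
  refine Submodule.add_mem _ (Submodule.mem_sup_left ?_)
    (Submodule.mem_sup_right (Submodule.smul_mem _ _ (Submodule.mem_span_singleton_self _)))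
  rcases ha with ha | ha
  · rw [ha, sub_self, zero_mul]
    exact zero_mem _
  · have hne : g * t ^ (n + 1) - algebraMap K F a ≠ 0 := by
      intro h0
      rw [h0, v.ord_zero] at ha
      exact lt_irrefl _ ha
    rw [mem_OvN_of_ne_zero (mul_ne_zero hne (zpow_ne_zero _ ht0)),
      v.ord_mul hne (zpow_ne_zero _ ht0), v.ord_zpow, ht]
    omega

/-- `OvN v n` is not much bigger than `O_v` -/
theorem exists_finite_OvN_le (v : Place K F) (n : ℕ) :
    ∃ W : Submodule K F, Module.Finite K W ∧ OvN v (n : ℤ) ≤ OvN v 0 ⊔ W := by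
  obtain ⟨t, ht⟩ := exists_ord_eq_one v
  induction n with
  | zero => exact ⟨⊥, inferInstance, by simp⟩
  | succ n ih =>
    obtain ⟨W, hW, hle⟩ := ih
    refine ⟨W ⊔ Submodule.span K {t ^ (-((n : ℤ) + 1))}, inferInstance, ?_⟩
    have h1 := OvN_succ_le hL v (n : ℤ) ht
    rw [Nat.cast_add, Nat.cast_one]
    refine h1.trans ?_
    rw [← sup_assoc]
    exact sup_le_sup_right hle _

theorem notMuchBigger_OvN (v : Place K F) (n : ℤ) : NotMuchBigger (OvN v n) (OvN v 0) := by
  obtain ⟨W, hW, hle⟩ := exists_finite_OvN_le hL v n.toNat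
  exact ⟨W, hW, (OvN_mono v (Int.self_le_toNat n)).trans hle⟩

/-- `O_v` is nearly stable under `F` -/
theorem nearlyStable_Ov (v : Place K F) : NearlyStable F (OvN v 0) := by
  intro f
  rcases eq_or_ne f 0 with rfl | hf
  · rw [map_mulEnd_zero]
    exact notMuchBigger_of_le bot_le
  · exact NotMuchBigger.mono_left (notMuchBigger_OvN hL v _) (map_mulEnd_OvN_le v 0 hf)

omit hL in
/-- `t O_v = m_v` -/
theorem map_mulEnd_unif (v : Place K F) {t : F} (ht : v.ord t = 1) :
    (OvN v 0).map (mulEnd K F t) = OvN v (-1) := by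
  have ht0 : t ≠ 0 := ne_zero_of_ord_eq_one v ht
  refine le_antisymm ?_ ?_
  · refine (map_mulEnd_OvN_le v 0 ht0).trans (OvN_mono v ?_)
    rw [ht]
    omega
  · intro g hg
    refine ⟨t⁻¹ * g, ?_, ?_⟩
    · rcases eq_or_ne g 0 with rfl | hg0
      · rw [mul_zero]
        exact zero_mem _
      · have hg' := (mem_OvN_of_ne_zero hg0).1 hg
        have : (t⁻¹ * g) ∈ OvN v 0 := by
          rw [mem_OvN_of_ne_zero (mul_ne_zero (inv_ne_zero ht0) hg0),
            v.ord_mul (inv_ne_zero ht0) hg0, v.ord_inv, ht]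
          omega
        exact this
    · rw [mulEnd_apply, smul_eq_mul, ← mul_assoc, mul_inv_cancel₀ ht0, one_mul]

/-- `O_v = m_v ⊕ K` -/
theorem OvN_neg_one_sup_span (v : Place K F) :
    OvN v (-1) ⊔ Submodule.span K {(1 : F)} = OvN v 0 := by
  refine le_antisymm (sup_le (OvN_mono v (by omega)) ?_) ?_
  · rw [Submodule.span_le, Set.singleton_subset_iff]
    exact mem_Ov_iff.2 (by simp)
  · intro g hg
    have hg' := mem_Ov_iff.1 hg
    obtain ⟨a, ha⟩ := hL.residue v g hg'
    have hdecomp : g = (g - algebraMap K F a) + a • (1 : F) := by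
      rw [Algebra.smul_def, mul_one, sub_add_cancel]
    rw [hdecomp]
    refine Submodule.add_mem _ (Submodule.mem_sup_left ?_)
      (Submodule.mem_sup_right (Submodule.smul_mem _ _ (Submodule.mem_span_singleton_self _)))
    rcases ha with ha | ha
    · rw [ha, sub_self]
      exact zero_mem _
    · rw [mem_OvN_iff]
      right
      omega

theorem disjoint_OvN_neg_one_span (v : Place K F) :
    Disjoint (OvN v (-1)) (Submodule.span K {(1 : F)}) := by
  rw [Submodule.disjoint_def]
  intro x hx hx'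
  obtain ⟨a, rfl⟩ := Submodule.mem_span_singleton.1 hx'
  by_contra hne
  have h1 := (mem_OvN_of_ne_zero hne).1 hx
  rw [Algebra.smul_def, mul_one, hL.ord_const] at h1
  omega

end Local

section Res

variable {K : Type u} {F : Type v} [Field K] [Field F] [Algebra K F]
  {res : ∀ (V : Type v) [AddCommGroup V] [Module K V] [Module F V] [IsScalarTower K F V],
      Submodule K V → (Ω[F⁄K] →ₗ[K] K)} (hres : IsTateRes K F res) (hL : LocalSetting K F)

include hres hL

/-- the local residue vanishes on `f dg` for `f`, `g` regular at `v` -/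
theorem res_Ov_smul_D (v : Place K F) {f g : F} (hf : 0 ≤ v.ord f) (hg : 0 ≤ v.ord g) :
    res F (OvN v 0) (f • D K F g) = 0 :=
  hres.r2 F (OvN v 0) f g (nearlyStable_Ov hL v) (map_mulEnd_Ov_le v hf) (map_mulEnd_Ov_le v hg)

/-- the local residue vanishes on differentials regular at `v` -/
theorem res_Ov_of_regular (v : Place K F) (ω : Ω[F⁄K]) (h : 0 ≤ v.ordDifferential ω) :
    res F (OvN v 0) ω = 0 := by
  have := hL.gen v
  have h1 : ω = v.differentialCoeff ω • D K F ((Fermat.Agent.S24.helper88.unif v : F)) := by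
    rw [← Fermat.Agent.S24.helper88.dCoord_eq, v.differentialCoeff_smul_dCoord]
  rw [h1]
  refine res_Ov_smul_D hres hL v h ?_
  rw [Fermat.Agent.S24.helper88.ord_unif]
  exact zero_le_one

/-- the local residue of `dt / t` is `1` -/
theorem res_Ov_dlog (v : Place K F) (t : F) (ht : v.ord t = 1) :
    res F (OvN v 0) (t⁻¹ • D K F t) = 1 := by
  have ht0 : t ≠ 0 := ne_zero_of_ord_eq_one v ht
  have h := hres.r4 F (OvN v 0) (Submodule.span K {(1 : F)}) t (nearlyStable_Ov hL v) ht0
    inferInstance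
    (by rw [map_mulEnd_unif v ht]; exact OvN_neg_one_sup_span hL v)
    (by rw [map_mulEnd_unif v ht]; exact disjoint_OvN_neg_one_span hL v)
  rw [h, finrank_span_singleton (one_ne_zero), Nat.cast_one]

/-- the local residue vanishes on exact differentials -/
theorem res_Ov_D (v : Place K F) (h : F) : res F (OvN v 0) (D K F h) = 0 :=
  hres.r3 F (OvN v 0) h (nearlyStable_Ov hL v)

end Res

end Fermat.Agent.P5.helper97
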