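import Mathlib
import Fermat.Agent.P5.helper97_ResLocal
import Fermat.Agent.P2.helper74_RiemannChar0

/-!
# P5 / RR-RTHM (helper97, task 562): the residue theorem via Tate

`residueStatement_of_tate : TateStatement → H1Statement → ResidueStatement` (verbatim from
`helper42_RRDefs`).  The local residue at `v` is `res^F_(O_v)`; the residue theorem follows
Tate's adelic proof: `res^V_A = 0` for `V` the adeles and `A` the integral adeles
(`A + F` has finite codimension, `A ∩ F` is finite-dimensional, `F` is `F`-stable), and
`A = A^S ⊕ ⨁_(v ∈ S) A_v` localises `res^V_A (f dg)` to `∑_(v ∈ S) res_v (f dg)`.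
-/

set_option autoImplicit false
set_option linter.style.haveILetI false
set_option linter.unusedSectionVars false

open KaehlerDifferential AlgebraicCurve

namespace Fermat.Agent.P5.helper97

open Fermat.Agent.P5.helper42 Fermat.Agent.P5.helper42.Tate

universe u v

noncomputable section

section Adele

variable {K : Type*} {F : Type*} [Field K] [Field F] [Algebra K F]

theorem coe_smul_adele (f : F) (α : ↥(repartitions K F)) (v : Place K F) :
    ((f • α : ↥(repartitions K F)) : Place K F → F) v = f * (α : Place K F → F) v := rfl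

theorem coe_ksmul_adele (c : K) (α : ↥(repartitions K F)) (v : Place K F) :
    ((c • α : ↥(repartitions K F)) : Place K F → F) v = c • (α : Place K F → F) v := rfl

open Classical in
/-- the adele supported at `v` with entry `f` -/
def sgl (v : Place K F) : F →ₗ[F] ↥(repartitions K F) where
  toFun f := ⟨Pi.single v f, mem_repartitions_of_finite_ord <|
    (Set.finite_singleton v).subset fun w hw => by
      by_contra hne
      have hne' : w ≠ v := hne
      have hw' : w.ord ((Pi.single v f : Place K F → F) w) < 0 := hw
      rw [Pi.single_eq_of_ne hne', Place.ord_zero] at hw'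
      exact lt_irrefl _ hw'⟩
  map_add' f g := by
    apply Subtype.ext
    funext w
    by_cases h : w = v
    · subst h
      simp
    · simp [Pi.single_eq_of_ne h]
  map_smul' c f := by
    apply Subtype.ext
    funext w
    by_cases h : w = v
    · subst h
      simp
    · simp [Pi.single_eq_of_ne h]

theorem sgl_apply_same (v : Place K F) (f : F) : ((sgl v f : ↥(repartitions K F)) : Place K F → F) v = f := by
  classical
  show (Pi.single v f : Place K F → F) v = f
  rw [Pi.single_eq_same]

theorem sgl_apply_of_ne {v w : Place K F} (h : w ≠ v) (f : F) :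
    ((sgl v f : ↥(repartitions K F)) : Place K F → F) w = 0 := by
  classical
  show (Pi.single v f : Place K F → F) w = 0
  rw [Pi.single_eq_of_ne h]

theorem sgl_injective (v : Place K F) : Function.Injective (sgl (K := K) v) := by
  intro f g h
  have := congrArg (fun α : ↥(repartitions K F) => (α : Place K F → F) v) h
  simpa [sgl_apply_same] using this


/-- adeles vanishing on the set `S` of places -/
def van (S : Set (Place K F)) : Submodule K ↥(repartitions K F) where
  carrier := {α | ∀ v ∈ S, (α : Place K F → F) v = 0}
  zero_mem' := fun _ _ => rfl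
  add_mem' := by
    intro α β hα hβ v hv
    show (α : Place K F → F) v + (β : Place K F → F) v = 0
    rw [hα v hv, hβ v hv, add_zero]
  smul_mem' := by
    intro c α hα v hv
    show c • (α : Place K F → F) v = 0
    rw [hα v hv, smul_zero]

theorem mem_van {S : Set (Place K F)} {α : ↥(repartitions K F)} :
    α ∈ van S ↔ ∀ v ∈ S, (α : Place K F → F) v = 0 := Iff.rfl

/-- `B D S` : adeles with poles bounded by `D`, vanishing on `S` -/
def B (D : Divisor K F) (S : Set (Place K F)) : Submodule K ↥(repartitions K F) :=
  repartitionsOf D ⊓ van S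

theorem mem_B {D : Divisor K F} {S : Set (Place K F)} {α : ↥(repartitions K F)} :
    α ∈ B D S ↔ (∀ v, (α : Place K F → F) v ∈ OvN v (D v)) ∧
      ∀ v ∈ S, (α : Place K F → F) v = 0 := Iff.rfl

theorem B_empty (D : Divisor K F) : B D (∅ : Set (Place K F)) = repartitionsOf D := by
  ext α
  rw [mem_B]
  constructor
  · exact fun h => h.1
  · exact fun h => ⟨h, fun v hv => absurd hv (Set.notMem_empty v)⟩

/-- multiplication by `f` on `B D S` -/
theorem map_mulEnd_B_le (D Df : Divisor K F) (S : Set (Place K F)) {f : F} (hf : f ≠ 0)
    (hDf : ∀ v, Df v = v.ord f) :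
    (B D S).map (mulEnd K F f) ≤ B (D - Df) S := by
  rintro _ ⟨α, hα, rfl⟩
  rw [SetLike.mem_coe, mem_B] at hα
  rw [mem_B]
  refine ⟨fun v => ?_, fun v hv => ?_⟩
  · rw [mulEnd_apply, coe_smul_adele, Finsupp.sub_apply, hDf v]
    have := map_mulEnd_OvN_le (K := K) v (D v) hf
    exact this ⟨_, hα.1 v, rfl⟩
  · rw [mulEnd_apply, coe_smul_adele, hα.2 v hv, mul_zero]

theorem map_mulEnd_zero' {V : Type*} [AddCommGroup V] [Module K V] [Module F V]
    [IsScalarTower K F V] (A : Submodule K V) : A.map (mulEnd K F (0 : F)) = ⊥ := by
  rw [eq_bot_iff]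
  rintro _ ⟨g, -, rfl⟩
  rw [mulEnd_apply, zero_smul]
  exact zero_mem _

/-- a function regular and without zeros outside `S` preserves `B 0 S` -/
theorem map_mulEnd_B_zero_le (S : Set (Place K F)) {f : F}
    (hf : ∀ v, v ∉ S → 0 ≤ v.ord f) :
    (B (0 : Divisor K F) S).map (mulEnd K F f) ≤ B 0 S := by
  rintro _ ⟨α, hα, rfl⟩
  rw [SetLike.mem_coe, mem_B] at hα
  rw [mem_B]
  refine ⟨fun v => ?_, fun v hv => ?_⟩
  · by_cases hv : v ∈ S
    · rw [mulEnd_apply, coe_smul_adele, hα.2 v hv, mul_zero]
      exact zero_mem _
    · rw [mulEnd_apply, coe_smul_adele]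
      have := map_mulEnd_Ov_le (K := K) v (hf v hv)
      exact this ⟨_, hα.1 v, rfl⟩
  · rw [mulEnd_apply, coe_smul_adele, hα.2 v hv, mul_zero]

variable (hL : LocalSetting K F)

include hL

/-- removing one place from the divisor -/
theorem B_single_add_le (D : Divisor K F) (S : Set (Place K F)) (v : Place K F) (n : ℤ)
    (hv : D v = 0) :
    ∃ W : Submodule K ↥(repartitions K F), Module.Finite K W ∧
      B (Finsupp.single v n + D) S ≤ B D S ⊔ W := by
  classical
  by_cases hvS : v ∈ S
  · refine ⟨⊥, inferInstance, ?_⟩
    rw [sup_bot_eq]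
    intro α hα
    rw [mem_B] at hα ⊢
    refine ⟨fun w => ?_, hα.2⟩
    by_cases hw : w = v
    · subst hw
      rw [hα.2 w hvS]
      exact zero_mem _
    · have := hα.1 w
      rwa [Finsupp.add_apply, Finsupp.single_eq_of_ne hw, zero_add] at this
  · obtain ⟨W, hW, hle⟩ := notMuchBigger_OvN hL v n
    refine ⟨W.map ((sgl v).restrictScalars K), inferInstance, ?_⟩
    intro α hα
    rw [mem_B] at hα
    have h1 := hα.1 v
    rw [Finsupp.add_apply, Finsupp.single_eq_same, hv, add_zero] at h1
    obtain ⟨o, ho, w, hw, hsum⟩ := Submodule.mem_sup.1 (hle h1)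
    have hdecomp : α = (α - sgl v w) + sgl v w := by rw [sub_add_cancel]
    rw [hdecomp]
    refine Submodule.add_mem _ (Submodule.mem_sup_left ?_)
      (Submodule.mem_sup_right ⟨w, hw, rfl⟩)
    rw [mem_B]
    refine ⟨fun u => ?_, fun u hu => ?_⟩
    · by_cases hu : u = v
      · subst hu
        have : ((α - sgl u w : ↥(repartitions K F)) : Place K F → F) u = o := by
          show (α : Place K F → F) u - ((sgl u w : ↥(repartitions K F)) : Place K F → F) u = o
          rw [sgl_apply_same, ← hsum, add_sub_cancel_right]
        rw [this, hv]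
        exact ho
      · have : ((α - sgl v w : ↥(repartitions K F)) : Place K F → F) u =
            (α : Place K F → F) u := by
          show (α : Place K F → F) u - ((sgl v w : ↥(repartitions K F)) : Place K F → F) u = _
          rw [sgl_apply_of_ne hu, sub_zero]
        rw [this]
        have := hα.1 u
        rwa [Finsupp.add_apply, Finsupp.single_eq_of_ne hu, zero_add] at this
    · have hne : u ≠ v := fun h => hvS (h ▸ hu)
      show (α : Place K F → F) u - ((sgl v w : ↥(repartitions K F)) : Place K F → F) u = 0
      rw [sgl_apply_of_ne hne, sub_zero, hα.2 u hu]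

/-- `B D S` is not much bigger than `B 0 S` -/
theorem notMuchBigger_B (D : Divisor K F) (S : Set (Place K F)) :
    NotMuchBigger (B D S) (B 0 S) := by
  induction D using Finsupp.induction with
  | zero => exact notMuchBigger_of_le le_rfl
  | single_add v n D hv _ ih =>
    obtain ⟨W, hW, hle⟩ := B_single_add_le hL D S v n (Finsupp.notMem_support_iff.1 hv)
    obtain ⟨W', hW', hle'⟩ := ih
    refine ⟨W' ⊔ W, inferInstance, hle.trans ?_⟩
    rw [← sup_assoc]
    exact sup_le_sup_right hle' _


/-- `B 0 S` is nearly stable -/
theorem nearlyStable_B (hP : HasPrincipalDivisors K F) (S : Set (Place K F)) :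
    NearlyStable F (B (0 : Divisor K F) S) := by
  intro f
  rcases eq_or_ne f 0 with rfl | hf
  · rw [map_mulEnd_zero']
    exact notMuchBigger_of_le bot_le
  · obtain ⟨Df, hDf, -⟩ := hP.exists_divisor f hf
    exact NotMuchBigger.mono_left (notMuchBigger_B hL (0 - Df) S)
      (map_mulEnd_B_le 0 Df S hf hDf)

omit hL in
/-- images of nearly stable subspaces under `F`-linear maps are nearly stable -/
theorem NearlyStable.map' {V V' : Type*} [AddCommGroup V] [Module K V] [Module F V]
    [IsScalarTower K F V] [AddCommGroup V'] [Module K V'] [Module F V'] [IsScalarTower K F V']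
    (j : V' →ₗ[F] V) {A' : Submodule K V'} (hA : NearlyStable F A') :
    NearlyStable F (A'.map (j.restrictScalars K)) := by
  intro f
  obtain ⟨W, hW, hle⟩ := hA f
  refine ⟨W.map (j.restrictScalars K), inferInstance, ?_⟩
  rintro _ ⟨_, ⟨a, ha, rfl⟩, rfl⟩
  have h1 : (mulEnd K F f) a ∈ A' ⊔ W := hle ⟨a, ha, rfl⟩
  rw [← Submodule.map_sup]
  refine ⟨(mulEnd K F f) a, h1, ?_⟩
  simp only [mulEnd_apply, LinearMap.coe_restrictScalars, map_smul]

/-- the adeles supported at `v` with entry in `O_v` -/
def Av (v : Place K F) : Submodule K ↥(repartitions K F) :=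
  (OvN v 0).map ((sgl v).restrictScalars K)

theorem nearlyStable_Av (v : Place K F) : NearlyStable F (Av (K := K) v) :=
  NearlyStable.map' (sgl v) (nearlyStable_Ov hL v)

omit hL in
/-- splitting off one place -/
theorem B_insert_sup (S : Set (Place K F)) {v : Place K F} (hv : v ∉ S) :
    B (0 : Divisor K F) (insert v S) ⊔ Av v = B 0 S := by
  refine le_antisymm (sup_le ?_ ?_) ?_
  · intro α hα
    rw [mem_B] at hα ⊢
    exact ⟨hα.1, fun w hw => hα.2 w (Set.mem_insert_of_mem v hw)⟩
  · rintro _ ⟨o, ho, rfl⟩
    rw [mem_B]
    refine ⟨fun w => ?_, fun w hw => ?_⟩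
    · by_cases h : w = v
      · subst h
        rw [LinearMap.coe_restrictScalars, sgl_apply_same]
        exact ho
      · rw [LinearMap.coe_restrictScalars, sgl_apply_of_ne h]
        exact zero_mem _
    · have h : w ≠ v := fun h => hv (h ▸ hw)
      rw [LinearMap.coe_restrictScalars, sgl_apply_of_ne h]
  · intro α hα
    rw [mem_B] at hα
    have hdecomp : α = (α - sgl v ((α : Place K F → F) v)) + sgl v ((α : Place K F → F) v) := by
      rw [sub_add_cancel]
    rw [hdecomp]
    refine Submodule.add_mem _ (Submodule.mem_sup_left ?_)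
      (Submodule.mem_sup_right ⟨_, hα.1 v, rfl⟩)
    rw [mem_B]
    refine ⟨fun w => ?_, fun w hw => ?_⟩
    · by_cases h : w = v
      · subst h
        show (α : Place K F → F) w - ((sgl w _ : ↥(repartitions K F)) : Place K F → F) w ∈ _
        rw [sgl_apply_same, sub_self]
        exact zero_mem _
      · show (α : Place K F → F) w - ((sgl v _ : ↥(repartitions K F)) : Place K F → F) w ∈ _
        rw [sgl_apply_of_ne h, sub_zero]
        exact hα.1 w
    · rcases Set.mem_insert_iff.1 hw with h | h
      · subst h
        show (α : Place K F → F) w - ((sgl w _ : ↥(repartitions K F)) : Place K F → F) w = 0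
        rw [sgl_apply_same, sub_self]
      · have hne : w ≠ v := fun h' => hv (h' ▸ h)
        show (α : Place K F → F) w - ((sgl v _ : ↥(repartitions K F)) : Place K F → F) w = 0
        rw [sgl_apply_of_ne hne, sub_zero, hα.2 w h]

omit hL in
theorem disjoint_B_insert_Av (S : Set (Place K F)) (v : Place K F) :
    Disjoint (B (0 : Divisor K F) (insert v S)) (Av v) := by
  rw [Submodule.disjoint_def]
  rintro _ hx ⟨o, -, rfl⟩
  rw [mem_B] at hx
  have h := hx.2 v (Set.mem_insert v S)
  rw [LinearMap.coe_restrictScalars, sgl_apply_same] at h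
  rw [h, map_zero]

end Adele

section Global

variable {K : Type u} {F : Type v} [Field K] [Field F] [Algebra K F]
  {res : ∀ (V : Type v) [AddCommGroup V] [Module K V] [Module F V] [IsScalarTower K F V],
      Submodule K V → (Ω[F⁄K] →ₗ[K] K)} (hres : IsTateRes K F res) (hL : LocalSetting K F)

include hres hL

/-- the residue of the adeles at `v` is the local residue -/
theorem res_Av (v : Place K F) :
    res ↥(repartitions K F) (Av v) = res F (OvN v 0) :=
  hres.r1a ↥(repartitions K F) F (sgl v) (OvN v 0) (sgl_injective v) (nearlyStable_Ov hL v)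

/-- localisation of the residue of the integral adeles -/
theorem res_B_finset (hP : HasPrincipalDivisors K F) (S : Finset (Place K F)) :
    res ↥(repartitions K F) (repartitionsOf 0) =
      res ↥(repartitions K F) (B 0 (S : Set (Place K F))) + ∑ v ∈ S, res F (OvN v 0) := by
  classical
  induction S using Finset.induction_on with
  | empty =>
    rw [Finset.coe_empty, B_empty, Finset.sum_empty, add_zero]
  | insert v S hv ih =>
    have hv' : v ∉ (S : Set (Place K F)) := hv
    rw [ih, Finset.sum_insert hv, Finset.coe_insert, ← B_insert_sup (S : Set (Place K F)) hv',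
      hres.sup_of_disjoint (nearlyStable_B hL hP _) (nearlyStable_Av hL v)
        (disjoint_B_insert_Av _ v), res_Av hres hL v]
    abel


omit hres hL in
/-- the principal adeles are `F`-stable -/
theorem map_mulEnd_principal_le (f : F) :
    (principalRepartitions K F).map (mulEnd K F f) ≤ principalRepartitions K F := by
  rintro _ ⟨α, hα, rfl⟩
  rw [SetLike.mem_coe, mem_principalRepartitions_iff] at hα
  obtain ⟨g, hg⟩ := hα
  rw [mem_principalRepartitions_iff]
  refine ⟨f * g, ?_⟩
  funext v
  rw [mulEnd_apply, coe_smul_adele, hg]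

omit hres hL in
/-- integral principal adeles form a finite-dimensional space -/
theorem finite_inf_principal (hS : Fermat.Agent.P2.helper74.RiemannSetting K F) :
    Module.Finite K ↥(repartitionsOf (0 : Divisor K F) ⊓ principalRepartitions K F) := by
  have hfin : FiniteDimensional K (riemannRochSpace (0 : Divisor K F)) :=
    Fermat.Agent.P2.helper74.finiteDimensional_L hS 0
  have hle : repartitionsOf (0 : Divisor K F) ⊓ principalRepartitions K F ≤
      (riemannRochSpace (0 : Divisor K F)).map
        ((Algebra.linearMap F ↥(repartitions K F)).restrictScalars K) := by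
    rintro α ⟨h1, h2⟩
    rw [SetLike.mem_coe, mem_principalRepartitions_iff] at h2
    obtain ⟨f, hf⟩ := h2
    refine ⟨f, ?_, ?_⟩
    · intro v
      have := h1 v
      rwa [hf] at this
    · apply Subtype.ext
      rw [hf]
      rfl
  exact Submodule.finiteDimensional_of_le hle

/-- **the residue of the integral adeles vanishes** (Tate) -/
theorem res_repartitionsOf_zero (hS : Fermat.Agent.P2.helper74.RiemannSetting K F)
    (hH1 : Module.Finite K (H1 (0 : Divisor K F))) :
    res ↥(repartitions K F) (repartitionsOf 0) = 0 := by
  have hA : NearlyStable F (repartitionsOf (0 : Divisor K F)) := by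
    have := nearlyStable_B hL hS.principal (∅ : Set (Place K F))
    rwa [B_empty] at this
  haveI : Module.Finite K
      (↥(repartitions K F) ⧸ (repartitionsOf (0 : Divisor K F) ⊔ principalRepartitions K F)) :=
    hH1
  haveI := finite_inf_principal hS
  exact hres.eq_zero_of_sup_inf hA map_mulEnd_principal_le

/-- the residue theorem for `f dg` -/
theorem sum_res_smul_D (hS : Fermat.Agent.P2.helper74.RiemannSetting K F)
    (hH1 : Module.Finite K (H1 (0 : Divisor K F))) (f g : F) :
    (Function.support fun v : Place K F => res F (OvN v 0) (f • D K F g)).Finite ∧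
      ∑ᶠ v : Place K F, res F (OvN v 0) (f • D K F g) = 0 := by
  classical
  rcases eq_or_ne f 0 with rfl | hf
  · simp
  rcases eq_or_ne g 0 with rfl | hg
  · simp
  obtain ⟨Df, hDf, -⟩ := hS.principal.exists_divisor f hf
  obtain ⟨Dg, hDg, -⟩ := hS.principal.exists_divisor g hg
  have hfS : ∀ v, v ∉ ((Df.support ∪ Dg.support : Finset (Place K F)) : Set (Place K F)) →
      0 ≤ v.ord f := by
    intro v hv
    rw [Finset.mem_coe, Finset.mem_union, not_or, Finsupp.notMem_support_iff] at hv
    rw [← hDf v, hv.1]
  have hgS : ∀ v, v ∉ ((Df.support ∪ Dg.support : Finset (Place K F)) : Set (Place K F)) →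
      0 ≤ v.ord g := by
    intro v hv
    rw [Finset.mem_coe, Finset.mem_union, not_or, Finsupp.notMem_support_iff,
      Finsupp.notMem_support_iff] at hv
    rw [← hDg v, hv.2]
  have hout : ∀ v, v ∉ (Df.support ∪ Dg.support : Finset (Place K F)) →
      res F (OvN v 0) (f • D K F g) = 0 := fun v hv =>
    res_Ov_smul_D hres hL v (hfS v (by simpa using hv)) (hgS v (by simpa using hv))
  have hsub : (Function.support fun v : Place K F => res F (OvN v 0) (f • D K F g)) ⊆
      ((Df.support ∪ Dg.support : Finset (Place K F)) : Set (Place K F)) := by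
    intro v hv
    by_contra hcon
    exact hv (hout v (by simpa using hcon))
  refine ⟨(Finset.finite_toSet _).subset hsub, ?_⟩
  rw [finsum_eq_sum_of_support_subset _ hsub]
  have h1 := res_B_finset hres hL hS.principal (Df.support ∪ Dg.support)
  have h2 := congrArg (fun φ : Ω[F⁄K] →ₗ[K] K => φ (f • D K F g)) h1
  simp only [LinearMap.add_apply, LinearMap.sum_apply] at h2
  rw [res_repartitionsOf_zero hres hL hS hH1, LinearMap.zero_apply,
    hres.r2 _ _ f g (nearlyStable_B hL hS.principal _) (map_mulEnd_B_zero_le _ hfS)
      (map_mulEnd_B_zero_le _ hgS), zero_add] at h2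
  exact h2.symm

/-- the residue theorem -/
theorem sum_res (hS : Fermat.Agent.P2.helper74.RiemannSetting K F)
    (hH1 : Module.Finite K (H1 (0 : Divisor K F))) (ω : Ω[F⁄K]) :
    ∀ c : F, (Function.support fun v : Place K F => res F (OvN v 0) (c • ω)).Finite ∧
      ∑ᶠ v : Place K F, res F (OvN v 0) (c • ω) = 0 := by
  have hω : ω ∈ Submodule.span F (Set.range (D K F)) := by
    rw [KaehlerDifferential.span_range_derivation]
    exact Submodule.mem_top
  induction hω using Submodule.span_induction with
  | mem x hx =>
    obtain ⟨g, rfl⟩ := hx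
    intro c
    exact sum_res_smul_D hres hL hS hH1 c g
  | zero =>
    intro c
    simp
  | add x y _ _ hx hy =>
    intro c
    obtain ⟨hx1, hx2⟩ := hx c
    obtain ⟨hy1, hy2⟩ := hy c
    have hfun : (fun v : Place K F => res F (OvN v 0) (c • (x + y))) =
        fun v => res F (OvN v 0) (c • x) + res F (OvN v 0) (c • y) := by
      funext v
      rw [smul_add, map_add]
    rw [hfun]
    refine ⟨(hx1.union hy1).subset (Function.support_add _ _), ?_⟩
    rw [finsum_add_distrib hx1 hy1, hx2, hy2, add_zero]
  | smul a x _ hx =>
    intro c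
    have := hx (c * a)
    rwa [← smul_smul] at this

/-- **[RR-RTHM]**, core: the local residues `res^F_(O_v)` form a residue system -/
theorem isResidueSystem (hS : Fermat.Agent.P2.helper74.RiemannSetting K F)
    (hH1 : Module.Finite K (H1 (0 : Divisor K F))) :
    IsResidueSystem fun v : Place K F => res F (OvN v 0) := by
  refine ⟨fun v ω h => res_Ov_of_regular hres hL v ω h,
    fun v t ht => res_Ov_dlog hres hL v t ht, fun v h => res_Ov_D hres hL v h, ?_, ?_⟩
  · intro ω
    have := (sum_res hres hL hS hH1 ω 1).1
    simpa only [one_smul] using this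
  · intro ω
    have := (sum_res hres hL hS hH1 ω 1).2
    simpa only [one_smul] using this

end Global

/-- **[RR-RTHM]** every function field over an algebraically closed field of characteristic
zero has a system of local residues (Tate's residues of the valuation rings). -/
theorem residueStatement_of_tate :
    TateStatement.{u, v} → H1Statement.{u, v} → ResidueStatement.{u, v} := by
  intro hT hH K F _ _ _ _ _ x hx hfin
  obtain ⟨res, hres⟩ := exists_isTateRes hT K F
  have hL : LocalSetting K F := LocalSetting.of_ff x hx
  have hS := Fermat.Agent.P2.helper74.riemannSetting_charZero x hx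
  obtain ⟨g, -, hg⟩ := Fermat.Agent.P2.helper74.exists_genus_charZero x hx
  have hH1 := (hH K F hS g hg 0).1
  exact ⟨fun v => res F (OvN v 0), isResidueSystem hres hL hS hH1⟩

end

end Fermat.Agent.P5.helper97
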