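import Mathlib
import Fermat.Agent.P5.helper42_RRDefs
import Fermat.Agent.P5.helper42_RRCon
import Fermat.Agent.P5.helper42_RRGenus
import Fermat.Agent.P5.helper42_RRCanon
import Fermat.Agent.P5.helper42_Duality
import Fermat.Agent.P5.helper52_H1
import Fermat.Agent.P5.helper65_TateFinal
import Fermat.Agent.P5.helper78_FpTrace
import Fermat.Agent.P5.helper97_ResidueThm
import Fermat.Agent.P5.helper15_RRSurj
import Fermat.Agent.P5.helper4_RHCanon

/-!
# P5 / RR (helper42): final wiring of module RR - everything UNCONDITIONAL

The Riemann-Roch module of P5 (S27) is complete.  Packages:

* TATE-A  `helper78.fpTraceStatement`          (trace of finite-potent endomorphisms)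
* TATE-B  `helper65.tateStatement_of_fpTrace`  (Tate's abstract residue)
* RR-H1   `helper52.h1Statement`               (dimension of `H1 D`, Stichtenoth 1.5.4)
* RTHM    `helper97.residueStatement_of_tate`  (local residues and the residue theorem)
* DUAL    `helper42.rrFull_of_residue`         (Riemann-Roch with a canonical divisor)
* CON     `helper42.rrCon_of_full`             (consumer statement of CNT / MONO)
* SURJ    `helper15.rrSurj_of_full`            (consumer statement of SURJ)
* CANON   `helper42.canonDeg_of_full`          (degree of the canonical divisor, M6)

Deliverables of this file (no hypotheses):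

* `tateStatement`, `residueStatement`, `rrFullStatement` (universe polymorphic);
* `rrConStatement : helper25.RRConStatement`;
* `rrSurjStatement : helper25.RRSurjStatement`;
* `canonDegStatement : helper4.CanonDegStatement`, `b1Statement' : helper25.B1Statement`;
* `hasRiemannGenus_genusFF_uncond`, `genusFF_eq_uncond`, `finrank_H1_eq_uncond`.
-/

set_option autoImplicit false

namespace Fermat.Agent.P5.helper42

open AlgebraicCurve KaehlerDifferential IntermediateField
open Fermat.Agent.P2.helper74

universe u v

/-- **[TATE]** Tate's abstract residue exists. -/
theorem tateStatement : TateStatement.{u, v} :=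
  helper65.tateStatement_of_fpTrace helper78.fpTraceStatement

/-- **[RTHM]** local residues and the residue theorem. -/
theorem residueStatement : ResidueStatement.{u, v} :=
  helper97.residueStatement_of_tate tateStatement helper52.h1Statement

/-- **[DUAL]** Riemann-Roch with a canonical divisor. -/
theorem rrFullStatement : RRFullStatement.{u, v} :=
  rrFull_of_residue residueStatement helper52.h1Statement

/-- **[RR-CON]** the Riemann-Roch consumer statement of CNT and MONO. -/
theorem rrConStatement : helper25.RRConStatement :=
  rrCon_of_full residueStatement rrFullStatement

/-- **[RR-SURJ]** the Riemann-Roch consumer statement of SURJ. -/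
theorem rrSurjStatement : helper25.RRSurjStatement :=
  helper15.rrSurj_of_full residueStatement rrFullStatement helper52.h1Statement

/-- **[CANON]** the degree of the divisor of a differential is `2 g - 2`. -/
theorem canonDegStatement : helper4.CanonDegStatement :=
  canonDeg_of_full rrFullStatement helper52.h1Statement

/-- **[M6]** the Riemann-Hurwitz bookkeeping statement `B1Statement`, unconditionally. -/
theorem b1Statement' : helper25.B1Statement :=
  helper4.b1Statement_of_canonDeg canonDegStatement

/-- **`genusFF` is the Riemann genus**, unconditionally, under the hypotheses of S27. -/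
theorem hasRiemannGenus_genusFF_uncond (K : Type u) (F : Type v) [Field K]
    [Field F] [Algebra K F] [IsAlgClosed K] [IsCurveOver K F]
    [Algebra.EssFiniteType K F] : HasRiemannGenus K F (genusFF K F) :=
  hasRiemannGenus_genusFF' helper52.h1Statement K F

/-- `genusFF K F = g` for every Riemann genus `g` of a Riemann setting. -/
theorem genusFF_eq_uncond {K : Type u} {F : Type v} [Field K]
    [Field F] [Algebra K F] (hS : RiemannSetting K F) {g : ℕ} (hg : HasRiemannGenus K F g) :
    genusFF K F = g :=
  genusFF_eq_of_h1 helper52.h1Statement hS hg

/-- The index of speciality in terms of `genusFF`. -/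
theorem finrank_H1_eq_uncond {K : Type u} {F : Type v} [Field K]
    [Field F] [Algebra K F] (hS : RiemannSetting K F) {g : ℕ} (hg : HasRiemannGenus K F g)
    (D : Divisor K F) :
    (Module.finrank K (H1 D) : ℤ) = ell D - Divisor.degree D + genusFF K F - 1 :=
  finrank_H1_eq_of_h1 helper52.h1Statement hS hg D

end Fermat.Agent.P5.helper42
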