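/-
P5 / S27, package [RR-LOC] (helper46, task 531; design = finding 'P5 RR DESIGN + TARGETS').

Local calculus of `Place.ordDifferential` on a function field `F/ℂ` and the purely local fields
of `helper25.RRCon` / `helper25.RRSurj`:

* `exists_transcendental_finiteDimensional` : a curve in the sense of the Prelude
  (`IsCurveOver K F`, `Algebra.EssFiniteType K F`, `K` algebraically closed) has a separating
  element `x` (transcendental, `F / K(x)` finite);
* `ordDifferential_add_ge`, `ordDifferential_smul'`, `ordDifferential_const_smul`,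
  `ordDifferential_D_nonneg`, `ordDifferential_D_uniformizer`,
  `ordDifferential_dlog_uniformizer`, `ordDifferential_dlog_unit`,
  `ordDifferential_dlog_sub_dlog`, `hasLogPole_forall_uniformizer`,
  `hasSimplePole_forall_uniformizer`, `hasLogPole_dlog`;
* `rrCon_dlog_residue`, `rrCon_residue_unique`, `rrCon_add`, `rrCon_neg`,
  `rrCon_smul_holomorphic`, `rrSurj_exists_residue` : the fields of `RRCon` / `RRSurj`, verbatim.
-/
import Mathlib
import Fermat.Agent.P5.helper25_RRInterface
import Fermat.Agent.S24.helper88_FFDeriv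
import Fermat.Agent.S24.helper75_FFCore

set_option autoImplicit false
set_option linter.style.haveILetI false
set_option linter.unusedSectionVars false

open AlgebraicCurve KaehlerDifferential IntermediateField

namespace Fermat.Agent.P5.helper46

open Fermat.Agent.P5.helper25 Fermat.Agent.S24

noncomputable section

section Exists

variable {K F : Type*} [Field K] [Field F] [Algebra K F]

/-- In a one-dimensional space of differentials, a nonzero differential spans. -/
theorem span_singleton_eq_top_of_finrank_one (h1 : Module.finrank F Ω[F⁄K] = 1)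
    {ω : Ω[F⁄K]} (hω : ω ≠ 0) : Submodule.span F {ω} = ⊤ := by
  have hfin : Module.Finite F Ω[F⁄K] := Module.finite_of_finrank_eq_succ h1
  apply Submodule.eq_top_of_finrank_eq
  rw [finrank_span_singleton hω, h1]

/-- A function field of one variable in the sense of the Prelude (`Ω` of rank one, essentially of
finite type) over an algebraically closed field is finite over `K(x)` for every `x` with
`dx ≠ 0`. -/
theorem finiteDimensional_adjoin_of_D_ne_zero [Algebra.EssFiniteType K F]
    (h1 : Module.finrank F Ω[F⁄K] = 1) (x : F) (hx : D K F x ≠ 0) :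
    FiniteDimensional K⟮x⟯ F := by
  have hspan := span_singleton_eq_top_of_finrank_one h1 hx
  -- `Ω[F/K(x)] = 0`
  have hsub : Subsingleton Ω[F⁄K⟮x⟯] := by
    have hsurj : Function.Surjective (KaehlerDifferential.map K K⟮x⟯ F F) :=
      KaehlerDifferential.map_surjective K K⟮x⟯ F
    have hzero : ∀ ω : Ω[F⁄K], KaehlerDifferential.map K K⟮x⟯ F F ω = 0 := by
      intro ω
      have hω : ω ∈ Submodule.span F {D K F x} := hspan ▸ Submodule.mem_top
      obtain ⟨f, rfl⟩ := Submodule.mem_span_singleton.mp hω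
      rw [map_smul, KaehlerDifferential.map_D]
      have hD : D K⟮x⟯ F x = 0 :=
        Derivation.map_algebraMap (D K⟮x⟯ F) ⟨x, IntermediateField.mem_adjoin_simple_self K x⟩
      rw [show (algebraMap F F) x = x from rfl, hD, smul_zero]
    refine ⟨fun a b => ?_⟩
    obtain ⟨a', rfl⟩ := hsurj a
    obtain ⟨b', rfl⟩ := hsurj b
    rw [hzero a', hzero b']
  have hfu : Algebra.FormallyUnramified K⟮x⟯ F := ⟨hsub⟩
  have hess : Algebra.EssFiniteType K⟮x⟯ F := Algebra.EssFiniteType.of_comp K K⟮x⟯ F
  exact Algebra.FormallyUnramified.finite_of_free K⟮x⟯ F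

/-- There is an element with nonzero differential. -/
theorem exists_D_ne_zero [Nontrivial Ω[F⁄K]] : ∃ x : F, D K F x ≠ 0 := by
  by_contra hcon
  push Not at hcon
  have hspan := KaehlerDifferential.span_range_derivation K F
  have hbot : Submodule.span F (Set.range (D K F)) = ⊥ := by
    rw [Submodule.span_eq_bot]
    rintro _ ⟨x, rfl⟩
    exact hcon x
  rw [hbot] at hspan
  obtain ⟨ω, hω⟩ := exists_ne (0 : Ω[F⁄K])
  have : ω ∈ (⊥ : Submodule F Ω[F⁄K]) := hspan ▸ Submodule.mem_top
  exact hω ((Submodule.mem_bot F).1 this)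

/-- **Existence of a separating element**: a curve in the sense of the Prelude which is
essentially of finite type over an algebraically closed field is a finite extension of a
rational function field `K(x)`. -/
theorem exists_transcendental_finiteDimensional [IsAlgClosed K] [IsCurveOver K F]
    [Algebra.EssFiniteType K F] :
    ∃ x : F, Transcendental K x ∧ FiniteDimensional K⟮x⟯ F := by
  obtain ⟨x, hx⟩ := exists_D_ne_zero (K := K) (F := F)
  refine ⟨x, ?_, finiteDimensional_adjoin_of_D_ne_zero IsCurveOver.finrank_kaehler x hx⟩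
  apply helper82.transcendental_of_not_mem_range
  rintro ⟨a, rfl⟩
  exact hx (Derivation.map_algebraMap _ a)

end Exists

/-! ## Local calculus of `ordDifferential` at a place -/

section Local

variable {K F : Type*} [Field K] [Field F] [Algebra K F] (v : Place K F)
  [v.DCoordGenerates] [Nontrivial Ω[F⁄K]]

theorem differentialCoeff_add (a b : Ω[F⁄K]) :
    v.differentialCoeff (a + b) = v.differentialCoeff a + v.differentialCoeff b :=
  v.differentialCoeff_unique (by
    rw [add_smul, v.differentialCoeff_smul_dCoord, v.differentialCoeff_smul_dCoord])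

theorem differentialCoeff_neg (a : Ω[F⁄K]) :
    v.differentialCoeff (-a) = -v.differentialCoeff a :=
  v.differentialCoeff_unique (by rw [neg_smul, v.differentialCoeff_smul_dCoord])

theorem differentialCoeff_sub (a b : Ω[F⁄K]) :
    v.differentialCoeff (a - b) = v.differentialCoeff a - v.differentialCoeff b :=
  v.differentialCoeff_unique (by
    rw [sub_smul, v.differentialCoeff_smul_dCoord, v.differentialCoeff_smul_dCoord])

theorem differentialCoeff_eq_zero_iff (a : Ω[F⁄K]) : v.differentialCoeff a = 0 ↔ a = 0 := by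
  constructor
  · intro h
    rw [← v.differentialCoeff_smul_dCoord a, h, zero_smul]
  · rintro rfl
    exact v.differentialCoeff_zero

theorem ordDifferential_zero : v.ordDifferential (0 : Ω[F⁄K]) = 0 := by
  rw [Place.ordDifferential, v.differentialCoeff_zero, v.ord_zero]

theorem ordDifferential_neg (a : Ω[F⁄K]) : v.ordDifferential (-a) = v.ordDifferential a := by
  rw [Place.ordDifferential, Place.ordDifferential, differentialCoeff_neg]
  rcases eq_or_ne (v.differentialCoeff a) 0 with h | h
  · rw [h, neg_zero]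
  · have h1 : (-1 : F) ≠ 0 := neg_ne_zero.mpr one_ne_zero
    have h2 : v.ord (-1 : F) = 0 := by
      have := v.ord_mul h1 h1
      rw [neg_one_mul, neg_neg, v.ord_one] at this
      omega
    rw [← neg_one_mul, v.ord_mul h1 h, h2, zero_add]

/-- (1) `ordDifferential (a + b) ≥ min` (for `a + b ≠ 0`). -/
theorem ordDifferential_add_ge {a b : Ω[F⁄K]} (hab : a + b ≠ 0) :
    min (v.ordDifferential a) (v.ordDifferential b) ≤ v.ordDifferential (a + b) := by
  rw [Place.ordDifferential, Place.ordDifferential, Place.ordDifferential, differentialCoeff_add]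
  refine helper75.place_ord_add_ge v ?_
  rw [← differentialCoeff_add]
  exact fun h => hab ((differentialCoeff_eq_zero_iff v _).1 h)

/-- (1') a lower bound `n ≤ 0` is preserved by addition. -/
theorem ordDifferential_add_ge_of_le {a b : Ω[F⁄K]} {n : ℤ} (hn : n ≤ 0)
    (ha : n ≤ v.ordDifferential a) (hb : n ≤ v.ordDifferential b) :
    n ≤ v.ordDifferential (a + b) := by
  rcases eq_or_ne (a + b) 0 with h | h
  · rw [h, ordDifferential_zero]
    exact hn
  · exact le_trans (le_min ha hb) (ordDifferential_add_ge v h)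

theorem ordDifferential_sub_ge_of_le {a b : Ω[F⁄K]} {n : ℤ} (hn : n ≤ 0)
    (ha : n ≤ v.ordDifferential a) (hb : n ≤ v.ordDifferential b) :
    n ≤ v.ordDifferential (a - b) := by
  rw [sub_eq_add_neg]
  exact ordDifferential_add_ge_of_le v hn ha (by rwa [ordDifferential_neg])

/-- order of a multiple, without nonvanishing hypotheses on the differential -/
theorem ordDifferential_smul' {c : F} (hc : c ≠ 0) {a : Ω[F⁄K]} (ha : a ≠ 0) :
    v.ordDifferential (c • a) = v.ord c + v.ordDifferential a :=
  v.ordDifferential_smul hc (fun h => ha ((differentialCoeff_eq_zero_iff v a).1 h))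

/-- (2) multiplication by a nonzero constant does not change the order. -/
theorem ordDifferential_algebraMap_smul {c : K} (hc : c ≠ 0) (a : Ω[F⁄K]) :
    v.ordDifferential (algebraMap K F c • a) = v.ordDifferential a := by
  rcases eq_or_ne a 0 with rfl | ha
  · rw [smul_zero]
  · rw [ordDifferential_smul' v ((map_ne_zero (algebraMap K F)).mpr hc) ha,
      helper75.place_ord_algebraMap, zero_add]

theorem ordDifferential_const_smul {c : K} (hc : c ≠ 0) (a : Ω[F⁄K]) :
    v.ordDifferential (c • a) = v.ordDifferential a := by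
  rw [← algebraMap_smul F c a]
  exact ordDifferential_algebraMap_smul v hc a

/-- regular differentials are stable under multiplication by constants -/
theorem ordDifferential_const_smul_nonneg (c : K) {a : Ω[F⁄K]} (ha : 0 ≤ v.ordDifferential a) :
    0 ≤ v.ordDifferential (c • a) := by
  rcases eq_or_ne c 0 with rfl | hc
  · rw [zero_smul, ordDifferential_zero]
  · rwa [ordDifferential_const_smul v hc]

/-- regular differentials are stable under multiplication by regular functions -/
theorem ordDifferential_smul_nonneg {f : F} (hf : 0 ≤ v.ord f) {a : Ω[F⁄K]}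
    (ha : 0 ≤ v.ordDifferential a) : 0 ≤ v.ordDifferential (f • a) := by
  rcases eq_or_ne f 0 with rfl | hf0
  · rw [zero_smul, ordDifferential_zero]
  rcases eq_or_ne a 0 with rfl | ha0
  · rw [smul_zero, ordDifferential_zero]
  rw [ordDifferential_smul' v hf0 ha0]
  omega

end Local

/-! ## Exact differentials at a place of a function field -/

section FF

variable {F : Type} [Field F] [Algebra ℂ F] (x : F) (hx : Transcendental ℂ x)
  [FiniteDimensional ℂ⟮x⟯ F] (v : Place ℂ F)

include hx

/-- (3a) the differential of a function regular at `v` is regular at `v`. -/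
theorem ordDifferential_D_nonneg {u : F} (hu : 0 ≤ v.ord u) :
    0 ≤ v.ordDifferential (D ℂ F u) := by
  haveI := helper82.ff_dCoordGenerates x hx v
  haveI := helper88.ff_nontrivial_kaehler x hx
  haveI := helper88.essFiniteType_valuationSubring x hx v
  obtain ⟨h, hh⟩ := helper88.exists_D_eq_smul v
    (fun f hf => helper82.ff_exists_residue x hx v f hf) ⟨u, helper82.mem_of_ord_nonneg v hu⟩
  rw [Place.ordDifferential, v.differentialCoeff_unique hh]
  exact helper82.ord_nonneg_of_mem v h.2

/-- a function with nonzero order at some place is not constant -/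
theorem not_mem_range_of_ord_ne_zero {t : F} (ht : v.ord t ≠ 0) :
    t ∉ Set.range (algebraMap ℂ F) := by
  rintro ⟨a, rfl⟩
  exact ht (helper75.place_ord_algebraMap v a)

omit hx in
theorem ne_zero_of_ord_ne_zero {t : F} (ht : v.ord t ≠ 0) : t ≠ 0 := by
  rintro rfl
  exact ht v.ord_zero

theorem D_ne_zero_of_ord_ne_zero {t : F} (ht : v.ord t ≠ 0) : D ℂ F t ≠ 0 :=
  helper82.ff_D_ne_zero x hx t (not_mem_range_of_ord_ne_zero x hx v ht)

/-- (3b) `ord_v (dt) = ord_v t - 1` if `ord_v t ≠ 0`. -/
theorem ordDifferential_D_of_ord_ne_zero {t : F} (ht : v.ord t ≠ 0) :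
    v.ordDifferential (D ℂ F t) = v.ord t - 1 := by
  rcases lt_or_gt_of_ne ht with h | h
  · exact helper88.ff_ordDifferential_D_of_pole x hx t v h
  · have := helper88.ff_ordDifferential_D_of_zero x hx t 0 v (by rwa [map_zero, sub_zero])
    rwa [map_zero, sub_zero] at this

/-- (3b) the differential of a uniformiser has order `0`. -/
theorem ordDifferential_D_uniformizer {t : F} (ht : v.ord t = 1) :
    v.ordDifferential (D ℂ F t) = 0 := by
  rw [ordDifferential_D_of_ord_ne_zero x hx v (by omega), ht]
  rfl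

omit hx in
theorem dlog_mul {f g : F} (hf : f ≠ 0) (hg : g ≠ 0) :
    dlog F (f * g) = dlog F f + dlog F g := by
  unfold dlog
  rw [Derivation.leibniz, smul_add, smul_smul, smul_smul, add_comm]
  have h1 : (f * g)⁻¹ * g = f⁻¹ := by field_simp
  have h2 : (f * g)⁻¹ * f = g⁻¹ := by field_simp
  rw [h1, h2]

omit hx in
theorem dlog_zpow {t : F} (ht : t ≠ 0) (m : ℤ) : dlog F (t ^ m) = m • dlog F t := by
  unfold dlog
  rw [Derivation.leibniz_zpow, ← Int.cast_smul_eq_zsmul F m, ← Int.cast_smul_eq_zsmul F m,
    smul_smul, smul_smul, smul_smul]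
  congr 1
  have h3 : t ^ m = t ^ (m - 1) * t := by rw [← zpow_add_one₀ ht, sub_add_cancel]
  rw [h3]
  have h4 : t ^ (m - 1) ≠ 0 := zpow_ne_zero _ ht
  field_simp

omit hx in
theorem zsmul_dlog_eq (m : ℤ) (t : F) : m • dlog F t = (m : F) • dlog F t :=
  (Int.cast_smul_eq_zsmul F m _).symm

omit hx in
theorem const_smul_dlog_eq (c : ℂ) (t : F) : c • dlog F t = (algebraMap ℂ F c) • dlog F t :=
  (algebraMap_smul F c _).symm

/-- `ord_v (dlog t) = -1` for a uniformiser `t`. -/
theorem ordDifferential_dlog_uniformizer {t : F} (ht : v.ord t = 1) :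
    v.ordDifferential (dlog F t) = -1 := by
  haveI := helper82.ff_dCoordGenerates x hx v
  haveI := helper88.ff_nontrivial_kaehler x hx
  have ht0 : t ≠ 0 := ne_zero_of_ord_ne_zero v (by omega)
  unfold dlog
  rw [ordDifferential_smul' v (inv_ne_zero ht0) (D_ne_zero_of_ord_ne_zero x hx v (by omega)),
    v.ord_inv, ht, ordDifferential_D_uniformizer x hx v ht]
  rfl

/-- `dlog u` is regular at `v` if `u` is a unit at `v`. -/
theorem ordDifferential_dlog_unit {u : F} (hu : v.ord u = 0) :
    0 ≤ v.ordDifferential (dlog F u) := by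
  haveI := helper82.ff_dCoordGenerates x hx v
  haveI := helper88.ff_nontrivial_kaehler x hx
  unfold dlog
  refine ordDifferential_smul_nonneg v ?_ (ordDifferential_D_nonneg x hx v (by omega))
  rw [v.ord_inv, hu]
  rfl

/-- (4) change of uniformiser: `dlog t' - dlog t` is regular. -/
theorem ordDifferential_dlog_sub_dlog {t t' : F} (ht : v.ord t = 1) (ht' : v.ord t' = 1) :
    0 ≤ v.ordDifferential (dlog F t' - dlog F t) := by
  have ht0 : t ≠ 0 := ne_zero_of_ord_ne_zero v (by omega)
  have ht0' : t' ≠ 0 := ne_zero_of_ord_ne_zero v (by omega)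
  have hu0 : t' * t⁻¹ ≠ 0 := mul_ne_zero ht0' (inv_ne_zero ht0)
  have hu : v.ord (t' * t⁻¹) = 0 := by
    rw [v.ord_mul ht0' (inv_ne_zero ht0), v.ord_inv, ht, ht']
    rfl
  have e : dlog F t' = dlog F (t' * t⁻¹) + dlog F t := by
    rw [← dlog_mul hu0 ht0]
    congr 1
    field_simp
  rw [e, add_sub_cancel_right]
  exact ordDifferential_dlog_unit x hx v hu

/-- (4) `HasLogPole` does not depend on the uniformiser. -/
theorem hasLogPole_forall_uniformizer {τ : Ω[F⁄ℂ]} {m : ℤ} (h : HasLogPole v τ m)
    {t : F} (ht : v.ord t = 1) : 0 ≤ v.ordDifferential (τ - m • dlog F t) := by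
  haveI := helper82.ff_dCoordGenerates x hx v
  haveI := helper88.ff_nontrivial_kaehler x hx
  obtain ⟨t', ht', h'⟩ := h
  have e : τ - m • dlog F t = (τ - m • dlog F t') + (m : F) • (dlog F t' - dlog F t) := by
    rw [zsmul_dlog_eq, zsmul_dlog_eq, smul_sub]
    abel
  rw [e]
  refine ordDifferential_add_ge_of_le v le_rfl h' ?_
  refine ordDifferential_smul_nonneg v ?_ (ordDifferential_dlog_sub_dlog x hx v ht ht')
  have : (m : F) = algebraMap ℂ F (m : ℂ) := by simp
  rw [this, helper75.place_ord_algebraMap]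

/-- `HasSimplePole` does not depend on the uniformiser. -/
theorem hasSimplePole_forall_uniformizer {τ : Ω[F⁄ℂ]} {c : ℂ} (h : HasSimplePole v τ c)
    {t : F} (ht : v.ord t = 1) : 0 ≤ v.ordDifferential (τ - c • dlog F t) := by
  haveI := helper82.ff_dCoordGenerates x hx v
  haveI := helper88.ff_nontrivial_kaehler x hx
  obtain ⟨t', ht', h'⟩ := h
  have e : τ - c • dlog F t = (τ - c • dlog F t') + c • (dlog F t' - dlog F t) := by
    rw [smul_sub]
    abel
  rw [e]
  exact ordDifferential_add_ge_of_le v le_rfl h'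
    (ordDifferential_const_smul_nonneg v c (ordDifferential_dlog_sub_dlog x hx v ht ht'))

omit hx in
/-- existence of a uniformiser -/
theorem exists_uniformizer : ∃ t : F, v.ord t = 1 :=
  ⟨_, helper88.ord_unif v⟩

/-! ### The statements of `RRCon` / `RRSurj`, for a fixed separating element -/

/-- `dlog h` has a logarithmic pole with residue `ord_v h`. -/
theorem hasLogPole_dlog {h : F} (hh : h ≠ 0) : HasLogPole v (dlog F h) (v.ord h) := by
  haveI := helper82.ff_dCoordGenerates x hx v
  haveI := helper88.ff_nontrivial_kaehler x hx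
  set t : F := ((helper88.unif v : v.toValuationSubring) : F) with ht
  have ht1 : v.ord t = 1 := helper88.ord_unif v
  have ht0 : t ≠ 0 := helper88.unif_ne_zero v
  refine ⟨t, ht1, ?_⟩
  -- `h = u * t ^ m` with `u` a unit at `v`
  set m : ℤ := v.ord h with hm
  have hu0 : h * (t ^ m)⁻¹ ≠ 0 := mul_ne_zero hh (inv_ne_zero (zpow_ne_zero _ ht0))
  have hu : v.ord (h * (t ^ m)⁻¹) = 0 := by
    rw [v.ord_mul hh (inv_ne_zero (zpow_ne_zero _ ht0)), v.ord_inv, v.ord_zpow, ht1]
    omega
  have e : dlog F h = dlog F (h * (t ^ m)⁻¹) + m • dlog F t := by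
    rw [← dlog_zpow ht0, ← dlog_mul hu0 (zpow_ne_zero _ ht0)]
    congr 1
    field_simp
  rw [e, add_sub_cancel_right]
  exact ordDifferential_dlog_unit x hx v hu

theorem dlog_residue_of (h : F) (Dv : Divisor ℂ F) (hh : h ≠ 0)
    (hD : ∀ v : Place ℂ F, Dv v = v.ord h) : HasResidueDivisor (dlog F h) Dv := by
  intro v
  rw [hD v]
  exact hasLogPole_dlog x hx v hh

theorem residue_unique_of (τ : Ω[F⁄ℂ]) (m m' : ℤ) (h : HasLogPole v τ m)
    (h' : HasLogPole v τ m') : m = m' := by
  haveI := helper82.ff_dCoordGenerates x hx v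
  haveI := helper88.ff_nontrivial_kaehler x hx
  obtain ⟨t, ht⟩ := exists_uniformizer v
  have h1 := hasLogPole_forall_uniformizer x hx v h ht
  have h2 := hasLogPole_forall_uniformizer x hx v h' ht
  by_contra hne
  have h3 := ordDifferential_sub_ge_of_le v le_rfl h1 h2
  have e : (τ - m • dlog F t) - (τ - m' • dlog F t) = ((m' - m : ℤ) : F) • dlog F t := by
    rw [zsmul_dlog_eq, zsmul_dlog_eq, Int.cast_sub, sub_smul]
    abel
  rw [e] at h3
  have hc : ((m' - m : ℤ) : F) ≠ 0 := by
    have : ((m' - m : ℤ) : F) = algebraMap ℂ F ((m' - m : ℤ) : ℂ) := by simp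
    rw [this]
    refine (map_ne_zero (algebraMap ℂ F)).mpr ?_
    exact_mod_cast sub_ne_zero.mpr (Ne.symm hne)
  have hord : v.ord ((m' - m : ℤ) : F) = 0 := by
    have : ((m' - m : ℤ) : F) = algebraMap ℂ F ((m' - m : ℤ) : ℂ) := by simp
    rw [this, helper75.place_ord_algebraMap]
  have hdl : dlog F t ≠ 0 := by
    intro h0
    have := ordDifferential_dlog_uniformizer x hx v ht
    rw [h0, ordDifferential_zero] at this
    omega
  rw [ordDifferential_smul' v hc hdl, hord, ordDifferential_dlog_uniformizer x hx v ht] at h3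
  omega

theorem hasLogPole_add {τ τ' : Ω[F⁄ℂ]} {m m' : ℤ} (h : HasLogPole v τ m)
    (h' : HasLogPole v τ' m') : HasLogPole v (τ + τ') (m + m') := by
  haveI := helper82.ff_dCoordGenerates x hx v
  haveI := helper88.ff_nontrivial_kaehler x hx
  obtain ⟨t, ht⟩ := exists_uniformizer v
  refine ⟨t, ht, ?_⟩
  have e : τ + τ' - (m + m') • dlog F t = (τ - m • dlog F t) + (τ' - m' • dlog F t) := by
    rw [add_smul]
    abel
  rw [e]
  exact ordDifferential_add_ge_of_le v le_rfl (hasLogPole_forall_uniformizer x hx v h ht)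
    (hasLogPole_forall_uniformizer x hx v h' ht)

theorem hasLogPole_neg {τ : Ω[F⁄ℂ]} {m : ℤ} (h : HasLogPole v τ m) :
    HasLogPole v (-τ) (-m) := by
  haveI := helper82.ff_dCoordGenerates x hx v
  haveI := helper88.ff_nontrivial_kaehler x hx
  obtain ⟨t, ht, h1⟩ := h
  refine ⟨t, ht, ?_⟩
  have e : -τ - (-m) • dlog F t = -(τ - m • dlog F t) := by
    rw [neg_smul]
    abel
  rw [e, ordDifferential_neg]
  exact h1

theorem add_of (τ τ' : Ω[F⁄ℂ]) (Dv Dv' : Divisor ℂ F) (h : HasResidueDivisor τ Dv)
    (h' : HasResidueDivisor τ' Dv') : HasResidueDivisor (τ + τ') (Dv + Dv') := by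
  intro v
  rw [Finsupp.add_apply]
  exact hasLogPole_add x hx v (h v) (h' v)

theorem neg_of (τ : Ω[F⁄ℂ]) (Dv : Divisor ℂ F) (h : HasResidueDivisor τ Dv) :
    HasResidueDivisor (-τ) (-Dv) := by
  intro v
  rw [Finsupp.neg_apply]
  exact hasLogPole_neg x hx v (h v)

omit hx in
theorem hasLogPole_zero_iff {τ : Ω[F⁄ℂ]} : HasLogPole v τ 0 ↔ 0 ≤ v.ordDifferential τ := by
  constructor
  · rintro ⟨t, -, h⟩
    rwa [zero_smul, sub_zero] at h
  · intro h
    obtain ⟨t, ht⟩ := exists_uniformizer v
    exact ⟨t, ht, by rwa [zero_smul, sub_zero]⟩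

theorem smul_holomorphic_of (τ : Ω[F⁄ℂ]) (c : ℂ) (h : HasResidueDivisor τ 0) :
    HasResidueDivisor (c • τ) 0 := by
  intro v
  haveI := helper82.ff_dCoordGenerates x hx v
  haveI := helper88.ff_nontrivial_kaehler x hx
  have h1 := h v
  rw [Finsupp.zero_apply] at h1 ⊢
  rw [hasLogPole_zero_iff] at h1 ⊢
  exact ordDifferential_const_smul_nonneg v c h1

/-- (6) a differential with at most a simple pole has a residue. -/
theorem exists_residue_of (τ : Ω[F⁄ℂ]) (h : -1 ≤ v.ordDifferential τ) :
    ∃ c : ℂ, HasSimplePole v τ c := by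
  haveI := helper82.ff_dCoordGenerates x hx v
  haveI := helper88.ff_nontrivial_kaehler x hx
  set t : F := ((helper88.unif v : v.toValuationSubring) : F) with ht
  have ht1 : v.ord t = 1 := helper88.ord_unif v
  have ht0 : t ≠ 0 := helper88.unif_ne_zero v
  set f : F := v.differentialCoeff τ with hf
  have hτ : τ = f • D ℂ F t := (v.differentialCoeff_smul_dCoord τ).symm
  have hDt : D ℂ F t ≠ 0 := D_ne_zero_of_ord_ne_zero x hx v (by omega)
  have hDt0 : v.ordDifferential (D ℂ F t) = 0 := ordDifferential_D_uniformizer x hx v ht1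
  -- `t * f` is regular at `v`
  have htf : 0 ≤ v.ord (t * f) := by
    rcases eq_or_ne f 0 with h0 | h0
    · rw [h0, mul_zero, v.ord_zero]
    · rw [v.ord_mul ht0 h0, ht1]
      have : v.ord f = v.ordDifferential τ := rfl
      omega
  obtain ⟨c, hc⟩ := helper82.ff_exists_residue x hx v (t * f) htf
  refine ⟨c, t, ht1, ?_⟩
  have e : τ - c • dlog F t = (t⁻¹ * (t * f - algebraMap ℂ F c)) • D ℂ F t := by
    rw [const_smul_dlog_eq]
    unfold dlog
    conv_lhs => rw [hτ]
    rw [smul_smul, ← sub_smul]
    congr 1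
    field_simp
  rw [e]
  rcases hc with hc | hc
  · rw [hc, sub_self, mul_zero, zero_smul, ordDifferential_zero]
  · have hne : t * f - algebraMap ℂ F c ≠ 0 := by
      intro h0
      rw [h0, v.ord_zero] at hc
      exact lt_irrefl _ hc
    rw [ordDifferential_smul' v (mul_ne_zero (inv_ne_zero ht0) hne) hDt,
      v.ord_mul (inv_ne_zero ht0) hne, v.ord_inv, ht1, hDt0]
    omega

end FF

/-! ## The deliverables for a curve `F/ℂ` -/

section Final

variable (F : Type) [Field F] [Algebra ℂ F] [IsCurveOver ℂ F] [Algebra.EssFiniteType ℂ F]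

/-- **[RR-LOC] `RRCon.dlog_residue`.** -/
theorem rrCon_dlog_residue : ∀ (h : F) (Dv : Divisor ℂ F), h ≠ 0 → (∀ v : Place ℂ F, Dv v = v.ord h) →
    HasResidueDivisor (dlog F h) Dv := by
  obtain ⟨x, hx, hfd⟩ := exists_transcendental_finiteDimensional (K := ℂ) (F := F)
  exact fun h Dv hh hD => dlog_residue_of x hx h Dv hh hD

/-- **[RR-LOC] `RRCon.residue_unique`.** -/
theorem rrCon_residue_unique : ∀ (v : Place ℂ F) (τ : Ω[F⁄ℂ]) (m m' : ℤ),
    HasLogPole v τ m → HasLogPole v τ m' → m = m' := by
  obtain ⟨x, hx, hfd⟩ := exists_transcendental_finiteDimensional (K := ℂ) (F := F)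
  exact fun v τ m m' h h' => residue_unique_of x hx v τ m m' h h'

/-- **[RR-LOC] `RRCon.add`.** -/
theorem rrCon_add : ∀ (τ τ' : Ω[F⁄ℂ]) (Dv Dv' : Divisor ℂ F),
    HasResidueDivisor τ Dv → HasResidueDivisor τ' Dv' → HasResidueDivisor (τ + τ') (Dv + Dv') := by
  obtain ⟨x, hx, hfd⟩ := exists_transcendental_finiteDimensional (K := ℂ) (F := F)
  exact fun τ τ' Dv Dv' h h' => add_of x hx τ τ' Dv Dv' h h'

/-- **[RR-LOC] `RRCon.neg`.** -/
theorem rrCon_neg : ∀ (τ : Ω[F⁄ℂ]) (Dv : Divisor ℂ F), HasResidueDivisor τ Dv →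
    HasResidueDivisor (-τ) (-Dv) := by
  obtain ⟨x, hx, hfd⟩ := exists_transcendental_finiteDimensional (K := ℂ) (F := F)
  exact fun τ Dv h => neg_of x hx τ Dv h

/-- **[RR-LOC] `RRCon.smul_holomorphic`.** -/
theorem rrCon_smul_holomorphic : ∀ (τ : Ω[F⁄ℂ]) (c : ℂ), HasResidueDivisor τ 0 →
    HasResidueDivisor (c • τ) 0 := by
  obtain ⟨x, hx, hfd⟩ := exists_transcendental_finiteDimensional (K := ℂ) (F := F)
  exact fun τ c h => smul_holomorphic_of x hx τ c h

/-- **[RR-LOC] `RRSurj.exists_residue`.** -/
theorem rrSurj_exists_residue : ∀ (v : Place ℂ F) (τ : Ω[F⁄ℂ]), -1 ≤ v.ordDifferential τ →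
    ∃ c : ℂ, HasSimplePole v τ c := by
  obtain ⟨x, hx, hfd⟩ := exists_transcendental_finiteDimensional (K := ℂ) (F := F)
  exact fun v τ h => exists_residue_of x hx v τ h

end Final

end

end Fermat.Agent.P5.helper46
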