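import Mathlib
import Fermat.Agent.P5.helper25_FamilyDefs
import Fermat.Agent.P5.helper4_Orders
import Fermat.Agent.P5.helper42_RRLoc
import Fermat.Agent.P5.helper46_RRLoc

/-!
# P5 / SURJ, package FAM-ALG (helper52), part 1: local tools on a cut model

* `IsFinitePlace M v` : `v` is not a place over `∞`; orders of `x - a` at finite places;
* `IsSheetFn M k h φ` : `φ` represents `h ∈ F` on the `k`-th sheet (`ev k h = φ` on punctured
  neighbourhoods of all points of `U₀`), with its calculus;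
* `exists_sheetFn` : a function which is regular at all interior places of the `k`-th sheet has
  an analytic sheet function;
* orders at interior places from the analytic order of a sheet function;
* `OrdGE v n f` : `f = 0 ∨ n ≤ ord_v f`, with its calculus.
-/

set_option autoImplicit false
set_option linter.style.haveILetI false
set_option linter.unusedSectionVars false

open AlgebraicCurve Filter Topology KaehlerDifferential

namespace Fermat.Agent.P5.helper52

open Fermat.Agent.P5.helper25 Fermat.Agent.P5.helper4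

noncomputable section

/-! ### Lower bounds for orders -/

section OrdGE

variable {K F : Type*} [Field K] [Field F] [Algebra K F]

/-- `f` vanishes to order at least `n` at `v` (with `0` allowed). -/
def OrdGE (v : Place K F) (n : ℤ) (f : F) : Prop := f = 0 ∨ n ≤ v.ord f

variable {v : Place K F} {n m : ℤ} {f g : F}

theorem ordGE_iff_val : OrdGE v n f ↔ v.adicValuation f ≤ WithZero.exp (-n) := by
  rw [v.adicValuation_le_exp_iff, neg_neg]
  rfl

theorem OrdGE.zero : OrdGE v n (0 : F) := Or.inl rfl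

theorem OrdGE.add (hf : OrdGE v n f) (hg : OrdGE v n g) : OrdGE v n (f + g) := by
  rw [ordGE_iff_val] at hf hg ⊢
  exact (Valuation.map_add _ _ _).trans (max_le hf hg)

theorem OrdGE.neg (hf : OrdGE v n f) : OrdGE v n (-f) := by
  rw [ordGE_iff_val] at hf ⊢
  rwa [Valuation.map_neg]

theorem OrdGE.sub (hf : OrdGE v n f) (hg : OrdGE v n g) : OrdGE v n (f - g) := by
  rw [sub_eq_add_neg]
  exact hf.add hg.neg

theorem OrdGE.mono (hf : OrdGE v n f) (h : m ≤ n) : OrdGE v m f := by
  rcases hf with hf | hf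
  · exact Or.inl hf
  · exact Or.inr (h.trans hf)

theorem OrdGE.mul (hf : OrdGE v n f) (hg : OrdGE v m g) : OrdGE v (n + m) (f * g) := by
  rcases hf with rfl | hf
  · rw [zero_mul]; exact OrdGE.zero
  rcases hg with rfl | hg
  · rw [mul_zero]; exact OrdGE.zero
  rcases eq_or_ne f 0 with rfl | hf0
  · rw [zero_mul]; exact OrdGE.zero
  rcases eq_or_ne g 0 with rfl | hg0
  · rw [mul_zero]; exact OrdGE.zero
  right
  rw [v.ord_mul hf0 hg0]
  omega

theorem OrdGE.of_le (h : n ≤ v.ord f) : OrdGE v n f := Or.inr h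

theorem ordGE_zero_iff : OrdGE v 0 f ↔ 0 ≤ v.ord f := by
  constructor
  · rintro (rfl | h)
    · simp
    · exact h
  · exact fun h => Or.inr h

theorem OrdGE.nonneg (hf : OrdGE v n f) (hn : 0 ≤ n) : 0 ≤ v.ord f :=
  ordGE_zero_iff.mp (hf.mono hn)

theorem OrdGE.const (c : K) : OrdGE v 0 (algebraMap K F c) :=
  Or.inr (Fermat.Agent.S24.helper82.ord_algebraMap v c).ge

theorem OrdGE.const_mul (c : K) (hf : OrdGE v n f) : OrdGE v n (algebraMap K F c * f) := by
  have := (OrdGE.const (v := v) c).mul hf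
  rwa [zero_add] at this

theorem OrdGE.smul (c : K) (hf : OrdGE v n f) : OrdGE v n (c • f) := by
  rw [Algebra.smul_def]
  exact hf.const_mul c

theorem OrdGE.sum {ι : Type*} (s : Finset ι) {f : ι → F} (h : ∀ i ∈ s, OrdGE v n (f i)) :
    OrdGE v n (∑ i ∈ s, f i) := by
  classical
  induction s using Finset.induction_on with
  | empty => rw [Finset.sum_empty]; exact OrdGE.zero
  | insert a s ha ih =>
    rw [Finset.sum_insert ha]
    exact (h a (Finset.mem_insert_self a s)).add
      (ih fun i hi => h i (Finset.mem_insert_of_mem hi))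

theorem OrdGE.pow (hf : OrdGE v 0 f) (k : ℕ) : OrdGE v 0 (f ^ k) := by
  induction k with
  | zero =>
    rw [pow_zero]
    exact Or.inr (by rw [v.ord_one])
  | succ k ih =>
    rw [pow_succ]
    have := ih.mul hf
    rwa [zero_add] at this

/-- A unit plus something vanishing is a unit. -/
theorem ord_eq_zero_of_sub_one (h : OrdGE v 1 (f - 1)) : v.ord f = 0 := by
  have h1 : OrdGE v 0 f := by
    have := (h.mono (show (0 : ℤ) ≤ 1 by norm_num)).add
      (Or.inr (by rw [v.ord_one]) : OrdGE v 0 (1 : F))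
    rwa [sub_add_cancel] at this
  have hf0 : f ≠ 0 := by
    rintro rfl
    rw [zero_sub] at h
    rcases h with h | h
    · exact one_ne_zero (neg_eq_zero.mp h)
    · have h2 : v.ord (-1 : F) = v.ord (1 : F) := by
        simp only [Place.ord, Valuation.map_neg]
      rw [h2, v.ord_one] at h
      omega
  by_contra hne
  have hpos : 1 ≤ v.ord f := by
    have := h1.nonneg le_rfl
    omega
  have h2 : OrdGE v 1 (f - (f - 1)) := (OrdGE.of_le hpos).sub h
  rw [sub_sub_cancel] at h2
  rcases h2 with h2 | h2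
  · exact one_ne_zero h2
  · rw [v.ord_one] at h2
    omega

end OrdGE

variable {F : Type} [Field F] [Algebra ℂ F] (M : CutModel F)

/-! ### Finite places -/

/-- The place `v` does not lie over `∞`. -/
def IsFinitePlace (v : Place ℂ F) : Prop := ∀ k' : Fin M.d, v ≠ M.plInf k'

theorem isFinitePlace_pl (k : Fin M.d) {z : ℂ} (hz : z ∈ M.toCutGeometry.U₀) :
    IsFinitePlace M (M.pl k z) := fun k' => M.pl_ne_plInf k z k' hz

theorem isFinitePlace_or (v : Place ℂ F) : IsFinitePlace M v ∨ ∃ j, v = M.plInf j := by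
  by_cases h : ∃ j, v = M.plInf j
  · exact Or.inr h
  · left
    intro k' hk'
    exact h ⟨k', hk'⟩

theorem ord_xsub_nonneg {v : Place ℂ F} (hv : IsFinitePlace M v) (a : ℂ) :
    0 ≤ v.ord (xsub M a) := by
  rcases M.exhaust v with ⟨k, z, hz, rfl⟩ | ⟨i, k, a', ha', rfl⟩ | ⟨i, k, rfl⟩ | ⟨k, rfl⟩
  · rw [ord_pl M k hz a]
    split_ifs <;> norm_num
  · rw [ord_plRay M i k ha' a]
    split_ifs <;> norm_num
  · rw [ord_plBad M i k a]
    split_ifs
    · exact Int.natCast_nonneg _
    · exact le_rfl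
  · exact absurd rfl (hv k)

theorem ord_xsub_eq_zero {v : Place ℂ F} (hv : IsFinitePlace M v) {t : ℂ}
    (ht : t ∈ M.toCutGeometry.U₀) (hne : ∀ k' : Fin M.d, v ≠ M.pl k' t) :
    v.ord (xsub M t) = 0 := by
  rcases M.exhaust v with ⟨k, z, hz, rfl⟩ | ⟨i, k, a', ha', rfl⟩ | ⟨i, k, rfl⟩ | ⟨k, rfl⟩
  · rw [ord_pl M k hz t, if_neg]
    rintro rfl
    exact hne k rfl
  · rw [ord_plRay M i k ha' t, if_neg]
    rintro rfl
    exact CutGeom.not_mem_U₀_of_mem_openRay _ ha' ht
  · rw [ord_plBad M i k t, if_neg]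
    rintro rfl
    exact CutGeom.b_not_mem_U₀ _ i ht
  · exact absurd rfl (hv k)

theorem ord_xsub_pl_self (k : Fin M.d) {t : ℂ} (ht : t ∈ M.toCutGeometry.U₀) :
    (M.pl k t).ord (xsub M t) = 1 := by
  rw [ord_pl M k ht t, if_pos rfl]

/-! ### The local setting of a cut model -/

theorem localSetting (M : CutModel F) : helper42.LocalSetting ℂ F :=
  haveI := M.x_finite
  helper42.LocalSetting.of_ff M.x M.x_transcendental

theorem D_xsub (a : ℂ) : D ℂ F (xsub M a) = D ℂ F M.x := by
  unfold xsub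
  rw [map_sub, Derivation.map_algebraMap, sub_zero]

theorem D_x_ne_zero : D ℂ F M.x ≠ 0 := by
  haveI := M.x_finite
  refine Fermat.Agent.S24.helper82.ff_D_ne_zero M.x M.x_transcendental M.x ?_
  rintro ⟨a, ha⟩
  exact M.x_transcendental (ha ▸ isAlgebraic_algebraMap a)

/-- `dx` is regular at the finite places. -/
theorem regular_dx {v : Place ℂ F} (hv : IsFinitePlace M v) :
    0 ≤ v.ordDifferential (D ℂ F M.x) := by
  rw [← D_xsub M 0]
  exact helper42.regular_D (localSetting M) v (ord_xsub_nonneg M hv 0)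

/-- `dx` has a double pole at the places over `∞`. -/
theorem ordDifferential_dx_plInf (j : Fin M.d) :
    (M.plInf j).ordDifferential (D ℂ F M.x) = -2 := by
  haveI := M.x_finite
  have h := ord_plInf M j 0
  have h1 := Fermat.Agent.S24.helper88.ff_ordDifferential_D_of_pole M.x M.x_transcendental
    (xsub M 0) (M.plInf j) (by rw [h]; norm_num)
  rw [D_xsub, h] at h1
  rw [h1]
  norm_num

/-! ### Sheet functions -/

/-- `φ` represents `h` on the `k`-th sheet. -/
def IsSheetFn (k : Fin M.d) (h : F) (φ : ℂ → ℂ) : Prop :=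
  ∀ z ∈ M.toCutGeometry.U₀, M.ev k h =ᶠ[𝓝[≠] z] φ

variable {M}

theorem eventually_mem_U₀ {z : ℂ} (hz : z ∈ M.toCutGeometry.U₀) :
    ∀ᶠ w in 𝓝[≠] z, w ∈ M.toCutGeometry.U₀ :=
  nhdsWithin_le_nhds ((CutGeom.isOpen_U₀ _).mem_nhds hz)

theorem IsSheetFn.const (k : Fin M.d) (c : ℂ) :
    IsSheetFn M k (algebraMap ℂ F c) (fun _ => c) := by
  intro z hz
  filter_upwards [eventually_mem_U₀ hz] with w hw
  exact M.ev_algebraMap k c hw

theorem IsSheetFn.zero (k : Fin M.d) : IsSheetFn M k (0 : F) (fun _ => 0) := by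
  have := IsSheetFn.const (M := M) k 0
  rwa [map_zero] at this

theorem IsSheetFn.one (k : Fin M.d) : IsSheetFn M k (1 : F) (fun _ => 1) := by
  have := IsSheetFn.const (M := M) k 1
  rwa [map_one] at this

theorem IsSheetFn.x (k : Fin M.d) : IsSheetFn M k M.x (fun w => w) := by
  intro z hz
  filter_upwards [eventually_mem_U₀ hz] with w hw
  exact M.ev_x k hw

variable {k : Fin M.d} {h h' : F} {φ φ' : ℂ → ℂ}

theorem IsSheetFn.add (hs : IsSheetFn M k h φ) (hs' : IsSheetFn M k h' φ') :
    IsSheetFn M k (h + h') (fun w => φ w + φ' w) := by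
  intro z hz
  filter_upwards [M.ev_add k h h' z hz, hs z hz, hs' z hz] with w h1 h2 h3
  rw [h1, h2, h3]

theorem IsSheetFn.mul (hs : IsSheetFn M k h φ) (hs' : IsSheetFn M k h' φ') :
    IsSheetFn M k (h * h') (fun w => φ w * φ' w) := by
  intro z hz
  filter_upwards [M.ev_mul k h h' z hz, hs z hz, hs' z hz] with w h1 h2 h3
  rw [h1, h2, h3]

theorem IsSheetFn.const_mul (c : ℂ) (hs : IsSheetFn M k h φ) :
    IsSheetFn M k (algebraMap ℂ F c * h) (fun w => c * φ w) :=
  (IsSheetFn.const k c).mul hs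

theorem IsSheetFn.smul (c : ℂ) (hs : IsSheetFn M k h φ) :
    IsSheetFn M k (c • h) (fun w => c * φ w) := by
  rw [Algebra.smul_def]
  exact hs.const_mul c

theorem IsSheetFn.neg (hs : IsSheetFn M k h φ) : IsSheetFn M k (-h) (fun w => -φ w) := by
  have := hs.const_mul (-1)
  simpa using this

theorem IsSheetFn.sub (hs : IsSheetFn M k h φ) (hs' : IsSheetFn M k h' φ') :
    IsSheetFn M k (h - h') (fun w => φ w - φ' w) := by
  have := hs.add hs'.neg
  simpa [sub_eq_add_neg] using this

theorem IsSheetFn.pow (hs : IsSheetFn M k h φ) (n : ℕ) :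
    IsSheetFn M k (h ^ n) (fun w => φ w ^ n) := by
  induction n with
  | zero => simpa using IsSheetFn.one (M := M) k
  | succ n ih =>
    have := ih.mul hs
    simpa [pow_succ] using this

theorem IsSheetFn.sum {ι : Type*} (s : Finset ι) {H : ι → F} {Φ : ι → ℂ → ℂ}
    (hs : ∀ i ∈ s, IsSheetFn M k (H i) (Φ i)) :
    IsSheetFn M k (∑ i ∈ s, H i) (fun w => ∑ i ∈ s, Φ i w) := by
  classical
  induction s using Finset.induction_on with
  | empty => simpa using IsSheetFn.zero (M := M) k
  | insert a s ha ih =>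
    have := (hs a (Finset.mem_insert_self a s)).add
      (ih fun i hi => hs i (Finset.mem_insert_of_mem hi))
    simpa [Finset.sum_insert ha] using this

theorem IsSheetFn.xsub (k : Fin M.d) (a : ℂ) : IsSheetFn M k (xsub M a) (fun w => w - a) :=
  (IsSheetFn.x k).sub (IsSheetFn.const k a)

theorem IsSheetFn.congr (hs : IsSheetFn M k h φ) (he : ∀ w, φ w = φ' w) :
    IsSheetFn M k h φ' := by
  have : φ = φ' := funext he
  rwa [← this]

/-- Two sheet functions of the same element agree near every point of `U₀` where both are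
continuous. -/
theorem IsSheetFn.eq_at (hs : IsSheetFn M k h φ) (hs' : IsSheetFn M k h φ') {z : ℂ}
    (hz : z ∈ M.toCutGeometry.U₀) (hc : ContinuousAt φ z) (hc' : ContinuousAt φ' z) :
    φ z = φ' z := by
  have h1 : φ =ᶠ[𝓝[≠] z] φ' := (hs z hz).symm.trans (hs' z hz)
  have h2 : Tendsto φ (𝓝[≠] z) (𝓝 (φ z)) := hc.tendsto.mono_left nhdsWithin_le_nhds
  have h3 : Tendsto φ' (𝓝[≠] z) (𝓝 (φ' z)) := hc'.tendsto.mono_left nhdsWithin_le_nhds
  exact tendsto_nhds_unique (h2.congr' h1) h3

variable (M)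

/-- A function which is regular at all interior places of the `k`-th sheet has an analytic
sheet function. -/
theorem exists_sheetFn (k : Fin M.d) (h : F)
    (hreg : ∀ z ∈ M.toCutGeometry.U₀, 0 ≤ (M.pl k z).ord h) :
    ∃ φ : ℂ → ℂ, AnalyticOnNhd ℂ φ M.toCutGeometry.U₀ ∧ IsSheetFn M k h φ := by
  rcases eq_or_ne h 0 with rfl | hh
  · exact ⟨fun _ => 0, analyticOnNhd_const, IsSheetFn.zero k⟩
  have hmer := M.ev_meromorphicOn k h
  refine ⟨toMeromorphicNFOn (M.ev k h) M.toCutGeometry.U₀, ?_, ?_⟩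
  · intro z hz
    have hNF := meromorphicNFOn_toMeromorphicNFOn (M.ev k h) M.toCutGeometry.U₀ hz
    rw [← hNF.meromorphicOrderAt_nonneg_iff_analyticAt,
      meromorphicOrderAt_toMeromorphicNFOn hmer hz, ← M.pl_ord k z hz h hh]
    exact_mod_cast hreg z hz
  · intro z hz
    exact (hmer.toMeromorphicNFOn_eq_self_on_nhdsNE hz).symm

variable {M}

/-- The order at an interior place is the meromorphic order of a sheet function. -/
theorem IsSheetFn.ord_eq (hs : IsSheetFn M k h φ) {z : ℂ} (hz : z ∈ M.toCutGeometry.U₀)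
    (hh : h ≠ 0) : (((M.pl k z).ord h : ℤ) : WithTop ℤ) = meromorphicOrderAt φ z := by
  rw [M.pl_ord k z hz h hh]
  exact meromorphicOrderAt_congr (hs z hz)

/-- If the sheet function does not vanish at `z`, the element is a unit at `pl k z`. -/
theorem IsSheetFn.ord_eq_zero (hs : IsSheetFn M k h φ) {z : ℂ} (hz : z ∈ M.toCutGeometry.U₀)
    (hφ : AnalyticAt ℂ φ z) (hne : φ z ≠ 0) : (M.pl k z).ord h = 0 := by
  rcases eq_or_ne h 0 with rfl | hh
  · simp
  have h1 := hs.ord_eq hz hh
  rw [hφ.meromorphicOrderAt_eq, hφ.analyticOrderAt_eq_zero.mpr hne] at h1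
  have h2 : (((M.pl k z).ord h : ℤ) : WithTop ℤ) = ((0 : ℤ) : WithTop ℤ) := by
    rw [h1]; rfl
  exact_mod_cast h2

/-- If the sheet function vanishes to order `≥ n` at `z`, so does the element at `pl k z`. -/
theorem IsSheetFn.ordGE_of_le (hs : IsSheetFn M k h φ) {z : ℂ} (hz : z ∈ M.toCutGeometry.U₀)
    (hφ : AnalyticAt ℂ φ z) {n : ℕ} (hn : (n : ℕ∞) ≤ analyticOrderAt φ z) :
    OrdGE (M.pl k z) n h := by
  rcases eq_or_ne h 0 with rfl | hh
  · exact OrdGE.zero
  right
  have h1 := hs.ord_eq hz hh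
  rw [hφ.meromorphicOrderAt_eq] at h1
  have h2 : ((n : ℤ) : WithTop ℤ) ≤ (analyticOrderAt φ z).map (↑) := by
    cases hord : analyticOrderAt φ z with
    | top => simp
    | coe m =>
      rw [hord] at hn
      have : n ≤ m := by exact_mod_cast hn
      simp only [ENat.map_natCast]
      exact_mod_cast this
  rw [← h1] at h2
  exact_mod_cast h2

theorem IsSheetFn.ordGE_one (hs : IsSheetFn M k h φ) {z : ℂ} (hz : z ∈ M.toCutGeometry.U₀)
    (hφ : AnalyticAt ℂ φ z) (h0 : φ z = 0) : OrdGE (M.pl k z) 1 h := by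
  have := hs.ordGE_of_le hz hφ (n := 1) (by
    rw [Nat.cast_one, Order.one_le_iff_ne_zero]
    exact hφ.analyticOrderAt_ne_zero.mpr h0)
  exact_mod_cast this

theorem IsSheetFn.ordGE_two (hs : IsSheetFn M k h φ) {z : ℂ} (hz : z ∈ M.toCutGeometry.U₀)
    (hφ : AnalyticAt ℂ φ z) (h0 : φ z = 0) (h1 : deriv φ z = 0) : OrdGE (M.pl k z) 2 h := by
  have := hs.ordGE_of_le hz hφ (n := 2) (by
    rw [natCast_le_analyticOrderAt_iff_iteratedDeriv_eq_zero hφ]
    intro i hi
    interval_cases i
    · simpa using h0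
    · simpa [iteratedDeriv_one] using h1)
  exact_mod_cast this

/-- Conversely, if the element vanishes at `pl k z`, so does the sheet function at `z`. -/
theorem IsSheetFn.eq_zero_of_ordGE (hs : IsSheetFn M k h φ) {z : ℂ}
    (hz : z ∈ M.toCutGeometry.U₀) (hφ : AnalyticAt ℂ φ z) (hv : OrdGE (M.pl k z) 1 h) :
    φ z = 0 := by
  rcases eq_or_ne h 0 with rfl | hh
  · exact hs.eq_at (IsSheetFn.zero k) hz hφ.continuousAt continuousAt_const
  by_contra hne
  have := hs.ord_eq_zero hz hφ hne
  rcases hv with hv | hv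
  · exact hh hv
  · omega

end

end Fermat.Agent.P5.helper52
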