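import Mathlib
import Fermat.Agent.P5.helper52_FamLocal

/-!
# P5 / SURJ, package FAM-ALG (helper52), part 2: calculus of regular differentials and of
residues with respect to a fixed uniformiser on a cut model
-/

set_option autoImplicit false
set_option linter.style.haveILetI false
set_option linter.unusedSectionVars false

open AlgebraicCurve Filter Topology KaehlerDifferential

namespace Fermat.Agent.P5.helper52

open Fermat.Agent.P5.helper25 Fermat.Agent.P5.helper4

noncomputable section

variable {F : Type} [Field F] [Algebra ℂ F] (M : CutModel F)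

section Reg

variable {v : Place ℂ F} {ω ω' : Ω[F⁄ℂ]}

include M

theorem reg_zero (v : Place ℂ F) : IsRegularAt v (0 : Ω[F⁄ℂ]) :=
  helper42.regular_zero (localSetting M) v

theorem reg_add (h : IsRegularAt v ω) (h' : IsRegularAt v ω') : IsRegularAt v (ω + ω') :=
  helper42.regular_add (localSetting M) v h h'

theorem reg_neg (h : IsRegularAt v ω) : IsRegularAt v (-ω) :=
  helper42.regular_neg (localSetting M) v h

theorem reg_sub (h : IsRegularAt v ω) (h' : IsRegularAt v ω') : IsRegularAt v (ω - ω') :=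
  helper42.regular_sub (localSetting M) v h h'

theorem reg_smul {c : F} (hc : 0 ≤ v.ord c) (h : IsRegularAt v ω) : IsRegularAt v (c • ω) :=
  helper42.regular_smul (localSetting M) v hc h

theorem reg_smul' {c : F} (hc : OrdGE v 0 c) (h : IsRegularAt v ω) : IsRegularAt v (c • ω) :=
  reg_smul M (ordGE_zero_iff.mp hc) h

theorem reg_const_smul (a : ℂ) (h : IsRegularAt v ω) : IsRegularAt v (a • ω) :=
  helper42.regular_const_smul (localSetting M) v a h

theorem reg_sum {ι : Type*} (s : Finset ι) {η : ι → Ω[F⁄ℂ]}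
    (h : ∀ i ∈ s, IsRegularAt v (η i)) : IsRegularAt v (∑ i ∈ s, η i) := by
  classical
  induction s using Finset.induction_on with
  | empty => rw [Finset.sum_empty]; exact reg_zero M v
  | insert a s ha ih =>
    rw [Finset.sum_insert ha]
    exact reg_add M (h a (Finset.mem_insert_self a s))
      (ih fun i hi => h i (Finset.mem_insert_of_mem hi))

omit M in
/-- at most a simple pole -/
theorem sp_of_reg (h : IsRegularAt v ω) : -1 ≤ v.ordDifferential ω :=
  le_trans (by norm_num) h

theorem sp_zero (v : Place ℂ F) : -1 ≤ v.ordDifferential (0 : Ω[F⁄ℂ]) :=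
  sp_of_reg (reg_zero M v)

theorem sp_add (h : -1 ≤ v.ordDifferential ω) (h' : -1 ≤ v.ordDifferential ω') :
    -1 ≤ v.ordDifferential (ω + ω') :=
  haveI := (localSetting M).gen v
  haveI := (localSetting M).nontrivial
  helper46.ordDifferential_add_ge_of_le v (by norm_num) h h'

theorem sp_sub (h : -1 ≤ v.ordDifferential ω) (h' : -1 ≤ v.ordDifferential ω') :
    -1 ≤ v.ordDifferential (ω - ω') :=
  haveI := (localSetting M).gen v
  haveI := (localSetting M).nontrivial
  helper46.ordDifferential_sub_ge_of_le v (by norm_num) h h'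

theorem sp_const_smul (a : ℂ) (h : -1 ≤ v.ordDifferential ω) :
    -1 ≤ v.ordDifferential (a • ω) := by
  haveI := (localSetting M).gen v
  haveI := (localSetting M).nontrivial
  rcases eq_or_ne a 0 with rfl | ha
  · rw [zero_smul]
    exact sp_zero M v
  · rwa [helper46.ordDifferential_const_smul v ha]

theorem sp_sum {ι : Type*} (s : Finset ι) {η : ι → Ω[F⁄ℂ]}
    (h : ∀ i ∈ s, -1 ≤ v.ordDifferential (η i)) : -1 ≤ v.ordDifferential (∑ i ∈ s, η i) := by
  classical
  induction s using Finset.induction_on with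
  | empty => rw [Finset.sum_empty]; exact sp_zero M v
  | insert a s ha ih =>
    rw [Finset.sum_insert ha]
    exact sp_add M (h a (Finset.mem_insert_self a s))
      (ih fun i hi => h i (Finset.mem_insert_of_mem hi))

/-- The order of a sum of a differential with a pole and a regular differential. -/
theorem ordDifferential_sub_eq_of_reg {n : ℤ} (hn : n < 0) (h : v.ordDifferential ω = n)
    (h' : IsRegularAt v ω') : v.ordDifferential (ω - ω') = n := by
  have hL := localSetting M
  unfold IsRegularAt at h'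
  unfold Place.ordDifferential at h h' ⊢
  rw [helper42.coeff_sub hL v]
  set a := v.differentialCoeff ω with ha
  set b := v.differentialCoeff ω' with hb
  have ha0 : a ≠ 0 := by
    rintro h0
    rw [h0, v.ord_zero] at h
    omega
  have h1 : OrdGE v n (a - b) := (OrdGE.of_le h.ge).sub ((OrdGE.of_le h').mono hn.le)
  have hab : a - b ≠ 0 := by
    intro h0
    have hab' : a = b := sub_eq_zero.mp h0
    rw [← hab'] at h'
    omega
  have h2 := h1.resolve_left hab
  by_contra hne
  have h3 : n + 1 ≤ v.ord (a - b) := by omega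
  have h4 : OrdGE v (n + 1) (a - b + b) :=
    (OrdGE.of_le h3).add ((OrdGE.of_le h').mono (by omega))
  rw [sub_add_cancel] at h4
  have := h4.resolve_left ha0
  omega

end Reg

/-! ### Residues with respect to a fixed uniformiser -/

/-- `ω - c dt₀/t₀` is regular at `v`. -/
def ResAt (v : Place ℂ F) (t₀ : F) (ω : Ω[F⁄ℂ]) (c : ℂ) : Prop :=
  IsRegularAt v (ω - c • dlog F t₀)

section Res

variable {v : Place ℂ F} {t₀ : F} {ω ω' : Ω[F⁄ℂ]} {c c' : ℂ}

include M

omit M in
theorem ResAt.of_reg (h : IsRegularAt v ω) : ResAt v t₀ ω 0 := by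
  unfold ResAt
  rwa [zero_smul, sub_zero]

omit M in
theorem ResAt.reg (h : ResAt v t₀ ω 0) : IsRegularAt v ω := by
  unfold ResAt at h
  rwa [zero_smul, sub_zero] at h

theorem ResAt.add (h : ResAt v t₀ ω c) (h' : ResAt v t₀ ω' c') :
    ResAt v t₀ (ω + ω') (c + c') := by
  unfold ResAt at h h' ⊢
  have e : ω + ω' - (c + c') • dlog F t₀ = (ω - c • dlog F t₀) + (ω' - c' • dlog F t₀) := by
    rw [add_smul]
    abel
  rw [e]
  exact reg_add M h h'

theorem ResAt.neg (h : ResAt v t₀ ω c) : ResAt v t₀ (-ω) (-c) := by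
  unfold ResAt at h ⊢
  have e : -ω - (-c) • dlog F t₀ = -(ω - c • dlog F t₀) := by
    rw [neg_smul]
    abel
  rw [e]
  exact reg_neg M h

theorem ResAt.sub (h : ResAt v t₀ ω c) (h' : ResAt v t₀ ω' c') :
    ResAt v t₀ (ω - ω') (c - c') := by
  rw [sub_eq_add_neg, sub_eq_add_neg]
  exact h.add M (h'.neg M)

theorem ResAt.const_smul (a : ℂ) (h : ResAt v t₀ ω c) : ResAt v t₀ (a • ω) (a * c) := by
  unfold ResAt at h ⊢
  have e : a • ω - (a * c) • dlog F t₀ = a • (ω - c • dlog F t₀) := by
    rw [smul_sub, mul_smul]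
  rw [e]
  exact reg_const_smul M a h

theorem ResAt.sum {ι : Type*} (s : Finset ι) {η : ι → Ω[F⁄ℂ]} {r : ι → ℂ}
    (h : ∀ i ∈ s, ResAt v t₀ (η i) (r i)) : ResAt v t₀ (∑ i ∈ s, η i) (∑ i ∈ s, r i) := by
  classical
  induction s using Finset.induction_on with
  | empty =>
    rw [Finset.sum_empty, Finset.sum_empty]
    exact ResAt.of_reg (reg_zero M v)
  | insert a s ha ih =>
    rw [Finset.sum_insert ha, Finset.sum_insert ha]
    exact (h a (Finset.mem_insert_self a s)).add M
      (ih fun i hi => h i (Finset.mem_insert_of_mem hi))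

theorem ResAt.unique (ht₀ : v.ord t₀ = 1) (h : ResAt v t₀ ω c) (h' : ResAt v t₀ ω c') :
    c = c' :=
  helper42.logPoleK_unique (localSetting M) v ht₀ ht₀ h h'

theorem ResAt.of_hasSimplePole (ht₀ : v.ord t₀ = 1) (h : HasSimplePole v ω c) :
    ResAt v t₀ ω c :=
  haveI := M.x_finite
  helper46.hasSimplePole_forall_uniformizer M.x M.x_transcendental v h ht₀

omit M in
theorem ResAt.hasSimplePole (ht₀ : v.ord t₀ = 1) (h : ResAt v t₀ ω c) :
    HasSimplePole v ω c := ⟨t₀, ht₀, h⟩

omit M in
theorem ResAt.hasLogPole (ht₀ : v.ord t₀ = 1) {m : ℤ} (h : ResAt v t₀ ω (m : ℂ)) :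
    HasLogPole v ω m := by
  refine ⟨t₀, ht₀, ?_⟩
  unfold ResAt IsRegularAt at h
  rwa [Int.cast_smul_eq_zsmul] at h

theorem ResAt.sp (ht₀ : v.ord t₀ = 1) (h : ResAt v t₀ ω c) : -1 ≤ v.ordDifferential ω := by
  have e : ω = (ω - c • dlog F t₀) + c • dlog F t₀ := by abel
  rw [e]
  refine sp_add M (sp_of_reg h) (sp_const_smul M c ?_)
  have := helper42.ordDifferential_dlog_unif (localSetting M) v ht₀
  unfold dlog
  rw [this]

/-- Existence of the residue w.r.t. a given uniformiser. -/
theorem exists_resAt (ht₀ : v.ord t₀ = 1) (h : -1 ≤ v.ordDifferential ω) :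
    ∃ c : ℂ, ResAt v t₀ ω c :=
  helper42.exists_logPoleK (localSetting M) v h ht₀

end Res

end

end Fermat.Agent.P5.helper52
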