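import Mathlib
import Fermat.Agent.P5.helper52_FamDiff

/-!
# P5 / SURJ, package FAM-ALG (helper52), part 3: the Cauchy kernel

* the geometric-series identities `E1`, `E2` for `(x - t)⁻¹` and `(x - t)⁻²` in powers of
  `(x - z₀)⁻¹`;
* the Cauchy kernel terms `kern`, `kern'`, the principal parts `prin` at infinity and the
  remainders `rem`, `rem'`;
* regularity of the remainders at the places over `∞`;
* the generalized kernel `Kgen α β t = ∑ (α m • kern t m + β m • kern' t m)` at the finite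
  places.
-/

set_option autoImplicit false
set_option linter.style.haveILetI false
set_option linter.unusedSectionVars false

open AlgebraicCurve Filter Topology KaehlerDifferential

namespace Fermat.Agent.P5.helper52

open Fermat.Agent.P5.helper25 Fermat.Agent.P5.helper4

noncomputable section

/-! ### The geometric series -/

section Geom

variable {R : Type*} [CommRing R] {a X B : R}

/-- `X = ∑_{n<N} Bⁿ aⁿ⁺¹ + Bᴺ aᴺ X` if `X = a + B a X`. -/
theorem geom_E1 (h : X = a + B * a * X) (N : ℕ) :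
    X = (∑ n ∈ Finset.range N, B ^ n * a ^ (n + 1)) + B ^ N * a ^ N * X := by
  induction N with
  | zero => simp
  | succ N ih =>
    rw [Finset.sum_range_succ]
    have e : B ^ N * a ^ N * X = B ^ N * a ^ (N + 1) + B ^ (N + 1) * a ^ (N + 1) * X := by
      calc B ^ N * a ^ N * X = B ^ N * a ^ N * (a + B * a * X) := by rw [← h]
        _ = _ := by ring
    calc X = (∑ n ∈ Finset.range N, B ^ n * a ^ (n + 1)) + B ^ N * a ^ N * X := ih
      _ = (∑ n ∈ Finset.range N, B ^ n * a ^ (n + 1))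
          + (B ^ N * a ^ (N + 1) + B ^ (N + 1) * a ^ (N + 1) * X) := by rw [e]
      _ = _ := by ring

/-- The derivative of `geom_E1` with respect to `B`. -/
theorem geom_E2 (h : X = a + B * a * X) (N : ℕ) :
    X ^ 2 = (∑ n ∈ Finset.range N, (n : R) * B ^ (n - 1) * a ^ (n + 1))
      + ((N : R) * B ^ (N - 1) * a ^ N * X + B ^ N * a ^ N * X ^ 2) := by
  have hX2 : X ^ 2 = a * X + B * a * X ^ 2 := by
    calc X ^ 2 = X * X := pow_two X
      _ = (a + B * a * X) * X := by rw [← h]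
      _ = _ := by ring
  induction N with
  | zero => simp
  | succ N ih =>
    rw [Finset.sum_range_succ]
    have hB : (N : R) * B ^ (N - 1) * B = (N : R) * B ^ N := by
      rcases Nat.eq_zero_or_pos N with rfl | hN
      · simp
      · rw [mul_assoc, ← pow_succ, Nat.sub_add_cancel hN]
    have e1 : (N : R) * B ^ (N - 1) * a ^ N * X
        = (N : R) * B ^ (N - 1) * a ^ (N + 1) + (N : R) * B ^ N * a ^ (N + 1) * X := by
      calc (N : R) * B ^ (N - 1) * a ^ N * X
          = (N : R) * B ^ (N - 1) * a ^ N * (a + B * a * X) := by rw [← h]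
        _ = (N : R) * B ^ (N - 1) * a ^ (N + 1)
            + ((N : R) * B ^ (N - 1) * B) * a ^ (N + 1) * X := by ring
        _ = _ := by rw [hB]
    have e2 : B ^ N * a ^ N * X ^ 2
        = B ^ N * a ^ (N + 1) * X + B ^ (N + 1) * a ^ (N + 1) * X ^ 2 := by
      calc B ^ N * a ^ N * X ^ 2 = B ^ N * a ^ N * (a * X + B * a * X ^ 2) := by rw [← hX2]
        _ = _ := by ring
    have e : (N : R) * B ^ (N - 1) * a ^ N * X + B ^ N * a ^ N * X ^ 2
        = (N : R) * B ^ (N - 1) * a ^ (N + 1)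
          + (((N + 1 : ℕ) : R) * B ^ (N + 1 - 1) * a ^ (N + 1) * X
            + B ^ (N + 1) * a ^ (N + 1) * X ^ 2) := by
      rw [e1, e2, Nat.add_sub_cancel]
      push_cast
      ring
    calc X ^ 2 = (∑ n ∈ Finset.range N, (n : R) * B ^ (n - 1) * a ^ (n + 1))
          + ((N : R) * B ^ (N - 1) * a ^ N * X + B ^ N * a ^ N * X ^ 2) := ih
      _ = (∑ n ∈ Finset.range N, (n : R) * B ^ (n - 1) * a ^ (n + 1))
          + ((N : R) * B ^ (N - 1) * a ^ (N + 1)
            + (((N + 1 : ℕ) : R) * B ^ (N + 1 - 1) * a ^ (N + 1) * X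
              + B ^ (N + 1) * a ^ (N + 1) * X ^ 2)) := by rw [e]
      _ = _ := by ring

end Geom

variable {F : Type} [Field F] [Algebra ℂ F] (M : CutModel F)

/-! ### Kernel terms -/

/-- The Cauchy kernel term `(x - t)⁻¹ y ^ m dx`. -/
def kern (y : F) (t : ℂ) (m : ℕ) : Ω[F⁄ℂ] :=
  ((xsub M t)⁻¹ * y ^ m) • D ℂ F M.x

/-- Its derivative in `t`: `(x - t)⁻² y ^ m dx`. -/
def kern' (y : F) (t : ℂ) (m : ℕ) : Ω[F⁄ℂ] :=
  (((xsub M t)⁻¹) ^ 2 * y ^ m) • D ℂ F M.x

/-- The principal parts at infinity: `y ^ m (x - z₀)^-(n+1) dx`. -/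
def prin (y : F) (m n : ℕ) : Ω[F⁄ℂ] :=
  (y ^ m * ((xsub M M.z₀)⁻¹) ^ (n + 1)) • D ℂ F M.x

/-- The coefficient of the remainder of the kernel. -/
def remCoeff (t : ℂ) (N : ℕ) : F :=
  algebraMap ℂ F (t - M.z₀) ^ N * ((xsub M M.z₀)⁻¹) ^ N * (xsub M t)⁻¹

/-- The coefficient of the remainder of the derivative of the kernel. -/
def remCoeff' (t : ℂ) (N : ℕ) : F :=
  (N : F) * algebraMap ℂ F (t - M.z₀) ^ (N - 1) * ((xsub M M.z₀)⁻¹) ^ N * (xsub M t)⁻¹
    + algebraMap ℂ F (t - M.z₀) ^ N * ((xsub M M.z₀)⁻¹) ^ N * ((xsub M t)⁻¹) ^ 2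

theorem xsub_inv_eq (t : ℂ) :
    (xsub M t)⁻¹ = (xsub M M.z₀)⁻¹
      + algebraMap ℂ F (t - M.z₀) * (xsub M M.z₀)⁻¹ * (xsub M t)⁻¹ := by
  have h1 := xsub_ne_zero M t
  have h2 := xsub_ne_zero M M.z₀
  have h3 : algebraMap ℂ F (t - M.z₀) = xsub M M.z₀ - xsub M t := by
    unfold xsub
    rw [map_sub]
    ring
  rw [h3]
  field_simp
  ring

theorem xsub_inv_expand (t : ℂ) (N : ℕ) :
    (xsub M t)⁻¹ = (∑ n ∈ Finset.range N,
        algebraMap ℂ F (t - M.z₀) ^ n * ((xsub M M.z₀)⁻¹) ^ (n + 1)) + remCoeff M t N :=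
  geom_E1 (xsub_inv_eq M t) N

theorem xsub_inv_sq_expand (t : ℂ) (N : ℕ) :
    ((xsub M t)⁻¹) ^ 2 = (∑ n ∈ Finset.range N,
        (n : F) * algebraMap ℂ F (t - M.z₀) ^ (n - 1) * ((xsub M M.z₀)⁻¹) ^ (n + 1))
      + remCoeff' M t N :=
  geom_E2 (xsub_inv_eq M t) N

theorem const_smul_smul (c : ℂ) (f : F) (ω : Ω[F⁄ℂ]) :
    c • (f • ω) = (algebraMap ℂ F c * f) • ω := by
  rw [← algebraMap_smul F c (f • ω), smul_smul]

/-- The kernel is the sum of its principal parts at infinity and the remainder. -/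
theorem kern_eq (y : F) (t : ℂ) (m N : ℕ) :
    kern M y t m = (∑ n ∈ Finset.range N, (t - M.z₀) ^ n • prin M y m n)
      + (remCoeff M t N * y ^ m) • D ℂ F M.x := by
  unfold kern prin
  conv_lhs => rw [xsub_inv_expand M t N]
  rw [add_mul, add_smul, Finset.sum_mul, Finset.sum_smul]
  congr 1
  refine Finset.sum_congr rfl fun n _ => ?_
  rw [const_smul_smul, map_pow]
  congr 1
  ring

theorem kern'_eq (y : F) (t : ℂ) (m N : ℕ) :
    kern' M y t m = (∑ n ∈ Finset.range N, ((n : ℂ) * (t - M.z₀) ^ (n - 1)) • prin M y m n)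
      + (remCoeff' M t N * y ^ m) • D ℂ F M.x := by
  unfold kern' prin
  conv_lhs => rw [xsub_inv_sq_expand M t N]
  rw [add_mul, add_smul, Finset.sum_mul, Finset.sum_smul]
  congr 1
  refine Finset.sum_congr rfl fun n _ => ?_
  rw [const_smul_smul, map_mul, map_pow, map_natCast]
  congr 1
  ring

/-! ### Orders at infinity -/

theorem ord_xsub_inv_plInf (j : Fin M.d) (a : ℂ) : (M.plInf j).ord (xsub M a)⁻¹ = 1 := by
  rw [Place.ord_inv, ord_plInf]
  norm_num

theorem ordGE_pow_of_ord {v : Place ℂ F} {f : F} {n : ℤ} (h : v.ord f = n)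
    (k : ℕ) : v.ord (f ^ k) = k * n := by
  have := v.ord_zpow f k
  rw [zpow_natCast] at this
  rw [this, h]

/-- A differential `f dx` with `ord f ≥ 2` at a place over `∞` is regular there. -/
theorem reg_smul_dx_plInf (j : Fin M.d) {f : F} (hf : OrdGE (M.plInf j) 2 f) :
    IsRegularAt (M.plInf j) (f • D ℂ F M.x) := by
  rcases hf with rfl | hf
  · rw [zero_smul]
    exact reg_zero M _
  rcases eq_or_ne f 0 with rfl | hf0
  · rw [zero_smul]
    exact reg_zero M _
  unfold IsRegularAt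
  rw [helper42.ordDifferential_smul_eq (localSetting M) _ hf0 (D_x_ne_zero M),
    ordDifferential_dx_plInf]
  omega

/-- Orders of the remainder coefficients at infinity. -/
theorem ordGE_remCoeff (j : Fin M.d) (t : ℂ) (N : ℕ) :
    OrdGE (M.plInf j) (N + 1) (remCoeff M t N) := by
  unfold remCoeff
  have h1 : OrdGE (M.plInf j) 0 (algebraMap ℂ F (t - M.z₀) ^ N) := (OrdGE.const _).pow N
  have h2 : OrdGE (M.plInf j) N (((xsub M M.z₀)⁻¹) ^ N) := by
    right
    rw [ordGE_pow_of_ord (ord_xsub_inv_plInf M j _)]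
    simp
  have h3 : OrdGE (M.plInf j) 1 (xsub M t)⁻¹ := Or.inr (ord_xsub_inv_plInf M j t).ge
  have := (h1.mul h2).mul h3
  rwa [zero_add] at this

theorem ordGE_remCoeff' (j : Fin M.d) (t : ℂ) (N : ℕ) :
    OrdGE (M.plInf j) (N + 1) (remCoeff' M t N) := by
  unfold remCoeff'
  have h0 : OrdGE (M.plInf j) 0 ((N : F)) := by
    have := OrdGE.const (v := M.plInf j) (N : ℂ)
    rwa [map_natCast] at this
  have h1 : OrdGE (M.plInf j) 0 (algebraMap ℂ F (t - M.z₀) ^ (N - 1)) :=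
    (OrdGE.const _).pow _
  have h1' : OrdGE (M.plInf j) 0 (algebraMap ℂ F (t - M.z₀) ^ N) := (OrdGE.const _).pow N
  have h2 : OrdGE (M.plInf j) N (((xsub M M.z₀)⁻¹) ^ N) := by
    right
    rw [ordGE_pow_of_ord (ord_xsub_inv_plInf M j _)]
    simp
  have h3 : OrdGE (M.plInf j) 1 (xsub M t)⁻¹ := Or.inr (ord_xsub_inv_plInf M j t).ge
  have h4 : OrdGE (M.plInf j) 2 (((xsub M t)⁻¹) ^ 2) := by
    right
    rw [ordGE_pow_of_ord (ord_xsub_inv_plInf M j _)]
    norm_num
  refine OrdGE.add ?_ ?_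
  · have := ((h0.mul h1).mul h2).mul h3
    simpa using this
  · have := ((h1'.mul h2).mul h4).mono (show (N : ℤ) + 1 ≤ 0 + N + 2 by omega)
    exact this

/-- The remainders are regular at infinity if `N` exceeds the pole order of `y ^ m`. -/
theorem reg_rem_plInf (j : Fin M.d) {y : F} {m N₀ : ℕ}
    (hy : OrdGE (M.plInf j) (-(N₀ : ℤ)) (y ^ m)) (t : ℂ) :
    IsRegularAt (M.plInf j) ((remCoeff M t (N₀ + 1) * y ^ m) • D ℂ F M.x) := by
  refine reg_smul_dx_plInf M j ?_
  have := (ordGE_remCoeff M j t (N₀ + 1)).mul hy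
  refine this.mono ?_
  push_cast
  omega

theorem reg_rem'_plInf (j : Fin M.d) {y : F} {m N₀ : ℕ}
    (hy : OrdGE (M.plInf j) (-(N₀ : ℤ)) (y ^ m)) (t : ℂ) :
    IsRegularAt (M.plInf j) ((remCoeff' M t (N₀ + 1) * y ^ m) • D ℂ F M.x) := by
  refine reg_smul_dx_plInf M j ?_
  have := (ordGE_remCoeff' M j t (N₀ + 1)).mul hy
  refine this.mono ?_
  push_cast
  omega

/-- A bound for the pole orders of the powers `y ^ m`, `m < d`, at the places over `∞`. -/
theorem exists_pole_bound (y : F) (d' : ℕ) :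
    ∃ N₀ : ℕ, ∀ (j : Fin M.d) (m : ℕ), m < d' → OrdGE (M.plInf j) (-(N₀ : ℤ)) (y ^ m) := by
  rcases eq_or_ne y 0 with rfl | hy0
  · refine ⟨0, fun j m _ => ?_⟩
    rcases Nat.eq_zero_or_pos m with rfl | hm
    · rw [pow_zero]
      right
      rw [Place.ord_one]
      simp
    · rw [zero_pow hm.ne']
      exact OrdGE.zero
  refine ⟨d' * ∑ j : Fin M.d, ((-(M.plInf j).ord y).toNat), fun j m hm => ?_⟩
  right
  rw [ordGE_pow_of_ord rfl m]
  have h1 : (-(M.plInf j).ord y).toNat ≤ ∑ j : Fin M.d, ((-(M.plInf j).ord y).toNat) :=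
    Finset.single_le_sum (f := fun j : Fin M.d => (-(M.plInf j).ord y).toNat)
      (fun _ _ => Nat.zero_le _) (Finset.mem_univ j)
  have h2 : -(M.plInf j).ord y ≤ ((-(M.plInf j).ord y).toNat : ℤ) := Int.self_le_toNat _
  set μ := ∑ j : Fin M.d, ((-(M.plInf j).ord y).toNat) with hμ
  have h3 : -(μ : ℤ) ≤ (M.plInf j).ord y := by
    have : ((-(M.plInf j).ord y).toNat : ℤ) ≤ μ := by exact_mod_cast h1
    omega
  push_cast
  have hm' : (m : ℤ) ≤ d' := by exact_mod_cast hm.le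
  have hμ0 : (0 : ℤ) ≤ μ := Int.natCast_nonneg _
  have hm0 : (0 : ℤ) ≤ m := Int.natCast_nonneg _
  nlinarith [mul_le_mul_of_nonneg_left h3 hm0, mul_le_mul_of_nonneg_right hm' hμ0]

end

end Fermat.Agent.P5.helper52
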