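import Mathlib
import Fermat.Agent.P5.helper52_FamKernel

/-!
# P5 / SURJ, package FAM-ALG (helper52), part 4: the generalized family

For coefficient vectors `α β : Fin d → ℂ` and `t ∈ U₀`:
`Kgen α β t = ∑ m, (α m • kern t m + β m • kern' t m) = (x - t)⁻² (( x - t) G_α + G_β) dx`,
`Tgen α β t = Kgen α β t - ∑ m, ∑ n < N, (α m (t - z₀)ⁿ + β m n (t - z₀)ⁿ⁻¹) • θ m n`.
The family is `τ_t = Tgen (c t) 0 t`, its derivative is `η_t = Tgen (c' t) (c t) t`.
-/

set_option autoImplicit false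
set_option linter.style.haveILetI false
set_option linter.unusedSectionVars false

open AlgebraicCurve Filter Topology KaehlerDifferential

namespace Fermat.Agent.P5.helper52

open Fermat.Agent.P5.helper25 Fermat.Agent.P5.helper4

noncomputable section

variable {F : Type} [Field F] [Algebra ℂ F] (M : CutModel F)

/-- `G_α = ∑ α_m y ^ m`. -/
def Gpoly (y : F) (α : Fin M.d → ℂ) : F := ∑ m : Fin M.d, α m • y ^ (m : ℕ)

/-- The numerator `H = (x - t) G_α + G_β`. -/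
def Hnum (y : F) (α β : Fin M.d → ℂ) (t : ℂ) : F :=
  xsub M t * Gpoly M y α + Gpoly M y β

/-- The generalized kernel. -/
def Kgen (y : F) (α β : Fin M.d → ℂ) (t : ℂ) : Ω[F⁄ℂ] :=
  ∑ m : Fin M.d, (α m • kern M y t m + β m • kern' M y t m)

/-- The coefficients of the corrections. -/
def Ucoef (α β : Fin M.d → ℂ) (t : ℂ) (m : Fin M.d) (n : ℕ) : ℂ :=
  α m * (t - M.z₀) ^ n + β m * ((n : ℂ) * (t - M.z₀) ^ (n - 1))

/-- The generalized correction. -/
def Θgen (θ : Fin M.d → ℕ → Ω[F⁄ℂ]) (N : ℕ) (α β : Fin M.d → ℂ) (t : ℂ) : Ω[F⁄ℂ] :=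
  ∑ m : Fin M.d, ∑ n ∈ Finset.range N, Ucoef M α β t m n • θ m n

/-- The generalized family. -/
def Tgen (y : F) (θ : Fin M.d → ℕ → Ω[F⁄ℂ]) (N : ℕ) (α β : Fin M.d → ℂ) (t : ℂ) :
    Ω[F⁄ℂ] :=
  Kgen M y α β t - Θgen M θ N α β t

variable {M}

theorem Kgen_eq (y : F) (α β : Fin M.d → ℂ) (t : ℂ) :
    Kgen M y α β t = (((xsub M t)⁻¹) ^ 2 * Hnum M y α β t) • D ℂ F M.x := by
  have h1 := xsub_ne_zero M t
  unfold Kgen Hnum Gpoly kern kern'
  simp only [const_smul_smul, ← add_smul]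
  rw [← Finset.sum_smul]
  congr 1
  rw [mul_add, Finset.mul_sum, Finset.mul_sum, Finset.mul_sum, ← Finset.sum_add_distrib]
  refine Finset.sum_congr rfl fun _ _ => ?_
  rw [Algebra.smul_def, Algebra.smul_def]
  field_simp

theorem Kgen_zero_right (y : F) (α : Fin M.d → ℂ) (t : ℂ) :
    Kgen M y α 0 t = ((xsub M t)⁻¹ * Gpoly M y α) • D ℂ F M.x := by
  have h1 := xsub_ne_zero M t
  rw [Kgen_eq]
  congr 1
  unfold Hnum Gpoly
  simp only [Pi.zero_apply, zero_smul, Finset.sum_const_zero, add_zero]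
  field_simp

theorem ordGE_Gpoly {v : Place ℂ F} {y : F} (hy : OrdGE v 0 y) (α : Fin M.d → ℂ) :
    OrdGE v 0 (Gpoly M y α) :=
  OrdGE.sum _ fun m _ => (hy.pow _).smul _

theorem ordGE_Hnum {v : Place ℂ F} (hv : IsFinitePlace M v) {y : F} (hy : OrdGE v 0 y)
    (α β : Fin M.d → ℂ) (t : ℂ) : OrdGE v 0 (Hnum M y α β t) := by
  unfold Hnum
  have h1 : OrdGE v 0 (xsub M t) := Or.inr (ord_xsub_nonneg M hv t)
  have := (h1.mul (ordGE_Gpoly hy α)).add ((ordGE_Gpoly hy β).mono (by norm_num))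
  simpa using this

/-- Regularity of the generalized kernel at finite places off the fibre. -/
theorem reg_Kgen_of_finite {v : Place ℂ F} (hv : IsFinitePlace M v) {y : F}
    (hy : OrdGE v 0 y) (α β : Fin M.d → ℂ) {t : ℂ} (ht : v.ord (xsub M t) = 0) :
    IsRegularAt v (Kgen M y α β t) := by
  rw [Kgen_eq]
  refine reg_smul' M ?_ (regular_dx M hv)
  have h1 : OrdGE v 0 ((xsub M t)⁻¹) := Or.inr (by rw [Place.ord_inv, ht]; norm_num)
  have := (h1.pow 2).mul (ordGE_Hnum hv hy α β t)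
  simpa using this

/-- Regularity of the generalized kernel on the fibre if the numerator vanishes doubly. -/
theorem reg_Kgen_of_ordGE_two {v : Place ℂ F} (hv : IsFinitePlace M v) {y : F}
    {α β : Fin M.d → ℂ} {t : ℂ} (ht : v.ord (xsub M t) = 1)
    (hH : OrdGE v 2 (Hnum M y α β t)) : IsRegularAt v (Kgen M y α β t) := by
  rw [Kgen_eq]
  refine reg_smul' M ?_ (regular_dx M hv)
  have h1 : OrdGE v (-2) (((xsub M t)⁻¹) ^ 2) := by
    right
    rw [ordGE_pow_of_ord (show v.ord (xsub M t)⁻¹ = -1 by rw [Place.ord_inv, ht])]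
    norm_num
  have := h1.mul hH
  simpa using this

/-- The residue of the kernel at the moving pole. -/
theorem resAt_Kgen {v : Place ℂ F} (hv : IsFinitePlace M v) {y : F}
    {α : Fin M.d → ℂ} {t : ℂ} (ht : v.ord (xsub M t) = 1)
    (hG : OrdGE v 1 (Gpoly M y α - 1)) : ResAt v (xsub M t) (Kgen M y α 0 t) 1 := by
  unfold ResAt
  have e : Kgen M y α 0 t - (1 : ℂ) • dlog F (xsub M t)
      = ((xsub M t)⁻¹ * (Gpoly M y α - 1)) • D ℂ F M.x := by
    rw [Kgen_zero_right, one_smul]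
    unfold dlog
    rw [D_xsub, ← sub_smul]
    congr 1
    ring
  rw [e]
  refine reg_smul' M ?_ (regular_dx M hv)
  have h1 : OrdGE v (-1) ((xsub M t)⁻¹) := Or.inr (by rw [Place.ord_inv, ht])
  have := h1.mul hG
  simpa using this

/-- The generalized kernel has a double pole on the fibre if the numerator is a unit. -/
theorem ordDifferential_Kgen {v : Place ℂ F} {y : F}
    {α β : Fin M.d → ℂ} {t : ℂ} (ht : v.ord (xsub M t) = 1)
    (hH : v.ord (Hnum M y α β t) = 0) (hH0 : Hnum M y α β t ≠ 0) :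
    v.ordDifferential (Kgen M y α β t) = -2 := by
  have hL := localSetting M
  obtain ⟨h1, h2⟩ := hL.unif v (xsub M t) ht
  rw [D_xsub] at h1 h2
  have hx0 := xsub_ne_zero M t
  rw [Kgen_eq, helper42.ordDifferential_smul_eq hL v
    (mul_ne_zero (pow_ne_zero 2 (inv_ne_zero hx0)) hH0) h1, h2,
    v.ord_mul (pow_ne_zero 2 (inv_ne_zero hx0)) hH0, hH,
    ordGE_pow_of_ord (show v.ord (xsub M t)⁻¹ = -1 by rw [Place.ord_inv, ht])]
  norm_num

/-- The generalized kernel minus its principal parts at infinity is regular at infinity. -/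
theorem reg_Kgen_sub_prin (j : Fin M.d) {y : F} {N₀ : ℕ}
    (hy : ∀ m : ℕ, m < M.d → OrdGE (M.plInf j) (-(N₀ : ℤ)) (y ^ m))
    (α β : Fin M.d → ℂ) (t : ℂ) :
    IsRegularAt (M.plInf j) (Kgen M y α β t
      - ∑ m : Fin M.d, ∑ n ∈ Finset.range (N₀ + 1), Ucoef M α β t m n • prin M y m n) := by
  have e : Kgen M y α β t
      - ∑ m : Fin M.d, ∑ n ∈ Finset.range (N₀ + 1), Ucoef M α β t m n • prin M y m n
      = ∑ m : Fin M.d, (α m • ((remCoeff M t (N₀ + 1) * y ^ (m : ℕ)) • D ℂ F M.x)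
          + β m • ((remCoeff' M t (N₀ + 1) * y ^ (m : ℕ)) • D ℂ F M.x)) := by
    unfold Kgen
    rw [← Finset.sum_sub_distrib]
    refine Finset.sum_congr rfl fun m _ => ?_
    rw [kern_eq M y t m (N₀ + 1), kern'_eq M y t m (N₀ + 1)]
    unfold Ucoef
    simp only [add_smul, smul_add, Finset.sum_add_distrib, Finset.smul_sum, mul_smul]
    abel
  rw [e]
  refine reg_sum M _ fun m _ => reg_add M (reg_const_smul M _ ?_) (reg_const_smul M _ ?_)
  · exact reg_rem_plInf M j (hy m m.2) t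
  · exact reg_rem'_plInf M j (hy m m.2) t

/-! ### The corrected family -/

/-- The hypotheses on the correction differentials. -/
structure IsCorrection (M : CutModel F) (y : F) (P₀ : Place ℂ F) (θ : Fin M.d → ℕ → Ω[F⁄ℂ]) :
    Prop where
  inf : ∀ (m : Fin M.d) (n : ℕ) (j : Fin M.d), IsRegularAt (M.plInf j) (θ m n - prin M y m n)
  fin : ∀ (m : Fin M.d) (n : ℕ) (v : Place ℂ F), IsFinitePlace M v → v ≠ P₀ →
    IsRegularAt v (θ m n)
  sp : ∀ (m : Fin M.d) (n : ℕ), -1 ≤ P₀.ordDifferential (θ m n)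

variable {y : F} {P₀ : Place ℂ F} {θ : Fin M.d → ℕ → Ω[F⁄ℂ]}

theorem reg_Θgen (hθ : IsCorrection M y P₀ θ) {v : Place ℂ F} (hv : IsFinitePlace M v)
    (hv0 : v ≠ P₀) (N : ℕ) (α β : Fin M.d → ℂ) (t : ℂ) :
    IsRegularAt v (Θgen M θ N α β t) :=
  reg_sum M _ fun m _ => reg_sum M _ fun n _ => reg_const_smul M _ (hθ.fin m n v hv hv0)

/-- The generalized family is regular at infinity. -/
theorem reg_Tgen_plInf (hθ : IsCorrection M y P₀ θ) (j : Fin M.d) {N₀ : ℕ}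
    (hy : ∀ m : ℕ, m < M.d → OrdGE (M.plInf j) (-(N₀ : ℤ)) (y ^ m))
    (α β : Fin M.d → ℂ) (t : ℂ) :
    IsRegularAt (M.plInf j) (Tgen M y θ (N₀ + 1) α β t) := by
  have e : Tgen M y θ (N₀ + 1) α β t
      = (Kgen M y α β t
          - ∑ m : Fin M.d, ∑ n ∈ Finset.range (N₀ + 1), Ucoef M α β t m n • prin M y m n)
        - ∑ m : Fin M.d, ∑ n ∈ Finset.range (N₀ + 1),
            Ucoef M α β t m n • (θ m n - prin M y m n) := by
    unfold Tgen Θgen
    simp only [smul_sub, Finset.sum_sub_distrib]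
    abel
  rw [e]
  refine reg_sub M (reg_Kgen_sub_prin j hy α β t) ?_
  exact reg_sum M _ fun m _ => reg_sum M _ fun n _ => reg_const_smul M _ (hθ.inf m n j)

/-- The generalized family is regular at the finite places off the fibre and different from
`P₀`. -/
theorem reg_Tgen_of_finite (hθ : IsCorrection M y P₀ θ) {v : Place ℂ F}
    (hv : IsFinitePlace M v) (hv0 : v ≠ P₀) (hy : OrdGE v 0 y) (N : ℕ)
    (α β : Fin M.d → ℂ) {t : ℂ} (ht : v.ord (xsub M t) = 0) :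
    IsRegularAt v (Tgen M y θ N α β t) :=
  reg_sub M (reg_Kgen_of_finite hv hy α β ht) (reg_Θgen hθ hv hv0 N α β t)

theorem reg_Tgen_of_ordGE_two (hθ : IsCorrection M y P₀ θ) {v : Place ℂ F}
    (hv : IsFinitePlace M v) (hv0 : v ≠ P₀) (N : ℕ)
    {α β : Fin M.d → ℂ} {t : ℂ} (ht : v.ord (xsub M t) = 1)
    (hH : OrdGE v 2 (Hnum M y α β t)) : IsRegularAt v (Tgen M y θ N α β t) :=
  reg_sub M (reg_Kgen_of_ordGE_two hv ht hH) (reg_Θgen hθ hv hv0 N α β t)

theorem resAt_Tgen (hθ : IsCorrection M y P₀ θ) {v : Place ℂ F}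
    (hv : IsFinitePlace M v) (hv0 : v ≠ P₀) (N : ℕ)
    {α : Fin M.d → ℂ} {t : ℂ} (ht : v.ord (xsub M t) = 1)
    (hG : OrdGE v 1 (Gpoly M y α - 1)) : ResAt v (xsub M t) (Tgen M y θ N α 0 t) 1 := by
  have := (resAt_Kgen hv ht hG).sub M (ResAt.of_reg (t₀ := xsub M t)
    (reg_Θgen hθ hv hv0 N α 0 t))
  rwa [sub_zero] at this

theorem ordDifferential_Tgen (hθ : IsCorrection M y P₀ θ) {v : Place ℂ F}
    (hv : IsFinitePlace M v) (hv0 : v ≠ P₀) (N : ℕ)
    {α β : Fin M.d → ℂ} {t : ℂ} (ht : v.ord (xsub M t) = 1)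
    (hH : v.ord (Hnum M y α β t) = 0) (hH0 : Hnum M y α β t ≠ 0) :
    v.ordDifferential (Tgen M y θ N α β t) = -2 :=
  ordDifferential_sub_eq_of_reg M (by norm_num) (ordDifferential_Kgen ht hH hH0)
    (reg_Θgen hθ hv hv0 N α β t)

/-- The residue at `P₀` of the generalized family w.r.t. a fixed uniformiser. -/
theorem resAt_Tgen_P₀ (hP₀ : IsFinitePlace M P₀) (hy : OrdGE P₀ 0 y) {t₀ : F}
    {r : Fin M.d → ℕ → ℂ} (hr : ∀ m n, ResAt P₀ t₀ (θ m n) (r m n)) (N : ℕ)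
    (α β : Fin M.d → ℂ) {t : ℂ} (ht : P₀.ord (xsub M t) = 0) :
    ResAt P₀ t₀ (Tgen M y θ N α β t)
      (-∑ m : Fin M.d, ∑ n ∈ Finset.range N, Ucoef M α β t m n * r m n) := by
  have h1 : ResAt P₀ t₀ (Kgen M y α β t) 0 := ResAt.of_reg (reg_Kgen_of_finite hP₀ hy α β ht)
  have h2 : ResAt P₀ t₀ (Θgen M θ N α β t)
      (∑ m : Fin M.d, ∑ n ∈ Finset.range N, Ucoef M α β t m n * r m n) :=
    ResAt.sum M _ fun m _ => ResAt.sum M _ fun n _ => (hr m n).const_smul M _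
  have := h1.sub M h2
  rwa [zero_sub] at this

end

end Fermat.Agent.P5.helper52
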