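import Mathlib
import Fermat.Agent.P5.helper52_FamLocal
import Fermat.Agent.P2.helper74_NonSpecial
import Fermat.Agent.P2.helper74_RiemannChar0

/-!
# P5 / SURJ, package FAM-ALG (helper52), part 5: the interpolating function and the Lagrange
coefficients

* `exists_separating` : a function `y` with poles only over `∞` and values `0, …, d - 1` at
  the `d` places over the base point `z₀`;
* `exists_sheets` : its analytic sheet functions `Y j`, pairwise distinct on a ball around `z₀`;
* `lagC Y k m t` : the coefficients of the Lagrange polynomial of the values `Y j t` at the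
  node `k`, differentiable where the values are pairwise distinct, with
  `∑ m, lagC Y k m t * (Y j t) ^ m = δ_{jk}`.
-/

set_option autoImplicit false
set_option linter.style.haveILetI false
set_option linter.unusedSectionVars false

open AlgebraicCurve Filter Topology KaehlerDifferential

namespace Fermat.Agent.P5.helper52

open Fermat.Agent.P5.helper25 Fermat.Agent.P5.helper4

noncomputable section

variable {F : Type} [Field F] [Algebra ℂ F] (M : CutModel F)

theorem z₀_mem : M.z₀ ∈ M.toCutGeometry.U₀ := by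
  intro i hi
  obtain ⟨s, hs, h⟩ := hi
  have h1 : ((1 : ℂ) + s) * (M.b i - M.z₀) = 0 := by
    have : M.toCutGeometry.z₀ = M.z₀ := rfl
    linear_combination -h
  rcases mul_eq_zero.mp h1 with h2 | h2
  · have h3 : ((1 : ℝ) + s : ℂ) = 0 := by exact_mod_cast h2
    have h4 : (1 : ℝ) + s = 0 := by exact_mod_cast h3
    linarith
  · exact M.b_ne i (sub_eq_zero.mp h2)

/-! ### The interpolating function -/

theorem exists_separating :
    ∃ y : F, (∀ v, IsFinitePlace M v → 0 ≤ v.ord y) ∧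
      ∀ j : Fin M.d, OrdGE (M.pl j M.z₀) 1 (y - algebraMap ℂ F ((j : ℕ) : ℂ)) := by
  classical
  haveI := M.x_finite
  have hS := Fermat.Agent.P2.helper74.riemannSetting_charZero M.x M.x_transcendental
  obtain ⟨g, -, c, hc⟩ := Fermat.Agent.P2.helper74.exists_genus_charZero M.x M.x_transcendental
  have hz₀ := z₀_mem M
  set T : Finset (Place ℂ F) := Finset.univ.image (fun k' : Fin M.d => M.pl k' M.z₀) with hT
  set Q₁ : Place ℂ F := M.plInf ⟨0, M.d_pos⟩ with hQ₁def
  have hQ₁ : Q₁ ∉ T := by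
    intro h
    obtain ⟨k', -, hk'⟩ := Finset.mem_image.mp h
    exact M.pl_ne_plInf k' M.z₀ _ hz₀ hk'
  have hmemT : ∀ k' : Fin M.d, M.pl k' M.z₀ ∈ T := fun k' =>
    Finset.mem_image_of_mem _ (Finset.mem_univ k')
  have key : ∀ j : Fin M.d, ∃ e : F, (∀ v, IsFinitePlace M v → 0 ≤ v.ord e) ∧
      OrdGE (M.pl j M.z₀) 1 (e - 1) ∧ ∀ k', k' ≠ j → OrdGE (M.pl k' M.z₀) 1 e := by
    intro j
    obtain ⟨e, he0, heT, heO⟩ := Fermat.Agent.P2.helper74.exists_prescribed_ord hS hc T
      (fun P => if P = M.pl j M.z₀ then 0 else 1) Q₁ hQ₁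
    have h0 : (M.pl j M.z₀).ord e = 0 := by
      have := heT _ (hmemT j)
      simpa using this
    have h1 : ∀ k', k' ≠ j → (M.pl k' M.z₀).ord e = 1 := by
      intro k' hk'
      have := heT _ (hmemT k')
      rwa [if_neg] at this
      intro h
      exact hk' (M.pl_injective k' j M.z₀ M.z₀ hz₀ hz₀ h).1
    have hreg : ∀ v, IsFinitePlace M v → 0 ≤ v.ord e := by
      intro v hv
      by_cases hvT : v ∈ T
      · have := heT v hvT
        rw [this]
        split_ifs <;> norm_num
      · exact heO v hvT (hv _)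
    obtain ⟨a, ha⟩ := hS.residue (M.pl j M.z₀) e h0.ge
    have ha0 : a ≠ 0 := by
      rintro rfl
      rw [map_zero, sub_zero] at ha
      rcases ha with ha | ha
      · exact he0 ha
      · omega
    refine ⟨algebraMap ℂ F a⁻¹ * e, ?_, ?_, ?_⟩
    · intro v hv
      exact ((OrdGE.of_le (hreg v hv)).const_mul a⁻¹).nonneg le_rfl
    · have e1 : algebraMap ℂ F a⁻¹ * e - 1 = algebraMap ℂ F a⁻¹ * (e - algebraMap ℂ F a) := by
        rw [mul_sub, ← map_mul, inv_mul_cancel₀ ha0, map_one]
      rw [e1]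
      refine OrdGE.const_mul _ ?_
      rcases ha with ha | ha
      · left
        rw [ha, sub_self]
      · right
        omega
    · intro k' hk'
      exact (OrdGE.of_le (h1 k' hk').ge).const_mul _
  choose e he1 he2 he3 using key
  refine ⟨∑ j : Fin M.d, algebraMap ℂ F ((j : ℕ) : ℂ) * e j, ?_, ?_⟩
  · intro v hv
    refine OrdGE.nonneg (OrdGE.sum _ fun j _ => ?_) le_rfl
    exact (OrdGE.of_le (he1 j v hv)).const_mul _
  · intro j₀
    have e1 : (∑ j : Fin M.d, algebraMap ℂ F ((j : ℕ) : ℂ) * e j)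
        - algebraMap ℂ F ((j₀ : ℕ) : ℂ)
        = ∑ j : Fin M.d, algebraMap ℂ F ((j : ℕ) : ℂ) * (e j - if j = j₀ then 1 else 0) := by
      simp only [mul_sub, Finset.sum_sub_distrib, mul_ite, mul_one, mul_zero,
        Finset.sum_ite_eq', Finset.mem_univ, if_true]
    rw [e1]
    refine OrdGE.sum _ fun j _ => OrdGE.const_mul _ ?_
    by_cases hj : j = j₀
    · subst hj
      rw [if_pos rfl]
      exact he2 j
    · rw [if_neg hj, sub_zero]
      exact he3 j j₀ (Ne.symm hj)

/-! ### The sheet functions of the interpolating function -/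

theorem exists_sheets {y : F} (hy : ∀ v, IsFinitePlace M v → 0 ≤ v.ord y)
    (hsep : ∀ j : Fin M.d, OrdGE (M.pl j M.z₀) 1 (y - algebraMap ℂ F ((j : ℕ) : ℂ))) :
    ∃ Y : Fin M.d → ℂ → ℂ, (∀ j, AnalyticOnNhd ℂ (Y j) M.toCutGeometry.U₀) ∧
      (∀ j, IsSheetFn M j y (Y j)) ∧
      ∃ δ : ℝ, 0 < δ ∧ Metric.ball M.z₀ δ ⊆ M.toCutGeometry.U₀ ∧
        ∀ t ∈ Metric.ball M.z₀ δ, Function.Injective (fun j => Y j t) := by
  have hz₀ := z₀_mem M
  have h1 : ∀ j : Fin M.d, ∃ φ : ℂ → ℂ, AnalyticOnNhd ℂ φ M.toCutGeometry.U₀ ∧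
      IsSheetFn M j y φ := fun j =>
    exists_sheetFn M j y fun z hz => hy _ (isFinitePlace_pl M j hz)
  choose Y hYa hYs using h1
  refine ⟨Y, hYa, hYs, ?_⟩
  have hval : ∀ j : Fin M.d, Y j M.z₀ = ((j : ℕ) : ℂ) := by
    intro j
    have hs : IsSheetFn M j (y - algebraMap ℂ F ((j : ℕ) : ℂ))
        (fun w => Y j w - ((j : ℕ) : ℂ)) := (hYs j).sub (IsSheetFn.const j _)
    have han : AnalyticAt ℂ (fun w => Y j w - ((j : ℕ) : ℂ)) M.z₀ :=
      (hYa j M.z₀ hz₀).sub analyticAt_const
    have := hs.eq_zero_of_ordGE hz₀ han (hsep j)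
    exact sub_eq_zero.mp this
  have hev : ∀ᶠ t in 𝓝 M.z₀, t ∈ M.toCutGeometry.U₀ ∧
      ∀ p : Fin M.d × Fin M.d, p.1 ≠ p.2 → Y p.1 t ≠ Y p.2 t := by
    have hU : ∀ᶠ t in 𝓝 M.z₀, t ∈ M.toCutGeometry.U₀ := (CutGeom.isOpen_U₀ _).mem_nhds hz₀
    refine hU.and ?_
    rw [Filter.eventually_all]
    intro p
    by_cases hp : p.1 = p.2
    · exact Filter.Eventually.of_forall fun t h => absurd hp h
    · have hc : ContinuousAt (fun t => Y p.1 t - Y p.2 t) M.z₀ :=
        ((hYa p.1 M.z₀ hz₀).continuousAt).sub ((hYa p.2 M.z₀ hz₀).continuousAt)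
      have hne : Y p.1 M.z₀ - Y p.2 M.z₀ ≠ 0 := by
        rw [hval, hval, sub_ne_zero]
        intro h
        apply hp
        have : (p.1 : ℕ) = (p.2 : ℕ) := by exact_mod_cast h
        exact Fin.ext this
      filter_upwards [hc.eventually_ne hne] with t ht _
      exact sub_ne_zero.mp ht
  obtain ⟨δ, hδ, hball⟩ := Metric.eventually_nhds_iff_ball.mp hev
  refine ⟨δ, hδ, fun t ht => (hball t ht).1, fun t ht i j hij => ?_⟩
  by_contra hne
  exact (hball t ht).2 (i, j) hne hij

/-! ### Families of polynomials with differentiable coefficients -/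

/-- All coefficients of the family `p` are differentiable on `s`. -/
def PolyDiff (p : ℂ → Polynomial ℂ) (s : Set ℂ) : Prop :=
  ∀ m : ℕ, DifferentiableOn ℂ (fun t => (p t).coeff m) s

theorem PolyDiff.C {f : ℂ → ℂ} {s : Set ℂ} (hf : DifferentiableOn ℂ f s) :
    PolyDiff (fun t => Polynomial.C (f t)) s := by
  intro m
  simp only [Polynomial.coeff_C]
  by_cases hm : m = 0
  · simpa [hm] using hf
  · simp [hm]

theorem PolyDiff.X_sub_C {f : ℂ → ℂ} {s : Set ℂ} (hf : DifferentiableOn ℂ f s) :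
    PolyDiff (fun t => Polynomial.X - Polynomial.C (f t)) s := by
  intro m
  simp only [Polynomial.coeff_sub]
  exact (differentiableOn_const (c := (Polynomial.X : Polynomial ℂ).coeff m)).sub
    (PolyDiff.C hf m)

theorem PolyDiff.mul {p q : ℂ → Polynomial ℂ} {s : Set ℂ} (hp : PolyDiff p s)
    (hq : PolyDiff q s) : PolyDiff (fun t => p t * q t) s := by
  intro m
  simp only [Polynomial.coeff_mul]
  exact DifferentiableOn.fun_sum fun ij _ => (hp ij.1).mul (hq ij.2)

theorem PolyDiff.one (s : Set ℂ) : PolyDiff (fun _ => (1 : Polynomial ℂ)) s :=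
  fun _ => differentiableOn_const _

theorem PolyDiff.prod {ι : Type*} (S : Finset ι) {p : ι → ℂ → Polynomial ℂ} {s : Set ℂ}
    (hp : ∀ i ∈ S, PolyDiff (p i) s) : PolyDiff (fun t => ∏ i ∈ S, p i t) s := by
  classical
  induction S using Finset.induction_on with
  | empty => simpa using PolyDiff.one s
  | insert a S ha ih =>
    simp only [Finset.prod_insert ha]
    exact (hp a (Finset.mem_insert_self a S)).mul
      (ih fun i hi => hp i (Finset.mem_insert_of_mem hi))

/-! ### The Lagrange coefficients -/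

variable {d : ℕ}

/-- The Lagrange polynomial at the node `k` of the values `Y j t`. -/
def lagP (Y : Fin d → ℂ → ℂ) (k : Fin d) (t : ℂ) : Polynomial ℂ :=
  Lagrange.basis Finset.univ (fun j => Y j t) k

/-- Its coefficients. -/
def lagC (Y : Fin d → ℂ → ℂ) (k : Fin d) (m : ℕ) (t : ℂ) : ℂ := (lagP Y k t).coeff m

theorem lagC_differentiableOn {Y : Fin d → ℂ → ℂ} {s : Set ℂ}
    (hY : ∀ j, DifferentiableOn ℂ (Y j) s)
    (hinj : ∀ t ∈ s, Function.Injective (fun j => Y j t)) (k : Fin d) (m : ℕ) :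
    DifferentiableOn ℂ (lagC Y k m) s := by
  have h : PolyDiff (lagP Y k) s := by
    unfold lagP Lagrange.basis
    refine PolyDiff.prod _ fun j hj => ?_
    unfold Lagrange.basisDivisor
    refine PolyDiff.mul (PolyDiff.C ?_) (PolyDiff.X_sub_C (hY j))
    refine DifferentiableOn.inv ((hY k).sub (hY j)) fun t ht => ?_
    rw [sub_ne_zero]
    intro h
    exact (Finset.mem_erase.mp hj).1 (hinj t ht h).symm
  exact h m

theorem eval_lagP {Y : Fin d → ℂ → ℂ} {t : ℂ} (hinj : Function.Injective (fun j => Y j t))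
    (k j : Fin d) : (lagP Y k t).eval (Y j t) = if j = k then 1 else 0 := by
  unfold lagP
  split_ifs with h
  · subst h
    exact Lagrange.eval_basis_self (v := fun j => Y j t) hinj.injOn (Finset.mem_univ _)
  · exact Lagrange.eval_basis_of_ne (v := fun j => Y j t) (Ne.symm h) (Finset.mem_univ _)

theorem natDegree_lagP_lt {Y : Fin d → ℂ → ℂ} {t : ℂ}
    (hinj : Function.Injective (fun j => Y j t)) (k : Fin d) : (lagP Y k t).natDegree < d := by
  unfold lagP
  rw [Lagrange.natDegree_basis (v := fun j => Y j t) hinj.injOn (Finset.mem_univ _),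
    Finset.card_univ, Fintype.card_fin]
  have : 0 < d := Fin.pos k
  omega

/-- `∑ m, c_m(t) z ^ m = g_t(z)`. -/
theorem sum_lagC_mul_pow {Y : Fin d → ℂ → ℂ} {t : ℂ}
    (hinj : Function.Injective (fun j => Y j t)) (k : Fin d) (z : ℂ) :
    ∑ m : Fin d, lagC Y k m t * z ^ (m : ℕ) = (lagP Y k t).eval z := by
  rw [Polynomial.eval_eq_sum_range' (natDegree_lagP_lt hinj k), Finset.sum_range]
  rfl

/-- `∑ m, c_m(t) (Y j t) ^ m = δ_{jk}`. -/
theorem sum_lagC_mul_pow_self {Y : Fin d → ℂ → ℂ} {t : ℂ}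
    (hinj : Function.Injective (fun j => Y j t)) (k j : Fin d) :
    ∑ m : Fin d, lagC Y k m t * (Y j t) ^ (m : ℕ) = if j = k then 1 else 0 := by
  rw [sum_lagC_mul_pow hinj, eval_lagP hinj]

end

end Fermat.Agent.P5.helper52
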