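import Mathlib
import Fermat.Agent.P5.helper52_FamGen
import Fermat.Agent.P5.helper52_FamSheets

/-!
# P5 / SURJ, package FAM-ALG (helper52), part 6: the algebraic family

`algFamilyStatement : RRSurj F → AlgFamilyStatement M` for every cut model `M` of `F/ℂ`.
-/

set_option autoImplicit false
set_option linter.style.haveILetI false
set_option linter.unusedSectionVars false

open AlgebraicCurve Filter Topology KaehlerDifferential

namespace Fermat.Agent.P5.helper52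

open Fermat.Agent.P5.helper25 Fermat.Agent.P5.helper4

noncomputable section

variable {F : Type} [Field F] [Algebra ℂ F]

/-- The fixed data of the construction. -/
structure FamSetup (M : CutModel F) where
  y : F
  hy : ∀ v, IsFinitePlace M v → 0 ≤ v.ord y
  Y : Fin M.d → ℂ → ℂ
  hYa : ∀ j, AnalyticOnNhd ℂ (Y j) M.toCutGeometry.U₀
  hYs : ∀ j, IsSheetFn M j y (Y j)
  δ : ℝ
  δ_pos : 0 < δ
  ball_sub : Metric.ball M.z₀ δ ⊆ M.toCutGeometry.U₀
  inj : ∀ t ∈ Metric.ball M.z₀ δ, Function.Injective (fun j => Y j t)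
  N₀ : ℕ
  hN₀ : ∀ (j : Fin M.d) (m : ℕ), m < M.d → OrdGE (M.plInf j) (-(N₀ : ℤ)) (y ^ m)

theorem nonempty_famSetup (M : CutModel F) : Nonempty (FamSetup M) := by
  obtain ⟨y, hy, hsep⟩ := exists_separating M
  obtain ⟨Y, hYa, hYs, δ, hδ, hball, hinj⟩ := exists_sheets M hy hsep
  obtain ⟨N₀, hN₀⟩ := exists_pole_bound M y M.d
  exact ⟨⟨y, hy, Y, hYa, hYs, δ, hδ, hball, hinj, N₀, hN₀⟩⟩

namespace FamSetup

variable {M : CutModel F} (S : FamSetup M)

/-- The coefficient functions. -/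
def c (k : Fin M.d) (m : Fin M.d) : ℂ → ℂ := lagC S.Y k (m : ℕ)

theorem c_differentiableOn (k m : Fin M.d) :
    DifferentiableOn ℂ (S.c k m) (Metric.ball M.z₀ S.δ) :=
  lagC_differentiableOn
    (fun j => ((S.hYa j).mono S.ball_sub).differentiableOn) S.inj k m

theorem c_differentiableAt (k m : Fin M.d) {t : ℂ} (ht : t ∈ Metric.ball M.z₀ S.δ) :
    DifferentiableAt ℂ (S.c k m) t :=
  (S.c_differentiableOn k m).differentiableAt (Metric.isOpen_ball.mem_nhds ht)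

theorem Y_differentiableAt (j : Fin M.d) {t : ℂ} (ht : t ∈ M.toCutGeometry.U₀) :
    DifferentiableAt ℂ (S.Y j) t := (S.hYa j t ht).differentiableAt

/-- The sheet function of `G_α`. -/
def gfun (α : Fin M.d → ℂ) (j : Fin M.d) (w : ℂ) : ℂ := ∑ m : Fin M.d, α m * (S.Y j w) ^ (m : ℕ)

theorem isSheetFn_Gpoly (α : Fin M.d → ℂ) (j : Fin M.d) :
    IsSheetFn M j (Gpoly M S.y α) (S.gfun α j) := by
  unfold Gpoly gfun
  exact IsSheetFn.sum _ fun m _ => ((S.hYs j).pow _).smul _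

theorem gfun_analyticAt (α : Fin M.d → ℂ) (j : Fin M.d) {t : ℂ}
    (ht : t ∈ M.toCutGeometry.U₀) : AnalyticAt ℂ (S.gfun α j) t := by
  unfold gfun
  refine Finset.analyticAt_fun_sum _ fun m _ => ?_
  exact analyticAt_const.mul ((S.hYa j t ht).pow _)

theorem gfun_c (k j : Fin M.d) {t : ℂ} (ht : t ∈ Metric.ball M.z₀ S.δ) :
    S.gfun (fun m => S.c k m t) j t = if j = k then 1 else 0 :=
  sum_lagC_mul_pow_self (S.inj t ht) k j

/-- `G_t` vanishes at the places `pl j t`, `j ≠ k`. -/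
theorem ordGE_Gpoly_c {k j : Fin M.d} (hjk : j ≠ k) {t : ℂ} (ht : t ∈ Metric.ball M.z₀ S.δ) :
    OrdGE (M.pl j t) 1 (Gpoly M S.y (fun m => S.c k m t)) := by
  refine (S.isSheetFn_Gpoly _ j).ordGE_one (S.ball_sub ht) (S.gfun_analyticAt _ j (S.ball_sub ht)) ?_
  rw [S.gfun_c k j ht, if_neg hjk]

/-- `G_t - 1` vanishes at the place `pl k t`. -/
theorem ordGE_Gpoly_c_sub_one (k : Fin M.d) {t : ℂ} (ht : t ∈ Metric.ball M.z₀ S.δ) :
    OrdGE (M.pl k t) 1 (Gpoly M S.y (fun m => S.c k m t) - 1) := by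
  have hs : IsSheetFn M k (Gpoly M S.y (fun m => S.c k m t) - 1)
      (fun w => S.gfun (fun m => S.c k m t) k w - 1) :=
    (S.isSheetFn_Gpoly _ k).sub (IsSheetFn.one k)
  refine hs.ordGE_one (S.ball_sub ht)
    ((S.gfun_analyticAt _ k (S.ball_sub ht)).sub analyticAt_const) ?_
  rw [S.gfun_c k k ht, if_pos rfl, sub_self]

/-- The sheet function of the numerator `H`. -/
def hfun (α β : Fin M.d → ℂ) (t : ℂ) (j : Fin M.d) (w : ℂ) : ℂ :=
  (w - t) * S.gfun α j w + S.gfun β j w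

theorem isSheetFn_Hnum (α β : Fin M.d → ℂ) (t : ℂ) (j : Fin M.d) :
    IsSheetFn M j (Hnum M S.y α β t) (S.hfun α β t j) := by
  unfold Hnum hfun
  exact ((IsSheetFn.xsub j t).mul (S.isSheetFn_Gpoly α j)).add (S.isSheetFn_Gpoly β j)

theorem hfun_analyticAt (α β : Fin M.d → ℂ) (t : ℂ) (j : Fin M.d) {w : ℂ}
    (hw : w ∈ M.toCutGeometry.U₀) : AnalyticAt ℂ (S.hfun α β t j) w := by
  unfold hfun
  exact ((analyticAt_id.sub analyticAt_const).mul (S.gfun_analyticAt α j hw)).add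
    (S.gfun_analyticAt β j hw)

theorem hfun_self (α β : Fin M.d → ℂ) (t : ℂ) (j : Fin M.d) :
    S.hfun α β t j t = S.gfun β j t := by
  unfold hfun
  rw [sub_self, zero_mul, zero_add]

/-- The derivative of the sheet function of the numerator at the centre. -/
theorem hasDerivAt_hfun (α β : Fin M.d → ℂ) (j : Fin M.d) {t : ℂ}
    (ht : t ∈ M.toCutGeometry.U₀) :
    HasDerivAt (S.hfun α β t j) (S.gfun α j t + deriv (S.gfun β j) t) t := by
  have h1 : HasDerivAt (fun w : ℂ => w - t) 1 t := (hasDerivAt_id t).sub_const t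
  have h2 := (S.gfun_analyticAt α j ht).differentiableAt.hasDerivAt
  have h3 := (S.gfun_analyticAt β j ht).differentiableAt.hasDerivAt
  have h4 := (h1.fun_mul h2).fun_add h3
  have e : (1 : ℂ) * S.gfun α j t + (t - t) * deriv (S.gfun α j) t + deriv (S.gfun β j) t
      = S.gfun α j t + deriv (S.gfun β j) t := by ring
  rw [e] at h4
  exact h4

/-- The derivative of `t ↦ g_t(Y_j(t))` in terms of the coefficient functions. -/
theorem hasDerivAt_gfun_c (k j : Fin M.d) {t : ℂ} (ht : t ∈ Metric.ball M.z₀ S.δ) :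
    HasDerivAt (fun s => S.gfun (fun m => S.c k m s) j s)
      (S.gfun (fun m => deriv (S.c k m) t) j t + deriv (S.gfun (fun m => S.c k m t) j) t) t := by
  have hU := S.ball_sub ht
  have hpow : ∀ m : Fin M.d, HasDerivAt (fun w => (S.Y j w) ^ (m : ℕ))
      (deriv (fun w => (S.Y j w) ^ (m : ℕ)) t) t := fun m =>
    ((S.hYa j t hU).pow _).differentiableAt.hasDerivAt
  have h1 : HasDerivAt (fun s => S.gfun (fun m => S.c k m s) j s)
      (∑ m : Fin M.d, (deriv (S.c k m) t * (S.Y j t) ^ (m : ℕ)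
        + S.c k m t * deriv (fun w => (S.Y j w) ^ (m : ℕ)) t)) t := by
    unfold gfun
    exact HasDerivAt.fun_sum fun m _ => (S.c_differentiableAt k m ht).hasDerivAt.mul (hpow m)
  have h2 : HasDerivAt (S.gfun (fun m => S.c k m t) j)
      (∑ m : Fin M.d, S.c k m t * deriv (fun w => (S.Y j w) ^ (m : ℕ)) t) t := by
    unfold gfun
    exact HasDerivAt.fun_sum fun m _ => (hpow m).const_mul _
  rw [h2.deriv]
  convert h1 using 1
  unfold gfun
  rw [← Finset.sum_add_distrib]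

/-- The key identity: the derivative of the sheet function of the numerator vanishes. -/
theorem deriv_hfun_eq_zero (k j : Fin M.d) {t : ℂ} (ht : t ∈ Metric.ball M.z₀ S.δ) :
    deriv (S.hfun (fun m => deriv (S.c k m) t) (fun m => S.c k m t) t j) t = 0 := by
  have h1 := S.hasDerivAt_gfun_c k j ht
  have h2 : (fun s => S.gfun (fun m => S.c k m s) j s) =ᶠ[𝓝 t]
      fun _ => (if j = k then (1 : ℂ) else 0) := by
    filter_upwards [Metric.isOpen_ball.mem_nhds ht] with s hs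
    exact S.gfun_c k j hs
  have h3 : HasDerivAt (fun s => S.gfun (fun m => S.c k m s) j s) 0 t :=
    (hasDerivAt_const t _).congr_of_eventuallyEq h2
  rw [(S.hasDerivAt_hfun _ _ j (S.ball_sub ht)).deriv]
  exact h1.unique h3

/-- The numerator vanishes doubly at `pl j t`, `j ≠ k`. -/
theorem ordGE_Hnum_c {k j : Fin M.d} (hjk : j ≠ k) {t : ℂ} (ht : t ∈ Metric.ball M.z₀ S.δ) :
    OrdGE (M.pl j t) 2
      (Hnum M S.y (fun m => deriv (S.c k m) t) (fun m => S.c k m t) t) := by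
  refine (S.isSheetFn_Hnum _ _ t j).ordGE_two (S.ball_sub ht)
    (S.hfun_analyticAt _ _ t j (S.ball_sub ht)) ?_ (S.deriv_hfun_eq_zero k j ht)
  rw [S.hfun_self, S.gfun_c k j ht, if_neg hjk]

/-- The numerator is a unit at `pl k t`. -/
theorem ord_Hnum_c (k : Fin M.d) {t : ℂ} (ht : t ∈ Metric.ball M.z₀ S.δ) :
    (M.pl k t).ord (Hnum M S.y (fun m => deriv (S.c k m) t) (fun m => S.c k m t) t) = 0 ∧
      Hnum M S.y (fun m => deriv (S.c k m) t) (fun m => S.c k m t) t ≠ 0 := by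
  have hval : S.hfun (fun m => deriv (S.c k m) t) (fun m => S.c k m t) t k t = 1 := by
    rw [S.hfun_self, S.gfun_c k k ht, if_pos rfl]
  have han := S.hfun_analyticAt (fun m => deriv (S.c k m) t) (fun m => S.c k m t) t k
    (S.ball_sub ht)
  have hs := S.isSheetFn_Hnum (fun m => deriv (S.c k m) t) (fun m => S.c k m t) t k
  refine ⟨hs.ord_eq_zero (S.ball_sub ht) han (by rw [hval]; exact one_ne_zero), ?_⟩
  intro h0
  rw [h0] at hs
  have := hs.eq_at (IsSheetFn.zero k) (S.ball_sub ht) han.continuousAt continuousAt_const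
  rw [hval] at this
  exact one_ne_zero this

end FamSetup

/-! ### The correction differentials -/

theorem exists_correction (RS : RRSurj F) (M : CutModel F) (y : F) {P₀ : Place ℂ F}
    (hP₀ : IsFinitePlace M P₀) : ∃ θ : Fin M.d → ℕ → Ω[F⁄ℂ], IsCorrection M y P₀ θ := by
  classical
  set Sinf : Finset (Place ℂ F) := Finset.univ.image M.plInf with hSinf
  have hmem : ∀ v : Place ℂ F, v ∈ Sinf ↔ ∃ j, v = M.plInf j := by
    intro v
    rw [hSinf, Finset.mem_image]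
    constructor
    · rintro ⟨j, -, rfl⟩
      exact ⟨j, rfl⟩
    · rintro ⟨j, rfl⟩
      exact ⟨j, Finset.mem_univ j, rfl⟩
  have hP : P₀ ∉ Sinf := by
    rw [hmem]
    rintro ⟨j, hj⟩
    exact hP₀ j hj
  have h : ∀ (m : Fin M.d) (n : ℕ), ∃ θ : Ω[F⁄ℂ],
      (∀ Q ∈ Sinf, IsRegularAt Q (θ - prin M y m n)) ∧
      (∀ Q : Place ℂ F, Q ∉ Sinf → Q ≠ P₀ → IsRegularAt Q θ) ∧ -1 ≤ P₀.ordDifferential θ :=
    fun m n => RS.ml _ Sinf P₀ hP
  choose θ h1 h2 h3 using h
  refine ⟨θ, ⟨fun m n j => h1 m n _ ((hmem _).mpr ⟨j, rfl⟩), fun m n v hv hv0 => ?_, h3⟩⟩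
  refine h2 m n v ?_ hv0
  rw [hmem]
  rintro ⟨j, hj⟩
  exact hv j hj

/-! ### The family -/

theorem Hnum_zero_right (M : CutModel F) (y : F) (α : Fin M.d → ℂ) (t : ℂ) :
    Hnum M y α 0 t = xsub M t * Gpoly M y α := by
  unfold Hnum Gpoly
  simp

theorem Ucoef_zero_right (M : CutModel F) (α : Fin M.d → ℂ) (t : ℂ) (m : Fin M.d) (n : ℕ) :
    Ucoef M α 0 t m n = α m * (t - M.z₀) ^ n := by
  unfold Ucoef
  simp

/-- The local data of the family at an interior point. -/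
structure FamPoint {M : CutModel F} (S : FamSetup M) (k : Fin M.d) (a₁ : ℂ) where
  ε : ℝ
  ε_pos : 0 < ε
  closedBall_sub : Metric.closedBall a₁ ε ⊆ Metric.ball M.z₀ S.δ
  k₀ : Fin M.d
  a₀ : ℂ
  a₀_mem : a₀ ∈ M.toCutGeometry.U₀
  a₀_notMem : a₀ ∉ Metric.closedBall a₁ ε
  a₀_ne_base : a₀ ≠ M.z₀
  θ : Fin M.d → ℕ → Ω[F⁄ℂ]
  hθ : IsCorrection M S.y (M.pl k₀ a₀) θ
  r : Fin M.d → ℕ → ℂ
  hr : ∀ m n, ResAt (M.pl k₀ a₀) (xsub M a₀) (θ m n) (r m n)

namespace FamPoint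

variable {M : CutModel F} {S : FamSetup M} {k : Fin M.d} {a₁ : ℂ} (p : FamPoint S k a₁)

/-- the fixed pole -/
def P₀ : Place ℂ F := M.pl p.k₀ p.a₀

theorem ball_sub : Metric.ball a₁ p.ε ⊆ Metric.ball M.z₀ S.δ :=
  Metric.ball_subset_closedBall.trans p.closedBall_sub

theorem mem_U₀ {t : ℂ} (ht : t ∈ Metric.ball a₁ p.ε) : t ∈ M.toCutGeometry.U₀ :=
  S.ball_sub (p.ball_sub ht)

theorem a₁_mem : a₁ ∈ Metric.ball a₁ p.ε := Metric.mem_ball_self p.ε_pos

theorem ne_a₀ {t : ℂ} (ht : t ∈ Metric.ball a₁ p.ε) : t ≠ p.a₀ := by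
  rintro rfl
  exact p.a₀_notMem (Metric.ball_subset_closedBall ht)

theorem P₀_finite : IsFinitePlace M p.P₀ := isFinitePlace_pl M p.k₀ p.a₀_mem

theorem pl_ne_P₀ (j : Fin M.d) {t : ℂ} (ht : t ∈ Metric.ball a₁ p.ε) : M.pl j t ≠ p.P₀ := by
  intro h
  exact p.ne_a₀ ht (M.pl_injective j p.k₀ t p.a₀ (p.mem_U₀ ht) p.a₀_mem h).2

theorem ord_P₀_xsub {t : ℂ} (ht : t ∈ Metric.ball a₁ p.ε) : p.P₀.ord (xsub M t) = 0 := by
  unfold P₀
  rw [ord_pl M p.k₀ p.a₀_mem t, if_neg (Ne.symm (p.ne_a₀ ht))]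

theorem ord_P₀_unif : p.P₀.ord (xsub M p.a₀) = 1 := ord_xsub_pl_self M p.k₀ p.a₀_mem

theorem hy_P₀ : OrdGE p.P₀ 0 S.y := OrdGE.of_le (S.hy _ p.P₀_finite)

/-- The family `τ_t`. -/
def tau (t : ℂ) : Ω[F⁄ℂ] :=
  Tgen M S.y p.θ (S.N₀ + 1) (fun m => S.c k m t) 0 t

/-- The derivative `η_t`. -/
def eta (t : ℂ) : Ω[F⁄ℂ] :=
  Tgen M S.y p.θ (S.N₀ + 1) (fun m => deriv (S.c k m) t) (fun m => S.c k m t) t

/-- The sum of the residues of the corrections. -/
def rho (α β : Fin M.d → ℂ) (t : ℂ) : ℂ :=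
  ∑ m : Fin M.d, ∑ n ∈ Finset.range (S.N₀ + 1), Ucoef M α β t m n * p.r m n

/-- Regularity of the generalized family away from the fibre and from `P₀`, and on the fibre
where the numerator vanishes doubly. -/
theorem reg_Tgen (α β : Fin M.d → ℂ) {t : ℂ} (ht : t ∈ Metric.ball a₁ p.ε)
    (hH : ∀ j : Fin M.d, j ≠ k → OrdGE (M.pl j t) 2 (Hnum M S.y α β t))
    (v : Place ℂ F) (hvk : v ≠ M.pl k t) (hv0 : v ≠ p.P₀) :
    IsRegularAt v (Tgen M S.y p.θ (S.N₀ + 1) α β t) := by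
  rcases isFinitePlace_or M v with hv | ⟨j, rfl⟩
  · by_cases hfib : ∃ j : Fin M.d, v = M.pl j t
    · obtain ⟨j, rfl⟩ := hfib
      have hjk : j ≠ k := fun h => hvk (h ▸ rfl)
      exact reg_Tgen_of_ordGE_two p.hθ hv hv0 _ (ord_xsub_pl_self M j (p.mem_U₀ ht)) (hH j hjk)
    · push Not at hfib
      exact reg_Tgen_of_finite p.hθ hv hv0 (OrdGE.of_le (S.hy v hv)) _ α β
        (ord_xsub_eq_zero M hv (p.mem_U₀ ht) hfib)
  · exact reg_Tgen_plInf p.hθ j (S.hN₀ j) α β t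

theorem reg_tau {t : ℂ} (ht : t ∈ Metric.ball a₁ p.ε) (v : Place ℂ F)
    (hvk : v ≠ M.pl k t) (hv0 : v ≠ p.P₀) : IsRegularAt v (p.tau t) := by
  refine p.reg_Tgen _ _ ht (fun j hjk => ?_) v hvk hv0
  rw [Hnum_zero_right]
  have h1 : OrdGE (M.pl j t) 1 (xsub M t) :=
    OrdGE.of_le (ord_xsub_pl_self M j (p.mem_U₀ ht)).ge
  exact h1.mul (S.ordGE_Gpoly_c hjk (p.ball_sub ht))

theorem res_tau {t : ℂ} (ht : t ∈ Metric.ball a₁ p.ε) :
    ResAt (M.pl k t) (xsub M t) (p.tau t) 1 :=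
  resAt_Tgen p.hθ (isFinitePlace_pl M k (p.mem_U₀ ht)) (p.pl_ne_P₀ k ht) _
    (ord_xsub_pl_self M k (p.mem_U₀ ht)) (S.ordGE_Gpoly_c_sub_one k (p.ball_sub ht))

theorem resP₀_Tgen (α β : Fin M.d → ℂ) {t : ℂ} (ht : t ∈ Metric.ball a₁ p.ε) :
    ResAt p.P₀ (xsub M p.a₀) (Tgen M S.y p.θ (S.N₀ + 1) α β t) (-p.rho α β t) :=
  resAt_Tgen_P₀ p.P₀_finite p.hy_P₀ p.hr _ α β (p.ord_P₀_xsub ht)

/-- The residue theorem: the residue of `τ_t` at `P₀` is `-1`. -/
theorem rho_tau (RS : RRSurj F) {t : ℂ} (ht : t ∈ Metric.ball a₁ p.ε) :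
    p.rho (fun m => S.c k m t) 0 t = 1 := by
  classical
  have h1 := p.res_tau ht
  have h2 := p.resP₀_Tgen (fun m => S.c k m t) 0 ht
  have hne := p.pl_ne_P₀ k ht
  set ρ := p.rho (fun m => S.c k m t) 0 t with hρ
  have key := RS.rt (p.tau t) (Finsupp.single (M.pl k t) 1 + Finsupp.single p.P₀ (-ρ)) ?_
  · rw [Finsupp.sum_add_index' (by simp) (by simp), Finsupp.sum_single_index rfl,
      Finsupp.sum_single_index rfl] at key
    linear_combination -key
  · intro v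
    rw [Finsupp.add_apply, Finsupp.single_apply, Finsupp.single_apply]
    by_cases hv1 : v = M.pl k t
    · subst hv1
      rw [if_pos rfl, if_neg (Ne.symm hne), add_zero]
      exact h1.hasSimplePole (ord_xsub_pl_self M k (p.mem_U₀ ht))
    · by_cases hv2 : v = p.P₀
      · subst hv2
        rw [if_neg (Ne.symm hv1), if_pos rfl, zero_add]
        exact ResAt.hasSimplePole p.ord_P₀_unif h2
      · rw [if_neg (Ne.symm hv1), if_neg (Ne.symm hv2), add_zero]
        obtain ⟨t', ht'⟩ := helper42.exists_ord_eq_one v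
        exact ResAt.hasSimplePole ht' (ResAt.of_reg (p.reg_tau ht v hv1 hv2))

/-- The residue divisor of `τ_t`. -/
theorem hasResidueDivisor_tau (RS : RRSurj F) {t : ℂ} (ht : t ∈ Metric.ball a₁ p.ε) :
    HasResidueDivisor (p.tau t) (Finsupp.single (M.pl k t) 1 - Finsupp.single p.P₀ 1) := by
  classical
  intro v
  have hne := p.pl_ne_P₀ k ht
  rw [Finsupp.sub_apply, Finsupp.single_apply, Finsupp.single_apply]
  by_cases hv1 : v = M.pl k t
  · subst hv1
    rw [if_pos rfl, if_neg (Ne.symm hne), sub_zero]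
    refine ResAt.hasLogPole (ord_xsub_pl_self M k (p.mem_U₀ ht)) ?_
    have e : (((1 : ℤ)) : ℂ) = 1 := by norm_num
    rw [e]
    exact p.res_tau ht
  · by_cases hv2 : v = p.P₀
    · subst hv2
      rw [if_neg (Ne.symm hv1), if_pos rfl, zero_sub]
      refine ResAt.hasLogPole p.ord_P₀_unif ?_
      have := p.resP₀_Tgen (fun m => S.c k m t) 0 ht
      rw [p.rho_tau RS ht] at this
      have e : (((-1 : ℤ)) : ℂ) = -1 := by norm_num
      rw [e]
      exact this
    · rw [if_neg (Ne.symm hv1), if_neg (Ne.symm hv2), sub_zero]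
      obtain ⟨t', ht'⟩ := helper42.exists_ord_eq_one v
      refine ⟨t', ht', ?_⟩
      rw [zero_smul, sub_zero]
      exact p.reg_tau ht v hv1 hv2

/-- The derivative of the residue sum. -/
theorem hasDerivAt_rho :
    HasDerivAt (fun t => p.rho (fun m => S.c k m t) 0 t)
      (p.rho (fun m => deriv (S.c k m) a₁) (fun m => S.c k m a₁) a₁) a₁ := by
  unfold rho
  refine HasDerivAt.fun_sum fun m _ => HasDerivAt.fun_sum fun n _ => ?_
  simp only [Ucoef_zero_right]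
  have h1 := (S.c_differentiableAt k m (p.ball_sub p.a₁_mem)).hasDerivAt
  have h2 : HasDerivAt (fun t : ℂ => (t - M.z₀) ^ n) ((n : ℂ) * (a₁ - M.z₀) ^ (n - 1)) a₁ := by
    have := ((hasDerivAt_id a₁).sub_const M.z₀).fun_pow n
    simpa using this
  have h3 := (h1.fun_mul h2).mul_const (p.r m n)
  unfold Ucoef
  exact h3

theorem rho_eta (RS : RRSurj F) :
    p.rho (fun m => deriv (S.c k m) a₁) (fun m => S.c k m a₁) a₁ = 0 := by
  have h1 := p.hasDerivAt_rho
  have h2 : (fun t => p.rho (fun m => S.c k m t) 0 t) =ᶠ[𝓝 a₁] fun _ => (1 : ℂ) := by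
    filter_upwards [Metric.isOpen_ball.mem_nhds p.a₁_mem] with t ht
    exact p.rho_tau RS ht
  exact h1.unique ((hasDerivAt_const a₁ _).congr_of_eventuallyEq h2)

/-- `η` is of the second kind with a double pole at `pl k a₁`. -/
theorem isSecondKindAt_eta (RS : RRSurj F) : IsSecondKindAt (M.pl k a₁) (p.eta a₁) := by
  have ha := p.a₁_mem
  have hB := p.ball_sub ha
  refine ⟨?_, fun v hv => ?_⟩
  · obtain ⟨h1, h2⟩ := S.ord_Hnum_c k hB
    exact ordDifferential_Tgen p.hθ (isFinitePlace_pl M k (p.mem_U₀ ha)) (p.pl_ne_P₀ k ha) _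
      (ord_xsub_pl_self M k (p.mem_U₀ ha)) h1 h2
  · by_cases hv2 : v = p.P₀
    · subst hv2
      have := p.resP₀_Tgen (fun m => deriv (S.c k m) a₁) (fun m => S.c k m a₁) ha
      rw [p.rho_eta RS, neg_zero] at this
      exact this.reg
    · exact p.reg_Tgen _ _ ha (fun j hjk => S.ordGE_Hnum_c hjk hB) v hv hv2

/-! ### The algebraic family -/

theorem sum_finProdFin {d N : ℕ} {A : Type*} [AddCommMonoid A] (f : Fin d → ℕ → A) :
    ∑ ν : Fin (d * N), f (finProdFinEquiv.symm ν).1 ((finProdFinEquiv.symm ν).2 : ℕ)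
      = ∑ m : Fin d, ∑ n ∈ Finset.range N, f m n := by
  rw [← Equiv.sum_comp (finProdFinEquiv (m := d) (n := N))]
  simp only [Equiv.symm_apply_apply]
  rw [Fintype.sum_prod_type]
  refine Finset.sum_congr rfl fun m _ => ?_
  rw [Finset.sum_range]

/-- The algebraic family of a `FamPoint`. -/
def toAlgFamily : AlgFamily M k a₁ where
  ε := p.ε
  ε_pos := p.ε_pos
  ball_subset := p.closedBall_sub.trans S.ball_sub
  k₀ := p.k₀
  a₀ := p.a₀
  a₀_mem := p.a₀_mem
  a₀_notMem := p.a₀_notMem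
  a₀_ne_base := p.a₀_ne_base
  y := S.y
  N := M.d
  n := M.d * (S.N₀ + 1)
  c := fun m => S.c k m
  u := fun ν t => S.c k (finProdFinEquiv.symm ν).1 t
    * (t - M.z₀) ^ ((finProdFinEquiv.symm ν).2 : ℕ)
  θ := fun ν => p.θ (finProdFinEquiv.symm ν).1 ((finProdFinEquiv.symm ν).2 : ℕ)
  c_differentiableOn := fun m => (S.c_differentiableOn k m).mono p.ball_sub
  u_differentiableOn := fun _ =>
    ((S.c_differentiableOn k _).mono p.ball_sub).mul
      ((differentiableOn_id.sub (differentiableOn_const _)).pow _)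

theorem toAlgFamily_τ (t : ℂ) : p.toAlgFamily.τ t = p.tau t := by
  show (∑ m : Fin M.d, S.c k m t • kern M S.y t (m : ℕ))
      - ∑ ν : Fin (M.d * (S.N₀ + 1)),
          (S.c k (finProdFinEquiv.symm ν).1 t * (t - M.z₀) ^ ((finProdFinEquiv.symm ν).2 : ℕ))
            • p.θ (finProdFinEquiv.symm ν).1 ((finProdFinEquiv.symm ν).2 : ℕ) = p.tau t
  unfold tau Tgen Kgen Θgen
  congr 1
  · refine Finset.sum_congr rfl fun m _ => ?_
    rw [Pi.zero_apply, zero_smul, add_zero]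
  · have := sum_finProdFin (d := M.d) (N := S.N₀ + 1)
      (fun m n => (S.c k m t * (t - M.z₀) ^ n) • p.θ m n)
    simp only [Ucoef_zero_right]
    exact this

theorem deriv_u (p : FamPoint S k a₁) (m : Fin M.d) (n : ℕ) :
    deriv (fun t => S.c k m t * (t - M.z₀) ^ n) a₁
      = Ucoef M (fun m => deriv (S.c k m) a₁) (fun m => S.c k m a₁) a₁ m n := by
  have h1 := (S.c_differentiableAt k m (p.ball_sub p.a₁_mem)).hasDerivAt
  have h2 : HasDerivAt (fun t : ℂ => (t - M.z₀) ^ n) ((n : ℂ) * (a₁ - M.z₀) ^ (n - 1)) a₁ := by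
    have := ((hasDerivAt_id a₁).sub_const M.z₀).fun_pow n
    simpa using this
  exact (h1.fun_mul h2).deriv

theorem toAlgFamily_η : p.toAlgFamily.η a₁ = p.eta a₁ := by
  show (∑ m : Fin M.d, (deriv (S.c k m) a₁ • kern M S.y a₁ (m : ℕ)
        + S.c k m a₁ • kern' M S.y a₁ (m : ℕ)))
      - ∑ ν : Fin (M.d * (S.N₀ + 1)),
          deriv (fun t => S.c k (finProdFinEquiv.symm ν).1 t
            * (t - M.z₀) ^ ((finProdFinEquiv.symm ν).2 : ℕ)) a₁
            • p.θ (finProdFinEquiv.symm ν).1 ((finProdFinEquiv.symm ν).2 : ℕ) = p.eta a₁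
  unfold eta Tgen Kgen Θgen
  congr 1
  have := sum_finProdFin (d := M.d) (N := S.N₀ + 1)
    (fun m n => (Ucoef M (fun m => deriv (S.c k m) a₁) (fun m => S.c k m a₁) a₁ m n) • p.θ m n)
  rw [← this]
  refine Finset.sum_congr rfl fun ν _ => ?_
  rw [p.deriv_u]

theorem isGood (RS : RRSurj F) : p.toAlgFamily.IsGood where
  residue := fun t ht => by
    rw [toAlgFamily_τ]
    exact p.hasResidueDivisor_tau RS ht
  secondKind := by
    rw [toAlgFamily_η]
    exact p.isSecondKindAt_eta RS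
  y_regular := fun v hv => S.hy v hv
  θ_regular := fun ν v hv hv0 => p.hθ.fin _ _ v hv hv0

end FamPoint

/-- A `FamPoint` exists at every point of the punctured ball. -/
theorem nonempty_famPoint (RS : RRSurj F) {M : CutModel F} (S : FamSetup M) (k : Fin M.d)
    {a₁ : ℂ} (ha : a₁ ∈ Metric.ball M.z₀ S.δ) (hne : a₁ ≠ M.z₀) :
    Nonempty (FamPoint S k a₁) := by
  have hd : 0 < dist a₁ M.z₀ := dist_pos.mpr hne
  have hd' : dist a₁ M.z₀ < S.δ := Metric.mem_ball.mp ha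
  set ε : ℝ := min (S.δ - dist a₁ M.z₀) (dist a₁ M.z₀) / 2 with hε
  have hε1 : ε ≤ (S.δ - dist a₁ M.z₀) / 2 := by
    rw [hε]
    exact div_le_div_of_nonneg_right (min_le_left _ _) (by norm_num)
  have hε2 : ε ≤ dist a₁ M.z₀ / 2 := by
    rw [hε]
    exact div_le_div_of_nonneg_right (min_le_right _ _) (by norm_num)
  have hεpos : 0 < ε := by
    rw [hε]
    exact div_pos (lt_min (by linarith) hd) (by norm_num)
  have hsub : Metric.closedBall a₁ ε ⊆ Metric.ball M.z₀ S.δ := by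
    intro w hw
    rw [Metric.mem_closedBall] at hw
    rw [Metric.mem_ball]
    calc dist w M.z₀ ≤ dist w a₁ + dist a₁ M.z₀ := dist_triangle _ _ _
      _ < S.δ := by linarith
  set a₀ : ℂ := 2 * M.z₀ - a₁ with ha₀
  have h1 : dist a₀ M.z₀ = dist a₁ M.z₀ := by
    rw [Complex.dist_eq, Complex.dist_eq, ha₀]
    have : 2 * M.z₀ - a₁ - M.z₀ = -(a₁ - M.z₀) := by ring
    rw [this, norm_neg]
  have h2 : dist a₀ a₁ = 2 * dist a₁ M.z₀ := by
    rw [Complex.dist_eq, Complex.dist_eq, ha₀]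
    have : 2 * M.z₀ - a₁ - a₁ = (-2 : ℂ) * (a₁ - M.z₀) := by ring
    rw [this, norm_mul]
    norm_num
  have ha₀B : a₀ ∈ Metric.ball M.z₀ S.δ := by
    rw [Metric.mem_ball, h1]
    exact hd'
  have ha₀U := S.ball_sub ha₀B
  have ha₀n : a₀ ∉ Metric.closedBall a₁ ε := by
    rw [Metric.mem_closedBall, h2]
    linarith
  have ha₀z : a₀ ≠ M.z₀ := by
    intro h
    rw [h, dist_self] at h1
    linarith
  obtain ⟨θ, hθ⟩ := exists_correction RS M S.y (isFinitePlace_pl M k ha₀U)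
  have hr : ∀ (m : Fin M.d) (n : ℕ), ∃ r : ℂ, ResAt (M.pl k a₀) (xsub M a₀) (θ m n) r :=
    fun m n => exists_resAt M (ord_xsub_pl_self M k ha₀U) (hθ.sp m n)
  choose r hr using hr
  exact ⟨⟨ε, hεpos, hsub, k, a₀, ha₀U, ha₀n, ha₀z, θ, hθ, r, hr⟩⟩

/-- **[FAM-ALG]** algebraic families of differentials of the third kind with a moving pole exist
at infinitely many interior places. -/
theorem algFamilyStatement (M : CutModel F) (RS : RRSurj F) : AlgFamilyStatement M := by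
  obtain ⟨S⟩ := nonempty_famSetup M
  refine ⟨{ka | ka.2 ∈ Metric.ball M.z₀ S.δ ∧ ka.2 ≠ M.z₀}, ?_, ?_⟩
  · have hf : ∀ n : ℕ, ((⟨0, M.d_pos⟩ : Fin M.d), M.z₀ + ((S.δ / (n + 2) : ℝ) : ℂ)) ∈
        {ka : Fin M.d × ℂ | ka.2 ∈ Metric.ball M.z₀ S.δ ∧ ka.2 ≠ M.z₀} := by
      intro n
      have hn : (0 : ℝ) < (n : ℝ) + 2 := by positivity
      have hpos : 0 < S.δ / (n + 2) := div_pos S.δ_pos hn
      refine ⟨?_, ?_⟩
      · rw [Metric.mem_ball, Complex.dist_eq, add_sub_cancel_left, Complex.norm_real,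
          Real.norm_of_nonneg hpos.le]
        rw [div_lt_iff₀ hn]
        nlinarith [S.δ_pos]
      · intro h
        have h' : ((S.δ / (n + 2) : ℝ) : ℂ) = 0 := by
          have := congrArg (fun z => z - M.z₀) h
          simpa using this
        have : S.δ / ((n : ℝ) + 2) = 0 := by exact_mod_cast h'
        linarith
    refine Set.infinite_of_injective_forall_mem (f := fun n : ℕ =>
      ((⟨0, M.d_pos⟩ : Fin M.d), M.z₀ + ((S.δ / (n + 2) : ℝ) : ℂ))) ?_ hf
    intro n n' h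
    have h1 : M.z₀ + ((S.δ / (n + 2) : ℝ) : ℂ) = M.z₀ + ((S.δ / (n' + 2) : ℝ) : ℂ) :=
      congrArg Prod.snd h
    have h2 : ((S.δ / (n + 2) : ℝ) : ℂ) = ((S.δ / (n' + 2) : ℝ) : ℂ) := add_left_cancel h1
    have h3 : S.δ / ((n : ℝ) + 2) = S.δ / ((n' : ℝ) + 2) := by exact_mod_cast h2
    have hn : (0 : ℝ) < (n : ℝ) + 2 := by positivity
    have hn' : (0 : ℝ) < (n' : ℝ) + 2 := by positivity
    have h4 : (n : ℝ) + 2 = (n' : ℝ) + 2 := by
      have hδ := S.δ_pos.ne'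
      field_simp at h3
      linarith
    have h5 : (n : ℝ) = n' := by linarith
    exact_mod_cast h5
  · rintro ⟨k, a₁⟩ ⟨ha, hne⟩
    obtain ⟨p⟩ := nonempty_famPoint RS S k ha hne
    exact ⟨S.ball_sub ha, hne, p.toAlgFamily, p.isGood RS⟩

/-- The same with the signature of the task (the extra hypotheses are not needed). -/
theorem algFamilyStatement' (M : CutModel F) (_RR : RRCon F) (RS : RRSurj F)
    [IsCurveOver ℂ F] [Algebra.EssFiniteType ℂ F] : AlgFamilyStatement M :=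
  algFamilyStatement M RS

end

end Fermat.Agent.P5.helper52
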