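/-
P5 / S27, module SURJ, package [SURJ-IND] (helper53, task 603).

* `indepStatement' : AddKernel M → M.permDatum.b1 = 2 * genusFF ℂ F → IndepStatement' M` :
  periods of second-kind differentials at a non-special divisor, periods of holomorphic
  differentials and coboundaries span the space of complex cocycles.  `IndepStatement'` is
  `helper25.IndepStatement` with the two extra hypotheses `p j ∈ Z¹(ℂ)`, `q i ∈ Z¹(ℂ)`
  (as announced in the task spec);
* `surjAt_of_packages'` : the assembly of module SURJ (copy of `helper25.surjAt_of_packages`)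
  consuming `IndepStatement'`; the two extra hypotheses are derived there from `HolPeriods`
  (`1 • q` is a log-jump) and `FamilyStatement` (`p` is the derivative of a curve of log-jumps
  and `Z¹(ℂ)` is a closed subspace);
* `surjAt_of_addKernel` : `SurjAt M` from `RRCon`, `RRSurj`, `MonoPackages`, `AddKernel`,
  `HolPeriods`, `FamilyStatement` and `b1 = 2 g`.

Proof of independence: the map `Λ (v, s) = ∑ v_j p_j + ∑ s_i q_i` has values in `Z¹` and is
injective modulo `B¹`: if `Λ (v, s) ∈ B¹` then `θ = ∑ v_j η_j + ∑ s_i ω_i` has a coboundary as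
period cochain, so `θ = dh` (`AddKernel`); `h` has at most simple poles at the `P_j` and no other
pole (`ord (dh) = ord h - 1` at a pole), so `h` is constant (non-special) and `θ = 0`; the double
pole of `η_j` at `P_j` gives `v_j = 0`, linear independence gives `s = 0`. The dimension count
`dim Z¹ = (d - 1) + b1 = 2g + dim B¹` (helper56) finishes the proof.
-/
import Mathlib
import Fermat.Agent.P5.helper25_SurjAsm
import Fermat.Agent.P5.helper56_CombDim
import Fermat.Agent.P5.helper27_MonoBasic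
import Fermat.Agent.P5.helper46_RRLoc

set_option autoImplicit false
set_option linter.style.haveILetI false
set_option linter.unusedSectionVars false

open AlgebraicCurve Filter Topology KaehlerDifferential

namespace Fermat.Agent.P5.helper53

open Fermat.Agent.P5.helper25 Fermat.Agent.P5.helper27 Fermat.Agent.P5.helper46
  Fermat.Agent.P5.helper56

noncomputable section

/-! ### Linear algebra -/

/-- If `Λ : W → V` has values in `Z`, is injective modulo `B ≤ Z`, and
`dim Z = dim W + dim B`, then `Z = range Λ + B`. -/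
theorem exists_decomp_of_finrank {K V W : Type*} [Field K] [AddCommGroup V] [Module K V]
    [AddCommGroup W] [Module K W] [FiniteDimensional K V] [FiniteDimensional K W]
    (Z B : Submodule K V) (hBZ : B ≤ Z) (Λ : W →ₗ[K] V) (hΛZ : ∀ w, Λ w ∈ Z)
    (hinj : ∀ w, Λ w ∈ B → w = 0)
    (hdim : Module.finrank K Z = Module.finrank K W + Module.finrank K B) :
    ∀ l ∈ Z, ∃ w, ∃ b ∈ B, l = Λ w + b := by
  have hker : LinearMap.ker Λ = ⊥ := by
    rw [LinearMap.ker_eq_bot']
    intro w hw
    exact hinj w (by rw [hw]; exact B.zero_mem)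
  have hrange : Module.finrank K (LinearMap.range Λ) = Module.finrank K W :=
    LinearMap.finrank_range_of_inj (LinearMap.ker_eq_bot.1 hker)
  have hinf : LinearMap.range Λ ⊓ B = ⊥ := by
    rw [eq_bot_iff]
    rintro x ⟨⟨w, rfl⟩, hxB⟩
    have := hinj w hxB
    rw [this, map_zero]
    exact Submodule.zero_mem _
  have hsup := Submodule.finrank_sup_add_finrank_inf_eq (LinearMap.range Λ) B
  rw [hinf, finrank_bot, add_zero, hrange] at hsup
  have hle : LinearMap.range Λ ⊔ B ≤ Z := by
    refine sup_le ?_ hBZ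
    rintro x ⟨w, rfl⟩
    exact hΛZ w
  have heq : LinearMap.range Λ ⊔ B = Z :=
    Submodule.eq_of_le_of_finrank_eq hle (by rw [hsup, hdim])
  intro l hl
  rw [← heq, Submodule.mem_sup] at hl
  obtain ⟨y, ⟨w, rfl⟩, b, hb, rfl⟩ := hl
  exact ⟨w, b, hb, rfl⟩

/-! ### Linearity of period cochains -/

variable {F : Type} [Field F] [Algebra ℂ F] (M : CutModel F)

theorem isPeriodOf_zero : M.IsPeriodOf 0 0 := by
  refine ⟨fun _ _ => 0, fun k => ⟨fun z _ => MeromorphicAt.const 0 z, fun z hz => ?_⟩,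
    fun i k a _ => ⟨fun _ => 0, MeromorphicAt.const 0 a, ?_, ?_⟩⟩
  · filter_upwards [eventually_ne_mem_U₀ M.toCutGeometry hz] with w hw
    rw [coeff_zero, ev_zero M k hw]
    exact hasDerivAt_const w 0
  · exact Filter.Eventually.of_forall fun z _ => rfl
  · exact Filter.Eventually.of_forall fun z _ => by simp

theorem isPeriodOf_add {η η' : Ω[F⁄ℂ]} {p p' : Fin M.r → Fin M.d → ℂ}
    (h : M.IsPeriodOf η p) (h' : M.IsPeriodOf η' p') : M.IsPeriodOf (η + η') (p + p') := by
  obtain ⟨G, hG, hp⟩ := h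
  obtain ⟨G', hG', hp'⟩ := h'
  refine ⟨fun k z => G k z + G' k z, fun k => ⟨?_, fun z hz => ?_⟩, fun i k a ha => ?_⟩
  · exact (hG k).1.add (hG' k).1
  · filter_upwards [(hG k).2 z hz, (hG' k).2 z hz,
      M.ev_add k (M.coeff η) (M.coeff η') z hz] with w h1 h2 h3
    rw [coeff_add, h3]
    exact h1.add h2
  · obtain ⟨g, hg, hl, hr⟩ := hp i k a ha
    obtain ⟨g', hg', hl', hr'⟩ := hp' i k a ha
    refine ⟨fun z => g z + g' z, hg.add hg', ?_, ?_⟩
    · filter_upwards [hl, hl'] with z h1 h2 hz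
      rw [h1 hz, h2 hz]
    · filter_upwards [hr, hr'] with z h1 h2 hz
      rw [h1 hz, h2 hz, Pi.add_apply, Pi.add_apply]
      ring

theorem isPeriodOf_smul (c : ℂ) {η : Ω[F⁄ℂ]} {p : Fin M.r → Fin M.d → ℂ}
    (h : M.IsPeriodOf η p) : M.IsPeriodOf (c • η) (c • p) := by
  obtain ⟨G, hG, hp⟩ := h
  refine ⟨fun k z => c * G k z, fun k => ⟨?_, fun z hz => ?_⟩, fun i k a ha => ?_⟩
  · exact (MeromorphicOn.const c).mul (hG k).1
  · have e : c • η = algebraMap ℂ F c • η := (algebraMap_smul F c η).symm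
    filter_upwards [(hG k).2 z hz, M.ev_mul k (algebraMap ℂ F c) (M.coeff η) z hz,
      eventually_ne_mem_U₀ M.toCutGeometry hz] with w h1 h2 hw
    rw [e, coeff_smul, h2, M.ev_algebraMap k c hw]
    exact h1.const_mul c
  · obtain ⟨g, hg, hl, hr⟩ := hp i k a ha
    refine ⟨fun z => c * g z, (MeromorphicAt.const c a).mul hg, ?_, ?_⟩
    · filter_upwards [hl] with z h1 hz
      rw [h1 hz]
    · filter_upwards [hr] with z h1 hz
      rw [h1 hz, Pi.smul_apply, Pi.smul_apply, smul_eq_mul]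
      ring

theorem isPeriodOf_sum {ι : Type*} (s : Finset ι) (η : ι → Ω[F⁄ℂ])
    (p : ι → Fin M.r → Fin M.d → ℂ) (c : ι → ℂ) (h : ∀ j ∈ s, M.IsPeriodOf (η j) (p j)) :
    M.IsPeriodOf (∑ j ∈ s, c j • η j) (∑ j ∈ s, c j • p j) := by
  classical
  induction s using Finset.induction_on with
  | empty =>
    rw [Finset.sum_empty, Finset.sum_empty]
    exact isPeriodOf_zero M
  | insert j s hj ih =>
    rw [Finset.sum_insert hj, Finset.sum_insert hj]
    exact isPeriodOf_add M (isPeriodOf_smul M (c j) (h j (Finset.mem_insert_self j s)))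
      (ih fun i hi => h i (Finset.mem_insert_of_mem hi))

/-! ### Local orders of finite linear combinations -/

include M in
/-- a lower bound `n ≤ 0` for the orders of differentials is preserved by finite `ℂ`-linear
combinations -/
theorem le_ordDifferential_sum (w : Place ℂ F) {n : ℤ} (hn : n ≤ 0) {ι : Type*}
    (s : Finset ι) (η : ι → Ω[F⁄ℂ]) (c : ι → ℂ) (h : ∀ j ∈ s, n ≤ w.ordDifferential (η j)) :
    n ≤ w.ordDifferential (∑ j ∈ s, c j • η j) := by
  classical
  haveI := M.x_finite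
  haveI := Fermat.Agent.S24.helper82.ff_dCoordGenerates M.x M.x_transcendental w
  haveI := Fermat.Agent.S24.helper88.ff_nontrivial_kaehler M.x M.x_transcendental
  induction s using Finset.induction_on with
  | empty =>
    rw [Finset.sum_empty, ordDifferential_zero]
    exact hn
  | insert j s hj ih =>
    rw [Finset.sum_insert hj]
    refine ordDifferential_add_ge_of_le w hn ?_ (ih fun i hi => h i (Finset.mem_insert_of_mem hi))
    rcases eq_or_ne (c j) 0 with h0 | h0
    · rw [h0, zero_smul, ordDifferential_zero]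
      exact hn
    · rw [ordDifferential_const_smul w h0]
      exact h j (Finset.mem_insert_self j s)

include M in
/-- if `D h` has order `≥ n - 1` at `w` (`n ≤ 0`), then `h` has order `≥ n` at `w` -/
theorem le_ord_of_le_ordDifferential_D (w : Place ℂ F) {n : ℤ} (hn : n ≤ 0) (h : F)
    (hD : n - 1 ≤ w.ordDifferential (D ℂ F h)) : n ≤ w.ord h := by
  haveI := M.x_finite
  by_contra hlt
  rw [not_le] at hlt
  have hne : w.ord h ≠ 0 := by omega
  have e := ordDifferential_D_of_ord_ne_zero M.x M.x_transcendental w hne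
  omega

/-! ### The core: independence modulo coboundaries -/

section Core

variable {M}
variable {g : ℕ} {P : Fin g → Place ℂ F} {η ω : Fin g → Ω[F⁄ℂ]}
  {p q : Fin g → Fin M.r → Fin M.d → ℂ}

/-- the differential `∑ v_j η_j + ∑ s_i ω_i` -/
def comb (η ω : Fin g → Ω[F⁄ℂ]) (v s : Fin g → ℂ) : Ω[F⁄ℂ] :=
  (∑ j, v j • η j) + ∑ i, s i • ω i

theorem isPeriodOf_comb (hp : ∀ j, M.IsPeriodOf (η j) (p j)) (hq : ∀ i, M.IsPeriodOf (ω i) (q i))
    (v s : Fin g → ℂ) :
    M.IsPeriodOf (comb η ω v s) ((∑ j, v j • p j) + ∑ i, s i • q i) :=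
  isPeriodOf_add M (isPeriodOf_sum M _ η p v fun j _ => hp j)
    (isPeriodOf_sum M _ ω q s fun i _ => hq i)

include M in
theorem le_ordDifferential_comb (w : Place ℂ F) {n : ℤ} (hn : n ≤ 0)
    (hη : ∀ j, n ≤ w.ordDifferential (η j)) (hω : ∀ i, n ≤ w.ordDifferential (ω i))
    (v s : Fin g → ℂ) : n ≤ w.ordDifferential (comb η ω v s) := by
  haveI := M.x_finite
  haveI := Fermat.Agent.S24.helper82.ff_dCoordGenerates M.x M.x_transcendental w
  haveI := Fermat.Agent.S24.helper88.ff_nontrivial_kaehler M.x M.x_transcendental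
  exact ordDifferential_add_ge_of_le w hn
    (le_ordDifferential_sum M w hn _ η v fun j _ => hη j)
    (le_ordDifferential_sum M w hn _ ω s fun i _ => hω i)

/-- **Core**: a combination whose period cochain is a coboundary vanishes. -/
theorem comb_eq_zero (hK : AddKernel M) (hPint : ∀ j, P j ∈ M.interior)
    (hns : ∀ f : F, f ≠ 0 → (∀ v, (∃ j, P j = v) → -1 ≤ v.ord f) →
      (∀ v, (¬ ∃ j, P j = v) → 0 ≤ v.ord f) → ∃ c : ℂ, f = algebraMap ℂ F c)
    (hη : ∀ j, IsSecondKindAt (P j) (η j)) (hp : ∀ j, M.IsPeriodOf (η j) (p j))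
    (hωreg : ∀ i v, IsRegularAt v (ω i)) (hq : ∀ i, M.IsPeriodOf (ω i) (q i))
    (v s : Fin g → ℂ) (hB : (∑ j, v j • p j) + ∑ i, s i • q i ∈ M.permDatum.B1 ℂ) :
    comb η ω v s = 0 := by
  -- orders of the `η j`
  have hη2 : ∀ (w : Place ℂ F) j, (-2 : ℤ) ≤ w.ordDifferential (η j) := by
    intro w j
    by_cases hw : w = P j
    · rw [hw, (hη j).1]
    · have := (hη j).2 w hw
      unfold IsRegularAt at this
      omega
  have hω2 : ∀ (w : Place ℂ F) i, (-2 : ℤ) ≤ w.ordDifferential (ω i) := by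
    intro w i
    have := hωreg i w
    unfold IsRegularAt at this
    omega
  -- regularity outside the `P j`
  have hreg : ∀ w : Place ℂ F, (¬ ∃ j, P j = w) → 0 ≤ w.ordDifferential (comb η ω v s) := by
    intro w hw
    refine le_ordDifferential_comb (M := M) w le_rfl (fun j => ?_) (fun i => hωreg i w) v s
    exact (hη j).2 w (fun h => hw ⟨j, h.symm⟩)
  -- the primitive
  obtain ⟨h, hh⟩ := hK (comb η ω v s) _ (fun w hw => hreg w (by
    rintro ⟨j, rfl⟩
    exact hw (hPint j))) (isPeriodOf_comb hp hq v s) hB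
  rw [hh]
  rcases eq_or_ne h 0 with rfl | h0
  · exact map_zero _
  obtain ⟨c, rfl⟩ := hns h h0
    (fun w _ => le_ord_of_le_ordDifferential_D M w (by norm_num) h (by
      rw [← hh]
      exact le_ordDifferential_comb (M := M) w (by norm_num) (hη2 w) (hω2 w) v s))
    (fun w hw => le_ord_of_le_ordDifferential_D M w le_rfl h (by
      rw [← hh]
      have := hreg w hw
      omega))
  exact Derivation.map_algebraMap _ c

include M in
/-- a vanishing combination has vanishing coefficients -/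
theorem coeffs_eq_zero (hPinj : Function.Injective P)
    (hη : ∀ j, IsSecondKindAt (P j) (η j)) (hωli : LinearIndependent ℂ ω)
    (hωreg : ∀ i v, IsRegularAt v (ω i)) (v s : Fin g → ℂ) (h0 : comb η ω v s = 0) :
    v = 0 ∧ s = 0 := by
  classical
  haveI := M.x_finite
  have hv : v = 0 := by
    funext j0
    by_contra hne
    have hne' : v j0 ≠ 0 := hne
    haveI := Fermat.Agent.S24.helper82.ff_dCoordGenerates M.x M.x_transcendental (P j0)
    haveI := Fermat.Agent.S24.helper88.ff_nontrivial_kaehler M.x M.x_transcendental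
    have e : v j0 • η j0 = -((∑ j ∈ Finset.univ.erase j0, v j • η j) + ∑ i, s i • ω i) := by
      have h1 := Finset.add_sum_erase Finset.univ (fun j => v j • η j) (Finset.mem_univ j0)
      unfold comb at h0
      rw [← h1] at h0
      rw [eq_neg_iff_add_eq_zero, ← h0]
      abel
    have hrest : 0 ≤ (P j0).ordDifferential
        ((∑ j ∈ Finset.univ.erase j0, v j • η j) + ∑ i, s i • ω i) := by
      refine ordDifferential_add_ge_of_le (P j0) le_rfl
        (le_ordDifferential_sum M (P j0) le_rfl _ η v fun j hj => ?_)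
        (le_ordDifferential_sum M (P j0) le_rfl _ ω s fun i _ => hωreg i (P j0))
      exact (hη j).2 (P j0) (fun h => (Finset.ne_of_mem_erase hj) (hPinj h).symm)
    have h2 : (P j0).ordDifferential (v j0 • η j0) = -2 := by
      rw [ordDifferential_const_smul (P j0) hne', (hη j0).1]
    rw [e, ordDifferential_neg] at h2
    omega
  refine ⟨hv, ?_⟩
  have h1 : ∑ i, s i • ω i = 0 := by
    unfold comb at h0
    rw [hv] at h0
    simpa using h0
  funext i
  exact Fintype.linearIndependent_iff.1 hωli s h1 i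

end Core

/-! ### The independence statement -/

/-- **[SURJ-5]**, with the period cochains assumed to be cocycles. -/
def IndepStatement' (M : CutModel F) : Prop :=
  ∀ (P : Fin (genusFF ℂ F) → Place ℂ F) (η ω : Fin (genusFF ℂ F) → Ω[F⁄ℂ])
    (p q : Fin (genusFF ℂ F) → Fin M.r → Fin M.d → ℂ),
    Function.Injective P → (∀ j, P j ∈ M.interior) →
    (∀ f : F, f ≠ 0 → (∀ v, (∃ j, P j = v) → -1 ≤ v.ord f) →
      (∀ v, (¬ ∃ j, P j = v) → 0 ≤ v.ord f) → ∃ c : ℂ, f = algebraMap ℂ F c) →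
    (∀ j, IsSecondKindAt (P j) (η j)) → (∀ j, M.IsPeriodOf (η j) (p j)) →
    LinearIndependent ℂ ω → (∀ i v, IsRegularAt v (ω i)) → (∀ i, M.IsPeriodOf (ω i) (q i)) →
    (∀ j, p j ∈ M.permDatum.Z1 ℂ) → (∀ i, q i ∈ M.permDatum.Z1 ℂ) →
    ∀ l ∈ M.permDatum.Z1 ℂ, ∃ (v s : Fin (genusFF ℂ F) → ℂ) (e : Fin M.d → ℂ),
      ∀ i k, l i k = (∑ j, v j * p j i k) + (∑ j, s j * q j i k) + (e k - e (M.σ i k))

/-- **[SURJ-5]** independence: periods of second-kind differentials at a non-special divisor,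
periods of holomorphic differentials and coboundaries span the cocycles. -/
theorem indepStatement' (hK : AddKernel M) (hb1 : M.permDatum.b1 = 2 * genusFF ℂ F) :
    IndepStatement' M := by
  intro P η ω p q hPinj hPint hns hη hp hωli hωreg hq hpZ hqZ l hl
  -- the linear map
  let Λ : ((Fin (genusFF ℂ F) → ℂ) × (Fin (genusFF ℂ F) → ℂ)) →ₗ[ℂ]
      (Fin M.permDatum.r → Fin M.permDatum.d → ℂ) :=
    (Fintype.linearCombination ℂ p).comp (LinearMap.fst ℂ _ _) +
      (Fintype.linearCombination ℂ q).comp (LinearMap.snd ℂ _ _)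
  have hΛ : ∀ w : (Fin (genusFF ℂ F) → ℂ) × (Fin (genusFF ℂ F) → ℂ),
      Λ w = (∑ j, w.1 j • p j) + ∑ i, w.2 i • q i := by
    intro w
    show Fintype.linearCombination ℂ p w.1 + Fintype.linearCombination ℂ q w.2 = _
    rw [Fintype.linearCombination_apply, Fintype.linearCombination_apply]
  have hcl : M.permDatum.IsClosed := M.prod_σ
  have htr : M.permDatum.IsTransitive := M.transitive
  have hd : 0 < M.permDatum.d := M.d_pos
  have hZmem : ∀ c : Fin M.permDatum.r → Fin M.permDatum.d → ℂ,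
      c ∈ LinearMap.ker (δ1ₗ M.permDatum ℂ) ↔ c ∈ M.permDatum.Z1 ℂ := fun c =>
    Set.ext_iff.mp (coe_ker_δ1ₗ M.permDatum ℂ) c
  have hBmem : ∀ c : Fin M.permDatum.r → Fin M.permDatum.d → ℂ,
      c ∈ LinearMap.range (δ0ₗ M.permDatum ℂ) ↔ c ∈ M.permDatum.B1 ℂ := fun c =>
    Set.ext_iff.mp (coe_range_δ0ₗ M.permDatum ℂ) c
  have hΛZ : ∀ w, Λ w ∈ LinearMap.ker (δ1ₗ M.permDatum ℂ) := by
    intro w
    rw [hΛ]
    refine Submodule.add_mem _ (Submodule.sum_mem _ fun j _ => Submodule.smul_mem _ _ ?_)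
      (Submodule.sum_mem _ fun i _ => Submodule.smul_mem _ _ ?_)
    · exact (hZmem _).2 (hpZ j)
    · exact (hZmem _).2 (hqZ i)
  have hinj : ∀ w, Λ w ∈ LinearMap.range (δ0ₗ M.permDatum ℂ) → w = 0 := by
    intro w hw
    rw [hΛ] at hw
    have h0 := comb_eq_zero hK hPint hns hη hp hωreg hq w.1 w.2 ((hBmem _).1 hw)
    obtain ⟨h1, h2⟩ := coeffs_eq_zero (M := M) hPinj hη hωli hωreg w.1 w.2 h0
    exact Prod.ext h1 h2
  have hdim : Module.finrank ℂ (LinearMap.ker (δ1ₗ M.permDatum ℂ)) =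
      Module.finrank ℂ ((Fin (genusFF ℂ F) → ℂ) × (Fin (genusFF ℂ F) → ℂ)) +
        Module.finrank ℂ (LinearMap.range (δ0ₗ M.permDatum ℂ)) := by
    rw [finrank_ker_δ1ₗ_eq M.permDatum ℂ hd hcl htr, finrank_range_δ0ₗ_eq M.permDatum ℂ hd htr,
      Module.finrank_prod, Module.finrank_fintype_fun_eq_card, Fintype.card_fin, hb1]
    omega
  obtain ⟨w, b, hb, hlw⟩ := exists_decomp_of_finrank (LinearMap.ker (δ1ₗ M.permDatum ℂ))
    (LinearMap.range (δ0ₗ M.permDatum ℂ)) (range_δ0ₗ_le_ker_δ1ₗ M.permDatum ℂ hcl) Λ hΛZ hinj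
    hdim l ((hZmem l).2 hl)
  obtain ⟨e, rfl⟩ := hb
  refine ⟨w.1, w.2, e, fun (i : Fin M.r) (k : Fin M.d) => ?_⟩
  have h1 : l i k = (Λ w) i k + (δ0ₗ M.permDatum ℂ e) i k := by rw [hlw]; rfl
  have h2 : (Λ w) i k = (∑ j, w.1 j * p j i k) + ∑ j, w.2 j * q j i k := by
    rw [hΛ]
    show ((∑ j, w.1 j • p j) + ∑ i, w.2 i • q i : Fin M.r → Fin M.d → ℂ) i k = _
    simp only [Pi.add_apply, Finset.sum_apply, Pi.smul_apply, smul_eq_mul]
  rw [h1, h2]
  rfl

/-! ### The assembly of module SURJ with `IndepStatement'` -/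

/-- the derivative of a curve which stays in a subspace lies in the subspace -/
theorem mem_of_hasStrictDerivAt {V : Type*} [NormedAddCommGroup V] [NormedSpace ℂ V]
    [FiniteDimensional ℂ V] (Z : Submodule ℂ V) (L : ℂ → V) (p : V) (a : ℂ)
    (hL : HasStrictDerivAt L p a) (hmem : ∀ᶠ t in 𝓝 a, L t ∈ Z) : p ∈ Z := by
  have hcl : IsClosed (Z : Set V) := Submodule.closed_of_finiteDimensional Z
  have hslope := hasDerivAt_iff_tendsto_slope.1 hL.hasDerivAt
  have ha : L a ∈ Z := hmem.self_of_nhds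
  refine hcl.mem_of_tendsto hslope ?_
  filter_upwards [nhdsWithin_le_nhds hmem] with t ht
  rw [slope_def_module]
  exact Z.smul_mem _ (Z.sub_mem ht ha)

/-- **[SURJ]** from the packages, with the independence statement in the form
`IndepStatement'` (the cocycle property of the period cochains is derived from `HolPeriods` and
`FamilyStatement`). -/
theorem surjAt_of_packages' (RR : RRCon F) (RS : RRSurj F) (hM : MonoPackages M)
    (hH : HolPeriods M) (hF : FamilyStatement M) (hI : IndepStatement' M) : SurjAt M := by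
  classical
  -- holomorphic differentials and their periods
  obtain ⟨ω, hωli, hωreg⟩ := RS.hol
  choose q hq hqs using fun i => hH (ω i) (hωreg i)
  -- families at a non-special divisor
  obtain ⟨A, hAinf, hAint, hAfam⟩ := hF
  obtain ⟨P, hPinj, hPA, hPns⟩ := RS.ns A hAinf
  choose a η p L hη hp hL hL' using fun j => hAfam (P j) (hPA j)
  -- the subgroup and the subspace
  let G := logJumpsSubgroup RR hM
  let Z : Submodule ℂ (Fin M.r → Fin M.d → ℂ) := LinearMap.ker (helper56.δ1ₗ M.permDatum ℂ)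
  have hZ : ∀ l : Fin M.r → Fin M.d → ℂ, l ∈ Z ↔ l ∈ M.permDatum.Z1 ℂ := by
    intro l
    have h := helper56.coe_ker_δ1ₗ M.permDatum ℂ
    exact Set.ext_iff.mp h l
  have hGZ : ∀ l ∈ G, l ∈ Z := fun l hl => (hZ l).mpr hl.1
  -- the period cochains are cocycles
  have hqZ : ∀ i, q i ∈ M.permDatum.Z1 ℂ := by
    intro i
    have h := (hqs i 1).1
    rwa [one_smul] at h
  have hpZ : ∀ j, p j ∈ M.permDatum.Z1 ℂ := by
    intro j
    refine (hZ _).1 (mem_of_hasStrictDerivAt Z (L j) (p j) (a j) (hL' j) ?_)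
    filter_upwards [hL j] with t ht
    exact (hZ _).2 ht.1
  -- the parameter space
  let E := (Fin (genusFF ℂ F) → ℂ) × (Fin (genusFF ℂ F) → ℂ) × (Fin M.d → ℂ)
  let pr1 : Fin (genusFF ℂ F) → (E →L[ℂ] ℂ) := fun j =>
    (ContinuousLinearMap.proj j).comp (ContinuousLinearMap.fst ℂ _ _)
  let pr2 : Fin (genusFF ℂ F) → (E →L[ℂ] ℂ) := fun j =>
    (ContinuousLinearMap.proj j).comp
      ((ContinuousLinearMap.fst ℂ _ _).comp (ContinuousLinearMap.snd ℂ _ _))
  let pr3 : E →L[ℂ] (Fin M.d → ℂ) :=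
    (ContinuousLinearMap.snd ℂ _ _).comp (ContinuousLinearMap.snd ℂ _ _)
  let D0 : (Fin M.d → ℂ) →L[ℂ] (Fin M.r → Fin M.d → ℂ) :=
    LinearMap.toContinuousLinearMap (helper56.δ0ₗ M.permDatum ℂ)
  have hD0 : ∀ (e : Fin M.d → ℂ) i k, D0 e i k = e k - e (M.σ i k) := fun e i k => rfl
  let Ψ : E → (Fin M.r → Fin M.d → ℂ) := fun x =>
    (∑ j, L j (pr1 j x)) + (∑ j, (pr2 j x) • q j) + D0 (pr3 x)
  let Ψ' : E →L[ℂ] (Fin M.r → Fin M.d → ℂ) :=
    (∑ j, (ContinuousLinearMap.toSpanSingleton ℂ (p j)).comp (pr1 j)) +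
      (∑ j, (ContinuousLinearMap.toSpanSingleton ℂ (q j)).comp (pr2 j)) + D0.comp pr3
  let x₀ : E := (a, 0, 0)
  have hpr1 : ∀ j, pr1 j x₀ = a j := fun j => rfl
  -- strict differentiability
  have hΨ : HasStrictFDerivAt Ψ Ψ' x₀ := by
    refine (HasStrictFDerivAt.add ?_ ?_).add ?_
    · refine HasStrictFDerivAt.fun_sum fun j _ => ?_
      have h1 : HasStrictFDerivAt (L j) (ContinuousLinearMap.toSpanSingleton ℂ (p j))
          (pr1 j x₀) := by
        rw [hpr1]
        exact (hL' j).hasStrictFDerivAt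
      exact h1.comp x₀ (pr1 j).hasStrictFDerivAt
    · refine HasStrictFDerivAt.fun_sum fun j _ => ?_
      have h1 : HasStrictFDerivAt (fun s : ℂ => s • q j)
          (ContinuousLinearMap.toSpanSingleton ℂ (q j)) (pr2 j x₀) :=
        (ContinuousLinearMap.toSpanSingleton ℂ (q j)).hasStrictFDerivAt
      exact h1.comp x₀ (pr2 j).hasStrictFDerivAt
    · exact (D0.comp pr3).hasStrictFDerivAt
  -- values in `G`
  have hmem : ∀ᶠ x in 𝓝 x₀, Ψ x ∈ G := by
    have h1 : ∀ j, ∀ᶠ x in 𝓝 x₀, L j (pr1 j x) ∈ M.logJumps := by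
      intro j
      have hc : Tendsto (fun x : E => pr1 j x) (𝓝 x₀) (𝓝 (a j)) := by
        have := (pr1 j).continuous.tendsto x₀
        rwa [hpr1] at this
      exact hc.eventually (hL j)
    have h2 : ∀ᶠ x in 𝓝 x₀, ∀ j, L j (pr1 j x) ∈ M.logJumps := Filter.eventually_all.mpr h1
    filter_upwards [h2] with x hx
    refine G.add_mem (G.add_mem (G.sum_mem fun j _ => hx j) (G.sum_mem fun j _ => ?_)) ?_
    · exact hqs j (pr2 j x)
    · exact δ0_mem_logJumps RR hM (pr3 x)
  -- the derivative is onto the cocycles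
  have hsurj : ∀ z ∈ Z, ∃ x, Ψ' x = z := by
    intro z hz
    obtain ⟨v, s, e, h⟩ := hI P η ω p q hPinj (fun j => hAint (hPA j)) hPns hη hp hωli hωreg hq
      hpZ hqZ z ((hZ z).mp hz)
    refine ⟨(v, s, e), ?_⟩
    funext i k
    rw [h i k]
    simp only [Ψ', pr1, pr2, pr3, add_apply, sum_apply,
      ContinuousLinearMap.comp_apply, ContinuousLinearMap.toSpanSingleton_apply,
      ContinuousLinearMap.proj_apply, Pi.add_apply, Finset.sum_apply, Pi.smul_apply,
      smul_eq_mul, hD0]
    rfl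
  have hall := forall_mem_of_hasStrictFDerivAt G Z hGZ Ψ Ψ' x₀ hΨ hmem hsurj
  -- conclusion
  intro c hc
  obtain ⟨c', hc', hcc'⟩ := helper56.exists_log_cocycle M.permDatum M.d_pos M.transitive c hc
  obtain ⟨-, τ, hτ, E', hE', hj⟩ := hall c' ((hZ c').mpr hc')
  refine ⟨τ, hτ, E', hE', ?_⟩
  have : expCochain c' = c := hcc'
  rw [← this]
  exact hj

/-- **[SURJ]** from `AddKernel`, `HolPeriods`, `FamilyStatement` and the Betti number. -/
theorem surjAt_of_addKernel (RR : RRCon F) (RS : RRSurj F) (hM : MonoPackages M)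
    (hK : AddKernel M) (hH : HolPeriods M) (hF : FamilyStatement M)
    (hb1 : M.permDatum.b1 = 2 * genusFF ℂ F) : SurjAt M :=
  surjAt_of_packages' M RR RS hM hH hF (indepStatement' M hK hb1)

end

end Fermat.Agent.P5.helper53
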