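import Mathlib
import Fermat.Agent.P5.helper37_BranchUnique

/-!
# P5 [MOD-PUIS], analytic core: root functions on a left half plane

Let `Y m` (`m : Fin d`) be analytic, pointwise distinct root functions of a `2πi`-periodic family
of polynomials `P ζ` on the half plane `Re ζ < ρ₀`.

* `exists_shift` : translation by `2πi` permutes the `Y m` (`Y m (ζ + 2πi) = Y (τ m) ζ`);
* `shift_iterate`, `periodic_of_iterate`;
* `exists_analytic_puiseux` : if `τ^e m = m` and `Y m` is bounded, then `s ↦ Y m (e log s)` is a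
  well defined function on a punctured disc which extends analytically to `s = 0`.
-/

set_option autoImplicit false

open Filter Topology Complex

namespace Fermat.Agent.P5.helper54

/-- The left half plane `Re ζ < ρ₀`. -/
def halfPlane (ρ₀ : ℝ) : Set ℂ := {ζ | ζ.re < ρ₀}

theorem isOpen_halfPlane (ρ₀ : ℝ) : IsOpen (halfPlane ρ₀) :=
  isOpen_lt Complex.continuous_re continuous_const

theorem convex_halfPlane (ρ₀ : ℝ) : Convex ℝ (halfPlane ρ₀) :=
  convex_halfSpace_re_lt ρ₀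

theorem add_mem_halfPlane {ρ₀ : ℝ} {ζ : ℂ} (hζ : ζ ∈ halfPlane ρ₀) (t : ℝ) :
    ζ + (t : ℂ) * I ∈ halfPlane ρ₀ := by
  simpa [halfPlane] using hζ

/-- `2 π i`. -/
noncomputable def twoPiI : ℂ := 2 * Real.pi * I

theorem twoPiI_eq : twoPiI = ((2 * Real.pi : ℝ) : ℂ) * I := by
  simp [twoPiI]

theorem add_nat_twoPiI_mem {ρ₀ : ℝ} {ζ : ℂ} (hζ : ζ ∈ halfPlane ρ₀) (n : ℤ) :
    ζ + n * twoPiI ∈ halfPlane ρ₀ := by
  have : ζ + n * twoPiI = ζ + ((n * (2 * Real.pi) : ℝ) : ℂ) * I := by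
    simp [twoPiI]; ring
  rw [this]
  exact add_mem_halfPlane hζ _

section Family

variable {d : ℕ} {ρ₀ : ℝ} {P : ℂ → Polynomial ℂ} {Y : Fin d → ℂ → ℂ}

/-- **Translation by `2πi` permutes the roots.** -/
theorem exists_shift (hd : 0 < d)
    (hdeg : ∀ ζ ∈ halfPlane ρ₀, (P ζ).natDegree = d)
    (hYan : ∀ m, AnalyticOnNhd ℂ (Y m) (halfPlane ρ₀))
    (hroot : ∀ m, ∀ ζ ∈ halfPlane ρ₀, (P ζ).IsRoot (Y m ζ))
    (hinj : ∀ ζ ∈ halfPlane ρ₀, Function.Injective fun m => Y m ζ)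
    (hper : ∀ ζ, P (ζ + twoPiI) = P ζ) :
    ∃ τ : Fin d → Fin d, ∀ m, ∀ ζ ∈ halfPlane ρ₀, Y m (ζ + twoPiI) = Y (τ m) ζ := by
  have key : ∀ m, ∃ m', Set.EqOn (fun ζ => Y m (ζ + twoPiI)) (Y m') (halfPlane ρ₀) := by
    intro m
    refine Fermat.Agent.P5.helper37.branch_unique (P := P) hd hdeg
      (fun k => (hYan k).continuousOn) hroot hinj (convex_halfPlane ρ₀).isPreconnected ?_ ?_
    · have h1 : ContinuousOn (Y m) (halfPlane ρ₀) := (hYan m).continuousOn
      refine h1.comp (by fun_prop) ?_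
      intro ζ hζ
      have := add_nat_twoPiI_mem hζ 1
      simpa using this
    · intro ζ hζ
      have h1 : ζ + twoPiI ∈ halfPlane ρ₀ := by
        have := add_nat_twoPiI_mem hζ 1
        simpa using this
      have := hroot m _ h1
      rwa [hper] at this
  choose τ hτ using key
  exact ⟨τ, fun m ζ hζ => hτ m hζ⟩

/-- Iterated translation. -/
theorem shift_iterate {τ : Fin d → Fin d}
    (hτ : ∀ m, ∀ ζ ∈ halfPlane ρ₀, Y m (ζ + twoPiI) = Y (τ m) ζ) (j : ℕ) :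
    ∀ m, ∀ ζ ∈ halfPlane ρ₀, Y m (ζ + j * twoPiI) = Y (τ^[j] m) ζ := by
  induction j with
  | zero => intro m ζ _; simp
  | succ j ih =>
    intro m ζ hζ
    have h1 : ζ + twoPiI ∈ halfPlane ρ₀ := by
      have := add_nat_twoPiI_mem hζ 1
      simpa using this
    have h2 : ζ + ((j + 1 : ℕ) : ℂ) * twoPiI = (ζ + twoPiI) + j * twoPiI := by
      push_cast; ring
    rw [h2, ih m _ h1, hτ _ _ hζ, Function.iterate_succ_apply']

/-- Periodicity under integer multiples of `e · 2πi` when `τ^e m = m`. -/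
theorem periodic_of_iterate {τ : Fin d → Fin d}
    (hτ : ∀ m, ∀ ζ ∈ halfPlane ρ₀, Y m (ζ + twoPiI) = Y (τ m) ζ) {e : ℕ} {m : Fin d}
    (hm : τ^[e] m = m) (n : ℤ) :
    ∀ ζ ∈ halfPlane ρ₀, Y m (ζ + n * (e * twoPiI)) = Y m ζ := by
  have hnat : ∀ N : ℕ, ∀ ζ ∈ halfPlane ρ₀, Y m (ζ + N * (e * twoPiI)) = Y m ζ := by
    intro N ζ hζ
    have h1 : ζ + (N : ℂ) * (e * twoPiI) = ζ + ((e * N : ℕ) : ℂ) * twoPiI := by
      push_cast; ring
    rw [h1, shift_iterate hτ (e * N) m ζ hζ, Function.iterate_mul,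
      Function.iterate_fixed hm]
  intro ζ hζ
  rcases Int.eq_nat_or_neg n with ⟨N, rfl | rfl⟩
  · exact_mod_cast hnat N ζ hζ
  · have h1 : ζ + ((-(N : ℤ) : ℤ) : ℂ) * (e * twoPiI) ∈ halfPlane ρ₀ := by
      have := add_nat_twoPiI_mem hζ (-(N : ℤ) * e)
      convert this using 2
      push_cast; ring
    have := hnat N _ h1
    rw [← this]
    congr 1
    push_cast
    ring

/-- The value `Y m (e · log s)` does not depend on the branch of the logarithm. -/
theorem apply_log_exp {τ : Fin d → Fin d}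
    (hτ : ∀ m, ∀ ζ ∈ halfPlane ρ₀, Y m (ζ + twoPiI) = Y (τ m) ζ) {e : ℕ} {m : Fin d}
    (hm : τ^[e] m = m) (ξ : ℂ) (hξ : (e : ℝ) * ξ.re < ρ₀) :
    Y m (e * Complex.log (Complex.exp ξ)) = Y m (e * ξ) := by
  have h1 : Complex.exp (Complex.log (Complex.exp ξ)) = Complex.exp ξ :=
    Complex.exp_log (Complex.exp_ne_zero ξ)
  obtain ⟨n, hn⟩ := Complex.exp_eq_exp_iff_exists_int.mp h1
  have h2 : (e : ℂ) * Complex.log (Complex.exp ξ) = e * ξ + n * (e * twoPiI) := by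
    rw [hn, twoPiI]; ring
  have h3 : (e : ℂ) * ξ ∈ halfPlane ρ₀ := by
    simpa [halfPlane] using hξ
  rw [h2, periodic_of_iterate hτ hm n _ h3]

theorem exists_analytic_puiseux (hYan : ∀ m, AnalyticOnNhd ℂ (Y m) (halfPlane ρ₀))
    {τ : Fin d → Fin d}
    (hτ : ∀ m, ∀ ζ ∈ halfPlane ρ₀, Y m (ζ + twoPiI) = Y (τ m) ζ) {e : ℕ} (he : 0 < e)
    {m : Fin d} (hm : τ^[e] m = m) (Cb : ℝ) (hb : ∀ ζ ∈ halfPlane ρ₀, ‖Y m ζ‖ ≤ Cb) :
    ∃ H : ℂ → ℂ, AnalyticAt ℂ H 0 ∧
      ∀ ξ : ℂ, (e : ℝ) * ξ.re < ρ₀ → H (Complex.exp ξ) = Y m (e * ξ) := by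
  classical
  set H₁ : ℂ → ℂ := fun s => Y m (e * Complex.log s) with hH₁
  have hclaim : ∀ ξ : ℂ, (e : ℝ) * ξ.re < ρ₀ → H₁ (Complex.exp ξ) = Y m (e * ξ) :=
    fun ξ hξ => apply_log_exp hτ hm ξ hξ
  -- smallness
  set δ : ℝ := min 1 (Real.exp ρ₀) with hδ
  have hδpos : 0 < δ := lt_min one_pos (Real.exp_pos _)
  have hsmall : ∀ s : ℂ, s ≠ 0 → ‖s‖ < δ → (e : ℝ) * Real.log ‖s‖ < ρ₀ := by
    intro s hs0 hs
    have hpos : 0 < ‖s‖ := norm_pos_iff.mpr hs0
    have h1 : ‖s‖ < 1 := hs.trans_le (min_le_left _ _)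
    have h2 : ‖s‖ < Real.exp ρ₀ := hs.trans_le (min_le_right _ _)
    have h3 : Real.log ‖s‖ < 0 := Real.log_neg hpos h1
    have h4 : Real.log ‖s‖ < ρ₀ := (Real.log_lt_iff_lt_exp hpos).mpr h2
    have h5 : (1 : ℝ) ≤ e := by exact_mod_cast he
    nlinarith
  have hre : ∀ s : ℂ, s ≠ 0 → (Complex.log s).re = Real.log ‖s‖ := fun s _ =>
    Complex.log_re s
  have hmemP : ∀ s : ℂ, s ≠ 0 → ‖s‖ < δ → (e : ℂ) * Complex.log s ∈ halfPlane ρ₀ := by
    intro s hs0 hs
    have := hsmall s hs0 hs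
    simpa [halfPlane, hre s hs0] using this
  -- analyticity on the punctured disc
  have hdiff : DifferentiableOn ℂ H₁ (Metric.ball 0 δ \ {0}) := by
    intro s₀ hs₀
    have hs₀0 : s₀ ≠ 0 := by simpa using hs₀.2
    have hs₀δ : ‖s₀‖ < δ := by simpa using hs₀.1
    set L : ℂ → ℂ := fun s => Complex.log s₀ + Complex.log (s / s₀) with hL
    have hLan : AnalyticAt ℂ L s₀ := by
      refine analyticAt_const.add (AnalyticAt.clog ?_ ?_)
      · exact analyticAt_id.div analyticAt_const hs₀0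
      · simp [div_self hs₀0]
    have hLs₀ : L s₀ = Complex.log s₀ := by simp [hL, div_self hs₀0]
    have hYL : AnalyticAt ℂ (fun s => Y m (e * L s)) s₀ := by
      have h1 : AnalyticAt ℂ (Y m) ((e : ℂ) * L s₀) := by
        rw [hLs₀]
        exact hYan m _ (hmemP s₀ hs₀0 hs₀δ)
      have h2 : AnalyticAt ℂ (fun s => (e : ℂ) * L s) s₀ := analyticAt_const.mul hLan
      exact AnalyticAt.comp (g := Y m) (f := fun s => (e : ℂ) * L s) h1 h2
    have hev : H₁ =ᶠ[𝓝 s₀] fun s => Y m (e * L s) := by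
      have hopen : IsOpen (Metric.ball (0 : ℂ) δ \ {0}) :=
        Metric.isOpen_ball.sdiff isClosed_singleton
      filter_upwards [hopen.mem_nhds hs₀] with s hs
      have hs0 : s ≠ 0 := by simpa using hs.2
      have hsδ : ‖s‖ < δ := by simpa using hs.1
      have hexp : Complex.exp (L s) = s := by
        rw [hL]
        simp only
        rw [Complex.exp_add, Complex.exp_log hs₀0, Complex.exp_log (div_ne_zero hs0 hs₀0)]
        field_simp
      have hLre : (e : ℝ) * (L s).re < ρ₀ := by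
        have h1 : (L s).re = Real.log ‖s‖ := by
          have := Complex.norm_exp (L s)
          rw [hexp] at this
          rw [this, Real.log_exp]
        rw [h1]
        exact hsmall s hs0 hsδ
      have := hclaim (L s) hLre
      rw [hexp] at this
      exact this
    exact (hYL.congr hev.symm).differentiableAt.differentiableWithinAt
  have hbdd : BddAbove (norm ∘ H₁ '' (Metric.ball 0 δ \ {0})) := by
    refine ⟨Cb, ?_⟩
    rintro _ ⟨s, hs, rfl⟩
    have hs0 : s ≠ 0 := by simpa using hs.2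
    have hsδ : ‖s‖ < δ := by simpa using hs.1
    exact hb _ (hmemP s hs0 hsδ)
  have hU : Metric.ball (0 : ℂ) δ ∈ 𝓝 (0 : ℂ) := Metric.ball_mem_nhds 0 hδpos
  have hext := Complex.differentiableOn_update_limUnder_of_bddAbove hU hdiff hbdd
  refine ⟨Function.update H₁ 0 (limUnder (𝓝[≠] (0 : ℂ)) H₁), hext.analyticAt hU, fun ξ hξ => ?_⟩
  rw [Function.update_of_ne (Complex.exp_ne_zero ξ)]
  exact hclaim ξ hξ

end Family

end Fermat.Agent.P5.helper54
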