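import Mathlib
import Fermat.Agent.P5.helper37_ModAnalytic
import Fermat.Agent.P5.helper4_CutGeom

/-!
# P5 [MOD-PUIS], geometry: the exponential parametrisation around a bad point

`expMap z₀ b ζ = b + exp ζ • u` (`u` the unit direction of the ray from `b`): sides of the ray,
the strip `0 < Im ζ < 2π` avoids the ray; basic facts on `specialize f z` (monic, degree,
analytic and bounded coefficients) and the Cauchy bound for roots.
-/

set_option autoImplicit false

open Filter Topology Complex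

namespace Fermat.Agent.P5.helper54

open Fermat.Agent.P5.helper25 Fermat.Agent.P5.helper37 Fermat.Agent.P5.helper4

/-- The exponential parametrisation of the punctured plane around `b`. -/
noncomputable def expMap (z₀ b : ℂ) (ζ : ℂ) : ℂ := b + Complex.exp ζ * unitDir z₀ b

theorem norm_unitDir {z₀ b : ℂ} (hb : b ≠ z₀) : ‖unitDir z₀ b‖ = 1 := by
  unfold unitDir
  have h1 : (0 : ℝ) < ‖b - z₀‖ := norm_pos_iff.2 (sub_ne_zero.2 hb)
  rw [norm_div, Complex.norm_real, Real.norm_of_nonneg h1.le, div_self h1.ne']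

theorem unitDir_ne_zero' {z₀ b : ℂ} (hb : b ≠ z₀) : unitDir z₀ b ≠ 0 := by
  intro h
  have := norm_unitDir hb
  rw [h, norm_zero] at this
  exact zero_ne_one this

theorem analyticAt_expMap (z₀ b ζ : ℂ) : AnalyticAt ℂ (expMap z₀ b) ζ := by
  unfold expMap
  exact analyticAt_const.add ((analyticAt_cexp).mul analyticAt_const)

theorem continuous_expMap (z₀ b : ℂ) : Continuous (expMap z₀ b) := by
  unfold expMap
  fun_prop

theorem expMap_add_twoPiI (z₀ b ζ : ℂ) :
    expMap z₀ b (ζ + 2 * Real.pi * I) = expMap z₀ b ζ := by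
  unfold expMap
  rw [Complex.exp_periodic ζ]

theorem expMap_ne {z₀ b : ℂ} (hb : b ≠ z₀) (ζ : ℂ) : expMap z₀ b ζ ≠ b := by
  unfold expMap
  intro h
  have : Complex.exp ζ * unitDir z₀ b = 0 := by
    have := congrArg (fun w => w - b) h
    simpa using this
  rcases mul_eq_zero.1 this with h1 | h1
  · exact Complex.exp_ne_zero ζ h1
  · exact unitDir_ne_zero' hb h1

theorem dist_expMap {z₀ b : ℂ} (hb : b ≠ z₀) (ζ : ℂ) :
    dist (expMap z₀ b ζ) b = Real.exp ζ.re := by
  unfold expMap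
  rw [dist_eq_norm, add_sub_cancel_left, norm_mul, norm_unitDir hb, mul_one, Complex.norm_exp]

/-- The quotient `(E ζ - b) / (b - z₀)`. -/
theorem expMap_quot {z₀ b : ℂ} (hb : b ≠ z₀) (ζ : ℂ) :
    (expMap z₀ b ζ - b) / (b - z₀) = Complex.exp ζ / ((‖b - z₀‖ : ℝ) : ℂ) := by
  unfold expMap
  rw [add_sub_cancel_left]
  unfold unitDir
  have h1 : b - z₀ ≠ 0 := sub_ne_zero.2 hb
  have h2 : ((‖b - z₀‖ : ℝ) : ℂ) ≠ 0 := by
    exact_mod_cast (norm_pos_iff.2 h1).ne'
  field_simp

theorem expMap_quot_im {z₀ b : ℂ} (hb : b ≠ z₀) (ζ : ℂ) :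
    ((expMap z₀ b ζ - b) / (b - z₀)).im = Real.exp ζ.re * Real.sin ζ.im / ‖b - z₀‖ := by
  rw [expMap_quot hb, Complex.div_ofReal_im, Complex.exp_im]

theorem expMap_quot_re {z₀ b : ℂ} (hb : b ≠ z₀) (ζ : ℂ) :
    ((expMap z₀ b ζ - b) / (b - z₀)).re = Real.exp ζ.re * Real.cos ζ.im / ‖b - z₀‖ := by
  rw [expMap_quot hb, Complex.div_ofReal_re, Complex.exp_re]

theorem expMap_mem_leftSide {z₀ b : ℂ} (hb : b ≠ z₀) {ζ : ℂ} (h : 0 < Real.sin ζ.im) :
    expMap z₀ b ζ ∈ leftSide z₀ b := by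
  have h1 : (0 : ℝ) < ‖b - z₀‖ := norm_pos_iff.2 (sub_ne_zero.2 hb)
  show 0 < ((expMap z₀ b ζ - b) / (b - z₀)).im
  rw [expMap_quot_im hb]
  have := Real.exp_pos ζ.re
  positivity

theorem expMap_mem_rightSide {z₀ b : ℂ} (hb : b ≠ z₀) {ζ : ℂ} (h : Real.sin ζ.im < 0) :
    expMap z₀ b ζ ∈ rightSide z₀ b := by
  have h1 : (0 : ℝ) < ‖b - z₀‖ := norm_pos_iff.2 (sub_ne_zero.2 hb)
  show ((expMap z₀ b ζ - b) / (b - z₀)).im < 0
  rw [expMap_quot_im hb]
  have := Real.exp_pos ζ.re
  have : Real.exp ζ.re * Real.sin ζ.im < 0 := mul_neg_of_pos_of_neg this h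
  exact div_neg_of_neg_of_pos this h1

/-- On the strip `0 < Im ζ < 2π` the point `E ζ` is off the ray. -/
theorem expMap_not_mem_ray {z₀ b : ℂ} (hb : b ≠ z₀) {ζ : ℂ} (h0 : 0 < ζ.im)
    (h1 : ζ.im < 2 * Real.pi) : expMap z₀ b ζ ∉ ray z₀ b := by
  intro hmem
  obtain ⟨hre, him⟩ := (mem_ray_iff hb).1 hmem
  rw [expMap_quot_im hb] at him
  rw [expMap_quot_re hb] at hre
  have hn : (0 : ℝ) < ‖b - z₀‖ := norm_pos_iff.2 (sub_ne_zero.2 hb)
  have hexp := Real.exp_pos ζ.re
  have hsin : Real.sin ζ.im = 0 := by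
    have := (div_eq_zero_iff.mp him).resolve_right hn.ne'
    exact (mul_eq_zero.mp this).resolve_left hexp.ne'
  have hcos : 0 ≤ Real.cos ζ.im := by
    have h2 : 0 ≤ Real.exp ζ.re * Real.cos ζ.im := by
      have := mul_nonneg hre hn.le
      rwa [div_mul_cancel₀ _ hn.ne'] at this
    exact nonneg_of_mul_nonneg_right h2 hexp
  -- sin = 0 on (0, 2π) forces the angle to be π
  have hpi : ζ.im = Real.pi := by
    have h3 : Real.sin (ζ.im - Real.pi) = 0 := by
      rw [Real.sin_sub_pi, hsin, neg_zero]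
    have h4 := (Real.sin_eq_zero_iff_of_lt_of_lt (by linarith) (by linarith)).mp h3
    linarith
  rw [hpi, Real.cos_pi] at hcos
  linarith

theorem specialize_monic {f : Polynomial (Polynomial ℂ)} (hf : f.Monic) (z : ℂ) :
    (specialize f z).Monic := hf.map _

theorem natDegree_specialize {f : Polynomial (Polynomial ℂ)} (hf : f.Monic) (z : ℂ) :
    (specialize f z).natDegree = f.natDegree := hf.natDegree_map _

theorem coeff_specialize (f : Polynomial (Polynomial ℂ)) (z : ℂ) (j : ℕ) :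
    (specialize f z).coeff j = (f.coeff j).eval z := by
  unfold specialize
  rw [Polynomial.coeff_map, Polynomial.coe_evalRingHom]

theorem analyticAt_coeff_specialize (f : Polynomial (Polynomial ℂ)) (j : ℕ) (z : ℂ) :
    AnalyticAt ℂ (fun w => (specialize f w).coeff j) z := by
  simp only [coeff_specialize]
  exact (Polynomial.differentiable (f.coeff j)).analyticAt z

/-- A uniform bound for the coefficients of `specialize f z` on a bounded set. -/
theorem exists_coeff_bound (f : Polynomial (Polynomial ℂ)) (b : ℂ) (ρ : ℝ) :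
    ∃ C : ℝ, ∀ z, dist z b ≤ ρ → ∀ j, ‖(specialize f z).coeff j‖ ≤ C := by
  have hc : ∀ j, ∃ C : ℝ, ∀ z ∈ Metric.closedBall b ρ, ‖(f.coeff j).eval z‖ ≤ C := fun j =>
    (isCompact_closedBall b ρ).exists_bound_of_continuousOn
      (Polynomial.continuous (f.coeff j)).continuousOn
  choose C hC using hc
  refine ⟨(Finset.range (f.natDegree + 1)).sup' Finset.nonempty_range_add_one C ⊔ 0,
    fun z hz j => ?_⟩
  rw [coeff_specialize]
  by_cases hj : j ∈ Finset.range (f.natDegree + 1)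
  · exact (hC j z (Metric.mem_closedBall.mpr hz)).trans
      ((Finset.le_sup' C hj).trans le_sup_left)
  · have : f.coeff j = 0 := Polynomial.coeff_eq_zero_of_natDegree_lt (by
      simpa [Nat.lt_succ_iff, not_le] using hj)
    rw [this, Polynomial.eval_zero, norm_zero]
    exact le_sup_right

/-- Roots of a monic polynomial with bounded coefficients are bounded. -/
theorem norm_le_of_isRoot {p : Polynomial ℂ} (hp : p.Monic) {C : ℝ}
    (hC : ∀ j, ‖p.coeff j‖ ≤ C) {w : ℂ} (hw : p.IsRoot w) : ‖w‖ ≤ C + 1 := by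
  have h := hw.norm_lt_cauchyBound hp.ne_zero
  have hC0 : 0 ≤ C := (norm_nonneg _).trans (hC 0)
  have h2 : Polynomial.cauchyBound p ≤ ⟨C, hC0⟩ + 1 := by
    unfold Polynomial.cauchyBound
    rw [hp.leadingCoeff, nnnorm_one, div_one]
    refine add_le_add ?_ le_rfl
    refine Finset.sup_le fun j _ => ?_
    exact_mod_cast hC j
  have h3 : ‖w‖₊ ≤ ⟨C, hC0⟩ + 1 := h.le.trans h2
  exact_mod_cast h3

end Fermat.Agent.P5.helper54
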