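import Mathlib
import Fermat.Agent.P5.helper54_PuisCore
import Fermat.Agent.P5.helper54_PuisGeom

/-!
# P5 [MOD-PUIS]: Puiseux parametrisation of the roots at a bad point

`puisStatement (hBR : BranchStatement) : PuisStatement`.

Route (LOG): on the half plane `Re ζ < log ρ` the family `P ζ = specialize f (b + exp ζ • u)` is
monic, analytic and separable; `hBR` gives analytic roots `Y m`; translation by `2πi` permutes
them (`τ`); on the strip `0 < Im ζ < 2π` they are the roots `y k` of the cut plane (`κ`); the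
crossing property at a point of the ray gives `κ = τ ∘ κ ∘ σ`; hence `H s = Y (κ k) (e log s)`
is well defined, bounded and analytic on the punctured disc, extends analytically to `0` and
restricts to `y (σ⁻ʲ k)` on the `j`-th sector.
-/

set_option autoImplicit false

open Filter Topology Complex

namespace Fermat.Agent.P5.helper54

open Fermat.Agent.P5.helper25 Fermat.Agent.P5.helper37 Fermat.Agent.P5.helper4

/-- The open strip `0 < Im ζ < 2π` of the half plane. -/
def strip (ρ₀ : ℝ) : Set ℂ := {ζ | ζ.re < ρ₀ ∧ 0 < ζ.im ∧ ζ.im < 2 * Real.pi}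

theorem strip_subset (ρ₀ : ℝ) : strip ρ₀ ⊆ halfPlane ρ₀ := fun _ h => h.1

theorem convex_strip (ρ₀ : ℝ) : Convex ℝ (strip ρ₀) := by
  have h : strip ρ₀ = {ζ : ℂ | ζ.re < ρ₀} ∩ ({ζ : ℂ | 0 < ζ.im} ∩ {ζ : ℂ | ζ.im < 2 * Real.pi}) := by
    ext ζ
    simp [strip]
  rw [h]
  exact (convex_halfSpace_re_lt _).inter
    ((convex_halfSpace_im_gt _).inter (convex_halfSpace_im_lt _))

theorem perm_minimalPeriod_pos {d : ℕ} (σ : Equiv.Perm (Fin d)) (k : Fin d) :
    0 < Function.minimalPeriod σ k := by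
  have h1 : Function.IsPeriodicPt σ (orderOf σ) k := by
    unfold Function.IsPeriodicPt Function.IsFixedPt
    rw [Equiv.Perm.iterate_eq_pow, pow_orderOf_eq_one]
    rfl
  exact h1.minimalPeriod_pos (orderOf_pos _)

theorem perm_pow_minimalPeriod {d : ℕ} (σ : Equiv.Perm (Fin d)) (k : Fin d) :
    (σ ^ Function.minimalPeriod σ k) k = k := by
  have := Function.isPeriodicPt_minimalPeriod σ k
  unfold Function.IsPeriodicPt Function.IsFixedPt at this
  rwa [Equiv.Perm.iterate_eq_pow] at this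

/-- the iterated crossing relation -/
theorem kappa_iterate {d : ℕ} (σ : Equiv.Perm (Fin d)) (τ κ : Fin d → Fin d)
    (h : ∀ k', κ k' = τ (κ (σ k'))) (j : ℕ) : ∀ k', κ k' = τ^[j] (κ ((σ ^ j) k')) := by
  induction j with
  | zero => intro k'; simp
  | succ j ih =>
    intro k'
    rw [ih k', h ((σ ^ j) k'), Function.iterate_succ_apply, pow_succ', Equiv.Perm.mul_apply]

theorem puisStatement (hBR : BranchStatement) : PuisStatement := by
  intro D σ hσ i k
  have hb : D.b i ≠ D.z₀ := D.b_ne i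
  have hd : 0 < D.f.natDegree := D.d_pos
  have he : 0 < Function.minimalPeriod (σ i) k := perm_minimalPeriod_pos (σ i) k
  -- the radius
  obtain ⟨ρ, hρ, hball⟩ := Metric.isOpen_iff.mp (CutGeom.isOpen_Uexcept D.toCutGeometry i)
    (D.b i) (CutGeom.ray_subset_Uexcept D.toCutGeometry i (self_mem_ray _ _))
  have hEball : ∀ ζ ∈ halfPlane (Real.log ρ), expMap D.z₀ (D.b i) ζ ∈ Metric.ball (D.b i) ρ := by
    intro ζ hζ
    rw [Metric.mem_ball, dist_expMap hb]
    calc Real.exp ζ.re < Real.exp (Real.log ρ) := Real.exp_lt_exp.mpr hζ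
      _ = ρ := Real.exp_log hρ
  have hEne : ∀ ζ ∈ halfPlane (Real.log ρ), ∀ j, expMap D.z₀ (D.b i) ζ ≠ D.b j := by
    intro ζ hζ j
    by_cases hj : j = i
    · subst hj
      exact expMap_ne hb ζ
    · intro h
      exact hball (hEball ζ hζ) j hj (h ▸ self_mem_ray _ _)
  have hEU : ∀ ζ ∈ strip (Real.log ρ), expMap D.z₀ (D.b i) ζ ∈ D.toCutGeometry.U₀ := fun ζ hζ =>
    CutGeom.mem_U₀_of_mem_Uexcept D.toCutGeometry (hball (hEball ζ hζ.1))
      (expMap_not_mem_ray hb hζ.2.1 hζ.2.2)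
  -- the family
  set P : ℂ → Polynomial ℂ := fun ζ => specialize D.f (expMap D.z₀ (D.b i) ζ) with hP
  have hz₀ : (((Real.log ρ - 1 : ℝ) : ℂ)) ∈ halfPlane (Real.log ρ) := by
    simp [halfPlane]
  obtain ⟨Y, hYan, hYroot, hYinj⟩ := hBR P D.f.natDegree (halfPlane (Real.log ρ))
    ((Real.log ρ - 1 : ℝ) : ℂ) (isOpen_halfPlane _) ((convex_halfPlane _).starConvex hz₀)
    (fun ζ _ => specialize_monic D.f_monic _) (fun ζ _ => natDegree_specialize D.f_monic _)
    (fun j ζ _ => AnalyticAt.comp (g := fun w => (specialize D.f w).coeff j)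
      (f := expMap D.z₀ (D.b i)) (analyticAt_coeff_specialize D.f j _) (analyticAt_expMap _ _ ζ))
    (fun ζ hζ => D.good _ (hEne ζ hζ))
  have hPdeg : ∀ ζ ∈ halfPlane (Real.log ρ), (P ζ).natDegree = D.f.natDegree :=
    fun ζ _ => natDegree_specialize D.f_monic _
  have hPper : ∀ ζ, P (ζ + twoPiI) = P ζ := by
    intro ζ
    simp only [hP, twoPiI, expMap_add_twoPiI]
  -- the shift
  obtain ⟨τ, hτ⟩ := exists_shift hd hPdeg hYan hYroot hYinj hPper
  -- the comparison on the strip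
  have hκ : ∀ k' : Fin D.f.natDegree, ∃ m, Set.EqOn
      (fun ζ => D.y k' (expMap D.z₀ (D.b i) ζ)) (Y m) (strip (Real.log ρ)) := by
    intro k'
    refine branch_unique (P := P) hd (fun ζ hζ => hPdeg ζ hζ.1)
      (fun m => (hYan m).continuousOn.mono (strip_subset _))
      (fun m ζ hζ => hYroot m ζ hζ.1) (fun ζ hζ => hYinj ζ hζ.1)
      (convex_strip _).isPreconnected ?_ ?_
    · exact (D.y_analytic k').continuousOn.comp (continuous_expMap _ _).continuousOn hEU
    · intro ζ hζ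
      exact D.y_root k' _ (hEU ζ hζ)
  choose κ hκ' using hκ
  -- the crossing relation
  have hcross : ∀ k', κ k' = τ (κ (σ i k')) := by
    intro k'
    set ζ₁ : ℂ := ((Real.log ρ - 1 : ℝ) : ℂ) with hζ₁
    have ha : expMap D.z₀ (D.b i) ζ₁ ∈ openRay D.z₀ (D.b i) := by
      have hn : (0 : ℝ) < ‖D.b i - D.z₀‖ := norm_pos_iff.2 (sub_ne_zero.2 hb)
      refine ⟨Real.exp (Real.log ρ - 1) / ‖D.b i - D.z₀‖, div_pos (Real.exp_pos _) hn, ?_⟩
      unfold expMap unitDir
      have h2 : ((‖D.b i - D.z₀‖ : ℝ) : ℂ) ≠ 0 := by exact_mod_cast hn.ne'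
      rw [hζ₁, ← Complex.ofReal_exp]
      push_cast
      field_simp
    obtain ⟨g, hg, hL, hR⟩ := hσ i k' _ ha
    have hEt : Tendsto (expMap D.z₀ (D.b i)) (𝓝 ζ₁) (𝓝 (expMap D.z₀ (D.b i) ζ₁)) :=
      (continuous_expMap _ _).continuousAt
    have hL' := hEt.eventually hL
    have hR' := hEt.eventually hR
    have hgE : AnalyticAt ℂ (fun ζ => g (expMap D.z₀ (D.b i) ζ)) ζ₁ :=
      AnalyticAt.comp (g := g) (f := expMap D.z₀ (D.b i)) hg (analyticAt_expMap _ _ ζ₁)
    have hYκ : AnalyticAt ℂ (Y (κ k')) ζ₁ := hYan _ _ hz₀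
    -- the two curves
    have hcp : Tendsto (fun t : ℝ => ζ₁ + (t : ℂ) * I) (𝓝[>] (0 : ℝ)) (𝓝 ζ₁) := by
      have hc : Continuous fun t : ℝ => ζ₁ + (t : ℂ) * I := by fun_prop
      have := hc.continuousAt (x := (0 : ℝ))
      simp only [ContinuousAt, Complex.ofReal_zero, zero_mul, add_zero] at this
      exact this.mono_left nhdsWithin_le_nhds
    have hcm : Tendsto (fun t : ℝ => ζ₁ - (t : ℂ) * I) (𝓝[>] (0 : ℝ)) (𝓝 ζ₁) := by
      have hc : Continuous fun t : ℝ => ζ₁ - (t : ℂ) * I := by fun_prop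
      have := hc.continuousAt (x := (0 : ℝ))
      simp only [ContinuousAt, Complex.ofReal_zero, zero_mul, sub_zero] at this
      exact this.mono_left nhdsWithin_le_nhds
    have hsmall : ∀ᶠ t : ℝ in 𝓝[>] (0 : ℝ), 0 < t ∧ t < Real.pi := by
      have : Set.Ioo (0 : ℝ) Real.pi ∈ 𝓝[>] (0 : ℝ) := Ioo_mem_nhdsGT Real.pi_pos
      filter_upwards [this] with t ht using ht
    -- on the left: `g ∘ E = Y (κ k')`
    have hleft : ∀ᶠ t : ℝ in 𝓝[>] (0 : ℝ), g (expMap D.z₀ (D.b i) (ζ₁ + (t : ℂ) * I)) =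
        Y (κ k') (ζ₁ + (t : ℂ) * I) := by
      filter_upwards [hcp.eventually hL', hsmall] with t ht1 ht2
      have him : (ζ₁ + (t : ℂ) * I).im = t := by simp [hζ₁]
      have hre : (ζ₁ + (t : ℂ) * I).re = Real.log ρ - 1 := by simp [hζ₁]
      have hmem : ζ₁ + (t : ℂ) * I ∈ strip (Real.log ρ) := by
        refine ⟨by rw [hre]; linarith, by rw [him]; exact ht2.1, by rw [him]; linarith [ht2.2, Real.pi_pos]⟩
      have hsin : 0 < Real.sin (ζ₁ + (t : ℂ) * I).im := by
        rw [him]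
        exact Real.sin_pos_of_pos_of_lt_pi ht2.1 ht2.2
      rw [ht1 (expMap_mem_leftSide hb hsin)]
      exact hκ' k' hmem
    have hfreq : ∃ᶠ ζ in 𝓝[≠] ζ₁, g (expMap D.z₀ (D.b i) ζ) = Y (κ k') ζ := by
      have htend : Tendsto (fun t : ℝ => ζ₁ + (t : ℂ) * I) (𝓝[>] (0 : ℝ)) (𝓝[≠] ζ₁) := by
        refine tendsto_nhdsWithin_iff.mpr ⟨hcp, ?_⟩
        filter_upwards [hsmall] with t ht
        intro h
        have : ((t : ℂ) * I) = 0 := by
          have := congrArg (fun w => w - ζ₁) h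
          simpa using this
        have ht0 : (t : ℂ) = 0 := (mul_eq_zero.mp this).resolve_right Complex.I_ne_zero
        exact ht.1.ne' (by exact_mod_cast ht0)
      exact htend.frequently hleft.frequently
    have heq : ∀ᶠ ζ in 𝓝 ζ₁, g (expMap D.z₀ (D.b i) ζ) = Y (κ k') ζ :=
      (hgE.frequently_eq_iff_eventually_eq hYκ).mp hfreq
    -- on the right: `g ∘ E = Y (τ (κ (σ k')))`
    have hright : ∀ᶠ t : ℝ in 𝓝[>] (0 : ℝ), Y (κ k') (ζ₁ - (t : ℂ) * I) =
        Y (τ (κ (σ i k'))) (ζ₁ - (t : ℂ) * I) := by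
      filter_upwards [hcm.eventually hR', hcm.eventually heq, hsmall] with t ht1 ht3 ht2
      have him : (ζ₁ - (t : ℂ) * I).im = -t := by simp [hζ₁]
      have hre : (ζ₁ - (t : ℂ) * I).re = Real.log ρ - 1 := by simp [hζ₁]
      have hmemP : ζ₁ - (t : ℂ) * I ∈ halfPlane (Real.log ρ) := by
        show (ζ₁ - (t : ℂ) * I).re < Real.log ρ
        rw [hre]; linarith
      have hmem : ζ₁ - (t : ℂ) * I + twoPiI ∈ strip (Real.log ρ) := by
        have him' : (ζ₁ - (t : ℂ) * I + twoPiI).im = -t + 2 * Real.pi := by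
          simp [hζ₁, twoPiI]
        have hre' : (ζ₁ - (t : ℂ) * I + twoPiI).re = Real.log ρ - 1 := by
          simp [hζ₁, twoPiI]
        refine ⟨by rw [hre']; linarith, by rw [him']; linarith [ht2.2], by rw [him']; linarith [ht2.1]⟩
      have hsin : Real.sin (ζ₁ - (t : ℂ) * I).im < 0 := by
        rw [him, Real.sin_neg]
        exact neg_neg_of_pos (Real.sin_pos_of_pos_of_lt_pi ht2.1 ht2.2)
      rw [← ht3, ht1 (expMap_mem_rightSide hb hsin)]
      have h1 := hκ' (σ i k') hmem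
      simp only at h1
      rw [twoPiI, expMap_add_twoPiI] at h1
      rw [h1, ← twoPiI, hτ _ _ hmemP]
    obtain ⟨t, ht, hts⟩ := (hright.and hsmall).exists
    have hmemP : ζ₁ - (t : ℂ) * I ∈ halfPlane (Real.log ρ) := by
      show (ζ₁ - (t : ℂ) * I).re < Real.log ρ
      simp [hζ₁]
    exact hYinj _ hmemP ht
  have hiter := kappa_iterate (σ i) τ κ hcross
  -- periodicity of `m = κ k`
  have hm : τ^[Function.minimalPeriod (σ i) k] (κ k) = κ k := by
    have := hiter (Function.minimalPeriod (σ i) k) k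
    rw [perm_pow_minimalPeriod] at this
    exact this.symm
  -- the bound
  obtain ⟨C, hC⟩ := exists_coeff_bound D.f (D.b i) ρ
  have hbound : ∀ ζ ∈ halfPlane (Real.log ρ), ‖Y (κ k) ζ‖ ≤ C + 1 := by
    intro ζ hζ
    refine norm_le_of_isRoot (p := P ζ) (specialize_monic D.f_monic _) ?_ (hYroot _ ζ hζ)
    exact hC _ (Metric.mem_ball.mp (hEball ζ hζ)).le
  obtain ⟨H, hHan, hH⟩ := exists_analytic_puiseux hYan hτ he hm (C + 1) hbound
  refine ⟨H, hHan, fun j => ?_⟩
  -- the sectors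
  have hnhds : Metric.ball (0 : ℂ) (min 1 ρ) ∈ 𝓝[≠] (0 : ℂ) :=
    mem_nhdsWithin_of_mem_nhds (Metric.ball_mem_nhds 0 (lt_min one_pos hρ))
  filter_upwards [hnhds] with s hs hsec
  obtain ⟨ρ', φ, hρ', hφ1, hφ2, rfl⟩ := hsec
  set e := Function.minimalPeriod (σ i) k with he_def
  have hepos : (0 : ℝ) < e := by exact_mod_cast he
  set ξ : ℂ := ((Real.log ρ' : ℝ) : ℂ) + (φ : ℂ) * I with hξ
  have hexp : Complex.exp ξ = (ρ' : ℂ) * Complex.exp ((φ : ℂ) * I) := by
    rw [hξ, Complex.exp_add, ← Complex.ofReal_exp, Real.exp_log hρ']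
  have hnorm : ‖(ρ' : ℂ) * Complex.exp ((φ : ℂ) * I)‖ = ρ' := by
    rw [norm_mul, Complex.norm_exp_ofReal_mul_I, mul_one, Complex.norm_real,
      Real.norm_of_nonneg hρ'.le]
  have hρ'small : ρ' < min 1 ρ := by
    have := Metric.mem_ball.mp hs
    rwa [dist_zero_right, hnorm] at this
  have hξre : ξ.re = Real.log ρ' := by simp [hξ]
  have hξim : ξ.im = φ := by simp [hξ]
  have hlog : (e : ℝ) * ξ.re < Real.log ρ := by
    rw [hξre]
    have h1 : Real.log ρ' < 0 := Real.log_neg hρ' (hρ'small.trans_le (min_le_left _ _))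
    have h2 : Real.log ρ' < Real.log ρ :=
      Real.log_lt_log hρ' (hρ'small.trans_le (min_le_right _ _))
    have h3 : (1 : ℝ) ≤ e := by exact_mod_cast he
    nlinarith
  rw [← hexp, hH ξ hlog]
  -- the point `ζ = e ξ` and its translate into the strip
  set ζ' : ℂ := (e : ℂ) * ξ - (j : ℂ) * twoPiI with hζ'
  have hζ're : ζ'.re = e * ξ.re := by
    simp [hζ', twoPiI]
  have hζ'im : ζ'.im = e * φ - j * (2 * Real.pi) := by
    simp [hζ', twoPiI, hξim]
  have hmem : ζ' ∈ strip (Real.log ρ) := by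
    refine ⟨by rw [hζ're]; exact hlog, ?_, ?_⟩
    · rw [hζ'im]
      have := mul_lt_mul_of_pos_left hφ1 hepos
      have h7 : (e : ℝ) * (2 * Real.pi * j / e) = j * (2 * Real.pi) := by
        field_simp
      linarith
    · rw [hζ'im]
      have := mul_lt_mul_of_pos_left hφ2 hepos
      have h7 : (e : ℝ) * (2 * Real.pi * (j + 1) / e) = (j + 1) * (2 * Real.pi) := by
        field_simp
      linarith
  have hζ : (e : ℂ) * ξ = ζ' + (j : ℂ) * twoPiI := by
    rw [hζ']; ring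
  have hEeq : expMap D.z₀ (D.b i) ζ' = D.b i +
      (Complex.exp ξ) ^ e * unitDir D.z₀ (D.b i) := by
    unfold expMap
    congr 2
    rw [← Complex.exp_nat_mul, hζ, twoPiI]
    have := (Complex.exp_periodic.nat_mul j) ζ'
    rw [← this]
  rw [← hEeq, hζ, shift_iterate hτ j _ _ hmem.1]
  have h1 := hκ' (((σ i)⁻¹ ^ j) k) hmem
  simp only at h1
  rw [h1]
  congr 1
  have h2 := hiter j (((σ i)⁻¹ ^ j) k)
  rw [h2]
  congr 2
  simp

end Fermat.Agent.P5.helper54
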