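import Fermat.Agent.P5.helper64_GlueAn
import Fermat.Agent.P5.helper38_Sector

/-!
# P5 / MOD-GLUE (helper64): global generation for sheet models

`glueStatement : GlueStatement` (= `RatStatement → ∀ F M, GlueProp M`), VERBATIM.
-/

set_option autoImplicit false

namespace Fermat.Agent.P5.helper64

open Fermat.Agent.P5.helper25 Fermat.Agent.P5.helper37

theorem sectorHyp : SectorHyp := fun G i _ hE =>
  Fermat.Agent.P5.helper38.eventually_sector_of_mem_U₀ G i hE

theorem sectorInfHyp : SectorInfHyp := fun G hr =>
  Fermat.Agent.P5.helper38.eventually_sectorInf_of_mem_U₀ G hr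

/-- **[MOD-GLUE]** global generation, from the rationality statement. -/
theorem glueStatement : GlueStatement := glueStatement_of sectorHyp sectorInfHyp

end Fermat.Agent.P5.helper64
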