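/-
P5 / S27, module MOD, package MOD-PL-BAD (helper86, task 653).

`badPlacesStatement : BadPlacesStatement` : the places `plBad i k` over the bad points of a
sheet model, from the dictionary `DictStatement` (through `helper37.places_of_germs`).

For a bad point `b i` let `E = orderOf (σ i)`, `e k` = the length of the `σ i`-cycle of `k`,
`m k = E / e k`.  The Puiseux function `P k h` of `M.puiseux i k h` (variable `s'`,
`z = b i + s' ^ e k * u`) is pulled back to the common `E`-fold disc: `pe k h s = P k h (s ^ m k)`.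
On the first sector `0 < arg s < 2π / E` we have `pe k h s = ev k h (b i + s ^ E * u)`, and
`pe k h (ζ s) = ev (σ⁻¹ k) h (b i + s ^ E * u)` for `ζ = exp (2πi / E)`; the identity principle
turns all identities of the sheets into identities of germs at `s = 0`.
-/
import Mathlib
import Fermat.Agent.P5.helper37_PlCore
import Fermat.Agent.P5.helper37_PlInt
import Fermat.Agent.P5.helper41_Sectors
import Fermat.Agent.P5.helper38_CutStar

set_option autoImplicit false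

open AlgebraicCurve IntermediateField Filter Topology Complex

namespace Fermat.Agent.P5.helper86.Bad

open Fermat.Agent.P5.helper25 Fermat.Agent.P5.helper37 Fermat.Agent.P5.helper4
open Fermat.Agent.P5.helper41 Fermat.Agent.P5.helper38

noncomputable section

/-! ### Sector arithmetic -/

/-- powers of sectors -/
theorem pow_mem_sector {α β : ℝ} {s : ℂ} (hs : s ∈ sector α β) {m : ℕ} (hm : 0 < m) :
    s ^ m ∈ sector (m * α) (m * β) := by
  obtain ⟨ρ, φ, hρ, hφ1, hφ2, rfl⟩ := hs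
  have hm' : (0 : ℝ) < m := by exact_mod_cast hm
  exact ⟨ρ ^ m, m * φ, pow_pos hρ m, mul_lt_mul_of_pos_left hφ1 hm',
    mul_lt_mul_of_pos_left hφ2 hm', polar_pow ρ φ m⟩

/-- rotations of sectors -/
theorem exp_mul_mem_sector {α β : ℝ} {s : ℂ} (hs : s ∈ sector α β) (γ : ℝ) :
    exp ((γ : ℂ) * I) * s ∈ sector (α + γ) (β + γ) := by
  obtain ⟨ρ, φ, hρ, hφ1, hφ2, rfl⟩ := hs
  refine ⟨ρ, φ + γ, hρ, by linarith, by linarith, ?_⟩
  rw [mul_left_comm, ← Complex.exp_add]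
  congr 2
  push_cast
  ring

/-! ### The identity principle along a parametrisation -/

/-- **transfer**: if `G₁, G₂` are meromorphic at `0` and agree with `f₁ ∘ ψ`, `f₂ ∘ ψ` on an open
set `S` accumulating at `0`, and `f₁, f₂` agree generically on `U ⊇ ψ S`, then `G₁ = G₂` near
`0`. -/
theorem transfer {U S : Set ℂ} (hS : IsOpen S) (hacc : ∃ᶠ s in 𝓝[≠] (0 : ℂ), s ∈ S)
    {ψ : ℂ → ℂ} (hψc : Continuous ψ) (hψU : ∀ s ∈ S, ψ s ∈ U)
    (hψne : ∀ s ∈ S, ∀ᶠ w in 𝓝[≠] s, ψ w ≠ ψ s)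
    {G₁ G₂ f₁ f₂ : ℂ → ℂ} (hG₁ : MeromorphicAt G₁ 0) (hG₂ : MeromorphicAt G₂ 0)
    (h₁ : ∀ᶠ s in 𝓝[≠] (0 : ℂ), s ∈ S → G₁ s = f₁ (ψ s))
    (h₂ : ∀ᶠ s in 𝓝[≠] (0 : ℂ), s ∈ S → G₂ s = f₂ (ψ s))
    (hf : ∀ z ∈ U, f₁ =ᶠ[𝓝[≠] z] f₂) : G₁ =ᶠ[𝓝[≠] 0] G₂ := by
  refine eventuallyEq_of_frequently hG₁ hG₂ ?_
  have h3 := eventually_eventually_punctured (h₁.and h₂)
  refine (hacc.and_eventually h3).mono ?_
  rintro z ⟨hzS, hz⟩
  have h4 : ∀ᶠ w in 𝓝 z, w ∈ S := hS.mem_nhds hzS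
  have ht : Tendsto ψ (𝓝[≠] z) (𝓝[≠] (ψ z)) :=
    tendsto_nhdsWithin_iff.2 ⟨hψc.continuousAt.tendsto.mono_left nhdsWithin_le_nhds, hψne z hzS⟩
  have h5 := ht.eventually (hf (ψ z) (hψU z hzS))
  filter_upwards [nhdsWithin_le_nhds hz, nhdsWithin_le_nhds h4, h5] with w hw hwS hw5
  rw [(hw.1 hwS), (hw.2 hwS), hw5]

/-- **converse transfer**: if `G₁ = G₂` near `0`, then `f₁ = f₂` near some point of `ψ S`. -/
theorem transfer_conv {S : Set ℂ} (hS : IsOpen S) (hacc : ∃ᶠ s in 𝓝[≠] (0 : ℂ), s ∈ S)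
    {ψ : ℂ → ℂ} (hψa : ∀ s ∈ S, AnalyticAt ℂ ψ s)
    (hψnc : ∀ s ∈ S, ¬ ∀ᶠ w in 𝓝 s, ψ w = ψ s)
    {G₁ G₂ f₁ f₂ : ℂ → ℂ}
    (h₁ : ∀ᶠ s in 𝓝[≠] (0 : ℂ), s ∈ S → G₁ s = f₁ (ψ s))
    (h₂ : ∀ᶠ s in 𝓝[≠] (0 : ℂ), s ∈ S → G₂ s = f₂ (ψ s))
    (hG : G₁ =ᶠ[𝓝[≠] 0] G₂) : ∃ s ∈ S, f₁ =ᶠ[𝓝 (ψ s)] f₂ := by
  have h3 := eventually_eventually_punctured (h₁.and (h₂.and hG))
  obtain ⟨s, hsS, hs⟩ := (hacc.and_eventually h3).exists
  refine ⟨s, hsS, ?_⟩
  have h4 : ∀ᶠ w in 𝓝 s, w ∈ S := hS.mem_nhds hsS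
  have h5 : ∀ᶠ w in 𝓝 s, f₁ (ψ w) = f₂ (ψ w) := by
    filter_upwards [hs, h4] with w hw hwS
    rw [← hw.1 hwS, ← hw.2.1 hwS, hw.2.2]
  rcases (hψa s hsS).eventually_constant_or_nhds_le_map_nhds with h6 | h6
  · exact absurd h6 (hψnc s hsS)
  · exact h6 h5

/-- the identity theorem on a preconnected set, for non-equality of meromorphic functions -/
theorem not_eventuallyEq_of_isPreconnected {U : Set ℂ} (hU : IsPreconnected U) {f g : ℂ → ℂ}
    (hf : MeromorphicOn f U) (hg : MeromorphicOn g U) {z₀ z : ℂ} (hz₀ : z₀ ∈ U) (hz : z ∈ U)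
    (h : ¬ (f =ᶠ[𝓝[≠] z₀] g)) : ¬ (f =ᶠ[𝓝[≠] z] g) := by
  have hfg : MeromorphicOn (f - g) U := hf.sub hg
  have h1 : meromorphicOrderAt (f - g) z₀ ≠ ⊤ := by
    intro htop
    apply h
    filter_upwards [meromorphicOrderAt_eq_top_iff.1 htop] with w hw
    have : f w - g w = 0 := hw
    exact sub_eq_zero.1 this
  have h2 := hfg.meromorphicOrderAt_ne_top_of_isPreconnected hU hz₀ hz h1
  intro heq
  apply h2
  rw [meromorphicOrderAt_eq_top_iff]
  filter_upwards [heq] with w hw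
  simp [hw]

/-- the power map tends to the punctured neighbourhood of `0` -/
theorem tendsto_mul_pow {c : ℂ} (hc : c ≠ 0) {m : ℕ} (hm : 0 < m) :
    Tendsto (fun s : ℂ => (c * s) ^ m) (𝓝[≠] 0) (𝓝[≠] 0) := by
  rw [tendsto_nhdsWithin_iff]
  constructor
  · have hcont : Continuous fun s : ℂ => (c * s) ^ m := by fun_prop
    have := hcont.tendsto 0
    simp only [mul_zero, zero_pow hm.ne'] at this
    exact this.mono_left nhdsWithin_le_nhds
  · filter_upwards [self_mem_nhdsWithin] with s hs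
    have hs' : s ≠ 0 := hs
    exact pow_ne_zero _ (mul_ne_zero hc hs')

/-- the order of a pull-back along the power map -/
theorem order_comp_pow {P : ℂ → ℂ} (hP : MeromorphicAt P 0) {m : ℕ} (hm : 0 < m) :
    meromorphicOrderAt (fun s : ℂ => P (s ^ m)) 0 = meromorphicOrderAt P 0 * ((m : ℤ) : WithTop ℤ) := by
  have hg : AnalyticAt ℂ (fun s : ℂ => s ^ m) 0 := by fun_prop
  have h0 : (fun s : ℂ => s ^ m) 0 = 0 := by simp [hm.ne']
  have hord : analyticOrderAt (fun s : ℂ => s ^ m - (fun s : ℂ => s ^ m) 0) 0 = m := by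
    have h1 := analyticOrderAt_centeredMonomial (𝕜 := ℂ) (z₀ := 0) (n := m)
    have h2 : (fun s : ℂ => s ^ m - (fun s : ℂ => s ^ m) 0) = ((· - (0 : ℂ)) ^ m) := by
      funext s
      simp [hm.ne']
    rw [h2]
    exact h1
  have hnc : ¬ EventuallyConst (fun s : ℂ => s ^ m) (𝓝 0) := by
    rw [eventuallyConst_iff_analyticOrderAt_sub_eq_top, hord]
    exact ENat.natCast_ne_top m
  have hP' : MeromorphicAt P ((fun s : ℂ => s ^ m) 0) := by rw [h0]; exact hP
  have key := MeromorphicAt.meromorphicOrderAt_comp (f := P) (g := fun s : ℂ => s ^ m) (x := 0)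
    hP' hg hnc
  rw [hord] at key
  simp only [zero_pow hm.ne'] at key
  have h3 : (fun s : ℂ => P (s ^ m)) = P ∘ (fun s : ℂ => s ^ m) := rfl
  rw [h3, key]
  rfl

/-! ### The `E`-fold Puiseux disc at a bad point -/

variable {F : Type} [Field F] [Algebra ℂ F] (M : SheetModel F) (i : Fin M.r)

/-- the common period `E` -/
def bigE : ℕ := orderOf (M.σ i)

theorem bigE_pos : 0 < bigE M i := orderOf_pos _

/-- the length of the cycle of `k` -/
def per (k : Fin M.d) : ℕ := Function.minimalPeriod (M.σ i) k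

theorem per_dvd (k : Fin M.d) : per M i k ∣ bigE M i := by
  apply Function.IsPeriodicPt.minimalPeriod_dvd
  unfold Function.IsPeriodicPt Function.IsFixedPt bigE
  rw [Equiv.Perm.iterate_eq_pow, pow_orderOf_eq_one]
  rfl

theorem per_pos (k : Fin M.d) : 0 < per M i k :=
  Nat.pos_of_dvd_of_pos (per_dvd M i k) (bigE_pos M i)

/-- the multiplicity `m k = E / e k` -/
def mlt (k : Fin M.d) : ℕ := bigE M i / per M i k

theorem mlt_mul_per (k : Fin M.d) : mlt M i k * per M i k = bigE M i :=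
  Nat.div_mul_cancel (per_dvd M i k)

theorem mlt_pos (k : Fin M.d) : 0 < mlt M i k := by
  have h := mlt_mul_per M i k
  have hE := bigE_pos M i
  rcases Nat.eq_zero_or_pos (mlt M i k) with h0 | h0
  · rw [h0, zero_mul] at h
    omega
  · exact h0

/-- `ζ = exp (2πi / E)` -/
def zeta : ℂ := exp (((2 * Real.pi / bigE M i : ℝ) : ℂ) * I)

theorem zeta_ne_zero : zeta M i ≠ 0 := Complex.exp_ne_zero _

theorem zeta_isPrimitiveRoot : IsPrimitiveRoot (zeta M i) (bigE M i) := by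
  have h := Complex.isPrimitiveRoot_exp (bigE M i) (bigE_pos M i).ne'
  have h1 : zeta M i = exp (2 * Real.pi * I / bigE M i) := by
    unfold zeta
    congr 1
    push_cast
    ring
  rw [h1]
  exact h

theorem zeta_pow_bigE : zeta M i ^ bigE M i = 1 := (zeta_isPrimitiveRoot M i).pow_eq_one

theorem zeta_pow (j : ℕ) :
    zeta M i ^ j = exp (((j * (2 * Real.pi / bigE M i) : ℝ) : ℂ) * I) := by
  unfold zeta
  rw [← Complex.exp_nat_mul]
  congr 1
  push_cast
  ring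

/-- the parametrisation `s ↦ b i + s ^ E * u` -/
def psi : ℂ → ℂ := fun s => M.b i + s ^ bigE M i * unitDir M.z₀ (M.b i)

theorem continuous_psi : Continuous (psi M i) := by
  unfold psi
  fun_prop

theorem analyticAt_psi (s : ℂ) : AnalyticAt ℂ (psi M i) s := by
  unfold psi
  fun_prop

theorem psi_ne (s : ℂ) : ∀ᶠ w in 𝓝[≠] s, psi M i w ≠ psi M i s := by
  have hu : unitDir M.z₀ (M.b i) ≠ 0 := unitDir_ne_zero (M.b_ne i)
  filter_upwards [eventually_pow_ne (bigE_pos M i) s] with w hw hcon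
  apply hw
  have h1 : w ^ bigE M i * unitDir M.z₀ (M.b i) = s ^ bigE M i * unitDir M.z₀ (M.b i) :=
    add_left_cancel hcon
  exact mul_right_cancel₀ hu h1

theorem psi_not_const (s : ℂ) : ¬ ∀ᶠ w in 𝓝 s, psi M i w = psi M i s := by
  intro h
  have h1 : ∀ᶠ w in 𝓝[≠] s, False := by
    filter_upwards [psi_ne M i s, nhdsWithin_le_nhds h] with w hw1 hw2
    exact hw1 hw2
  obtain ⟨_, hf⟩ := h1.exists
  exact hf

/-- the first sector of the `E`-fold disc, cut off so that `ψ` maps it into `U₀` -/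
def sec : Set ℂ :=
  sector 0 (2 * Real.pi / bigE M i) ∩
    Metric.ball (0 : ℂ) (exists_puiseux_mem_U₀ M.toCutGeometry i (bigE_pos M i)).choose

theorem isOpen_sec : IsOpen (sec M i) :=
  (isOpen_sector _ _).inter Metric.isOpen_ball

theorem sec_subset : sec M i ⊆ sector 0 (2 * Real.pi / bigE M i) := Set.inter_subset_left

theorem frequently_sec : ∃ᶠ s in 𝓝[≠] (0 : ℂ), s ∈ sec M i := by
  have hE : (0 : ℝ) < bigE M i := by exact_mod_cast bigE_pos M i
  have h1 : ∃ᶠ s in 𝓝[≠] (0 : ℂ), s ∈ sector 0 (2 * Real.pi / bigE M i) :=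
    frequently_mem_sector_zero (by positivity)
  have h2 : ∀ᶠ s in 𝓝[≠] (0 : ℂ),
      s ∈ Metric.ball (0 : ℂ) (exists_puiseux_mem_U₀ M.toCutGeometry i (bigE_pos M i)).choose :=
    nhdsWithin_le_nhds (Metric.ball_mem_nhds _
      (exists_puiseux_mem_U₀ M.toCutGeometry i (bigE_pos M i)).choose_spec.1)
  exact (h1.and_eventually h2).mono fun s hs => hs

theorem psi_mem_U₀ {s : ℂ} (hs : s ∈ sec M i) : psi M i s ∈ M.toCutGeometry.U₀ := by
  have h := (exists_puiseux_mem_U₀ M.toCutGeometry i (bigE_pos M i)).choose_spec.2 0 s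
  apply h
  · have h1 := hs.1
    simpa using h1
  · have h2 := hs.2
    rw [Metric.mem_ball, dist_zero_right] at h2
    exact h2

/-- the identity principle on the `E`-fold disc -/
theorem pe_transfer {G₁ G₂ f₁ f₂ : ℂ → ℂ} (hG₁ : MeromorphicAt G₁ 0) (hG₂ : MeromorphicAt G₂ 0)
    (h₁ : ∀ᶠ s in 𝓝[≠] (0 : ℂ), s ∈ sector 0 (2 * Real.pi / bigE M i) → G₁ s = f₁ (psi M i s))
    (h₂ : ∀ᶠ s in 𝓝[≠] (0 : ℂ), s ∈ sector 0 (2 * Real.pi / bigE M i) → G₂ s = f₂ (psi M i s))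
    (hf : ∀ z ∈ M.toCutGeometry.U₀, f₁ =ᶠ[𝓝[≠] z] f₂) : G₁ =ᶠ[𝓝[≠] 0] G₂ :=
  transfer (isOpen_sec M i) (frequently_sec M i) (continuous_psi M i)
    (fun _ hs => psi_mem_U₀ M i hs) (fun s _ => psi_ne M i s) hG₁ hG₂
    (h₁.mono fun _ hs hsS => hs (sec_subset M i hsS))
    (h₂.mono fun _ hs hsS => hs (sec_subset M i hsS)) hf

theorem pe_transfer_conv {G₁ G₂ f₁ f₂ : ℂ → ℂ}
    (h₁ : ∀ᶠ s in 𝓝[≠] (0 : ℂ), s ∈ sector 0 (2 * Real.pi / bigE M i) → G₁ s = f₁ (psi M i s))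
    (h₂ : ∀ᶠ s in 𝓝[≠] (0 : ℂ), s ∈ sector 0 (2 * Real.pi / bigE M i) → G₂ s = f₂ (psi M i s))
    (hG : G₁ =ᶠ[𝓝[≠] 0] G₂) : ∃ z ∈ M.toCutGeometry.U₀, f₁ =ᶠ[𝓝 z] f₂ := by
  obtain ⟨s, hs, h⟩ := transfer_conv (isOpen_sec M i) (frequently_sec M i)
    (fun s _ => analyticAt_psi M i s) (fun s _ => psi_not_const M i s)
    (h₁.mono fun _ hs hsS => hs (sec_subset M i hsS))
    (h₂.mono fun _ hs hsS => hs (sec_subset M i hsS)) hG
  exact ⟨psi M i s, psi_mem_U₀ M i hs, h⟩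

/-! ### The Puiseux functions -/

/-- the Puiseux function of `h` on the cycle of `k` -/
def puis (k : Fin M.d) (h : F) : ℂ → ℂ := (M.puiseux i k h).choose

theorem puis_mero (k : Fin M.d) (h : F) : MeromorphicAt (puis M i k h) 0 :=
  (M.puiseux i k h).choose_spec.1

theorem puis_spec (k : Fin M.d) (h : F) (j : ℕ) : ∀ᶠ s in 𝓝[≠] (0 : ℂ),
    s ∈ sector (2 * Real.pi * j / per M i k) (2 * Real.pi * (j + 1) / per M i k) →
      puis M i k h s = M.ev (((M.σ i)⁻¹ ^ j) k) h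
        (M.b i + s ^ per M i k * unitDir M.z₀ (M.b i)) :=
  (M.puiseux i k h).choose_spec.2 j

/-- the pull-back of the Puiseux function to the `E`-fold disc -/
def pe (k : Fin M.d) (h : F) : ℂ → ℂ := fun s => puis M i k h (s ^ mlt M i k)

theorem pe_mero (k : Fin M.d) (h : F) : MeromorphicAt (pe M i k h) 0 := by
  have hg : AnalyticAt ℂ (fun s : ℂ => s ^ mlt M i k) 0 := by fun_prop
  have h0 : (fun s : ℂ => s ^ mlt M i k) 0 = 0 := by simp [(mlt_pos M i k).ne']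
  have hP : MeromorphicAt (puis M i k h) ((fun s : ℂ => s ^ mlt M i k) 0) := by
    rw [h0]
    exact puis_mero M i k h
  exact MeromorphicAt.comp_analyticAt (f := puis M i k h) (g := fun s : ℂ => s ^ mlt M i k) hP hg

/-- **the sheets on the sectors of the `E`-fold disc** -/
theorem puis_sector (k : Fin M.d) (h : F) (j : ℕ) : ∀ᶠ s in 𝓝[≠] (0 : ℂ),
    s ∈ sector 0 (2 * Real.pi / bigE M i) →
      puis M i k h ((zeta M i ^ j * s) ^ mlt M i k) = M.ev (((M.σ i)⁻¹ ^ j) k) h (psi M i s) := by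
  have hspec := puis_spec M i k h j
  have ht := tendsto_mul_pow (c := zeta M i ^ j) (pow_ne_zero _ (zeta_ne_zero M i))
    (mlt_pos M i k)
  have hE : (0 : ℝ) < bigE M i := by exact_mod_cast bigE_pos M i
  have he : (0 : ℝ) < per M i k := by exact_mod_cast per_pos M i k
  have hm : (0 : ℝ) < mlt M i k := by exact_mod_cast mlt_pos M i k
  have hme : (mlt M i k : ℝ) * per M i k = bigE M i := by exact_mod_cast mlt_mul_per M i k
  filter_upwards [ht.eventually hspec] with s hs hsec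
  have h1 : (zeta M i ^ j * s) ^ mlt M i k ∈
      sector (2 * Real.pi * j / per M i k) (2 * Real.pi * (j + 1) / per M i k) := by
    have h2 := pow_mem_sector (exp_mul_mem_sector hsec (j * (2 * Real.pi / bigE M i)))
      (mlt_pos M i k)
    rw [← zeta_pow] at h2
    have e1 : (mlt M i k : ℝ) * (0 + j * (2 * Real.pi / bigE M i)) =
        2 * Real.pi * j / per M i k := by
      rw [← hme]
      field_simp
      ring
    have e2 : (mlt M i k : ℝ) * (2 * Real.pi / bigE M i + j * (2 * Real.pi / bigE M i)) =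
        2 * Real.pi * (j + 1) / per M i k := by
      rw [← hme]
      field_simp
      ring
    rw [e1, e2] at h2
    exact h2
  rw [hs h1]
  congr 2
  rw [← pow_mul, mlt_mul_per, mul_pow, ← pow_mul, mul_comm j, pow_mul, zeta_pow_bigE, one_pow,
    one_mul]

theorem pe_sector (k : Fin M.d) (h : F) : ∀ᶠ s in 𝓝[≠] (0 : ℂ),
    s ∈ sector 0 (2 * Real.pi / bigE M i) → pe M i k h s = M.ev k h (psi M i s) := by
  filter_upwards [puis_sector M i k h 0] with s hs hsec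
  have := hs hsec
  simpa [pe] using this

theorem pe_sector_rot (k : Fin M.d) (h : F) : ∀ᶠ s in 𝓝[≠] (0 : ℂ),
    s ∈ sector 0 (2 * Real.pi / bigE M i) →
      pe M i k h (rot 0 (zeta M i) s) = M.ev ((M.σ i)⁻¹ k) h (psi M i s) := by
  filter_upwards [puis_sector M i k h 1] with s hs hsec
  have := hs hsec
  simpa [pe, rot] using this

/-! ### The hypotheses of `places_of_germs` -/

theorem pe_add (k : Fin M.d) (h₁ h₂ : F) :
    pe M i k (h₁ + h₂) =ᶠ[𝓝[≠] 0] fun w => pe M i k h₁ w + pe M i k h₂ w := by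
  refine pe_transfer M i (pe_mero M i k _) ((pe_mero M i k h₁).add (pe_mero M i k h₂))
    (f₁ := M.ev k (h₁ + h₂)) (f₂ := fun w => M.ev k h₁ w + M.ev k h₂ w)
    (pe_sector M i k _) ?_ (fun z hz => M.ev_add k h₁ h₂ z hz)
  filter_upwards [pe_sector M i k h₁, pe_sector M i k h₂] with s hs1 hs2 hsec
  rw [hs1 hsec, hs2 hsec]

theorem pe_mul (k : Fin M.d) (h₁ h₂ : F) :
    pe M i k (h₁ * h₂) =ᶠ[𝓝[≠] 0] fun w => pe M i k h₁ w * pe M i k h₂ w := by
  refine pe_transfer M i (pe_mero M i k _) ((pe_mero M i k h₁).mul (pe_mero M i k h₂))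
    (f₁ := M.ev k (h₁ * h₂)) (f₂ := fun w => M.ev k h₁ w * M.ev k h₂ w)
    (pe_sector M i k _) ?_ (fun z hz => M.ev_mul k h₁ h₂ z hz)
  filter_upwards [pe_sector M i k h₁, pe_sector M i k h₂] with s hs1 hs2 hsec
  rw [hs1 hsec, hs2 hsec]

theorem pe_const (k : Fin M.d) (a : ℂ) :
    pe M i k (algebraMap ℂ F a) =ᶠ[𝓝[≠] 0] fun _ => a :=
  pe_transfer M i (pe_mero M i k _) (MeromorphicAt.const a 0)
    (f₁ := M.ev k (algebraMap ℂ F a)) (f₂ := fun _ => a)
    (pe_sector M i k _) (Eventually.of_forall fun _ _ => rfl)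
    (fun _ hz => M.ev_const_eventuallyEq k a hz)

theorem pe_xsub (k : Fin M.d) :
    pe M i k (M.xsub (M.b i)) =ᶠ[𝓝[≠] 0]
      fun s => M.b i + s ^ bigE M i * unitDir M.z₀ (M.b i) - M.b i :=
  pe_transfer M i (pe_mero M i k _) (by fun_prop)
    (f₁ := M.ev k (M.xsub (M.b i))) (f₂ := fun w => w - M.b i)
    (pe_sector M i k _) (Eventually.of_forall fun _ _ => rfl)
    (fun _ hz => M.ev_xsub k (M.b i) hz)

theorem pe_rot_mero (k : Fin M.d) (h : F) :
    MeromorphicAt (fun w => pe M i k h (rot 0 (zeta M i) w)) 0 := by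
  have hP : MeromorphicAt (pe M i k h) (rot 0 (zeta M i) 0) := by
    rw [rot_self]
    exact pe_mero M i k h
  exact MeromorphicAt.comp_analyticAt (f := pe M i k h) (g := rot 0 (zeta M i)) hP
    (analyticAt_rot 0 (zeta M i) 0)

theorem pe_rot (k : Fin M.d) (h : F) :
    pe M i ((M.σ i)⁻¹ k) h =ᶠ[𝓝[≠] 0] fun w => pe M i k h (rot 0 (zeta M i) w) :=
  pe_transfer M i (pe_mero M i _ h) (pe_rot_mero M i k h)
    (f₁ := M.ev ((M.σ i)⁻¹ k) h) (f₂ := M.ev ((M.σ i)⁻¹ k) h)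
    (pe_sector M i _ h) (pe_sector_rot M i k h) (fun _ _ => EventuallyEq.rfl)

theorem pe_sep (k k' : Fin M.d) (hkk : k ≠ k') :
    ∃ h, ¬ (pe M i k h =ᶠ[𝓝[≠] 0] pe M i k' h) := by
  obtain ⟨h, hh⟩ := M.ev_separated k k' hkk M.z₀ M.z₀_mem_U₀
  refine ⟨h, fun hcon => ?_⟩
  obtain ⟨z, hz, hzeq⟩ := pe_transfer_conv M i (pe_sector M i k h) (pe_sector M i k' h) hcon
  exact not_eventuallyEq_of_isPreconnected (isPreconnected_U₀ _) (M.ev_meromorphicOn k h)
    (M.ev_meromorphicOn k' h) M.z₀_mem_U₀ hz hh (hzeq.filter_mono nhdsWithin_le_nhds)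

/-! ### Permutation bookkeeping -/

theorem minimalPeriod_inv_perm {α : Type*} (σ : Equiv.Perm α) (k : α) :
    Function.minimalPeriod (⇑σ⁻¹) k = Function.minimalPeriod (⇑σ) k := by
  rw [Function.minimalPeriod_eq_minimalPeriod_iff]
  intro n
  unfold Function.IsPeriodicPt Function.IsFixedPt
  rw [Equiv.Perm.iterate_eq_pow, Equiv.Perm.iterate_eq_pow, inv_pow, Equiv.Perm.inv_eq_iff_eq]
  exact eq_comm

theorem inv_pow_eq_pow {G : Type*} [Group G] (g : G) (hg : 0 < orderOf g) (n : ℕ) :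
    g⁻¹ ^ n = g ^ ((orderOf g - 1) * n) := by
  have h1 : g ^ (orderOf g - 1) = g⁻¹ := by
    apply eq_inv_of_mul_eq_one_left
    rw [← pow_succ, Nat.sub_add_cancel hg, pow_orderOf_eq_one]
  rw [pow_mul, h1]

/-! ### The places over a bad point -/

/-- two meromorphic germs with the same first sector agree -/
theorem eq_puis_of_sector (k : Fin M.d) (h : F) {H : ℂ → ℂ} (hH : MeromorphicAt H 0)
    (hsec : ∀ j : ℕ, ∀ᶠ s in 𝓝[≠] (0 : ℂ),
      s ∈ sector (2 * Real.pi * j / Function.minimalPeriod (M.σ i) k)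
          (2 * Real.pi * (j + 1) / Function.minimalPeriod (M.σ i) k) →
        H s = M.ev (((M.σ i)⁻¹ ^ j) k) h
          (M.b i + s ^ Function.minimalPeriod (M.σ i) k * unitDir M.z₀ (M.b i))) :
    H =ᶠ[𝓝[≠] 0] puis M i k h := by
  have he : (0 : ℝ) < per M i k := by exact_mod_cast per_pos M i k
  refine eventuallyEq_of_open
    (S := sector (2 * Real.pi * (0 : ℕ) / per M i k) (2 * Real.pi * ((0 : ℕ) + 1) / per M i k))
    (E := puis M i k h) (isOpen_sector _ _) ?_ hH (puis_mero M i k h) ?_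
    (fun _ _ => EventuallyEq.rfl)
  · apply frequently_mem_sector_zero
    simp only [Nat.cast_zero, mul_zero, zero_div, zero_add, mul_one]
    positivity
  · filter_upwards [hsec 0, puis_spec M i k h 0] with s hs1 hs2 hs
    rw [hs1 hs, hs2 hs]
    rfl

theorem exists_places (hD : DictStatement) : ∃ W : Fin M.d → Place ℂ F,
    (∀ (k : Fin M.d) (h : F), h ≠ 0 → ∀ H : ℂ → ℂ, MeromorphicAt H 0 →
      (∀ j : ℕ, ∀ᶠ s in 𝓝[≠] (0 : ℂ),
          s ∈ sector (2 * Real.pi * j / Function.minimalPeriod (M.σ i) k)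
              (2 * Real.pi * (j + 1) / Function.minimalPeriod (M.σ i) k) →
            H s = M.ev (((M.σ i)⁻¹ ^ j) k) h
              (M.b i + s ^ Function.minimalPeriod (M.σ i) k * unitDir M.z₀ (M.b i))) →
      ((W k).ord h : WithTop ℤ) = meromorphicOrderAt H 0) ∧
    (∀ k, W (M.σ i k) = W k) ∧
    (∀ P : Place ℂ F, 0 < P.ord (M.x - algebraMap ℂ F (M.b i)) → ∃ k, P = W k) ∧
    (∀ k k', W k = W k' → ∃ j : ℕ, ((M.σ i) ^ j) k = k') := by
  have hu : unitDir M.z₀ (M.b i) ≠ 0 := unitDir_ne_zero (M.b_ne i)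
  have hτord : meromorphicOrderAt
      (fun s : ℂ => M.b i + s ^ bigE M i * unitDir M.z₀ (M.b i) - M.b i) 0 =
        ((bigE M i : ℤ) : WithTop ℤ) := by
    rw [order_puiseux (M.b i) (M.b i) _ hu (bigE M i) (bigE_pos M i), if_pos rfl]
  have hπE : ((M.σ i)⁻¹) ^ bigE M i = 1 := by
    rw [inv_pow]
    unfold bigE
    rw [pow_orderOf_eq_one, inv_one]
  obtain ⟨W, hW1, -, hW3, hW4⟩ := places_of_germs hD (M.xsub (M.b i))
    (M.xsub_transcendental _) (M.xsub_finite _) 0 M.d (M.d_eq_xsub _) (pe M i) (pe_mero M i)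
    (pe_add M i) (pe_mul M i) (pe_const M i) (pe_sep M i) (bigE M i) (bigE_pos M i)
    (fun s : ℂ => M.b i + s ^ bigE M i * unitDir M.z₀ (M.b i) - M.b i) (pe_xsub M i) hτord
    ((M.σ i)⁻¹) hπE (zeta M i) (zeta_isPrimitiveRoot M i) (pe_rot M i)
  refine ⟨W, ?_, ?_, ?_, ?_⟩
  · intro k h hh H hH hsec
    have h1 := hW1 k h hh
    rw [minimalPeriod_inv_perm] at h1
    have h2 : meromorphicOrderAt (pe M i k h) 0 =
        meromorphicOrderAt (puis M i k h) 0 * ((mlt M i k : ℤ) : WithTop ℤ) :=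
      order_comp_pow (puis_mero M i k h) (mlt_pos M i k)
    rw [h2] at h1
    have h3 : meromorphicOrderAt H 0 = meromorphicOrderAt (puis M i k h) 0 :=
      meromorphicOrderAt_congr (eq_puis_of_sector M i k h hH hsec)
    rw [h3]
    have hm0 : (mlt M i k : ℤ) ≠ 0 := by exact_mod_cast (mlt_pos M i k).ne'
    rcases eq_or_ne (meromorphicOrderAt (puis M i k h) 0) ⊤ with htop | hfin
    · exfalso
      rw [htop, WithTop.top_mul (by exact_mod_cast hm0)] at h1
      exact WithTop.top_ne_coe h1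
    · obtain ⟨n, hn⟩ := WithTop.ne_top_iff_exists.mp hfin
      rw [← hn] at h1 ⊢
      rw [← WithTop.coe_mul, WithTop.coe_eq_coe] at h1
      have h4 : (mlt M i k : ℤ) * n = (mlt M i k : ℤ) * (W k).ord h := by
        rw [mul_comm, h1]
        rfl
      have h5 := mul_left_cancel₀ hm0 h4
      rw [h5]
  · intro k
    refine (hW4 _ _).2 ⟨1, ?_⟩
    simp
  · intro P hP
    obtain ⟨k, hk⟩ := hW3 P hP
    exact ⟨k, hk.symm⟩
  · intro k k' hkk
    obtain ⟨n, hn⟩ := (hW4 k k').1 hkk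
    refine ⟨(orderOf (M.σ i) - 1) * n, ?_⟩
    rw [← inv_pow_eq_pow (M.σ i) (orderOf_pos _)]
    exact hn

/-- **[MOD-PL-BAD]** -/
theorem badPlacesStatement : BadPlacesStatement := by
  intro hD F _ _ M
  choose W hW using fun i : Fin M.r => exists_places M i hD
  exact ⟨W, fun i k h hh H hH hsec => (hW i).1 k h hh H hH hsec, fun i k => (hW i).2.1 k,
    fun i P hP => (hW i).2.2.1 P hP, fun i k k' hkk => (hW i).2.2.2 k k' hkk⟩

end

end Fermat.Agent.P5.helper86.Bad
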