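import Fermat.Agent.P5.helper88_PlInfGeom
import Fermat.Agent.P5.helper37_ModStatements
import Fermat.Agent.S24.helper99_Germ
import Fermat.Agent.S24.helper55_RH

/-!
# P5 / MOD-PL-INF (helper88, task 654): the places at infinity of a sheet model

`infPlacesStatement : InfPlacesStatement` : from the abstract dictionary `DictStatement`, applied
to `L = MeroGerm 0` (variable `w`, `z = z₀ + w⁻¹`), `t = (x - z₀)⁻¹`, `E = 1`, `π = 1` and the
embeddings `infHom M k : F →+* MeroGerm 0`, `h ↦ [H_(k,h)]` (`H` from `M.atInf k h`).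
-/

set_option autoImplicit false

open Filter Topology AlgebraicCurve

namespace Fermat.Agent.P5.helper88

open Fermat.Agent.P5.helper25 Fermat.Agent.P5.helper4 Fermat.Agent.P5.helper37
open Fermat.Agent.S24.helper99 Fermat.Agent.S24

noncomputable section

variable {F : Type} [Field F] [Algebra ℂ F] (M : SheetModel F)

/-! ### The last sector -/

/-- the index of the last sector of a sheet model -/
abbrev lastI : Fin M.r := lastIdx M.toCutGeometry M.r_pos

theorem take_lastI_prod : ((List.ofFn M.σ).take ((lastI M : ℕ) + 1)).prod = 1 := by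
  have h : ((lastI M : Fin M.r) : ℕ) + 1 = M.r := by
    have := M.r_pos
    simp only [lastI, lastIdx]
    omega
  rw [h, List.take_of_length_le (by simp), M.prod_σ]

/-- the sector property of `M.atInf`, on the last sector only -/
def IsInfFun (E H : ℂ → ℂ) : Prop :=
  ∀ᶠ w in 𝓝[≠] (0 : ℂ), w⁻¹ ∈ M.toCutGeometry.sectorInf (lastI M) → H w = E (M.z₀ + w⁻¹)

theorem isInfFun_of_sector {k : Fin M.d} {h : F} {H : ℂ → ℂ}
    (hsec : ∀ i : Fin M.r, ∀ᶠ w in 𝓝[≠] (0 : ℂ), w⁻¹ ∈ M.toCutGeometry.sectorInf i →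
      H w = M.ev ((((List.ofFn M.σ).take (i + 1)).prod)⁻¹ k) h (M.z₀ + w⁻¹)) :
    IsInfFun M (M.ev k h) H := by
  have h1 := hsec (lastI M)
  rw [take_lastI_prod] at h1
  unfold IsInfFun
  simpa using h1

/-! ### The embeddings -/

/-- the chosen parametrisation at infinity -/
def infFun (k : Fin M.d) (h : F) : ℂ → ℂ := Classical.choose (M.atInf k h)

theorem infFun_meromorphicAt (k : Fin M.d) (h : F) : MeromorphicAt (infFun M k h) 0 :=
  (Classical.choose_spec (M.atInf k h)).1

theorem infFun_isInfFun (k : Fin M.d) (h : F) : IsInfFun M (M.ev k h) (infFun M k h) :=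
  isInfFun_of_sector M (Classical.choose_spec (M.atInf k h)).2

/-- the germ at infinity of `h` on the sheet `k` -/
def infGerm (k : Fin M.d) (h : F) : MeroGerm (0 : ℂ) :=
  MeroGerm.mk (infFun M k h) (infFun_meromorphicAt M k h)

/-- uniqueness of the germ -/
theorem mk_eq_infGerm (k : Fin M.d) (h : F) {H E : ℂ → ℂ} (hH : MeromorphicAt H 0)
    (hsec : IsInfFun M E H) (hE : ∀ z ∈ M.toCutGeometry.U₀, E =ᶠ[𝓝[≠] z] M.ev k h) :
    MeroGerm.mk H hH = infGerm M k h :=
  MeroGerm.mk_eq_mk_iff.2
    (plInf_eventuallyEq M.toCutGeometry M.r_pos hH (infFun_meromorphicAt M k h) hsec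
      (infFun_isInfFun M k h) hE)

theorem eventually_mem_U₀ {z : ℂ} (hz : z ∈ M.toCutGeometry.U₀) :
    ∀ᶠ w in 𝓝[≠] z, w ∈ M.toCutGeometry.U₀ :=
  nhdsWithin_le_nhds ((CutGeom.isOpen_U₀ _).mem_nhds hz)

theorem infGerm_algebraMap (k : Fin M.d) (c : ℂ) :
    infGerm M k (algebraMap ℂ F c) = MeroGerm.const 0 c := by
  refine (mk_eq_infGerm M k _ (E := fun _ => c) (MeromorphicAt.const c 0)
    (Eventually.of_forall fun w _ => rfl) ?_).symm
  intro z hz
  filter_upwards [eventually_mem_U₀ M hz] with w hw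
  exact (M.ev_algebraMap k c hw).symm

theorem infGerm_add (k : Fin M.d) (h₁ h₂ : F) :
    infGerm M k (h₁ + h₂) = infGerm M k h₁ + infGerm M k h₂ := by
  refine (mk_eq_infGerm M k _ (E := fun z => M.ev k h₁ z + M.ev k h₂ z)
    ((infFun_meromorphicAt M k h₁).add (infFun_meromorphicAt M k h₂)) ?_ ?_).symm
  · filter_upwards [infFun_isInfFun M k h₁, infFun_isInfFun M k h₂] with w hw1 hw2 hw
    simp only [Pi.add_apply, hw1 hw, hw2 hw]
  · intro z hz
    exact (M.ev_add k h₁ h₂ z hz).symm

theorem infGerm_mul (k : Fin M.d) (h₁ h₂ : F) :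
    infGerm M k (h₁ * h₂) = infGerm M k h₁ * infGerm M k h₂ := by
  refine (mk_eq_infGerm M k _ (E := fun z => M.ev k h₁ z * M.ev k h₂ z)
    ((infFun_meromorphicAt M k h₁).mul (infFun_meromorphicAt M k h₂)) ?_ ?_).symm
  · filter_upwards [infFun_isInfFun M k h₁, infFun_isInfFun M k h₂] with w hw1 hw2 hw
    simp only [Pi.mul_apply, hw1 hw, hw2 hw]
  · intro z hz
    exact (M.ev_mul k h₁ h₂ z hz).symm

/-- the embedding of `F` into the germs at infinity along the sheet `k` -/
def infHom (k : Fin M.d) : F →+* MeroGerm (0 : ℂ) where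
  toFun := infGerm M k
  map_one' := by
    have h := infGerm_algebraMap M k 1
    rw [map_one] at h
    exact h
  map_mul' := infGerm_mul M k
  map_zero' := by
    have h := infGerm_algebraMap M k 0
    rw [map_zero] at h
    exact h
  map_add' := infGerm_add M k

theorem infHom_apply (k : Fin M.d) (h : F) : infHom M k h = infGerm M k h := rfl

theorem infHom_algebraMap (k : Fin M.d) (c : ℂ) :
    infHom M k (algebraMap ℂ F c) = MeroGerm.const 0 c := infGerm_algebraMap M k c

/-- the sheets are different embeddings -/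
theorem infHom_injective : Function.Injective (infHom M) := by
  intro k k' hkk'
  by_contra hne
  obtain ⟨h, hh⟩ := M.ev_separated k k' hne M.z₀ (plInf_z₀_mem_U₀ M.toCutGeometry)
  apply hh
  have h1 : infGerm M k h = infGerm M k' h := by
    rw [← infHom_apply, ← infHom_apply, hkk']
  have h2 : infFun M k h =ᶠ[𝓝[≠] 0] infFun M k' h := MeroGerm.mk_eq_mk_iff.1 h1
  exact plInf_eventuallyEq_of_germ M.toCutGeometry M.r_pos (M.ev_meromorphicOn k h)
    (M.ev_meromorphicOn k' h) (infFun_isInfFun M k h) (infFun_isInfFun M k' h) h2 M.z₀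
    (plInf_z₀_mem_U₀ M.toCutGeometry)

/-! ### The parameter at infinity -/

/-- the function `x - z₀` -/
def xz : F := M.x - algebraMap ℂ F M.z₀

/-- the parameter `t = (x - z₀)⁻¹` at infinity -/
def tInf : F := (xz M)⁻¹

theorem ev_xz (k : Fin M.d) {z : ℂ} (hz : z ∈ M.toCutGeometry.U₀) :
    M.ev k (xz M) =ᶠ[𝓝[≠] z] fun w => w - M.z₀ := by
  have h1 : xz M = M.x + algebraMap ℂ F (-M.z₀) := by
    simp [xz, sub_eq_add_neg]
  rw [h1]
  filter_upwards [M.ev_add k M.x (algebraMap ℂ F (-M.z₀)) z hz, eventually_mem_U₀ M hz]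
    with w hw hwU
  rw [hw, M.ev_x k hwU, M.ev_algebraMap k (-M.z₀) hwU]
  simp [sub_eq_add_neg]

theorem infHom_xz (k : Fin M.d) :
    infHom M k (xz M) =
      (MeroGerm.mk (fun w : ℂ => w - 0) MeroGerm.meromorphicAt_sub_const)⁻¹ := by
  rw [← MeroGerm.mk_inv]
  refine (mk_eq_infGerm M k _ (E := fun z => z - M.z₀) _ ?_ ?_).symm
  · refine Eventually.of_forall fun w _ => ?_
    simp
  · intro z hz
    exact (ev_xz M k hz).symm

theorem infHom_tInf (k : Fin M.d) :
    infHom M k (tInf M) = MeroGerm.mk (fun w : ℂ => w - 0) MeroGerm.meromorphicAt_sub_const := by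
  rw [tInf, map_inv₀, infHom_xz, inv_inv]

theorem transcendental_tInf : Transcendental ℂ (tInf M) :=
  helper55.transcendental_inv (helper55.transcendental_sub_algebraMap M.x_transcendental M.z₀)

theorem adjoin_tInf :
    IntermediateField.adjoin ℂ {tInf M} = IntermediateField.adjoin ℂ {M.x} := by
  rw [tInf, helper55.adjoin_inv_eq, xz, helper55.adjoin_sub_algebraMap_eq]

theorem finiteDimensional_tInf : FiniteDimensional (IntermediateField.adjoin ℂ {tInf M}) F := by
  rw [adjoin_tInf]
  exact M.x_finite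

theorem d_eq_finrank_tInf :
    M.d = Module.finrank (IntermediateField.adjoin ℂ {tInf M}) F := by
  rw [adjoin_tInf]
  exact M.d_eq

/-- a pole of `x` is a zero of `t` -/
theorem ord_tInf_pos {P : Place ℂ F} (hP : P.ord M.x < 0) : 0 < P.ord (tInf M) := by
  have hx : M.x ≠ 0 := helper55.ne_zero_of_ord_neg P hP
  have h1 : 1 < P.adicValuation M.x := (helper55.ord_neg_iff P hx).1 hP
  have h2 : P.adicValuation (algebraMap ℂ F M.z₀) ≤ 1 := helper55.adicValuation_algebraMap_le P _
  have h3 : P.adicValuation (xz M) = P.adicValuation M.x :=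
    Valuation.map_sub_eq_of_lt_left _ (lt_of_le_of_lt h2 h1)
  have hxz : xz M ≠ 0 := by
    intro h0
    rw [h0, map_zero] at h3
    rw [← h3] at h1
    exact absurd h1 (by simp)
  have h4 : P.ord (xz M) < 0 := by
    rw [helper55.ord_neg_iff P hxz, h3]
    exact h1
  rw [tInf, Place.ord_inv]
  omega

/-! ### The places at infinity -/

/-- **[MOD-PL-INF]** -/
theorem infPlacesStatement : InfPlacesStatement := by
  intro hDict F _ _ M
  obtain ⟨W, hW1, -, hW3, hW4⟩ := hDict F (MeroGerm (0 : ℂ)) (tInf M) (transcendental_tInf M)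
    (finiteDimensional_tInf M) (MeroGerm.V 0) M.d (infHom M) (infHom_injective M)
    (d_eq_finrank_tInf M)
    (fun i c hc => by rw [infHom_algebraMap]; exact MeroGerm.V_const hc)
    (fun i j c => by rw [infHom_algebraMap, infHom_algebraMap])
    (fun i j => by rw [infHom_tInf, infHom_tInf])
    1 one_pos
    (fun i => by rw [infHom_tInf]; exact MeroGerm.V_mk_sub_const)
    1 (one_pow 1) (fun i f => rfl)
    (fun i k hk _ f hf => by
      obtain ⟨n, hn⟩ := MeroGerm.exists_int_V_eq
        (a := infHom M i f) ((map_ne_zero (infHom M i)).2 hf)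
      have hk1 : k = 1 := Nat.dvd_one.1 hk
      refine ⟨n, ?_⟩
      rw [hn, hk1]
      simp)
  have hper : ∀ i : Fin M.d, Function.minimalPeriod (⇑(1 : Equiv.Perm (Fin M.d))) i = 1 := by
    intro i
    rw [Equiv.Perm.coe_one]
    exact Function.minimalPeriod_id
  refine ⟨W, ?_, ?_, ?_⟩
  · intro k h hh H hH hsec
    have h1 : MeroGerm.mk H hH = infHom M k h :=
      mk_eq_infGerm M k h hH (isInfFun_of_sector M hsec) (fun z _ => EventuallyEq.rfl)
    have hne : MeroGerm.mk H hH ≠ 0 := by
      rw [h1]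
      exact (map_ne_zero (infHom M k)).2 hh
    have htop : meromorphicOrderAt H 0 ≠ ⊤ := fun h0 => hne (MeroGerm.mk_eq_zero_iff_order.2 h0)
    obtain ⟨n, hn⟩ := WithTop.ne_top_iff_exists.1 htop
    have h2 := hW1 k h hh
    rw [← h1, MeroGerm.V_mk_of_order_eq hH hn.symm, hper] at h2
    have h3 : -n = -(((1 / 1 : ℕ) : ℤ) * (W k).ord h) := WithZero.exp_injective h2
    have h4 : (W k).ord h = n := by
      simp at h3
      omega
    rw [h4, hn]
  · intro P hP
    obtain ⟨i, hi⟩ := hW3 P (ord_tInf_pos M hP)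
    exact ⟨i, hi.symm⟩
  · intro i j hij
    obtain ⟨n, hn⟩ := (hW4 i j).1 hij
    simpa using hn

end

end Fermat.Agent.P5.helper88
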