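/-
P5 / S27 (helper25, architect): FINAL WIRING of program P5.

All modules are on main and unconditional:

* RR    `helper42.rrConStatement`, `helper42.rrSurjStatement`, `helper42.b1Statement'`
* MONO  `helper27.monoPackages`, `helper27.addPeriodExists`, `helper27.addCocycle`,
        `helper27.addKernel`
* SURJ  `helper52.algFamilyStatement` (FAM-ALG), `helper25.familyStatement_of_alg` (FAM-AN),
        `helper12.holPeriods` (HOL), `helper53.surjAt_of_addKernel` (IND + assembly)
* COMB  `helper56.combTorsion`, `helper56.combDivisible`
* MOD   `helper37.existsCutModel_of_pending7` + the seven packages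
* LEF   `helper99.existsComplexModel_uncond`, `helper99.existsCountableModel_uncond`
-/
import Mathlib
import Fermat.Agent.P5.helper25_CNT
import Fermat.Agent.P5.helper25_RHInterface
import Fermat.Agent.P5.helper25_FamFinal
import Fermat.Agent.P5.helper42_RRFinal
import Fermat.Agent.P5.helper27_Mono
import Fermat.Agent.P5.helper27_AddFinal
import Fermat.Agent.P5.helper27_AddPeriod
import Fermat.Agent.P5.helper52_FamAlg
import Fermat.Agent.P5.helper12_SurjHol2
import Fermat.Agent.P5.helper53_SurjInd
import Fermat.Agent.P5.helper56_CombTorsion
import Fermat.Agent.P5.helper56_CombExp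
import Fermat.Agent.P5.helper37_ModFinal
import Fermat.Agent.P5.helper54_Puis
import Fermat.Agent.P5.helper26_Inf
import Fermat.Agent.P5.helper13_PlRay
import Fermat.Agent.P5.helper86_PlBad
import Fermat.Agent.P5.helper88_PlInf
import Fermat.Agent.P5.helper37_Rat
import Fermat.Agent.P5.helper64_Glue
import Fermat.Agent.LEF.helper99_P5Uncond

set_option autoImplicit false

namespace Fermat.Agent.P5.helper25

open AlgebraicCurve

universe u v

/-- **[MOD]** every function field of a curve over `ℂ` has a cut model. -/
theorem existsCutModel_final : ExistsCutModel :=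
  Fermat.Agent.P5.helper37.existsCutModel_of_pending7
    (Fermat.Agent.P5.helper54.puisStatement Fermat.Agent.P5.helper56.branchStatement)
    Fermat.Agent.P5.helper26.infStatement
    Fermat.Agent.P5.helper13.rayPlacesStatement
    Fermat.Agent.P5.helper86.Bad.badPlacesStatement
    Fermat.Agent.P5.helper88.infPlacesStatement
    Fermat.Agent.P5.helper37.ratStatement
    Fermat.Agent.P5.helper64.glueStatement

/-- **[SURJ]** every multiplicative cocycle is the monodromy of a differential of `T₀`. -/
theorem surjStatement_final : SurjStatement := fun F _ _ _ _ M =>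
  Fermat.Agent.P5.helper53.surjAt_of_addKernel M
    (Fermat.Agent.P5.helper42.rrConStatement F)
    (Fermat.Agent.P5.helper42.rrSurjStatement F)
    (Fermat.Agent.P5.helper27.monoPackages M)
    (Fermat.Agent.P5.helper27.addKernel M)
    (Fermat.Agent.P5.helper12.holPeriods M (Fermat.Agent.P5.helper27.addPeriodExists M)
      (Fermat.Agent.P5.helper27.addCocycle M))
    (familyStatement_of_alg M (Fermat.Agent.P5.helper42.rrConStatement F)
      (Fermat.Agent.P5.helper27.monoPackages M) (Fermat.Agent.P5.helper27.addPeriodExists M)
      (Fermat.Agent.P5.helper52.algFamilyStatement M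
        (Fermat.Agent.P5.helper42.rrSurjStatement F)))
    (Fermat.Agent.P5.helper42.b1Statement' F M)

/-- **[RH]** the Riemann-Hilbert dictionary `Pic⁰ ≃ H¹(P, ℂˣ)`. -/
theorem rhStatement_final : RHStatement :=
  rhStatement_of_modules Fermat.Agent.P5.helper42.rrConStatement
    Fermat.Agent.P5.helper27.monoStatement surjStatement_final

/-- **S27**, from the modules of program P5. -/
theorem s27_final (K : Type u) (F : Type v) [Field K] [Field F] [Algebra K F] [IsAlgClosed K]
    [CharZero K] [IsCurveOver K F] [Algebra.EssFiniteType K F]
    (ℓ : ℕ) [Fact ℓ.Prime] (k : ℕ) :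
    Nat.card (Pic0.torsion K F (ℓ ^ k)) = ℓ ^ (2 * genusFF K F * k) :=
  s27_of_modules existsCutModel_final rhStatement_final Fermat.Agent.P5.helper42.b1Statement'
    Fermat.Agent.P5.helper56.combTorsion Fermat.Agent.P5.helper56.combDivisible
    Fermat.Agent.P5.helper42.rrConStatement
    Fermat.Agent.LEF.helper99.existsComplexModel_uncond
    Fermat.Agent.LEF.helper99.existsCountableModel_uncond K F ℓ k

end Fermat.Agent.P5.helper25
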