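import Fermat.Agent.P5.helper38_CutStar

/-!
# P5 / MOD-INF (helper26, task 599): geometry of the sectors at infinity

* `θnext G i` : the upper angle of the `i`-th sector at infinity, `sectorInf_eq`;
* `predIdx G i` : the index of the sector on the right of the `i`-th ray;
* `mem_U₀_of_sub_mem_sectorInf` : the sectors at infinity (translated to `z₀`) lie in the cut plane;
* `farSector G i R` : the part `‖z - z₀‖ > R` of the `i`-th sector; it is preconnected;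
* `eventually_leftSide_mem_farSector`, `eventually_rightSide_mem_farSector` : near a far point of
  the `i`-th open ray the left side lies in the `i`-th sector and the right side in the
  preceding one.
-/

set_option autoImplicit false

open Filter Topology Complex

namespace Fermat.Agent.P5.helper26

open Fermat.Agent.P5.helper25 Fermat.Agent.P5.helper4 Fermat.Agent.P5.helper38

/-! ### sectors -/

theorem sector_mono {φ₁ φ₂ ψ₁ ψ₂ : ℝ} (h1 : ψ₁ ≤ φ₁) (h2 : φ₂ ≤ ψ₂) :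
    sector φ₁ φ₂ ⊆ sector ψ₁ ψ₂ := by
  rintro s ⟨ρ, φ, hρ, hφ1, hφ2, rfl⟩
  exact ⟨ρ, φ, hρ, lt_of_le_of_lt h1 hφ1, lt_of_lt_of_le hφ2 h2, rfl⟩

/-- a point `ρ e^{iθ} u` with `φ₁ < θ + arg u < φ₂` lies in the sector -/
theorem mem_sector_of_mul {φ₁ φ₂ θ ρ : ℝ} {u : ℂ} (hρ : 0 < ρ) (hu : u ≠ 0)
    (h1 : φ₁ < θ + arg u) (h2 : θ + arg u < φ₂) :
    (ρ : ℂ) * exp ((θ : ℂ) * I) * u ∈ sector φ₁ φ₂ := by
  refine ⟨ρ * ‖u‖, θ + arg u, mul_pos hρ (norm_pos_iff.2 hu), h1, h2, ?_⟩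
  have h := Complex.norm_mul_exp_arg_mul_I u
  nth_rewrite 1 [← h]
  push_cast
  rw [add_mul, Complex.exp_add]
  ring

theorem norm_of_polar {ρ φ : ℝ} (hρ : 0 < ρ) : ‖(ρ : ℂ) * exp ((φ : ℂ) * I)‖ = ρ := by
  rw [norm_mul, Complex.norm_exp_ofReal_mul_I, mul_one, Complex.norm_real,
    Real.norm_of_nonneg hρ.le]

/-! ### the angles of the sectors at infinity -/

section Angles

variable (G : CutGeometry)

/-- the upper angle of the `i`-th sector at infinity -/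
noncomputable def θnext (i : Fin G.r) : ℝ :=
  if h : (i : ℕ) + 1 < G.r then G.θ ⟨i + 1, h⟩
  else G.θ ⟨0, Nat.pos_of_ne_zero (fun h0 => (Fin.pos i).ne' h0)⟩ + 2 * Real.pi

theorem sectorInf_eq (i : Fin G.r) : G.sectorInf i = sector (G.θ i) (θnext G i) := by
  unfold CutGeometry.sectorInf θnext
  split_ifs <;> rfl

theorem θ_zero_le (i : Fin G.r) :
    G.θ ⟨0, Nat.pos_of_ne_zero (fun h0 => (Fin.pos i).ne' h0)⟩ ≤ G.θ i :=
  (CutGeom.θ_strictMono G).monotone (Fin.mk_le_of_le_val (Nat.zero_le _))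

theorem θ_lt_θnext (i : Fin G.r) : G.θ i < θnext G i := by
  unfold θnext
  split_ifs with h
  · exact CutGeom.θ_strictMono G (Fin.lt_def.2 (by simp))
  · have h1 := (CutGeom.θ_mem G i).2
    have h2 := (CutGeom.θ_mem G ⟨0, Nat.pos_of_ne_zero (fun h0 => (Fin.pos i).ne' h0)⟩).1
    linarith

theorem θnext_le (i : Fin G.r) :
    θnext G i ≤ G.θ ⟨0, Nat.pos_of_ne_zero (fun h0 => (Fin.pos i).ne' h0)⟩ + 2 * Real.pi := by
  unfold θnext
  split_ifs with h
  · have h1 := (CutGeom.θ_mem G ⟨i + 1, h⟩).2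
    have h2 := (CutGeom.θ_mem G ⟨0, Nat.pos_of_ne_zero (fun h0 => (Fin.pos i).ne' h0)⟩).1
    linarith
  · exact le_rfl

theorem θnext_le_θ {i j : Fin G.r} (hij : i < j) : θnext G i ≤ G.θ j := by
  have h : (i : ℕ) + 1 < G.r := lt_of_le_of_lt (Nat.succ_le_of_lt (Fin.lt_def.1 hij)) j.2
  unfold θnext
  rw [dif_pos h]
  exact (CutGeom.θ_strictMono G).monotone (Fin.le_def.2 (Nat.succ_le_of_lt (Fin.lt_def.1 hij)))

/-- the sectors at infinity, translated to `z₀`, lie in the cut plane -/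
theorem mem_U₀_of_sub_mem_sectorInf {i : Fin G.r} {z : ℂ} (hz : z - G.z₀ ∈ G.sectorInf i) :
    z ∈ G.U₀ := by
  intro j hj
  rw [sectorInf_eq] at hz
  obtain ⟨ρ, φ, hρ, hφ1, hφ2, hzeq⟩ := hz
  obtain ⟨R, hR, h1⟩ := exists_of_mem_ray (G.b_ne j) hj
  rw [hzeq] at h1
  obtain ⟨n, hn⟩ := exists_int_of_polar_eq hρ hR h1
  change φ - G.θ j = n * (2 * Real.pi) at hn
  have hj1 := (CutGeom.θ_mem G j).1
  have hj2 := (CutGeom.θ_mem G j).2
  have hi1 := (CutGeom.θ_mem G i).1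
  rcases le_or_gt j i with hji | hji
  · have h2 : G.θ j ≤ G.θ i := (CutGeom.θ_strictMono G).monotone hji
    have h3 := θnext_le G i
    have h4 := θ_zero_le G j
    have h5 : G.θ ⟨0, Nat.pos_of_ne_zero (fun h0 => (Fin.pos i).ne' h0)⟩ =
        G.θ ⟨0, Nat.pos_of_ne_zero (fun h0 => (Fin.pos j).ne' h0)⟩ := rfl
    refine no_int_between (x := φ - G.θ j) (by linarith) (by linarith) ⟨n, hn⟩
  · have h2 := θnext_le_θ G hji
    refine no_int_between (x := G.θ j - φ) (by linarith) (by linarith) ⟨-n, ?_⟩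
    push_cast
    linarith

/-- the index of the sector on the right of the `i`-th ray -/
def predIdx (i : Fin G.r) : Fin G.r :=
  if (i : ℕ) = 0 then ⟨G.r - 1, Nat.sub_lt (Nat.pos_of_ne_zero (fun h0 => (Fin.pos i).ne' h0))
    Nat.one_pos⟩
  else ⟨i - 1, lt_of_le_of_lt (Nat.sub_le _ _) i.2⟩

theorem predIdx_val_of_pos {i : Fin G.r} (h : (i : ℕ) ≠ 0) : (predIdx G i : ℕ) = i - 1 := by
  unfold predIdx
  rw [if_neg h]

theorem predIdx_val_of_zero {i : Fin G.r} (h : (i : ℕ) = 0) : (predIdx G i : ℕ) = G.r - 1 := by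
  unfold predIdx
  rw [if_pos h]

/-- the upper angle of the preceding sector is the angle of the `i`-th ray, modulo `2π` -/
theorem exp_θnext_predIdx (i : Fin G.r) :
    exp ((θnext G (predIdx G i) : ℂ) * I) = exp ((G.θ i : ℂ) * I) := by
  by_cases h : (i : ℕ) = 0
  · have h1 : ¬ ((predIdx G i : ℕ) + 1 < G.r) := by
      rw [predIdx_val_of_zero G h]
      have := i.2
      omega
    unfold θnext
    rw [dif_neg h1]
    have h2 : (⟨0, Nat.pos_of_ne_zero (fun h0 => (Fin.pos (predIdx G i)).ne' h0)⟩ : Fin G.r) = i :=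
      Fin.ext h.symm
    rw [h2]
    push_cast
    rw [add_mul, Complex.exp_add, Complex.exp_two_pi_mul_I, mul_one]
  · have h1 : (predIdx G i : ℕ) + 1 < G.r := by
      rw [predIdx_val_of_pos G h]
      have := i.2
      omega
    unfold θnext
    rw [dif_pos h1]
    have h2 : (⟨(predIdx G i : ℕ) + 1, h1⟩ : Fin G.r) = i := by
      apply Fin.ext
      simp only
      rw [predIdx_val_of_pos G h]
      omega
    rw [h2]

end Angles

/-! ### the far part of a sector -/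

section Far

variable (G : CutGeometry)

/-- the part `‖z - z₀‖ > R` of the `i`-th sector at infinity (translated to `z₀`) -/
def farSector (i : Fin G.r) (R : ℝ) : Set ℂ :=
  {z | z - G.z₀ ∈ G.sectorInf i ∧ R < ‖z - G.z₀‖}

theorem farSector_subset_U₀ (i : Fin G.r) (R : ℝ) : farSector G i R ⊆ G.U₀ :=
  fun _ hz => mem_U₀_of_sub_mem_sectorInf G hz.1

theorem farSector_eq_image (i : Fin G.r) {R : ℝ} (hR : 0 ≤ R) :
    farSector G i R = (fun p : ℝ × ℝ => G.z₀ + (p.1 : ℂ) * exp ((p.2 : ℂ) * I)) ''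
      (Set.Ioi R ×ˢ Set.Ioo (G.θ i) (θnext G i)) := by
  ext z
  constructor
  · rintro ⟨h1, h2⟩
    rw [sectorInf_eq] at h1
    obtain ⟨ρ, φ, hρ, hφ1, hφ2, hz⟩ := h1
    refine ⟨(ρ, φ), ⟨?_, hφ1, hφ2⟩, ?_⟩
    · rw [hz, norm_of_polar hρ] at h2
      exact h2
    · simp only
      rw [← hz]
      ring
  · rintro ⟨⟨ρ, φ⟩, ⟨hρ, hφ1, hφ2⟩, rfl⟩
    have hρ' : R < ρ := hρ
    have hρ0 : 0 < ρ := lt_of_le_of_lt hR hρ'
    simp only
    refine ⟨?_, ?_⟩
    · rw [sectorInf_eq, add_sub_cancel_left]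
      exact ⟨ρ, φ, hρ0, hφ1, hφ2, rfl⟩
    · rw [add_sub_cancel_left, norm_of_polar hρ0]
      exact hρ'

theorem isPreconnected_farSector (i : Fin G.r) {R : ℝ} (hR : 0 ≤ R) :
    IsPreconnected (farSector G i R) := by
  rw [farSector_eq_image G i hR]
  refine (isPreconnected_Ioi.prod isPreconnected_Ioo).image _ ?_
  exact (by fun_prop : Continuous fun p : ℝ × ℝ =>
    G.z₀ + (p.1 : ℂ) * exp ((p.2 : ℂ) * I)).continuousOn

theorem farSector_nonempty (i : Fin G.r) {R : ℝ} (hR : 0 ≤ R) : (farSector G i R).Nonempty := by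
  rw [farSector_eq_image G i hR]
  refine Set.Nonempty.image _ (Set.Nonempty.prod ⟨R + 1, ?_⟩ ?_)
  · show R < R + 1
    linarith
  · exact Set.nonempty_Ioo.2 (θ_lt_θnext G i)

/-- a point `z₀ + w⁻¹` with `w` small and `w⁻¹` in the `i`-th sector lies in the far sector -/
theorem inv_mem_farSector (i : Fin G.r) {R : ℝ} (hR : 0 < R) {w : ℂ} (hw0 : w ≠ 0)
    (hw : ‖w‖ < R⁻¹) (hsec : w⁻¹ ∈ G.sectorInf i) : G.z₀ + w⁻¹ ∈ farSector G i R := by
  refine ⟨by rwa [add_sub_cancel_left], ?_⟩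
  rw [add_sub_cancel_left, norm_inv]
  have h1 : 0 < ‖w‖ := norm_pos_iff.2 hw0
  rw [lt_inv_comm₀ hR h1]
  exact hw

end Far

/-! ### near a far point of a ray -/

section Sides

variable (G : CutGeometry)

/-- `z - z₀ = (b - z₀) (1 + rayCoord z)` in polar form -/
theorem sub_eq_polar_mul (i : Fin G.r) (z : ℂ) :
    z - G.z₀ = ((‖G.b i - G.z₀‖ : ℝ) : ℂ) * exp ((G.θ i : ℂ) * I) *
      (1 + rayCoord G.z₀ (G.b i) z) := by
  have hb' : G.b i - G.z₀ ≠ 0 := sub_ne_zero.2 (G.b_ne i)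
  have h : ((‖G.b i - G.z₀‖ : ℝ) : ℂ) * exp ((G.θ i : ℂ) * I) = G.b i - G.z₀ :=
    Complex.norm_mul_exp_arg_mul_I (G.b i - G.z₀)
  rw [h]
  unfold rayCoord
  field_simp
  ring

/-- near a point of the open ray the argument of `1 + rayCoord z` is small -/
theorem eventually_abs_arg_lt (i : Fin G.r) {a : ℂ} (ha : a ∈ openRay G.z₀ (G.b i)) {δ : ℝ}
    (hδ : 0 < δ) :
    ∀ᶠ z in 𝓝 a, 0 < (1 + rayCoord G.z₀ (G.b i) z).re ∧
      arg (1 + rayCoord G.z₀ (G.b i) z) ∈ Set.Ioo (-δ) δ := by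
  obtain ⟨h0, him⟩ := (mem_openRay_iff (G.b_ne i)).1 ha
  have hre : 0 < (1 + rayCoord G.z₀ (G.b i) a).re := by
    simp only [add_re, one_re]
    linarith
  have hcu : Continuous fun z => 1 + rayCoord G.z₀ (G.b i) z :=
    continuous_const.add (continuous_rayCoord _ _)
  have hslit : 1 + rayCoord G.z₀ (G.b i) a ∈ slitPlane := Or.inl hre
  have harg0 : arg (1 + rayCoord G.z₀ (G.b i) a) = 0 := by
    rw [Complex.arg_eq_zero_iff]
    refine ⟨hre.le, ?_⟩
    simp only [add_im, one_im, zero_add]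
    exact him
  have hc1 : ContinuousAt (fun z => arg (1 + rayCoord G.z₀ (G.b i) z)) a :=
    ContinuousAt.comp (f := fun z => 1 + rayCoord G.z₀ (G.b i) z) (g := arg)
      (Complex.continuousAt_arg hslit) hcu.continuousAt
  have hc2 : ContinuousAt (fun z => (1 + rayCoord G.z₀ (G.b i) z).re) a :=
    (Complex.continuous_re.comp hcu).continuousAt
  have h1 : ∀ᶠ z in 𝓝 a, arg (1 + rayCoord G.z₀ (G.b i) z) ∈ Set.Ioo (-δ) δ := by
    apply hc1.eventually
    show Set.Ioo (-δ) δ ∈ 𝓝 (arg (1 + rayCoord G.z₀ (G.b i) a))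
    rw [harg0]
    exact Ioo_mem_nhds (by linarith) hδ
  have h2 : ∀ᶠ z in 𝓝 a, 0 < (1 + rayCoord G.z₀ (G.b i) z).re :=
    hc2.eventually (lt_mem_nhds hre)
  exact h2.and h1

/-- near a point of the `i`-th open ray the left side lies in the `i`-th sector at infinity -/
theorem eventually_leftSide_mem_sectorInf (i : Fin G.r) {a : ℂ}
    (ha : a ∈ openRay G.z₀ (G.b i)) :
    ∀ᶠ z in 𝓝 a, z ∈ leftSide G.z₀ (G.b i) → z - G.z₀ ∈ G.sectorInf i := by
  have hδ : 0 < θnext G i - G.θ i := sub_pos.2 (θ_lt_θnext G i)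
  have hnorm : (0 : ℝ) < ‖G.b i - G.z₀‖ := norm_pos_iff.2 (sub_ne_zero.2 (G.b_ne i))
  filter_upwards [eventually_abs_arg_lt G i ha hδ] with z hz hl
  obtain ⟨hre, harg1, harg2⟩ := hz
  have him : 0 < (1 + rayCoord G.z₀ (G.b i) z).im := by
    simp only [add_im, one_im, zero_add]
    exact hl
  have hu0 : 1 + rayCoord G.z₀ (G.b i) z ≠ 0 := by
    intro h
    rw [h] at hre
    simp at hre
  have hargpos : 0 < arg (1 + rayCoord G.z₀ (G.b i) z) := by
    have h1 : 0 ≤ arg (1 + rayCoord G.z₀ (G.b i) z) := Complex.arg_nonneg_iff.2 him.le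
    rcases h1.lt_or_eq with h | h
    · exact h
    · exfalso
      have := (Complex.arg_eq_zero_iff.1 h.symm).2
      linarith
  rw [sectorInf_eq, sub_eq_polar_mul G i z]
  exact mem_sector_of_mul hnorm hu0 (by linarith) (by linarith)

/-- near a point of the `i`-th open ray the right side lies in the preceding sector at
infinity -/
theorem eventually_rightSide_mem_sectorInf (i : Fin G.r) {a : ℂ}
    (ha : a ∈ openRay G.z₀ (G.b i)) :
    ∀ᶠ z in 𝓝 a, z ∈ rightSide G.z₀ (G.b i) → z - G.z₀ ∈ G.sectorInf (predIdx G i) := by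
  have hδ : 0 < θnext G (predIdx G i) - G.θ (predIdx G i) :=
    sub_pos.2 (θ_lt_θnext G (predIdx G i))
  have hnorm : (0 : ℝ) < ‖G.b i - G.z₀‖ := norm_pos_iff.2 (sub_ne_zero.2 (G.b_ne i))
  filter_upwards [eventually_abs_arg_lt G i ha hδ] with z hz hl
  obtain ⟨hre, harg1, harg2⟩ := hz
  have him : (1 + rayCoord G.z₀ (G.b i) z).im < 0 := by
    simp only [add_im, one_im, zero_add]
    exact hl
  have hu0 : 1 + rayCoord G.z₀ (G.b i) z ≠ 0 := by
    intro h
    rw [h] at hre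
    simp at hre
  have hargneg : arg (1 + rayCoord G.z₀ (G.b i) z) < 0 := Complex.arg_neg_iff.2 him
  rw [sectorInf_eq, sub_eq_polar_mul G i z, ← exp_θnext_predIdx G i]
  exact mem_sector_of_mul hnorm hu0 (by linarith) (by linarith)

theorem eventually_lt_norm_sub {R : ℝ} {a : ℂ} (haR : R < ‖a - G.z₀‖) :
    ∀ᶠ z in 𝓝 a, R < ‖z - G.z₀‖ := by
  have hc : ContinuousAt (fun z : ℂ => ‖z - G.z₀‖) a := by fun_prop
  exact hc.eventually (lt_mem_nhds haR)

theorem eventually_leftSide_mem_farSector (i : Fin G.r) {R : ℝ} {a : ℂ}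
    (ha : a ∈ openRay G.z₀ (G.b i)) (haR : R < ‖a - G.z₀‖) :
    ∀ᶠ z in 𝓝 a, z ∈ leftSide G.z₀ (G.b i) → z ∈ farSector G i R := by
  filter_upwards [eventually_leftSide_mem_sectorInf G i ha, eventually_lt_norm_sub G haR]
    with z h1 h2 hl
  exact ⟨h1 hl, h2⟩

theorem eventually_rightSide_mem_farSector (i : Fin G.r) {R : ℝ} {a : ℂ}
    (ha : a ∈ openRay G.z₀ (G.b i)) (haR : R < ‖a - G.z₀‖) :
    ∀ᶠ z in 𝓝 a, z ∈ rightSide G.z₀ (G.b i) → z ∈ farSector G (predIdx G i) R := by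
  filter_upwards [eventually_rightSide_mem_sectorInf G i ha, eventually_lt_norm_sub G haR]
    with z h1 h2 hl
  exact ⟨h1 hl, h2⟩

/-- a far point of the `i`-th open ray -/
noncomputable def farPoint (i : Fin G.r) (R : ℝ) : ℂ :=
  G.b i + ((R / ‖G.b i - G.z₀‖ + 1 : ℝ) : ℂ) * (G.b i - G.z₀)

theorem farPoint_mem_openRay (i : Fin G.r) {R : ℝ} (hR : 0 ≤ R) :
    farPoint G i R ∈ openRay G.z₀ (G.b i) := by
  have hnorm : (0 : ℝ) < ‖G.b i - G.z₀‖ := norm_pos_iff.2 (sub_ne_zero.2 (G.b_ne i))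
  exact ⟨R / ‖G.b i - G.z₀‖ + 1, by positivity, rfl⟩

theorem lt_norm_farPoint_sub (i : Fin G.r) {R : ℝ} (hR : 0 ≤ R) :
    R < ‖farPoint G i R - G.z₀‖ := by
  have hnorm : (0 : ℝ) < ‖G.b i - G.z₀‖ := norm_pos_iff.2 (sub_ne_zero.2 (G.b_ne i))
  have h1 : farPoint G i R - G.z₀ =
      ((R / ‖G.b i - G.z₀‖ + 2 : ℝ) : ℂ) * (G.b i - G.z₀) := by
    unfold farPoint
    push_cast
    ring
  rw [h1, norm_mul, Complex.norm_real, Real.norm_of_nonneg (by positivity)]
  have h2 : (R / ‖G.b i - G.z₀‖ + 2) * ‖G.b i - G.z₀‖ = R + 2 * ‖G.b i - G.z₀‖ := by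
    field_simp
  rw [h2]
  linarith

end Sides

end Fermat.Agent.P5.helper26
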