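/-
P5 / S27, module MOD (helper37, sub-coordinator, task 430): THE RESULT OF THE MODULE.

`existsCutModel : ExistsCutModel` : every function field of a curve over `ℂ` has a cut model.

All packages are plugged in:
ALG0 (helper37), ALG1 (helper10), SEP + ALG2 (helper12), LIFT (helper9), BR + CROSS (helper56),
GEO (helper38), PUIS (helper54), INF (helper26), EV (helper37), DERIV (helper86),
DICT + PL-INT (helper37), PL-RAY (helper13), PL-BAD (helper86), PL-INF (helper88),
PL-ASM (helper62), RAT-0 (helper54), RAT-DESC (helper60), RAT (helper37), GLUE (helper64).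
-/
import Mathlib
import Fermat.Agent.P5.helper37_ModFinal
import Fermat.Agent.P5.helper37_Rat
import Fermat.Agent.P5.helper64_Glue
import Fermat.Agent.P5.helper86_PlBad
import Fermat.Agent.P5.helper54_Puis
import Fermat.Agent.P5.helper26_Inf
import Fermat.Agent.P5.helper13_PlRay
import Fermat.Agent.P5.helper88_PlInf

set_option autoImplicit false

namespace Fermat.Agent.P5.helper37

open Fermat.Agent.P5.helper25

/-- **[MOD]** `ExistsCutModel` from the packages PUIS, INF, PL-RAY, PL-INF. -/
theorem existsCutModel_of_pending4 (hPUIS : PuisStatement) (hINF : InfStatement)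
    (hRay : RayPlacesStatement) (hInf : InfPlacesStatement) : ExistsCutModel :=
  existsCutModel_of_pending7 hPUIS hINF hRay Fermat.Agent.P5.helper86.Bad.badPlacesStatement hInf
    ratStatement Fermat.Agent.P5.helper64.glueStatement

/-- **[MOD]** Every function field of a curve over `ℂ` has a cut model. -/
theorem existsCutModel : ExistsCutModel :=
  existsCutModel_of_pending4
    (Fermat.Agent.P5.helper54.puisStatement Fermat.Agent.P5.helper56.branchStatement)
    Fermat.Agent.P5.helper26.infStatement
    Fermat.Agent.P5.helper13.rayPlacesStatement
    Fermat.Agent.P5.helper88.infPlacesStatement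

end Fermat.Agent.P5.helper37
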