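import Fermat.Agent.P5.helper4_Orders
import Fermat.Agent.S24.helper75_FFCore2

/-!
# P5 / M6 (helper4): Riemann–Hurwitz bookkeeping for a cut model

`b1Statement : RHCountStatement → B1Statement`, where `RHCountStatement` is the Riemann–Hurwitz
formula for `genusFF` in counting form (the conclusion of S24 `helper55.riemann_hurwitz_of_ff`
with `deg (ω) = 2 genusFF - 2`).
-/

set_option autoImplicit false

open Filter Topology Complex AlgebraicCurve IntermediateField

namespace Fermat.Agent.P5.helper4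

open Fermat.Agent.P5.helper25

/-- **Riemann–Hurwitz for `genusFF`, counting form**: for `x ∈ F` transcendental with
`[F : ℂ(x)] = n` finite and a finite set `B` of values outside of which `x` is unramified,
`2 g - 2 + 2 n = ∑_{a ∈ B} (n - #x⁻¹(a)) + (n - #x⁻¹(∞))`. -/
def RHCountStatement : Prop :=
  ∀ (F : Type) [Field F] [Algebra ℂ F] [IsCurveOver ℂ F] [Algebra.EssFiniteType ℂ F]
    (x : F) (_ : Transcendental ℂ x) [FiniteDimensional ℂ⟮x⟯ F] (B : Finset ℂ),
    (∀ (w : Place ℂ F) (a : ℂ), a ∉ B → 0 < w.ord (x - algebraMap ℂ F a) →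
      w.ord (x - algebraMap ℂ F a) = 1) →
    2 * (genusFF ℂ F : ℤ) - 2 + 2 * (Module.finrank ℂ⟮x⟯ F : ℤ)
      = ∑ a ∈ B, ((Module.finrank ℂ⟮x⟯ F : ℤ)
            - (Nat.card {w : Place ℂ F // 0 < w.ord (x - algebraMap ℂ F a)} : ℤ))
        + ((Module.finrank ℂ⟮x⟯ F : ℤ) - (Nat.card {w : Place ℂ F // w.ord x < 0} : ℤ))

variable {F : Type} [Field F] [Algebra ℂ F] (M : CutModel F)

theorem xsub_zero : xsub M 0 = M.x := by simp [xsub]

/-! ### Poles of `x` -/

theorem ord_x_neg_iff (P : Place ℂ F) : P.ord M.x < 0 ↔ ∃ k, P = M.plInf k := by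
  rw [← xsub_zero M]
  constructor
  · intro h
    rcases M.exhaust P with ⟨k, z, hz, rfl⟩ | ⟨i, k, a', ha', rfl⟩ | ⟨i, k, rfl⟩ | ⟨k, rfl⟩
    · rw [ord_pl M k hz] at h
      split_ifs at h <;> omega
    · rw [ord_plRay M i k ha'] at h
      split_ifs at h <;> omega
    · rw [ord_plBad M i k] at h
      split_ifs at h <;> omega
    · exact ⟨k, rfl⟩
  · rintro ⟨k, rfl⟩
    rw [ord_plInf]
    omega

theorem card_poles : Nat.card {w : Place ℂ F // w.ord M.x < 0} = M.d := by
  have hbij : Function.Bijective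
      (fun k : Fin M.d => (⟨M.plInf k, (ord_x_neg_iff M _).2 ⟨k, rfl⟩⟩ :
        {w : Place ℂ F // w.ord M.x < 0})) := by
    constructor
    · intro k k' h
      exact M.plInf_injective (congrArg Subtype.val h)
    · rintro ⟨w, hw⟩
      obtain ⟨k, rfl⟩ := (ord_x_neg_iff M w).1 hw
      exact ⟨k, rfl⟩
  rw [← Nat.card_congr (Equiv.ofBijective _ hbij), Nat.card_eq_fintype_card, Fintype.card_fin]

theorem finrank_eq_d [FiniteDimensional ℂ⟮M.x⟯ F] : Module.finrank ℂ⟮M.x⟯ F = M.d := by
  have h := Fermat.Agent.S24.helper75.ff_sum_ord_poles M.x M.x_transcendental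
  have hfin := Fermat.Agent.S24.helper75.ff_finite_poles M.x M.x_transcendental
  have h1 : ∀ w ∈ hfin.toFinset, w.ord M.x = -1 := by
    intro w hw
    rw [Set.Finite.mem_toFinset] at hw
    obtain ⟨k, rfl⟩ := (ord_x_neg_iff M w).1 hw
    rw [← xsub_zero M, ord_plInf]
  rw [Finset.sum_congr rfl h1, Finset.sum_const] at h
  have h2 : hfin.toFinset.card = M.d := by
    rw [← card_poles M]
    rw [← Set.ncard_eq_toFinset_card _ hfin]
    exact (Nat.card_coe_set_eq _).symm
  rw [h2] at h
  have h3 : (M.d : ℤ) = (Module.finrank ℂ⟮M.x⟯ F : ℤ) := by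
    simp only [nsmul_eq_mul, mul_neg, mul_one, neg_inj] at h
    exact h
  exact_mod_cast h3.symm

/-! ### Zeros of `x - b i` -/

theorem plBad_pow (i : Fin M.r) (k : Fin M.d) (n : ℕ) :
    M.plBad i (((M.σ i) ^ n) k) = M.plBad i k := by
  induction n with
  | zero => simp
  | succ n ih =>
    rw [pow_succ', Equiv.Perm.mul_apply, M.plBad_apply, ih]

theorem plBad_sameCycle (i : Fin M.r) {k k' : Fin M.d} (h : (M.σ i).SameCycle k k') :
    M.plBad i k = M.plBad i k' := by
  obtain ⟨n, hn⟩ := h.exists_nat_pow_eq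
  rw [← hn, plBad_pow]

theorem zeros_iff (i : Fin M.r) (P : Place ℂ F) :
    0 < P.ord (xsub M (M.b i)) ↔ ∃ k, P = M.plBad i k := by
  constructor
  · intro h
    rcases M.exhaust P with ⟨k, z, hz, rfl⟩ | ⟨j, k, a', ha', rfl⟩ | ⟨j, k, rfl⟩ | ⟨k, rfl⟩
    · rw [ord_pl M k hz, if_neg (CutGeom.ne_b_of_mem_U₀ _ hz i)] at h
      omega
    · rw [ord_plRay M j k ha', if_neg (CutGeom.ne_b_of_mem_openRay _ ha' i)] at h
      omega
    · rw [ord_plBad M j k] at h
      split_ifs at h with hb
      · have hij : i = j := CutGeom.b_injective _ hb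
        subst hij
        exact ⟨k, rfl⟩
      · omega
    · rw [ord_plInf] at h
      omega
  · rintro ⟨k, rfl⟩
    rw [ord_plBad, if_pos rfl]
    exact_mod_cast minimalPeriod_pos M i k

theorem card_zeros (i : Fin M.r) :
    Nat.card {w : Place ℂ F // 0 < w.ord (M.x - algebraMap ℂ F (M.b i))} =
      M.permDatum.numCycles i := by
  unfold PermDatum.numCycles
  symm
  let f : Quotient (Equiv.Perm.SameCycle.setoid (M.σ i)) →
      {w : Place ℂ F // 0 < w.ord (M.x - algebraMap ℂ F (M.b i))} :=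
    Quotient.lift (fun k : Fin M.d => (⟨M.plBad i k, (zeros_iff M i _).2 ⟨k, rfl⟩⟩ :
        {w : Place ℂ F // 0 < w.ord (M.x - algebraMap ℂ F (M.b i))}))
      (fun k k' h => Subtype.ext (plBad_sameCycle M i h))
  have hbij : Function.Bijective f := by
    constructor
    · intro q q' h
      induction q using Quotient.inductionOn with
      | h k =>
        induction q' using Quotient.inductionOn with
        | h k' =>
          apply Quotient.sound
          have h1 : M.plBad i k = M.plBad i k' := congrArg Subtype.val h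
          obtain ⟨-, j, hj⟩ := M.plBad_injective i k i k' h1
          exact ⟨(j : ℤ), by simpa using hj⟩
    · rintro ⟨w, hw⟩
      obtain ⟨k, rfl⟩ := (zeros_iff M i w).1 hw
      exact ⟨Quotient.mk _ k, rfl⟩
  exact Nat.card_congr (Equiv.ofBijective f hbij)

/-! ### Unramifiedness away from the bad points -/

theorem unramified (w : Place ℂ F) (a : ℂ) (ha : a ∉ Finset.univ.image M.b)
    (h : 0 < w.ord (M.x - algebraMap ℂ F a)) : w.ord (M.x - algebraMap ℂ F a) = 1 := by
  change 0 < w.ord (xsub M a) at h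
  change w.ord (xsub M a) = 1
  have hab : ∀ i, a ≠ M.b i := by
    intro i hi
    apply ha
    rw [hi]
    exact Finset.mem_image_of_mem _ (Finset.mem_univ i)
  rcases M.exhaust w with ⟨k, z, hz, rfl⟩ | ⟨j, k, a', ha', rfl⟩ | ⟨j, k, rfl⟩ | ⟨k, rfl⟩
  · rw [ord_pl M k hz] at h ⊢
    split_ifs at h ⊢
    · rfl
    · omega
  · rw [ord_plRay M j k ha'] at h ⊢
    split_ifs at h ⊢
    · rfl
    · omega
  · rw [ord_plBad M j k, if_neg (hab j)] at h
    omega
  · rw [ord_plInf] at h
    omega

/-! ### The main theorem -/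

theorem b1_eq_of_rh [IsCurveOver ℂ F] [Algebra.EssFiniteType ℂ F] (hRH : RHCountStatement) :
    M.permDatum.b1 = 2 * genusFF ℂ F := by
  have hfd : FiniteDimensional ℂ⟮M.x⟯ F := M.x_finite
  have h := hRH F M.x M.x_transcendental (Finset.univ.image M.b) (unramified M)
  rw [finrank_eq_d M, card_poles M, Finset.sum_image (fun i _ j _ hij =>
    CutGeom.b_injective M.toCutGeometry hij)] at h
  simp only [card_zeros M, sub_self, add_zero, Finset.sum_sub_distrib, Finset.sum_const,
    Finset.card_univ, Fintype.card_fin, nsmul_eq_mul] at h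
  unfold PermDatum.b1
  show M.r * M.d + 2 - 2 * M.d - ∑ i, M.permDatum.numCycles i = 2 * genusFF ℂ F
  have h2 : (2 * (genusFF ℂ F : ℤ)) - 2 + 2 * (M.d : ℤ) =
      ((M.r * M.d : ℕ) : ℤ) - ((∑ i, M.permDatum.numCycles i : ℕ) : ℤ) := by
    rw [h]
    push_cast
    rfl
  generalize M.r * M.d = m at h2 ⊢
  generalize ∑ i, M.permDatum.numCycles i = N at h2 ⊢
  generalize genusFF ℂ F = g at h2 ⊢
  omega

/-- **[M6]** Riemann–Hurwitz bookkeeping: `B1Statement` from Riemann–Hurwitz for `genusFF`. -/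
theorem b1Statement (hRH : RHCountStatement) : B1Statement := by
  intro F _ _ _ _ M
  exact b1_eq_of_rh M hRH

end Fermat.Agent.P5.helper4
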