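/-
P5 / S27, module MOD, complement to MOD-CROSS (helper56): the crossing permutations are unique,
hence the analytic continuations on the tubes around the rays exist for every family of
crossing permutations.
-/
import Mathlib
import Fermat.Agent.P5.helper56_Cross

set_option autoImplicit false
set_option linter.unusedSectionVars false
set_option linter.unusedVariables false

open Filter Topology

namespace Fermat.Agent.P5.helper56

open Fermat.Agent.P5.helper25 Fermat.Agent.P5.helper37 Fermat.Agent.P5.helper4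

/-! ### The two sides of a ray accumulate at the points of the ray -/

theorem rayCoord_add_mul (z₀ b a : ℂ) (hb : b ≠ z₀) (c : ℂ) :
    rayCoord z₀ b (a + c * (b - z₀)) = rayCoord z₀ b a + c := by
  have hb' : b - z₀ ≠ 0 := sub_ne_zero.2 hb
  simp only [rayCoord]
  field_simp
  ring

theorem tendsto_add_mul_nhdsNE {z₀ b : ℂ} (hb : b ≠ z₀) (a c : ℂ) (hc : c ≠ 0) :
    Tendsto (fun t : ℝ => a + ((t : ℂ) * c) * (b - z₀)) (𝓝[>] (0 : ℝ)) (𝓝[≠] a) := by
  have hb' : b - z₀ ≠ 0 := sub_ne_zero.2 hb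
  rw [tendsto_nhdsWithin_iff]
  constructor
  · have hcont : Continuous fun t : ℝ => a + ((t : ℂ) * c) * (b - z₀) := by fun_prop
    have h0 : a + (((0 : ℝ) : ℂ) * c) * (b - z₀) = a := by simp
    have := hcont.tendsto 0
    simp only [h0] at this
    exact this.mono_left nhdsWithin_le_nhds
  · filter_upwards [self_mem_nhdsWithin] with t ht
    have ht0 : (t : ℂ) ≠ 0 := by exact_mod_cast (ne_of_gt ht)
    simp only [Set.mem_compl_iff, Set.mem_singleton_iff, add_eq_left, mul_eq_zero, not_or]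
    exact ⟨⟨ht0, hc⟩, hb'⟩

/-- The left side of the ray accumulates at every point of the line through the ray. -/
theorem frequently_mem_leftSide {z₀ b a : ℂ} (hb : b ≠ z₀) (ha : (rayCoord z₀ b a).im = 0) :
    ∃ᶠ z in 𝓝[≠] a, z ∈ leftSide z₀ b := by
  refine (tendsto_add_mul_nhdsNE hb a Complex.I Complex.I_ne_zero).frequently ?_
  refine Eventually.frequently ?_
  filter_upwards [self_mem_nhdsWithin] with t ht
  rw [leftSide_eq]
  simp only [Set.mem_ofPred_eq, rayCoord_add_mul z₀ b a hb, Complex.add_im, ha, zero_add]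
  simpa using ht

/-- The right side of the ray accumulates at every point of the line through the ray. -/
theorem frequently_mem_rightSide {z₀ b a : ℂ} (hb : b ≠ z₀) (ha : (rayCoord z₀ b a).im = 0) :
    ∃ᶠ z in 𝓝[≠] a, z ∈ rightSide z₀ b := by
  refine (tendsto_add_mul_nhdsNE hb a (-Complex.I)
    (neg_ne_zero.2 Complex.I_ne_zero)).frequently ?_
  refine Eventually.frequently ?_
  filter_upwards [self_mem_nhdsWithin] with t ht
  rw [rightSide_eq]
  simp only [Set.mem_ofPred_eq, rayCoord_add_mul z₀ b a hb, Complex.add_im, ha, zero_add]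
  simpa using ht

theorem rayCoord_im_eq_zero_of_mem_ray {z₀ b a : ℂ} (hb : b ≠ z₀) (ha : a ∈ ray z₀ b) :
    (rayCoord z₀ b a).im = 0 := ((mem_ray_iff hb).1 ha).2

/-- Near a point of the `i`-th open ray, the points of the right side are in the cut plane. -/
theorem eventually_mem_U₀_of_rightSide (G : CutGeometry) {i : Fin G.r} {a : ℂ}
    (ha : a ∈ openRay G.z₀ (G.b i)) :
    ∀ᶠ z in 𝓝 a, z ∈ rightSide G.z₀ (G.b i) → z ∈ G.U₀ := by
  have h1 : CutGeom.Uexcept G i ∈ 𝓝 a :=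
    (CutGeom.isOpen_Uexcept G i).mem_nhds
      (CutGeom.ray_subset_Uexcept G i (openRay_subset_ray _ _ ha))
  filter_upwards [h1] with z hz hzR
  exact CutGeom.mem_U₀_of_mem_Uexcept G hz (not_mem_ray_of_mem_rightSide' (G.b_ne i) hzR)

/-- Near a point of the `i`-th open ray, the points of the left side are in the cut plane. -/
theorem eventually_mem_U₀_of_leftSide (G : CutGeometry) {i : Fin G.r} {a : ℂ}
    (ha : a ∈ openRay G.z₀ (G.b i)) :
    ∀ᶠ z in 𝓝 a, z ∈ leftSide G.z₀ (G.b i) → z ∈ G.U₀ := by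
  have h1 : CutGeom.Uexcept G i ∈ 𝓝 a :=
    (CutGeom.isOpen_Uexcept G i).mem_nhds
      (CutGeom.ray_subset_Uexcept G i (openRay_subset_ray _ _ ha))
  filter_upwards [h1] with z hz hzL
  exact CutGeom.mem_U₀_of_mem_Uexcept G hz (not_mem_ray_of_mem_leftSide (G.b_ne i) hzL)

/-! ### Uniqueness of the continuation across a ray -/

/-- Two analytic germs at a point of the open ray which agree on the left side agree. -/
theorem eventuallyEq_of_eq_leftSide {z₀ b a : ℂ} (hb : b ≠ z₀) (ha : a ∈ ray z₀ b)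
    {u g₁ g₂ : ℂ → ℂ} (hg₁ : AnalyticAt ℂ g₁ a) (hg₂ : AnalyticAt ℂ g₂ a)
    (hL₁ : ∀ᶠ z in 𝓝 a, z ∈ leftSide z₀ b → g₁ z = u z)
    (hL₂ : ∀ᶠ z in 𝓝 a, z ∈ leftSide z₀ b → g₂ z = u z) :
    ∀ᶠ z in 𝓝 a, g₁ z = g₂ z := by
  have hfreq := frequently_mem_leftSide hb (rayCoord_im_eq_zero_of_mem_ray hb ha)
  have hev : ∀ᶠ z in 𝓝[≠] a, z ∈ leftSide z₀ b → g₁ z = g₂ z := by
    filter_upwards [eventually_nhdsWithin_of_eventually_nhds hL₁,
      eventually_nhdsWithin_of_eventually_nhds hL₂] with z h1 h2 hz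
    exact (h1 hz).trans (h2 hz).symm
  have hfreq' : ∃ᶠ z in 𝓝[≠] a, g₁ z = g₂ z :=
    (hfreq.and_eventually hev).mono fun z hz => hz.2 hz.1
  exact (hg₁.frequently_eq_iff_eventually_eq hg₂).1 hfreq'

/-- Two analytic germs at a point of the open ray which agree on the right side agree. -/
theorem eventuallyEq_of_eq_rightSide {z₀ b a : ℂ} (hb : b ≠ z₀) (ha : a ∈ ray z₀ b)
    {u g₁ g₂ : ℂ → ℂ} (hg₁ : AnalyticAt ℂ g₁ a) (hg₂ : AnalyticAt ℂ g₂ a)
    (hR₁ : ∀ᶠ z in 𝓝 a, z ∈ rightSide z₀ b → g₁ z = u z)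
    (hR₂ : ∀ᶠ z in 𝓝 a, z ∈ rightSide z₀ b → g₂ z = u z) :
    ∀ᶠ z in 𝓝 a, g₁ z = g₂ z := by
  have hfreq := frequently_mem_rightSide hb (rayCoord_im_eq_zero_of_mem_ray hb ha)
  have hev : ∀ᶠ z in 𝓝[≠] a, z ∈ rightSide z₀ b → g₁ z = g₂ z := by
    filter_upwards [eventually_nhdsWithin_of_eventually_nhds hR₁,
      eventually_nhdsWithin_of_eventually_nhds hR₂] with z h1 h2 hz
    exact (h1 hz).trans (h2 hz).symm
  have hfreq' : ∃ᶠ z in 𝓝[≠] a, g₁ z = g₂ z :=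
    (hfreq.and_eventually hev).mono fun z hz => hz.2 hz.1
  exact (hg₁.frequently_eq_iff_eventually_eq hg₂).1 hfreq'

/-- The sheet on the right of the ray is determined by the sheet on the left. -/
theorem cross_unique_aux (D : BranchData) (i : Fin D.r) {a : ℂ}
    (ha : a ∈ openRay D.z₀ (D.b i)) {k k₁ k₂ : Fin D.d} {g₁ g₂ : ℂ → ℂ}
    (hg₁ : AnalyticAt ℂ g₁ a) (hg₂ : AnalyticAt ℂ g₂ a)
    (hL₁ : ∀ᶠ z in 𝓝 a, z ∈ leftSide D.z₀ (D.b i) → g₁ z = D.y k z)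
    (hL₂ : ∀ᶠ z in 𝓝 a, z ∈ leftSide D.z₀ (D.b i) → g₂ z = D.y k z)
    (hR₁ : ∀ᶠ z in 𝓝 a, z ∈ rightSide D.z₀ (D.b i) → g₁ z = D.y k₁ z)
    (hR₂ : ∀ᶠ z in 𝓝 a, z ∈ rightSide D.z₀ (D.b i) → g₂ z = D.y k₂ z) : k₁ = k₂ := by
  have hbi := D.b_ne i
  have har : a ∈ ray D.z₀ (D.b i) := openRay_subset_ray _ _ ha
  have heq := eventuallyEq_of_eq_leftSide hbi har hg₁ hg₂ hL₁ hL₂
  have hU := eventually_mem_U₀_of_rightSide D.toCutGeometry ha
  have hfreq := frequently_mem_rightSide hbi (rayCoord_im_eq_zero_of_mem_ray hbi har)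
  have hall : ∀ᶠ z in 𝓝[≠] a, z ∈ rightSide D.z₀ (D.b i) →
      z ∈ D.toCutGeometry.U₀ ∧ D.y k₁ z = D.y k₂ z := by
    filter_upwards [eventually_nhdsWithin_of_eventually_nhds heq,
      eventually_nhdsWithin_of_eventually_nhds hU,
      eventually_nhdsWithin_of_eventually_nhds hR₁,
      eventually_nhdsWithin_of_eventually_nhds hR₂] with z h1 h2 h3 h4 hz
    exact ⟨h2 hz, by rw [← h3 hz, ← h4 hz, h1]⟩
  obtain ⟨z, hzR, hz⟩ := (hfreq.and_eventually hall).exists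
  exact D.y_inj z (hz hzR).1 (hz hzR).2

/-- The sheet on the left of the ray is determined by the sheet on the right. -/
theorem cross_unique_aux' (D : BranchData) (i : Fin D.r) {a : ℂ}
    (ha : a ∈ openRay D.z₀ (D.b i)) {k k₁ k₂ : Fin D.d} {g₁ g₂ : ℂ → ℂ}
    (hg₁ : AnalyticAt ℂ g₁ a) (hg₂ : AnalyticAt ℂ g₂ a)
    (hR₁ : ∀ᶠ z in 𝓝 a, z ∈ rightSide D.z₀ (D.b i) → g₁ z = D.y k z)
    (hR₂ : ∀ᶠ z in 𝓝 a, z ∈ rightSide D.z₀ (D.b i) → g₂ z = D.y k z)
    (hL₁ : ∀ᶠ z in 𝓝 a, z ∈ leftSide D.z₀ (D.b i) → g₁ z = D.y k₁ z)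
    (hL₂ : ∀ᶠ z in 𝓝 a, z ∈ leftSide D.z₀ (D.b i) → g₂ z = D.y k₂ z) : k₁ = k₂ := by
  have hbi := D.b_ne i
  have har : a ∈ ray D.z₀ (D.b i) := openRay_subset_ray _ _ ha
  have heq := eventuallyEq_of_eq_rightSide hbi har hg₁ hg₂ hR₁ hR₂
  have hU := eventually_mem_U₀_of_leftSide D.toCutGeometry ha
  have hfreq := frequently_mem_leftSide hbi (rayCoord_im_eq_zero_of_mem_ray hbi har)
  have hall : ∀ᶠ z in 𝓝[≠] a, z ∈ leftSide D.z₀ (D.b i) →
      z ∈ D.toCutGeometry.U₀ ∧ D.y k₁ z = D.y k₂ z := by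
    filter_upwards [eventually_nhdsWithin_of_eventually_nhds heq,
      eventually_nhdsWithin_of_eventually_nhds hU,
      eventually_nhdsWithin_of_eventually_nhds hL₁,
      eventually_nhdsWithin_of_eventually_nhds hL₂] with z h1 h2 h3 h4 hz
    exact ⟨h2 hz, by rw [← h3 hz, ← h4 hz, h1]⟩
  obtain ⟨z, hzL, hz⟩ := (hfreq.and_eventually hall).exists
  exact D.y_inj z (hz hzL).1 (hz hzL).2

/-- A point of the open ray. -/
theorem exists_mem_openRay (z₀ b : ℂ) : ∃ a, a ∈ openRay z₀ b :=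
  ⟨b + ((1 : ℝ) : ℂ) * (b - z₀), 1, one_pos, rfl⟩

/-- **Uniqueness of the crossing permutations.** -/
theorem crossProp_unique (D : BranchData) {σ σ' : Fin D.r → Equiv.Perm (Fin D.d)}
    (h : D.CrossProp σ) (h' : D.CrossProp σ') : σ = σ' := by
  funext i
  apply Equiv.ext
  intro k
  obtain ⟨a, ha⟩ := exists_mem_openRay D.z₀ (D.b i)
  obtain ⟨g₁, hg₁, hL₁, hR₁⟩ := h i k a ha
  obtain ⟨g₂, hg₂, hL₂, hR₂⟩ := h' i k a ha
  exact cross_unique_aux D i ha hg₁ hg₂ hL₁ hL₂ hR₁ hR₂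

/-- **The tube form of the crossing property**, for any family of crossing permutations:
one analytic continuation `g k` of `y k` from the left of the `i`-th ray to `y (σ i k)` on the
right, on a whole convex open tube around the open ray. -/
theorem cross_tube_of_crossProp (D : BranchData) {σ : Fin D.r → Equiv.Perm (Fin D.d)}
    (h : D.CrossProp σ) (i : Fin D.r) :
    ∃ (ε : ℝ) (g : Fin D.d → ℂ → ℂ), 0 < ε ∧
      (∀ z ∈ rayTube D.z₀ (D.b i) ε, ∀ j, z ≠ D.b j) ∧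
      rayTube D.z₀ (D.b i) ε ∩ leftSide D.z₀ (D.b i) ⊆ D.toCutGeometry.U₀ ∧
      rayTube D.z₀ (D.b i) ε ∩ rightSide D.z₀ (D.b i) ⊆ D.toCutGeometry.U₀ ∧
      (∀ k, AnalyticOnNhd ℂ (g k) (rayTube D.z₀ (D.b i) ε)) ∧
      (∀ k, ∀ z ∈ rayTube D.z₀ (D.b i) ε, (specialize D.f z).IsRoot (g k z)) ∧
      (∀ k, Set.EqOn (g k) (D.y k) (rayTube D.z₀ (D.b i) ε ∩ leftSide D.z₀ (D.b i))) ∧
      (∀ k, Set.EqOn (g k) (D.y (σ i k))
        (rayTube D.z₀ (D.b i) ε ∩ rightSide D.z₀ (D.b i))) := by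
  obtain ⟨σ₀, ε, g, hε, hgood, hLU, hRU, hgan, hgroot, hgL, hgR⟩ := exists_cross_tube D i
  have hσ : ∀ k, σ₀ k = σ i k := by
    intro k
    obtain ⟨a, ha⟩ := exists_mem_openRay D.z₀ (D.b i)
    have haT := openRay_subset_rayTube (D.b_ne i) hε ha
    have hT := (isOpen_rayTube D.z₀ (D.b i) ε).mem_nhds haT
    obtain ⟨g₁, hg₁, hL₁, hR₁⟩ := h i k a ha
    refine cross_unique_aux D i ha (hgan k a haT) hg₁ ?_ hL₁ ?_ hR₁
    · filter_upwards [hT] with z hz hzL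
      exact hgL k ⟨hz, hzL⟩
    · filter_upwards [hT] with z hz hzR
      exact hgR k ⟨hz, hzR⟩
  refine ⟨ε, g, hε, hgood, hLU, hRU, hgan, hgroot, hgL, fun k => ?_⟩
  rw [← hσ k]
  exact hgR k

end Fermat.Agent.P5.helper56
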