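import Mathlib

/-!
# P5 / MOD-RAT-DESC (helper60, task 658): descent of meromorphic germs along `s ↦ s ^ E`

* `coeff_eq_zero_of_invariant` : an analytic germ at `0` invariant under `s ↦ ζ s`
  (`ζ` a primitive `E`-th root of unity) has no Taylor coefficients outside the multiples
  of `E`;
* `exists_analyticAt_comp_pow` : such a germ is an analytic function of `s ^ E`;
* `exists_meromorphicAt_comp_pow` : VERBATIM the statement of task 658: a meromorphic germ
  invariant under `s ↦ exp (2 π i / E) s` is a meromorphic function of `s ^ E`.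
-/

set_option autoImplicit false

open Filter Topology

namespace Fermat.Agent.P5.helper60

/-- an analytic germ invariant under `s ↦ ζ s` (`ζ` a primitive `E`-th root of unity) has no
Taylor coefficients outside the multiples of `E` -/
theorem coeff_eq_zero_of_invariant {E : ℕ} {ζ : ℂ} (hζ : IsPrimitiveRoot ζ E)
    {h : ℂ → ℂ} {p : FormalMultilinearSeries ℂ ℂ ℂ} (hp : HasFPowerSeriesAt h p 0)
    (hinv : ∀ᶠ s in 𝓝 (0 : ℂ), h (ζ * s) = h s) (n : ℕ) (hn : ¬ E ∣ n) : p.coeff n = 0 := by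
  let u : ℂ →L[ℂ] ℂ := ζ • ContinuousLinearMap.id ℂ ℂ
  have hu : ∀ s, u s = ζ * s := fun s => by simp [u]
  have hp' : HasFPowerSeriesAt (h ∘ u) (p.compContinuousLinearMap u) 0 := by
    apply HasFPowerSeriesAt.compContinuousLinearMap
    rw [map_zero]
    exact hp
  have hp'' : HasFPowerSeriesAt h (p.compContinuousLinearMap u) 0 :=
    hp'.congr (by filter_upwards [hinv] with s hs; simp [hu, hs])
  have heq : p.compContinuousLinearMap u = p := hp''.eq_formalMultilinearSeries hp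
  have hcoeff : ζ ^ n * p.coeff n = p.coeff n := by
    have h1 := congrArg (fun q : FormalMultilinearSeries ℂ ℂ ℂ => q n (fun _ => (1 : ℂ))) heq
    simp only [FormalMultilinearSeries.compContinuousLinearMap_apply] at h1
    have h2 : (u ∘ fun _ : Fin n => (1 : ℂ)) = fun _ => ζ := by
      funext i
      simp [hu]
    rw [h2, FormalMultilinearSeries.apply_eq_pow_smul_coeff,
      FormalMultilinearSeries.apply_eq_pow_smul_coeff] at h1
    simpa using h1
  have h2 : ζ ^ n ≠ 1 := fun h => hn ((hζ.pow_eq_one_iff_dvd n).mp h)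
  have h3 : (ζ ^ n - 1) * p.coeff n = 0 := by rw [sub_mul, hcoeff, one_mul, sub_self]
  rcases mul_eq_zero.mp h3 with h | h
  · exact absurd (sub_eq_zero.mp h) h2
  · exact h

/-- an analytic germ invariant under `s ↦ ζ s` (`ζ` a primitive `E`-th root of unity) is an
analytic function of `s ^ E` -/
theorem exists_analyticAt_comp_pow {E : ℕ} (hE : 0 < E) {ζ : ℂ} (hζ : IsPrimitiveRoot ζ E)
    {h : ℂ → ℂ} (hh : AnalyticAt ℂ h 0) (hinv : ∀ᶠ s in 𝓝 (0 : ℂ), h (ζ * s) = h s) :
    ∃ G : ℂ → ℂ, AnalyticAt ℂ G 0 ∧ ∀ᶠ s in 𝓝 (0 : ℂ), h s = G (s ^ E) := by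
  obtain ⟨p, hp⟩ := hh
  have hzero := coeff_eq_zero_of_invariant hζ hp hinv
  obtain ⟨r, hr⟩ := hp
  -- a radius `ρ` with `0 < ρ < r`
  obtain ⟨ρ, hρ0, hρr⟩ : ∃ ρ : NNReal, 0 < ρ ∧ (ρ : ENNReal) < r := by
    obtain ⟨ρ, hρ0, hρr⟩ := ENNReal.lt_iff_exists_nnreal_btwn.mp hr.r_pos
    exact ⟨ρ, by exact_mod_cast hρ0, hρr⟩
  have hρrad : (ρ : ENNReal) < p.radius := lt_of_lt_of_le hρr hr.r_le
  obtain ⟨C, -, hC⟩ := p.norm_mul_pow_le_of_lt_radius hρrad
  -- the subseries
  set q : FormalMultilinearSeries ℂ ℂ ℂ :=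
    FormalMultilinearSeries.ofScalars ℂ (fun m => p.coeff (E * m)) with hq
  have hqrad : ((ρ ^ E : NNReal) : ENNReal) ≤ q.radius := by
    refine q.le_radius_of_bound C fun m => ?_
    rw [hq, FormalMultilinearSeries.ofScalars_norm, ← FormalMultilinearSeries.norm_apply_eq_norm_coef]
    have := hC (E * m)
    rw [pow_mul] at this
    simpa using this
  have hρE : 0 < ((ρ ^ E : NNReal) : ENNReal) := by
    have : 0 < ρ ^ E := pow_pos hρ0 E
    exact_mod_cast this
  have hqpos : 0 < q.radius := lt_of_lt_of_le hρE hqrad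
  have hG := q.hasFPowerSeriesOnBall hqpos
  refine ⟨q.sum, hG.analyticAt, ?_⟩
  have hball : Metric.ball (0 : ℂ) ρ ∈ 𝓝 (0 : ℂ) := Metric.ball_mem_nhds 0 (by exact_mod_cast hρ0)
  filter_upwards [hball] with s hs
  have hsn : ‖s‖ < ρ := by simpa using hs
  have hsρ : ‖s‖ₑ < (ρ : ENNReal) := by
    rw [← ofReal_norm, ENNReal.ofReal_lt_coe_iff (norm_nonneg s)]
    exact hsn
  -- the two expansions
  have h1 : HasSum (fun n => s ^ n • p.coeff n) (h s) := by
    have hmem : s ∈ Metric.eball (0 : ℂ) r := by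
      rw [Metric.mem_eball, edist_zero_right]
      exact lt_trans hsρ hρr
    have := hr.hasSum hmem
    simpa [FormalMultilinearSeries.apply_eq_pow_smul_coeff] using this
  have h2 : HasSum (fun m => (s ^ E) ^ m • p.coeff (E * m)) (q.sum (s ^ E)) := by
    have hmem : s ^ E ∈ Metric.eball (0 : ℂ) q.radius := by
      rw [Metric.mem_eball, edist_zero_right, enorm_pow]
      refine lt_of_lt_of_le (ENNReal.pow_lt_pow_left hE.ne' hsρ) ?_
      rw [← ENNReal.coe_pow]
      exact hqrad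
    have := hG.hasSum hmem
    simpa [FormalMultilinearSeries.apply_eq_pow_smul_coeff, hq,
      FormalMultilinearSeries.coeff_ofScalars] using this
  have hinj : Function.Injective (fun m : ℕ => E * m) := fun a b hab =>
    Nat.eq_of_mul_eq_mul_left hE hab
  have h3 : HasSum ((fun n => s ^ n • p.coeff n) ∘ fun m : ℕ => E * m) (h s) := by
    rw [hinj.hasSum_iff]
    · exact h1
    · intro n hn
      have : ¬ E ∣ n := fun ⟨m, hm⟩ => hn ⟨m, hm.symm⟩
      simp [hzero n this]
  have h4 : ((fun n => s ^ n • p.coeff n) ∘ fun m : ℕ => E * m) =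
      fun m => (s ^ E) ^ m • p.coeff (E * m) := by
    funext m
    simp [pow_mul]
  rw [h4] at h3
  exact h3.unique h2

/-- **P5-MOD-RAT-DESC**: a meromorphic germ invariant under `s ↦ ζ s`, `ζ = exp (2 π i / E)`,
is a meromorphic function of `s ^ E`. -/
theorem exists_meromorphicAt_comp_pow (E : ℕ) (hE : 0 < E) (K : ℂ → ℂ) (hK : MeromorphicAt K 0)
    (hinv : ∀ᶠ s in 𝓝[≠] (0 : ℂ), K (Complex.exp (2 * Real.pi * Complex.I / E) * s) = K s) :
    ∃ g : ℂ → ℂ, MeromorphicAt g 0 ∧ ∀ᶠ s in 𝓝[≠] (0 : ℂ), K s = g (s ^ E) := by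
  have hζ : IsPrimitiveRoot (Complex.exp (2 * Real.pi * Complex.I / E)) E :=
    Complex.isPrimitiveRoot_exp E hE.ne'
  obtain ⟨n, hn⟩ := hK
  have hh_an : AnalyticAt ℂ (fun z : ℂ => z ^ (E * n) * K z) 0 := by
    have h1 : AnalyticAt ℂ (fun z : ℂ => z ^ ((E - 1) * n)) 0 := analyticAt_id.pow _
    have h2 := h1.mul hn
    have h3 : (fun z : ℂ => z ^ (E * n) * K z) =
        fun z : ℂ => z ^ ((E - 1) * n) * ((z - 0) ^ n • K z) := by
      funext z
      have hEn : E * n = (E - 1) * n + n := by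
        obtain ⟨E', rfl⟩ : ∃ E', E = E' + 1 := ⟨E - 1, by omega⟩
        simp [add_mul]
      rw [sub_zero, smul_eq_mul, ← mul_assoc, ← pow_add, ← hEn]
    rw [h3]
    exact h2
  have hh_inv : ∀ᶠ s in 𝓝 (0 : ℂ),
      (fun z : ℂ => z ^ (E * n) * K z) (Complex.exp (2 * Real.pi * Complex.I / E) * s) =
        (fun z : ℂ => z ^ (E * n) * K z) s := by
    rw [eventually_nhdsWithin_iff] at hinv
    filter_upwards [hinv] with s hs
    by_cases h0 : s = 0
    · subst h0
      simp
    · show (Complex.exp (2 * Real.pi * Complex.I / E) * s) ^ (E * n) *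
          K (Complex.exp (2 * Real.pi * Complex.I / E) * s) = s ^ (E * n) * K s
      rw [hs h0, mul_pow, pow_mul, hζ.pow_eq_one, one_pow, one_mul]
  obtain ⟨G, hG, hGeq⟩ := exists_analyticAt_comp_pow hE hζ hh_an hh_inv
  refine ⟨fun t => (t ^ n)⁻¹ * G t, ?_, ?_⟩
  · exact ((MeromorphicAt.id (0 : ℂ)).pow n).inv.mul hG.meromorphicAt
  · have h1 := hGeq.filter_mono (nhdsWithin_le_nhds (s := ({0}ᶜ : Set ℂ)))
    filter_upwards [h1, self_mem_nhdsWithin] with s hs hs0
    have hs0' : s ≠ 0 := hs0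
    have hs' : s ^ (E * n) * K s = G (s ^ E) := hs
    show K s = ((s ^ E) ^ n)⁻¹ * G (s ^ E)
    rw [← hs', ← pow_mul, ← mul_assoc, inv_mul_cancel₀ (pow_ne_zero _ hs0'), one_mul]

end Fermat.Agent.P5.helper60
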