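import Fermat.Agent.P5.helper37_ModStatements
import Fermat.Agent.P5.helper4_CutGeom
import Fermat.Agent.S24.helper99_Germ

/-!
# P5 / MOD-GLUE (helper64), algebraic part

For a sheet model `M` of `F/ℂ` and `z` in the cut plane, the sheets give `d = [F : ℂ(x)]`
pairwise distinct `ℂ(x)`-embeddings `Φ_k : F → MeroGerm z`.  Hence `∑_k Φ_k = Tr_{F/ℂ(x)}`, and
for a `ℂ(x)`-basis `e_j` of `F` with trace-dual basis `β_j`:
`∑_j Φ_k (e_j) Φ_k' (β_j) = δ_{k k'}`.

Main result `glue_of_rat`: if all the functions `∑_k u_k · ev k β` (`β ∈ F`) are rational, then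
`u` comes from an element of `F`.
-/

set_option autoImplicit false
set_option linter.unusedSectionVars false
set_option linter.style.haveILetI false

open Filter Topology Polynomial

namespace Fermat.Agent.P5.helper64

open Fermat.Agent.P5.helper25 Fermat.Agent.P5.helper37 Fermat.Agent.S24.helper99

section Abstract

variable {K F L : Type*} [Field K] [Field F] [Field L] [Algebra K F] [Algebra K L]
  [FiniteDimensional K F] [Algebra.IsSeparable K F] {ι : Type*} [Fintype ι]

/-- `[F : K]` distinct `K`-embeddings of `F` into a field `L` add up to the trace. -/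
theorem sum_algHom_eq_trace (Φ : ι → (F →ₐ[K] L)) (hinj : Function.Injective Φ)
    (hcard : Fintype.card ι = Module.finrank K F) (h : F) :
    ∑ i, Φ i h = algebraMap K L (Algebra.trace K F h) := by
  classical
  let Ω := AlgebraicClosure L
  let ψ : ι → (F →ₐ[K] Ω) := fun i => (IsScalarTower.toAlgHom K L Ω).comp (Φ i)
  have hψinj : Function.Injective ψ := by
    intro i j hij
    apply hinj
    ext a
    have h1 : ψ i a = ψ j a := by rw [hij]
    exact (algebraMap L Ω).injective h1
  have hψ : Function.Bijective ψ := by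
    rw [Fintype.bijective_iff_injective_and_card]
    exact ⟨hψinj, by rw [hcard, AlgHom.card K F Ω]⟩
  have h1 : algebraMap K Ω (Algebra.trace K F h) = ∑ σ : F →ₐ[K] Ω, σ h :=
    trace_eq_sum_embeddings Ω
  have h2 : ∑ σ : F →ₐ[K] Ω, σ h = ∑ i, ψ i h :=
    (Function.Bijective.sum_comp hψ fun σ => σ h).symm
  apply (algebraMap L Ω).injective
  rw [map_sum, ← IsScalarTower.algebraMap_apply, h1, h2]
  rfl

/-- the duality identity between a basis and its trace-dual basis, on the embeddings -/
theorem sum_algHom_mul_dual [DecidableEq ι] (b : Module.Basis ι K F) (Φ : ι → (F →ₐ[K] L))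
    (hinj : Function.Injective Φ) (k k' : ι) :
    ∑ j, Φ k (b j) * Φ k' ((Algebra.traceForm K F).dualBasis (traceForm_nondegenerate K F) b j)
      = if k = k' then 1 else 0 := by
  have hcard : Fintype.card ι = Module.finrank K F := (Module.finrank_eq_card_basis b).symm
  set β := (Algebra.traceForm K F).dualBasis (traceForm_nondegenerate K F) b with hβ
  let A : Matrix ι ι L := fun k j => Φ k (b j)
  let C : Matrix ι ι L := fun j k => Φ k (β j)
  have hCA : C * A = 1 := by
    ext j j'
    rw [Matrix.mul_apply]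
    have h1 : ∀ k, C j k * A k j' = Φ k (β j * b j') := fun k => by
      rw [map_mul]
    simp_rw [h1]
    rw [sum_algHom_eq_trace Φ hinj hcard]
    have h2 : Algebra.trace K F (β j * b j') = if j' = j then 1 else 0 :=
      LinearMap.BilinForm.apply_dualBasis_left (traceForm_nondegenerate K F) b j j'
    rw [h2, Matrix.one_apply]
    by_cases hjj : j = j'
    · rw [if_pos hjj, if_pos hjj.symm, map_one]
    · rw [if_neg hjj, if_neg (Ne.symm hjj), map_zero]
  have hAC : A * C = 1 := mul_eq_one_comm.mp hCA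
  have h3 := congrFun (congrFun hAC k) k'
  rw [Matrix.mul_apply, Matrix.one_apply] at h3
  exact h3

end Abstract

section Germ

variable {z : ℂ}

/-- `mk` commutes with finite sums -/
theorem mk_finset_sum {ι : Type*} (s : Finset ι) (f : ι → ℂ → ℂ)
    (hf : ∀ i, MeromorphicAt (f i) z) :
    MeroGerm.mk (fun w => ∑ i ∈ s, f i w) (MeromorphicAt.fun_sum fun i _ => hf i) =
      ∑ i ∈ s, MeroGerm.mk (f i) (hf i) := by
  classical
  induction s using Finset.induction_on with
  | empty =>
    rw [Finset.sum_empty, ← MeroGerm.mk_zero, MeroGerm.mk_eq_mk_iff]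
    exact Eventually.of_forall fun w => by simp
  | insert a s ha ih =>
    rw [Finset.sum_insert ha, ← ih, ← MeroGerm.mk_add, MeroGerm.mk_eq_mk_iff]
    exact Eventually.of_forall fun w => by simp [Finset.sum_insert ha]

/-- polynomial functions as germs -/
noncomputable def polyGerm (z : ℂ) : ℂ[X] →+* MeroGerm z :=
  MeroGerm.lift (RingHom.pi fun w => Polynomial.evalRingHom w)
    (fun p => ((Polynomial.differentiable p).analyticAt z).meromorphicAt)

theorem polyGerm_apply (p : ℂ[X]) :
    polyGerm z p = MeroGerm.mk (fun w => p.eval w)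
      (((Polynomial.differentiable p).analyticAt z).meromorphicAt) := rfl

end Germ

section Sheet

variable {F : Type} [Field F] [Algebra ℂ F] (M : SheetModel F)

theorem U₀_mem_nhdsNE {z : ℂ} (hz : z ∈ M.toCutGeometry.U₀) : M.toCutGeometry.U₀ ∈ 𝓝[≠] z :=
  mem_nhdsWithin_of_mem_nhds ((helper4.CutGeom.isOpen_U₀ _).mem_nhds hz)

/-- the `k`-th sheet as a ring homomorphism to the germs at `z` -/
noncomputable def sheetHom {z : ℂ} (hz : z ∈ M.toCutGeometry.U₀) (k : Fin M.d) :
    F →+* MeroGerm z where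
  toFun h := MeroGerm.mk (M.ev k h) (M.ev_meromorphicOn k h z hz)
  map_one' := by
    rw [← MeroGerm.mk_one, MeroGerm.mk_eq_mk_iff]
    have h1 := M.ev_algebraMap k 1
    rw [map_one] at h1
    filter_upwards [U₀_mem_nhdsNE M hz] with w hw using h1 hw
  map_mul' a b := by
    rw [← MeroGerm.mk_mul, MeroGerm.mk_eq_mk_iff]
    exact M.ev_mul k a b z hz
  map_zero' := by
    rw [← MeroGerm.mk_zero, MeroGerm.mk_eq_mk_iff]
    have h1 := M.ev_algebraMap k 0
    rw [map_zero] at h1
    filter_upwards [U₀_mem_nhdsNE M hz] with w hw using h1 hw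
  map_add' a b := by
    rw [← MeroGerm.mk_add, MeroGerm.mk_eq_mk_iff]
    exact M.ev_add k a b z hz

theorem sheetHom_apply {z : ℂ} (hz : z ∈ M.toCutGeometry.U₀) (k : Fin M.d) (h : F) :
    sheetHom M hz k h = MeroGerm.mk (M.ev k h) (M.ev_meromorphicOn k h z hz) := rfl

theorem sheetHom_algebraMap {z : ℂ} (hz : z ∈ M.toCutGeometry.U₀) (k : Fin M.d) (c : ℂ) :
    sheetHom M hz k (algebraMap ℂ F c) = polyGerm z (C c) := by
  rw [sheetHom_apply, polyGerm_apply, MeroGerm.mk_eq_mk_iff]
  filter_upwards [U₀_mem_nhdsNE M hz] with w hw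
  rw [M.ev_algebraMap k c hw, eval_C]

theorem sheetHom_x {z : ℂ} (hz : z ∈ M.toCutGeometry.U₀) (k : Fin M.d) :
    sheetHom M hz k M.x = polyGerm z X := by
  rw [sheetHom_apply, polyGerm_apply, MeroGerm.mk_eq_mk_iff]
  filter_upwards [U₀_mem_nhdsNE M hz] with w hw
  rw [M.ev_x k hw, eval_X, id]

theorem sheetHom_aeval {z : ℂ} (hz : z ∈ M.toCutGeometry.U₀) (k : Fin M.d) (p : ℂ[X]) :
    sheetHom M hz k (aeval M.x p) = polyGerm z p := by
  have h : (sheetHom M hz k).comp ((aeval M.x : ℂ[X] →ₐ[ℂ] F) : ℂ[X] →+* F) = polyGerm z := by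
    apply Polynomial.ringHom_ext
    · intro c
      rw [RingHom.comp_apply, RingHom.coe_coe, aeval_C, sheetHom_algebraMap]
    · rw [RingHom.comp_apply, RingHom.coe_coe, aeval_X, sheetHom_x]
  exact congrArg (fun f => f p) h

/-- all sheets agree on `ℂ(x)` -/
theorem sheetHom_eq_of_mem {z : ℂ} (hz : z ∈ M.toCutGeometry.U₀) (k k' : Fin M.d) {a : F}
    (ha : a ∈ IntermediateField.adjoin ℂ {M.x}) : sheetHom M hz k a = sheetHom M hz k' a := by
  induction ha using IntermediateField.adjoin_induction with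
  | mem y hy =>
    rw [Set.mem_singleton_iff] at hy
    rw [hy, sheetHom_x, sheetHom_x]
  | algebraMap c => rw [sheetHom_algebraMap, sheetHom_algebraMap]
  | add y y' _ _ h h' => rw [map_add, map_add, h, h']
  | inv y _ h => rw [map_inv₀, map_inv₀, h]
  | mul y y' _ _ h h' => rw [map_mul, map_mul, h, h']

/-- different sheets are different embeddings -/
theorem sheetHom_ne {z : ℂ} (hz : z ∈ M.toCutGeometry.U₀) {k k' : Fin M.d} (hk : k ≠ k') :
    sheetHom M hz k ≠ sheetHom M hz k' := by
  intro h
  obtain ⟨a, ha⟩ := M.ev_separated k k' hk z hz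
  apply ha
  have h1 : sheetHom M hz k a = sheetHom M hz k' a := by rw [h]
  rw [sheetHom_apply, sheetHom_apply, MeroGerm.mk_eq_mk_iff] at h1
  exact h1

/-- the duality identity on the sheets -/
theorem sheetHom_dual {z : ℂ} (hz : z ∈ M.toCutGeometry.U₀)
    [FiniteDimensional (IntermediateField.adjoin ℂ {M.x}) F]
    [Algebra.IsSeparable (IntermediateField.adjoin ℂ {M.x}) F]
    (B : Module.Basis (Fin M.d) (IntermediateField.adjoin ℂ {M.x}) F) (k k' : Fin M.d) :
    ∑ j, sheetHom M hz k (B j) * sheetHom M hz k'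
      ((Algebra.traceForm (IntermediateField.adjoin ℂ {M.x}) F).dualBasis
        (traceForm_nondegenerate (IntermediateField.adjoin ℂ {M.x}) F) B j) =
      if k = k' then 1 else 0 := by
  letI : Algebra (IntermediateField.adjoin ℂ {M.x}) (MeroGerm z) :=
    ((sheetHom M hz ⟨0, M.d_pos⟩).comp
      (algebraMap (IntermediateField.adjoin ℂ {M.x}) F)).toAlgebra
  let Φ : Fin M.d → (F →ₐ[IntermediateField.adjoin ℂ {M.x}] MeroGerm z) := fun k =>
    { sheetHom M hz k with
      commutes' := fun a => sheetHom_eq_of_mem M hz k ⟨0, M.d_pos⟩ a.2 }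
  have hΦ : ∀ k a, Φ k a = sheetHom M hz k a := fun k a => rfl
  have hinj : Function.Injective Φ := by
    intro k k' hkk
    by_contra hne
    apply sheetHom_ne M hz hne
    ext a
    rw [← hΦ, ← hΦ, hkk]
  have h := sum_algHom_mul_dual B Φ hinj k k'
  simp_rw [hΦ] at h
  exact h

/-- **MOD-GLUE, algebraic part**: if all the functions `∑ k, u k · ev k β` (`β ∈ F`) are rational
functions, then `u` is the tuple of sheets of an element of `F`. -/
theorem glue_of_rat (u : Fin M.d → ℂ → ℂ) (hu : ∀ k, MeromorphicOn (u k) M.toCutGeometry.U₀)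
    (hrat : ∀ β : F, ∃ p q : ℂ[X], q ≠ 0 ∧ ∀ z ∈ M.toCutGeometry.U₀,
      (fun w => ∑ k, u k w * M.ev k β w) =ᶠ[𝓝[≠] z] fun w => p.eval w / q.eval w) :
    ∃ h : F, ∀ k, ∀ z ∈ M.toCutGeometry.U₀, u k =ᶠ[𝓝[≠] z] M.ev k h := by
  haveI := M.x_finite
  haveI : CharZero F := charZero_of_injective_algebraMap (algebraMap ℂ F).injective
  haveI : CharZero (IntermediateField.adjoin ℂ {M.x}) :=
    charZero_of_injective_algebraMap
      (algebraMap ℂ (IntermediateField.adjoin ℂ {M.x})).injective
  haveI : Algebra.IsSeparable (IntermediateField.adjoin ℂ {M.x}) F := inferInstance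
  let B : Module.Basis (Fin M.d) (IntermediateField.adjoin ℂ {M.x}) F :=
    Module.finBasisOfFinrankEq _ _ M.d_eq.symm
  set β := (Algebra.traceForm (IntermediateField.adjoin ℂ {M.x}) F).dualBasis
    (traceForm_nondegenerate (IntermediateField.adjoin ℂ {M.x}) F) B with hβ
  choose p q hq hpq using fun j => hrat (β j)
  refine ⟨∑ j, (aeval M.x (p j) / aeval M.x (q j)) * B j, fun k z hz => ?_⟩
  have hc : ∀ j, polyGerm z (p j) / polyGerm z (q j) =
      ∑ k', MeroGerm.mk (u k') (hu k' z hz) * sheetHom M hz k' (β j) := by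
    intro j
    have h1 : MeroGerm.mk (fun w => ∑ k' ∈ Finset.univ, u k' w * M.ev k' (β j) w)
        (MeromorphicAt.fun_sum fun k' _ =>
          (hu k' z hz).mul (M.ev_meromorphicOn k' (β j) z hz)) =
        polyGerm z (p j) / polyGerm z (q j) := by
      rw [polyGerm_apply, polyGerm_apply, ← MeroGerm.mk_div, MeroGerm.mk_eq_mk_iff]
      exact hpq j z hz
    rw [← h1]
    exact mk_finset_sum Finset.univ (fun k' w => u k' w * M.ev k' (β j) w)
      (fun k' => (hu k' z hz).mul (M.ev_meromorphicOn k' (β j) z hz))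
  have key : MeroGerm.mk (u k) (hu k z hz) =
      sheetHom M hz k (∑ j, (aeval M.x (p j) / aeval M.x (q j)) * B j) := by
    rw [map_sum]
    simp_rw [map_mul, map_div₀, sheetHom_aeval, hc, Finset.sum_mul]
    rw [Finset.sum_comm]
    simp_rw [mul_assoc, ← Finset.mul_sum]
    have hd : ∀ k', ∑ j, sheetHom M hz k' (β j) * sheetHom M hz k (B j) =
        if k = k' then 1 else 0 := by
      intro k'
      rw [← sheetHom_dual M hz B k k']
      exact Finset.sum_congr rfl fun j _ => mul_comm _ _
    simp_rw [hd]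
    rw [Finset.sum_eq_single k]
    · rw [if_pos rfl, mul_one]
    · intro k' _ hk'
      rw [if_neg (Ne.symm hk'), mul_zero]
    · intro hk
      exact absurd (Finset.mem_univ k) hk
  rw [sheetHom_apply, MeroGerm.mk_eq_mk_iff] at key
  exact key

end Sheet

end Fermat.Agent.P5.helper64
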