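import Fermat.Agent.P5.helper64_GlueAlg

/-!
# P5 / MOD-GLUE (helper64), analytic part

For a tuple `u` of meromorphic functions on the sheets of a sheet model with the gluing pattern of
the model, and `β ∈ F`, the function `c = ∑ k, u k · ev k β` on the cut plane satisfies the
hypotheses of `RatStatement`: it continues across the rays, to the bad points (in the variable
`s`, `z = b + s ^ E u`, `E` the order of the crossing permutation) and to infinity.

The two forward sector lemmas of plane geometry are taken as hypotheses (`SectorHyp`,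
`SectorInfHyp`).
-/

set_option autoImplicit false
set_option linter.unusedSectionVars false
set_option linter.style.haveILetI false

open Filter Topology Polynomial

namespace Fermat.Agent.P5.helper64

open Fermat.Agent.P5.helper25 Fermat.Agent.P5.helper37 Fermat.Agent.S24.helper99

/-- forward sector lemma at a bad point: a point `b + s ^ E u` of the cut plane has its parameter
`s` in one of the `E` open sectors. -/
def SectorHyp : Prop :=
  ∀ (G : CutGeometry) (i : Fin G.r) (E : ℕ), 0 < E →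
    ∀ᶠ s in 𝓝[≠] (0 : ℂ), G.b i + s ^ E * unitDir G.z₀ (G.b i) ∈ G.U₀ →
      ∃ j : ℕ, j < E ∧ s ∈ sector (2 * Real.pi * j / E) (2 * Real.pi * (j + 1) / E)

/-- forward sector lemma at infinity: a point `z₀ + w⁻¹` of the cut plane, `w` small, lies in
one of the sectors at infinity. -/
def SectorInfHyp : Prop :=
  ∀ (G : CutGeometry), 0 < G.r →
    ∀ᶠ w in 𝓝[≠] (0 : ℂ), G.z₀ + w⁻¹ ∈ G.U₀ → ∃ i, w⁻¹ ∈ G.sectorInf i

section Geometry

/-- the `n`-th power maps the `j`-th sector of angle `2π/(n e)` into the `j`-th sector of angle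
`2π/e`. -/
theorem pow_mem_sector_of_mem {s : ℂ} {j n e E : ℕ} (hn : 0 < n) (he : 0 < e) (hE : E = n * e)
    (hs : s ∈ sector (2 * Real.pi * j / E) (2 * Real.pi * (j + 1) / E)) :
    s ^ n ∈ sector (2 * Real.pi * j / e) (2 * Real.pi * (j + 1) / e) := by
  obtain ⟨ρ, φ, hρ, h1, h2, rfl⟩ := hs
  have hn' : (0 : ℝ) < n := by exact_mod_cast hn
  have he' : (0 : ℝ) < e := by exact_mod_cast he
  have hE' : (E : ℝ) = n * e := by rw [hE]; push_cast; ring
  refine ⟨ρ ^ n, n * φ, pow_pos hρ n, ?_, ?_, ?_⟩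
  · have h3 : 2 * Real.pi * j / e = n * (2 * Real.pi * j / E) := by
      rw [hE']
      field_simp
    rw [h3]
    exact mul_lt_mul_of_pos_left h1 hn'
  · have h3 : 2 * Real.pi * (j + 1) / e = n * (2 * Real.pi * (j + 1) / E) := by
      rw [hE']
      field_simp
    rw [h3]
    exact mul_lt_mul_of_pos_left h2 hn'
  · rw [mul_pow, ← Complex.exp_nat_mul]
    push_cast
    ring_nf

/-- the power map preserves the punctured neighbourhoods of `0` -/
theorem tendsto_pow_nhdsNE_zero {n : ℕ} (hn : 0 < n) :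
    Tendsto (fun s : ℂ => s ^ n) (𝓝[≠] 0) (𝓝[≠] 0) := by
  refine tendsto_nhdsWithin_of_tendsto_nhds_of_eventually_within _ ?_ ?_
  · have h : Tendsto (fun s : ℂ => s ^ n) (𝓝 0) (𝓝 (0 ^ n)) :=
      (continuous_pow n).continuousAt.tendsto
    rw [zero_pow hn.ne'] at h
    exact h.mono_left nhdsWithin_le_nhds
  · filter_upwards [self_mem_nhdsWithin] with s hs
    exact pow_ne_zero n hs

end Geometry

section Analytic

variable {F : Type} [Field F] [Algebra ℂ F] (M : SheetModel F) (u : Fin M.d → ℂ → ℂ)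

/-- the function `∑ k, u k · ev k β` -/
noncomputable def glueFun (β : F) : ℂ → ℂ := fun w => ∑ k, u k w * M.ev k β w

theorem glueFun_meromorphicOn (hu : ∀ k, MeromorphicOn (u k) M.toCutGeometry.U₀) (β : F) :
    MeromorphicOn (glueFun M u β) M.toCutGeometry.U₀ := fun z hz =>
  MeromorphicAt.fun_sum fun k _ => (hu k z hz).mul (M.ev_meromorphicOn k β z hz)

/-- re-indexing by a permutation of the sheets -/
theorem glueFun_perm (β : F) (τ : Equiv.Perm (Fin M.d)) (z : ℂ) :
    ∑ k, u (τ k) z * M.ev (τ k) β z = glueFun M u β z :=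
  Equiv.sum_comp τ fun k => u k z * M.ev k β z

/-- continuation across the rays -/
theorem glueFun_cross
    (hcross : ∀ (i : Fin M.r) (k : Fin M.d) (a : ℂ), a ∈ openRay M.z₀ (M.b i) →
      ∃ g : ℂ → ℂ, MeromorphicAt g a ∧
        (∀ᶠ z in 𝓝[≠] a, z ∈ leftSide M.z₀ (M.b i) → g z = u k z) ∧
        (∀ᶠ z in 𝓝[≠] a, z ∈ rightSide M.z₀ (M.b i) → g z = u (M.σ i k) z))
    (β : F) (i : Fin M.r) (a : ℂ) (ha : a ∈ openRay M.z₀ (M.b i)) :
    ∃ g : ℂ → ℂ, MeromorphicAt g a ∧
      (∀ᶠ z in 𝓝[≠] a, z ∈ leftSide M.z₀ (M.b i) → g z = glueFun M u β z) ∧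
      (∀ᶠ z in 𝓝[≠] a, z ∈ rightSide M.z₀ (M.b i) → g z = glueFun M u β z) := by
  choose gu hgu huL huR using fun k => hcross i k a ha
  choose gβ hgβ hβL hβR using fun k => M.cross i k a ha β
  refine ⟨fun w => ∑ k, gu k w * gβ k w,
    MeromorphicAt.fun_sum fun k _ => (hgu k).mul (hgβ k), ?_, ?_⟩
  · filter_upwards [eventually_all.mpr huL, eventually_all.mpr hβL] with z h1 h2 hz
    exact Finset.sum_congr rfl fun k _ => by rw [h1 k hz, h2 k hz]
  · filter_upwards [eventually_all.mpr huR, eventually_all.mpr hβR] with z h1 h2 hz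
    rw [← glueFun_perm M u β (M.σ i) z]
    exact Finset.sum_congr rfl fun k _ => by rw [h1 k hz, h2 k hz]

/-- continuation to the bad points -/
theorem glueFun_puiseux (hsec : SectorHyp)
    (hpuis : ∀ (i : Fin M.r) (k : Fin M.d), ∃ H : ℂ → ℂ, MeromorphicAt H 0 ∧
      ∀ j : ℕ, ∀ᶠ s in 𝓝[≠] (0 : ℂ),
        s ∈ sector (2 * Real.pi * j / Function.minimalPeriod (M.σ i) k)
            (2 * Real.pi * (j + 1) / Function.minimalPeriod (M.σ i) k) →
          H s = u (((M.σ i)⁻¹ ^ j) k)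
            (M.b i + s ^ Function.minimalPeriod (M.σ i) k * unitDir M.z₀ (M.b i)))
    (β : F) (i : Fin M.r) :
    ∃ (E : ℕ) (K : ℂ → ℂ), 0 < E ∧ MeromorphicAt K 0 ∧
      ∀ᶠ s in 𝓝[≠] (0 : ℂ), M.b i + s ^ E * unitDir M.z₀ (M.b i) ∈ M.toCutGeometry.U₀ →
        K s = glueFun M u β (M.b i + s ^ E * unitDir M.z₀ (M.b i)) := by
  set E := orderOf (M.σ i) with hE
  have hEpos : 0 < E := orderOf_pos _
  have hper : ∀ k, Function.IsPeriodicPt (M.σ i) E k := by
    intro k
    unfold Function.IsPeriodicPt Function.IsFixedPt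
    rw [Equiv.Perm.iterate_eq_pow, pow_orderOf_eq_one]
    rfl
  have hepos : ∀ k, 0 < Function.minimalPeriod (M.σ i) k := fun k =>
    (hper k).minimalPeriod_pos hEpos
  have hdvd : ∀ k, Function.minimalPeriod (M.σ i) k ∣ E := fun k => (hper k).minimalPeriod_dvd
  have hnE : ∀ k, E = E / Function.minimalPeriod (M.σ i) k * Function.minimalPeriod (M.σ i) k :=
    fun k => (Nat.div_mul_cancel (hdvd k)).symm
  have hnpos : ∀ k, 0 < E / Function.minimalPeriod (M.σ i) k := fun k =>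
    Nat.div_pos (Nat.le_of_dvd hEpos (hdvd k)) (hepos k)
  choose Hu hHu hHu' using fun k => hpuis i k
  choose Hβ hHβ hHβ' using fun k => M.puiseux i k β
  have hmero : ∀ (H : ℂ → ℂ) (n : ℕ), 0 < n → MeromorphicAt H 0 →
      MeromorphicAt (fun s => H (s ^ n)) 0 := by
    intro H n hn hH
    have h1 : MeromorphicAt H ((fun s : ℂ => s ^ n) 0) := by
      simp only [zero_pow hn.ne']
      exact hH
    exact h1.comp_analyticAt (g := fun s : ℂ => s ^ n) (by fun_prop)
  refine ⟨E, fun s => ∑ k, Hu k (s ^ (E / Function.minimalPeriod (M.σ i) k)) *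
      Hβ k (s ^ (E / Function.minimalPeriod (M.σ i) k)), hEpos,
    MeromorphicAt.fun_sum fun k _ => (hmero _ _ (hnpos k) (hHu k)).mul
      (hmero _ _ (hnpos k) (hHβ k)), ?_⟩
  -- the finitely many eventualities
  have ev1 : ∀ k, ∀ᶠ s in 𝓝[≠] (0 : ℂ), ∀ j ∈ Finset.range E,
      (s ^ (E / Function.minimalPeriod (M.σ i) k) ∈
          sector (2 * Real.pi * j / Function.minimalPeriod (M.σ i) k)
            (2 * Real.pi * (j + 1) / Function.minimalPeriod (M.σ i) k) →
        Hu k (s ^ (E / Function.minimalPeriod (M.σ i) k)) = u (((M.σ i)⁻¹ ^ j) k)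
          (M.b i + (s ^ (E / Function.minimalPeriod (M.σ i) k)) ^
            Function.minimalPeriod (M.σ i) k * unitDir M.z₀ (M.b i))) := by
    intro k
    have h1 : ∀ᶠ s' in 𝓝[≠] (0 : ℂ), ∀ j ∈ Finset.range E,
        (s' ∈ sector (2 * Real.pi * j / Function.minimalPeriod (M.σ i) k)
            (2 * Real.pi * (j + 1) / Function.minimalPeriod (M.σ i) k) →
          Hu k s' = u (((M.σ i)⁻¹ ^ j) k)
            (M.b i + s' ^ Function.minimalPeriod (M.σ i) k * unitDir M.z₀ (M.b i))) :=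
      (Finset.eventually_all (Finset.range E)).mpr fun j _ => hHu' k j
    exact (tendsto_pow_nhdsNE_zero (hnpos k)).eventually h1
  have ev2 : ∀ k, ∀ᶠ s in 𝓝[≠] (0 : ℂ), ∀ j ∈ Finset.range E,
      (s ^ (E / Function.minimalPeriod (M.σ i) k) ∈
          sector (2 * Real.pi * j / Function.minimalPeriod (M.σ i) k)
            (2 * Real.pi * (j + 1) / Function.minimalPeriod (M.σ i) k) →
        Hβ k (s ^ (E / Function.minimalPeriod (M.σ i) k)) = M.ev (((M.σ i)⁻¹ ^ j) k) β
          (M.b i + (s ^ (E / Function.minimalPeriod (M.σ i) k)) ^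
            Function.minimalPeriod (M.σ i) k * unitDir M.z₀ (M.b i))) := by
    intro k
    have h1 : ∀ᶠ s' in 𝓝[≠] (0 : ℂ), ∀ j ∈ Finset.range E,
        (s' ∈ sector (2 * Real.pi * j / Function.minimalPeriod (M.σ i) k)
            (2 * Real.pi * (j + 1) / Function.minimalPeriod (M.σ i) k) →
          Hβ k s' = M.ev (((M.σ i)⁻¹ ^ j) k) β
            (M.b i + s' ^ Function.minimalPeriod (M.σ i) k * unitDir M.z₀ (M.b i))) :=
      (Finset.eventually_all (Finset.range E)).mpr fun j _ => hHβ' k j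
    exact (tendsto_pow_nhdsNE_zero (hnpos k)).eventually h1
  filter_upwards [eventually_all.mpr ev1, eventually_all.mpr ev2,
    hsec M.toCutGeometry i E hEpos] with s h1 h2 h3 hz
  obtain ⟨j, hj, hs⟩ := h3 hz
  rw [← glueFun_perm M u β ((M.σ i)⁻¹ ^ j)]
  refine Finset.sum_congr rfl fun k _ => ?_
  have hs' := pow_mem_sector_of_mem (hnpos k) (hepos k) (hnE k) hs
  have hpow : (s ^ (E / Function.minimalPeriod (M.σ i) k)) ^ Function.minimalPeriod (M.σ i) k
      = s ^ E := by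
    rw [← pow_mul, ← hnE k]
  rw [h1 k j (Finset.mem_range.mpr hj) hs', h2 k j (Finset.mem_range.mpr hj) hs', hpow]

/-- continuation to infinity -/
theorem glueFun_inf (hinf : SectorInfHyp)
    (hatinf : ∀ k : Fin M.d, ∃ H : ℂ → ℂ, MeromorphicAt H 0 ∧
      (∀ i : Fin M.r, ∀ᶠ w in 𝓝[≠] (0 : ℂ), w⁻¹ ∈ M.toCutGeometry.sectorInf i →
          H w = u ((((List.ofFn M.σ).take (i + 1)).prod)⁻¹ k) (M.z₀ + w⁻¹)) ∧
      (M.r = 0 → ∀ᶠ w in 𝓝[≠] (0 : ℂ), H w = u k (M.z₀ + w⁻¹)))
    (β : F) :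
    ∃ K : ℂ → ℂ, MeromorphicAt K 0 ∧
      ∀ᶠ w in 𝓝[≠] (0 : ℂ), M.z₀ + w⁻¹ ∈ M.toCutGeometry.U₀ →
        K w = glueFun M u β (M.z₀ + w⁻¹) := by
  choose Hu hHu hHu' _ using hatinf
  choose Hβ hHβ hHβ' using fun k => M.atInf k β
  refine ⟨fun w => ∑ k, Hu k w * Hβ k w,
    MeromorphicAt.fun_sum fun k _ => (hHu k).mul (hHβ k), ?_⟩
  have ev1 : ∀ᶠ w in 𝓝[≠] (0 : ℂ), ∀ (k : Fin M.d) (i : Fin M.r),
      w⁻¹ ∈ M.toCutGeometry.sectorInf i →
        Hu k w = u ((((List.ofFn M.σ).take (i + 1)).prod)⁻¹ k) (M.z₀ + w⁻¹) :=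
    eventually_all.mpr fun k => eventually_all.mpr fun i => hHu' k i
  have ev2 : ∀ᶠ w in 𝓝[≠] (0 : ℂ), ∀ (k : Fin M.d) (i : Fin M.r),
      w⁻¹ ∈ M.toCutGeometry.sectorInf i →
        Hβ k w = M.ev ((((List.ofFn M.σ).take (i + 1)).prod)⁻¹ k) β (M.z₀ + w⁻¹) :=
    eventually_all.mpr fun k => eventually_all.mpr fun i => hHβ' k i
  filter_upwards [ev1, ev2, hinf M.toCutGeometry M.r_pos] with w h1 h2 h3 hz
  obtain ⟨i, hi⟩ := h3 hz
  rw [← glueFun_perm M u β (((List.ofFn M.σ).take (i + 1)).prod)⁻¹]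
  exact Finset.sum_congr rfl fun k _ => by rw [h1 k i hi, h2 k i hi]

end Analytic

/-- **[MOD-GLUE]** global generation, from the rationality statement and the two forward sector
lemmas. -/
theorem glueStatement_of (hsec : SectorHyp) (hinf : SectorInfHyp) : GlueStatement := by
  intro hRat F _ _ M u hu hcross hpuis hatinf
  refine glue_of_rat M u hu fun β => ?_
  exact hRat M.toCutGeometry (glueFun M u β) (glueFun_meromorphicOn M u hu β)
    (fun i a ha => glueFun_cross M u hcross β i a ha)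
    (fun i => glueFun_puiseux M u hsec hpuis β i)
    (glueFun_inf M u hinf hatinf β)

end Fermat.Agent.P5.helper64
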