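import Fermat.Agent.P5.helper42_RRDefs

/-!
# P5 / RR / TATE-B, part 1: the relation `≺` and Tate's spaces `E`, `E₁`, `E₂`, `E₀`

For a `K`-subspace `A` of a `K`-vector space `V`:
* `EE A  = {θ : θ A ≺ A}`,
* `E1 A  = {θ : θ V ≺ A}`,
* `E2 A  = {θ : θ A ≺ 0}`,
* `E0 A  = E1 A ⊓ E2 A`.
`EE A` is closed under products, `E1 A`, `E2 A` are two-sided ideals of it, products of two
elements of `E0 A` have finite rank.
-/

set_option autoImplicit false

namespace Fermat.Agent.P5.helper65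

open Fermat.Agent.P5.helper42 Fermat.Agent.P5.helper42.Tate

universe u v

section NMB

variable {K : Type u} [Field K] {V : Type v} [AddCommGroup V] [Module K V]

theorem nmb_of_le {A B : Submodule K V} (h : A ≤ B) : NotMuchBigger A B :=
  ⟨⊥, inferInstance, h.trans le_sup_left⟩

theorem nmb_refl (A : Submodule K V) : NotMuchBigger A A := nmb_of_le le_rfl

theorem nmb_trans {A B C : Submodule K V} (h1 : NotMuchBigger A B) (h2 : NotMuchBigger B C) :
    NotMuchBigger A C := by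
  obtain ⟨W1, hW1, h1⟩ := h1
  obtain ⟨W2, hW2, h2⟩ := h2
  refine ⟨W2 ⊔ W1, Submodule.finite_sup _ _, h1.trans ?_⟩
  rw [← sup_assoc]
  exact sup_le_sup_right h2 W1

theorem nmb_mono_left {A A' B : Submodule K V} (h : A' ≤ A) (h1 : NotMuchBigger A B) :
    NotMuchBigger A' B :=
  nmb_trans (nmb_of_le h) h1

theorem nmb_mono_right {A B B' : Submodule K V} (h : B ≤ B') (h1 : NotMuchBigger A B) :
    NotMuchBigger A B' :=
  nmb_trans h1 (nmb_of_le h)

theorem nmb_map {V' : Type*} [AddCommGroup V'] [Module K V'] (θ : V →ₗ[K] V')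
    {A B : Submodule K V} (h : NotMuchBigger A B) : NotMuchBigger (A.map θ) (B.map θ) := by
  obtain ⟨W, hW, h⟩ := h
  refine ⟨W.map θ, Module.Finite.map W θ, ?_⟩
  rw [← Submodule.map_sup]
  exact Submodule.map_mono h

theorem nmb_sup {A B C : Submodule K V} (h1 : NotMuchBigger A C) (h2 : NotMuchBigger B C) :
    NotMuchBigger (A ⊔ B) C := by
  obtain ⟨W1, hW1, h1⟩ := h1
  obtain ⟨W2, hW2, h2⟩ := h2
  refine ⟨W1 ⊔ W2, Submodule.finite_sup _ _, sup_le ?_ ?_⟩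
  · exact h1.trans (sup_le_sup_left le_sup_left C)
  · exact h2.trans (sup_le_sup_left le_sup_right C)

theorem nmb_bot_iff {A : Submodule K V} : NotMuchBigger A ⊥ ↔ Module.Finite K A := by
  constructor
  · rintro ⟨W, hW, h⟩
    rw [bot_sup_eq] at h
    exact Submodule.finiteDimensional_of_le h
  · intro h
    exact ⟨A, h, le_sup_right⟩

theorem nmb_of_finite {A : Submodule K V} (B : Submodule K V) (h : Module.Finite K A) :
    NotMuchBigger A B :=
  nmb_mono_right bot_le (nmb_bot_iff.mpr h)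

/-- `X ≺ A` implies `X ≺ X ⊓ A`. -/
theorem nmb_inf_self {X A : Submodule K V} (h : NotMuchBigger X A) :
    NotMuchBigger X (X ⊓ A) := by
  obtain ⟨W, hW, h⟩ := h
  -- the map `X → V ⧸ A`
  set ψ : X →ₗ[K] V ⧸ A := A.mkQ ∘ₗ X.subtype with hψ
  obtain ⟨W', hW'⟩ := (LinearMap.ker ψ).exists_isCompl
  -- `W'` embeds into the image of `W` in `V ⧸ A`
  have hmem : ∀ x : W', (ψ ∘ₗ W'.subtype) x ∈ W.map A.mkQ := by
    intro x
    have hx : ((x : X) : V) ∈ A ⊔ W := h (x : X).2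
    obtain ⟨a, ha, w, hw, hxw⟩ := Submodule.mem_sup.mp hx
    refine ⟨w, hw, ?_⟩
    rw [LinearMap.comp_apply, hψ, LinearMap.comp_apply, Submodule.subtype_apply,
      Submodule.subtype_apply, ← hxw, map_add]
    have : A.mkQ a = 0 := by simpa using ha
    rw [this, zero_add]
  have hinj : Function.Injective (LinearMap.codRestrict (W.map A.mkQ) (ψ ∘ₗ W'.subtype) hmem) := by
    rw [← LinearMap.ker_eq_bot, LinearMap.ker_codRestrict, LinearMap.ker_comp,
      eq_bot_iff]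
    intro x hx
    rw [Submodule.mem_comap, Submodule.subtype_apply] at hx
    have h1 : (x : X) ∈ LinearMap.ker ψ ⊓ W' := ⟨hx, x.2⟩
    rw [hW'.inf_eq_bot, Submodule.mem_bot] at h1
    rw [Submodule.mem_bot]
    exact Subtype.ext h1
  have : Module.Finite K (W.map A.mkQ) := Module.Finite.map W _
  have hfin : Module.Finite K W' := Module.Finite.of_injective _ hinj
  refine ⟨W'.map X.subtype, Module.Finite.map W' _, ?_⟩
  intro x hx
  have h2 : (⟨x, hx⟩ : X) ∈ LinearMap.ker ψ ⊔ W' := by rw [hW'.sup_eq_top]; trivial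
  obtain ⟨k, hk, w, hw, hkw⟩ := Submodule.mem_sup.mp h2
  have h3 : x = (k : V) + (w : V) := by
    have := congrArg (Subtype.val) hkw
    simpa using this.symm
  rw [h3]
  refine Submodule.add_mem_sup ⟨k.2, ?_⟩ ⟨w, hw, rfl⟩
  have h4 : ψ k = 0 := hk
  rw [hψ, LinearMap.comp_apply, Submodule.subtype_apply] at h4
  simpa using h4

theorem nmb_inf {X A B : Submodule K V} (h1 : NotMuchBigger X A) (h2 : NotMuchBigger X B) :
    NotMuchBigger X (A ⊓ B) := by
  have h3 : NotMuchBigger X (X ⊓ A) := nmb_inf_self h1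
  have h4 : NotMuchBigger (X ⊓ A) ((X ⊓ A) ⊓ B) := nmb_inf_self (nmb_mono_left inf_le_left h2)
  refine nmb_mono_right ?_ (nmb_trans h3 h4)
  exact le_inf (inf_le_left.trans inf_le_right) inf_le_right

end NMB

section Espaces

variable {K : Type u} [Field K] {V : Type v} [AddCommGroup V] [Module K V]

theorem map_add_le (A : Submodule K V) (θ φ : V →ₗ[K] V) :
    A.map (θ + φ) ≤ A.map θ ⊔ A.map φ := by
  rintro _ ⟨a, ha, rfl⟩
  rw [LinearMap.add_apply]
  exact Submodule.add_mem_sup ⟨a, ha, rfl⟩ ⟨a, ha, rfl⟩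

theorem map_smul_le (A : Submodule K V) (c : K) (θ : V →ₗ[K] V) :
    A.map (c • θ) ≤ A.map θ := by
  rintro _ ⟨a, ha, rfl⟩
  rw [LinearMap.smul_apply]
  exact Submodule.smul_mem _ c ⟨a, ha, rfl⟩

theorem map_mul_eq (A : Submodule K V) (θ φ : V →ₗ[K] V) :
    A.map (θ * φ) = (A.map φ).map θ := by
  rw [Module.End.mul_eq_comp, Submodule.map_comp]

theorem range_eq_map_top (θ : V →ₗ[K] V) : LinearMap.range θ = (⊤ : Submodule K V).map θ :=
  (Submodule.map_top θ).symm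

/-- `E = {θ : θ A ≺ A}`. -/
def EE (A : Submodule K V) : Submodule K (V →ₗ[K] V) where
  carrier := {θ | NotMuchBigger (A.map θ) A}
  add_mem' := fun {θ φ} hθ hφ => nmb_mono_left (map_add_le A θ φ) (nmb_sup hθ hφ)
  zero_mem' := by
    change NotMuchBigger (A.map (0 : V →ₗ[K] V)) A
    rw [Submodule.map_zero]
    exact nmb_of_le bot_le
  smul_mem' := fun c θ hθ => nmb_mono_left (map_smul_le A c θ) hθ

/-- `E₁ = {θ : θ V ≺ A}`. -/
def E1 (A : Submodule K V) : Submodule K (V →ₗ[K] V) where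
  carrier := {θ | NotMuchBigger ((⊤ : Submodule K V).map θ) A}
  add_mem' := fun {θ φ} hθ hφ => nmb_mono_left (map_add_le ⊤ θ φ) (nmb_sup hθ hφ)
  zero_mem' := by
    change NotMuchBigger ((⊤ : Submodule K V).map (0 : V →ₗ[K] V)) A
    rw [Submodule.map_zero]
    exact nmb_of_le bot_le
  smul_mem' := fun c θ hθ => nmb_mono_left (map_smul_le ⊤ c θ) hθ

/-- `E₂ = {θ : θ A ≺ 0}`. -/
def E2 (A : Submodule K V) : Submodule K (V →ₗ[K] V) where
  carrier := {θ | NotMuchBigger (A.map θ) ⊥}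
  add_mem' := fun {θ φ} hθ hφ => nmb_mono_left (map_add_le A θ φ) (nmb_sup hθ hφ)
  zero_mem' := by
    change NotMuchBigger (A.map (0 : V →ₗ[K] V)) ⊥
    rw [Submodule.map_zero]
    exact nmb_of_le bot_le
  smul_mem' := fun c θ hθ => nmb_mono_left (map_smul_le A c θ) hθ

/-- `E₀ = E₁ ⊓ E₂`. -/
def E0 (A : Submodule K V) : Submodule K (V →ₗ[K] V) := E1 A ⊓ E2 A

theorem mem_EE {A : Submodule K V} {θ : V →ₗ[K] V} :
    θ ∈ EE A ↔ NotMuchBigger (A.map θ) A := Iff.rfl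

theorem mem_E1 {A : Submodule K V} {θ : V →ₗ[K] V} :
    θ ∈ E1 A ↔ NotMuchBigger ((⊤ : Submodule K V).map θ) A := Iff.rfl

theorem mem_E2 {A : Submodule K V} {θ : V →ₗ[K] V} :
    θ ∈ E2 A ↔ NotMuchBigger (A.map θ) ⊥ := Iff.rfl

theorem mem_E0 {A : Submodule K V} {θ : V →ₗ[K] V} :
    θ ∈ E0 A ↔ θ ∈ E1 A ∧ θ ∈ E2 A := Iff.rfl

theorem E1_le_EE (A : Submodule K V) : E1 A ≤ EE A :=
  fun _ h => nmb_mono_left (Submodule.map_mono le_top) h

theorem E2_le_EE (A : Submodule K V) : E2 A ≤ EE A :=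
  fun _ h => nmb_mono_right bot_le h

theorem E0_le_E1 (A : Submodule K V) : E0 A ≤ E1 A := inf_le_left

theorem E0_le_E2 (A : Submodule K V) : E0 A ≤ E2 A := inf_le_right

theorem E0_le_EE (A : Submodule K V) : E0 A ≤ EE A := (E0_le_E1 A).trans (E1_le_EE A)

theorem one_mem_EE (A : Submodule K V) : (1 : V →ₗ[K] V) ∈ EE A := by
  rw [mem_EE, Module.End.one_eq_id, Submodule.map_id]
  exact nmb_refl A

theorem mul_mem_EE {A : Submodule K V} {θ φ : V →ₗ[K] V} (hθ : θ ∈ EE A) (hφ : φ ∈ EE A) :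
    θ * φ ∈ EE A := by
  rw [mem_EE, map_mul_eq]
  exact nmb_trans (nmb_map θ hφ) hθ

/-- `E₁` is a right ideal (even for arbitrary right factors). -/
theorem mul_mem_E1_left {A : Submodule K V} {θ : V →ₗ[K] V} (hθ : θ ∈ E1 A) (φ : V →ₗ[K] V) :
    θ * φ ∈ E1 A := by
  rw [mem_E1, map_mul_eq]
  exact nmb_mono_left (Submodule.map_mono le_top) hθ

/-- `E₁` is a left ideal of `E`. -/
theorem mul_mem_E1_right {A : Submodule K V} {φ θ : V →ₗ[K] V} (hφ : φ ∈ EE A)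
    (hθ : θ ∈ E1 A) : φ * θ ∈ E1 A := by
  rw [mem_E1, map_mul_eq]
  exact nmb_trans (nmb_map φ hθ) hφ

/-- `E₂` is a right ideal of `E`. -/
theorem mul_mem_E2_left {A : Submodule K V} {θ φ : V →ₗ[K] V} (hθ : θ ∈ E2 A)
    (hφ : φ ∈ EE A) : θ * φ ∈ E2 A := by
  rw [mem_E2, map_mul_eq]
  exact nmb_trans (nmb_map θ hφ) hθ

/-- `E₂` is a left ideal (even for arbitrary left factors). -/
theorem mul_mem_E2_right {A : Submodule K V} (φ : V →ₗ[K] V) {θ : V →ₗ[K] V}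
    (hθ : θ ∈ E2 A) : φ * θ ∈ E2 A := by
  rw [mem_E2, map_mul_eq]
  have := nmb_map φ hθ
  rwa [Submodule.map_bot] at this

theorem mul_mem_E0_of_E1_E2 {A : Submodule K V} {θ η : V →ₗ[K] V} (hθ : θ ∈ E1 A)
    (hη : η ∈ E2 A) : θ * η ∈ E0 A :=
  ⟨mul_mem_E1_left hθ η, mul_mem_E2_right θ hη⟩

theorem mul_mem_E0_of_E2_E1 {A : Submodule K V} {θ η : V →ₗ[K] V} (hη : η ∈ E2 A)
    (hθ : θ ∈ E1 A) : η * θ ∈ E0 A :=
  ⟨mul_mem_E1_right (E2_le_EE A hη) hθ, mul_mem_E2_left hη (E1_le_EE A hθ)⟩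

theorem mul_mem_E0_left {A : Submodule K V} {θ φ : V →ₗ[K] V} (hθ : θ ∈ E0 A)
    (hφ : φ ∈ EE A) : θ * φ ∈ E0 A :=
  ⟨mul_mem_E1_left hθ.1 φ, mul_mem_E2_left hθ.2 hφ⟩

theorem mul_mem_E0_right {A : Submodule K V} {φ θ : V →ₗ[K] V} (hφ : φ ∈ EE A)
    (hθ : θ ∈ E0 A) : φ * θ ∈ E0 A :=
  ⟨mul_mem_E1_right hφ hθ.1, mul_mem_E2_right φ hθ.2⟩

/-- Products of an element of `E₂` and an element of `E₁` have finite rank. -/
theorem finite_range_mul {A : Submodule K V} {θ₁ θ₂ : V →ₗ[K] V} (h1 : θ₁ ∈ E2 A)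
    (h2 : θ₂ ∈ E1 A) : Module.Finite K (LinearMap.range (θ₁ * θ₂)) := by
  rw [← nmb_bot_iff, range_eq_map_top, map_mul_eq]
  exact nmb_trans (nmb_map θ₁ h2) h1

/-- `E₀` is a finite-potent subspace (`n = 2`). -/
theorem finite_range_list_prod_E0 (A : Submodule K V) (l : List (V →ₗ[K] V))
    (hl : l.length = 2) (hmem : ∀ θ ∈ l, θ ∈ E0 A) :
    Module.Finite K (LinearMap.range l.prod) := by
  match l, hl with
  | [θ₁, θ₂], _ =>
    rw [List.prod_cons, List.prod_cons, List.prod_nil, mul_one]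
    exact finite_range_mul (hmem θ₁ (by simp)).2 (hmem θ₂ (by simp)).1

/-- Elements of `E₀` are finite-potent. -/
theorem finite_range_sq {A : Submodule K V} {θ : V →ₗ[K] V} (h : θ ∈ E0 A) :
    Module.Finite K (LinearMap.range (θ ^ 2)) := by
  rw [pow_two]
  exact finite_range_mul h.2 h.1

/-- The spaces `E`, `E₁`, `E₂` only depend on the commensurability class of `A`. -/
theorem EE_le_of_nmb {A A' : Submodule K V} (h : NotMuchBigger A A')
    (h' : NotMuchBigger A' A) : EE A ≤ EE A' := fun θ hθ =>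
  nmb_trans (nmb_map θ h') (nmb_trans hθ h)

theorem E1_le_of_nmb {A A' : Submodule K V} (h : NotMuchBigger A A') : E1 A ≤ E1 A' :=
  fun _ hθ => nmb_trans hθ h

theorem E2_le_of_nmb {A A' : Submodule K V} (h' : NotMuchBigger A' A) : E2 A ≤ E2 A' :=
  fun θ hθ => nmb_trans (nmb_map θ h') hθ

end Espaces

section Proj

variable {K : Type u} [Field K] {V : Type v} [AddCommGroup V] [Module K V]

theorem exists_isProj (A : Submodule K V) : ∃ π : V →ₗ[K] V, LinearMap.IsProj A π := by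
  obtain ⟨q, hq⟩ := A.exists_isCompl
  exact ⟨A.projection q hq, ⟨fun x => Submodule.projection_apply_mem hq x,
    fun x hx => Submodule.projection_apply_of_mem_left hq hx⟩⟩

theorem isProj_mem_E1 {A : Submodule K V} {π : V →ₗ[K] V} (hπ : LinearMap.IsProj A π) :
    π ∈ E1 A := by
  rw [mem_E1]
  apply nmb_of_le
  rintro _ ⟨x, -, rfl⟩
  exact hπ.map_mem x

/-- `π θ ∈ E₁` for every `θ`. -/
theorem isProj_mul_mem_E1 {A : Submodule K V} {π : V →ₗ[K] V} (hπ : LinearMap.IsProj A π)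
    (θ : V →ₗ[K] V) : π * θ ∈ E1 A :=
  mul_mem_E1_left (isProj_mem_E1 hπ) θ

/-- `π θ ≡ θ` modulo `E₂` for `θ ∈ E`. -/
theorem isProj_mul_sub_mem_E2 {A : Submodule K V} {π : V →ₗ[K] V} (hπ : LinearMap.IsProj A π)
    {θ : V →ₗ[K] V} (hθ : θ ∈ EE A) : π * θ - θ ∈ E2 A := by
  rw [mem_E2]
  obtain ⟨W, hW, h⟩ := hθ
  refine nmb_bot_iff.mpr ?_
  have : Module.Finite K (W.map (π - 1)) := Module.Finite.map W _
  refine Submodule.finiteDimensional_of_le (S₂ := W.map (π - 1)) ?_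
  rintro _ ⟨a, ha, rfl⟩
  have h1 : θ a ∈ A ⊔ W := h ⟨a, ha, rfl⟩
  obtain ⟨b, hb, w, hw, hbw⟩ := Submodule.mem_sup.mp h1
  refine ⟨w, hw, ?_⟩
  rw [LinearMap.sub_apply, LinearMap.sub_apply, Module.End.mul_apply, Module.End.one_apply,
    ← hbw, map_add, hπ.map_id b hb]
  abel

end Proj

end Fermat.Agent.P5.helper65
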