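import Fermat.Agent.P5.helper65_TateBasic

/-!
# P5 / RR / TATE-B, part 2: the pairing `r(f, g) = tr [f₁, g₁]`

For commuting `f, g ∈ E` and lifts `f₁ ≡ f`, `g₁ ≡ g` modulo `E₂`, one of them in `E₁`, the
commutator `[f₁, g₁]` lies in `E₀` and its trace does not depend on the lifts (Tate, Theorem 1).
-/

set_option autoImplicit false

namespace Fermat.Agent.P5.helper65

open Fermat.Agent.P5.helper42 Fermat.Agent.P5.helper42.Tate

universe u v

/-- The properties of the finite-potent trace (the four conjuncts of `FpTraceStatement`). -/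
structure IsFpTrace (K : Type u) [Field K]
    (tr : ∀ (V : Type v) [AddCommGroup V] [Module K V], (V →ₗ[K] V) → K) : Prop where
  master : ∀ (V : Type v) [AddCommGroup V] [Module K V] (θ : V →ₗ[K] V) (W : Submodule K V)
      (n : ℕ) (hW : ∀ w ∈ W, θ w ∈ W), Module.Finite K W → LinearMap.range (θ ^ n) ≤ W →
      tr V θ = LinearMap.trace K W (θ.restrict hW)
  nil : ∀ (V : Type v) [AddCommGroup V] [Module K V] (θ : V →ₗ[K] V) (n : ℕ),
      θ ^ n = 0 → tr V θ = 0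
  lin : ∀ (V : Type v) [AddCommGroup V] [Module K V] (𝔉 : Submodule K (V →ₗ[K] V)) (n : ℕ),
      (∀ l : List (V →ₗ[K] V), l.length = n → (∀ θ ∈ l, θ ∈ 𝔉) →
        Module.Finite K (LinearMap.range l.prod)) →
      (∀ θ₁ ∈ 𝔉, ∀ θ₂ ∈ 𝔉, tr V (θ₁ + θ₂) = tr V θ₁ + tr V θ₂) ∧
        ∀ (c : K), ∀ θ ∈ 𝔉, tr V (c • θ) = c * tr V θ
  comm : ∀ (V : Type v) [AddCommGroup V] [Module K V] (φ ψ : V →ₗ[K] V) (n : ℕ),
      Module.Finite K (LinearMap.range ((φ * ψ) ^ n)) → tr V (φ * ψ) = tr V (ψ * φ)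

section Bracket

variable {K : Type u} [Field K] {V : Type v} [AddCommGroup V] [Module K V]

/-- The commutator. -/
def brk (f g : V →ₗ[K] V) : V →ₗ[K] V := f * g - g * f

theorem brk_def (f g : V →ₗ[K] V) : brk f g = f * g - g * f := rfl

theorem brk_swap (f g : V →ₗ[K] V) : brk f g = - brk g f := by
  rw [brk_def, brk_def, neg_sub]

theorem brk_add_left (f f' g : V →ₗ[K] V) : brk (f + f') g = brk f g + brk f' g := by
  simp only [brk_def, add_mul, mul_add]; abel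

theorem brk_add_right (f g g' : V →ₗ[K] V) : brk f (g + g') = brk f g + brk f g' := by
  simp only [brk_def, add_mul, mul_add]; abel

theorem brk_smul_left (c : K) (f g : V →ₗ[K] V) : brk (c • f) g = c • brk f g := by
  simp only [brk_def, smul_mul_assoc, mul_smul_comm, smul_sub]

theorem brk_smul_right (c : K) (f g : V →ₗ[K] V) : brk f (c • g) = c • brk f g := by
  simp only [brk_def, smul_mul_assoc, mul_smul_comm, smul_sub]

end Bracket

section Trace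

variable {K : Type u} [Field K]
  {tr : ∀ (V : Type v) [AddCommGroup V] [Module K V], (V →ₗ[K] V) → K}
  {V : Type v} [AddCommGroup V] [Module K V]

theorem IsFpTrace.zero (htr : IsFpTrace K tr) : tr V 0 = 0 :=
  htr.nil V 0 1 (pow_one 0)

theorem IsFpTrace.add_E0 (htr : IsFpTrace K tr) {A : Submodule K V} {θ₁ θ₂ : V →ₗ[K] V}
    (h1 : θ₁ ∈ E0 A) (h2 : θ₂ ∈ E0 A) : tr V (θ₁ + θ₂) = tr V θ₁ + tr V θ₂ :=
  (htr.lin V (E0 A) 2 (finite_range_list_prod_E0 A)).1 θ₁ h1 θ₂ h2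

theorem IsFpTrace.smul_E0 (htr : IsFpTrace K tr) {A : Submodule K V} (c : K) {θ : V →ₗ[K] V}
    (h : θ ∈ E0 A) : tr V (c • θ) = c * tr V θ :=
  (htr.lin V (E0 A) 2 (finite_range_list_prod_E0 A)).2 c θ h

theorem IsFpTrace.neg_E0 (htr : IsFpTrace K tr) {A : Submodule K V} {θ : V →ₗ[K] V}
    (h : θ ∈ E0 A) : tr V (-θ) = - tr V θ := by
  have := htr.smul_E0 (-1) h
  rwa [neg_one_smul, neg_one_mul] at this

theorem IsFpTrace.sub_E0 (htr : IsFpTrace K tr) {A : Submodule K V} {θ₁ θ₂ : V →ₗ[K] V}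
    (h1 : θ₁ ∈ E0 A) (h2 : θ₂ ∈ E0 A) : tr V (θ₁ - θ₂) = tr V θ₁ - tr V θ₂ := by
  rw [sub_eq_add_neg, htr.add_E0 h1 ((E0 A).neg_mem h2), htr.neg_E0 h2, sub_eq_add_neg]

theorem IsFpTrace.comm_E0 (htr : IsFpTrace K tr) {A : Submodule K V} {φ ψ : V →ₗ[K] V}
    (h : φ * ψ ∈ E0 A) : tr V (φ * ψ) = tr V (ψ * φ) :=
  htr.comm V φ ψ 2 (finite_range_sq h)

/-- The trace of a commutator of an element of `E₁` and an element of `E₂` vanishes. -/
theorem IsFpTrace.brk_E1_E2 (htr : IsFpTrace K tr) {A : Submodule K V} {θ η : V →ₗ[K] V}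
    (hθ : θ ∈ E1 A) (hη : η ∈ E2 A) : tr V (brk θ η) = 0 := by
  rw [brk_def, htr.sub_E0 (mul_mem_E0_of_E1_E2 hθ hη) (mul_mem_E0_of_E2_E1 hη hθ),
    htr.comm_E0 (mul_mem_E0_of_E1_E2 hθ hη), sub_self]

/-- The trace of a commutator of an element of `E₀` and an element of `E` vanishes. -/
theorem IsFpTrace.brk_E0_EE (htr : IsFpTrace K tr) {A : Submodule K V} {ε φ : V →ₗ[K] V}
    (hε : ε ∈ E0 A) (hφ : φ ∈ EE A) : tr V (brk ε φ) = 0 := by
  rw [brk_def, htr.sub_E0 (mul_mem_E0_left hε hφ) (mul_mem_E0_right hφ hε),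
    htr.comm_E0 (mul_mem_E0_left hε hφ), sub_self]

end Trace

section Lift

variable {K : Type u} [Field K]
  {tr : ∀ (V : Type v) [AddCommGroup V] [Module K V], (V →ₗ[K] V) → K}
  {V : Type v} [AddCommGroup V] [Module K V]

theorem mem_EE_of_sub_mem_E2 {A : Submodule K V} {g g₁ : V →ₗ[K] V} (hg : g ∈ EE A)
    (h : g₁ - g ∈ E2 A) : g₁ ∈ EE A := by
  have : g₁ = g + (g₁ - g) := by abel
  rw [this]
  exact (EE A).add_mem hg (E2_le_EE A h)

theorem brk_mem_E2 {A : Submodule K V} {θ η : V →ₗ[K] V} (hθ : θ ∈ EE A) (hη : η ∈ E2 A) :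
    brk θ η ∈ E2 A :=
  (E2 A).sub_mem (mul_mem_E2_right θ hη) (mul_mem_E2_left hη hθ)

theorem brk_mem_E2' {A : Submodule K V} {θ η : V →ₗ[K] V} (hη : η ∈ E2 A) (hθ : θ ∈ EE A) :
    brk η θ ∈ E2 A :=
  (E2 A).sub_mem (mul_mem_E2_left hη hθ) (mul_mem_E2_right θ hη)

/-- `[f₁, g₁] ∈ E₀` when `f₁ ∈ E₁`. -/
theorem brk_mem_E0_of_left {A : Submodule K V} {f g f₁ g₁ : V →ₗ[K] V}
    (hfg : f * g = g * f) (hg : g ∈ EE A)
    (hf₁ : f₁ ∈ E1 A) (hf₁' : f₁ - f ∈ E2 A) (hg₁' : g₁ - g ∈ E2 A) :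
    brk f₁ g₁ ∈ E0 A := by
  have hg₁ : g₁ ∈ EE A := mem_EE_of_sub_mem_E2 hg hg₁'
  refine ⟨(E1 A).sub_mem (mul_mem_E1_left hf₁ g₁) (mul_mem_E1_right hg₁ hf₁), ?_⟩
  have e : brk f₁ g₁ = brk f₁ (g₁ - g) + brk (f₁ - f) g := by
    simp only [brk_def, mul_sub, sub_mul, hfg]; abel
  rw [e]
  exact (E2 A).add_mem (brk_mem_E2 (E1_le_EE A hf₁) hg₁') (brk_mem_E2' hf₁' hg)

/-- Independence of the lifts, case `f₁, f₁' ∈ E₁`. -/
theorem tr_brk_eq_of_left (htr : IsFpTrace K tr) {A : Submodule K V}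
    {f g f₁ g₁ f₁' g₁' : V →ₗ[K] V}
    (hfg : f * g = g * f) (hg : g ∈ EE A)
    (hf₁ : f₁ ∈ E1 A) (hf₁2 : f₁ - f ∈ E2 A) (hg₁2 : g₁ - g ∈ E2 A)
    (hf₁' : f₁' ∈ E1 A) (hf₁'2 : f₁' - f ∈ E2 A) (hg₁'2 : g₁' - g ∈ E2 A) :
    tr V (brk f₁ g₁) = tr V (brk f₁' g₁') := by
  have hg₁' : g₁' ∈ EE A := mem_EE_of_sub_mem_E2 hg hg₁'2
  -- step 1: change `g₁` to `g₁'`
  have hδ : g₁' - g₁ ∈ E2 A := by
    have : g₁' - g₁ = (g₁' - g) - (g₁ - g) := by abel
    rw [this]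
    exact (E2 A).sub_mem hg₁'2 hg₁2
  have h1 : tr V (brk f₁ g₁') = tr V (brk f₁ g₁) := by
    have e : brk f₁ g₁' = brk f₁ g₁ + brk f₁ (g₁' - g₁) := by
      rw [← brk_add_right]; congr 1; abel
    have hb : brk f₁ (g₁' - g₁) ∈ E0 A :=
      (E0 A).sub_mem (mul_mem_E0_of_E1_E2 hf₁ hδ) (mul_mem_E0_of_E2_E1 hδ hf₁)
    rw [e, htr.add_E0 (brk_mem_E0_of_left hfg hg hf₁ hf₁2 hg₁2) hb, htr.brk_E1_E2 hf₁ hδ,
      add_zero]
  -- step 2: change `f₁` to `f₁'`
  have hε : f₁' - f₁ ∈ E0 A := by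
    refine ⟨(E1 A).sub_mem hf₁' hf₁, ?_⟩
    have : f₁' - f₁ = (f₁' - f) - (f₁ - f) := by abel
    rw [this]
    exact (E2 A).sub_mem hf₁'2 hf₁2
  have h2 : tr V (brk f₁' g₁') = tr V (brk f₁ g₁') := by
    have e : brk f₁' g₁' = brk f₁ g₁' + brk (f₁' - f₁) g₁' := by
      rw [← brk_add_left]; congr 1; abel
    have hb : brk (f₁' - f₁) g₁' ∈ E0 A :=
      (E0 A).sub_mem (mul_mem_E0_left hε hg₁') (mul_mem_E0_right hg₁' hε)
    rw [e, htr.add_E0 (brk_mem_E0_of_left hfg hg hf₁ hf₁2 hg₁'2) hb, htr.brk_E0_EE hε hg₁',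
      add_zero]
  rw [h2, h1]

/-- A lift pair of `(f, g)`: `f₁ ≡ f`, `g₁ ≡ g` modulo `E₂`, and `f₁ ∈ E₁` or `g₁ ∈ E₁`. -/
def IsLiftPair (A : Submodule K V) (f g f₁ g₁ : V →ₗ[K] V) : Prop :=
  f₁ - f ∈ E2 A ∧ g₁ - g ∈ E2 A ∧ (f₁ ∈ E1 A ∨ g₁ ∈ E1 A)

theorem IsLiftPair.brk_mem_E0 {A : Submodule K V} {f g f₁ g₁ : V →ₗ[K] V}
    (hfg : f * g = g * f) (hf : f ∈ EE A) (hg : g ∈ EE A) (h : IsLiftPair A f g f₁ g₁) :
    brk f₁ g₁ ∈ E0 A := by
  obtain ⟨h1, h2, h3 | h3⟩ := h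
  · exact brk_mem_E0_of_left hfg hg h3 h1 h2
  · rw [brk_swap]
    exact (E0 A).neg_mem (brk_mem_E0_of_left hfg.symm hf h3 h2 h1)

/-- The reference lift pair attached to a projection onto `A`. -/
theorem isLiftPair_proj {A : Submodule K V} {π : V →ₗ[K] V} (hπ : LinearMap.IsProj A π)
    {f g : V →ₗ[K] V} (hf : f ∈ EE A) (hg : g ∈ EE A) : IsLiftPair A f g (π * f) (π * g) :=
  ⟨isProj_mul_sub_mem_E2 hπ hf, isProj_mul_sub_mem_E2 hπ hg, Or.inl (isProj_mul_mem_E1 hπ f)⟩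

/-- **Lemma (L)**: the trace of `[f₁, g₁]` does not depend on the lift pair. -/
theorem IsLiftPair.tr_eq (htr : IsFpTrace K tr) {A : Submodule K V}
    {f g f₁ g₁ f₁' g₁' : V →ₗ[K] V} (hfg : f * g = g * f) (hf : f ∈ EE A) (hg : g ∈ EE A)
    (h : IsLiftPair A f g f₁ g₁) (h' : IsLiftPair A f g f₁' g₁') :
    tr V (brk f₁ g₁) = tr V (brk f₁' g₁') := by
  obtain ⟨π, hπ⟩ := exists_isProj A
  -- every lift pair is equal to the reference pair
  have key : ∀ {a b : V →ₗ[K] V}, IsLiftPair A f g a b →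
      tr V (brk a b) = tr V (brk (π * f) (π * g)) := by
    intro a b hab
    obtain ⟨h1, h2, h3 | h3⟩ := hab
    · exact tr_brk_eq_of_left htr hfg hg h3 h1 h2 (isProj_mul_mem_E1 hπ f)
        (isProj_mul_sub_mem_E2 hπ hf) (isProj_mul_sub_mem_E2 hπ hg)
    · have e1 := tr_brk_eq_of_left htr hfg.symm hf h3 h2 h1 (isProj_mul_mem_E1 hπ g)
        (isProj_mul_sub_mem_E2 hπ hg) (isProj_mul_sub_mem_E2 hπ hf)
      have m1 : brk b a ∈ E0 A := brk_mem_E0_of_left hfg.symm hf h3 h2 h1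
      have m2 : brk (π * g) (π * f) ∈ E0 A :=
        brk_mem_E0_of_left hfg.symm hf (isProj_mul_mem_E1 hπ g)
          (isProj_mul_sub_mem_E2 hπ hg) (isProj_mul_sub_mem_E2 hπ hf)
      rw [brk_swap a b, brk_swap (π * f) (π * g), htr.neg_E0 m1, htr.neg_E0 m2, e1]
  rw [key h, key h']

end Lift

section Pairing

variable {K : Type u} [Field K]
  (tr : ∀ (V : Type v) [AddCommGroup V] [Module K V], (V →ₗ[K] V) → K)
  {V : Type v} [AddCommGroup V] [Module K V]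

/-- Tate's pairing `r(f, g) = tr [π f, π g]`, `π` a projection onto `A`. -/
noncomputable def pairing (A : Submodule K V) (f g : V →ₗ[K] V) : K :=
  tr V (brk (Classical.choose (exists_isProj A) * f) (Classical.choose (exists_isProj A) * g))

variable {tr}

theorem pairing_eq (htr : IsFpTrace K tr) {A : Submodule K V} {f g f₁ g₁ : V →ₗ[K] V}
    (hfg : f * g = g * f) (hf : f ∈ EE A) (hg : g ∈ EE A) (h : IsLiftPair A f g f₁ g₁) :
    pairing tr A f g = tr V (brk f₁ g₁) :=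
  IsLiftPair.tr_eq htr hfg hf hg
    (isLiftPair_proj (Classical.choose_spec (exists_isProj A)) hf hg) h

theorem pairing_add_left (htr : IsFpTrace K tr) {A : Submodule K V} {f f' g : V →ₗ[K] V}
    (hfg : f * g = g * f) (hfg' : f' * g = g * f') (hf : f ∈ EE A) (hf' : f' ∈ EE A)
    (hg : g ∈ EE A) : pairing tr A (f + f') g = pairing tr A f g + pairing tr A f' g := by
  have hπ := Classical.choose_spec (exists_isProj A)
  unfold pairing
  rw [mul_add, brk_add_left]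
  exact htr.add_E0 ((isLiftPair_proj hπ hf hg).brk_mem_E0 hfg hf hg)
    ((isLiftPair_proj hπ hf' hg).brk_mem_E0 hfg' hf' hg)

theorem pairing_add_right (htr : IsFpTrace K tr) {A : Submodule K V} {f g g' : V →ₗ[K] V}
    (hfg : f * g = g * f) (hfg' : f * g' = g' * f) (hf : f ∈ EE A) (hg : g ∈ EE A)
    (hg' : g' ∈ EE A) : pairing tr A f (g + g') = pairing tr A f g + pairing tr A f g' := by
  have hπ := Classical.choose_spec (exists_isProj A)
  unfold pairing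
  rw [mul_add, brk_add_right]
  exact htr.add_E0 ((isLiftPair_proj hπ hf hg).brk_mem_E0 hfg hf hg)
    ((isLiftPair_proj hπ hf hg').brk_mem_E0 hfg' hf hg')

theorem pairing_smul_left (htr : IsFpTrace K tr) {A : Submodule K V} (c : K)
    {f g : V →ₗ[K] V} (hfg : f * g = g * f) (hf : f ∈ EE A) (hg : g ∈ EE A) :
    pairing tr A (c • f) g = c * pairing tr A f g := by
  have hπ := Classical.choose_spec (exists_isProj A)
  unfold pairing
  rw [mul_smul_comm, brk_smul_left]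
  exact htr.smul_E0 c ((isLiftPair_proj hπ hf hg).brk_mem_E0 hfg hf hg)

theorem pairing_smul_right (htr : IsFpTrace K tr) {A : Submodule K V} (c : K)
    {f g : V →ₗ[K] V} (hfg : f * g = g * f) (hf : f ∈ EE A) (hg : g ∈ EE A) :
    pairing tr A f (c • g) = c * pairing tr A f g := by
  have hπ := Classical.choose_spec (exists_isProj A)
  unfold pairing
  rw [mul_smul_comm, brk_smul_right]
  exact htr.smul_E0 c ((isLiftPair_proj hπ hf hg).brk_mem_E0 hfg hf hg)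

/-- `r(f, c) = 0` for scalars `c`. -/
theorem pairing_scalar (htr : IsFpTrace K tr) {A : Submodule K V} (c : K)
    {f : V →ₗ[K] V} (hf : f ∈ EE A) : pairing tr A f (c • (1 : V →ₗ[K] V)) = 0 := by
  have hπ := Classical.choose_spec (exists_isProj A)
  have hc : c • (1 : V →ₗ[K] V) ∈ EE A := (EE A).smul_mem c (one_mem_EE A)
  have hcomm : f * (c • (1 : V →ₗ[K] V)) = (c • (1 : V →ₗ[K] V)) * f := by
    rw [mul_smul_comm, smul_mul_assoc, mul_one, one_mul]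
  have hl : IsLiftPair A f (c • (1 : V →ₗ[K] V)) (Classical.choose (exists_isProj A) * f)
      (c • (1 : V →ₗ[K] V)) :=
    ⟨isProj_mul_sub_mem_E2 hπ hf, by rw [sub_self]; exact (E2 A).zero_mem,
      Or.inl (isProj_mul_mem_E1 hπ f)⟩
  rw [pairing_eq htr hcomm hf hc hl]
  have : brk (Classical.choose (exists_isProj A) * f) (c • (1 : V →ₗ[K] V)) = 0 := by
    rw [brk_def, mul_smul_comm, smul_mul_assoc, mul_one, one_mul, sub_self]
  rw [this, htr.zero]

/-- The Leibniz rule `r(f, g h) = r(f g, h) + r(f h, g)`. -/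
theorem pairing_mul (htr : IsFpTrace K tr) {A : Submodule K V} {f g h : V →ₗ[K] V}
    (hfg : f * g = g * f) (hfh : f * h = h * f) (hgh : g * h = h * g)
    (hf : f ∈ EE A) (hg : g ∈ EE A) (hh : h ∈ EE A) :
    pairing tr A f (g * h) = pairing tr A (f * g) h + pairing tr A (f * h) g := by
  have hπ := Classical.choose_spec (exists_isProj A)
  set π := Classical.choose (exists_isProj A) with hπdef
  have hπf1 : π * f ∈ E1 A := isProj_mul_mem_E1 hπ f
  have hπf2 : π * f - f ∈ E2 A := isProj_mul_sub_mem_E2 hπ hf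
  -- three lift pairs
  have l1 : IsLiftPair A f (g * h) (π * f) (g * h) :=
    ⟨hπf2, by rw [sub_self]; exact (E2 A).zero_mem, Or.inl hπf1⟩
  have l2 : IsLiftPair A (f * g) h (π * f * g) h := by
    refine ⟨?_, by rw [sub_self]; exact (E2 A).zero_mem, Or.inl (mul_mem_E1_left hπf1 g)⟩
    have : π * f * g - f * g = (π * f - f) * g := by rw [sub_mul]
    rw [this]
    exact mul_mem_E2_left hπf2 hg
  have l3 : IsLiftPair A (f * h) g (h * (π * f)) g := by
    refine ⟨?_, by rw [sub_self]; exact (E2 A).zero_mem,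
      Or.inl (mul_mem_E1_right hh hπf1)⟩
    have : h * (π * f) - f * h = h * (π * f - f) := by rw [mul_sub, hfh]
    rw [this]
    exact mul_mem_E2_right h hπf2
  have c1 : f * (g * h) = (g * h) * f := by
    rw [← mul_assoc, hfg, mul_assoc, hfh, ← mul_assoc]
  have c2 : (f * g) * h = h * (f * g) := by
    rw [mul_assoc, hgh, ← mul_assoc, hfh, mul_assoc]
  have c3 : (f * h) * g = g * (f * h) := by
    rw [mul_assoc, ← hgh, ← mul_assoc, hfg, mul_assoc]
  have hgh' : g * h ∈ EE A := mul_mem_EE hg hh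
  have hfg' : f * g ∈ EE A := mul_mem_EE hf hg
  have hfh' : f * h ∈ EE A := mul_mem_EE hf hh
  rw [pairing_eq htr c1 hf hgh' l1, pairing_eq htr c2 hfg' hh l2,
    pairing_eq htr c3 hfh' hg l3,
    ← htr.add_E0 (l2.brk_mem_E0 c2 hfg' hh) (l3.brk_mem_E0 c3 hfh' hg)]
  congr 1
  simp only [brk_def, mul_assoc]
  abel

end Pairing

end Fermat.Agent.P5.helper65
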