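import Fermat.Agent.P5.helper65_TateRes

/-!
# P5 / RR / TATE-B, part 4: properties (R1b), (R2), (R3), (R4) of the residue
-/

set_option autoImplicit false

namespace Fermat.Agent.P5.helper65

open Fermat.Agent.P5.helper42 Fermat.Agent.P5.helper42.Tate KaehlerDifferential

universe u v

section Props

variable {K : Type u} {F : Type v} [Field K] [Field F] [Algebra K F]
  {tr : ∀ (V : Type v) [AddCommGroup V] [Module K V], (V →ₗ[K] V) → K}
  {V : Type v} [AddCommGroup V] [Module K V] [Module F V] [IsScalarTower K F V]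

/-! ### (R1b) commensurable subspaces -/

theorem nearlyStable_of_nmb {A A' : Submodule K V} (hA : NearlyStable F A)
    (h : NotMuchBigger A A') (h' : NotMuchBigger A' A) : NearlyStable F A' :=
  fun f => nmb_trans (nmb_map _ h') (nmb_trans (hA f) h)

omit [Module F V] [IsScalarTower K F V] in
theorem IsLiftPair.of_nmb {A A' : Submodule K V} (h : NotMuchBigger A A')
    (h' : NotMuchBigger A' A) {f g f₁ g₁ : V →ₗ[K] V} (hl : IsLiftPair A' f g f₁ g₁) :
    IsLiftPair A f g f₁ g₁ :=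
  ⟨E2_le_of_nmb h hl.1, E2_le_of_nmb h hl.2.1,
    hl.2.2.imp (fun x => E1_le_of_nmb h' x) (fun x => E1_le_of_nmb h' x)⟩

omit [Module F V] [IsScalarTower K F V] in
theorem pairing_eq_of_nmb (htr : IsFpTrace K tr) {A A' : Submodule K V}
    (h : NotMuchBigger A A') (h' : NotMuchBigger A' A) {f g : V →ₗ[K] V}
    (hfg : f * g = g * f) (hf : f ∈ EE A) (hg : g ∈ EE A) :
    pairing tr A f g = pairing tr A' f g := by
  have hπ' := Classical.choose_spec (exists_isProj A')
  have hf' : f ∈ EE A' := EE_le_of_nmb h h' hf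
  have hg' : g ∈ EE A' := EE_le_of_nmb h h' hg
  exact pairing_eq htr hfg hf hg ((isLiftPair_proj hπ' hf' hg').of_nmb h h')

/-- **(R1b)** -/
theorem tateRes_congr_nmb (htr : IsFpTrace K tr) {A A' : Submodule K V}
    (hA : NearlyStable F A) (h : NotMuchBigger A A') (h' : NotMuchBigger A' A) :
    tateRes htr F V A = tateRes htr F V A' := by
  have hA' : NearlyStable F A' := nearlyStable_of_nmb hA h h'
  apply ext_smul_D
  intro f g
  rw [tateRes_apply htr hA, tateRes_apply htr hA']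
  exact pairing_eq_of_nmb htr h h' (mulEnd_comm f g) (hA f) (hA g)

/-! ### (R2), (R3) -/

omit [Module F V] [IsScalarTower K F V] in
theorem tr_eq_zero_of_sq (htr : IsFpTrace K tr) {A : Submodule K V} {θ : V →ₗ[K] V}
    (h1 : ∀ v, θ v ∈ A) (h2 : ∀ a ∈ A, θ a = 0) : tr V θ = 0 := by
  apply htr.nil V θ 2
  refine LinearMap.ext fun v => ?_
  rw [pow_two, Module.End.mul_apply, h2 _ (h1 v), LinearMap.zero_apply]

/-- **(R2)** -/
theorem tateRes_R2 (htr : IsFpTrace K tr) {A : Submodule K V} (hA : NearlyStable F A)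
    (f g : F) (hf : A.map (mulEnd K F f) ≤ A) (hg : A.map (mulEnd K F g) ≤ A) :
    tateRes htr F V A (f • D K F g) = 0 := by
  rw [tateRes_apply htr hA]
  unfold rF pairing
  have hπ := Classical.choose_spec (exists_isProj A)
  have hfa : ∀ x ∈ A, f • x ∈ A := fun x hx => hf ⟨x, hx, rfl⟩
  have hga : ∀ x ∈ A, g • x ∈ A := fun x hx => hg ⟨x, hx, rfl⟩
  apply tr_eq_zero_of_sq htr (A := A)
  · intro v
    rw [brk_def, LinearMap.sub_apply, mul_assoc, mul_assoc, Module.End.mul_apply,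
      Module.End.mul_apply]
    exact A.sub_mem (hπ.map_mem _) (hπ.map_mem _)
  · intro a ha
    simp only [brk_def, LinearMap.sub_apply, Module.End.mul_apply, mulEnd_apply]
    rw [hπ.map_id _ (hga a ha), hπ.map_id _ (hfa _ (hga a ha)), hπ.map_id _ (hfa a ha),
      hπ.map_id _ (hga _ (hfa a ha)), smul_comm, sub_self]

/-- **(R3)** -/
theorem tateRes_R3 (htr : IsFpTrace K tr) {A : Submodule K V} (hA : NearlyStable F A)
    (g : F) : tateRes htr F V A (D K F g) = 0 := by
  rw [← one_smul F (D K F g), tateRes_apply htr hA]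
  unfold rF pairing
  have hπ := Classical.choose_spec (exists_isProj A)
  rw [mulEnd_one, mul_one]
  apply tr_eq_zero_of_sq htr (A := A)
  · intro v
    rw [brk_def, LinearMap.sub_apply, mul_assoc, Module.End.mul_apply, Module.End.mul_apply]
    exact A.sub_mem (hπ.map_mem _) (hπ.map_mem _)
  · intro a ha
    simp only [brk_def, LinearMap.sub_apply, Module.End.mul_apply, mulEnd_apply]
    rw [hπ.map_id _ (hπ.map_mem _), hπ.map_id a ha, sub_self]

/-! ### (R4) -/

/-- **(R4)** -/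
theorem tateRes_R4 (htr : IsFpTrace K tr) {A : Submodule K V} (hA : NearlyStable F A)
    (W : Submodule K V) (g : F) (hg : g ≠ 0) (hW : Module.Finite K W)
    (hsup : A.map (mulEnd K F g) ⊔ W = A) (hdisj : Disjoint (A.map (mulEnd K F g)) W) :
    tateRes htr F V A (g⁻¹ • D K F g) = (Module.finrank K W : K) := by
  rw [tateRes_apply htr hA]
  unfold rF
  obtain ⟨π, hπ⟩ := exists_isProj A
  have hl : IsLiftPair A (mulEnd K F g⁻¹) (mulEnd K F g) (π * mulEnd K F g⁻¹) (mulEnd K F g) :=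
    ⟨isProj_mul_sub_mem_E2 hπ (hA _), by rw [sub_self]; exact (E2 A).zero_mem,
      Or.inl (isProj_mul_mem_E1 hπ _)⟩
  rw [pairing_eq htr (mulEnd_comm _ _) (hA _) (hA _) hl]
  set θ : V →ₗ[K] V := brk (π * mulEnd K F g⁻¹) (mulEnd K F g) with hθ
  have hθ_apply : ∀ v, θ v = π v - g • π (g⁻¹ • v) := by
    intro v
    simp only [hθ, brk_def, LinearMap.sub_apply, Module.End.mul_apply, mulEnd_apply]
    rw [inv_smul_smul₀ hg]
  have hgA : ∀ a ∈ A, g • a ∈ A := fun a ha => by
    rw [← hsup]; exact Submodule.mem_sup_left ⟨a, ha, rfl⟩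
  have hWA : W ≤ A := by rw [← hsup]; exact le_sup_right
  have h1 : ∀ v, θ v ∈ A := fun v => by
    rw [hθ_apply]
    exact A.sub_mem (hπ.map_mem _) (hgA _ (hπ.map_mem _))
  have h2 : ∀ y ∈ A.map (mulEnd K F g), θ y = 0 := by
    rintro _ ⟨a, ha, rfl⟩
    rw [hθ_apply, mulEnd_apply, inv_smul_smul₀ hg, hπ.map_id a ha, hπ.map_id _ (hgA a ha),
      sub_self]
  have h3 : ∀ w ∈ W, ∃ y ∈ A.map (mulEnd K F g), θ w = w - y := by
    intro w hw
    refine ⟨g • π (g⁻¹ • w), ⟨π (g⁻¹ • w), hπ.map_mem _, rfl⟩, ?_⟩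
    rw [hθ_apply, hπ.map_id w (hWA hw)]
  have h4 : ∀ x ∈ W.map θ, θ x = x := by
    rintro _ ⟨w, hw, rfl⟩
    obtain ⟨y, hy, hwy⟩ := h3 w hw
    conv_lhs => rw [hwy]
    rw [map_sub, h2 y hy, sub_zero]
  have hstab : ∀ x ∈ W.map θ, θ x ∈ W.map θ := fun x hx => by rw [h4 x hx]; exact hx
  have hrange : LinearMap.range (θ ^ 2) ≤ W.map θ := by
    rintro _ ⟨v, rfl⟩
    rw [pow_two, Module.End.mul_apply]
    have hv : θ v ∈ A.map (mulEnd K F g) ⊔ W := by rw [hsup]; exact h1 v
    obtain ⟨y, hy, w, hw, hyw⟩ := Submodule.mem_sup.mp hv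
    rw [← hyw, map_add, h2 y hy, zero_add]
    exact ⟨w, hw, rfl⟩
  have hfin : Module.Finite K (W.map θ) := Module.Finite.map W θ
  rw [htr.master V θ (W.map θ) 2 hstab hfin hrange]
  have hone : θ.restrict hstab = 1 := by
    refine LinearMap.ext fun x => Subtype.ext ?_
    rw [LinearMap.coe_restrict_apply, h4 x x.2]
    rfl
  rw [hone, LinearMap.trace_one]
  congr 1
  -- `θ` is injective on `W`
  have hinj : Function.Injective (θ.domRestrict W) := by
    rw [← LinearMap.ker_eq_bot, eq_bot_iff]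
    intro w hw
    rw [LinearMap.mem_ker, LinearMap.domRestrict_apply] at hw
    obtain ⟨y, hy, hwy⟩ := h3 w w.2
    rw [hwy, sub_eq_zero] at hw
    have h5 : (w : V) ∈ A.map (mulEnd K F g) ⊓ W := ⟨hw ▸ hy, w.2⟩
    rw [hdisj.eq_bot, Submodule.mem_bot] at h5
    rw [Submodule.mem_bot]
    exact Subtype.ext h5
  have h6 := LinearMap.finrank_range_of_inj hinj
  rw [LinearMap.range_domRestrict] at h6
  exact h6

end Props

end Fermat.Agent.P5.helper65
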