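import Fermat.Agent.P5.helper65_TateProps

/-!
# P5 / RR / TATE-B, part 5: property (R1a) (invariance under injective `F`-linear maps)
-/

set_option autoImplicit false

namespace Fermat.Agent.P5.helper65

open Fermat.Agent.P5.helper42 Fermat.Agent.P5.helper42.Tate KaehlerDifferential

universe u v

section R1a

variable {K : Type u} {F : Type v} [Field K] [Field F] [Algebra K F]
  {tr : ∀ (V : Type v) [AddCommGroup V] [Module K V], (V →ₗ[K] V) → K}
  {V : Type v} [AddCommGroup V] [Module K V] [Module F V] [IsScalarTower K F V]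
  {V' : Type v} [AddCommGroup V'] [Module K V'] [Module F V'] [IsScalarTower K F V']

theorem nearlyStable_map (j : V' →ₗ[F] V) {A' : Submodule K V'} (hA' : NearlyStable F A') :
    NearlyStable F (A'.map (j.restrictScalars K)) := by
  intro f
  have : (A'.map (j.restrictScalars K)).map (mulEnd K F f) =
      (A'.map (mulEnd K F f)).map (j.restrictScalars K) := by
    rw [← Submodule.map_comp, ← Submodule.map_comp]
    congr 1
    refine LinearMap.ext fun x => ?_
    simp
  rw [this]
  exact nmb_map _ (hA' f)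

/-- **(R1a)** -/
theorem tateRes_R1a (htr : IsFpTrace K tr) (j : V' →ₗ[F] V) (A' : Submodule K V')
    (hj : Function.Injective j) (hA' : NearlyStable F A') :
    tateRes htr F V (A'.map (j.restrictScalars K)) = tateRes htr F V' A' := by
  have hA := nearlyStable_map j hA'
  apply ext_smul_D
  intro f g
  rw [tateRes_apply htr hA, tateRes_apply htr hA']
  unfold rF
  set jK : V' →ₗ[K] V := j.restrictScalars K with hjK
  have hjK_apply : ∀ x, jK x = j x := fun _ => rfl
  have hjinj : Function.Injective jK := hj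
  obtain ⟨π', hπ'⟩ := exists_isProj A'
  obtain ⟨ι, hι⟩ := LinearMap.exists_leftInverse_of_injective jK
    (LinearMap.ker_eq_bot.mpr hjinj)
  have hι_apply : ∀ x, ι (jK x) = x := fun x => by
    have := congrArg (fun φ => φ x) hι
    simpa using this
  set π : V →ₗ[K] V := jK ∘ₗ π' ∘ₗ ι with hπdef
  have hπ_apply : ∀ v, π v = jK (π' (ι v)) := fun _ => rfl
  have hπ : LinearMap.IsProj (A'.map jK) π := by
    refine ⟨fun v => ⟨π' (ι v), hπ'.map_mem _, rfl⟩, ?_⟩
    rintro _ ⟨a, ha, rfl⟩
    rw [hπ_apply, hι_apply, hπ'.map_id a ha]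
  -- the two commutators
  set θ : V →ₗ[K] V := brk (π * mulEnd K F f) (π * mulEnd K F g) with hθ
  set θ' : V' →ₗ[K] V' := brk (π' * mulEnd K F f) (π' * mulEnd K F g) with hθ'
  rw [pairing_eq htr (mulEnd_comm f g) (hA f) (hA g) (isLiftPair_proj hπ (hA f) (hA g)),
    pairing_eq htr (mulEnd_comm f g) (hA' f) (hA' g) (isLiftPair_proj hπ' (hA' f) (hA' g))]
  change tr V θ = tr V' θ'
  have hθ'E0 : θ' ∈ E0 A' :=
    (isLiftPair_proj hπ' (hA' f) (hA' g)).brk_mem_E0 (mulEnd_comm f g) (hA' f) (hA' g)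
  -- intertwining
  have hint1 : ∀ (h : F) (x : V'), (π * mulEnd K F h : V →ₗ[K] V) (jK x) =
      jK ((π' * mulEnd K F h : V' →ₗ[K] V') x) := by
    intro h x
    have e : h • jK x = jK (h • x) := (map_smul j h x).symm
    rw [Module.End.mul_apply, Module.End.mul_apply, mulEnd_apply, mulEnd_apply, e, hπ_apply,
      hι_apply]
  have hrange1 : ∀ (h : F) (v : V), ∃ x : V', (π * mulEnd K F h : V →ₗ[K] V) v = jK x := fun h v =>
    ⟨π' (ι (h • v)), rfl⟩
  have hint : ∀ x : V', θ (jK x) = jK (θ' x) := by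
    intro x
    simp only [hθ, hθ', brk_def, LinearMap.sub_apply, map_sub]
    rw [Module.End.mul_apply, hint1, hint1, Module.End.mul_apply (π * mulEnd K F g), hint1,
      hint1]
    rfl
  have hrange : ∀ v : V, ∃ x : V', θ v = jK x := by
    intro v
    obtain ⟨x₁, hx₁⟩ := hrange1 f ((π * mulEnd K F g : V →ₗ[K] V) v)
    obtain ⟨x₂, hx₂⟩ := hrange1 g ((π * mulEnd K F f : V →ₗ[K] V) v)
    refine ⟨x₁ - x₂, ?_⟩
    simp only [hθ, brk_def, LinearMap.sub_apply, map_sub]
    rw [Module.End.mul_apply, hx₁, Module.End.mul_apply (π * mulEnd K F g), hx₂]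
  -- the finite-dimensional subspaces
  set W' : Submodule K V' := LinearMap.range (θ' ^ 2) with hW'
  have hW'fin : Module.Finite K W' := finite_range_sq hθ'E0
  have hW'stab : ∀ w ∈ W', θ' w ∈ W' := by
    rintro _ ⟨x, rfl⟩
    refine ⟨θ' x, ?_⟩
    rw [← Module.End.mul_apply, ← Module.End.mul_apply, ← pow_succ, ← pow_succ']
  set W : Submodule K V := W'.map jK with hW
  have hWfin : Module.Finite K W := Module.Finite.map W' jK
  have hWstab : ∀ w ∈ W, θ w ∈ W := by
    rintro _ ⟨w', hw', rfl⟩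
    rw [hint]
    exact ⟨θ' w', hW'stab w' hw', rfl⟩
  have hWrange : LinearMap.range (θ ^ 3) ≤ W := by
    rintro _ ⟨v, rfl⟩
    obtain ⟨x, hx⟩ := hrange v
    have e : (θ ^ 3) v = θ (θ (θ v)) := by
      rw [pow_succ, pow_two, Module.End.mul_apply, Module.End.mul_apply]
    rw [e, hx, hint, hint]
    refine ⟨θ' (θ' x), ⟨x, ?_⟩, rfl⟩
    rw [pow_two, Module.End.mul_apply]
  rw [htr.master V θ W 3 hWstab hWfin hWrange,
    htr.master V' θ' W' 2 hW'stab hW'fin le_rfl]
  -- conjugation by the restriction of `j`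
  set e : W' ≃ₗ[K] W := Submodule.equivMapOfInjective jK hjinj W' with he
  have hconj : e.conj (θ'.restrict hW'stab) = θ.restrict hWstab := by
    refine LinearMap.ext fun w => ?_
    obtain ⟨w', rfl⟩ := e.surjective w
    rw [LinearEquiv.conj_apply_apply, LinearEquiv.symm_apply_apply]
    apply Subtype.ext
    rw [LinearMap.coe_restrict_apply, he, Submodule.coe_equivMapOfInjective_apply,
      Submodule.coe_equivMapOfInjective_apply, LinearMap.coe_restrict_apply, hint]
  rw [← hconj, LinearMap.trace_conj']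

end R1a

end Fermat.Agent.P5.helper65
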