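import Fermat.Agent.P5.helper65_TateLift

/-!
# P5 / RR / TATE-B, part 3: the residue `res^V_A : Ω[F⁄K] → K` and (R1b), (R2), (R3), (R4)
-/

set_option autoImplicit false

namespace Fermat.Agent.P5.helper65

open Fermat.Agent.P5.helper42 Fermat.Agent.P5.helper42.Tate KaehlerDifferential

universe u v

section MulEnd

variable {K : Type u} {F : Type v} [Field K] [Field F] [Algebra K F]
  {V : Type v} [AddCommGroup V] [Module K V] [Module F V] [IsScalarTower K F V]

theorem mulEnd_mul (f g : F) : mulEnd K F (f * g) = (mulEnd K F f * mulEnd K F g : V →ₗ[K] V) := by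
  ext x
  simp [mul_smul]

theorem mulEnd_comm (f g : F) :
    (mulEnd K F f * mulEnd K F g : V →ₗ[K] V) = mulEnd K F g * mulEnd K F f := by
  rw [← mulEnd_mul, ← mulEnd_mul, mul_comm]

theorem mulEnd_add (f g : F) : mulEnd K F (f + g) = (mulEnd K F f + mulEnd K F g : V →ₗ[K] V) := by
  ext x
  simp [add_smul]

theorem mulEnd_smul (c : K) (f : F) : mulEnd K F (c • f) = (c • mulEnd K F f : V →ₗ[K] V) := by
  ext x
  simp

theorem mulEnd_one : mulEnd K F (1 : F) = (1 : V →ₗ[K] V) := by
  ext x
  simp

theorem mulEnd_algebraMap (c : K) :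
    mulEnd K F (algebraMap K F c) = (c • (1 : V →ₗ[K] V)) := by
  ext x
  simp

theorem mulEnd_mem_EE {A : Submodule K V} (hA : NearlyStable F A) (f : F) :
    mulEnd K F f ∈ EE A := hA f

theorem mulEnd_inv_mul {g : F} (hg : g ≠ 0) :
    (mulEnd K F g⁻¹ * mulEnd K F g : V →ₗ[K] V) = 1 := by
  rw [← mulEnd_mul, inv_mul_cancel₀ hg, mulEnd_one]

theorem mulEnd_mul_inv {g : F} (hg : g ≠ 0) :
    (mulEnd K F g * mulEnd K F g⁻¹ : V →ₗ[K] V) = 1 := by
  rw [← mulEnd_mul, mul_inv_cancel₀ hg, mulEnd_one]

end MulEnd

section Res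

variable {K : Type u} {F : Type v} [Field K] [Field F] [Algebra K F]
  {tr : ∀ (V : Type v) [AddCommGroup V] [Module K V], (V →ₗ[K] V) → K}
  {V : Type v} [AddCommGroup V] [Module K V] [Module F V] [IsScalarTower K F V]

/-- The pairing on `F`. -/
noncomputable def rF (tr : ∀ (V : Type v) [AddCommGroup V] [Module K V], (V →ₗ[K] V) → K)
    (A : Submodule K V) (f g : F) : K :=
  pairing tr A (mulEnd K F f) (mulEnd K F g)

theorem rF_add_left (htr : IsFpTrace K tr) {A : Submodule K V} (hA : NearlyStable F A)
    (f f' g : F) : rF tr A (f + f') g = rF tr A f g + rF tr A f' g := by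
  unfold rF
  rw [mulEnd_add]
  exact pairing_add_left htr (mulEnd_comm f g) (mulEnd_comm f' g) (hA f) (hA f') (hA g)

theorem rF_add_right (htr : IsFpTrace K tr) {A : Submodule K V} (hA : NearlyStable F A)
    (f g g' : F) : rF tr A f (g + g') = rF tr A f g + rF tr A f g' := by
  unfold rF
  rw [mulEnd_add]
  exact pairing_add_right htr (mulEnd_comm f g) (mulEnd_comm f g') (hA f) (hA g) (hA g')

theorem rF_smul_left (htr : IsFpTrace K tr) {A : Submodule K V} (hA : NearlyStable F A)
    (c : K) (f g : F) : rF tr A (c • f) g = c * rF tr A f g := by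
  unfold rF
  rw [mulEnd_smul]
  exact pairing_smul_left htr c (mulEnd_comm f g) (hA f) (hA g)

theorem rF_algebraMap (htr : IsFpTrace K tr) {A : Submodule K V} (hA : NearlyStable F A)
    (f : F) (c : K) : rF tr A f (algebraMap K F c) = 0 := by
  unfold rF
  rw [mulEnd_algebraMap]
  exact pairing_scalar htr c (hA f)

theorem rF_mul (htr : IsFpTrace K tr) {A : Submodule K V} (hA : NearlyStable F A)
    (f g h : F) : rF tr A f (g * h) = rF tr A (f * g) h + rF tr A (f * h) g := by
  unfold rF
  rw [mulEnd_mul, mulEnd_mul, mulEnd_mul]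
  exact pairing_mul htr (mulEnd_comm f g) (mulEnd_comm f h) (mulEnd_comm g h)
    (hA f) (hA g) (hA h)

/-- `f ↦ r(f, g)` as a `K`-linear map. -/
noncomputable def rLin (htr : IsFpTrace K tr) {A : Submodule K V} (hA : NearlyStable F A)
    (g : F) : F →ₗ[K] K where
  toFun f := rF tr A f g
  map_add' f f' := rF_add_left htr hA f f' g
  map_smul' c f := by
    rw [RingHom.id_apply, smul_eq_mul]
    exact rF_smul_left htr hA c f g

/-- The functional on the free module `F →₀ F`. -/
noncomputable def resFun (htr : IsFpTrace K tr) {A : Submodule K V} (hA : NearlyStable F A) :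
    (F →₀ F) →ₗ[K] K :=
  Finsupp.lsum K (fun g => rLin htr hA g)

theorem resFun_single (htr : IsFpTrace K tr) {A : Submodule K V} (hA : NearlyStable F A)
    (g f : F) : resFun htr hA (Finsupp.single g f) = rF tr A f g := by
  unfold resFun
  rw [Finsupp.lsum_single]
  rfl

theorem resFun_smul_mem_kerTotal (htr : IsFpTrace K tr) {A : Submodule K V}
    (hA : NearlyStable F A) {x : F →₀ F} (hx : x ∈ kerTotal K F) :
    ∀ h : F, resFun htr hA (h • x) = 0 := by
  unfold kerTotal at hx
  induction hx using Submodule.span_induction with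
  | mem x hx =>
    intro h
    rcases hx with (⟨⟨a, b⟩, rfl⟩ | ⟨⟨a, b⟩, rfl⟩) | ⟨c, rfl⟩
    · simp only [smul_sub, smul_add, Finsupp.smul_single, smul_eq_mul, mul_one, map_sub,
        map_add, resFun_single]
      rw [rF_add_right htr hA, sub_self]
    · simp only [smul_sub, smul_add, Finsupp.smul_single, smul_eq_mul, mul_one, map_sub,
        map_add, resFun_single]
      rw [rF_mul htr hA h a b, add_comm, sub_self]
    · simp only [Finsupp.smul_single, smul_eq_mul, mul_one, resFun_single]
      exact rF_algebraMap htr hA h c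
  | zero => intro h; rw [smul_zero, map_zero]
  | add x y _ _ hx hy => intro h; rw [smul_add, map_add, hx h, hy h, add_zero]
  | smul a x _ hx => intro h; rw [← mul_smul]; exact hx (h * a)

theorem resFun_mem_kerTotal (htr : IsFpTrace K tr) {A : Submodule K V}
    (hA : NearlyStable F A) :
    (kerTotal K F).restrictScalars K ≤ LinearMap.ker (resFun htr hA) := by
  intro x hx
  have := resFun_smul_mem_kerTotal htr hA ((Submodule.restrictScalars_mem K _ x).mp hx) 1
  rwa [one_smul] at this

/-- Tate's residue for a nearly stable subspace. -/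
noncomputable def resNS (htr : IsFpTrace K tr) {A : Submodule K V} (hA : NearlyStable F A) :
    Ω[F⁄K] →ₗ[K] K :=
  (((kerTotal K F).restrictScalars K).liftQ (resFun htr hA) (resFun_mem_kerTotal htr hA)) ∘ₗ
    ((Submodule.Quotient.restrictScalarsEquiv K (kerTotal K F)).symm.toLinearMap ∘ₗ
      ((quotKerTotalEquiv K F).symm.restrictScalars K).toLinearMap)

theorem resNS_apply (htr : IsFpTrace K tr) {A : Submodule K V} (hA : NearlyStable F A)
    (f g : F) : resNS htr hA (f • D K F g) = rF tr A f g := by
  have h1 : (quotKerTotalEquiv K F).symm (f • D K F g) =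
      (kerTotal K F).mkQ (Finsupp.single g f) := by
    rw [map_smul]
    have h2 : (quotKerTotalEquiv K F).symm (D K F g) = derivationQuotKerTotal K F g := by
      rw [← quotKerTotalEquiv_symm_comp_D]
      rfl
    rw [h2, derivationQuotKerTotal_apply, ← map_smul, Finsupp.smul_single, smul_eq_mul, mul_one]
  unfold resNS
  simp only [LinearMap.comp_apply, LinearEquiv.coe_coe, LinearEquiv.restrictScalars_apply]
  rw [h1]
  erw [Submodule.Quotient.restrictScalarsEquiv_symm_mk]
  rw [Submodule.liftQ_apply, resFun_single]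

/-- Two `K`-linear functionals on `Ω[F⁄K]` agreeing on all `f dg` are equal. -/
theorem ext_smul_D {φ ψ : Ω[F⁄K] →ₗ[K] K}
    (h : ∀ f g : F, φ (f • D K F g) = ψ (f • D K F g)) : φ = ψ := by
  refine LinearMap.ext fun ω => ?_
  have hω : ω ∈ Submodule.span F (Set.range (D K F)) := by
    rw [span_range_derivation]; trivial
  have key : ∀ a : F, φ (a • ω) = ψ (a • ω) := by
    induction hω using Submodule.span_induction with
    | mem x hx =>
      obtain ⟨g, rfl⟩ := hx
      intro a
      exact h a g
    | zero => intro a; rw [smul_zero, map_zero, map_zero]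
    | add x y _ _ hx hy => intro a; rw [smul_add, map_add, map_add, hx a, hy a]
    | smul b x _ hx => intro a; rw [← mul_smul]; exact hx (a * b)
  have := key 1
  rwa [one_smul] at this

open Classical in
/-- **Tate's residue** `res^V_A` (zero if `A` is not nearly stable). -/
noncomputable def tateRes (htr : IsFpTrace K tr) (F : Type v) [Field F] [Algebra K F]
    (V : Type v) [AddCommGroup V] [Module K V] [Module F V] [IsScalarTower K F V]
    (A : Submodule K V) : Ω[F⁄K] →ₗ[K] K :=
  if hA : NearlyStable F A then resNS htr hA else 0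

theorem tateRes_apply (htr : IsFpTrace K tr) {A : Submodule K V} (hA : NearlyStable F A)
    (f g : F) : tateRes htr F V A (f • D K F g) = rF tr A f g := by
  unfold tateRes
  rw [dif_pos hA]
  exact resNS_apply htr hA f g

end Res

end Fermat.Agent.P5.helper65
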