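import Mathlib
import Fermat.Agent.P5.helper37_ModStatements
import Fermat.Agent.P5.helper4_CutGeom
import Fermat.Agent.S24.helper99_Germ
import Fermat.Agent.S24.helper55_RH

/-!
# P5 / MOD-PL-INT (helper71, task 651): the interior places of a sheet model

`intPlacesStatement : IntPlacesStatement` (verbatim, `helper37_ModStatements`): for a sheet
model `M` of `F/ℂ` the dictionary `DictStatement`, applied at every `z ∈ U₀` to the `d`
embeddings `h ↦ germ of ev k h at z` of `F` into the field of meromorphic germs at `z`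
(`E = 1`, `π = 1`, `t = x - z`), gives the interior places `pl k z`.
-/

set_option autoImplicit false
set_option linter.unusedSectionVars false
set_option linter.style.haveILetI false
set_option linter.unusedVariables false

open AlgebraicCurve Filter Topology

namespace Fermat.Agent.P5.helper71

open Fermat.Agent.P5.helper25 Fermat.Agent.P5.helper37 Fermat.Agent.S24.helper99

noncomputable section

/-- the base point lies in the cut plane -/
theorem base_mem_U₀ (G : CutGeometry) : G.z₀ ∈ G.U₀ := by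
  intro i hi
  obtain ⟨s, hs, h⟩ := hi
  have h1 : ((1 : ℂ) + (s : ℂ)) * (G.b i - G.z₀) = 0 := by
    linear_combination -h
  rcases mul_eq_zero.mp h1 with h2 | h2
  · have h3 : ((1 + s : ℝ) : ℂ) = 0 := by push_cast; exact h2
    have h4 : (1 + s : ℝ) = 0 := by exact_mod_cast h3
    linarith
  · exact G.b_ne i (sub_eq_zero.mp h2)

variable {F : Type} [Field F] [Algebra ℂ F] (M : SheetModel F)

theorem eventually_mem_U₀ {z : ℂ} (hz : z ∈ M.toCutGeometry.U₀) :
    ∀ᶠ w in 𝓝[≠] z, w ∈ M.toCutGeometry.U₀ :=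
  nhdsWithin_le_nhds ((helper4.CutGeom.isOpen_U₀ _).mem_nhds hz)

/-- the germ at `z ∈ U₀` of the `k`-th sheet of `h` -/
def sheetGerm (k : Fin M.d) {z : ℂ} (hz : z ∈ M.toCutGeometry.U₀) (h : F) : MeroGerm z :=
  MeroGerm.mk (M.ev k h) (M.ev_meromorphicOn k h z hz)

theorem sheetGerm_algebraMap (k : Fin M.d) {z : ℂ} (hz : z ∈ M.toCutGeometry.U₀) (c : ℂ) :
    sheetGerm M k hz (algebraMap ℂ F c) = MeroGerm.const z c := by
  unfold sheetGerm MeroGerm.const
  rw [MeroGerm.mk_eq_mk_iff]
  filter_upwards [eventually_mem_U₀ M hz] with w hw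
  exact M.ev_algebraMap k c hw

theorem sheetGerm_add (k : Fin M.d) {z : ℂ} (hz : z ∈ M.toCutGeometry.U₀) (h₁ h₂ : F) :
    sheetGerm M k hz (h₁ + h₂) = sheetGerm M k hz h₁ + sheetGerm M k hz h₂ := by
  unfold sheetGerm
  rw [← MeroGerm.mk_add, MeroGerm.mk_eq_mk_iff]
  exact M.ev_add k h₁ h₂ z hz

theorem sheetGerm_mul (k : Fin M.d) {z : ℂ} (hz : z ∈ M.toCutGeometry.U₀) (h₁ h₂ : F) :
    sheetGerm M k hz (h₁ * h₂) = sheetGerm M k hz h₁ * sheetGerm M k hz h₂ := by
  unfold sheetGerm
  rw [← MeroGerm.mk_mul, MeroGerm.mk_eq_mk_iff]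
  exact M.ev_mul k h₁ h₂ z hz

/-- the `k`-th sheet as a ring homomorphism into the germs at `z ∈ U₀` -/
def sheetHom (k : Fin M.d) {z : ℂ} (hz : z ∈ M.toCutGeometry.U₀) : F →+* MeroGerm z where
  toFun := sheetGerm M k hz
  map_one' := by
    have h := sheetGerm_algebraMap M k hz 1
    rw [map_one] at h
    rw [h]
    rfl
  map_mul' := sheetGerm_mul M k hz
  map_zero' := by
    have h := sheetGerm_algebraMap M k hz 0
    rw [map_zero] at h
    rw [h]
    rfl
  map_add' := sheetGerm_add M k hz

theorem sheetHom_apply (k : Fin M.d) {z : ℂ} (hz : z ∈ M.toCutGeometry.U₀) (h : F) :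
    sheetHom M k hz h = MeroGerm.mk (M.ev k h) (M.ev_meromorphicOn k h z hz) := rfl

theorem sheetHom_algebraMap (k : Fin M.d) {z : ℂ} (hz : z ∈ M.toCutGeometry.U₀) (c : ℂ) :
    sheetHom M k hz (algebraMap ℂ F c) = MeroGerm.const z c :=
  sheetGerm_algebraMap M k hz c

theorem sheetHom_x (k : Fin M.d) {z : ℂ} (hz : z ∈ M.toCutGeometry.U₀) :
    sheetHom M k hz M.x = MeroGerm.mk (fun w => w) (analyticAt_id.meromorphicAt) := by
  rw [sheetHom_apply, MeroGerm.mk_eq_mk_iff]
  filter_upwards [eventually_mem_U₀ M hz] with w hw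
  exact M.ev_x k hw

theorem sheetHom_xsub (k : Fin M.d) {z : ℂ} (hz : z ∈ M.toCutGeometry.U₀) :
    sheetHom M k hz (M.x - algebraMap ℂ F z) =
      MeroGerm.mk (fun w => w - z) MeroGerm.meromorphicAt_sub_const := by
  rw [map_sub, sheetHom_x, sheetHom_algebraMap, MeroGerm.const, ← MeroGerm.mk_sub,
    MeroGerm.mk_eq_mk_iff]
  exact Eventually.of_forall fun w => rfl

theorem sheetHom_injective {z : ℂ} (hz : z ∈ M.toCutGeometry.U₀) :
    Function.Injective fun k => sheetHom M k hz := by
  intro k k' hkk'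
  by_contra hne
  obtain ⟨h, hh⟩ := M.ev_separated k k' hne z hz
  apply hh
  have h1 : sheetHom M k hz h = sheetHom M k' hz h := by
    have := congrArg (fun φ : F →+* MeroGerm z => φ h) hkk'
    exact this
  rw [sheetHom_apply, sheetHom_apply, MeroGerm.mk_eq_mk_iff] at h1
  exact h1

/-- the dictionary at a point `z ∈ U₀` -/
theorem exists_places_at (hD : DictStatement) {z : ℂ} (hz : z ∈ M.toCutGeometry.U₀) :
    ∃ W : Fin M.d → Place ℂ F,
      (∀ k (h : F), h ≠ 0 → ((W k).ord h : WithTop ℤ) = meromorphicOrderAt (M.ev k h) z) ∧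
      (∀ P : Place ℂ F, 0 < P.ord (M.x - algebraMap ℂ F z) → ∃ k, P = W k) ∧
      Function.Injective W := by
  have ht : Transcendental ℂ (M.x - algebraMap ℂ F z) :=
    Fermat.Agent.S24.helper55.transcendental_sub_algebraMap M.x_transcendental z
  have hadj : IntermediateField.adjoin ℂ {M.x - algebraMap ℂ F z}
      = IntermediateField.adjoin ℂ {M.x} :=
    Fermat.Agent.S24.helper55.adjoin_sub_algebraMap_eq M.x z
  have hfin : FiniteDimensional (IntermediateField.adjoin ℂ {M.x - algebraMap ℂ F z}) F := by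
    rw [hadj]; exact M.x_finite
  have hd : M.d = Module.finrank (IntermediateField.adjoin ℂ {M.x - algebraMap ℂ F z}) F := by
    rw [hadj]; exact M.d_eq
  have hne : ∀ (k : Fin M.d) (f : F), f ≠ 0 → sheetHom M k hz f ≠ 0 := fun k f hf =>
    (map_ne_zero_iff _ (sheetHom M k hz).injective).mpr hf
  have hper : ∀ i : Fin M.d, Function.minimalPeriod (⇑(1 : Equiv.Perm (Fin M.d))) i = 1 := by
    intro i
    rw [Equiv.Perm.coe_one]
    exact Function.minimalPeriod_id
  obtain ⟨W, hW1, hW2, hW3, hW4⟩ := hD F (MeroGerm z) (M.x - algebraMap ℂ F z) ht hfin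
    (MeroGerm.V z) M.d (fun k => sheetHom M k hz) (sheetHom_injective M hz) hd
    (fun i c hc => by
      show MeroGerm.V z (sheetHom M i hz (algebraMap ℂ F c)) = 1
      rw [sheetHom_algebraMap]
      exact MeroGerm.V_const hc)
    (fun i j c => by
      show sheetHom M i hz (algebraMap ℂ F c) = sheetHom M j hz (algebraMap ℂ F c)
      rw [sheetHom_algebraMap, sheetHom_algebraMap])
    (fun i j => by
      show sheetHom M i hz _ = sheetHom M j hz _
      rw [sheetHom_xsub, sheetHom_xsub])
    1 one_pos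
    (fun i => by
      show MeroGerm.V z (sheetHom M i hz _) = _
      rw [sheetHom_xsub, MeroGerm.V_mk_sub_const]
      norm_num)
    1 (pow_one 1)
    (fun i f => rfl)
    (fun i k hk _ f hf => by
      have hk1 : k = 1 := Nat.dvd_one.mp hk
      subst hk1
      obtain ⟨n, hn⟩ := MeroGerm.exists_int_V_eq (hne i f hf)
      refine ⟨n, ?_⟩
      show MeroGerm.V z (sheetHom M i hz f) = _
      rw [hn]
      norm_num)
  refine ⟨W, ?_, ?_, ?_⟩
  · intro k h hh
    have h1 := hW1 k h hh
    rw [hper k] at h1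
    have h2 : MeroGerm.V z (sheetHom M k hz h) = WithZero.exp (-(W k).ord h) := by
      rw [show MeroGerm.V z (sheetHom M k hz h) = _ from h1]
      norm_num
    have h3 := MeroGerm.V_apply_of_ne_zero (hne k h hh)
    rw [h2] at h3
    have h4 : (W k).ord h = (MeroGerm.order (sheetHom M k hz h)).untopD 0 := by
      have := WithZero.exp_injective h3
      omega
    have htop : MeroGerm.order (sheetHom M k hz h) ≠ ⊤ := fun h' =>
      hne k h hh (MeroGerm.order_eq_top_iff.mp h')
    rw [sheetHom_apply, MeroGerm.order_mk] at h4 htop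
    obtain ⟨n, hn⟩ := WithTop.ne_top_iff_exists.mp htop
    rw [h4, ← hn]
    rfl
  · intro P hP
    obtain ⟨i, hi⟩ := hW3 P hP
    exact ⟨i, hi.symm⟩
  · intro i j hij
    obtain ⟨n, hn⟩ := (hW4 i j).mp hij
    rw [one_pow] at hn
    exact hn

/-- **[MOD-PL-INT]** the interior places of a sheet model. -/
theorem intPlacesStatement : IntPlacesStatement := by
  intro hD F _ _ M
  classical
  refine ⟨fun k z => if hz : z ∈ M.toCutGeometry.U₀ then (exists_places_at M hD hz).choose k
    else (exists_places_at M hD (base_mem_U₀ M.toCutGeometry)).choose k, ?_, ?_, ?_⟩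
  · intro k z hz h hh
    simp only [dif_pos hz]
    exact (exists_places_at M hD hz).choose_spec.1 k h hh
  · intro z hz P hP
    obtain ⟨k, hk⟩ := (exists_places_at M hD hz).choose_spec.2.1 P hP
    refine ⟨k, ?_⟩
    simp only [dif_pos hz]
    exact hk
  · intro z hz k k' hkk'
    simp only [dif_pos hz] at hkk'
    exact (exists_places_at M hD hz).choose_spec.2.2 hkk'

end

end Fermat.Agent.P5.helper71
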