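import Mathlib
import Fermat.Agent.P5.helper48_LocalBad
import Fermat.Agent.P5.helper38_Sector
import Fermat.Agent.P5.helper56_CombCore

/-!
# P5 / MONO-5B (helper77, task 698): nice multiplicative primitives at infinity

`localInf : helper27.LocalInf M` : on the sectors of the disc at infinity (`z = z₀ + w⁻¹`) the
nice multiplicative primitives are constant multiples `α i` of ONE analytic non-vanishing
function `G`, and the jump cochain along the sectors is the coboundary of the constants.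

Mirror of `helper48_LocalBad` (whose generic tools `exists_const_mul_of_generic`,
`exists_exp_primitive`, `eq_of_two_sides` are reused) in the coordinate `w`.

Reusable here:
* `inv_mem_sector_iff` : inversion maps `sector φ₁ φ₂` onto `sector (-φ₂) (-φ₁)`;
* `tendsto_inf`, `hasDerivAt_inf`, `eventually_inf_not_mem` : the map `w ↦ z₀ + w⁻¹`;
* `inf_const` : the sector step on an arbitrary open set `V` of the `w`-plane;
* `inf_jump` : the jump step across the `i`-th cut near infinity;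
* `sheetInf_succ`, `sheetInf_zero`, `sheetInf_last` : the sheets on consecutive sectors.
-/

set_option autoImplicit false

open AlgebraicCurve Filter Topology KaehlerDifferential Complex

namespace Fermat.Agent.P5.helper77

open Fermat.Agent.P5.helper25 Fermat.Agent.P5.helper4 Fermat.Agent.P5.helper27
  Fermat.Agent.P5.helper41

noncomputable section

/-! ### Inversion of sectors -/

theorem inv_polar (ρ φ : ℝ) :
    ((ρ : ℂ) * exp ((φ : ℂ) * I))⁻¹ = ((ρ⁻¹ : ℝ) : ℂ) * exp (((-φ : ℝ) : ℂ) * I) := by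
  rw [mul_inv, ← Complex.exp_neg, Complex.ofReal_inv, Complex.ofReal_neg, neg_mul]

theorem inv_mem_sector {φ₁ φ₂ : ℝ} {w : ℂ} (h : w ∈ sector φ₁ φ₂) :
    w⁻¹ ∈ sector (-φ₂) (-φ₁) := by
  obtain ⟨ρ, φ, hρ, hφ1, hφ2, rfl⟩ := h
  exact ⟨ρ⁻¹, -φ, inv_pos.2 hρ, by linarith, by linarith, inv_polar ρ φ⟩

theorem inv_mem_sector_iff {φ₁ φ₂ : ℝ} {w : ℂ} :
    w⁻¹ ∈ sector φ₁ φ₂ ↔ w ∈ sector (-φ₂) (-φ₁) := by
  constructor
  · intro h
    have := inv_mem_sector h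
    rwa [inv_inv] at this
  · intro h
    have := inv_mem_sector h
    rwa [neg_neg, neg_neg] at this

theorem exists_sectorInf_eq (G : CutGeometry) (i : Fin G.r) :
    ∃ φ₁ φ₂ : ℝ, G.sectorInf i = sector φ₁ φ₂ := by
  unfold CutGeometry.sectorInf
  split_ifs with h
  · exact ⟨_, _, rfl⟩
  · exact ⟨_, _, rfl⟩

/-! ### The map `w ↦ z₀ + w⁻¹` -/

/-- The map `w ↦ z₀ + w⁻¹` is locally injective away from `0`. -/
theorem tendsto_inf (z₀ : ℂ) {w₀ : ℂ} (hw₀ : w₀ ≠ 0) :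
    Tendsto (fun w : ℂ => z₀ + w⁻¹) (𝓝[≠] w₀) (𝓝[≠] (z₀ + w₀⁻¹)) := by
  rw [tendsto_nhdsWithin_iff]
  constructor
  · have hc : ContinuousAt (fun w : ℂ => z₀ + w⁻¹) w₀ :=
      continuousAt_const.add (continuousAt_inv₀ hw₀)
    exact hc.tendsto.mono_left nhdsWithin_le_nhds
  · filter_upwards [self_mem_nhdsWithin] with w hw
    simp only [Set.mem_compl_iff, Set.mem_singleton_iff]
    intro h
    exact hw (inv_injective (add_left_cancel h))

theorem hasDerivAt_inf (z₀ : ℂ) {w : ℂ} (hw : w ≠ 0) :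
    HasDerivAt (fun w : ℂ => z₀ + w⁻¹) (-(w⁻¹) ^ 2) w := by
  have h := (hasDerivAt_inv hw).const_add z₀
  refine h.congr_deriv ?_
  rw [inv_pow]

/-- Near `w = 0` the map `w ↦ z₀ + w⁻¹` avoids a given finite set. -/
theorem eventually_inf_not_mem (z₀ : ℂ) {S : Set ℂ} (hS : S.Finite) :
    ∀ᶠ w in 𝓝[≠] (0 : ℂ), z₀ + w⁻¹ ∉ S := by
  have h1 : ∀ z ∈ S, ∀ᶠ w in 𝓝[≠] (0 : ℂ), z₀ + w⁻¹ ≠ z := by
    intro z _
    by_cases hz : (z - z₀)⁻¹ = 0
    · filter_upwards [self_mem_nhdsWithin] with w hw h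
      have hw' : w ≠ 0 := hw
      apply hw'
      have h2 : w⁻¹ = z - z₀ := by rw [← h]; ring
      rw [← inv_inv w, h2, hz]
    · have h3 : ∀ᶠ w in 𝓝 (0 : ℂ), w ≠ (z - z₀)⁻¹ :=
        (continuous_id.continuousAt (x := (0 : ℂ))).eventually_ne (Ne.symm hz)
      filter_upwards [nhdsWithin_le_nhds h3] with w hw h
      apply hw
      have h2 : w⁻¹ = z - z₀ := by rw [← h]; ring
      rw [← inv_inv w, h2]
  have h2 := (Filter.eventually_all_finite hS).2 h1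
  filter_upwards [h2] with w hw hmem
  exact hw _ hmem rfl

/-! ### The places at infinity -/

variable {F : Type} [Field F] [Algebra ℂ F] (M : CutModel F)

/-- Differentials in `T₀` are regular at the places at infinity. -/
theorem hasLogPole_plInf_of_mem_T₀ {τ : Ω[F⁄ℂ]} (hτ : τ ∈ M.T₀) (k : Fin M.d) :
    HasLogPole (M.plInf k) τ 0 := by
  obtain ⟨D, hD, hDint⟩ := hτ
  have h0 : D (M.plInf k) = 0 := by
    by_contra hne
    obtain ⟨k', z, hz, hP⟩ := hDint _ hne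
    exact M.pl_ne_plInf k' z k hz hP.symm
  have := hD (M.plInf k)
  rwa [h0] at this

/-- **The sector step**: on an open set `V` of the `w`-plane, preconnected near `0`, which maps
into the cut plane, a nice multiplicative primitive is a constant multiple of `G`. -/
theorem inf_const {τ : Ω[F⁄ℂ]} {E : Fin M.d → ℂ → ℂ} (hE : M.IsMultPrim τ E)
    (hnice : IsNice M E) (k' : Fin M.d) {V : Set ℂ} (hVo : IsOpen V)
    (hVc : ∀ ε : ℝ, IsPreconnected (V ∩ Metric.ball (0 : ℂ) ε)) (hV0 : (0 : ℂ) ∉ V)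
    {Ψ G : ℂ → ℂ} {ε₀ : ℝ} (hε₀ : 0 < ε₀)
    (hG : ∀ s ∈ Metric.ball (0 : ℂ) ε₀, HasDerivAt G (Ψ s * G s) s) (hG0 : ∀ s, G s ≠ 0)
    (hU₀ : ∀ᶠ w in 𝓝[≠] (0 : ℂ), w ∈ V → M.z₀ + w⁻¹ ∈ M.toCutGeometry.U₀)
    (hΨ : ∀ᶠ w in 𝓝[≠] (0 : ℂ), w ∈ V →
      Ψ w = -(w⁻¹) ^ 2 * M.ev k' (M.coeff τ) (M.z₀ + w⁻¹)) :
    ∃ α : ℂˣ, ∀ᶠ w in 𝓝[≠] (0 : ℂ), w ∈ V → E k' (M.z₀ + w⁻¹) = (α : ℂ) * G w := by
  obtain ⟨S, hSfin, hS⟩ := hnice
  set ι : ℂ → ℂ := fun w => M.z₀ + w⁻¹ with hι_def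
  have hall : ∀ᶠ w in 𝓝[≠] (0 : ℂ), w ∈ Metric.ball (0 : ℂ) ε₀ ∧ ι w ∉ S ∧
      (w ∈ V → ι w ∈ M.toCutGeometry.U₀) ∧
      (w ∈ V → Ψ w = -(w⁻¹) ^ 2 * M.ev k' (M.coeff τ) (ι w)) := by
    filter_upwards [nhdsWithin_le_nhds (Metric.ball_mem_nhds (0 : ℂ) hε₀),
      eventually_inf_not_mem M.z₀ hSfin, hU₀, hΨ] with w h1 h2 h3 h4
    exact ⟨h1, h2, h3, h4⟩
  rw [eventually_nhdsWithin_iff, Metric.eventually_nhds_iff] at hall
  obtain ⟨ε, hε, hall⟩ := hall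
  have hUo : IsOpen (V ∩ Metric.ball (0 : ℂ) ε) := hVo.inter Metric.isOpen_ball
  have hUc : IsPreconnected (V ∩ Metric.ball (0 : ℂ) ε) := hVc ε
  have hne0 : ∀ w ∈ V ∩ Metric.ball (0 : ℂ) ε, w ≠ 0 := fun w hw h => hV0 (h ▸ hw.1)
  have hprop : ∀ w ∈ V ∩ Metric.ball (0 : ℂ) ε,
      w ∈ Metric.ball (0 : ℂ) ε₀ ∧ ι w ∉ S ∧ ι w ∈ M.toCutGeometry.U₀ ∧
        Ψ w = -(w⁻¹) ^ 2 * M.ev k' (M.coeff τ) (ι w) := by
    intro w hw
    obtain ⟨h1, h2, h3, h4⟩ := hall (Metric.mem_ball.1 hw.2) (hne0 w hw)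
    exact ⟨h1, h2, h3 hw.1, h4 hw.1⟩
  have hmain : ∃ α : ℂˣ, ∀ w ∈ V ∩ Metric.ball (0 : ℂ) ε, E k' (ι w) = (α : ℂ) * G w := by
    refine helper48.exists_const_mul_of_generic hUo hUc (f := fun w => E k' (ι w)) (G := G)
      (Φ := Ψ) ?_ ?_ ?_ ?_ ?_
    · intro w hw
      obtain ⟨-, h2, h3, -⟩ := hprop w hw
      have h5 : ContinuousAt (E k') (ι w) := (hS k' (ι w) h3 h2).1.continuousAt
      have h6 : ContinuousAt ι w := continuousAt_const.add (continuousAt_inv₀ (hne0 w hw))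
      exact ContinuousAt.comp (g := E k') (f := ι) h5 h6
    · intro w hw
      obtain ⟨-, h2, h3, -⟩ := hprop w hw
      exact (hS k' (ι w) h3 h2).2
    · intro w hw
      exact hG w (hprop w hw).1
    · intro w _
      exact hG0 w
    · intro w₀ hw₀
      obtain ⟨-, -, h3, -⟩ := hprop w₀ hw₀
      have h5 := (tendsto_inf M.z₀ (hne0 w₀ hw₀)).eventually ((hE k').2 (ι w₀) h3)
      filter_upwards [h5, nhdsWithin_le_nhds (hUo.mem_nhds hw₀)] with w hw1 hw2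
      obtain ⟨-, -, -, h4⟩ := hprop w hw2
      have hι : HasDerivAt ι (-(w⁻¹) ^ 2) w := hasDerivAt_inf M.z₀ (hne0 w hw2)
      have h6 : HasDerivAt (fun w => E k' (ι w))
          (M.ev k' (M.coeff τ) (ι w) * E k' (ι w) * (-(w⁻¹) ^ 2)) w :=
        HasDerivAt.comp w hw1.2 hι
      refine h6.congr_deriv ?_
      rw [h4]
      ring
  obtain ⟨α, hα⟩ := hmain
  refine ⟨α, ?_⟩
  rw [eventually_nhdsWithin_iff, Metric.eventually_nhds_iff]
  exact ⟨ε, hε, fun w hw _ hV => hα w ⟨hV, Metric.mem_ball.2 hw⟩⟩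

/-- **The jump step** across the `i`-th cut near infinity: the constant on the sector just
after the direction `θ i` (left side of the cut) is the jump constant times the constant on
the sector just before `θ i` (right side). -/
theorem inf_jump {E : Fin M.d → ℂ → ℂ} {c : Fin M.r → Fin M.d → Additive ℂˣ}
    (hjump : M.IsJumpOf E c) (i : Fin M.r) (kL : Fin M.d)
    {G : ℂ → ℂ} {ε₀ : ℝ} (hε₀ : 0 < ε₀)
    (hGan : ∀ s ∈ Metric.ball (0 : ℂ) ε₀, AnalyticAt ℂ G s) (hG0 : ∀ s, G s ≠ 0)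
    (αL αR : ℂˣ) {δ : ℝ} (hδ : 0 < δ) (hδπ : δ ≤ Real.pi)
    (hL : ∀ᶠ w in 𝓝[≠] (0 : ℂ),
      w⁻¹ ∈ sector (M.toCutGeometry.θ i) (M.toCutGeometry.θ i + δ) →
        E kL (M.z₀ + w⁻¹) = (αL : ℂ) * G w)
    (hR : ∀ᶠ w in 𝓝[≠] (0 : ℂ),
      w⁻¹ ∈ sector (M.toCutGeometry.θ i - δ) (M.toCutGeometry.θ i) →
        E (M.σ i kL) (M.z₀ + w⁻¹) = (αR : ℂ) * G w) :
    αL = Additive.toMul (c i kL) * αR := by
  set θ : ℝ := M.toCutGeometry.θ i with hθ
  set ι : ℂ → ℂ := fun w => M.z₀ + w⁻¹ with hι_def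
  have hall : ∀ᶠ w in 𝓝[≠] (0 : ℂ), w ∈ Metric.ball (0 : ℂ) ε₀ ∧
      (w⁻¹ ∈ sector θ (θ + δ) → E kL (ι w) = (αL : ℂ) * G w) ∧
      (w⁻¹ ∈ sector (θ - δ) θ → E (M.σ i kL) (ι w) = (αR : ℂ) * G w) := by
    filter_upwards [nhdsWithin_le_nhds (Metric.ball_mem_nhds (0 : ℂ) hε₀), hL, hR]
      with w h1 h2 h3
    exact ⟨h1, h2, h3⟩
  rw [eventually_nhdsWithin_iff, Metric.eventually_nhds_iff] at hall
  obtain ⟨ε, hε, hall⟩ := hall
  have hN : (0 : ℝ) < ‖M.b i - M.z₀‖ := norm_pos_iff.2 (sub_ne_zero.2 (M.b_ne i))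
  -- the parameter on the ray and the radius in the `v = w⁻¹`-plane
  obtain ⟨t, ht1, hρε⟩ : ∃ t : ℝ, 1 < t ∧ (t * ‖M.b i - M.z₀‖)⁻¹ < ε := by
    refine ⟨1 + 2 / (ε * ‖M.b i - M.z₀‖), ?_, ?_⟩
    · have : 0 < 2 / (ε * ‖M.b i - M.z₀‖) := by positivity
      linarith
    · have h1 : (1 + 2 / (ε * ‖M.b i - M.z₀‖)) * ‖M.b i - M.z₀‖ = ‖M.b i - M.z₀‖ + 2 / ε := by
        field_simp
      rw [h1, inv_lt_comm₀ (by positivity) hε]
      have h2 : ε⁻¹ < 2 / ε := by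
        rw [div_eq_mul_inv]
        have := inv_pos.2 hε
        linarith
      linarith
  set ρ : ℝ := t * ‖M.b i - M.z₀‖ with hρ_def
  have hρpos : 0 < ρ := mul_pos (by linarith) hN
  set w₀ : ℂ := ((ρ⁻¹ : ℝ) : ℂ) * exp (((-θ : ℝ) : ℂ) * I) with hw₀
  have hw₀norm : ‖w₀‖ = ρ⁻¹ := norm_polar (inv_pos.2 hρpos).le (-θ)
  have hw₀ne : w₀ ≠ 0 := by
    intro h
    rw [h, norm_zero] at hw₀norm
    have := inv_pos.2 hρpos
    linarith
  have hw₀ball : w₀ ∈ Metric.ball (0 : ℂ) ε := by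
    rw [Metric.mem_ball, dist_zero_right, hw₀norm]
    exact hρε
  have hιw₀ : ι w₀ = M.z₀ + (t : ℂ) * (M.b i - M.z₀) := by
    show M.z₀ + w₀⁻¹ = _
    rw [inf_polar M.toCutGeometry i t, hw₀, ← inv_polar, inv_inv]
  have ha : ι w₀ ∈ openRay M.z₀ (M.b i) := by
    rw [hιw₀]
    exact inf_mem_openRay M.toCutGeometry i ht1
  obtain ⟨g, hg, hgL, hgR⟩ := hjump i kL (ι w₀) ha
  have hιan : AnalyticAt ℂ ι w₀ := by
    have : AnalyticAt ℂ (fun w : ℂ => M.z₀ + w⁻¹) w₀ :=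
      analyticAt_const.add (analyticAt_inv hw₀ne)
    exact this
  have hH : MeromorphicAt (g ∘ ι) w₀ := hg.comp_analyticAt hιan
  have htend := tendsto_inf M.z₀ hw₀ne
  have hnear : ∀ᶠ w in 𝓝[≠] w₀, w ∈ Metric.ball (0 : ℂ) ε :=
    nhdsWithin_le_nhds (Metric.isOpen_ball.mem_nhds hw₀ball)
  have hGw₀ : AnalyticAt ℂ G w₀ :=
    hGan w₀ (hall (Metric.mem_ball.1 hw₀ball) hw₀ne).1
  have key : (αL : ℂ) = ((Additive.toMul (c i kL) : ℂˣ) : ℂ) * (αR : ℂ) := by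
    refine helper48.eq_of_two_sides (H := g ∘ ι) (G := G) (s₀ := w₀)
      (isOpen_sector (-θ - δ) (-θ)) (isOpen_sector (-θ) (-θ + δ))
      (frequently_mem_sector_right (inv_pos.2 hρpos) (by linarith))
      (frequently_mem_sector_left (inv_pos.2 hρpos) (by linarith)) hH hGw₀ hG0 ?_ ?_
    · filter_upwards [htend.eventually hgL, hnear] with w hw1 hw2 hsec
      have hw0 : w ≠ 0 := fun h => zero_not_mem_sector _ _ (h ▸ hsec)
      have hsec' : w⁻¹ ∈ sector θ (θ + δ) := by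
        rw [inv_mem_sector_iff]
        have h3 : -(θ + δ) = -θ - δ := by ring
        rw [h3]
        exact hsec
      have h1 : ι w ∈ leftSide M.z₀ (M.b i) :=
        inf_mem_leftSide M.toCutGeometry i (sector_mono le_rfl (by linarith) hsec')
      have h2 := (hall (Metric.mem_ball.1 hw2) hw0).2.1 hsec'
      show g (ι w) = _
      rw [hw1 h1, h2]
    · filter_upwards [htend.eventually hgR, hnear] with w hw1 hw2 hsec
      have hw0 : w ≠ 0 := fun h => zero_not_mem_sector _ _ (h ▸ hsec)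
      have hsec' : w⁻¹ ∈ sector (θ - δ) θ := by
        rw [inv_mem_sector_iff]
        have h3 : -(θ - δ) = -θ + δ := by ring
        rw [h3]
        exact hsec
      have h1 : ι w ∈ rightSide M.z₀ (M.b i) :=
        inf_mem_rightSide M.toCutGeometry i (sector_mono (by linarith) le_rfl hsec')
      have h2 := (hall (Metric.mem_ball.1 hw2) hw0).2.2 hsec'
      show g (ι w) = _
      rw [hw1 h1, h2, mul_assoc]
  apply Units.ext
  rw [Units.val_mul]
  exact key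

/-! ### The sheets on consecutive sectors -/

theorem take_prod_succ (i : Fin M.r) :
    ((List.ofFn M.σ).take ((i : ℕ) + 1)).prod = ((List.ofFn M.σ).take i).prod * M.σ i := by
  rw [List.prod_take_succ _ _ (by simp)]
  simp

theorem sheetInf_succ (i : Fin M.r) (h : (i : ℕ) + 1 < M.r) (k : Fin M.d) :
    M.σ ⟨i + 1, h⟩ (sheetInf M ⟨i + 1, h⟩ k) = sheetInf M i k := by
  unfold sheetInf
  rw [take_prod_succ M ⟨i + 1, h⟩, mul_inv_rev, Equiv.Perm.mul_apply]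
  exact (M.σ ⟨i + 1, h⟩).apply_symm_apply _

theorem sheetInf_zero (h : 0 < M.r) (k : Fin M.d) :
    M.σ ⟨0, h⟩ (sheetInf M ⟨0, h⟩ k) = k := by
  unfold sheetInf
  rw [take_prod_succ M ⟨0, h⟩]
  simp only [List.take_zero, List.prod_nil, one_mul]
  exact (M.σ ⟨0, h⟩).apply_symm_apply _

theorem sheetInf_last (h : 0 < M.r) (k : Fin M.d) :
    sheetInf M ⟨M.r - 1, by omega⟩ k = k := by
  unfold sheetInf
  have h2 : M.r - 1 + 1 = M.r := by omega
  simp only [h2]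
  rw [List.take_of_length_le (by simp), M.prod_σ]
  rfl

/-! ### The theorem -/

/-- **[MONO-5b]** the structure of nice primitives at infinity. -/
theorem localInf (M : CutModel F) : LocalInf M := by
  intro τ hτ E c hE hnice hjump k
  have hlog := hasLogPole_plInf_of_mem_T₀ M hτ k
  obtain ⟨Ψ, hΨ, hΨsec, hΨ0⟩ := helper9.dictInf M τ k hlog
  obtain ⟨ε₀, G, hε₀, hG, hG0, hGan⟩ := helper48.exists_exp_primitive hΨ
  have hex : ∀ i : Fin M.r, ∃ α : ℂˣ, ∀ᶠ w in 𝓝[≠] (0 : ℂ),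
      w⁻¹ ∈ M.toCutGeometry.sectorInf i →
        E (sheetInf M i k) (M.z₀ + w⁻¹) = (α : ℂ) * G w := by
    intro i
    obtain ⟨φ₁, φ₂, hsec⟩ := exists_sectorInf_eq M.toCutGeometry i
    have hV : {w : ℂ | w⁻¹ ∈ M.toCutGeometry.sectorInf i} = sector (-φ₂) (-φ₁) := by
      ext w
      show w⁻¹ ∈ M.toCutGeometry.sectorInf i ↔ _
      rw [hsec, inv_mem_sector_iff]
    refine inf_const M hE hnice (sheetInf M i k)
      (V := {w : ℂ | w⁻¹ ∈ M.toCutGeometry.sectorInf i}) ?_ ?_ ?_ hε₀ hG hG0 ?_ ?_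
    · rw [hV]
      exact isOpen_sector _ _
    · intro ε
      rw [hV]
      exact isPreconnected_sector_inter_ball _ _ _
    · rw [hV]
      exact zero_not_mem_sector _ _
    · exact Eventually.of_forall fun w hw => sectorInf_mem_U₀ M.toCutGeometry i hw
    · exact hΨsec i
  choose α hα using hex
  refine ⟨G, α, hGan 0 (Metric.mem_ball_self hε₀), hG0 0, hα, ?_, ?_, ?_⟩
  · -- no cuts
    intro hr
    have hU : M.toCutGeometry.U₀ = Set.univ := helper38.U₀_eq_univ_of_r_eq_zero _ hr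
    obtain ⟨a, ha⟩ := inf_const M hE hnice k (V := ({0}ᶜ : Set ℂ)) isOpen_compl_singleton
      (fun ε => by
        have h1 : ({0}ᶜ : Set ℂ) ∩ Metric.ball (0 : ℂ) ε = Metric.ball (0 : ℂ) ε \ {0} := by
          ext w
          simp [and_comm]
        rw [h1]
        exact helper17.isPreconnected_ball_diff_singleton 0 ε)
      (by simp) hε₀ hG hG0
      (Eventually.of_forall fun w _ => by rw [hU]; exact Set.mem_univ _)
      (by filter_upwards [hΨ0 hr] with w hw _; exact hw)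
    refine ⟨a, ?_⟩
    filter_upwards [ha, self_mem_nhdsWithin] with w hw hw0
    exact hw hw0
  · -- consecutive sectors
    intro i h
    obtain ⟨δ₁, hδ₁, hδ₁π, hsub₁⟩ :=
      exists_sector_subset_sectorInf_left M.toCutGeometry ⟨i + 1, h⟩
    obtain ⟨δ₂, hδ₂, hδ₂π, hsub₂⟩ :=
      exists_sector_subset_sectorInf_right M.toCutGeometry ⟨i + 1, h⟩
    rw [dif_neg (Nat.succ_ne_zero _)] at hsub₂
    have hprev : ∀ p : ((⟨(i : ℕ) + 1, h⟩ : Fin M.r) : ℕ) - 1 < M.r,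
        (⟨((⟨(i : ℕ) + 1, h⟩ : Fin M.r) : ℕ) - 1, p⟩ : Fin M.r) = i :=
      fun p => Fin.ext (by simp)
    rw [hprev] at hsub₂
    refine inf_jump M hjump ⟨i + 1, h⟩ (sheetInf M ⟨i + 1, h⟩ k) hε₀ hGan hG0 (α ⟨i + 1, h⟩)
      (α i) (δ := min δ₁ δ₂) (lt_min hδ₁ hδ₂) ((min_le_left _ _).trans hδ₁π) ?_ ?_
    · filter_upwards [hα ⟨i + 1, h⟩] with w hw hsec
      exact hw (hsub₁ (sector_mono le_rfl (by linarith [min_le_left δ₁ δ₂]) hsec))
    · filter_upwards [hα i] with w hw hsec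
      rw [sheetInf_succ]
      exact hw (hsub₂ (sector_mono (by linarith [min_le_right δ₁ δ₂]) le_rfl hsec))
  · -- the wrap-around sector
    intro h
    obtain ⟨δ₁, hδ₁, hδ₁π, hsub₁⟩ :=
      exists_sector_subset_sectorInf_left M.toCutGeometry ⟨0, h⟩
    obtain ⟨δ₂, hδ₂, hδ₂π, hsub₂⟩ :=
      exists_sector_subset_sectorInf_right M.toCutGeometry ⟨0, h⟩
    rw [dif_pos rfl] at hsub₂
    refine inf_jump M hjump ⟨0, h⟩ (sheetInf M ⟨0, h⟩ k) hε₀ hGan hG0 (α ⟨0, h⟩)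
      (α ⟨M.r - 1, by omega⟩) (δ := min δ₁ δ₂) (lt_min hδ₁ hδ₂)
      ((min_le_left _ _).trans hδ₁π) ?_ ?_
    · filter_upwards [hα ⟨0, h⟩] with w hw hsec
      exact hw (hsub₁ (sector_mono le_rfl (by linarith [min_le_left δ₁ δ₂]) hsec))
    · filter_upwards [hα ⟨M.r - 1, by omega⟩] with w hw hsec
      rw [sheetInf_zero]
      have h1 := hw (hsub₂ (sector_mono (by linarith [min_le_right δ₁ δ₂]) le_rfl hsec))
      rwa [sheetInf_last M h] at h1

end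

end Fermat.Agent.P5.helper77
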