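import Fermat.Agent.P5.helper4_CutGeom

/-!
# P5 / MOD-PL-INF (helper88, task 654): geometry and identity principle at infinity

* `plInf_z₀_mem_U₀`, `plInf_starConvex_U₀`, `plInf_isPreconnected_U₀` : the cut plane is
  star-shaped with respect to `z₀`;
* `lastSector`, `plInf_add_mem_U₀` : the wrap-around sector at infinity lies in the cut plane;
* `plInf_eventuallyEq` : two meromorphic germs at `w = 0` which, on the last sector at infinity,
  are given by generically equal functions of `z = z₀ + w⁻¹`, are equal;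
* `plInf_eventuallyEq_of_germ` : conversely, if the germs agree then the functions on the cut
  plane agree generically (identity principle on the connected cut plane).
-/

set_option autoImplicit false

open Filter Topology Complex

namespace Fermat.Agent.P5.helper88

open Fermat.Agent.P5.helper25 Fermat.Agent.P5.helper4

variable (G : CutGeometry)

/-! ### The cut plane is star-shaped -/

theorem plInf_z₀_mem_U₀ : G.z₀ ∈ G.U₀ := by
  intro i hi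
  obtain ⟨h1, h2⟩ := (mem_ray_iff (G.b_ne i)).1 hi
  have hb : G.b i - G.z₀ ≠ 0 := sub_ne_zero.2 (G.b_ne i)
  have h3 : (G.z₀ - G.b i) / (G.b i - G.z₀) = -1 := by
    field_simp
    ring
  rw [h3] at h1
  norm_num at h1

theorem plInf_starConvex_U₀ : StarConvex ℝ G.z₀ G.U₀ := by
  intro z hz a c ha hc hac i hi
  apply hz i
  have hb : G.b i - G.z₀ ≠ 0 := sub_ne_zero.2 (G.b_ne i)
  obtain ⟨s, hs, hs'⟩ := hi
  -- `a z₀ + c z = b + s (b - z₀)`, so `c (z - z₀) = (1 + s) (b - z₀)`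
  have ha' : (a : ℂ) = 1 - (c : ℂ) := by
    have : a = 1 - c := by linarith
    rw [this]
    push_cast
    ring
  have h1 : (c : ℂ) * (z - G.z₀) = ((1 + s : ℝ) : ℂ) * (G.b i - G.z₀) := by
    have h2 : a • G.z₀ + c • z = G.b i + (s : ℂ) * (G.b i - G.z₀) := hs'
    rw [Complex.real_smul, Complex.real_smul, ha'] at h2
    push_cast
    linear_combination h2
  have hc0 : c ≠ 0 := by
    rintro rfl
    have h3 : ((1 + s : ℝ) : ℂ) * (G.b i - G.z₀) = 0 := by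
      rw [← h1]
      simp
    rcases mul_eq_zero.1 h3 with h4 | h4
    · have : (1 + s : ℝ) = 0 := by exact_mod_cast h4
      linarith
    · exact hb h4
  have hcpos : 0 < c := lt_of_le_of_ne hc (Ne.symm hc0)
  have hc1 : c ≤ 1 := by linarith
  refine ⟨(1 + s) / c - 1, ?_, ?_⟩
  · rw [sub_nonneg, le_div_iff₀ hcpos]
    linarith
  · have hc0' : (c : ℂ) ≠ 0 := by exact_mod_cast hc0
    have h5 : z - G.z₀ = ((1 + s : ℝ) : ℂ) / (c : ℂ) * (G.b i - G.z₀) := by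
      field_simp
      rw [mul_comm]
      exact h1
    push_cast at h5 ⊢
    linear_combination h5

theorem plInf_isPreconnected_U₀ : IsPreconnected G.U₀ :=
  ((plInf_starConvex_U₀ G).isPathConnected (plInf_z₀_mem_U₀ G)).isConnected.isPreconnected

/-! ### The last sector at infinity -/

/-- the index of the last (wrap-around) sector -/
def lastIdx (hr : 0 < G.r) : Fin G.r := ⟨G.r - 1, by omega⟩

theorem sectorInf_lastIdx (hr : 0 < G.r) :
    G.sectorInf (lastIdx G hr) =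
      sector (G.θ (lastIdx G hr)) (G.θ ⟨0, hr⟩ + 2 * Real.pi) := by
  unfold CutGeometry.sectorInf
  rw [dif_neg]
  simp only [lastIdx]
  omega

/-- points in the wrap-around sector at infinity lie in the cut plane -/
theorem plInf_add_mem_U₀ (hr : 0 < G.r) {v : ℂ} (hv : v ∈ G.sectorInf (lastIdx G hr)) :
    G.z₀ + v ∈ G.U₀ := by
  rw [sectorInf_lastIdx] at hv
  intro j hj
  obtain ⟨ρ, φ, hρ, hφ1, hφ2, rfl⟩ := hv
  obtain ⟨R, hR, h1⟩ := exists_of_mem_ray (G.b_ne j) hj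
  rw [add_sub_cancel_left] at h1
  obtain ⟨n, hn⟩ := exists_int_of_polar_eq hρ hR h1
  have hmono := CutGeom.θ_strictMono G
  have h0 : G.θ ⟨0, hr⟩ ≤ G.θ j := hmono.monotone (Fin.mk_le_of_le_val (Nat.zero_le _))
  have hlast : G.θ j ≤ G.θ (lastIdx G hr) :=
    hmono.monotone (Fin.le_def.2 (by have := j.2; simp only [lastIdx]; omega))
  refine no_int_between (x := φ - Complex.arg (G.b j - G.z₀)) ?_ ?_ ⟨n, hn⟩
  · change 0 < φ - G.θ j
    linarith
  · change φ - G.θ j < 2 * Real.pi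
    linarith

/-- the open set of parameters `w` near `0` whose inverse lies in the last sector -/
def lastSet (hr : 0 < G.r) : Set ℂ := {w | w ≠ 0 ∧ w⁻¹ ∈ G.sectorInf (lastIdx G hr)}

/-- the middle direction and half-angle of the last sector -/
theorem exists_wedge_subset (hr : 0 < G.r) :
    ∃ φ₀ δ : ℝ, 0 < δ ∧ wedge φ₀ δ ⊆ G.sectorInf (lastIdx G hr) := by
  rw [sectorInf_lastIdx]
  set θl := G.θ (lastIdx G hr) with hθl
  set θ0 := G.θ ⟨0, hr⟩ with hθ0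
  have hθ0m := CutGeom.θ_mem G ⟨0, hr⟩
  have hθlm := CutGeom.θ_mem G (lastIdx G hr)
  refine ⟨(θl + θ0 + 2 * Real.pi) / 2, (θ0 + 2 * Real.pi - θl) / 2, ?_, ?_⟩
  · have h1 : -Real.pi < θ0 := hθ0m.1
    have h2 : θl ≤ Real.pi := hθlm.2
    linarith
  · have h := wedge_subset_sector ((θl + θ0 + 2 * Real.pi) / 2) ((θ0 + 2 * Real.pi - θl) / 2)
    have h1 : (θl + θ0 + 2 * Real.pi) / 2 - (θ0 + 2 * Real.pi - θl) / 2 = θl := by ring
    have h2 : (θl + θ0 + 2 * Real.pi) / 2 + (θ0 + 2 * Real.pi - θl) / 2 = θ0 + 2 * Real.pi := by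
      ring
    rwa [h1, h2] at h

/-- an open subset of `lastSet` accumulating at `0` -/
theorem exists_open_subset_lastSet (hr : 0 < G.r) :
    ∃ S : Set ℂ, IsOpen S ∧ S ⊆ lastSet G hr ∧ ∃ᶠ w in 𝓝[≠] (0 : ℂ), w ∈ S := by
  obtain ⟨φ₀, δ, hδ, hsub⟩ := exists_wedge_subset G hr
  refine ⟨({0}ᶜ : Set ℂ) ∩ (fun w : ℂ => w⁻¹) ⁻¹' wedge φ₀ δ, ?_, ?_, ?_⟩
  · exact (continuousOn_inv₀ (G₀ := ℂ)).isOpen_inter_preimage isOpen_compl_singleton
      (isOpen_wedge _ _)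
  · intro w hw
    exact ⟨hw.1, hsub hw.2⟩
  · refine frequently_of_line (c := 0) (v := exp (-((φ₀ : ℝ) : ℂ) * I)) (Complex.exp_ne_zero _) ?_
    filter_upwards [self_mem_nhdsWithin] with t ht
    have ht' : (0 : ℝ) < t := ht
    rw [zero_add]
    refine ⟨?_, ?_⟩
    · exact mul_ne_zero (by exact_mod_cast ht'.ne') (Complex.exp_ne_zero _)
    · show ((t : ℂ) * exp (-((φ₀ : ℝ) : ℂ) * I))⁻¹ ∈ wedge φ₀ δ
      have h2 : ((t : ℂ) * exp (-((φ₀ : ℝ) : ℂ) * I))⁻¹ =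
          ((t⁻¹ : ℝ) : ℂ) * exp (((φ₀ : ℝ) : ℂ) * I) := by
        rw [mul_inv, ← Complex.exp_neg]
        push_cast
        congr 2
        ring
      rw [h2]
      exact mem_wedge_of_pos hδ (inv_pos.2 ht')

/-! ### The chart at infinity -/

/-- the chart `w ↦ z₀ + w⁻¹` tends to `𝓝[≠]` of its value along `𝓝[≠] w`, `w ≠ 0` -/
theorem tendsto_chartInf {w : ℂ} (hw : w ≠ 0) :
    Tendsto (fun w : ℂ => G.z₀ + w⁻¹) (𝓝[≠] w) (𝓝[≠] (G.z₀ + w⁻¹)) := by
  have hc : ContinuousAt (fun w : ℂ => G.z₀ + w⁻¹) w :=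
    continuousAt_const.add (continuousAt_inv₀ hw)
  refine tendsto_nhdsWithin_iff.2 ⟨hc.tendsto.mono_left nhdsWithin_le_nhds, ?_⟩
  filter_upwards [self_mem_nhdsWithin] with w' hw' hcon
  apply hw'
  have h1 : w'⁻¹ = w⁻¹ := add_left_cancel hcon
  exact inv_injective h1

/-- **Identity principle at infinity.** -/
theorem plInf_eventuallyEq (hr : 0 < G.r) {H₁ H₂ E₁ E₂ : ℂ → ℂ}
    (hH₁ : MeromorphicAt H₁ 0) (hH₂ : MeromorphicAt H₂ 0)
    (h₁ : ∀ᶠ w in 𝓝[≠] (0 : ℂ), w⁻¹ ∈ G.sectorInf (lastIdx G hr) → H₁ w = E₁ (G.z₀ + w⁻¹))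
    (h₂ : ∀ᶠ w in 𝓝[≠] (0 : ℂ), w⁻¹ ∈ G.sectorInf (lastIdx G hr) → H₂ w = E₂ (G.z₀ + w⁻¹))
    (hE : ∀ z ∈ G.U₀, E₁ =ᶠ[𝓝[≠] z] E₂) : H₁ =ᶠ[𝓝[≠] 0] H₂ := by
  obtain ⟨S, hSo, hSsub, hSfreq⟩ := exists_open_subset_lastSet G hr
  refine eventuallyEq_of_frequently hH₁ hH₂ ?_
  have h3 := eventually_eventually_punctured (h₁.and h₂)
  refine (hSfreq.and_eventually h3).mono ?_
  rintro w ⟨hwS, hw⟩
  have hw0 : w ≠ 0 := (hSsub hwS).1
  have hzU : G.z₀ + w⁻¹ ∈ G.U₀ := plInf_add_mem_U₀ G hr (hSsub hwS).2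
  have h4 : ∀ᶠ w' in 𝓝 w, w' ∈ S := hSo.mem_nhds hwS
  have h5 := (tendsto_chartInf G hw0).eventually (hE _ hzU)
  filter_upwards [nhdsWithin_le_nhds hw, nhdsWithin_le_nhds h4, h5] with w' hw'1 hw'2 hw'3
  rw [hw'1.1 (hSsub hw'2).2, hw'1.2 (hSsub hw'2).2]
  exact hw'3

/-- **Converse**: if the germs at infinity agree, the functions agree generically on the cut
plane. -/
theorem plInf_eventuallyEq_of_germ (hr : 0 < G.r) {H₁ H₂ E₁ E₂ : ℂ → ℂ}
    (hE₁ : MeromorphicOn E₁ G.U₀) (hE₂ : MeromorphicOn E₂ G.U₀)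
    (h₁ : ∀ᶠ w in 𝓝[≠] (0 : ℂ), w⁻¹ ∈ G.sectorInf (lastIdx G hr) → H₁ w = E₁ (G.z₀ + w⁻¹))
    (h₂ : ∀ᶠ w in 𝓝[≠] (0 : ℂ), w⁻¹ ∈ G.sectorInf (lastIdx G hr) → H₂ w = E₂ (G.z₀ + w⁻¹))
    (hH : H₁ =ᶠ[𝓝[≠] 0] H₂) : ∀ z ∈ G.U₀, E₁ =ᶠ[𝓝[≠] z] E₂ := by
  obtain ⟨S, hSo, hSsub, hSfreq⟩ := exists_open_subset_lastSet G hr
  have h3 := eventually_eventually_punctured ((h₁.and h₂).and hH)
  obtain ⟨w, hwS, hw⟩ := (hSfreq.and_eventually h3).exists
  have hw0 : w ≠ 0 := (hSsub hwS).1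
  have hzU : G.z₀ + w⁻¹ ∈ G.U₀ := plInf_add_mem_U₀ G hr (hSsub hwS).2
  set z₁ : ℂ := G.z₀ + w⁻¹ with hz₁
  have hz₁ne : z₁ - G.z₀ ≠ 0 := by
    rw [hz₁, add_sub_cancel_left]
    exact inv_ne_zero hw0
  -- `E₁ = E₂` near `z₁`
  have hinv : Tendsto (fun z : ℂ => (z - G.z₀)⁻¹) (𝓝 z₁) (𝓝 w) := by
    have hc : ContinuousAt (fun z : ℂ => (z - G.z₀)⁻¹) z₁ :=
      (continuousAt_id.sub continuousAt_const).inv₀ hz₁ne
    have hv : (z₁ - G.z₀)⁻¹ = w := by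
      simp only [hz₁, add_sub_cancel_left, inv_inv]
    have := hc.tendsto
    simp only [hv] at this
    exact this
  have h4 : ∀ᶠ w' in 𝓝 w, w' ∈ S := hSo.mem_nhds hwS
  have h5 : ∀ᶠ z in 𝓝 z₁, z - G.z₀ ≠ 0 :=
    (continuousAt_id.sub continuousAt_const).eventually_ne hz₁ne
  have hnear : ∀ᶠ z in 𝓝 z₁, E₁ z = E₂ z := by
    filter_upwards [hinv.eventually hw, hinv.eventually h4, h5] with z hz1 hz2 hz3
    have hzz : G.z₀ + ((z - G.z₀)⁻¹)⁻¹ = z := by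
      rw [inv_inv]
      ring
    have e1 := hz1.1.1 (hSsub hz2).2
    have e2 := hz1.1.2 (hSsub hz2).2
    rw [hzz] at e1 e2
    rw [← e1, ← e2]
    exact hz1.2
  have hsub : MeromorphicOn (E₁ - E₂) G.U₀ := hE₁.sub hE₂
  have htop₁ : meromorphicOrderAt (E₁ - E₂) z₁ = ⊤ := by
    rw [meromorphicOrderAt_eq_top_iff]
    filter_upwards [nhdsWithin_le_nhds hnear] with z hz
    simp [hz]
  intro z hz
  have htop : meromorphicOrderAt (E₁ - E₂) z = ⊤ := by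
    by_contra hne
    exact (hsub.meromorphicOrderAt_ne_top_of_isPreconnected (plInf_isPreconnected_U₀ G) hz hzU
      hne) htop₁
  rw [meromorphicOrderAt_eq_top_iff] at htop
  filter_upwards [htop] with z' hz'
  have : E₁ z' - E₂ z' = 0 := hz'
  exact sub_eq_zero.1 this

end Fermat.Agent.P5.helper88
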