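import Fermat.Agent.P5.helper9_LiftCore
import Fermat.Agent.P5.helper37_ModStatements

/-!
# P5 / MOD-LIFT (helper9, task 647)

`liftStatement : helper37.LiftStatement`, verbatim, unconditional.
-/

set_option autoImplicit false

namespace Fermat.Agent.P5.helper9

/-- the data of a presentation, unbundled -/
theorem liftData_of_presentation {F : Type} [Field F] [Algebra ℂ F]
    (p : helper37.Presentation F) : LiftData p.x p.y p.f where
  x_transcendental := p.x_transcendental
  x_finite := p.x_finite
  f_monic := p.f_monic
  f_natDegree := p.f_natDegree
  f_root := p.f_root
  gen := p.gen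

/-- **[MOD-LIFT]** the universal property of a presentation, verbatim. -/
theorem liftStatement : helper37.LiftStatement :=
  fun _ _ _ p _ _ _ _ _ hξ hγ => (liftData_of_presentation p).exists_algHom hξ hγ

end Fermat.Agent.P5.helper9
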