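import Mathlib

/-!
# P5 / MOD-LIFT, core (helper9, task 647): the universal property of a presentation

`F = ℂ(x)[y]/(f)` with `x` transcendental, `f ∈ ℂ[X][Y]` monic in `Y` of degree `[F : ℂ(x)]`,
`f(x, y) = 0`, and `1, y, …, y^(d-1)` generating `F` over `ℂ(x)` (`LiftData`).  For a field `L/ℂ`
with `ξ` transcendental and `f(ξ, γ) = 0` there is a `ℂ`-algebra homomorphism `F → L` with
`x ↦ ξ`, `y ↦ γ`.

Proof (elementwise, no localisation API): the powers of `y` are linearly independent over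
`ℂ(x)` (spanning family of cardinality the dimension), hence the kernel of evaluation at `(x, y)`
is `(f)` (division by the monic `f`) and is contained in the kernel of evaluation at `(ξ, γ)`;
the lift is the functional relation `q(x) h = G(x, y)`, `q(ξ) ℓ = G(ξ, γ)`.  Mathlib only.
-/

set_option autoImplicit false

namespace Fermat.Agent.P5.helper9

open Polynomial

section Core

variable {F : Type*} [Field F] [Algebra ℂ F]

theorem lift_aeval_mem_adjoin (x : F) (q : ℂ[X]) :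
    aeval x q ∈ IntermediateField.adjoin ℂ {x} :=
  IntermediateField.algebra_adjoin_le_adjoin ℂ {x} (aeval_mem_adjoin_singleton ℂ x)

/-- The data of a presentation (fields of `helper37.Presentation`, unbundled). -/
structure LiftData (x y : F) (f : Polynomial (Polynomial ℂ)) : Prop where
  x_transcendental : Transcendental ℂ x
  x_finite : FiniteDimensional (IntermediateField.adjoin ℂ {x}) F
  f_monic : f.Monic
  f_natDegree : f.natDegree = Module.finrank (IntermediateField.adjoin ℂ {x}) F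
  f_root : eval₂ ((aeval x : ℂ[X] →ₐ[ℂ] F) : ℂ[X] →+* F) y f = 0
  gen : ∀ h : F, ∃ (p : Fin f.natDegree → ℂ[X]) (q : ℂ[X]), q ≠ 0 ∧
    aeval x q * h = ∑ j, aeval x (p j) * y ^ (j : ℕ)

variable {x y : F} {f : Polynomial (Polynomial ℂ)} (D : LiftData x y f)

include D

theorem LiftData.aeval_ne_zero {q : ℂ[X]} (hq : q ≠ 0) : aeval x q ≠ 0 :=
  fun h0 => hq (transcendental_iff.1 D.x_transcendental q h0)

theorem LiftData.span_pow :
    ⊤ ≤ Submodule.span (IntermediateField.adjoin ℂ {x})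
      (Set.range fun j : Fin f.natDegree => y ^ (j : ℕ)) := by
  intro h _
  obtain ⟨P, q, hq, hPq⟩ := D.gen h
  have hqx : aeval x q ≠ 0 := D.aeval_ne_zero hq
  have key : h = ∑ j : Fin f.natDegree,
      ((⟨aeval x (P j), lift_aeval_mem_adjoin x (P j)⟩ : IntermediateField.adjoin ℂ {x}) /
        ⟨aeval x q, lift_aeval_mem_adjoin x q⟩) • y ^ (j : ℕ) := by
    have e : ∀ j : Fin f.natDegree,
        ((⟨aeval x (P j), lift_aeval_mem_adjoin x (P j)⟩ : IntermediateField.adjoin ℂ {x}) /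
          ⟨aeval x q, lift_aeval_mem_adjoin x q⟩) • y ^ (j : ℕ) =
        (aeval x q)⁻¹ * (aeval x (P j) * y ^ (j : ℕ)) := by
      intro j
      rw [Algebra.smul_def, IntermediateField.algebraMap_apply, IntermediateField.coe_div]
      simp only []
      field_simp
    rw [Finset.sum_congr rfl fun j _ => e j, ← Finset.mul_sum, ← hPq, ← mul_assoc,
      inv_mul_cancel₀ hqx, one_mul]
  rw [key]
  exact Submodule.sum_mem _ fun j _ =>
    Submodule.smul_mem _ _ (Submodule.subset_span ⟨j, rfl⟩)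

theorem LiftData.linearIndependent_pow :
    LinearIndependent (IntermediateField.adjoin ℂ {x})
      (fun j : Fin f.natDegree => y ^ (j : ℕ)) := by
  have := D.x_finite
  exact linearIndependent_of_top_le_span_of_card_eq_finrank D.span_pow
    (by rw [Fintype.card_fin, D.f_natDegree])

/-- a polynomial of `Y`-degree `< deg f` vanishing at `(x, y)` is zero -/
theorem LiftData.eq_zero_of_eval₂ (r : Polynomial (Polynomial ℂ)) (hdeg : r.degree < f.degree)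
    (hr : eval₂ ((aeval x : ℂ[X] →ₐ[ℂ] F) : ℂ[X] →+* F) y r = 0) : r = 0 := by
  by_contra hr0
  have hnat : r.natDegree < f.natDegree := natDegree_lt_natDegree hr0 hdeg
  rw [eval₂_eq_sum_range' _ hnat, Finset.sum_range] at hr
  have hli := D.linearIndependent_pow
  rw [Fintype.linearIndependent_iff] at hli
  have h0 := hli (fun j => ⟨aeval x (r.coeff j), lift_aeval_mem_adjoin x _⟩) (by
    rw [← hr]
    refine Finset.sum_congr rfl fun j _ => ?_
    rw [Algebra.smul_def, IntermediateField.algebraMap_apply]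
    rfl)
  apply hr0
  ext1 i
  rw [coeff_zero]
  by_cases hi : i < f.natDegree
  · have := congrArg Subtype.val (h0 ⟨i, hi⟩)
    exact transcendental_iff.1 D.x_transcendental _ this
  · exact coeff_eq_zero_of_natDegree_lt (by omega)

variable {L : Type*} [Field L] [Algebra ℂ L] {ξ γ : L}

/-- the kernel of evaluation at `(x, y)` is contained in the kernel of evaluation at
`(ξ, γ)` -/
theorem LiftData.eval₂_eq_zero
    (hγ : eval₂ ((aeval ξ : ℂ[X] →ₐ[ℂ] L) : ℂ[X] →+* L) γ f = 0)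
    (G : Polynomial (Polynomial ℂ))
    (hG : eval₂ ((aeval x : ℂ[X] →ₐ[ℂ] F) : ℂ[X] →+* F) y G = 0) :
    eval₂ ((aeval ξ : ℂ[X] →ₐ[ℂ] L) : ℂ[X] →+* L) γ G = 0 := by
  have hmod := modByMonic_add_div G f
  have hr : eval₂ ((aeval x : ℂ[X] →ₐ[ℂ] F) : ℂ[X] →+* F) y (G %ₘ f) = 0 := by
    have := congrArg (eval₂ ((aeval x : ℂ[X] →ₐ[ℂ] F) : ℂ[X] →+* F) y) hmod
    rw [eval₂_add, eval₂_mul, D.f_root, zero_mul, add_zero, hG] at this
    exact this
  have hr0 : G %ₘ f = 0 := D.eq_zero_of_eval₂ _ (degree_modByMonic_lt _ D.f_monic) hr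
  rw [← hmod, hr0, zero_add, eval₂_mul, hγ, zero_mul]

/-! ### The lift as a functional relation -/

/-- the graph of the lift: `q(x) h = G(x, y)` and `q(ξ) ℓ = G(ξ, γ)` -/
def LiftRel (x y : F) (ξ γ : L) (h : F) (ℓ : L) : Prop :=
  ∃ (G : Polynomial (Polynomial ℂ)) (q : ℂ[X]), q ≠ 0 ∧
    eval₂ ((aeval x : ℂ[X] →ₐ[ℂ] F) : ℂ[X] →+* F) y G = aeval x q * h ∧
    eval₂ ((aeval ξ : ℂ[X] →ₐ[ℂ] L) : ℂ[X] →+* L) γ G = aeval ξ q * ℓ

omit D in
theorem liftRel_aeval_ne_zero (hξ : Transcendental ℂ ξ) {q : ℂ[X]} (hq : q ≠ 0) :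
    aeval ξ q ≠ 0 :=
  fun h0 => hq (transcendental_iff.1 hξ q h0)

theorem LiftData.exists_liftRel (hξ : Transcendental ℂ ξ) (h : F) :
    ∃ ℓ : L, LiftRel x y ξ γ h ℓ := by
  obtain ⟨P, q, hq, hPq⟩ := D.gen h
  refine ⟨(aeval ξ q)⁻¹ * eval₂ ((aeval ξ : ℂ[X] →ₐ[ℂ] L) : ℂ[X] →+* L) γ
    (∑ j : Fin f.natDegree, C (P j) * X ^ (j : ℕ)),
    ∑ j : Fin f.natDegree, C (P j) * X ^ (j : ℕ), q, hq, ?_, ?_⟩
  · rw [hPq, eval₂_finsetSum]
    refine Finset.sum_congr rfl fun j _ => ?_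
    rw [eval₂_mul, eval₂_C, eval₂_pow, eval₂_X]
    rfl
  · rw [← mul_assoc, mul_inv_cancel₀ (liftRel_aeval_ne_zero hξ hq), one_mul]

theorem LiftData.liftRel_unique (hξ : Transcendental ℂ ξ)
    (hγ : eval₂ ((aeval ξ : ℂ[X] →ₐ[ℂ] L) : ℂ[X] →+* L) γ f = 0) {h : F} {ℓ ℓ' : L}
    (h1 : LiftRel x y ξ γ h ℓ) (h2 : LiftRel x y ξ γ h ℓ') : ℓ = ℓ' := by
  obtain ⟨G, q, hq, hG, hG'⟩ := h1
  obtain ⟨G₂, q₂, hq₂, hG₂, hG₂'⟩ := h2
  have hker : eval₂ ((aeval x : ℂ[X] →ₐ[ℂ] F) : ℂ[X] →+* F) y (G * C q₂ - G₂ * C q) = 0 := by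
    rw [eval₂_sub, eval₂_mul, eval₂_mul, eval₂_C, eval₂_C, hG, hG₂]
    simp only [RingHom.coe_coe]
    ring
  have := D.eval₂_eq_zero hγ _ hker
  rw [eval₂_sub, eval₂_mul, eval₂_mul, eval₂_C, eval₂_C, hG', hG₂'] at this
  simp only [RingHom.coe_coe] at this
  have hq' := liftRel_aeval_ne_zero hξ hq
  have hq₂' := liftRel_aeval_ne_zero hξ hq₂
  have e : aeval ξ q * aeval ξ q₂ * (ℓ - ℓ') = 0 := by linear_combination this
  rcases mul_eq_zero.1 e with h0 | h0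
  · exact absurd h0 (mul_ne_zero hq' hq₂')
  · exact sub_eq_zero.1 h0

omit D in
theorem liftRel_add {h₁ h₂ : F} {ℓ₁ ℓ₂ : L} (r₁ : LiftRel x y ξ γ h₁ ℓ₁)
    (r₂ : LiftRel x y ξ γ h₂ ℓ₂) : LiftRel x y ξ γ (h₁ + h₂) (ℓ₁ + ℓ₂) := by
  obtain ⟨G₁, q₁, hq₁, hG₁, hG₁'⟩ := r₁
  obtain ⟨G₂, q₂, hq₂, hG₂, hG₂'⟩ := r₂
  refine ⟨G₁ * C q₂ + G₂ * C q₁, q₁ * q₂, mul_ne_zero hq₁ hq₂, ?_, ?_⟩
  · rw [eval₂_add, eval₂_mul, eval₂_mul, eval₂_C, eval₂_C, hG₁, hG₂, map_mul]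
    simp only [RingHom.coe_coe]
    ring
  · rw [eval₂_add, eval₂_mul, eval₂_mul, eval₂_C, eval₂_C, hG₁', hG₂', map_mul]
    simp only [RingHom.coe_coe]
    ring

omit D in
theorem liftRel_mul {h₁ h₂ : F} {ℓ₁ ℓ₂ : L} (r₁ : LiftRel x y ξ γ h₁ ℓ₁)
    (r₂ : LiftRel x y ξ γ h₂ ℓ₂) : LiftRel x y ξ γ (h₁ * h₂) (ℓ₁ * ℓ₂) := by
  obtain ⟨G₁, q₁, hq₁, hG₁, hG₁'⟩ := r₁
  obtain ⟨G₂, q₂, hq₂, hG₂, hG₂'⟩ := r₂
  refine ⟨G₁ * G₂, q₁ * q₂, mul_ne_zero hq₁ hq₂, ?_, ?_⟩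
  · rw [eval₂_mul, hG₁, hG₂, map_mul]
    ring
  · rw [eval₂_mul, hG₁', hG₂', map_mul]
    ring

omit D in
theorem liftRel_algebraMap (c : ℂ) :
    LiftRel x y ξ γ (algebraMap ℂ F c) (algebraMap ℂ L c) := by
  refine ⟨C (C c), 1, one_ne_zero, ?_, ?_⟩
  · rw [eval₂_C, map_one, one_mul]
    simp
  · rw [eval₂_C, map_one, one_mul]
    simp

omit D in
theorem liftRel_x : LiftRel x y ξ γ x ξ := by
  refine ⟨C X, 1, one_ne_zero, ?_, ?_⟩
  · rw [eval₂_C, map_one, one_mul]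
    simp
  · rw [eval₂_C, map_one, one_mul]
    simp

omit D in
theorem liftRel_y : LiftRel x y ξ γ y γ := by
  refine ⟨X, 1, one_ne_zero, ?_, ?_⟩
  · rw [eval₂_X, map_one, one_mul]
  · rw [eval₂_X, map_one, one_mul]

/-- **the universal property**: the `ℂ`-algebra homomorphism `F → L` with `x ↦ ξ`, `y ↦ γ`. -/
theorem LiftData.exists_algHom (hξ : Transcendental ℂ ξ)
    (hγ : eval₂ ((aeval ξ : ℂ[X] →ₐ[ℂ] L) : ℂ[X] →+* L) γ f = 0) :
    ∃ Φ : F →ₐ[ℂ] L, Φ x = ξ ∧ Φ y = γ := by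
  choose φ hφ using fun h : F => D.exists_liftRel (γ := γ) hξ h
  have huniq : ∀ (h : F) (ℓ : L), LiftRel x y ξ γ h ℓ → φ h = ℓ := fun h ℓ hr =>
    D.liftRel_unique hξ hγ (hφ h) hr
  have h1 : φ 1 = 1 := by
    have := huniq _ _ (liftRel_algebraMap (x := x) (y := y) (ξ := ξ) (γ := γ) 1)
    simpa using this
  have h0 : φ 0 = 0 := by
    have := huniq _ _ (liftRel_algebraMap (x := x) (y := y) (ξ := ξ) (γ := γ) 0)
    simpa using this
  refine ⟨{ toFun := φ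
            map_one' := h1
            map_mul' := fun a b => huniq _ _ (liftRel_mul (hφ a) (hφ b))
            map_zero' := h0
            map_add' := fun a b => huniq _ _ (liftRel_add (hφ a) (hφ b))
            commutes' := fun c => huniq _ _ (liftRel_algebraMap c) }, ?_, ?_⟩
  · exact huniq _ _ liftRel_x
  · exact huniq _ _ liftRel_y

end Core

end Fermat.Agent.P5.helper9
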